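import Fermat.Agent.Ihara.LevelMatrices

/-!
# Level lowering at `p`: the eigensystem modulo `p`
-/

set_option autoImplicit false

noncomputable section

namespace Fermat.Agent.LevelLowerP

open Matrix
open Fermat.Agent.Cosets (homRank)
open Fermat.Agent.Ihara (qPrime)

theorem homRank_one : homRank 1 = 0 := by
  have h := Cosets.homRank_eq 1
  have hu : ∀ x : ZMod 1, x = 0 := fun x => Subsingleton.elim _ _
  have h2 : ModularCurve.nuTwo 1 = 1 := by
    rw [ModularCurve.nuTwo, Nat.card_eq_one_iff_unique]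
    exact ⟨⟨fun a b => Subtype.ext (Subsingleton.elim _ _)⟩, ⟨⟨0, hu _⟩⟩⟩
  have h3 : ModularCurve.nuThree 1 = 1 := by
    rw [ModularCurve.nuThree, Nat.card_eq_one_iff_unique]
    exact ⟨⟨fun a b => Subtype.ext (Subsingleton.elim _ _)⟩, ⟨⟨0, hu _⟩⟩⟩
  have hc : ModularCurve.cuspCount 1 = 1 := by decide
  rw [ModularCurve.genusFormula, h2, h3, hc, ModularCurve.dedekindPsi_one] at h
  norm_num at h
  exact h

/-- The eigenvalues of the eigensystem of `W` modulo `p`, with `ε` at `p`. -/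
def eigVal (W : WeierstrassCurve ℤ) (p : ℕ) (ε : ℤ) (q : Nat.Primes) : ℤ :=
  if (q : ℕ) = p then ε else W.apOfModel q

/-- The primes where the eigensystem of `W` is prescribed. -/
def eigPrimes (W : WeierstrassCurve ℤ) (p M : ℕ) : Set Nat.Primes :=
  {q | (q : ℕ) = p ∨ (W.IsGoodPrimeFor q ∧ ¬ (q : ℕ) ∣ M * p)}

theorem eigVal_self (W : WeierstrassCurve ℤ) (p : ℕ) [Fact p.Prime] (ε : ℤ) :
    eigVal W p ε (qPrime p) = ε := if_pos rfl

theorem eigVal_of_not_dvd (W : WeierstrassCurve ℤ) {p M : ℕ} (ε : ℤ) {q : Nat.Primes}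
    (h : ¬ (q : ℕ) ∣ M * p) : eigVal W p ε q = W.apOfModel q :=
  if_neg fun he => h (by rw [he]; exact dvd_mul_left p M)

/-- Casting the entries of a product of integral matrices. -/
theorem map_intCast_mul {p : ℕ} {l m n : Type*} [Fintype m] (A : Matrix l m ℤ) (B : Matrix m n ℤ) :
    (A * B).map (Int.cast : ℤ → ZMod p) =
      ((A.map Int.cast : Matrix l m (ZMod p)) * (B.map Int.cast : Matrix m n (ZMod p)) :
        Matrix l n (ZMod p)) :=
  Matrix.map_mul (f := Int.castRingHom (ZMod p))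

/-- Applying a product of integral matrices modulo `p`. -/
theorem mulVec_map_mul {p : ℕ} {l m n : Type*} [Fintype m] [Fintype n] (A : Matrix l m ℤ)
    (B : Matrix m n ℤ) (v : n → ZMod p) :
    A.map (Int.cast : ℤ → ZMod p) *ᵥ (B.map Int.cast *ᵥ v) = (A * B).map Int.cast *ᵥ v := by
  exact (Matrix.mulVec_mulVec v _ _).trans (congrArg (· *ᵥ v) (map_intCast_mul A B).symm)

end Fermat.Agent.LevelLowerP
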