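import Fermat.Agent.Kummer.TorsionMap
import Fermat.Agent.Cosets.Basic

/-!
# A parabolic Kummer character does not die in a higher level

`Γ₀(N)` is generated by `Γ₀(N q)` and parabolic elements, so a character killing the parabolic
elements which is trivial on `Γ₀(N q)` is trivial: the Kummer function of a nonzero class is no
constant times a power in level `N q` either, whatever the degree of that covering.
-/

set_option autoImplicit false

noncomputable section

open CongruenceSubgroup ModularCurve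
open scoped MatrixGroups

namespace Fermat.Agent.LevelLowerP

open Fermat.Agent.Kummer Fermat.Agent.Kummer.MeroH
open Fermat.Agent.MFGenus (FL)
open Fermat.Agent.Cosets (parEllHoms mem_parEllHoms_iff lowerUni lowerUni_apply10)

theorem coe_mul_apply10 (g h : SL(2, ℤ)) :
    (g * h) 1 0 = g 1 0 * h 0 0 + g 1 1 * h 1 0 := by
  simp [Matrix.SpecialLinearGroup.coe_mul, Matrix.mul_apply, Fin.sum_univ_two]

theorem coe_mul_apply00 (g h : SL(2, ℤ)) :
    (g * h) 0 0 = g 0 0 * h 0 0 + g 0 1 * h 1 0 := by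
  simp [Matrix.SpecialLinearGroup.coe_mul, Matrix.mul_apply, Fin.sum_univ_two]

/-- A character of `Γ₀(N)` killing parabolic elements and `Γ₀(N q)` is trivial. -/
theorem eq_zero_of_parEll_of_gamma0_mul {A : Type*} [AddCommGroup A] {N q : ℕ} (hq : q.Prime)
    {φ : Additive (Gamma0 N) →+ A} (hφ : φ ∈ parEllHoms ℤ (Gamma0 N) A)
    (h0 : ∀ γ : Gamma0 N, (γ : SL(2, ℤ)) ∈ Gamma0 (N * q) → φ (Additive.ofMul γ) = 0) : φ = 0 := by
  have := Fact.mk hq
  refine AddMonoidHom.ext fun g => ?_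
  obtain ⟨γ, rfl⟩ := Additive.ofMul.surjective g
  rw [AddMonoidHom.zero_apply]
  obtain ⟨c, hc⟩ : (N : ℤ) ∣ (γ : SL(2, ℤ)) 1 0 :=
    (ZMod.intCast_zmod_eq_zero_iff_dvd _ N).1 (Gamma0_mem.1 γ.2)
  let T₁ : Gamma0 N := ⟨ModularGroup.T, by simp [Gamma0_mem, ModularGroup.coe_T]⟩
  have hT₁ : φ (Additive.ofMul T₁) = 0 :=
    hφ T₁ (by simp [T₁, ModularGroup.coe_T, Matrix.trace_fin_two_of])
  let L : ℤ → Gamma0 N := fun t => ⟨lowerUni ((N : ℤ) * t), by simp [Gamma0_mem, lowerUni_apply10]⟩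
  have hL : ∀ t, φ (Additive.ofMul (L t)) = 0 := fun t =>
    hφ (L t) (by simp [L, lowerUni, Matrix.trace_fin_two_of])
  obtain ⟨δ, hδφ, hδc, hδa⟩ : ∃ δ : Gamma0 N,
      φ (Additive.ofMul δ) = φ (Additive.ofMul γ) ∧ (δ : SL(2, ℤ)) 1 0 = N * c ∧
        (((δ : SL(2, ℤ)) 0 0 : ZMod q) ≠ 0 ∨ (c : ZMod q) = 0) := by
    by_cases ha : ((γ : SL(2, ℤ)) 0 0 : ZMod q) = 0
    · refine ⟨T₁ * γ, by rw [ofMul_mul, map_add, hT₁, zero_add], ?_, ?_⟩
      · rw [Subgroup.coe_mul, coe_mul_apply10, hc]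
        simp [T₁, ModularGroup.coe_T]
      · left
        rw [Subgroup.coe_mul, coe_mul_apply00]
        simp only [T₁, ModularGroup.coe_T, Matrix.of_apply, Matrix.cons_val_zero,
          Matrix.cons_val_one, one_mul]
        intro h
        push_cast at h
        rw [ha, zero_add] at h
        have hd := (γ : SL(2, ℤ)).2
        rw [Matrix.det_fin_two] at hd
        have hd' := congrArg (Int.cast : ℤ → ZMod q) hd
        push_cast at hd'
        rw [ha, h] at hd'
        simp at hd'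
    · exact ⟨γ, rfl, hc, Or.inl ha⟩
  obtain ⟨t, ht⟩ : ∃ t : ℤ, (c + t * (δ : SL(2, ℤ)) 0 0 : ZMod q) = 0 := by
    rcases hδa with ha | hc0
    · refine ⟨((-(c : ZMod q) / ((δ : SL(2, ℤ)) 0 0 : ZMod q)).cast : ℤ), ?_⟩
      rw [ZMod.intCast_zmod_cast, div_mul_cancel₀ _ ha, add_neg_cancel]
    · exact ⟨0, by simp [hc0]⟩
  have hmem : ((L t * δ : Gamma0 N) : SL(2, ℤ)) ∈ Gamma0 (N * q) := by
    rw [Gamma0_mem, ZMod.intCast_zmod_eq_zero_iff_dvd]
    rw [Subgroup.coe_mul, coe_mul_apply10, lowerUni_apply10,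
      show lowerUni ((N : ℤ) * t) 1 1 = 1 from rfl, one_mul]
    rw [hδc, mul_assoc, ← mul_add, Nat.cast_mul]
    refine mul_dvd_mul_left _ ((ZMod.intCast_zmod_eq_zero_iff_dvd _ q).1 ?_)
    push_cast
    linear_combination ht
  rw [← hδφ]
  simpa [ofMul_mul, hL t] using h0 _ hmem

variable {L : Type*} [Field L] [Algebra ℚ L] [IsAlgClosed L] (ι : L →+* ℂ) {N n : ℕ} [NeZero n]

/-- A function with a root of nonzero parabolic multiplier is no constant times an `n`-th power in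
level `N q`. -/
theorem ne_const_mul_pow_of_hasMult {q : ℕ} (hq : q.Prime) {f : FL L N} (hf : f ≠ 0) {G : MeroH}
    (hG : G ^ n = embed ι N f) {φ : Additive (Gamma0 N) →+ ZMod n}
    (hGφ : HasMult G φ) (hφ : φ ∈ parEllHoms ℤ (Gamma0 N) (ZMod n)) (hφ0 : φ ≠ 0)
    (c : L) (h : FL L (N * q)) :
    (f : LaurentSeries L) ≠ HahnSeries.C c * (h : LaurentSeries L) ^ n := fun e => by
  apply hφ0
  obtain ⟨r, hr⟩ := IsAlgClosed.exists_pow_nat_eq c (NeZero.pos n)
  have hemb : G ^ n = (MeroH.const (ι r) * embed ι (N * q) h) ^ n := by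
    rw [hG, mul_pow, ← map_pow MeroH.const, ← map_pow ι, hr, ← map_pow (embed ι (N * q)),
      ← embed_algebraMap ι (N := N * q), ← map_mul, embed_eq_iff]
    have h1 := isExp_embed ι
      (algebraMap L (FL L (N * q)) c * h ^ n)
    convert h1 using 2
    rw [e, MulMemClass.coe_mul, SubmonoidClass.coe_pow]
    congr 1
    show HahnSeries.C c = algebraMap L (LaurentSeries L) c
    rw [algebraMap_laurentSeries_eq_single, HahnSeries.C_apply]
  obtain ⟨ζ, -, hGe⟩ := exists_const_mul_of_pow_eq_pow (NeZero.pos n) hemb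
  have hG0 : G ≠ 0 := fun h0 => (map_ne_zero (embed ι N)).2 hf (by
    rw [← hG, h0, zero_pow (NeZero.ne n)])
  refine eq_zero_of_parEll_of_gamma0_mul hq hφ fun γ hγ => ?_
  have h2 : slComp (γ : SL(2, ℤ)) G = G := by
    rw [hGe, map_mul, map_mul, slComp_const, slComp_const, slComp_embed ι h hγ]
  have h3 := hGφ γ
  rw [h2] at h3
  apply zeta_injective
  apply const_injective
  rw [zeta_zero, map_one]
  exact mul_right_cancel₀ hG0 ((one_mul G).symm ▸ h3.symm)

end Fermat.Agent.LevelLowerP
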