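import Fermat.Prelude.Def_ModularCurve_X0
import Fermat.Prelude.Def_ModularCurve_LaurentCoeff
import Mathlib.LinearAlgebra.Matrix.Charpoly.Coeff

/-!
# The series norm

The product of the conjugates `g(ζ t)` of a series as a determinant over series in `q = t ^ ℓ`.

The main definitions are `seriesMat` and `seriesNorm`, with `seriesNorm_one_add`.
-/

set_option autoImplicit false

noncomputable section

namespace Fermat.Agent.LevelLowerP

open ModularCurve

variable {A : Type*} [CommRing A] (ℓ : ℕ) [NeZero ℓ]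

/-- The part of a series at exponents `≡ r` modulo `ℓ`, in the variable `q = t ^ ℓ`. -/
def seriesSection (r : ℤ) (g : LaurentSeries A) : LaurentSeries A :=
  HahnSeries.ofSuppBddBelow (fun n : ℤ => g.coeff (ℓ * n + r)) <| by
    refine ⟨-|g.order| - |r|, fun n hn => not_lt.1 fun hlt => hn ?_⟩
    refine HahnSeries.coeff_eq_zero_of_lt_order ?_
    have hℓ : (1 : ℤ) ≤ ℓ := by exact_mod_cast NeZero.one_le
    have := neg_abs_le g.order
    have := le_abs_self r
    have h1 : ((ℓ : ℤ) - 1) * n ≤ 0 := by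
      have := abs_nonneg g.order
      have := abs_nonneg r
      exact mul_nonpos_of_nonneg_of_nonpos (by omega) (by omega)
    linarith

/-- Multiplication by a series in `t`, in the basis `1, t, …, t ^ (ℓ - 1)` over series in
`q = t ^ ℓ`. -/
def seriesMat (g : LaurentSeries A) : Matrix (Fin ℓ) (Fin ℓ) (LaurentSeries A) :=
  Matrix.of fun i j => seriesSection ℓ ((i : ℤ) - j) g

/-- The product of the conjugates `g(ζ t)`, as a series in `q = t ^ ℓ`. -/
def seriesNorm (g : LaurentSeries A) : LaurentSeries A :=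
  (seriesMat ℓ g).det

@[simp]
theorem seriesSection_coeff (r : ℤ) (g : LaurentSeries A) (n : ℤ) :
    (seriesSection ℓ r g).coeff n = g.coeff (ℓ * n + r) := rfl

theorem seriesSection_add (r : ℤ) (g h : LaurentSeries A) :
    seriesSection ℓ r (g + h) = seriesSection ℓ r g + seriesSection ℓ r h := by
  ext n; simp

theorem seriesSection_zero (r : ℤ) : seriesSection ℓ r (0 : LaurentSeries A) = 0 := by
  ext n; simp

theorem seriesSection_sum {ι : Type*} (s : Finset ι) (r : ℤ) (g : ι → LaurentSeries A) :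
    seriesSection ℓ r (∑ i ∈ s, g i) = ∑ i ∈ s, seriesSection ℓ r (g i) :=
  map_sum (AddMonoidHom.mk' (seriesSection ℓ r) (seriesSection_add ℓ r)) g s

theorem seriesSection_single_mul (r a : ℤ) (g : LaurentSeries A) :
    seriesSection ℓ r (HahnSeries.single a 1 * g) = seriesSection ℓ (r - a) g := by
  ext n
  rw [seriesSection_coeff, seriesSection_coeff, HahnSeries.coeff_single_mul, one_mul]
  congr 1
  ring

theorem seriesSection_qExpand (r : ℤ) (u : LaurentSeries A) :
    seriesSection ℓ r (qExpand A ℓ u) =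
      if (ℓ : ℤ) ∣ r then HahnSeries.single (-(r / ℓ)) 1 * u else 0 := by
  ext n
  rw [seriesSection_coeff]
  split_ifs with h
  · obtain ⟨s, rfl⟩ := h
    rw [Int.mul_ediv_cancel_left s (by exact_mod_cast NeZero.ne ℓ), HahnSeries.coeff_single_mul,
      one_mul, ← mul_add, qExpand_coeff_mul, sub_neg_eq_add]
  · rw [qExpand_coeff_of_not_dvd ℓ u fun h' =>
      h (by simpa using dvd_sub h' (dvd_mul_right (ℓ : ℤ) n)),
      HahnSeries.coeff_zero]

/-- A series is the sum of its sections. -/
theorem sum_single_mul_qExpand_seriesSection (g : LaurentSeries A) :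
    ∑ s : Fin ℓ, HahnSeries.single (s : ℤ) (1 : A) * qExpand A ℓ (seriesSection ℓ (s : ℤ) g) =
      g := by
  ext m
  have hℓ : (0 : ℤ) < ℓ := by exact_mod_cast NeZero.pos ℓ
  set s₀ : Fin ℓ := ⟨(m % ℓ).toNat, by
    have := Int.emod_lt_of_pos m hℓ
    have := Int.emod_nonneg m hℓ.ne'
    omega⟩ with hs₀
  have hs : (s₀ : ℤ) = m % ℓ := by
    rw [hs₀]; exact Int.toNat_of_nonneg (Int.emod_nonneg m hℓ.ne')
  rw [HahnSeries.coeff_sum, Finset.sum_eq_single s₀]
  · rw [HahnSeries.coeff_single_mul, one_mul, hs,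
      show m - m % ℓ = (ℓ : ℤ) * (m / ℓ) by rw [Int.emod_def]; ring, qExpand_coeff_mul,
      seriesSection_coeff]
    congr 1
    rw [Int.emod_def]; ring
  · intro b _ hb
    rw [HahnSeries.coeff_single_mul, one_mul, qExpand_coeff_of_not_dvd]
    rintro ⟨c, hc⟩
    refine hb (Fin.ext ?_)
    have h1 : (b : ℤ) < ℓ := by exact_mod_cast b.2
    have h2 : m % ℓ = (b : ℤ) := by
      rw [show m = (b : ℤ) + ℓ * c by linarith, Int.add_mul_emod_self_left]
      exact Int.emod_eq_of_lt (by positivity) h1
    rw [← hs] at h2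
    exact_mod_cast h2.symm
  · intro h
    exact absurd (Finset.mem_univ _) h

theorem seriesSection_qExpand_mul (r : ℤ) (u h : LaurentSeries A) :
    seriesSection ℓ r (qExpand A ℓ u * h) = u * seriesSection ℓ r h := by
  have key : ∀ (s : ℤ) (w : LaurentSeries A),
      seriesSection ℓ r (HahnSeries.single s 1 * qExpand A ℓ (u * w)) =
        u * seriesSection ℓ r (HahnSeries.single s 1 * qExpand A ℓ w) := fun s w => by
    rw [seriesSection_single_mul, seriesSection_single_mul, seriesSection_qExpand,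
      seriesSection_qExpand]
    split_ifs <;> ring
  conv_lhs => rw [← sum_single_mul_qExpand_seriesSection ℓ h]
  conv_rhs => rw [← sum_single_mul_qExpand_seriesSection ℓ h]
  rw [Finset.mul_sum, seriesSection_sum, seriesSection_sum, Finset.mul_sum]
  refine Finset.sum_congr rfl fun s _ => ?_
  rw [← key, map_mul]
  congr 1
  ring

theorem seriesMat_mul (g h : LaurentSeries A) :
    seriesMat ℓ (g * h) = seriesMat ℓ g * seriesMat ℓ h := by
  ext1 i j
  rw [Matrix.mul_apply]
  simp only [seriesMat, Matrix.of_apply]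
  have e := sum_single_mul_qExpand_seriesSection ℓ (HahnSeries.single (j : ℤ) 1 * h)
  calc seriesSection ℓ ((i : ℤ) - j) (g * h)
      = seriesSection ℓ (i : ℤ) (g * (HahnSeries.single (j : ℤ) 1 * h)) := by
        rw [← seriesSection_single_mul]; congr 1; ring
    _ = _ := by
        rw [← e, Finset.mul_sum, seriesSection_sum]
        refine Finset.sum_congr rfl fun k _ => ?_
        rw [show g * (HahnSeries.single (k : ℤ) (1 : A) *
            qExpand A ℓ (seriesSection ℓ (k : ℤ) (HahnSeries.single (j : ℤ) 1 * h))) =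
            qExpand A ℓ (seriesSection ℓ (k : ℤ) (HahnSeries.single (j : ℤ) 1 * h)) *
              (HahnSeries.single (k : ℤ) 1 * g) by ring, seriesSection_qExpand_mul,
          seriesSection_single_mul, seriesSection_single_mul, mul_comm]

theorem seriesMat_qExpand (u : LaurentSeries A) :
    seriesMat ℓ (qExpand A ℓ u) = u • (1 : Matrix (Fin ℓ) (Fin ℓ) (LaurentSeries A)) := by
  ext1 i j
  simp only [seriesMat, Matrix.of_apply, seriesSection_qExpand, Matrix.smul_apply, smul_eq_mul]
  by_cases hij : i = j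
  · subst hij; simp
  · rw [Matrix.one_apply_ne hij, mul_zero, if_neg]
    intro hd
    refine hij (Fin.ext ?_)
    by_contra hne
    have := Int.le_of_dvd (abs_pos.2 (sub_ne_zero.2 fun h => hne (by exact_mod_cast h)) :
      (0 : ℤ) < |(i : ℤ) - j|) ((dvd_abs _ _).2 hd)
    rcases abs_choice ((i : ℤ) - j) with h | h <;> omega

theorem seriesMat_one : seriesMat ℓ (1 : LaurentSeries A) = 1 := by
  rw [← map_one (qExpand A ℓ), seriesMat_qExpand, one_smul]

/-- Multiplication as a ring homomorphism to matrices. -/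
def seriesMatHom : LaurentSeries A →+* Matrix (Fin ℓ) (Fin ℓ) (LaurentSeries A) where
  toFun := seriesMat ℓ
  map_one' := seriesMat_one ℓ
  map_mul' := seriesMat_mul ℓ
  map_zero' := by ext1 i j; simp [seriesMat, seriesSection_zero]
  map_add' g h := by ext1 i j; simp [seriesMat, seriesSection_add]

@[simp]
theorem seriesMatHom_apply (g : LaurentSeries A) : seriesMatHom ℓ g = seriesMat ℓ g := rfl

theorem seriesNorm_mul (g h : LaurentSeries A) :
    seriesNorm ℓ (g * h) = seriesNorm ℓ g * seriesNorm ℓ h := by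
  rw [seriesNorm, seriesMat_mul, Matrix.det_mul]; rfl

theorem seriesNorm_one : seriesNorm ℓ (1 : LaurentSeries A) = 1 := by
  rw [seriesNorm, seriesMat_one, Matrix.det_one]

/-- The norm as a monoid homomorphism. -/
def seriesNormHom : LaurentSeries A →* LaurentSeries A where
  toFun := seriesNorm ℓ
  map_one' := seriesNorm_one ℓ
  map_mul' := seriesNorm_mul ℓ

theorem seriesNorm_pow (g : LaurentSeries A) (n : ℕ) :
    seriesNorm ℓ (g ^ n) = seriesNorm ℓ g ^ n := map_pow (seriesNormHom ℓ) g n

theorem seriesNorm_ne_zero {K : Type*} [Field K] {g : LaurentSeries K} (hg : g ≠ 0) :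
    seriesNorm ℓ g ≠ 0 := fun h0 => by
  have h := seriesNorm_mul ℓ g g⁻¹
  rw [mul_inv_cancel₀ hg, seriesNorm_one, h0, zero_mul] at h
  exact one_ne_zero h

theorem seriesNorm_zpow {K : Type*} [Field K] {g : LaurentSeries K} (hg : g ≠ 0) (n : ℤ) :
    seriesNorm ℓ (g ^ n) = seriesNorm ℓ g ^ n := by
  have hinv : ∀ x : LaurentSeries K, x ≠ 0 → seriesNorm ℓ x⁻¹ = (seriesNorm ℓ x)⁻¹ := fun x hx =>
    eq_inv_of_mul_eq_one_left (by rw [← seriesNorm_mul, inv_mul_cancel₀ hx, seriesNorm_one])
  rcases Int.eq_nat_or_neg n with ⟨m, rfl | rfl⟩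
  · rw [zpow_natCast, zpow_natCast, seriesNorm_pow]
  · rw [zpow_neg, zpow_neg, zpow_natCast, zpow_natCast, hinv _ (pow_ne_zero _ hg), seriesNorm_pow]

theorem seriesNorm_qExpand (u : LaurentSeries A) : seriesNorm ℓ (qExpand A ℓ u) = u ^ ℓ := by
  rw [seriesNorm, seriesMat_qExpand, Matrix.det_smul, Matrix.det_one, mul_one, Fintype.card_fin]

theorem seriesNorm_C (c : A) : seriesNorm ℓ (HahnSeries.C c) = HahnSeries.C (c ^ ℓ) := by
  rw [← qExpand_C ℓ c, seriesNorm_qExpand, map_pow]

theorem coeffMap_seriesSection {B : Type*} [CommRing B] (f : A →+* B) (r : ℤ)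
    (g : LaurentSeries A) :
    coeffMap f (seriesSection ℓ r g) = seriesSection ℓ r (coeffMap f g) := by
  ext n; simp

theorem coeffMap_seriesNorm {B : Type*} [CommRing B] (f : A →+* B) (g : LaurentSeries A) :
    coeffMap f (seriesNorm ℓ g) = seriesNorm ℓ (coeffMap f g) := by
  rw [seriesNorm, seriesNorm, RingHom.map_det]
  congr 1

theorem trace_seriesMat (g : LaurentSeries A) :
    (seriesMat ℓ g).trace = (ℓ : LaurentSeries A) * seriesSection ℓ 0 g := by
  simp [Matrix.trace, seriesMat]

theorem seriesMat_C_mul (e : A) (g : LaurentSeries A) :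
    seriesMat ℓ (HahnSeries.C e * g) = (HahnSeries.C e : LaurentSeries A) • seriesMat ℓ g := by
  rw [seriesMat_mul, ← qExpand_C ℓ e, seriesMat_qExpand, qExpand_C, Matrix.smul_mul, one_mul]

/-- Norm of `1 + e a` when `e ^ 2 = 0`. -/
theorem seriesNorm_one_add {e : A} (he : e * e = 0) (a : LaurentSeries A) :
    seriesNorm ℓ (1 + HahnSeries.C e * a) =
      1 + HahnSeries.C (e * ℓ) * seriesSection ℓ 0 a := by
  have hadd : seriesMat ℓ (1 + HahnSeries.C e * a) =
      1 + (HahnSeries.C e : LaurentSeries A) • seriesMat ℓ a := by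
    rw [← seriesMat_C_mul, ← seriesMat_one ℓ]
    exact map_add (seriesMatHom ℓ) 1 _
  have hsq : (HahnSeries.C e : LaurentSeries A) ^ 2 = 0 := by
    rw [pow_two, ← map_mul, he, map_zero]
  rw [seriesNorm, hadd, Matrix.det_one_add_smul, trace_seriesMat, hsq, mul_zero, add_zero, map_mul,
    map_natCast]
  ring

/-- A square-zero `e` killed by `ℓ` does not change the norm. -/
theorem seriesNorm_one_add_eq_one {e : A} (he : e * e = 0) (heℓ : e * ℓ = 0)
    (a : LaurentSeries A) : seriesNorm ℓ (1 + HahnSeries.C e * a) = 1 := by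
  rw [seriesNorm_one_add ℓ he, heℓ, map_zero, zero_mul, add_zero]

end Fermat.Agent.LevelLowerP
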