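import Fermat.Agent.Semistable.AtkinLehner
import Fermat.Prelude.Def_FLTPrelim_ModularRep
import Fermat.Prelude.Def_ModularCurve_ArithmeticGalois
import Fermat.Agent.LevelLowerP.SeriesNorm

/-!
# The data of a torsion point

What the arithmetic part of level lowering at `p` hands to the local analysis: the Kummer function
of a torsion point with its relations under `w_p`, `U_p` and `T_l`, on `q`-expansions.

The main definition is `PointData`.
-/

set_option autoImplicit false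

noncomputable section

namespace Fermat.Agent.LevelLowerP

open ModularCurve AlgebraicCurve
open Fermat.Agent.Semistable

local notation "ℚbar" => AlgebraicClosure ℚ

variable (N : ℕ) [NeZero N]

/-- The coefficients are fixed by `H`. -/
def FixedBy (H : Subgroup (ℚbar ≃ₐ[ℚ] ℚbar)) (x : modularFunctionFieldBar N) : Prop :=
  ∀ σ ∈ H, coeffMap (σ : ℚbar →+* ℚbar) (x : LaurentSeries ℚbar) = x

/-- `s = c · f ^ n · h ^ p` with `c` and `h` defined over the fixed field of `H`. -/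
def IsPowTimes (H : Subgroup (ℚbar ≃ₐ[ℚ] ℚbar)) (p : ℕ) (f : modularFunctionFieldBar N) (n : ℤ)
    (s : LaurentSeries ℚbar) : Prop :=
  ∃ (c : ℚbar) (h : modularFunctionFieldBar N), c ≠ 0 ∧ h ≠ 0 ∧ (∀ σ ∈ H, σ c = c) ∧
    FixedBy N H h ∧
    s = HahnSeries.C c * (f : LaurentSeries ℚbar) ^ n * (h : LaurentSeries ℚbar) ^ p

/-- A `p`-torsion point of `J₀(M p)` fixed by `H`, through its Kummer function. -/
structure PointData (W : WeierstrassCurve ℤ) (p M : ℕ) [Fact p.Prime] [NeZero M]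
    (H : Subgroup (ℚbar ≃ₐ[ℚ] ℚbar)) where
  /-- the eigenvalue of `U_p` -/
  ε : ℤ
  ε_eq : ε = 1 ∨ ε = -1
  /-- the Atkin–Lehner data at `p` -/
  w : ALData p M
  /-- the Kummer function -/
  f : modularFunctionFieldBar (M * p)
  f_ne_zero : f ≠ 0
  f_fixed : FixedBy (M * p) H f
  ord_dvd : ∀ v : Place ℚbar (modularFunctionFieldBar (M * p)), (p : ℤ) ∣ v.ord f
  regular : ∀ v : Place ℚbar (modularFunctionFieldBar (M * p)),
    (∃ g : modularFunctionFieldBar (M * p), g ≠ 0 ∧ v.ord g ≠ (g : LaurentSeries ℚbar).order) →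
      0 ≤ v.ord f
  /-- no constant times a `p`th power, also in any level `M p q` -/
  not_pow : ∀ q : ℕ, q.Prime → ∀ (c : ℚbar) (h : modularFunctionFieldBar (M * p * q)),
    (f : LaurentSeries ℚbar) ≠ HahnSeries.C c * (h : LaurentSeries ℚbar) ^ p
  w_rel : IsPowTimes (M * p) H p f (-ε) (wEquiv w Fact.out f : LaurentSeries ℚbar)
  U_rel : IsPowTimes (M * p) H p f ε (seriesNorm p (f : LaurentSeries ℚbar))
  /-- `T_ℓ f` and `T_ℓ (w f)` have the same constant, as `T_ℓ` commutes with `w`. -/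
  T_rel : ∀ (ℓ : ℕ) [NeZero ℓ], ℓ.Prime → W.IsGoodPrimeFor ℓ → ¬ ℓ ∣ M * p →
    ∃ (c : ℚbar) (h h' : modularFunctionFieldBar (M * p)), c ≠ 0 ∧ h ≠ 0 ∧ h' ≠ 0 ∧
      (∀ σ ∈ H, σ c = c) ∧ FixedBy (M * p) H h ∧ FixedBy (M * p) H h' ∧
      qExpand ℚbar ℓ (f : LaurentSeries ℚbar) * seriesNorm ℓ (f : LaurentSeries ℚbar) =
        HahnSeries.C c * (f : LaurentSeries ℚbar) ^ W.apOfModel ℓ *
          (h : LaurentSeries ℚbar) ^ p ∧
      qExpand ℚbar ℓ (wEquiv w Fact.out f : LaurentSeries ℚbar) *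
          seriesNorm ℓ (wEquiv w Fact.out f : LaurentSeries ℚbar) =
        HahnSeries.C c * (wEquiv w Fact.out f : LaurentSeries ℚbar) ^ W.apOfModel ℓ *
          (h' : LaurentSeries ℚbar) ^ p

end Fermat.Agent.LevelLowerP
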