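import Fermat.Agent.Kummer.Canonical
import Fermat.Agent.Kummer.TorsionMap
import Fermat.Agent.Semistable.Cusps
import Fermat.Agent.LevelLowerP.PointData
import Fermat.Agent.LevelLowerP.NotPowUp

/-!
# The normalised Kummer function of a torsion class

It has poles at `∞` only, leading coefficient `1`, and is fixed by the automorphisms fixing the
class.
-/

set_option autoImplicit false

noncomputable section

open CongruenceSubgroup AlgebraicCurve ModularCurve

namespace Fermat.Agent.LevelLowerP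

open Fermat.Agent.Kummer Fermat.Agent.Kummer.MeroH
open Fermat.Agent.MFGenus (FL)
open Fermat.Agent.Semistable (cuspInf ord_cuspInf)

local notation "ℚbar" => AlgebraicClosure ℚ
local notation "Γℚbar" => AlgebraicClosure ℚ ≃ₐ[ℚ] AlgebraicClosure ℚ

variable {N : ℕ} [NeZero N]

omit [NeZero N] in
theorem coe_galois_smul (σ : Γℚbar) (x : modularFunctionFieldBar N) :
    ((arithmeticGalois (modularFunctionFieldFull N) σ • x : modularFunctionFieldBar N) :
      LaurentSeries ℚbar) = coeffMap (σ : ℚbar →+* ℚbar) (x : LaurentSeries ℚbar) := rfl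

omit [NeZero N] in
theorem qOrder_galois (σ : Γℚbar) (x : modularFunctionFieldBar N) :
    qOrder (L := ℚbar) (arithmeticGalois (modularFunctionFieldFull N) σ • x) = qOrder x := by
  rw [qOrder, qOrder, coe_galois_smul]
  rcases eq_or_ne (x : LaurentSeries ℚbar) 0 with h0 | h0
  · rw [h0, map_zero]
  refine le_antisymm (HahnSeries.order_le_of_coeff_ne_zero ?_)
    (HahnSeries.order_le_of_coeff_ne_zero ?_)
  · rw [coeffMap_coeff]
    exact (map_ne_zero _).2 (HahnSeries.coeff_order_eq_zero.not.2 h0)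
  · intro h1
    refine HahnSeries.coeff_order_eq_zero.not.2
      ((map_ne_zero (coeffMap (σ : ℚbar →+* ℚbar))).2 h0) ?_
    rw [coeffMap_coeff, h1, map_zero]

omit [NeZero N] in
theorem galois_smul_algebraMap (σ : Γℚbar) (a : ℚbar) :
    arithmeticGalois (modularFunctionFieldFull N) σ •
        algebraMap ℚbar (modularFunctionFieldBar N) a =
      algebraMap ℚbar _ (σ a) :=
  SemilinearAut.smul_algebraMap _ a

/-- Galois fixes the cusp `∞`. -/
theorem galois_smul_cuspInf (σ : Γℚbar) :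
    arithmeticGalois (modularFunctionFieldFull N) σ • cuspInf N = cuspInf N := by
  refine Semistable.place_eq_of_ord fun x => ?_
  rw [ord_cuspInf]
  conv_lhs => rw [← smul_inv_smul (arithmeticGalois (modularFunctionFieldFull N) σ) x,
    SemilinearAut.ord_smul, ord_cuspInf, ← map_inv]
  exact qOrder_galois σ⁻¹ x

variable {p : ℕ} [NeZero p]

/-- **The normalised Kummer function.** -/
theorem exists_normal_fun
    (x : Pic0.torsion ℚbar (modularFunctionFieldBar N) p)
    (hx0 : (x : JZero N) ≠ 0) (H : Subgroup Γℚbar)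
    (hfix : ∀ σ ∈ H, arithmeticGalois (modularFunctionFieldFull N) σ • (x : JZero N) = x) :
    ∃ (f : modularFunctionFieldBar N) (G : MeroH),
      f ≠ 0 ∧ (∀ v : Place ℚbar (modularFunctionFieldBar N), (p : ℤ) ∣ v.ord f) ∧
      G ^ p = embed ιbar N f ∧ MeroAtCusps N G ∧
      HasMult G (multHom ιbar N p x : Additive (Gamma0 N) →+ ZMod p) ∧
      (f : LaurentSeries ℚbar).coeff (f : LaurentSeries ℚbar).order = 1 ∧ FixedBy N H f ∧
      (∀ v : Place ℚbar (modularFunctionFieldBar N), v ≠ cuspInf N → 0 ≤ v.ord f) ∧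
      ∀ q : ℕ, q.Prime → ∀ (c : ℚbar) (h : modularFunctionFieldBar (N * q)),
        (f : LaurentSeries ℚbar) ≠ HahnSeries.C c * (h : LaurentSeries ℚbar) ^ p := by
  obtain ⟨D, f₀, G₀, hDx, hf₀, hD, hG₀, hG₀φ⟩ := isKummer_multHom ιbar x
  obtain ⟨j, hjneg, hjpos⟩ := FF.exists_ord_neg_unique (cuspInf N)
  obtain ⟨m, f, hadm, hlead, huniq⟩ := exists_canonical_aux (K := ℚbar) (NeZero.ne p)
    (FF.transcendental_of_isPole (cuspInf N) hjneg) hf₀ isOrd_qOrder qOrder_algebraMap
    (fun _ => qLead_ne_zero (L := ℚbar) (N := N)) (fun _ g ha => qLead_mul ha g)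
    fun _ _ => qOrder_sub_qLead_pos
  have hf0 := hadm.ne_zero hf₀
  obtain ⟨⟨c, h, hc, hh, he⟩, hv⟩ := id hadm
  have hordf : ∀ v : Place ℚbar (modularFunctionFieldBar N),
      v.ord f = (p : ℤ) * ((D : Divisor ℚbar (modularFunctionFieldBar N)) v + v.ord h) :=
    fun v => by
    rw [he, v.ord_mul (mul_ne_zero ((map_ne_zero _).2 hc) hf₀) (pow_ne_zero p hh),
      v.ord_mul ((map_ne_zero _).2 hc) hf₀, FF.ord_algebraMap, FF.ord_pow, zero_add, ← hD]
    ring
  obtain ⟨r, hr⟩ := IsAlgClosed.exists_pow_nat_eq c (NeZero.pos p)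
  set G := MeroH.const (ιbar r) * G₀ * embed ιbar N h with hG
  have hGp : G ^ p = embed ιbar N f := by
    rw [hG, he, mul_pow, mul_pow, ← map_pow MeroH.const, ← map_pow ιbar, hr, hG₀, map_mul, map_mul,
      map_pow, embed_algebraMap]
  have hGφ : HasMult G (multHom ιbar N p x : Additive (Gamma0 N) →+ ZMod p) := by
    have h0 : HasMult (n := p) (N := N) (MeroH.const (ιbar r)) 0 :=
      hasMult_of_invariant fun γ _ => MeroH.slComp_const γ _
    have h1 : HasMult (n := p) (N := N) (embed ιbar N h) 0 :=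
      hasMult_of_invariant fun γ hγ => slComp_embed ιbar h hγ
    simpa using (h0.mul hG₀φ).mul h1
  obtain ⟨D', hD'⟩ : ∃ D' : Divisor ℚbar (modularFunctionFieldBar N),
      ∀ v, (p : ℤ) * D' v = v.ord f :=
    ⟨(D : Divisor ℚbar (modularFunctionFieldBar N)) + FF.divOf ℚbar h, fun v => by
      rw [Finsupp.add_apply, FF.divOf_apply, hordf]⟩
  refine ⟨f, G, hf0, fun v => ⟨_, hordf v⟩, hGp, meroAtCusps_root ιbar hf0 hD' hGp, hGφ, hlead,
    fun σ hσ => ?_, fun v hvne => ?_, fun q hq => ?_⟩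
  · -- invariance
    set g := arithmeticGalois (modularFunctionFieldFull N) σ with hg
    suffices hgf : g • f = f by rw [← coe_galois_smul, ← hg, hgf]
    -- the class of `f₀` is fixed modulo constants and `p`-th powers
    have hmk := hfix σ hσ
    rw [← hDx, SemilinearAut.pic0_smul_mk] at hmk
    change ((SemilinearAut.degZeroSMulHom g D : Divisor.degZero (K := ℚbar)
      (F := modularFunctionFieldBar N)) : Pic0 ℚbar (modularFunctionFieldBar N)) = (D : _) at hmk
    rw [← sub_eq_zero, ← QuotientAddGroup.mk_sub, QuotientAddGroup.eq_zero_iff,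
      AddSubgroup.mem_addSubgroupOf] at hmk
    obtain ⟨k, hk0, hk⟩ := hmk
    have hgf₀ : g • f₀ ≠ 0 := (smul_ne_zero_iff_ne _).2 hf₀
    obtain ⟨a, ha⟩ := exists_algebraMap_eq (K := ℚbar) (u := g • f₀ / (f₀ * k ^ p)) fun v => by
      have h1 := hk v
      rw [AddSubgroupClass.coe_sub, Finsupp.sub_apply, SemilinearAut.coe_degZeroSMulHom,
        SemilinearAut.divisor_smul_apply] at h1
      have h2 : v.ord (g • f₀) = (g⁻¹ • v).ord f₀ := by
        rw [← SemilinearAut.ord_smul g (g⁻¹ • v) f₀, smul_inv_smul]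
      rw [FF.ord_div v hgf₀ (mul_ne_zero hf₀ (pow_ne_zero p hk0)),
        v.ord_mul hf₀ (pow_ne_zero p hk0), FF.ord_pow, h2, ← hD, ← hD, ← h1]
      ring
    have ha0 : a ≠ 0 := fun h0 => by
      rw [h0, map_zero] at ha
      exact div_ne_zero hgf₀ (mul_ne_zero hf₀ (pow_ne_zero p hk0)) ha.symm
    have hclass : g • f₀ = algebraMap ℚbar _ a * (f₀ * k ^ p) := by
      rw [ha, div_mul_cancel₀ _ (mul_ne_zero hf₀ (pow_ne_zero p hk0))]
    refine huniq _ ⟨⟨σ c * a, k * (g • h), mul_ne_zero ((map_ne_zero σ).2 hc) ha0,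
      mul_ne_zero hk0 ((smul_ne_zero_iff_ne _).2 hh), ?_⟩, fun v => ?_⟩ ?_ (qOrder_galois σ f).ge
    · rw [he, smul_mul', smul_mul', smul_pow', hclass, hg, galois_smul_algebraMap, map_mul]
      ring
    · have h1 := hv (g⁻¹ • v)
      rw [show v.ord (g • f) = (g⁻¹ • v).ord f by
        rw [← SemilinearAut.ord_smul g (g⁻¹ • v) f, smul_inv_smul]]
      refine le_of_le_of_eq h1 ?_
      congr 2
      rcases eq_or_ne v (cuspInf N) with rfl | hv'
      · rw [show g⁻¹ • cuspInf N = cuspInf N by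
          rw [hg, ← map_inv, galois_smul_cuspInf]]
      · have hne : g⁻¹ • v ≠ cuspInf N := fun hcon => hv' (by
          rw [← smul_inv_smul g v, hcon, hg, galois_smul_cuspInf])
        rw [max_eq_right (neg_nonpos.2 (hjpos _ hne)), max_eq_right (neg_nonpos.2 (hjpos _ hv'))]
    · rw [qLead, qOrder_galois σ f, coe_galois_smul, coeffMap_coeff, ← qLead, hlead, map_one]
  · have h1 := hv v
    rw [max_eq_right (neg_nonpos.2 (hjpos v hvne)), mul_zero, add_zero] at h1
    exact h1
  · have hφ0 : (multHom ιbar N p x : Additive (Gamma0 N) →+ ZMod p) ≠ 0 := fun h0 => hx0 (by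
      rw [show x = 0 from multHom_injective ιbar ((Subtype.ext h0).trans (map_zero _).symm)]
      rfl)
    exact ne_const_mul_pow_of_hasMult ιbar hq hf0 hGp hGφ
      (fun γ hγ => (multHom ιbar N p x).2 γ hγ) hφ0

end Fermat.Agent.LevelLowerP
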