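import Fermat.Agent.LevelLowerP.SeriesNormC
import Fermat.Agent.LevelLowerP.PointData
import Fermat.Agent.Ihara.Relations
import Fermat.Prelude.Thm_ModularCurve_coeffMap_qExpand

/-!
# Normalised relations between Kummer functions; `w_p` commutes with `T_ℓ` on functions
-/

set_option autoImplicit false

noncomputable section

open CongruenceSubgroup ModularCurve
open scoped MatrixGroups

namespace Fermat.Agent.LevelLowerP

open Fermat.Agent.Kummer Fermat.Agent.Kummer.MeroH
open Fermat.Agent.Cosets (parEllHoms)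
open Fermat.Agent.Ihara
open Fermat.Agent.Semistable (ALData wEquiv embed_wHom wEquiv_arithmeticRingAut)

local notation "ℚbar" => AlgebraicClosure ℚ
local notation "Γℚbar" => AlgebraicClosure ℚ ≃ₐ[ℚ] AlgebraicClosure ℚ

section Lead

variable {K : Type*} [Field K]

theorem lead_mul {s t : LaurentSeries K} (hs : s ≠ 0) (ht : t ≠ 0) :
    (s * t).coeff (s * t).order = s.coeff s.order * t.coeff t.order := by
  rw [HahnSeries.order_mul hs ht, HahnSeries.coeff_mul_order_add_order,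
    HahnSeries.leadingCoeff_eq, HahnSeries.leadingCoeff_eq]

theorem lead_C_mul {c : K} (hc : c ≠ 0) {s : LaurentSeries K} (hs : s ≠ 0) :
    (HahnSeries.C c * s).coeff (HahnSeries.C c * s).order = c * s.coeff s.order := by
  rw [lead_mul (by simpa using hc) hs]
  simp [HahnSeries.C_apply, HahnSeries.order_single hc]

theorem lead_zpow_eq_one {s : LaurentSeries K} (hs : s ≠ 0) (h : s.coeff s.order = 1) (a : ℤ) :
    (s ^ a).coeff (s ^ a).order = 1 := by
  have hnat : ∀ m : ℕ, (s ^ m).coeff (s ^ m).order = 1 := fun m => by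
    induction m with
    | zero => simp
    | succ m ih => rw [pow_succ, lead_mul (pow_ne_zero m hs) hs, ih, h, mul_one]
  rcases Int.eq_nat_or_neg a with ⟨m, rfl | rfl⟩
  · rw [zpow_natCast]; exact hnat m
  · have h1 := lead_mul (inv_ne_zero (pow_ne_zero m hs)) (pow_ne_zero m hs)
    rw [inv_mul_cancel₀ (pow_ne_zero m hs), hnat, mul_one] at h1
    rw [zpow_neg, zpow_natCast, ← h1]
    simp

theorem lead_coeffMap {L : Type*} [Field L] (σ : K →+* L) {s : LaurentSeries K} (hs : s ≠ 0) :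
    (coeffMap σ s).coeff (coeffMap σ s).order = σ (s.coeff s.order) := by
  have h : (coeffMap σ s).order = s.order := by
    refine le_antisymm (HahnSeries.order_le_of_coeff_ne_zero ?_)
      (HahnSeries.order_le_of_coeff_ne_zero ?_)
    · rw [coeffMap_coeff]
      exact (map_ne_zero σ).2 (HahnSeries.coeff_order_eq_zero.not.2 hs)
    · intro h1
      refine HahnSeries.coeff_order_eq_zero.not.2 ((map_ne_zero (coeffMap σ)).2 hs) ?_
      rw [coeffMap_coeff, h1, map_zero]
  rw [coeffMap_coeff, h]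

/-- Equal `p`-th powers with leading coefficient `1`. -/
theorem eq_of_pow_eq_of_lead [IsAlgClosed K] [CharZero K] {p : ℕ} (hp : p ≠ 0)
    {a b : LaurentSeries K} (hb : b ≠ 0) (hal : a.coeff a.order = 1) (hbl : b.coeff b.order = 1)
    (h : a ^ p = b ^ p) : a = b := by
  have : NeZero p := ⟨hp⟩
  have : HasEnoughRootsOfUnity K p := inferInstance
  obtain ⟨z, hz⟩ := HasEnoughRootsOfUnity.exists_primitiveRoot K p
  obtain ⟨i, -, hi⟩ := (hz.map_of_injective (f := (HahnSeries.C : K →+* LaurentSeries K))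
    HahnSeries.C_injective).eq_pow_of_pow_eq_one (ξ := a / b)
    (by rw [div_pow, h, div_self (pow_ne_zero p hb)])
  rw [← map_pow] at hi
  have ha : a = HahnSeries.C (z ^ i) * b := by rw [hi, div_mul_cancel₀ _ hb]
  have hl := congrArg (fun s : LaurentSeries K => s.coeff s.order) ha
  simp only [lead_C_mul (pow_ne_zero i (hz.ne_zero hp)) hb, hal, hbl, mul_one] at hl
  rw [ha, ← hl, map_one, one_mul]

end Lead

theorem coe_zpow_fun {N : ℕ} (f : modularFunctionFieldBar N) (a : ℤ) :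
    ((f ^ a : modularFunctionFieldBar N) : LaurentSeries ℚbar) = (f : LaurentSeries ℚbar) ^ a :=
  map_zpow₀ (SubringClass.subtype (modularFunctionFieldBar N)) f a

/-- **Normalised eigen relation.** -/
theorem exists_isPowTimes {N : ℕ} [NeZero N] {ι : Type*} [Fintype ι]
    (S : CosetSys (Gamma0 N) (Gamma0 N) ι) {D : ℕ} (hD : ∀ i, (S.α i).det = D) {p : ℕ} [NeZero p]
    {H : Subgroup Γℚbar} {f F : modularFunctionFieldBar N} (hf : f ≠ 0)
    (hlead : (f : LaurentSeries ℚbar).coeff (f : LaurentSeries ℚbar).order = 1)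
    (hfH : FixedBy N H f) {G : MeroH} (hG : G ^ p = embed ιbar N f) (hGc : MeroAtCusps N G)
    {ψ : Additive (Gamma0 N) →+ ZMod p} (hψ : HasMult G ψ)
    (hmem : ψ ∈ parEllHoms ℤ (Gamma0 N) (ZMod p)) (a : ℤ) (hop : S.op ℤ (ZMod p) ψ = a • ψ)
    (hF : embed ιbar N F = funOp S (embed ιbar N f)) (hFH : FixedBy N H F) :
    ∃ (c : ℚbar) (h : modularFunctionFieldBar N), c ≠ 0 ∧ h ≠ 0 ∧ (∀ σ ∈ H, σ c = c) ∧
      FixedBy N H h ∧ F = algebraMap ℚbar _ c * f ^ a * h ^ p := by
  obtain ⟨k, hk, hFk⟩ := exists_eq_zpow_mul_pow S ιbar hD hf hG hGc hψ hmem a hop hF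
  have hk' : (k : LaurentSeries ℚbar) ≠ 0 := fun h0 => hk (Subtype.ext h0)
  set r := (k : LaurentSeries ℚbar).coeff (k : LaurentSeries ℚbar).order with hr
  have hr0 : r ≠ 0 := HahnSeries.coeff_order_eq_zero.not.2 hk'
  set h := algebraMap ℚbar (modularFunctionFieldBar N) r⁻¹ * k with hh
  have hh0 : h ≠ 0 := mul_ne_zero ((map_ne_zero _).2 (inv_ne_zero hr0)) hk
  have hh' : (h : LaurentSeries ℚbar) ≠ 0 := fun h0 => hh0 (Subtype.ext h0)
  have hhl : (h : LaurentSeries ℚbar).coeff (h : LaurentSeries ℚbar).order = 1 := by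
    have : (h : LaurentSeries ℚbar) = HahnSeries.C r⁻¹ * (k : LaurentSeries ℚbar) := by
      rw [hh]
      show algebraMap ℚbar (LaurentSeries ℚbar) r⁻¹ * _ = _
      rw [algebraMap_laurentSeries_eq_single, HahnSeries.C_apply]
    rw [this, lead_C_mul (inv_ne_zero hr0) hk', ← hr, inv_mul_cancel₀ hr0]
  have hFeq : F = algebraMap ℚbar _ (r ^ p) * f ^ a * h ^ p := by
    rw [hFk, hh, mul_pow, ← map_pow, inv_pow, map_inv₀]
    have := (map_ne_zero (algebraMap ℚbar (modularFunctionFieldBar N))).2 (pow_ne_zero p hr0)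
    field_simp
  have hf' : (f : LaurentSeries ℚbar) ≠ 0 := fun h0 => hf (Subtype.ext h0)
  have hser : (F : LaurentSeries ℚbar) =
      HahnSeries.C (r ^ p) * ((f : LaurentSeries ℚbar) ^ a * (h : LaurentSeries ℚbar) ^ p) := by
    rw [hFeq, ← mul_assoc]
    push_cast
    rw [coe_zpow_fun]
    congr 2
    rw [← map_pow, algebraMap_laurentSeries_eq_single, HahnSeries.C_apply]
  have hne : (f : LaurentSeries ℚbar) ^ a * (h : LaurentSeries ℚbar) ^ p ≠ 0 :=
    mul_ne_zero (zpow_ne_zero _ hf') (pow_ne_zero p hh')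
  have hFl : (F : LaurentSeries ℚbar).coeff (F : LaurentSeries ℚbar).order = r ^ p := by
    rw [hser, lead_C_mul (pow_ne_zero p hr0) hne, lead_mul (zpow_ne_zero _ hf') (pow_ne_zero p hh'),
      lead_zpow_eq_one hf' hlead, ← zpow_natCast (h : LaurentSeries ℚbar),
      lead_zpow_eq_one hh' hhl]
    simp
  have hF' : (F : LaurentSeries ℚbar) ≠ 0 := by
    rw [hser]; exact mul_ne_zero (by simpa using pow_ne_zero p hr0) hne
  have hc : ∀ σ ∈ H, σ (r ^ p) = r ^ p := fun σ hσ => by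
    have h1 := lead_coeffMap (σ : ℚbar →+* ℚbar) hF'
    rw [hFH σ hσ, hFl] at h1
    exact h1.symm
  refine ⟨r ^ p, h, pow_ne_zero p hr0, hh0, hc, fun σ hσ => ?_, hFeq⟩
  refine eq_of_pow_eq_of_lead (NeZero.ne p) hh' ?_ hhl ?_
  · rw [lead_coeffMap _ hh', hhl, map_one]
  · have h1 := congrArg (coeffMap (σ : ℚbar →+* ℚbar)) hser
    have hC : coeffMap (σ : ℚbar →+* ℚbar) (HahnSeries.C (r ^ p)) = HahnSeries.C (r ^ p) := by
      rw [HahnSeries.C_apply, coeffMap_single]
      exact congrArg _ (hc σ hσ)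
    rw [hFH σ hσ, map_mul, hC, map_mul, map_zpow₀, map_pow (coeffMap _), hfH σ hσ, hser] at h1
    have hCne : (HahnSeries.C (r ^ p) : LaurentSeries ℚbar) ≠ 0 :=
      (map_ne_zero _).2 (pow_ne_zero p hr0)
    exact (mul_left_cancel₀ (zpow_ne_zero _ hf') (mul_left_cancel₀ hCne h1)).symm

section AtkinLehner

variable {M q : ℕ} [NeZero M] [hq : Fact q.Prime] (hqM : ¬ q ∣ M)

/-- The involution of the function field is the product over `w_q`. -/
theorem embed_wEquiv [NeZero q] (w : ALData q M) (x : modularFunctionFieldBar (M * q)) :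
    embed ιbar (M * q) (wEquiv w hq.out x) =
      funOp (wSys M q hqM) (embed ιbar (M * q) x) := by
  obtain ⟨-, g, hg⟩ := wSet_cover M q hqM (A := w.mat) (by
    refine ⟨w.det_mat, ?_, ?_, ?_⟩ <;> simp [ALData.mat, mul_comm])
  have h1 : embed ιbar (M * q) (wEquiv w hq.out x) = w.act (embed ιbar (M * q) x) :=
    embed_wHom w hq.out x
  have hd : 0 < (wMat M q).det := by rw [det_wMat M q hqM]; exact_mod_cast hq.out.pos
  rw [h1, funOp_apply, Fintype.prod_unique, ALData.act, intComp_congr _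
    (by rw [Matrix.det_mul, mcoe_det, one_mul]; exact hd) hg,
    intComp_mcoe_mul _ hd, slComp_embed ιbar x g.2]
  rfl

omit [NeZero M] in
/-- `T_ℓ` commutes with `w_q` on invariant functions. -/
theorem funOp_heckeSys_wSys {ℓ : ℕ} [hℓF : Fact ℓ.Prime] (hℓ : ¬ ℓ ∣ M * q) {y : MeroH}
    (hy : ∀ γ ∈ Gamma0 (M * q), slComp γ y = y) :
    funOp (heckeSys (M * q) ℓ hℓ) (funOp (wSys M q hqM) y) =
      funOp (wSys M q hqM) (funOp (heckeSys (M * q) ℓ hℓ) y) := by
  have : NeZero ℓ := ⟨hℓF.out.ne_zero⟩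
  have key : ∀ x : OnePoint (ZMod ℓ), ∃ (z : OnePoint (ZMod ℓ)) (g : Gamma0 (M * q)),
      wMat M q * zRep ℓ x = mcoe g * (zRep ℓ z * wMat M q) := by
    intro x
    obtain ⟨A, hA, he⟩ := wMat_conj M q hqM (heckeSet_zRep (M * q) ℓ x)
    obtain ⟨z, g, rfl⟩ := heckeSet_cover hℓF.out hℓ A hA
    exact ⟨z, g, by rw [he, mul_assoc]⟩
  choose σ g hσ using key
  have hinj : Function.Injective σ := by
    intro x x' hxx'
    obtain ⟨g₀, hg₀⟩ := wMat_sq M q hqM
    have h1 : wMat M q * zRep ℓ x = mcoe (g x * (g x')⁻¹ : Gamma0 (M * q))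
        * (wMat M q * zRep ℓ x') := by
      rw [hσ x, hσ x', hxx', Subgroup.coe_mul, Subgroup.coe_inv, mcoe_mul, mul_assoc,
        mcoe_inv_mul_cancel]
    obtain ⟨h', hh'⟩ := wMat_conj_one M q hqM (g x * (g x')⁻¹)
    have h2 := congrArg (fun X => wMat M q * X) h1
    simp only [← mul_assoc] at h2
    rw [hh', mul_assoc (mcoe h') (wMat M q), hg₀, Matrix.smul_mul, Matrix.mul_smul,
      Matrix.smul_mul] at h2
    have h3 := smul_right_injective Mat2 (by exact_mod_cast hq.out.ne_zero) h2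
    refine zRep_inj hℓF.out (g := ((g₀⁻¹ * (h' * g₀) : Gamma0 (M * q)) : SL(2, ℤ))) ?_
    rw [Subgroup.coe_mul, Subgroup.coe_mul, Subgroup.coe_inv, mcoe_mul, mcoe_mul, mul_assoc,
      ← h3, mcoe_inv_mul_cancel]
  rw [funOp_funOp, funOp_funOp]
  let e : Unit × OnePoint (ZMod ℓ) ≃ OnePoint (ZMod ℓ) × Unit :=
    ((Equiv.refl Unit).prodCongr
      (Equiv.ofBijective σ (Finite.injective_iff_bijective.mp hinj))).trans (Equiv.prodComm _ _)
  refine Fintype.prod_equiv e _ _ fun z => ?_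
  have hd : 0 < (zRep ℓ (σ z.2) * wMat M q).det := by
    rw [Matrix.det_mul, det_zRep, det_wMat M q hqM]
    exact mul_pos (Int.natCast_pos.2 hℓF.out.pos) (Int.natCast_pos.2 hq.out.pos)
  refine (intComp_congr _ (by rw [Matrix.det_mul, mcoe_det, one_mul]; exact hd) (hσ z.2) y).trans ?_
  rw [intComp_mcoe_mul _ hd, hy _ (g z.2).2]
  rfl

end AtkinLehner

end Fermat.Agent.LevelLowerP
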