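import Fermat.Agent.Conductor.Residual
import Fermat.Agent.Carayol.Endgame.Converse
import Fermat.Agent.Carayol.Endgame.Quadratic
import Fermat.Agent.GalRep.DatumJZero
import Fermat.Agent.Density.BrauerNesbitt

/-!
# A vector of a Hecke eigenspace modulo `p` fixed by the stabiliser of a `p`-torsion point

If the Frobenius elements satisfy on a Hecke eigenspace of `J₀(N)[p]` the quadratic relations of
the irreducible `E[p]`, the matrix algebra spanned by `E[p]` acts on that eigenspace.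
-/

set_option autoImplicit false

noncomputable section

namespace Fermat.Agent.LevelLowerP

open Matrix WeierstrassCurve WeierstrassCurve.Affine.Point IsLocalRing
open Fermat.Agent.Cosets (homRank)
open Fermat.Agent.GalRep (heckeMat torsRho MatrixContinuous)
open Fermat.Agent.Carayol.Endgame (QuadRel quadRel_of_forall_frobenius exists_algHom)
open scoped WeierstrassCurve.Affine

local notation "ℚbar" => AlgebraicClosure ℚ
local notation "Γℚbar" => AlgebraicClosure ℚ ≃ₐ[ℚ] AlgebraicClosure ℚ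

/-- A homomorphism to matrices over a field through a finite level is adically continuous. -/
theorem matrixContinuous_of_finiteLevel {k : Type} [Field k] {r : Type*} [Fintype r] [DecidableEq r]
    (R : Γℚbar →* Matrix r r k) (L : IntermediateField ℚ ℚbar) (hL : FiniteDimensional ℚ L)
    (h : ∀ σ : Γℚbar, (∀ x ∈ L, σ x = x) → R σ = 1) : MatrixContinuous R :=
  fun n => ⟨L, hL, fun σ hσ i j => by rw [h σ hσ, sub_self]; exact zero_mem _⟩

/-- The vectors modulo `p` with prescribed eigenvalues at a set of primes. -/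
def eigVecs (N : ℕ) [NeZero N] (p : ℕ) (a : Nat.Primes → ℤ) (S : Set Nat.Primes) :
    Submodule (ZMod p) (Fin (homRank N) → ZMod p) :=
  ⨅ q : S, LinearMap.ker (Matrix.toLin' ((heckeMat N q.1).map (Int.cast : ℤ → ZMod p)) -
    (a q.1 : ZMod p) • LinearMap.id)

theorem mem_eigVecs {N : ℕ} [NeZero N] {p : ℕ} {a : Nat.Primes → ℤ} {S : Set Nat.Primes}
    {v : Fin (homRank N) → ZMod p} :
    v ∈ eigVecs N p a S ↔
      ∀ q ∈ S, (heckeMat N q).map (Int.cast : ℤ → ZMod p) *ᵥ v = (a q : ZMod p) • v := by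
  simp [eigVecs, sub_eq_zero]

theorem Δ_ne_zero_of_isIntegralModelOf {E : WeierstrassCurve ℚ} (hE : E.Δ ≠ 0)
    {W : WeierstrassCurve ℤ} (hW : W.IsIntegralModelOf E) : W.Δ ≠ 0 := by
  obtain ⟨C, hC⟩ := hW
  intro h0
  have h1 := congrArg WeierstrassCurve.Δ hC
  rw [variableChange_Δ, map_Δ, h0, _root_.map_zero] at h1
  exact hE ((mul_eq_zero.1 h1).resolve_left (pow_ne_zero _ (Units.ne_zero _)))

/-- **The fixed vector.** -/
theorem exists_fixed_eigvec {W₀ : WeierstrassCurve ℤ} (hΔ : W₀.Δ ≠ 0) (E : WeierstrassCurve ℚ)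
    (hE : E = W₀.map (Int.castRingHom ℚ)) {p : ℕ} [Fact p.Prime] (hp2 : p ≠ 2)
    (hirr : GaloisRepIsIrreducible (K := ℚbar) ℚ E p)
    {W : WeierstrassCurve ℤ} (hW : W.IsIntegralModelOf E)
    {N : ℕ} [NeZero N] (hred : GalRep.TorsionReduction N p) (a : Nat.Primes → ℤ)
    (S : Set Nat.Primes)
    (hS : ∀ q : Nat.Primes, W.IsGoodPrimeFor q → ¬ (q : ℕ) ∣ N * p →
      q ∈ S ∧ a q = W.apOfModel q)
    (hv : ∃ v : Fin (homRank N) → ZMod p, v ≠ 0 ∧ v ∈ eigVecs N p a S)
    (H : Subgroup Γℚbar) (Q : (E⁄ℚbar).Point) (hQ0 : Q ≠ 0) (hQp : p • Q = 0)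
    (hQfix : ∀ σ ∈ H, σ • Q = Q) :
    ∃ v : Fin (homRank N) → ZMod p, v ≠ 0 ∧ v ∈ eigVecs N p a S ∧
      ∀ σ ∈ H, torsRho N p σ *ᵥ v = v := by
  classical
  have hp : p.Prime := Fact.out
  have : E.IsElliptic := hE ▸ EC.Frobenius.isElliptic_map_rat hΔ
  have hcard := Isogeny.card_torsionBy_baseChange (K := ℚbar) E (n := p)
    (Nat.cast_ne_zero.mpr hp.ne_zero)
  have hker := EC.Frobenius.galoisFactorsThroughFiniteLevel_torsion E hp.ne_zero
  set ρE := E.residualGaloisRepOf p hcard hker with hρE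
  have h2 : (2 : ZMod p) ≠ 0 := by
    have h2p : ((2 : ℕ) : ZMod p) ≠ 0 := by
      rw [ne_eq, ZMod.natCast_eq_zero_iff]
      exact fun h => hp2 ((Nat.prime_dvd_prime_iff_eq hp Nat.prime_two).mp h)
    exact_mod_cast h2p
  have hdetc : LinearMap.det (ρE.ρ complexConjugation) = -1 := by
    subst hE
    exact Conductor.det_involution W₀ hΔ p hp2 complexConjugation_mul_self
      Conductor.complexConjugation_ne_one
  have habs : ρE.IsAbsolutelyIrreducible :=
    (Conductor.splitData_of_irreducible (ρ := ρE) h2 (fun U hU => hirr.2 U fun σ x hx => hU σ x hx)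
      complexConjugation_mul_self hdetc).isAbsolutelyIrreducible h2
  -- matrices on `E[p]`
  let b := Module.finBasisOfFinrankEq (ZMod p) ρE.V ρE.finrank_eq
  let e := LinearMap.toMatrixAlgEquiv b
  let R₂ : Γℚbar →* Matrix (Fin 2) (Fin 2) (ZMod p) := e.toAlgHom.toMonoidHom.comp ρE.ρ
  have hR₂ : MatrixContinuous R₂ := by
    obtain ⟨L, hL, h⟩ := hker
    exact matrixContinuous_of_finiteLevel R₂ L hL fun σ hσ => by
      show e (ρE.ρ σ) = 1
      rw [show ρE.ρ σ = 1 from h σ hσ, map_one]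
  have hspan : Submodule.span (ZMod p) (Set.range R₂) = ⊤ := by
    rw [show Set.range R₂ = e.toLinearMap '' Set.range ρE.ρ by rw [← Set.range_comp]; rfl,
      Submodule.span_image, Density.span_range_eq_top_of_isAbsolutelyIrreducible ρE habs,
      Submodule.map_top]
    exact LinearMap.range_eq_top.mpr e.surjective
  -- the eigenspace
  set V := eigVecs N p a S with hV
  have hstab : ∀ σ, ∀ v ∈ V, torsRho N p σ *ᵥ v ∈ V := fun σ v hv => by
    rw [mem_eigVecs] at hv ⊢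
    intro q hq
    rw [Matrix.mulVec_mulVec, ← (GalRep.torsRho_commute N p σ q).eq, ← Matrix.mulVec_mulVec,
      hv q hq, Matrix.mulVec_smul]
  let ρV : Γℚbar →* Module.End (ZMod p) V :=
    { toFun := fun σ => (Matrix.mulVecLin (torsRho N p σ)).restrict (hstab σ)
      map_one' := LinearMap.ext fun v => Subtype.ext (by
        show torsRho N p 1 *ᵥ (v : Fin (homRank N) → ZMod p) = v
        rw [map_one, Matrix.one_mulVec])
      map_mul' := fun σ τ => LinearMap.ext fun v => Subtype.ext (by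
        show torsRho N p (σ * τ) *ᵥ (v : Fin (homRank N) → ZMod p) =
          torsRho N p σ *ᵥ (torsRho N p τ *ᵥ v)
        rw [map_mul, Matrix.mulVec_mulVec]) }
  let bV := Module.finBasis (ZMod p) V
  let eV := LinearMap.toMatrixAlgEquiv bV
  let R : Γℚbar →* Matrix _ _ (ZMod p) := eV.toAlgHom.toMonoidHom.comp ρV
  have hR : MatrixContinuous R := by
    obtain ⟨L, hL, h⟩ := GalRep.torsRho_finiteLevel N p
    exact matrixContinuous_of_finiteLevel R L hL fun σ hσ => by
      show eV (ρV σ) = 1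
      rw [show ρV σ = 1 from LinearMap.ext fun v => Subtype.ext (by
        show torsRho N p σ *ᵥ (v : Fin (homRank N) → ZMod p) = v
        rw [h σ hσ, Matrix.one_mulVec]), map_one]
  have hWΔ : W.Δ ≠ 0 := Δ_ne_zero_of_isIntegralModelOf
    (by rw [hE, map_Δ]; exact (map_ne_zero_iff _ Int.cast_injective).2 hΔ) hW
  -- the quadratic relations
  have hquad : ∀ σ, QuadRel (R σ) (R₂ σ) := by
    refine quadRel_of_forall_frobenius R hR R₂ hR₂
      (↑(W.Δ.natAbs.primeFactors ∪ (N * p).primeFactors)) (Finset.finite_toSet _)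
      fun ℓ hℓ hℓS A hA τ hτ => ?_
    simp only [Finset.coe_union, Set.mem_union, Finset.mem_coe, Nat.mem_primeFactors,
      not_or] at hℓS
    have hgood : W.IsGoodPrimeFor ℓ := fun hd =>
      hℓS.1 ⟨hℓ, Int.natCast_dvd.mp hd, Int.natAbs_ne_zero.mpr hWΔ⟩
    have hℓNp : ¬ ℓ ∣ N * p := fun hd =>
      hℓS.2 ⟨hℓ, hd, mul_ne_zero (NeZero.ne N) hp.ne_zero⟩
    have hℓp : p ≠ ℓ := fun h => hℓNp (h ▸ dvd_mul_left p N)
    obtain ⟨htr, hdet, -⟩ :=
      haveI := EC.Frobenius.moduleFinite_torsion E p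
      EC.Frobenius.trace_det_charpoly_of_isIntegralModelOf hW hℓ hgood hℓp hA hτ
    have ht : (R₂ τ).trace = (W.apOfModel ℓ : ZMod p) :=
      (LinearMap.trace_eq_matrix_trace (ZMod p) b (ρE.ρ τ)).symm.trans htr
    have hd : (R₂ τ).det = (ℓ : ZMod p) := (LinearMap.det_toMatrix b (ρE.ρ τ)).trans hdet
    obtain ⟨hmem, ha⟩ := hS ⟨ℓ, hℓ⟩ hgood hℓNp
    have hrel : ρV τ * ρV τ - (W.apOfModel ℓ : ZMod p) • ρV τ + (ℓ : ZMod p) • 1 = 0 := by
      refine LinearMap.ext fun v => Subtype.ext ?_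
      have h1 := congrArg (· *ᵥ (v : Fin (homRank N) → ZMod p))
        (GalRep.torsRho_quadratic N p τ ⟨ℓ, hℓ⟩ ℓ fun x hx =>
          (hred ℓ hℓ hℓNp A hA).2 τ hτ x ⟨1, by rwa [pow_one]⟩)
      simp only [Matrix.add_mulVec, Matrix.sub_mulVec, Matrix.zero_mulVec,
        ← Matrix.mulVec_mulVec] at h1
      rw [mem_eigVecs.1 (hstab τ _ v.2) _ hmem, ha] at h1
      show torsRho N p τ *ᵥ (torsRho N p τ *ᵥ (v : Fin (homRank N) → ZMod p)) -
        (W.apOfModel ℓ : ZMod p) • (torsRho N p τ *ᵥ (v : Fin (homRank N) → ZMod p)) +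
        (ℓ : ZMod p) • (v : Fin (homRank N) → ZMod p) = 0
      rw [← h1]
      congr 1
      rw [← Matrix.diagonal_natCast]
      funext i
      simp [Matrix.mulVec_diagonal]
    have h' := congrArg eV hrel
    rw [map_add, map_sub, map_smul, map_smul, map_mul, map_one, _root_.map_zero] at h'
    show eV (ρV τ) * eV (ρV τ) - (R₂ τ).trace • eV (ρV τ) + (R₂ τ).det • 1 = 0
    rw [ht, hd]
    exact h'
  obtain ⟨ψ, hψ⟩ := exists_algHom (E := Matrix _ _ (ZMod p)) hquad hspan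
    fun t m h => smul_eq_zero.mp h
  -- the point as a vector
  have hQt : Q ∈ Submodule.torsionBy ℤ (E⁄ℚbar).Point p :=
    (Submodule.mem_torsionBy_iff _ _).2 (by rw [natCast_zsmul, hQp])
  let Qv : ρE.V := ⟨Q, hQt⟩
  let u : Fin 2 → ZMod p := b.repr Qv
  have hu0 : u ≠ 0 := fun h => hQ0 (congrArg Subtype.val (show Qv = 0 from
    b.repr.map_eq_zero_iff.1 (Finsupp.ext fun i => congrFun h i)))
  have hufix : ∀ σ ∈ H, R₂ σ *ᵥ u = u := fun σ hσ => by
    show LinearMap.toMatrix b b (ρE.ρ σ) *ᵥ ⇑(b.repr Qv) = ⇑(b.repr Qv)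
    rw [LinearMap.toMatrix_mulVec_repr]
    have : ρE.ρ σ Qv = Qv := Subtype.ext (hQfix σ hσ)
    rw [this]
  obtain ⟨i, hi⟩ : ∃ i, u i ≠ 0 := by
    by_contra hcon
    push Not at hcon
    exact hu0 (funext hcon)
  let M₀ : Matrix (Fin 2) (Fin 2) (ZMod p) := Matrix.vecMulVec u (Pi.single 0 1)
  have hM₀ : M₀ i 0 ≠ 0 := by simpa [M₀, Matrix.vecMulVec_apply] using hi
  have hM₀fix : ∀ σ ∈ H, R₂ σ * M₀ = M₀ := fun σ hσ => by
    rw [Matrix.mul_vecMulVec, hufix σ hσ]
  obtain ⟨v, hv0, hvV⟩ := hv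
  have : Nontrivial V := ⟨⟨⟨v, hvV⟩, 0, fun h => hv0 (congrArg Subtype.val h)⟩⟩
  have hψM : ψ M₀ ≠ 0 := fun h0 => by
    have h1 : M₀ i 0 • (1 : Matrix _ _ (ZMod p)) = (0 : Matrix (Fin (Module.finrank (ZMod p) V))
        (Fin (Module.finrank (ZMod p) V)) (ZMod p)) := by
      rw [← map_one ψ, ← map_smul, show M₀ i 0 • (1 : Matrix (Fin 2) (Fin 2) (ZMod p)) =
        ∑ k, Matrix.single k i 1 * M₀ * Matrix.single 0 k 1 by
          ext x y
          fin_cases x <;> fin_cases y <;>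
            simp [Matrix.mul_apply, Fin.sum_univ_two, Matrix.single], map_sum]
      exact Finset.sum_eq_zero fun k _ => by rw [map_mul, map_mul, h0, mul_zero, zero_mul]
    have : Nonempty (Fin (Module.finrank (ZMod p) V)) := ⟨⟨0, Module.finrank_pos⟩⟩
    exact hM₀ ((smul_eq_zero.1 h1).resolve_right one_ne_zero)
  obtain ⟨r, c, hrc⟩ : ∃ r c, ψ M₀ r c ≠ 0 := by
    by_contra hcon
    push Not at hcon
    exact hψM (Matrix.ext hcon)
  let x : V := eV.symm (ψ M₀) (bV c)
  refine ⟨x, fun h0 => hrc ?_, x.2, fun σ hσ => ?_⟩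
  · have h1 : ψ M₀ = eV (eV.symm (ψ M₀)) := (eV.apply_symm_apply _).symm
    rw [h1, LinearMap.toMatrixAlgEquiv_apply, show eV.symm (ψ M₀) (bV c) = 0 from Subtype.ext h0,
      _root_.map_zero, Finsupp.zero_apply]
  · have h1 : ρV σ * eV.symm (ψ M₀) = eV.symm (ψ M₀) := eV.injective (by
      rw [map_mul, AlgEquiv.apply_symm_apply]
      show R σ * ψ M₀ = ψ M₀
      rw [← hψ σ, ← map_mul, hM₀fix σ hσ])
    exact congrArg Subtype.val (LinearMap.congr_fun h1 (bV c))

end Fermat.Agent.LevelLowerP
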