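import Fermat.Agent.Ihara.Relations
import Fermat.Agent.Kummer.Twist

/-!
# The twist by the Atkin–Lehner involution of level `N` and the other correspondences
-/

set_option autoImplicit false

noncomputable section

namespace Fermat.Agent.LevelLowerP

open Matrix CongruenceSubgroup
open Fermat.Agent.Ihara
open Fermat.Agent.Kummer (wFun wFun_wFun twist twist_apply wFun_apply_of_eq exists_lower_eq)
open scoped MatrixGroups

/-- The matrix of the Atkin–Lehner involution of level `N`. -/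
def fMat (N : ℕ) : Mat2 := !![0, -1; (N : ℤ), 0]

theorem det_fMat (N : ℕ) : (fMat N).det = N := by simp [fMat]

variable {N : ℕ} [NeZero N]

theorem fMat_mul_mcoe (γ : Gamma0 N) : fMat N * mcoe γ = mcoe (wFun γ) * fMat N := by
  obtain ⟨c, hc⟩ := exists_lower_eq γ
  show fMat N * mcoe γ = ((wFun γ : SL(2, ℤ)) : Mat2) * fMat N
  rw [wFun_apply_of_eq hc, fMat]
  ext i j
  fin_cases i <;> fin_cases j <;> simp [Matrix.mul_apply, Fin.sum_univ_two, hc, mul_comm]

theorem fMat_left_cancel {a b : Mat2} (h : fMat N * a = fMat N * b) : a = b := by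
  have h2 := congrArg (fun X : Mat2 => (fMat N).adjugate * X) h
  simp only [← mul_assoc, Matrix.adjugate_mul, Matrix.smul_mul, one_mul] at h2
  exact smul_right_injective _ (by rw [det_fMat]; exact_mod_cast NeZero.ne N) h2

variable (N) in
/-- The Atkin–Lehner involution of level `N` as a correspondence. -/
def fSys : CosetSys (Gamma0 N) (Gamma0 N) Unit where
  α _ := fMat N
  pos _ := by rw [det_fMat]; exact_mod_cast NeZero.pos N
  exists_perm γ _ := ⟨(), wFun γ, fMat_mul_mcoe γ⟩
  inj _ _ _ _ := rfl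

theorem fSys_α (u : Unit) : (fSys N).α u = fMat N := rfl

theorem fSys_op {R : Type*} [Semiring R] {A : Type*} [AddCommGroup A] [Module R A]
    (φ : Additive (Gamma0 N) →+ A) : (fSys N).op R A φ = twist φ := by
  refine AddMonoidHom.ext fun γ => ?_
  obtain ⟨γ, rfl⟩ := Additive.ofMul.surjective γ
  rw [(fSys N).op_apply_of_eq φ γ id (fun _ => wFun γ) (fun _ => fMat_mul_mcoe γ),
    Fintype.sum_unique, twist_apply]

theorem twist_zsmul {A : Type*} [AddCommGroup A] (c : ℤ) (φ : Additive (Gamma0 N) →+ A) :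
    twist (c • φ) = c • twist φ := AddMonoidHom.ext fun _ => rfl

/-- `T_ℓ` commutes with the twist. -/
theorem twist_heckeSys {ℓ : ℕ} [hℓF : Fact ℓ.Prime] (hℓ : ¬ ℓ ∣ N) {A : Type*} [AddCommGroup A]
    (φ : Additive (Gamma0 N) →+ A) :
    (heckeSys N ℓ hℓ).op ℤ A (twist φ) = twist ((heckeSys N ℓ hℓ).op ℤ A φ) := by
  have : NeZero ℓ := ⟨hℓF.out.ne_zero⟩
  have key : ∀ x : OnePoint (ZMod ℓ), ∃ (y : OnePoint (ZMod ℓ)) (g : Gamma0 N),
      fMat N * zRep ℓ x = mcoe g * (zRep ℓ y * fMat N) := by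
    intro x
    obtain ⟨hdet, c, hc⟩ := heckeSet_zRep N ℓ x
    obtain ⟨y, g, hg⟩ := heckeSet_cover hℓF.out hℓ
      !![zRep ℓ x 1 1, -c; -((N : ℤ) * zRep ℓ x 0 1), zRep ℓ x 0 0] ⟨by
        rw [Matrix.det_fin_two] at hdet
        rw [Matrix.det_fin_two_of]
        linear_combination hdet + zRep ℓ x 0 1 * hc, by simp⟩
    refine ⟨y, g, ?_⟩
    rw [← mul_assoc, ← hg, fMat]
    ext i j
    fin_cases i <;> fin_cases j <;> simp [Matrix.mul_apply, Fin.sum_univ_two, hc, mul_comm]
  choose σ g hσ using key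
  have hinj : Function.Injective σ := by
    intro x x' hxx'
    have h1 : fMat N * zRep ℓ x = mcoe (g x * (g x')⁻¹ : Gamma0 N) * (fMat N * zRep ℓ x') := by
      rw [hσ x, hσ x', hxx', Subgroup.coe_mul, Subgroup.coe_inv, mcoe_mul, mul_assoc,
        mcoe_inv_mul_cancel]
    have h2 := fMat_mul_mcoe (wFun (g x * (g x')⁻¹))
    rw [wFun_wFun] at h2
    rw [← mul_assoc, ← h2, mul_assoc] at h1
    exact zRep_inj hℓF.out (fMat_left_cancel h1)
  let e : Unit × OnePoint (ZMod ℓ) ≃ OnePoint (ZMod ℓ) × Unit :=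
    ((Equiv.refl Unit).prodCongr
      (Equiv.ofBijective σ (Finite.injective_iff_bijective.mp hinj))).trans (Equiv.prodComm _ _)
  rw [← fSys_op (R := ℤ), ← fSys_op (R := ℤ)]
  refine op_comp_congr _ _ _ _ e 1 one_ne_zero ?_ (fun x => ⟨g x.2, ?_⟩) φ
  · intro i i' x x' h he
    simp only [fSys_α, heckeSys_α] at he
    rw [← mul_assoc] at he
    rw [zRep_inj hℓF.out (mat2_right_cancel (by rw [det_fMat]; exact_mod_cast NeZero.ne N) he)]
  · simp only [fSys_α, heckeSys_α, one_smul]
    exact hσ x.2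

section TwoLevels

variable (M q : ℕ) [NeZero M] [hq : Fact q.Prime] (hqM : ¬ q ∣ M)

omit [NeZero M] in
/-- `w_q` commutes with the twist. -/
theorem twist_wSys [NeZero (M * q)] {A : Type*} [AddCommGroup A]
    (φ : Additive (Gamma0 (M * q)) →+ A) :
    (wSys M q hqM).op ℤ A (twist φ) = twist ((wSys M q hqM).op ℤ A φ) := by
  obtain ⟨-, g, hg⟩ := wSet_cover M q hqM
    (A := !![(q : ℤ), -1; -(((M * q : ℕ) : ℤ) * (bezout M q).2), (q : ℤ) * (bezout M q).1]) (by
    refine ⟨?_, by simp, by simp, by simp⟩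
    rw [Matrix.det_fin_two_of]
    push_cast
    linear_combination (q : ℤ) * bezout_eq M q hqM)
  rw [← fSys_op (R := ℤ), ← fSys_op (R := ℤ)]
  refine op_comp_congr _ _ _ _ (Equiv.refl _) 1 one_ne_zero (fun i i' x x' _ _ => rfl)
    (fun _ => ⟨g, ?_⟩) φ
  simp only [fSys_α, wSys_α, one_smul]
  rw [← mul_assoc, ← hg, fMat, wMat]
  ext i j
  fin_cases i <;> fin_cases j <;> simp [Matrix.mul_apply, Fin.sum_univ_two]; ring1

/-- Corestriction after the twist is the twist of the second trace. -/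
theorem corSys_twist [NeZero (M * q)] {A : Type*} [AddCommGroup A]
    (φ : Additive (Gamma0 (M * q)) →+ A) :
    (corSys M q hqM).op ℤ A (twist φ) = twist ((traceSys M q hqM).op ℤ A φ) := by
  have : NeZero q := ⟨hq.out.ne_zero⟩
  -- `diag (1, q) = w s`
  let s : Gamma0 M := ⟨slMk 1 (-(bezout M q).2) (-(M : ℤ)) ((q : ℤ) * (bezout M q).1)
    (by linear_combination bezout_eq M q hqM), slMk_mem _ (dvd_neg.2 dvd_rfl)⟩
  have hws : fMat (M * q) = wMat M q * mcoe s * fMat M := by
    rw [show mcoe (s : SL(2, ℤ)) =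
      !![1, -(bezout M q).2; -(M : ℤ), (q : ℤ) * (bezout M q).1] from rfl, fMat, fMat, wMat]
    have hb := bezout_eq M q hqM
    ext i j
    fin_cases i <;> fin_cases j <;> simp [Matrix.mul_apply, Fin.sum_univ_two]
    · left; ring
    · linear_combination hb
    · linear_combination -((M : ℤ) * q) * hb
    · ring
  have key : ∀ x : OnePoint (ZMod q), ∃ (y : OnePoint (ZMod q)) (g : Gamma0 (M * q)),
      fMat (M * q) * mcoe (corRep M q hqM x) =
        mcoe g * (wMat M q * mcoe (corRep M q hqM y) * fMat M) := by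
    intro x
    set r : Gamma0 M := ⟨corRep M q hqM x, corRep_mem M q hqM x⟩
    obtain ⟨y, k, hk⟩ := corRep_cover M q hqM (s * wFun r)
    obtain ⟨k', hk'⟩ := wMat_conj_one M q hqM k
    refine ⟨y, k', ?_⟩
    rw [Subgroup.coe_mul, mcoe_mul] at hk
    rw [hws, mul_assoc (wMat M q * mcoe s), show fMat M * mcoe (corRep M q hqM x) =
      mcoe (wFun r) * fMat M from fMat_mul_mcoe r, ← mul_assoc, mul_assoc (wMat M q), hk,
      ← mul_assoc (wMat M q), hk']
    simp only [mul_assoc]
  choose σ g hσ using key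
  have hinj : Function.Injective σ := by
    intro x x' hxx'
    have h1 : fMat (M * q) * mcoe (corRep M q hqM x) = mcoe (g x * (g x')⁻¹ : Gamma0 (M * q)) *
        (fMat (M * q) * mcoe (corRep M q hqM x')) := by
      rw [hσ x, hσ x', hxx', Subgroup.coe_mul, Subgroup.coe_inv, mcoe_mul,
        mul_assoc (mcoe (g x).1), mcoe_inv_mul_cancel]
    set u := wFun (g x * (g x')⁻¹)
    have h2 : fMat (M * q) * mcoe u = mcoe (g x * (g x')⁻¹ : Gamma0 (M * q)) * fMat (M * q) := by
      rw [fMat_mul_mcoe u, wFun_wFun]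
    rw [← mul_assoc, ← h2, mul_assoc, ← mcoe_mul] at h1
    refine corRep_inj M q hqM ?_
    rw [mcoe_injective (fMat_left_cancel h1), mul_inv_cancel_right]
    exact u.2
  let e : Unit × OnePoint (ZMod q) ≃ (Unit × OnePoint (ZMod q)) × Unit :=
    ((Equiv.refl Unit).prodCongr
      (Equiv.ofBijective σ (Finite.injective_iff_bijective.mp hinj))).trans (Equiv.prodPUnit _).symm
  rw [← fSys_op (R := ℤ), ← fSys_op (R := ℤ)]
  refine op_comp_congr _ _ _ _ e 1 one_ne_zero ?_ (fun x => ⟨g x.2, ?_⟩) φ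
  · intro i i' x x' h he
    simp only [fSys_α] at he
    rw [← mul_assoc] at he
    rw [(traceSys M q hqM).inj _ _ _
      (mat2_right_cancel (by rw [det_fMat]; exact_mod_cast NeZero.ne M) he)]
  · simp only [fSys_α, one_smul]
    exact hσ x.2

end TwoLevels

end Fermat.Agent.LevelLowerP
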