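import Fermat.Agent.LevelLowerP.ArithEigen
import Fermat.Agent.LevelLowerP.ArithTorsion
import Fermat.Agent.LevelLowerP.ArithLower
import Fermat.Agent.LevelLowerP.ArithTwist
import Fermat.Agent.LevelLowerP.ArithNormal
import Fermat.Agent.LevelLowerP.ArithRelation

/-!
# Level lowering at `p`: the point data of a Frey package
-/

set_option autoImplicit false

noncomputable section

open CongruenceSubgroup ModularCurve AlgebraicCurve Matrix
open scoped MatrixGroups WeierstrassCurve.Affine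

namespace Fermat.Agent.LevelLowerP

open Fermat.Agent.Kummer Fermat.Agent.Kummer.MeroH
open Fermat.Agent.Cosets (parEllHoms parCoord homRank parCoord_apply)
open Fermat.Agent.Ihara
open Fermat.Agent.Semistable (ALData wEquiv wEquiv_arithmeticRingAut cuspInf ord_cuspInf)
open Fermat.Agent.GalRep (torsCoord torsRho torsRho_mulVec parCoord_torsCoord heckeMat)

local notation "ℚbar" => AlgebraicClosure ℚ
local notation "Γℚbar" => AlgebraicClosure ℚ ≃ₐ[ℚ] AlgebraicClosure ℚ

theorem coe_rel {N : ℕ} (c : ℚbar) (f h : modularFunctionFieldBar N) (a : ℤ) (n : ℕ) :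
    ((algebraMap ℚbar (modularFunctionFieldBar N) c * f ^ a * h ^ n : modularFunctionFieldBar N) :
      LaurentSeries ℚbar) =
      HahnSeries.C c * (f : LaurentSeries ℚbar) ^ a * (h : LaurentSeries ℚbar) ^ n := by
  rw [MulMemClass.coe_mul, MulMemClass.coe_mul, SubmonoidClass.coe_pow, coe_zpow_fun]
  congr 2
  show algebraMap ℚbar (LaurentSeries ℚbar) c = _
  rw [algebraMap_laurentSeries_eq_single, HahnSeries.C_apply]

theorem fixedBy_wEquiv {M q : ℕ} [NeZero M] [NeZero q] (w : ALData q M) (hq : q.Prime)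
    {H : Subgroup Γℚbar} {x : modularFunctionFieldBar (M * q)} (hx : FixedBy (M * q) H x) :
    FixedBy (M * q) H (wEquiv w hq x) := fun σ hσ => by
  have h1 : arithmeticRingAut (modularFunctionFieldFull (M * q)) σ x = x := Subtype.ext (hx σ hσ)
  have h2 := wEquiv_arithmeticRingAut w hq σ x
  rw [h1] at h2
  exact (congrArg Subtype.val h2).symm

variable {M p : ℕ} [NeZero M] [Fact p.Prime]

/-- A correspondence with an eigen coordinate vector acts by a scalar on the Kummer class. -/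
theorem op_kummer_eq_zsmul [NeZero p] {ι : Type*} [Fintype ι]
    (S : CosetSys (Gamma0 (M * p)) (Gamma0 (M * p)) ι) {x : Tors (M * p) p} {c : ℤ}
    (h : (opMat S).map (Int.cast : ℤ → ZMod p) *ᵥ torsCoord (M * p) p x =
      c • torsCoord (M * p) p x) :
    S.op ℤ (ZMod p) (kummer (M * p) p x : Additive (Gamma0 (M * p)) →+ ZMod p) =
      c • (kummer (M * p) p x : Additive (Gamma0 (M * p)) →+ ZMod p) := by
  have hφ : (kummer (M * p) p x : Additive (Gamma0 (M * p)) →+ ZMod p) =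
      (parCoord (M * p) ℤ (ZMod p) (torsCoord (M * p) p x) :
        Additive (Gamma0 (M * p)) →+ ZMod p) := by
    rw [← parCoord_torsCoord]
    refine AddMonoidHom.ext fun γ => ?_
    obtain ⟨γ, rfl⟩ := Additive.ofMul.surjective γ
    rw [parCoord_apply, parCoord_apply]
  rw [hφ, op_parCoord_mulVec, h, map_zsmul, Submodule.coe_smul]

/-- **The point data of an eigenvector.** -/
theorem nonempty_pointData (hpM : ¬ p ∣ M) {W : WeierstrassCurve ℤ} {ε : ℤ}
    (hε : ε = 1 ∨ ε = -1) {H : Subgroup Γℚbar} {v : Fin (homRank (M * p)) → ZMod p} (hv0 : v ≠ 0)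
    (hv : v ∈ eigVecs (M * p) p (eigVal W p ε) (eigPrimes W p M))
    (hfix : ∀ σ ∈ H, torsRho (M * p) p σ *ᵥ v = v)
    (hinv : (invMat M p hpM).map (Int.cast : ℤ → ZMod p) *ᵥ v = -(ε : ZMod p) • v)
    (hcor : (corMat M p hpM).map (Int.cast : ℤ → ZMod p) *ᵥ
      ((invMat M p hpM).map (Int.cast : ℤ → ZMod p) *ᵥ v) = 0) :
    Nonempty (PointData W p M H) := by
  have hp : p.Prime := Fact.out
  have : NeZero p := ⟨hp.ne_zero⟩
  obtain ⟨x, rfl⟩ := (torsCoord (M * p) p).surjective v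
  set φ := (kummer (M * p) p x : Additive (Gamma0 (M * p)) →+ ZMod p) with hφdef
  set ψ := (multHom ιbar (M * p) p x : Additive (Gamma0 (M * p)) →+ ZMod p) with hψdef
  have hψ : ψ = twist φ := by rw [hφdef, coe_kummer, twist_twist]
  have hmem : ψ ∈ parEllHoms ℤ (Gamma0 (M * p)) (ZMod p) :=
    fun γ hγ => (multHom ιbar (M * p) p x).2 γ hγ
  have hwφ : (wSys M p hpM).op ℤ (ZMod p) φ = (-ε) • φ :=
    op_kummer_eq_zsmul _ (by
      rw [← Int.cast_smul_eq_zsmul (ZMod p), Int.cast_neg]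
      exact hinv)
  have hwψ : (wSys M p hpM).op ℤ (ZMod p) ψ = (-ε) • ψ := by
    rw [hψ, twist_wSys, hwφ, twist_zsmul]
  have hcorψ : (corSys M p hpM).op ℤ (ZMod p) ψ = 0 := by
    rw [hψ, corSys_twist, traceSys_op]
    have h1 : (corSys M p hpM).op ℤ (ZMod p) ((wSys M p hpM).op ℤ (ZMod p) φ) = 0 := by
      have e : φ = (parCoord (M * p) ℤ (ZMod p) (torsCoord (M * p) p x) :
          Additive (Gamma0 (M * p)) →+ ZMod p) := by
        rw [hφdef, ← parCoord_torsCoord]
        refine AddMonoidHom.ext fun γ => ?_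
        obtain ⟨γ, rfl⟩ := Additive.ofMul.surjective γ
        rw [parCoord_apply, parCoord_apply]
      rw [e, op_parCoord_mulVec, op_parCoord_mulVec]
      change ((parCoord M ℤ (ZMod p) ((corMat M p hpM).map Int.cast *ᵥ
        ((invMat M p hpM).map Int.cast *ᵥ torsCoord (M * p) p x)) : _) :
          Additive (Gamma0 M) →+ ZMod p) = 0
      rw [hcor, map_zero, Submodule.coe_zero]
    rw [h1]
    rfl
  have hUψ : (uSys M p).op ℤ (ZMod p) ψ = ε • ψ := by
    have h1 := resSys_corSys M p hpM ψ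
    rw [hcorψ, map_zero, hwψ, map_zsmul, neg_smul, eq_comm, add_neg_eq_zero] at h1
    conv_rhs => rw [h1]
    rw [← mul_smul]
    rcases hε with rfl | rfl <;> simp
  have hx0 : (x : JZero (M * p)) ≠ 0 := fun h => hv0 (by
    rw [show x = 0 from Subtype.ext h, map_zero])
  obtain ⟨f, G, hf, hdvd, hG, hGc, hGψ, hlead, hfH, hreg, hnp⟩ :=
    exists_normal_fun x hx0 H fun σ hσ => by
      have h1 := (torsRho_mulVec (M * p) p σ x).symm.trans (hfix σ hσ)
      exact congrArg Subtype.val ((torsCoord (M * p) p).injective h1)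
  obtain ⟨w⟩ := ALData.exists_of_coprime hp hpM
  have hD : ∀ i, ((wSys M p hpM).α i).det = (p : ℤ) := fun _ => det_wMat M p hpM
  refine ⟨{ ε := ε, ε_eq := hε, w := w, f := f, f_ne_zero := hf, f_fixed := hfH, ord_dvd := hdvd,
            regular := fun v ⟨g, _, hord⟩ => hreg v fun he => hord (by
              rw [he]; exact ord_cuspInf (M * p) g),
            not_pow := hnp, w_rel := ?_, U_rel := ?_, T_rel := ?_ }⟩
  · obtain ⟨c, h, hc, hh, hcH, hhH, e⟩ := exists_isPowTimes (wSys M p hpM) hD hf hlead hfH hG hGc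
      hGψ hmem (-ε) hwψ (embed_wEquiv hpM w f) (fixedBy_wEquiv w hp hfH)
    exact ⟨c, h, hc, hh, hcH, hhH, by rw [← coe_rel, ← e]⟩
  · obtain ⟨y, hy, hye⟩ := exists_embed_eq_uSys (ℓ := p) ιbar M f
    have hyH : FixedBy (M * p) H y := fun σ hσ => by
      rw [hy, coeffMap_seriesNorm, hfH σ hσ]
    obtain ⟨c, h, hc, hh, hcH, hhH, e⟩ := exists_isPowTimes (uSys M p) (det_uRep p) hf hlead hfH
      hG hGc hGψ hmem ε hUψ hye hyH
    exact ⟨c, h, hc, hh, hcH, hhH, by rw [← coe_rel, ← e, hy]⟩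
  · intro ℓ _ hℓ hgood hℓN
    have : Fact ℓ.Prime := ⟨hℓ⟩
    have hTψ : (heckeSys (M * p) ℓ hℓN).op ℤ (ZMod p) ψ = W.apOfModel ℓ • ψ := by
      rw [hψ, twist_heckeSys, op_kummer_eq_zsmul _ (c := W.apOfModel ℓ) ?_, twist_zsmul]
      rw [opMat_heckeSys (M * p) ⟨ℓ, hℓ⟩ hℓN, mem_eigVecs.1 hv ⟨ℓ, hℓ⟩ (Or.inr ⟨hgood, hℓN⟩),
        eigVal_of_not_dvd (q := ⟨ℓ, hℓ⟩) W ε hℓN, Int.cast_smul_eq_zsmul]
    obtain ⟨y, hy, hye⟩ := exists_embed_eq_heckeSys (ℓ := ℓ) ιbar (M * p) hℓN f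
    have hyH : FixedBy (M * p) H y := fun σ hσ => by
      rw [hy, map_mul, coeffMap_qExpand, coeffMap_seriesNorm, hfH σ hσ]
    obtain ⟨c, h, hc, hh, hcH, hhH, e⟩ := exists_isPowTimes (heckeSys (M * p) ℓ hℓN)
      (fun i => det_zRep ℓ i) hf hlead hfH hG hGc hGψ hmem _ hTψ hye hyH
    obtain ⟨y', hy', hye'⟩ :=
      exists_embed_eq_heckeSys (ℓ := ℓ) ιbar (M * p) hℓN (wEquiv w Fact.out f)
    have hw : y' = wEquiv w Fact.out y := embed_injective ιbar (M * p) (by
      rw [hye', embed_wEquiv hpM w, embed_wEquiv hpM w,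
        funOp_heckeSys_wSys hpM hℓN fun γ hγ => slComp_embed ιbar f hγ, ← hye])
    refine ⟨c, h, wEquiv w Fact.out h, hc, hh, (map_ne_zero _).2 hh, hcH, hhH,
      fixedBy_wEquiv w _ hhH, by rw [← hy, ← coe_rel, ← e], ?_⟩
    rw [← hy', ← coe_rel, hw, e, map_mul, map_mul, map_zpow₀, map_pow, AlgEquiv.commutes]

end Fermat.Agent.LevelLowerP
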