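import Fermat.Agent.LevelLowerP.CosetFun
import Fermat.Agent.LevelLowerP.SeriesNorm
import Fermat.Agent.Ihara.Families
import Mathlib.LinearAlgebra.Vandermonde

/-!
# The series norm as a product over conjugates, and the expansions of `U_ℓ` and `T_ℓ`
-/

set_option autoImplicit false

noncomputable section

open CongruenceSubgroup ModularCurve
open scoped MatrixGroups OnePoint

namespace Fermat.Agent.LevelLowerP

open Fermat.Agent.Kummer Fermat.Agent.Kummer.MeroH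
open Fermat.Agent.MFGenus (FL)
open Fermat.Agent.Ihara (uSys uRep heckeSys zRep zRep_coe zRep_infty)

section Rotate

variable {K : Type*} [Field K]

/-- The substitution `t ↦ ω t`. -/
def rotate (ω : K) (hω : ω ≠ 0) : LaurentSeries K →+* LaurentSeries K where
  toFun s := ⟨fun k => ω ^ k * s.coeff k, s.isPWO_support.mono fun k hk h0 => hk (by simp [h0])⟩
  map_one' := by
    ext k
    rcases eq_or_ne k 0 with rfl | hk <;> simp [HahnSeries.coeff_one, *]
  map_zero' := by ext k; simp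
  map_add' a b := by ext k; simp [mul_add]
  map_mul' a b := by
    ext k
    show ω ^ k * (a * b).coeff k = _
    rw [HahnSeries.coeff_mul_left' (s := a.support) a.isPWO_support subset_rfl,
      HahnSeries.coeff_mul_left' (s := a.support) a.isPWO_support
        (fun j hj h0 => hj (by simp [h0])), Finset.mul_sum]
    refine Finset.sum_congr ?_ fun ij hij => ?_
    · ext ij
      simp only [Finset.mem_antidiagonal, HahnSeries.mem_support, ne_eq, mul_eq_zero, not_or]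
      exact and_congr_right' (and_congr_left' ⟨fun h => ⟨zpow_ne_zero _ hω, h⟩, fun h => h.2⟩)
    · obtain ⟨-, -, he⟩ := Finset.mem_antidiagonal.1 hij
      rw [← he, zpow_add₀ hω]
      ring

theorem rotate_coeff (ω : K) (hω : ω ≠ 0) (s : LaurentSeries K) (k : ℤ) :
    (rotate ω hω s).coeff k = ω ^ k * s.coeff k := rfl

theorem rotate_qExpand {ℓ : ℕ} [NeZero ℓ] {ω : K} (hω : ω ≠ 0) (h : ω ^ ℓ = 1)
    (u : LaurentSeries K) : rotate ω hω (qExpand K ℓ u) = qExpand K ℓ u := by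
  ext k
  rw [rotate_coeff]
  by_cases hk : (ℓ : ℤ) ∣ k
  · obtain ⟨m, rfl⟩ := hk
    rw [zpow_mul, zpow_natCast, h, one_zpow, one_mul]
  · rw [qExpand_coeff_of_not_dvd ℓ u hk, mul_zero]

theorem single_mul_eq_sum {ℓ : ℕ} [NeZero ℓ] (g : LaurentSeries K) (j : Fin ℓ) :
    HahnSeries.single (j : ℤ) (1 : K) * g =
      ∑ i : Fin ℓ, HahnSeries.single (i : ℤ) (1 : K) * qExpand K ℓ (seriesMat ℓ g i j) := by
  conv_lhs => rw [← sum_single_mul_qExpand_seriesSection ℓ (HahnSeries.single (j : ℤ) (1 : K) * g)]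
  exact Finset.sum_congr rfl fun i _ => by rw [seriesSection_single_mul]; rfl

/-- **The product formula.** -/
theorem qExpand_seriesNorm {ℓ : ℕ} [NeZero ℓ] {ζ : K} (hζ : IsPrimitiveRoot ζ ℓ)
    (g : LaurentSeries K) :
    qExpand K ℓ (seriesNorm ℓ g) =
      ∏ b : Fin ℓ, rotate (ζ ^ (b : ℕ)) (pow_ne_zero _ (hζ.ne_zero (NeZero.ne ℓ))) g := by
  have hζ0 := hζ.ne_zero (NeZero.ne ℓ)
  let v : Fin ℓ → LaurentSeries K := fun b => HahnSeries.single 1 (ζ ^ (b : ℕ))
  let V := Matrix.vandermonde v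
  have hV : V.det ≠ 0 := Matrix.det_vandermonde_ne_zero_iff.2 fun a b hab => by
    have h1 := congrArg (fun s : LaurentSeries K => s.coeff 1) hab
    simp only [v, HahnSeries.coeff_single_same] at h1
    exact Fin.ext (hζ.pow_inj a.2 b.2 h1)
  have hrel : V * (qExpand K ℓ).mapMatrix (seriesMat ℓ g) =
      Matrix.diagonal (fun b : Fin ℓ => rotate (ζ ^ (b : ℕ)) (pow_ne_zero _ hζ0) g) * V := by
    refine Matrix.ext fun b j => ?_
    rw [Matrix.diagonal_mul, Matrix.mul_apply]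
    have hroot : (ζ ^ (b : ℕ)) ^ ℓ = 1 := by
      rw [← pow_mul, mul_comm, pow_mul, hζ.pow_eq_one, one_pow]
    have hv : ∀ i : Fin ℓ, V b i = rotate (ζ ^ (b : ℕ)) (pow_ne_zero _ hζ0)
        (HahnSeries.single (i : ℤ) (1 : K)) := fun i => by
      rw [show V b i = v b ^ (i : ℕ) from rfl, show HahnSeries.single (i : ℤ) (1 : K) =
        HahnSeries.single (1 : ℤ) (1 : K) ^ (i : ℕ) by
          rw [HahnSeries.single_pow, one_pow, nsmul_eq_mul, mul_one], map_pow]
      congr 1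
      ext k
      rw [rotate_coeff]
      rcases eq_or_ne k 1 with rfl | hk <;> simp [v, *]
    rw [hv j, ← map_mul, mul_comm g, single_mul_eq_sum g j, map_sum]
    refine Finset.sum_congr rfl fun i _ => ?_
    rw [map_mul, rotate_qExpand _ hroot, hv i]
    rfl
  have h := congrArg Matrix.det hrel
  rw [Matrix.det_mul, Matrix.det_mul, Matrix.det_diagonal, mul_comm,
    ← RingHom.map_det] at h
  exact mul_right_cancel₀ hV h

end Rotate

section Expansion

variable {ℓ : ℕ} [NeZero ℓ]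

theorem isExp_qExpand {x : MeroH} {u : LaurentSeries ℂ} (hu : IsExp 1 x u) :
    IsExp ℓ x (qExpand ℂ ℓ u) := by
  obtain ⟨t, ht, htc, htz⟩ := hu.intComp_upper (b := 0) (a := 1) (d := 1) one_pos one_pos
    (h := ℓ) (e := ℓ) (NeZero.pos ℓ) rfl
  rw [intComp_congr _ (by simp) (show (!![(1 : ℤ), 0; 0, 1] : Matrix (Fin 2) (Fin 2) ℤ) =
    ((1 : SL(2, ℤ)) : Matrix (Fin 2) (Fin 2) ℤ) by simp [Matrix.one_fin_two]), intComp_coe,
    slComp_one] at ht
  convert ht using 1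
  ext k
  by_cases hk : (ℓ : ℤ) ∣ k
  · obtain ⟨m, rfl⟩ := hk
    rw [qExpand_coeff_mul, htc]
    simp [Function.Periodic.qParam]
  · rw [qExpand_coeff_of_not_dvd ℓ _ hk, htz k hk]

/-- The product over `(z + j) / ℓ`, in the width `ℓ`. -/
theorem isExp_prod_uRep {x : MeroH} {s : LaurentSeries ℂ} (hx : IsExp 1 x s) :
    IsExp ℓ (∏ j : ZMod ℓ, intComp !![1, (j.val : ℤ); 0, (ℓ : ℤ)]
      (det_upper_pos one_pos (Int.natCast_pos.2 (NeZero.pos ℓ))) x)
      (qExpand ℂ ℓ (seriesNorm ℓ s)) := by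
  set ζ : ℂ := Complex.exp (2 * Real.pi * Complex.I / ℓ) with hζdef
  have hζ : IsPrimitiveRoot ζ ℓ := Complex.isPrimitiveRoot_exp ℓ (NeZero.ne ℓ)
  have key : ∀ j : ZMod ℓ, IsExp ℓ (intComp !![1, (j.val : ℤ); 0, (ℓ : ℤ)]
      (det_upper_pos one_pos (Int.natCast_pos.2 (NeZero.pos ℓ))) x)
      (rotate (ζ ^ j.val) (pow_ne_zero _ (hζ.ne_zero (NeZero.ne ℓ))) s) := fun j => by
    obtain ⟨t, ht, htc, -⟩ := hx.intComp_upper (b := (j.val : ℤ)) (a := 1) (d := (ℓ : ℤ)) one_pos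
      (Int.natCast_pos.2 (NeZero.pos ℓ)) (h := ℓ) (e := 1) (NeZero.pos ℓ) (by simp)
    convert ht using 1
    ext k
    have := htc k
    rw [Nat.cast_one, one_mul] at this
    rw [this, rotate_coeff]
    congr 2
    rw [hζdef, Function.Periodic.qParam, ← Complex.exp_nat_mul]
    congr 1
    push_cast
    ring
  let e : ZMod ℓ ≃ Fin ℓ :=
    { toFun := fun j => ⟨j.val, ZMod.val_lt j⟩
      invFun := fun b => (b : ℕ)
      left_inv := fun j => ZMod.natCast_zmod_val j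
      right_inv := fun b => Fin.ext (ZMod.val_natCast_of_lt b.2) }
  rw [qExpand_seriesNorm hζ s, ← Equiv.prod_comp e]
  have hprod : ∀ S : Finset (ZMod ℓ), IsExp ℓ (∏ j ∈ S, intComp !![1, (j.val : ℤ); 0, (ℓ : ℤ)]
      (det_upper_pos one_pos (Int.natCast_pos.2 (NeZero.pos ℓ))) x)
      (∏ j ∈ S, rotate (ζ ^ j.val) (pow_ne_zero _ (hζ.ne_zero (NeZero.ne ℓ))) s) := fun S => by
    classical
    induction S using Finset.induction with
    | empty => simpa using IsExp.one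
    | insert a S ha ih => rw [Finset.prod_insert ha, Finset.prod_insert ha]; exact (key a).mul ih
  exact hprod Finset.univ

variable {L : Type*} [Field L] [Algebra ℚ L] (ι' : L →+* ℂ)

theorem det_uRep (q : ℕ) (j : ZMod q) : (uRep q j).det = (q : ℤ) := by simp [uRep]

/-- The expansion of `U_ℓ`. -/
theorem exists_embed_eq_uSys (N : ℕ) [NeZero N] [Fact ℓ.Prime] (x : FL L (N * ℓ)) :
    ∃ y : FL L (N * ℓ), (y : LaurentSeries L) = seriesNorm ℓ (x : LaurentSeries L) ∧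
      embed ι' (N * ℓ) y = funOp (uSys N ℓ) (embed ι' (N * ℓ) x) := by
  obtain ⟨z, hz⟩ := exists_embed_eq_funOp (uSys N ℓ) ι' (det_uRep ℓ) x
  refine exists_embed_eq_funOp_of_isExp (uSys N ℓ) ι' (det_uRep ℓ) x ?_
  have hu : IsExp 1 (funOp (uSys N ℓ) (embed ι' (N * ℓ) x))
      (coeffMap (RingHom.id ℂ) (z : LaurentSeries ℂ)) := hz ▸ isExp_embed _ z
  have h1 := (isExp_qExpand (ℓ := ℓ) hu).unique (Nat.cast_pos.2 (NeZero.pos ℓ))
    (isExp_prod_uRep (ℓ := ℓ) (isExp_embed ι' x))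
  rw [coeffMap_seriesNorm, ← qExpand_injective ℓ (h1.2 rfl)]
  exact hu

/-- The expansion of `T_ℓ`. -/
theorem exists_embed_eq_heckeSys (N : ℕ) [NeZero N] [Fact ℓ.Prime] (hℓN : ¬ ℓ ∣ N)
    (x : FL L N) :
    ∃ y : FL L N,
      (y : LaurentSeries L) = qExpand L ℓ (x : LaurentSeries L) *
        seriesNorm ℓ (x : LaurentSeries L) ∧
      embed ι' N y = funOp (heckeSys N ℓ hℓN) (embed ι' N x) := by
  have hdet : ∀ i, ((heckeSys N ℓ hℓN).α i).det = (ℓ : ℤ) := fun i => Ihara.det_zRep ℓ i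
  obtain ⟨z, hz⟩ := exists_embed_eq_funOp (heckeSys N ℓ hℓN) ι' hdet x
  refine exists_embed_eq_funOp_of_isExp (heckeSys N ℓ hℓN) ι' hdet x ?_
  have hu : IsExp 1 (funOp (heckeSys N ℓ hℓN) (embed ι' N x))
      (coeffMap (RingHom.id ℂ) (z : LaurentSeries ℂ)) := hz ▸ isExp_embed _ z
  obtain ⟨t, ht, htc, htz⟩ := (isExp_embed ι' x).intComp_upper
    (a := (ℓ : ℤ)) (b := 0) (d := 1) (by exact_mod_cast NeZero.pos ℓ) one_pos
    (h := 1) (e := ℓ) one_pos (by simp)
  rw [Nat.cast_one] at ht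
  have htq : t = qExpand ℂ ℓ (coeffMap ι' (x : LaurentSeries L)) := by
    ext k
    by_cases hk : (ℓ : ℤ) ∣ k
    · obtain ⟨m, rfl⟩ := hk
      rw [qExpand_coeff_mul, htc]
      simp [Function.Periodic.qParam]
    · rw [qExpand_coeff_of_not_dvd ℓ _ hk, htz k hk]
  rw [htq] at ht
  have hsplit : funOp (heckeSys N ℓ hℓN) (embed ι' N x) =
      intComp !![(ℓ : ℤ), 0; 0, 1]
        (det_upper_pos (Int.natCast_pos.2 (NeZero.pos ℓ)) one_pos) (embed ι' N x) *
      ∏ j : ZMod ℓ, intComp !![1, (j.val : ℤ); 0, (ℓ : ℤ)]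
        (det_upper_pos one_pos (Int.natCast_pos.2 (NeZero.pos ℓ))) (embed ι' N x) :=
    Fintype.prod_option (α := ZMod ℓ)
      (fun i => intComp ((heckeSys N ℓ hℓN).α i) ((heckeSys N ℓ hℓN).pos i) (embed ι' N x))
  have h2 : IsExp ℓ (funOp (heckeSys N ℓ hℓN) (embed ι' N x))
      (qExpand ℂ ℓ (qExpand ℂ ℓ (coeffMap ι' (x : LaurentSeries L)) *
        seriesNorm ℓ (coeffMap ι' (x : LaurentSeries L)))) := by
    rw [hsplit, map_mul]
    exact (isExp_qExpand ht).mul (isExp_prod_uRep (isExp_embed ι' x))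
  have h1 := (isExp_qExpand (ℓ := ℓ) hu).unique (Nat.cast_pos.2 (NeZero.pos ℓ)) h2
  have hq : coeffMap ι' (qExpand L ℓ (x : LaurentSeries L)) =
      qExpand ℂ ℓ (coeffMap ι' (x : LaurentSeries L)) := by
    ext k
    by_cases hk : (ℓ : ℤ) ∣ k
    · obtain ⟨m, rfl⟩ := hk
      rw [coeffMap_coeff, qExpand_coeff_mul, qExpand_coeff_mul, coeffMap_coeff]
    · rw [coeffMap_coeff, qExpand_coeff_of_not_dvd ℓ _ hk, qExpand_coeff_of_not_dvd ℓ _ hk,
        map_zero]
  rw [map_mul, coeffMap_seriesNorm, hq, ← qExpand_injective ℓ (h1.2 rfl)]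
  exact hu

/-- The norm series of a modular function is a modular function, `ℓ ∣ N`. -/
theorem exists_coe_eq_seriesNorm {N : ℕ} [NeZero N] (hℓ : ℓ.Prime) (hℓN : ℓ ∣ N)
    (x : modularFunctionFieldBar N) :
    ∃ y : modularFunctionFieldBar N, (y : LaurentSeries (AlgebraicClosure ℚ)) =
      seriesNorm ℓ (x : LaurentSeries (AlgebraicClosure ℚ)) := by
  obtain ⟨N', rfl⟩ : ∃ N', N = N' * ℓ := ⟨N / ℓ, (Nat.div_mul_cancel hℓN).symm⟩
  have : NeZero N' := ⟨fun h => NeZero.ne (N' * ℓ) (by rw [h, zero_mul])⟩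
  have : Fact ℓ.Prime := ⟨hℓ⟩
  obtain ⟨y, hy, -⟩ := exists_embed_eq_uSys ιbar N' x
  exact ⟨y, hy⟩

end Expansion

end Fermat.Agent.LevelLowerP
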