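import Fermat.Agent.LevelLowerP.Normalise

/-!
# Congruences along a branch

Calculus of congruences on a branch, uniqueness of `p`th roots, and constants.

Main results: `Setup.root_congr`, `Setup.exists_const_of_close`.
-/

set_option autoImplicit false

namespace Fermat.Agent.LevelLowerP

open DualNumber TrivSqZeroExt
open scoped LaurentSeries

namespace Branch

variable {O κ : Type*} [CommRing O] [IsDomain O] [Field κ] (B : Branch O κ)
variable {F : Type*} [Field F] [Algebra O F] [IsFractionRing O F]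

/-- `x` is `ϖ ^ n` times an element integral along the branch. -/
def DivPow (n : ℕ) (x : F) : Prop :=
  ∃ d : B.intRing F, x = algebraMap O F B.ϖ ^ n * d

variable {B}

omit [IsDomain O] [IsFractionRing O F] in
lemma DivPow.mul_int {n : ℕ} {x y : F} (hx : B.DivPow n x) (hy : B.IsInt y) :
    B.DivPow n (y * x) := by
  obtain ⟨a, rfl⟩ := hx
  exact ⟨⟨y, hy⟩ * a, by rw [Subring.coe_mul]; ring⟩

omit [IsDomain O] [IsFractionRing O F] in
lemma DivPow.mono {m n : ℕ} (h : m ≤ n) {x : F} (hx : B.DivPow n x) : B.DivPow m x := by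
  obtain ⟨j, rfl⟩ := Nat.exists_eq_add_of_le h
  obtain ⟨a, rfl⟩ := hx
  exact ⟨B.intϖ ^ j * a, by rw [Subring.coe_mul, SubmonoidClass.coe_pow, intϖ, pow_add]; ring⟩

omit [IsDomain O] [IsFractionRing O F] in
lemma isInt_pow {x : F} (hx : B.IsInt x) (n : ℕ) : B.IsInt (x ^ n) := (B.intRing F).pow_mem hx n

omit [IsDomain O] [IsFractionRing O F] in
lemma close_iff {n : ℕ} {y : F} : B.Close n y ↔ B.DivPow n (y - 1) := by
  constructor
  · rintro ⟨d, rfl⟩
    exact ⟨d, by ring⟩
  · rintro ⟨d, hd⟩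
    exact ⟨d, by linear_combination hd⟩

end Branch

variable {p : ℕ} {R k : Type*} [CommRing R] [IsDomain R] [IsDiscreteValuationRing R] [Field k]
  [CharP k p] [Fact p.Prime]

section

variable {O : Type*} [CommRing O] [IsDomain O] {B : Branch O (LaurentSeries k)}
variable {F : Type*} [Field F] [Algebra O F] [IsFractionRing O F]

omit [IsDomain O] [IsFractionRing O F] in
lemma Branch.Close.mul {n : ℕ} {y z : F} (hy : B.Close n y) (hz : B.Close n z) :
    B.Close n (y * z) := by
  obtain ⟨a, rfl⟩ := hy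
  obtain ⟨b, rfl⟩ := hz
  exact ⟨a + b + B.intϖ ^ n * a * b, by
    simp only [Subring.coe_add, Subring.coe_mul, SubmonoidClass.coe_pow, Branch.intϖ]; ring⟩

omit [IsDomain O] [IsFractionRing O F] in
lemma Branch.Close.mono {m n : ℕ} (h : m ≤ n) {y : F} (hy : B.Close n y) : B.Close m y :=
  Branch.close_iff.2 ((Branch.close_iff.1 hy).mono h)

lemma Branch.Close.inv {n : ℕ} (hn : 1 ≤ n) {y : F} (hy : B.Close n y) : B.Close n y⁻¹ := by
  obtain ⟨h1, h2, -⟩ := B.ord_of_close hn hy
  have hi : B.IsInt y⁻¹ := B.isInt_iff.2 (Or.inr (by rw [B.ord_inv h1, h2]; rfl))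
  have e : y⁻¹ - 1 = (-y⁻¹) * (y - 1) := by field_simp; ring
  rw [Branch.close_iff, e]
  exact (Branch.close_iff.1 hy).mul_int hi.neg

variable [PerfectRing k p] (S : Setup p R k) {cst : R →+* O}

omit [IsDomain R] [IsDiscreteValuationRing R] [PerfectRing k p] in
/-- A `p`th power congruent to one has its root congruent to one, `p` levels lower. -/
theorem Setup.close_of_pow_close (hp2 : p ≠ 2) (hc : Setup.IsConst S B cst) {z : F} (hz : z ≠ 0)
    {N j : ℕ} (hN : p + j + 1 ≤ N) (h : B.Close N (z ^ p)) : B.Close (j + 1) z := by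
  have hp := (Fact.out : p.Prime)
  have : CharP (LaurentSeries k) p := charP_of_injective_ringHom HahnSeries.C_injective p
  have hzi : B.IsInt z := B.isInt_iff.2 (Or.inr (by
    have h2 := (B.ord_of_close (by omega) h).2.1
    rw [← zpow_natCast, B.ord_zpow hz, mul_eq_zero,
      or_iff_right (by exact_mod_cast hp.ne_zero)] at h2
    exact h2.ge))
  have hw : (p : B.intRing F) = B.intϖ ^ p * B.toIntRing F (cst S.w) := by
    rw [← map_natCast ((B.toIntRing F).comp cst) p, S.natCast_eq, map_mul, map_pow,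
      RingHom.comp_apply, RingHom.comp_apply, hc.map_ϖ, Branch.toIntRing_ϖ]
  obtain ⟨d, hd⟩ := Branch.close_iff.1 (h.mono hN)
  obtain ⟨e, he⟩ := pow_congr hp hp2 B.intRes (fun v => B.intRes_eq_zero_iff) B.intϖ_ne_zero hw
    (by rw [Branch.intRes_toIntRing, hc.res_map]
        exact (map_ne_zero_iff _ HahnSeries.C_injective).2 S.fst_w_ne_zero)
    (z := ⟨z, hzi⟩) (j := j) ⟨d, Subtype.ext (by
      simpa [Branch.intϖ] using hd)⟩
  refine Branch.close_iff.2 ⟨e, ?_⟩
  simpa [Branch.intϖ] using congrArg Subtype.val he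

omit [IsDomain R] [IsDiscreteValuationRing R] [PerfectRing k p] in
/-- Two roots of congruent `p`th powers are congruent. -/
theorem Setup.root_congr (hp2 : p ≠ 2) (hc : Setup.IsConst S B cst) {x G g : F} (hg : g ≠ 0)
    (hgi : B.IsInt g) (hG : G ^ p = x) {N j : ℕ} (hN : p + j + 1 ≤ N)
    (h : B.Close N (x / g ^ p)) : B.DivPow (j + 1) (G - g) := by
  have hx : x / g ^ p ≠ 0 := (B.ord_of_close (by omega) h).1
  have hG0 : G ≠ 0 := by
    rintro rfl
    rw [zero_pow (Fact.out : p.Prime).ne_zero] at hG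
    rw [← hG, zero_div] at hx
    exact hx rfl
  have h1 := S.close_of_pow_close hp2 hc (z := G / g) (div_ne_zero hG0 hg) hN
    (by rw [div_pow, hG]; exact h)
  have e : G - g = g * (G / g - 1) := by field_simp
  rw [e]
  exact (Branch.close_iff.1 h1).mul_int hgi

/-- A constant congruent to a `p`th power times one is congruent to a `p`th power. -/
theorem Setup.exists_const_of_close (hp2 : p ≠ 2) (hc : Setup.IsConst S B cst) {N : ℕ}
    (hN : 1 ≤ N) {r : R} (hr : S.res r ≠ 0) {z : F} (hz : z ≠ 0)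
    (h : B.Close N (algebraMap O F (cst r) * z ^ p)) :
    ∃ c : Rˣ, S.ϖ ^ N ∣ r * (c : R) ^ p - 1 := by
  have hp := (Fact.out : p.Prime)
  obtain ⟨j, rfl⟩ := Nat.exists_eq_add_of_le hN
  have hr' : B.res (cst r) ≠ 0 := by
    rw [hc.res_map]; exact (map_ne_zero_iff _ HahnSeries.C_injective).2 hr
  have h0 := (B.ord_of_close hN h).2.1
  rw [B.ord_mul (Branch.algebraMap_ne_zero (B.ne_zero_of_res hr')) (pow_ne_zero _ hz),
    B.ord_algebraMap hr', zero_add, ← zpow_natCast, B.ord_zpow hz, mul_eq_zero,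
    or_iff_right (by exact_mod_cast hp.ne_zero)] at h0
  have hzi : B.IsInt z := B.isInt_iff.2 (Or.inr h0.ge)
  obtain ⟨d, hd⟩ := Branch.close_iff.1 h
  have hϖ : B.toIntRing F (cst S.ϖ) = B.intϖ := by rw [hc.map_ϖ]; rfl
  obtain ⟨c, hc'⟩ := S.const_pow hp2 B.intRes ((B.toIntRing F).comp cst)
    (fun v => by rw [RingHom.comp_apply, hϖ]; exact B.intRes_eq_zero_iff)
    (by rw [RingHom.comp_apply, hϖ]; exact B.intϖ_ne_zero)
    (fun s => by rw [RingHom.comp_apply, Branch.intRes_toIntRing, hc.res_map]) (r := r)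
    (z := ⟨z, hzi⟩) j ⟨d, Subtype.ext (by
      rw [RingHom.comp_apply, RingHom.comp_apply, hϖ, add_comm j 1]
      simpa [Branch.intϖ, Branch.coe_toIntRing] using hd)⟩
  rw [add_comm j 1] at hc'
  have hcu : IsUnit c := by
    refine (isUnit_pow_iff hp.ne_zero).1 (isUnit_of_mul_isUnit_right (x := r) ?_)
    rw [S.isUnit_iff_res_ne_zero]
    intro hz'
    have := S.res_eq_zero_iff.2 ((dvd_pow_self S.ϖ (by omega : 1 + j ≠ 0)).trans hc')
    rw [map_sub, hz', map_one, zero_sub, neg_eq_zero] at this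
    exact one_ne_zero this
  exact ⟨hcu.unit, hc'⟩

end

end Fermat.Agent.LevelLowerP
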