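import Mathlib.Algebra.DualNumber
import Mathlib.RingTheory.Localization.FractionRing
import Mathlib.Tactic

/-!
# Branches of a two-dimensional local ring

A "branch" of a two-dimensional local ring: a prime of height one containing the uniformizer of
the base, recorded through a homomorphism to dual numbers over its residue field.

The main definitions are `Branch`, its order, the residue `Branch.resUnit` of a normalised
element and the logarithmic derivative `Branch.psi`.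
-/

set_option autoImplicit false

namespace Fermat.Agent.LevelLowerP

open DualNumber TrivSqZeroExt

/-- A branch: `δ` is reduction followed by the first-order term in a derivation, and every element
is a power of `ϖ` times a ratio of elements with nonzero reduction. -/
structure Branch (O κ : Type*) [CommRing O] [Field κ] where
  /-- the uniformizer -/
  ϖ : O
  /-- reduction and derivation -/
  δ : O →+* DualNumber κ
  ϖ_ne_zero : ϖ ≠ 0
  fst_ϖ : (δ ϖ).fst = 0
  decomp : ∀ g : O, g ≠ 0 → ∃ (m : ℕ) (s t : O),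
    (δ s).fst ≠ 0 ∧ (δ t).fst ≠ 0 ∧ g * t = ϖ ^ m * s

namespace Branch

variable {O κ : Type*} [CommRing O] [IsDomain O] [Field κ] (B : Branch O κ)

/-- The reduction homomorphism of a branch. -/
def res : O →+* κ := (TrivSqZeroExt.fstHom κ κ κ).toRingHom.comp B.δ

omit [IsDomain O] in
lemma res_apply (x : O) : B.res x = (B.δ x).fst := rfl

omit [IsDomain O] in
lemma res_ϖ : B.res B.ϖ = 0 := B.fst_ϖ

omit [IsDomain O] in
lemma ne_zero_of_res {x : O} (h : B.res x ≠ 0) : x ≠ 0 := fun e => h (by rw [e, map_zero])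

lemma pow_inj {m m' : ℕ} {s t s' t' : O} (hs : B.res s ≠ 0) (ht : B.res t ≠ 0)
    (hs' : B.res s' ≠ 0) (ht' : B.res t' ≠ 0)
    (h : B.ϖ ^ m * s * t' = B.ϖ ^ m' * s' * t) : m = m' := by
  wlog hle : m ≤ m' generalizing m m' s t s' t'
  · exact (this hs' ht' hs ht h.symm (le_of_not_ge hle)).symm
  obtain ⟨k, rfl⟩ := Nat.exists_eq_add_of_le hle
  rw [pow_add, mul_assoc, mul_assoc, mul_assoc] at h
  have h2 := congrArg B.res (mul_left_cancel₀ (pow_ne_zero m B.ϖ_ne_zero) h)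
  rcases Nat.eq_zero_or_pos k with hk | hk
  · rw [hk, add_zero]
  · simp only [map_mul, map_pow, B.res_ϖ, zero_pow hk.ne', zero_mul, mul_eq_zero] at h2
    rcases h2 with h2 | h2
    · exact absurd h2 hs
    · exact absurd h2 ht'

variable {L : Type*} [Field L] [Algebra O L] [IsFractionRing O L]

omit [IsDomain O] in
lemma algebraMap_ne_zero {x : O} (h : x ≠ 0) : algebraMap O L x ≠ 0 := fun e =>
  h ((map_eq_zero_iff _ (IsFractionRing.injective O L)).1 e)

lemma exists_repr {x : L} (hx : x ≠ 0) : ∃ (n : ℤ) (s t : O), B.res s ≠ 0 ∧ B.res t ≠ 0 ∧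
    x = algebraMap O L B.ϖ ^ n * (algebraMap O L s / algebraMap O L t) := by
  obtain ⟨a, b, hb, rfl⟩ := IsFractionRing.div_surjective O x
  have ha : a ≠ 0 := fun e => hx (by rw [e, map_zero, zero_div])
  obtain ⟨m, s, t, hs, ht, e1⟩ := B.decomp a ha
  obtain ⟨m', s', t', hs', ht', e2⟩ := B.decomp b (nonZeroDivisors.ne_zero hb)
  refine ⟨(m : ℤ) - m', s * t', t * s', ?_, ?_, ?_⟩
  · rw [map_mul]; exact mul_ne_zero hs ht'
  · rw [map_mul]; exact mul_ne_zero ht hs'
  · have hπ := algebraMap_ne_zero (L := L) B.ϖ_ne_zero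
    have := algebraMap_ne_zero (L := L) (B.ne_zero_of_res ht)
    have := algebraMap_ne_zero (L := L) (B.ne_zero_of_res hs')
    have := algebraMap_ne_zero (L := L) (nonZeroDivisors.ne_zero hb)
    have e1' := congrArg (algebraMap O L) e1
    have e2' := congrArg (algebraMap O L) e2
    rw [map_mul, map_mul, map_pow] at e1' e2'
    rw [zpow_sub₀ hπ, zpow_natCast, zpow_natCast, map_mul, map_mul]
    field_simp
    linear_combination (algebraMap O L s' * algebraMap O L B.ϖ ^ m') * e1' -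
      (algebraMap O L s * algebraMap O L B.ϖ ^ m) * e2'

/-- `IsRepr n s t x`: `x = ϖ^n · s/t` with `s, t` of nonzero reduction. -/
def IsRepr (n : ℤ) (s t : O) (x : L) : Prop :=
  B.res s ≠ 0 ∧ B.res t ≠ 0 ∧ x = algebraMap O L B.ϖ ^ n * (algebraMap O L s / algebraMap O L t)

variable {B}

omit [IsDomain O] in
lemma IsRepr.mul {n n' : ℤ} {s t s' t' : O} {x y : L} (h : B.IsRepr n s t x)
    (h' : B.IsRepr n' s' t' y) : B.IsRepr (n + n') (s * s') (t * t') (x * y) := by
  refine ⟨by rw [map_mul]; exact mul_ne_zero h.1 h'.1,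
    by rw [map_mul]; exact mul_ne_zero h.2.1 h'.2.1, ?_⟩
  rw [h.2.2, h'.2.2, map_mul, map_mul, zpow_add₀ (algebraMap_ne_zero B.ϖ_ne_zero)]
  ring

omit [IsDomain O] [IsFractionRing O L] in
lemma IsRepr.inv {n : ℤ} {s t : O} {x : L} (h : B.IsRepr n s t x) : B.IsRepr (-n) t s x⁻¹ :=
  ⟨h.2.1, h.1, by rw [h.2.2, mul_inv, inv_div, zpow_neg]⟩

lemma IsRepr.unique {n n' : ℤ} {s t s' t' : O} {x : L} (h : B.IsRepr n s t x)
    (h' : B.IsRepr n' s' t' x) : n = n' ∧ s * t' = s' * t := by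
  have hπ := algebraMap_ne_zero (L := L) B.ϖ_ne_zero
  have ht := algebraMap_ne_zero (L := L) (B.ne_zero_of_res h.2.1)
  have ht' := algebraMap_ne_zero (L := L) (B.ne_zero_of_res h'.2.1)
  obtain ⟨k, hk, hk'⟩ : ∃ k : ℤ, 0 ≤ n + k ∧ 0 ≤ n' + k := ⟨|n| + |n'|, by
    constructor <;>
      [linarith [neg_abs_le n, abs_nonneg n']; linarith [neg_abs_le n', abs_nonneg n]]⟩
  obtain ⟨a, ha⟩ := Int.eq_ofNat_of_zero_le hk
  obtain ⟨b, hb⟩ := Int.eq_ofNat_of_zero_le hk'
  have e : algebraMap O L (B.ϖ ^ a * s * t') = algebraMap O L (B.ϖ ^ b * s' * t) := by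
    have hn : algebraMap O L B.ϖ ^ n * algebraMap O L s * algebraMap O L t' =
        algebraMap O L B.ϖ ^ n' * algebraMap O L s' * algebraMap O L t := by
      have := h.2.2.symm.trans h'.2.2
      field_simp at this
      linear_combination this
    have ea : algebraMap O L B.ϖ ^ a = algebraMap O L B.ϖ ^ n * algebraMap O L B.ϖ ^ k := by
      rw [← zpow_natCast, ← zpow_add₀ hπ]; congr 1; omega
    have eb : algebraMap O L B.ϖ ^ b = algebraMap O L B.ϖ ^ n' * algebraMap O L B.ϖ ^ k := by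
      rw [← zpow_natCast, ← zpow_add₀ hπ]; congr 1; omega
    rw [map_mul, map_mul, map_mul, map_mul, map_pow, map_pow, ea, eb]
    linear_combination algebraMap O L B.ϖ ^ k * hn
  have e' := IsFractionRing.injective O L e
  have hab : a = b := B.pow_inj h.1 h.2.1 h'.1 h'.2.1 e'
  refine ⟨by omega, ?_⟩
  subst hab
  rw [mul_assoc, mul_assoc] at e'
  exact mul_left_cancel₀ (pow_ne_zero a B.ϖ_ne_zero) e'

variable (B)

open Classical in
/-- The order of `x` along the branch. -/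
noncomputable def ord (x : L) : ℤ :=
  if h : x ≠ 0 then (B.exists_repr h).choose else 0

open Classical in
/-- Reduction-and-derivative of `x / ϖ ^ ord x`. -/
noncomputable def sp (x : L) : DualNumber κ :=
  if h : x ≠ 0 then
    B.δ (B.exists_repr h).choose_spec.choose *
      (B.δ (B.exists_repr h).choose_spec.choose_spec.choose)⁻¹
  else 0

variable {B}

omit [IsDomain O] in
lemma δ_mul_inv_eq {s t s' t' : O} (ht : B.res t ≠ 0) (ht' : B.res t' ≠ 0)
    (h : s * t' = s' * t) : B.δ s * (B.δ t)⁻¹ = B.δ s' * (B.δ t')⁻¹ := by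
  have h' := congrArg B.δ h
  rw [map_mul, map_mul] at h'
  calc B.δ s * (B.δ t)⁻¹ = B.δ s * (B.δ t' * (B.δ t')⁻¹) * (B.δ t)⁻¹ := by
        rw [TrivSqZeroExt.mul_inv_cancel ht', mul_one]
    _ = (B.δ s' * B.δ t) * (B.δ t')⁻¹ * (B.δ t)⁻¹ := by rw [← h']; ring
    _ = B.δ s' * (B.δ t')⁻¹ * (B.δ t * (B.δ t)⁻¹) := by ring
    _ = B.δ s' * (B.δ t')⁻¹ := by rw [TrivSqZeroExt.mul_inv_cancel ht, mul_one]

omit [IsDomain O] in
lemma IsRepr.ne_zero {n : ℤ} {s t : O} {x : L} (h : B.IsRepr n s t x) : x ≠ 0 := by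
  rw [h.2.2]
  exact mul_ne_zero (zpow_ne_zero _ (algebraMap_ne_zero B.ϖ_ne_zero))
    (div_ne_zero (algebraMap_ne_zero (B.ne_zero_of_res h.1))
      (algebraMap_ne_zero (B.ne_zero_of_res h.2.1)))

lemma IsRepr.ord_eq {n : ℤ} {s t : O} {x : L} (h : B.IsRepr n s t x) : B.ord x = n := by
  rw [ord, dif_pos h.ne_zero]
  exact (IsRepr.unique (B.exists_repr h.ne_zero).choose_spec.choose_spec.choose_spec h).1

lemma IsRepr.sp_eq {n : ℤ} {s t : O} {x : L} (h : B.IsRepr n s t x) :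
    B.sp x = B.δ s * (B.δ t)⁻¹ := by
  rw [sp, dif_pos h.ne_zero]
  have h0 := (B.exists_repr h.ne_zero).choose_spec.choose_spec.choose_spec
  exact δ_mul_inv_eq h0.2.1 h.2.1 (IsRepr.unique h0 h).2

variable (B)

lemma isRepr_ord {x : L} (hx : x ≠ 0) : ∃ s t : O, B.IsRepr (B.ord x) s t x := by
  rw [ord, dif_pos hx]
  exact ⟨_, _, (B.exists_repr hx).choose_spec.choose_spec.choose_spec⟩

lemma ord_mul {x y : L} (hx : x ≠ 0) (hy : y ≠ 0) : B.ord (x * y) = B.ord x + B.ord y := by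
  obtain ⟨s, t, h⟩ := B.isRepr_ord hx
  obtain ⟨s', t', h'⟩ := B.isRepr_ord hy
  exact (h.mul h').ord_eq

lemma ord_inv {x : L} (hx : x ≠ 0) : B.ord x⁻¹ = -B.ord x := by
  obtain ⟨s, t, h⟩ := B.isRepr_ord hx
  exact h.inv.ord_eq

lemma sp_mul {x y : L} (hx : x ≠ 0) (hy : y ≠ 0) : B.sp (x * y) = B.sp x * B.sp y := by
  obtain ⟨s, t, h⟩ := B.isRepr_ord hx
  obtain ⟨s', t', h'⟩ := B.isRepr_ord hy
  rw [(h.mul h').sp_eq, h.sp_eq, h'.sp_eq, map_mul, map_mul, TrivSqZeroExt.mul_inv_rev]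
  ring

lemma fst_sp_ne_zero {x : L} (hx : x ≠ 0) : (B.sp x).fst ≠ 0 := by
  obtain ⟨s, t, h⟩ := B.isRepr_ord hx
  rw [h.sp_eq, TrivSqZeroExt.fst_mul, TrivSqZeroExt.fst_inv]
  exact mul_ne_zero h.1 (inv_ne_zero h.2.1)

omit [IsDomain O] [IsFractionRing O L] in
lemma isRepr_algebraMap {g : O} (hg : B.res g ≠ 0) : B.IsRepr 0 g 1 (algebraMap O L g) :=
  ⟨hg, by rw [map_one]; exact one_ne_zero, by rw [map_one, div_one, zpow_zero, one_mul]⟩

omit [IsDomain O] [IsFractionRing O L] in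
lemma isRepr_ϖ : B.IsRepr 1 1 1 (algebraMap O L B.ϖ) :=
  ⟨by rw [map_one]; exact one_ne_zero, by rw [map_one]; exact one_ne_zero, by simp⟩

/-- The residue of `x / ϖ ^ ord x`. -/
noncomputable def resUnit (x : L) : κ := (B.sp x).fst

/-- The logarithmic derivative of `x / ϖ ^ ord x`. -/
noncomputable def psi (x : L) : κ := (B.sp x).snd / (B.sp x).fst

lemma resUnit_ne_zero {x : L} (hx : x ≠ 0) : B.resUnit x ≠ 0 := B.fst_sp_ne_zero hx

lemma resUnit_mul {x y : L} (hx : x ≠ 0) (hy : y ≠ 0) :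
    B.resUnit (x * y) = B.resUnit x * B.resUnit y := by
  rw [resUnit, B.sp_mul hx hy, TrivSqZeroExt.fst_mul]; rfl

lemma psi_mul {x y : L} (hx : x ≠ 0) (hy : y ≠ 0) : B.psi (x * y) = B.psi x + B.psi y := by
  have h1 := B.fst_sp_ne_zero hx
  have h2 := B.fst_sp_ne_zero hy
  rw [psi, psi, psi, B.sp_mul hx hy, DualNumber.snd_mul, TrivSqZeroExt.fst_mul]
  field_simp; ring

lemma psi_algebraMap {g : O} (hg : B.res g ≠ 0) :
    B.psi (algebraMap O L g) = (B.δ g).snd / (B.δ g).fst := by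
  rw [psi, (B.isRepr_algebraMap hg).sp_eq, map_one, TrivSqZeroExt.inv_one, mul_one]

lemma resUnit_algebraMap {g : O} (hg : B.res g ≠ 0) : B.resUnit (algebraMap O L g) = B.res g := by
  rw [resUnit, (B.isRepr_algebraMap hg).sp_eq, map_one, TrivSqZeroExt.inv_one, mul_one, res_apply]

lemma ord_algebraMap {g : O} (hg : B.res g ≠ 0) : B.ord (algebraMap O L g) = 0 :=
  (B.isRepr_algebraMap hg).ord_eq

lemma psi_ϖ : B.psi (algebraMap O L B.ϖ) = 0 := by
  rw [psi, (B.isRepr_ϖ (L := L)).sp_eq, map_one, TrivSqZeroExt.inv_one, mul_one,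
    TrivSqZeroExt.snd_one, zero_div]

lemma resUnit_ϖ : B.resUnit (algebraMap O L B.ϖ) = 1 := by
  rw [resUnit, (B.isRepr_ϖ (L := L)).sp_eq, map_one, TrivSqZeroExt.inv_one, mul_one,
    TrivSqZeroExt.fst_one]

lemma ord_ϖ : B.ord (algebraMap O L B.ϖ) = 1 := B.isRepr_ϖ.ord_eq

lemma ord_one : B.ord (1 : L) = 0 := by
  have := B.ord_mul (one_ne_zero (α := L)) one_ne_zero
  rw [mul_one] at this; omega

lemma psi_one : B.psi (1 : L) = 0 := by
  have := B.psi_mul (one_ne_zero (α := L)) one_ne_zero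
  rw [mul_one] at this
  exact add_eq_left.1 this.symm

lemma resUnit_one : B.resUnit (1 : L) = 1 := by
  have := B.resUnit_mul (one_ne_zero (α := L)) one_ne_zero
  rw [mul_one] at this
  exact (mul_eq_left₀ (B.resUnit_ne_zero one_ne_zero)).1 this.symm

lemma psi_zpow {x : L} (hx : x ≠ 0) (n : ℤ) : B.psi (x ^ n) = n * B.psi x := by
  induction n using Int.induction_on with
  | zero => simp [psi_one]
  | succ k ih =>
    rw [zpow_add_one₀ hx, B.psi_mul (zpow_ne_zero _ hx) hx, ih]; push_cast; ring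
  | pred k ih =>
    have h := B.psi_mul (zpow_ne_zero (-(k : ℤ) - 1) hx) hx
    rw [← zpow_add_one₀ hx, sub_add_cancel, ih] at h
    push_cast at h ⊢
    linear_combination -h

lemma resUnit_zpow {x : L} (hx : x ≠ 0) (n : ℤ) : B.resUnit (x ^ n) = B.resUnit x ^ n := by
  induction n using Int.induction_on with
  | zero => simp [resUnit_one]
  | succ k ih =>
    rw [zpow_add_one₀ hx, B.resUnit_mul (zpow_ne_zero _ hx) hx, ih,
      zpow_add_one₀ (B.resUnit_ne_zero hx)]
  | pred k ih =>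
    have h := B.resUnit_mul (zpow_ne_zero (-(k : ℤ) - 1) hx) hx
    rw [← zpow_add_one₀ hx, sub_add_cancel, ih] at h
    rw [zpow_sub_one₀ (B.resUnit_ne_zero hx), h, mul_inv_cancel_right₀ (B.resUnit_ne_zero hx)]

lemma ord_zpow {x : L} (hx : x ≠ 0) (n : ℤ) : B.ord (x ^ n) = n * B.ord x := by
  induction n using Int.induction_on with
  | zero => simp [ord_one]
  | succ k ih => rw [zpow_add_one₀ hx, B.ord_mul (zpow_ne_zero _ hx) hx, ih]; ring
  | pred k ih =>
    have h := B.ord_mul (zpow_ne_zero (-(k : ℤ) - 1) hx) hx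
    rw [← zpow_add_one₀ hx, sub_add_cancel, ih] at h
    linear_combination -h

/-- In characteristic `p` the logarithmic derivative kills `p`-th powers. -/
lemma psi_pow_eq_zero {p : ℕ} [CharP κ p] {x : L} (hx : x ≠ 0) : B.psi (x ^ p) = 0 := by
  rw [← zpow_natCast, B.psi_zpow hx]; simp

end Branch

end Fermat.Agent.LevelLowerP
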