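import Mathlib.RingTheory.AdicCompletion.Basic
import Mathlib.RingTheory.DiscreteValuationRing.Basic
import Mathlib.Algebra.CharP.Defs
import Mathlib.Algebra.DualNumber
import Mathlib.Tactic

/-!
# The base data

The base ring is a complete discrete valuation ring of absolute ramification index `p`, with a
derivation to the residue field which detects the unit `p / ϖ ^ p`.

The main definition is `Setup`.
-/

set_option autoImplicit false

namespace Fermat.Agent.LevelLowerP

open DualNumber TrivSqZeroExt

/-- Base data: `δ` is reduction followed by a derivation with `∂ ϖ = 1`, and `p = ϖ ^ p * w` with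
`∂ w ≠ 0`. -/
structure Setup (p : ℕ) (R k : Type*) [CommRing R] [Field k] where
  /-- the uniformizer -/
  ϖ : R
  /-- reduction and derivation -/
  δ : R →+* DualNumber k
  irreducible_ϖ : Irreducible ϖ
  complete : IsAdicComplete (Ideal.span {ϖ}) R
  surjective_fst : Function.Surjective fun r => (δ r).fst
  δ_ϖ : δ ϖ = DualNumber.eps
  /-- the unit `p / ϖ ^ p` -/
  w : R
  natCast_eq : (p : R) = ϖ ^ p * w
  fst_w_ne_zero : (δ w).fst ≠ 0
  snd_w_ne_zero : (δ w).snd ≠ 0

namespace Setup

variable {p : ℕ} {R k : Type*} [CommRing R] [IsDomain R] [IsDiscreteValuationRing R] [Field k]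
  (S : Setup p R k)

/-- Reduction. -/
def res : R →+* k := (TrivSqZeroExt.fstHom k k k).toRingHom.comp S.δ

omit [IsDomain R] [IsDiscreteValuationRing R] in
lemma res_apply (r : R) : S.res r = (S.δ r).fst := rfl

omit [IsDomain R] [IsDiscreteValuationRing R] in
lemma res_surjective : Function.Surjective S.res := S.surjective_fst

omit [IsDomain R] [IsDiscreteValuationRing R] in
lemma res_ϖ : S.res S.ϖ = 0 := by rw [res_apply, S.δ_ϖ, DualNumber.fst_eps]

lemma ker_res : RingHom.ker S.res = Ideal.span {S.ϖ} := by
  rw [← S.irreducible_ϖ.maximalIdeal_eq]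
  exact IsLocalRing.eq_maximalIdeal (RingHom.ker_isMaximal_of_surjective _ S.res_surjective)

lemma res_eq_zero_iff {r : R} : S.res r = 0 ↔ S.ϖ ∣ r := by
  rw [← RingHom.mem_ker, S.ker_res, Ideal.mem_span_singleton]

lemma isUnit_iff_res_ne_zero {r : R} : IsUnit r ↔ S.res r ≠ 0 := by
  refine ⟨fun h => (h.map S.res).ne_zero, fun h => ?_⟩
  by_contra hr
  apply h
  have : r ∈ IsLocalRing.maximalIdeal R := hr
  rw [S.irreducible_ϖ.maximalIdeal_eq, Ideal.mem_span_singleton] at this
  exact S.res_eq_zero_iff.2 this

omit [IsDomain R] [IsDiscreteValuationRing R] in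
lemma δ_natCast (n : ℕ) : S.δ (n : R) = inl (n : k) := by rw [map_natCast]; rfl

lemma isUnit_w : IsUnit S.w := S.isUnit_iff_res_ne_zero.2 S.fst_w_ne_zero

end Setup

end Fermat.Agent.LevelLowerP
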