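import Mathlib.RingTheory.PowerSeries.Ideal
import Mathlib.RingTheory.PowerSeries.Inverse
import Mathlib.RingTheory.LaurentSeries
import Mathlib.RingTheory.UniqueFactorizationDomain.Multiplicity
import Fermat.Agent.LevelLowerP.Branch
import Fermat.Agent.LevelLowerP.Setup

/-!
# Power series over the base ring

Reduction and derivation of power series over the base ring, and the vertical branch of the disc.

The main definition is `Setup.discBranch`.
-/

set_option autoImplicit false

namespace Fermat.Agent.LevelLowerP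

open DualNumber TrivSqZeroExt PowerSeries
open scoped LaurentSeries

/-- Functoriality of dual numbers. -/
def dualMap {A B : Type*} [CommRing A] [CommRing B] (f : A →+* B) :
    DualNumber A →+* DualNumber B where
  toFun x := inl (f x.fst) + inr (f x.snd)
  map_one' := by ext <;> simp
  map_zero' := by ext <;> simp
  map_add' x y := by ext <;> simp
  map_mul' x y := by ext <;> simp

@[simp] lemma fst_dualMap {A B : Type*} [CommRing A] [CommRing B] (f : A →+* B)
    (x : DualNumber A) : (dualMap f x).fst = f x.fst := by simp [dualMap]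

@[simp] lemma snd_dualMap {A B : Type*} [CommRing A] [CommRing B] (f : A →+* B)
    (x : DualNumber A) : (dualMap f x).snd = f x.snd := by simp [dualMap]

/-- A series of dual numbers is a dual number of series. -/
noncomputable def splitDual (k : Type*) [CommRing k] :
    PowerSeries (DualNumber k) →+* DualNumber (PowerSeries k) where
  toFun f := inl (map (TrivSqZeroExt.fstHom k k k).toRingHom f) +
    inr (PowerSeries.mk fun n => (coeff n f).snd)
  map_one' := by
    ext n <;> simp [PowerSeries.coeff_one, apply_ite TrivSqZeroExt.snd]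
  map_zero' := by ext n <;> simp
  map_add' f g := by ext n <;> simp
  map_mul' f g := by
    ext n
    · simp
    · simp [PowerSeries.coeff_mul, TrivSqZeroExt.snd_sum, Finset.sum_add_distrib]

@[simp] lemma coeff_fst_splitDual {k : Type*} [CommRing k] (f : PowerSeries (DualNumber k))
    (n : ℕ) : coeff n (splitDual k f).fst = (coeff n f).fst := by simp [splitDual]

@[simp] lemma coeff_snd_splitDual {k : Type*} [CommRing k] (f : PowerSeries (DualNumber k))
    (n : ℕ) : coeff n (splitDual k f).snd = (coeff n f).snd := by simp [splitDual]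

namespace Setup

variable {p : ℕ} {R k : Type*} [CommRing R] [IsDomain R] [IsDiscreteValuationRing R] [Field k]
  (S : Setup p R k)

/-- Reduction and derivation, coefficientwise. -/
noncomputable def δS : R⟦X⟧ →+* DualNumber (LaurentSeries k) :=
  ((dualMap (HahnSeries.ofPowerSeries ℤ k)).comp (splitDual k)).comp (PowerSeries.map S.δ)

omit [IsDomain R] [IsDiscreteValuationRing R] in
lemma fst_δS (g : R⟦X⟧) :
    (S.δS g).fst = ((PowerSeries.map S.res g : k⟦X⟧) : LaurentSeries k) := by
  rw [δS, RingHom.comp_apply, RingHom.comp_apply, fst_dualMap]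
  congr 1
  ext n
  simp [res_apply]

omit [IsDomain R] [IsDiscreteValuationRing R] in
lemma snd_δS (g : R⟦X⟧) : (S.δS g).snd =
    ((PowerSeries.mk fun n => (S.δ (coeff n g)).snd : k⟦X⟧) : LaurentSeries k) := by
  rw [δS, RingHom.comp_apply, RingHom.comp_apply, snd_dualMap]
  congr 1
  ext n
  simp

omit [IsDomain R] [IsDiscreteValuationRing R] in
lemma fst_δS_eq_zero_iff {g : R⟦X⟧} : (S.δS g).fst = 0 ↔ PowerSeries.map S.res g = 0 := by
  rw [S.fst_δS, map_eq_zero_iff _ (HahnSeries.ofPowerSeries_injective)]

lemma map_res_eq_zero_iff {g : R⟦X⟧} : PowerSeries.map S.res g = 0 ↔ C S.ϖ ∣ g := by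
  constructor
  · intro h
    have hd : ∀ n, S.ϖ ∣ coeff n g := fun n =>
      S.res_eq_zero_iff.1 (by simpa using PowerSeries.ext_iff.1 h n)
    choose b hb using hd
    exact ⟨PowerSeries.mk b, by ext n; simp [hb n]⟩
  · rintro ⟨g', rfl⟩
    simp [res_ϖ]

lemma prime_C_ϖ : Prime (C S.ϖ : R⟦X⟧) := by
  refine ⟨fun h => S.irreducible_ϖ.ne_zero (PowerSeries.C_injective (by rw [h, map_zero])),
    fun h => ?_, fun a b hab => ?_⟩
  · have := h.map (PowerSeries.map S.res)
    rw [PowerSeries.map_C, res_ϖ, map_zero] at this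
    exact not_isUnit_zero this
  · rw [← S.map_res_eq_zero_iff, map_mul, mul_eq_zero] at hab
    exact hab.imp S.map_res_eq_zero_iff.1 S.map_res_eq_zero_iff.1

/-- A nonzero series is a power of `ϖ` times one with nonzero reduction. -/
lemma exists_eq_pow_mul {g : R⟦X⟧} (hg : g ≠ 0) :
    ∃ (m : ℕ) (s : R⟦X⟧), (S.δS s).fst ≠ 0 ∧ g = C S.ϖ ^ m * s := by
  obtain ⟨m, s, hs, e⟩ := WfDvdMonoid.max_power_factor hg S.prime_C_ϖ.irreducible
  exact ⟨m, s, fun h => hs (S.map_res_eq_zero_iff.1 (S.fst_δS_eq_zero_iff.1 h)), e⟩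

/-- The vertical branch of the disc. -/
noncomputable def discBranch : Branch R⟦X⟧ (LaurentSeries k) where
  ϖ := C S.ϖ
  δ := S.δS
  ϖ_ne_zero := S.prime_C_ϖ.ne_zero
  fst_ϖ := by rw [S.fst_δS, PowerSeries.map_C, res_ϖ, map_zero, map_zero]
  decomp g hg := by
    obtain ⟨m, s, hs, e⟩ := S.exists_eq_pow_mul hg
    exact ⟨m, s, 1, hs, by simp, by rw [mul_one, e]⟩

end Setup

end Fermat.Agent.LevelLowerP
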