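import Fermat.Agent.LevelLowerP.Factor
import Fermat.Agent.LevelLowerP.Series

/-!
# The disc over a smooth point

In the disc over a smooth point: if all horizontal multiplicities are divisible by `p`, the
logarithmic derivative is regular at the point and the order of the reduction is divisible by `p`.

Main result: `Setup.disc_regular`.
-/

set_option autoImplicit false

namespace Fermat.Agent.LevelLowerP

open DualNumber TrivSqZeroExt
open scoped LaurentSeries

/-- The series with nonnegative exponents. -/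
def IsPow {k : Type*} [Semiring k] (x : LaurentSeries k) : Prop :=
  ∃ a : PowerSeries k, x = (a : LaurentSeries k)

section Order

variable {k : Type*} [Field k]

lemma order_natPow {x : LaurentSeries k} (hx : x ≠ 0) (n : ℕ) :
    (x ^ n).order = n * x.order := by
  induction n with
  | zero => simp
  | succ j ih => rw [pow_succ, HahnSeries.order_mul (pow_ne_zero j hx) hx, ih]; push_cast; ring

lemma order_coe_unit {a : PowerSeries k} (ha : IsUnit a) : (a : LaurentSeries k).order = 0 := by
  obtain ⟨b, hab⟩ := ha.exists_right_inv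
  have ha0 : (a : LaurentSeries k) ≠ 0 :=
    (map_ne_zero_iff _ HahnSeries.ofPowerSeries_injective).2
      (left_ne_zero_of_mul (hab ▸ one_ne_zero))
  have hb0 : (b : LaurentSeries k) ≠ 0 :=
    (map_ne_zero_iff _ HahnSeries.ofPowerSeries_injective).2
      (right_ne_zero_of_mul (hab ▸ one_ne_zero))
  have h := congrArg HahnSeries.order
    (show (a : LaurentSeries k) * (b : LaurentSeries k) = 1 by rw [← map_mul, hab, map_one])
  rw [HahnSeries.order_mul ha0 hb0, HahnSeries.order_one] at h
  have hnn : ∀ c : PowerSeries k, (c : LaurentSeries k) ≠ 0 → 0 ≤ (c : LaurentSeries k).order := by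
    intro c hc
    by_contra hlt
    have := mt HahnSeries.coeff_order_eq_zero.1 hc
    rw [PowerSeries.coeff_coe, if_pos (not_le.1 hlt)] at this
    exact this rfl
  have := hnn a ha0
  have := hnn b hb0
  omega

lemma isPow_snd_div_fst {a b : PowerSeries k} (ha : IsUnit a) :
    IsPow ((b : LaurentSeries k) / (a : LaurentSeries k)) := by
  obtain ⟨c, hc⟩ := ha.exists_right_inv
  refine ⟨b * c, ?_⟩
  rw [map_mul, div_eq_mul_inv]
  congr 1
  exact inv_eq_of_mul_eq_one_right (by rw [← map_mul, hc, map_one])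

end Order

namespace Branch

variable {O κ : Type*} [CommRing O] [IsDomain O] [Field κ] (B : Branch O κ)
variable {L : Type*} [Field L] [Algebra O L] [IsFractionRing O L]

lemma resUnit_pow {x : L} (hx : x ≠ 0) (n : ℕ) : B.resUnit (x ^ n) = B.resUnit x ^ n := by
  rw [← zpow_natCast x, B.resUnit_zpow hx, zpow_natCast]

/-- Invariants of `u * ϖ ^ n * G ^ p` in characteristic `p`. -/
lemma psi_resUnit_unit_mul {p : ℕ} [CharP κ p] {u : O} (hu : B.res u ≠ 0) (n : ℕ) {G : L}
    (hG : G ≠ 0) :
    B.psi (algebraMap O L (u * B.ϖ ^ n) * G ^ p) = (B.δ u).snd / (B.δ u).fst ∧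
      B.resUnit (algebraMap O L (u * B.ϖ ^ n) * G ^ p) = B.res u * B.resUnit G ^ p ∧
      B.ord (algebraMap O L (u * B.ϖ ^ n) * G ^ p) = n + p * B.ord G := by
  have hu0 := algebraMap_ne_zero (L := L) (B.ne_zero_of_res hu)
  have hπ := algebraMap_ne_zero (L := L) B.ϖ_ne_zero
  have hpow : algebraMap O L B.ϖ ^ n ≠ 0 := pow_ne_zero _ hπ
  rw [map_mul, map_pow]
  refine ⟨?_, ?_, ?_⟩
  · rw [B.psi_mul (mul_ne_zero hu0 hpow) (pow_ne_zero _ hG), B.psi_pow_eq_zero hG,
      B.psi_mul hu0 hpow, ← zpow_natCast, B.psi_zpow hπ, B.psi_ϖ, B.psi_algebraMap hu]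
    ring
  · rw [B.resUnit_mul (mul_ne_zero hu0 hpow) (pow_ne_zero _ hG), B.resUnit_mul hu0 hpow,
      B.resUnit_pow hG, B.resUnit_pow hπ, B.resUnit_ϖ, one_pow, mul_one, B.resUnit_algebraMap hu]
  · rw [B.ord_mul (mul_ne_zero hu0 hpow) (pow_ne_zero _ hG), B.ord_mul hu0 hpow, ← zpow_natCast,
      B.ord_zpow hπ, B.ord_ϖ, B.ord_algebraMap hu, ← zpow_natCast, B.ord_zpow hG]
    ring

end Branch

namespace Setup

variable {p : ℕ} {R k : Type*} [CommRing R] [IsDomain R] [IsDiscreteValuationRing R] [Field k]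
  [CharP k p] [Fact p.Prime] (S : Setup p R k)

variable {L : Type*} [Field L] [Algebra (PowerSeries R) L] [IsFractionRing (PowerSeries R) L]

/-- All horizontal multiplicities of `x` in the disc are divisible by `p`. -/
def DiscDiv (x : L) : Prop :=
  ∀ (π : PowerSeries R) (hπ : Prime π), ¬ Associated π (PowerSeries.C S.ϖ) →
    (p : ℤ) ∣ WithZero.log (primeValFrac L hπ x)

omit [CharP k p] in
theorem exists_disc_form {x : L} (hx : x ≠ 0) (h : S.DiscDiv x) :
    ∃ (u : (PowerSeries R)ˣ) (n : ℕ) (G : L), G ≠ 0 ∧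
      x = algebraMap (PowerSeries R) L (u * PowerSeries.C S.ϖ ^ n) * G ^ p := by
  obtain ⟨u, M, G, hG, hM, rfl⟩ := exists_unit_mul_exc_mul_pow (L := L)
    (fun π => Associated π (PowerSeries.C S.ϖ)) (Fact.out : p.Prime).ne_zero hx h
  have hM' : ∀ a ∈ M, Associated a (PowerSeries.C S.ϖ) := fun a ha => (hM a ha).2
  have hassoc : Associated (PowerSeries.C S.ϖ ^ Multiset.card M) M.prod := by
    clear hM hx h
    induction M using Multiset.induction with
    | empty => simp
    | cons a M ih =>
      rw [Multiset.card_cons, pow_succ', Multiset.prod_cons]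
      exact (hM' a (Multiset.mem_cons_self a M)).symm.mul_mul
        (ih fun b hb => hM' b (Multiset.mem_cons_of_mem hb))
  obtain ⟨v, hv⟩ := hassoc
  exact ⟨u * v, Multiset.card M, G, hG, by rw [← hv, Units.val_mul]; congr 2; ring⟩

/-- Regularity at a smooth point. -/
theorem disc_regular {x : L} (hx : x ≠ 0) (h : S.DiscDiv x) :
    IsPow (S.discBranch.psi x) ∧ (p : ℤ) ∣ (S.discBranch.resUnit x).order := by
  have : CharP (LaurentSeries k) p := charP_of_injective_ringHom (HahnSeries.C_injective) p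
  obtain ⟨u, n, G, hG, rfl⟩ := S.exists_disc_form hx h
  have hres : IsUnit (PowerSeries.map S.res (u : PowerSeries R)) := u.isUnit.map _
  have hu : S.discBranch.res (u : PowerSeries R) ≠ 0 := by
    rw [Branch.res_apply]
    exact fun e => hres.ne_zero (S.fst_δS_eq_zero_iff.1 e)
  obtain ⟨h1, h2, -⟩ := S.discBranch.psi_resUnit_unit_mul (p := p) hu n hG
  refine ⟨?_, ?_⟩
  · erw [h1]
    show IsPow ((S.δS (u : PowerSeries R)).snd / (S.δS (u : PowerSeries R)).fst)
    rw [S.fst_δS, S.snd_δS]
    exact isPow_snd_div_fst hres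
  · erw [h2]
    have hG' := S.discBranch.resUnit_ne_zero hG
    rw [HahnSeries.order_mul hu (pow_ne_zero _ hG'), order_natPow hG', Branch.res_apply]
    show (p : ℤ) ∣ (S.δS (u : PowerSeries R)).fst.order + _
    rw [S.fst_δS, order_coe_unit hres, zero_add]
    exact dvd_mul_right _ _

end Setup

end Fermat.Agent.LevelLowerP
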