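import Fermat.Agent.LevelLowerP.BranchRing
import Fermat.Agent.LevelLowerP.Disc
import Fermat.Prelude.Def_ModularCurve_X0ModL

/-!
# Reduction with derivative of integral elements, and integral series as elements of the disc
-/

set_option autoImplicit false

noncomputable section

namespace Fermat.Agent.LevelLowerP

open DualNumber TrivSqZeroExt
open scoped LaurentSeries

namespace Branch

variable {O κ : Type*} [CommRing O] [IsDomain O] [Field κ] (B : Branch O κ)
  {L : Type*} [Field L] [Algebra O L] [IsFractionRing O L]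

/-- Reduction and derivation of an integral element. -/
def intδFun (x : B.intRing L) : DualNumber κ :=
  B.δ x.2.choose * (B.δ x.2.choose_spec.choose)⁻¹

omit [IsDomain O] in
lemma intδFun_eq {x : B.intRing L} {s t : O} (ht : B.res t ≠ 0)
    (e : (x : L) * algebraMap O L t = algebraMap O L s) :
    B.intδFun x = B.δ s * (B.δ t)⁻¹ := by
  have key : ∀ s₀ t₀ : O, B.res t₀ ≠ 0 → (x : L) * algebraMap O L t₀ = algebraMap O L s₀ →
      B.δ s₀ * (B.δ t₀)⁻¹ = B.δ s * (B.δ t)⁻¹ := by
    intro s₀ t₀ h1 h2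
    refine δ_mul_inv_eq h1 ht (IsFractionRing.injective O L ?_)
    rw [map_mul, map_mul, ← e, ← h2]
    ring
  exact key _ _ x.2.choose_spec.choose_spec.1 x.2.choose_spec.choose_spec.2

/-- Reduction and derivation on the valuation ring of a branch. -/
def intδ : B.intRing L →+* DualNumber κ where
  toFun := B.intδFun
  map_one' := by
    rw [B.intδFun_eq (s := 1) (t := 1) (by rw [map_one]; exact one_ne_zero) (by simp)]
    simp
  map_zero' := by
    rw [B.intδFun_eq (s := 0) (t := 1) (by rw [map_one]; exact one_ne_zero) (by simp)]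
    simp
  map_add' x y := by
    obtain ⟨s, t, ht, e⟩ := x.2
    obtain ⟨s', t', ht', e'⟩ := y.2
    rw [B.intδFun_eq ht e, B.intδFun_eq ht' e', B.intδFun_eq (s := s * t' + s' * t)
      (t := t * t') (by rw [map_mul]; exact mul_ne_zero ht ht')
      (by rw [map_add, map_mul, map_mul, map_mul, ← e, ← e']; push_cast; ring)]
    rw [map_add, map_mul, map_mul, map_mul, TrivSqZeroExt.mul_inv_rev]
    calc (B.δ s * B.δ t' + B.δ s' * B.δ t) * ((B.δ t')⁻¹ * (B.δ t)⁻¹)
        = B.δ s * (B.δ t)⁻¹ * (B.δ t' * (B.δ t')⁻¹) +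
            B.δ s' * (B.δ t')⁻¹ * (B.δ t * (B.δ t)⁻¹) := by ring
      _ = _ := by
        rw [TrivSqZeroExt.mul_inv_cancel ht, TrivSqZeroExt.mul_inv_cancel ht', mul_one, mul_one]
  map_mul' x y := by
    obtain ⟨s, t, ht, e⟩ := x.2
    obtain ⟨s', t', ht', e'⟩ := y.2
    rw [B.intδFun_eq ht e, B.intδFun_eq ht' e', B.intδFun_eq (s := s * s')
      (t := t * t') (by rw [map_mul]; exact mul_ne_zero ht ht')
      (by rw [map_mul, map_mul, ← e, ← e']; push_cast; ring)]
    rw [map_mul, map_mul, TrivSqZeroExt.mul_inv_rev]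
    ring

omit [IsDomain O] in
lemma intδ_eq {x : B.intRing L} {s t : O} (ht : B.res t ≠ 0)
    (e : (x : L) * algebraMap O L t = algebraMap O L s) :
    B.intδ x = B.δ s * (B.δ t)⁻¹ :=
  B.intδFun_eq ht e

omit [IsDomain O] in
lemma intδ_algebraMap (o : O) : B.intδ ⟨algebraMap O L o, B.isInt_algebraMap o⟩ = B.δ o := by
  rw [B.intδ_eq (s := o) (t := 1) (by rw [map_one]; exact one_ne_zero) (by simp)]
  simp

omit [IsDomain O] in
lemma fst_intδ (x : B.intRing L) : (B.intδ x).fst = B.intRes x := by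
  obtain ⟨s, t, ht, e⟩ := x.2
  rw [B.intδ_eq ht e, B.intRes_eq ht e, TrivSqZeroExt.fst_mul, TrivSqZeroExt.fst_inv,
    div_eq_mul_inv]
  rfl

omit [IsDomain O] in
lemma isRepr_of_intδ {x : B.intRing L} (hx : (B.intδ x).fst ≠ 0) :
    ∃ s t : O, B.IsRepr 0 s t (x : L) ∧ B.intδ x = B.δ s * (B.δ t)⁻¹ := by
  obtain ⟨s, t, ht, e⟩ := x.2
  rw [B.intδ_eq ht e] at hx ⊢
  rw [TrivSqZeroExt.fst_mul] at hx
  refine ⟨s, t, ⟨left_ne_zero_of_mul hx, ht, ?_⟩, rfl⟩
  rw [zpow_zero, one_mul, eq_div_iff (algebraMap_ne_zero (B.ne_zero_of_res ht))]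
  exact e

lemma ord_eq_zero_of_intδ {x : B.intRing L} (hx : (B.intδ x).fst ≠ 0) : B.ord (x : L) = 0 := by
  obtain ⟨s, t, h, -⟩ := B.isRepr_of_intδ hx
  exact h.ord_eq

lemma sp_eq_intδ {x : B.intRing L} (hx : (B.intδ x).fst ≠ 0) : B.sp (x : L) = B.intδ x := by
  obtain ⟨s, t, h, e⟩ := B.isRepr_of_intδ hx
  rw [h.sp_eq, e]

omit [IsDomain O] in
lemma ne_zero_of_intδ {x : B.intRing L} (hx : (B.intδ x).fst ≠ 0) : (x : L) ≠ 0 := by
  obtain ⟨s, t, h, -⟩ := B.isRepr_of_intδ hx
  exact h.ne_zero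

omit [IsDomain O] [IsFractionRing O L] in
lemma isRepr_zpow_ϖ (n : ℤ) : B.IsRepr n 1 1 (algebraMap O L B.ϖ ^ n) :=
  ⟨by rw [map_one]; exact one_ne_zero, by rw [map_one]; exact one_ne_zero, by simp⟩

lemma ord_sp_zpow_ϖ_mul_div (n : ℤ) {x y : B.intRing L} (hx : (B.intδ x).fst ≠ 0)
    (hy : (B.intδ y).fst ≠ 0) :
    B.ord (algebraMap O L B.ϖ ^ n * ((x : L) / (y : L))) = n ∧
      B.sp (algebraMap O L B.ϖ ^ n * ((x : L) / (y : L))) = B.intδ x * (B.intδ y)⁻¹ := by
  obtain ⟨s, t, h, e⟩ := B.isRepr_of_intδ hx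
  obtain ⟨s', t', h', e'⟩ := B.isRepr_of_intδ hy
  have key := (B.isRepr_zpow_ϖ (L := L) n).mul (h.mul h'.inv)
  rw [← div_eq_mul_inv, neg_zero, add_zero, add_zero] at key
  refine ⟨key.ord_eq, ?_⟩
  have hinv : ((B.δ t')⁻¹)⁻¹ = B.δ t' := TrivSqZeroExt.inv_inv h'.2.1
  rw [key.sp_eq, e, e']
  simp only [map_mul, map_one, TrivSqZeroExt.mul_inv_rev, TrivSqZeroExt.inv_one, hinv]
  ring

end Branch

namespace Setup

section LS

variable {R : Type*} [CommRing R] [IsDomain R]

variable (R) in
omit [IsDomain R] in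
theorem toLS_aux_injective :
    Function.Injective ((HahnSeries.ofPowerSeries ℤ (FractionRing R)).comp
      (PowerSeries.map (algebraMap R (FractionRing R)))) :=
  fun _ _ h => PowerSeries.map_injective _ (IsFractionRing.injective R (FractionRing R))
    (HahnSeries.ofPowerSeries_injective h)

variable (R) in
/-- The disc functions as Laurent series over the fraction field. -/
def toLS : FractionRing (PowerSeries R) →+* LaurentSeries (FractionRing R) :=
  IsFractionRing.lift (toLS_aux_injective R)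

theorem toLS_algebraMap (g : PowerSeries R) :
    toLS R (algebraMap _ (FractionRing (PowerSeries R)) g) =
      HahnSeries.ofPowerSeries ℤ (FractionRing R)
        (PowerSeries.map (algebraMap R (FractionRing R)) g) :=
  IsFractionRing.lift_algebraMap _ g

theorem toLS_C (r : R) :
    toLS R (algebraMap _ (FractionRing (PowerSeries R)) (PowerSeries.C r)) =
      HahnSeries.C (algebraMap R (FractionRing R) r) := by
  rw [toLS_algebraMap, PowerSeries.map_C, HahnSeries.ofPowerSeries_C]

variable (R) in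
/-- An integral Laurent series as an element of the fraction field of the disc. -/
def ofInt (s : LaurentSeries ℤ) : FractionRing (PowerSeries R) :=
  algebraMap _ _ (PowerSeries.X : PowerSeries R) ^ s.order *
    algebraMap _ _ (PowerSeries.map (Int.castRingHom R) s.powerSeriesPart)

theorem toLS_ofInt (s : LaurentSeries ℤ) :
    toLS R (ofInt R s) = ModularCurve.coeffMap (Int.castRingHom (FractionRing R)) s := by
  have hzpow : ∀ n : ℤ, (HahnSeries.single (1 : ℤ) (1 : FractionRing R) : LaurentSeries _) ^ n =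
      HahnSeries.single n (1 : FractionRing R) := by
    intro n
    obtain ⟨a, rfl | rfl⟩ := n.eq_nat_or_neg
    · rw [zpow_natCast, HahnSeries.single_pow]; simp
    · rw [zpow_neg, zpow_natCast, HahnSeries.single_pow]
      refine inv_eq_of_mul_eq_one_right ?_
      simp [HahnSeries.single_mul_single]
  conv_rhs => rw [← s.single_order_mul_powerSeriesPart, map_mul, ModularCurve.coeffMap_single,
    map_one, ModularCurve.coeffMap_ofPowerSeries]
  rw [ofInt, map_mul, map_zpow₀, toLS_algebraMap, toLS_algebraMap, PowerSeries.map_X,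
    HahnSeries.ofPowerSeries_X, hzpow, ← RingHom.comp_apply (PowerSeries.map _) (PowerSeries.map _),
    ← PowerSeries.map_comp, RingHom.ext_int ((algebraMap R (FractionRing R)).comp
      (Int.castRingHom R)) (Int.castRingHom (FractionRing R))]

end LS

variable {p : ℕ} {R k : Type*} [CommRing R] [IsDomain R] [IsDiscreteValuationRing R] [Field k]
  (S : Setup p R k)

omit [IsDomain R] [IsDiscreteValuationRing R] in
theorem δS_X : S.δS PowerSeries.X = inl (HahnSeries.single (1 : ℤ) (1 : k)) := by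
  refine TrivSqZeroExt.ext ?_ ?_
  · rw [S.fst_δS, PowerSeries.map_X, TrivSqZeroExt.fst_inl]
    exact HahnSeries.ofPowerSeries_X
  · rw [S.snd_δS, TrivSqZeroExt.snd_inl]
    convert map_zero (HahnSeries.ofPowerSeries ℤ k)
    ext n
    rw [PowerSeries.coeff_mk, PowerSeries.coeff_X]
    split_ifs <;> simp

omit [IsDomain R] [IsDiscreteValuationRing R] in
theorem δS_map_intCast (g : PowerSeries ℤ) :
    S.δS (PowerSeries.map (Int.castRingHom R) g) =
      inl (HahnSeries.ofPowerSeries ℤ k (PowerSeries.map (Int.castRingHom k) g)) := by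
  have hδ : ∀ m : ℤ, S.δ (m : R) = inl (m : k) := fun m => by rw [map_intCast]; rfl
  refine TrivSqZeroExt.ext ?_ ?_
  · rw [S.fst_δS, TrivSqZeroExt.fst_inl]
    congr 1
    ext n
    simp
  · rw [S.snd_δS, TrivSqZeroExt.snd_inl]
    convert map_zero (HahnSeries.ofPowerSeries ℤ k)
    ext n
    simp [hδ]

/-- An integer series is integral along the disc, with constant dual reduction. -/
theorem ofInt_spec (s : LaurentSeries ℤ) :
    ∃ x : S.discBranch.intRing (FractionRing (PowerSeries R)),
      (x : FractionRing (PowerSeries R)) = ofInt R s ∧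
      S.discBranch.intδ x = inl (ModularCurve.coeffMap (Int.castRingHom k) s) := by
  set g := PowerSeries.map (Int.castRingHom R) s.powerSeriesPart with hg
  have hX : algebraMap (PowerSeries R) (FractionRing (PowerSeries R)) PowerSeries.X ≠ 0 :=
    Branch.algebraMap_ne_zero PowerSeries.X_ne_zero
  have hres : ∀ a : ℕ, S.discBranch.res (PowerSeries.X ^ a) ≠ 0 := fun a => by
    rw [map_pow]
    refine pow_ne_zero a ?_
    show (S.δS PowerSeries.X).fst ≠ 0
    rw [S.δS_X, TrivSqZeroExt.fst_inl]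
    exact HahnSeries.single_ne_zero one_ne_zero
  have hδX : ∀ a : ℕ, S.δS (PowerSeries.X ^ a) = inl (HahnSeries.single (a : ℤ) (1 : k)) := by
    intro a
    rw [map_pow, S.δS_X, TrivSqZeroExt.inl_pow, HahnSeries.single_pow]
    simp
  have hs : ModularCurve.coeffMap (Int.castRingHom k) s = HahnSeries.single s.order (1 : k) *
      HahnSeries.ofPowerSeries ℤ k (PowerSeries.map (Int.castRingHom k) s.powerSeriesPart) := by
    conv_lhs => rw [← s.single_order_mul_powerSeriesPart, map_mul, ModularCurve.coeffMap_single,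
      map_one, ModularCurve.coeffMap_ofPowerSeries]
  obtain ⟨a, ha | ha⟩ := s.order.eq_nat_or_neg
  · have e : ofInt R s * algebraMap _ _ (1 : PowerSeries R) =
        algebraMap _ _ (PowerSeries.X ^ a * g) := by
      rw [ofInt, ha, zpow_natCast, map_mul, map_pow, map_one, mul_one]
    refine ⟨⟨ofInt R s, PowerSeries.X ^ a * g, 1, by rw [map_one]; exact one_ne_zero, e⟩, rfl, ?_⟩
    rw [S.discBranch.intδ_eq (s := PowerSeries.X ^ a * g) (t := 1)
      (by rw [map_one]; exact one_ne_zero) e]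
    show S.δS _ * (S.δS 1)⁻¹ = _
    rw [map_one, TrivSqZeroExt.inv_one, mul_one, map_mul, hδX, hg, S.δS_map_intCast,
      ← TrivSqZeroExt.inl_mul, hs, ha]
  · have e : ofInt R s * algebraMap _ _ ((PowerSeries.X : PowerSeries R) ^ a) =
        algebraMap _ _ g := by
      rw [ofInt, ha, zpow_neg, zpow_natCast, map_pow, mul_right_comm,
        inv_mul_cancel₀ (pow_ne_zero a hX), one_mul]
    refine ⟨⟨ofInt R s, g, PowerSeries.X ^ a, hres a, e⟩, rfl, ?_⟩
    rw [S.discBranch.intδ_eq (hres a) e]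
    show S.δS _ * (S.δS _)⁻¹ = _
    rw [hδX, hg, S.δS_map_intCast, TrivSqZeroExt.inv_inl, ← TrivSqZeroExt.inl_mul, hs, ha]
    congr 1
    rw [mul_comm]
    congr 1
    refine inv_eq_of_mul_eq_one_right ?_
    simp [HahnSeries.single_mul_single]

end Setup

end Fermat.Agent.LevelLowerP
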