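import Fermat.Agent.LevelLowerP.DlogNorm
import Fermat.Agent.LevelLowerP.GeoInt
import Fermat.Agent.LevelLowerP.Approx
import Mathlib.RingTheory.Nilpotent.Basic

/-!
# Series norms along the disc

The effect of the series norms on reductions and derivatives along the disc at a cusp.

Main result: `Setup.disc_norm_close`.
-/

set_option autoImplicit false

noncomputable section

namespace Fermat.Agent.LevelLowerP

open ModularCurve DualNumber TrivSqZeroExt

section Laurent

variable (R : Type*) [CommRing R] [IsDomain R]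

/-- The expansion at the cusp commutes with maps of coefficients. -/
theorem toLS_eq_coeffMap (s : PowerSeries R) :
    Setup.toLS R (algebraMap _ _ s) =
      coeffMap (algebraMap R (FractionRing R)) (HahnSeries.ofPowerSeries ℤ R s) := by
  rw [Setup.toLS_algebraMap]
  refine HahnSeries.ext (funext fun n => ?_)
  rw [coeffMap_coeff]
  rcases lt_or_ge n 0 with h | h
  · rw [ofPowerSeries_coeff_of_neg _ h, ofPowerSeries_coeff_of_neg _ h, map_zero]
  · lift n to ℕ using h
    simp [HahnSeries.ofPowerSeries_apply_coeff]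

end Laurent

section Power

variable {A : Type*} [CommRing A] (ℓ : ℕ) [NeZero ℓ]

theorem exists_eq_ofPowerSeries {g : LaurentSeries A} (h : ∀ n : ℤ, n < 0 → g.coeff n = 0) :
    ∃ s : PowerSeries A, g = HahnSeries.ofPowerSeries ℤ A s := by
  refine ⟨PowerSeries.mk fun n => g.coeff n, ?_⟩
  ext n
  rcases lt_or_ge n 0 with hn | hn
  · rw [h n hn, ofPowerSeries_coeff_of_neg _ hn]
  · lift n to ℕ using hn
    simp [HahnSeries.ofPowerSeries_apply_coeff]

theorem qExpand_ofPowerSeries (s : PowerSeries A) :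
    ∃ s' : PowerSeries A,
      qExpand A ℓ (HahnSeries.ofPowerSeries ℤ A s) = HahnSeries.ofPowerSeries ℤ A s' := by
  refine exists_eq_ofPowerSeries fun n hn => ?_
  by_cases hd : (ℓ : ℤ) ∣ n
  · obtain ⟨m, rfl⟩ := hd
    rw [qExpand_coeff_mul, ofPowerSeries_coeff_of_neg]
    nlinarith
  · exact qExpand_coeff_of_not_dvd ℓ _ hd

theorem seriesNorm_ofPowerSeries (s : PowerSeries A) :
    ∃ s' : PowerSeries A,
      seriesNorm ℓ (HahnSeries.ofPowerSeries ℤ A s) = HahnSeries.ofPowerSeries ℤ A s' := by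
  have hM : ∀ i j : Fin ℓ, ∃ a : PowerSeries A,
      seriesMat ℓ (HahnSeries.ofPowerSeries ℤ A s) i j = HahnSeries.ofPowerSeries ℤ A a := by
    intro i j
    refine exists_eq_ofPowerSeries fun n hn => ?_
    show (seriesSection ℓ ((i : ℤ) - j) (HahnSeries.ofPowerSeries ℤ A s)).coeff n = 0
    rw [seriesSection_coeff, ofPowerSeries_coeff_of_neg]
    have : (ℓ : ℤ) * n ≤ -(ℓ : ℤ) := by nlinarith [show (0 : ℤ) ≤ ℓ from Int.natCast_nonneg ℓ]
    omega
  choose a ha using hM
  refine ⟨(Matrix.of a).det, ?_⟩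
  rw [seriesNorm, RingHom.map_det]
  congr 1
  ext1 i j
  simp [ha i j]

end Power

/-- A series with a unit coefficient at `m` and nilpotent ones below is a unit. -/
theorem isUnit_ofPowerSeries {A : Type*} [CommRing A] (b : PowerSeries A) (m : ℕ)
    (hm : IsUnit (PowerSeries.coeff m b)) (hlow : ∀ n < m, IsNilpotent (PowerSeries.coeff n b)) :
    IsUnit (HahnSeries.ofPowerSeries ℤ A b) := by
  set hi : PowerSeries A := PowerSeries.mk fun n => PowerSeries.coeff (n + m) b
  have hhi : IsUnit hi := PowerSeries.isUnit_iff_constantCoeff.2 (by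
    rw [← PowerSeries.coeff_zero_eq_constantCoeff_apply]; simpa [hi] using hm)
  have hsplit : b = ∑ n ∈ Finset.range m, PowerSeries.monomial n (PowerSeries.coeff n b) +
      PowerSeries.X ^ m * hi := by
    ext n
    rw [map_add, map_sum, PowerSeries.coeff_X_pow_mul']
    rcases lt_or_ge n m with hn | hn
    · rw [if_neg (not_le.2 hn), add_zero, Finset.sum_eq_single n]
      · simp
      · intro c _ hc; simp [PowerSeries.coeff_monomial, Ne.symm hc]
      · intro hc; exact absurd (Finset.mem_range.2 hn) hc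
    · rw [if_pos hn, Finset.sum_eq_zero]
      · simp [hi, Nat.sub_add_cancel hn]
      · intro c hc
        have := Finset.mem_range.1 hc
        simp [PowerSeries.coeff_monomial, show n ≠ c by omega]
  have hX : IsUnit (HahnSeries.ofPowerSeries ℤ A (PowerSeries.X ^ m * hi)) := by
    rw [map_mul, HahnSeries.ofPowerSeries_X_pow]
    refine IsUnit.mul ?_ (hhi.map _)
    refine IsUnit.of_mul_eq_one (HahnSeries.single (-(m : ℤ)) (1 : A)) ?_
    rw [HahnSeries.single_mul_single, one_mul, add_neg_cancel]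
    rfl
  rw [hsplit, map_add, map_sum, add_comm]
  refine IsNilpotent.isUnit_add_left_of_commute ?_ hX (Commute.all _ _)
  refine isNilpotent_sum fun n hn => ?_
  rw [PowerSeries.monomial_eq_C_mul_X_pow, map_mul]
  exact (Commute.all _ _).isNilpotent_mul_right
    ((hlow n (Finset.mem_range.1 hn)).map ((HahnSeries.ofPowerSeries ℤ A).comp PowerSeries.C))

namespace Setup

variable {p : ℕ} {R k : Type*} [CommRing R] [IsDomain R] [IsDiscreteValuationRing R] [Field k]
  [CharP k p] [Fact p.Prime] (S : Setup p R k)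

omit [IsDomain R] [IsDiscreteValuationRing R] [CharP k p] [Fact (Nat.Prime p)] in
theorem joinLaurent_δS (s : PowerSeries R) :
    joinLaurent (S.δS s) = coeffMap S.δ (HahnSeries.ofPowerSeries ℤ R s) := by
  refine HahnSeries.ext (funext fun n => ?_)
  rw [joinLaurent_coeff, S.fst_δS, S.snd_δS, coeffMap_coeff]
  rcases lt_or_ge n 0 with h | h
  · rw [ofPowerSeries_coeff_of_neg _ h, ofPowerSeries_coeff_of_neg _ h,
      ofPowerSeries_coeff_of_neg _ h, map_zero]
    simp
  · lift n to ℕ using h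
    rw [HahnSeries.ofPowerSeries_apply_coeff, HahnSeries.ofPowerSeries_apply_coeff,
      HahnSeries.ofPowerSeries_apply_coeff]
    ext <;> simp [res_apply]

omit [IsDomain R] [IsDiscreteValuationRing R] [CharP k p] [Fact (Nat.Prime p)] in
theorem map_res_ofPowerSeries (s : PowerSeries R) :
    coeffMap S.res (HahnSeries.ofPowerSeries ℤ R s) =
      (HahnSeries.ofPowerSeries ℤ k (PowerSeries.map S.res s)) := by
  ext n
  rw [coeffMap_coeff]
  rcases lt_or_ge n 0 with h | h
  · rw [ofPowerSeries_coeff_of_neg _ h, ofPowerSeries_coeff_of_neg _ h, map_zero]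
  · lift n to ℕ using h
    simp [HahnSeries.ofPowerSeries_apply_coeff]

omit [CharP k p] [Fact (Nat.Prime p)] in
theorem res_discBranch (s : PowerSeries R) :
    S.discBranch.res s = coeffMap S.res (HahnSeries.ofPowerSeries ℤ R s) := by
  rw [S.map_res_ofPowerSeries]; exact S.fst_δS s

variable (ℓ : ℕ) [NeZero ℓ]

omit [IsDomain R] [IsDiscreteValuationRing R] in
/-- The series of `T_ℓ` commutes with maps of coefficients. -/
theorem coeffMap_hecke {A : Type*} [CommRing A] (f : R →+* A) {a a1 a2 : PowerSeries R}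
    (h1 : qExpand R ℓ (HahnSeries.ofPowerSeries ℤ R a) = HahnSeries.ofPowerSeries ℤ R a1)
    (h2 : seriesNorm ℓ (HahnSeries.ofPowerSeries ℤ R a) = HahnSeries.ofPowerSeries ℤ R a2) :
    coeffMap f (HahnSeries.ofPowerSeries ℤ R (a1 * a2)) =
      qExpand A ℓ (coeffMap f (HahnSeries.ofPowerSeries ℤ R a)) *
        seriesNorm ℓ (coeffMap f (HahnSeries.ofPowerSeries ℤ R a)) := by
  rw [map_mul, map_mul, ← h1, ← h2, coeffMap_seriesNorm]
  congr 1
  refine HahnSeries.ext (funext fun n => ?_)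
  rw [coeffMap_coeff]
  by_cases hd : (ℓ : ℤ) ∣ n
  · obtain ⟨m, rfl⟩ := hd
    rw [qExpand_coeff_mul, qExpand_coeff_mul, coeffMap_coeff]
  · rw [qExpand_coeff_of_not_dvd ℓ _ hd, qExpand_coeff_of_not_dvd ℓ _ hd, map_zero]

omit [CharP k p] [Fact (Nat.Prime p)] in
/-- The series of `T_ℓ` on a function with constant logarithmic derivative along the disc. -/
theorem disc_hecke {x z : FractionRing (PowerSeries R)} (hx : x ≠ 0)
    (hz : Setup.toLS R z = qExpand _ ℓ (Setup.toLS R x) * seriesNorm ℓ (Setup.toLS R x))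
    {c : k} (hc : S.discBranch.psi x = HahnSeries.C c) :
    z ≠ 0 ∧ S.discBranch.resUnit z =
        qExpand k ℓ (S.discBranch.resUnit x) * seriesNorm ℓ (S.discBranch.resUnit x) ∧
      S.discBranch.psi z = HahnSeries.C (((ℓ + 1 : ℕ) : k) * c) := by
  set B := S.discBranch
  obtain ⟨s, t, hst⟩ := B.isRepr_ord hx
  obtain ⟨hs, ht, he⟩ := id hst
  obtain ⟨s1, hs1⟩ := qExpand_ofPowerSeries ℓ s
  obtain ⟨s2, hs2⟩ := seriesNorm_ofPowerSeries ℓ s
  obtain ⟨t1, ht1⟩ := qExpand_ofPowerSeries ℓ t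
  obtain ⟨t2, ht2⟩ := seriesNorm_ofPowerSeries ℓ t
  have hres : ∀ a a1 a2 : PowerSeries R,
      qExpand R ℓ (HahnSeries.ofPowerSeries ℤ R a) = HahnSeries.ofPowerSeries ℤ R a1 →
      seriesNorm ℓ (HahnSeries.ofPowerSeries ℤ R a) = HahnSeries.ofPowerSeries ℤ R a2 →
      B.res a ≠ 0 → B.res (a1 * a2) ≠ 0 := fun a a1 a2 h1 h2 ha => by
    rw [S.res_discBranch] at ha ⊢
    rw [coeffMap_hecke ℓ S.res h1 h2]
    exact mul_ne_zero ((map_ne_zero_iff _ (qExpand_injective ℓ)).2 ha) (seriesNorm_ne_zero ℓ ha)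
  have hπ : (algebraMap R (FractionRing R)) S.ϖ ≠ 0 :=
    (map_ne_zero_iff _ (IsFractionRing.injective R _)).2 S.irreducible_ϖ.ne_zero
  have hπC : (HahnSeries.C (algebraMap R (FractionRing R) S.ϖ) :
      LaurentSeries (FractionRing R)) ≠ 0 :=
    (map_ne_zero_iff _ HahnSeries.C_injective).2 hπ
  have hrep : B.IsRepr (B.ord x * ((ℓ + 1 : ℕ) : ℤ)) (s1 * s2) (t1 * t2) z := by
    refine ⟨hres s s1 s2 hs1 hs2 hs, hres t t1 t2 ht1 ht2 ht, (Setup.toLS R).injective ?_⟩
    have h1 := congrArg (Setup.toLS R) he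
    rw [map_mul, map_zpow₀, map_div₀] at h1 ⊢
    change _ = Setup.toLS R (algebraMap _ _ (PowerSeries.C S.ϖ)) ^ _ * _ at h1 ⊢
    rw [Setup.toLS_C, toLS_eq_coeffMap, toLS_eq_coeffMap] at h1
    rw [Setup.toLS_C, toLS_eq_coeffMap, toLS_eq_coeffMap,
      coeffMap_hecke ℓ _ hs1 hs2, coeffMap_hecke ℓ _ ht1 ht2, hz, h1]
    have hN : ∀ a b : LaurentSeries (FractionRing R), b ≠ 0 →
        seriesNorm ℓ (a / b) = seriesNorm ℓ a / seriesNorm ℓ b := fun a b hb => by
      rw [eq_div_iff (seriesNorm_ne_zero ℓ hb), ← seriesNorm_mul, div_mul_cancel₀ _ hb]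
    have htne : coeffMap (algebraMap R (FractionRing R)) (HahnSeries.ofPowerSeries ℤ R t) ≠ 0 := by
      rw [← toLS_eq_coeffMap]
      exact (map_ne_zero _).2 (Branch.algebraMap_ne_zero (B.ne_zero_of_res ht))
    rw [map_mul, map_zpow₀, map_div₀, qExpand_C, seriesNorm_mul, seriesNorm_zpow ℓ hπC,
      seriesNorm_C, hN _ _ htne, map_pow, zpow_mul, zpow_natCast, pow_succ,
      ← zpow_natCast (HahnSeries.C (algebraMap R (FractionRing R) S.ϖ)) ℓ, ← zpow_mul,
      mul_comm (ℓ : ℤ), zpow_mul, zpow_natCast]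
    ring
  refine ⟨hrep.ne_zero, ?_⟩
  have hu : ∀ {a : PowerSeries R}, B.res a ≠ 0 → IsUnit (B.δ a) := fun ha =>
    IsUnit.of_mul_eq_one _ (TrivSqZeroExt.mul_inv_cancel ha)
  have hspx : B.sp x = inl (B.resUnit x) * (1 + inr (HahnSeries.C c)) := by
    have h0 := B.resUnit_ne_zero hx
    refine TrivSqZeroExt.ext ?_ ?_
    · simp [Branch.resUnit]
    · have hc' : (B.sp x).snd = HahnSeries.C c * (B.sp x).fst := (div_eq_iff h0).1 hc
      rw [hc']
      simp only [DualNumber.snd_mul, fst_inl, snd_inl, snd_add, snd_one, fst_add, fst_one, fst_inr,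
        snd_inr, Branch.resUnit]
      ring
  have hJx : joinLaurent (B.sp x) * coeffMap S.δ (HahnSeries.ofPowerSeries ℤ R t) =
      coeffMap S.δ (HahnSeries.ofPowerSeries ℤ R s) := by
    rw [← S.joinLaurent_δS, ← S.joinLaurent_δS, ← map_mul, hst.sp_eq]
    show joinLaurent (B.δ s * (B.δ t)⁻¹ * B.δ t) = _
    rw [mul_assoc, TrivSqZeroExt.inv_mul_cancel ht, mul_one]
    rfl
  have hJop : ∀ (m : ℕ), (HahnSeries.C (1 + inr c : DualNumber k) :
      LaurentSeries (DualNumber k)) ^ m = HahnSeries.C (1 + inr ((m : k) * c)) := fun m => by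
    rw [← map_pow, one_add_inr_pow]
  have key : B.sp z = inl (qExpand k ℓ (B.resUnit x) * seriesNorm ℓ (B.resUnit x)) *
      (1 + inr (HahnSeries.C (((ℓ + 1 : ℕ) : k) * c))) := by
    refine joinLaurent_injective ((hu hrep.2.1).map joinLaurent |>.mul_right_cancel ?_)
    have hl : joinLaurent (B.sp z) * joinLaurent (B.δ (t1 * t2)) = joinLaurent (B.δ (s1 * s2)) := by
      rw [← map_mul, hrep.sp_eq, mul_assoc, TrivSqZeroExt.inv_mul_cancel hrep.2.1, mul_one]
    rw [hl]
    show joinLaurent (S.δS _) = _ * joinLaurent (S.δS _)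
    rw [S.joinLaurent_δS, S.joinLaurent_δS, coeffMap_hecke ℓ S.δ hs1 hs2,
      coeffMap_hecke ℓ S.δ ht1 ht2, ← hJx, map_mul, seriesNorm_mul, hspx,
      map_mul (joinLaurent (k := k)), map_mul (joinLaurent (k := k)),
      joinLaurent_inl, joinLaurent_inl, joinLaurent_one_add, joinLaurent_one_add, map_mul,
      seriesNorm_mul, qExpand_C, seriesNorm_C, map_pow, ← hJop, map_mul, coeffMap_seriesNorm]
    have hq : coeffMap (inlHom k k) (qExpand k ℓ (B.resUnit x)) =
        qExpand (DualNumber k) ℓ (coeffMap (inlHom k k) (B.resUnit x)) := by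
      refine HahnSeries.ext (funext fun n => ?_)
      rw [coeffMap_coeff]
      by_cases hd : (ℓ : ℤ) ∣ n
      · obtain ⟨m, rfl⟩ := hd
        rw [qExpand_coeff_mul, qExpand_coeff_mul, coeffMap_coeff]
      · rw [qExpand_coeff_of_not_dvd ℓ _ hd, qExpand_coeff_of_not_dvd ℓ _ hd, map_zero]
    rw [hq, pow_succ]
    ring
  have hf : (B.sp z).fst = qExpand k ℓ (B.resUnit x) * seriesNorm ℓ (B.resUnit x) := by
    rw [key]; simp
  refine ⟨hf, ?_⟩
  rw [Branch.psi, div_eq_iff (B.fst_sp_ne_zero hrep.ne_zero)]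
  conv_lhs => rw [key]
  rw [hf]
  simp only [DualNumber.snd_mul, fst_inl, snd_inl, snd_add, snd_one, fst_add, fst_one, fst_inr,
    snd_inr]
  ring

variable [PerfectRing k p]

omit [PerfectRing k p] [CharP k p] in
/-- The series norm of a series congruent to one is congruent to one at a deeper level. -/
theorem disc_norm_close {x z : FractionRing (PowerSeries R)} {i j : ℕ} (_hi : 1 ≤ i)
    (hj : j ≤ 2 * i) (hj' : j ≤ i + p)
    (hz : Setup.toLS R z = seriesNorm p (Setup.toLS R x)) (h : S.discBranch.Close i x) :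
    S.discBranch.Close j z := by
  set B := S.discBranch
  obtain ⟨d, hd⟩ := Branch.close_iff.1 h
  obtain ⟨a, b, hb, hab⟩ := d.2
  set π : PowerSeries R := PowerSeries.C S.ϖ
  obtain ⟨u, hu⟩ := seriesNorm_ofPowerSeries p (b + π ^ i * a)
  obtain ⟨b', hb'⟩ := seriesNorm_ofPowerSeries p b
  have hx : x * algebraMap _ _ b = algebraMap _ (FractionRing (PowerSeries R)) (b + π ^ i * a) := by
    rw [map_add, map_mul, map_pow, show x = 1 + (x - 1) by ring, hd, show π = B.ϖ from rfl]
    linear_combination (algebraMap _ (FractionRing (PowerSeries R)) B.ϖ ^ i) * hab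
  have hzb : z * algebraMap _ _ b' = algebraMap _ (FractionRing (PowerSeries R)) u := by
    refine (Setup.toLS R).injective ?_
    rw [map_mul, hz, toLS_eq_coeffMap, toLS_eq_coeffMap, ← hu, ← hb',
      coeffMap_seriesNorm, coeffMap_seriesNorm, ← seriesNorm_mul, ← toLS_eq_coeffMap, ← map_mul,
      hx, toLS_eq_coeffMap]
  have hb'0 : B.res b' ≠ 0 := by
    rw [S.res_discBranch] at hb ⊢
    rw [← hb', coeffMap_seriesNorm]
    exact seriesNorm_ne_zero p hb
  -- working modulo `ϖ ^ j`
  let I : Ideal R := Ideal.span {S.ϖ ^ j}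
  let f := Ideal.Quotient.mk I
  have hpos : (f S.ϖ) ^ j = 0 := by
    rw [← map_pow, Ideal.Quotient.eq_zero_iff_mem]
    exact Ideal.mem_span_singleton_self _
  have he : f (S.ϖ ^ i) * f (S.ϖ ^ i) = 0 := by
    rw [map_pow, ← pow_add]; exact pow_eq_zero_of_le (by omega) hpos
  have hep : f (S.ϖ ^ i) * ((p : ℕ) : R ⧸ I) = 0 := by
    rw [← map_natCast f, ← map_mul, S.natCast_eq, ← mul_assoc, ← pow_add, map_mul, map_pow,
      pow_eq_zero_of_le hj' hpos, zero_mul]
  obtain ⟨m, hm, hlow⟩ : ∃ m, S.res (PowerSeries.coeff m b) ≠ 0 ∧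
      ∀ n < m, S.res (PowerSeries.coeff n b) = 0 := by
    classical
    have hex : ∃ m, S.res (PowerSeries.coeff m b) ≠ 0 := by
      by_contra hc
      push Not at hc
      refine hb ?_
      rw [Branch.res_apply]
      exact S.fst_δS_eq_zero_iff.2 (PowerSeries.ext fun n => by simpa using hc n)
    exact ⟨Nat.find hex, Nat.find_spec hex, fun n hn => not_not.1 (Nat.find_min hex hn)⟩
  have hbu : IsUnit (HahnSeries.ofPowerSeries ℤ (R ⧸ I) (PowerSeries.map f b)) := by
    refine isUnit_ofPowerSeries _ m ?_ fun n hn => ?_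
    · rw [PowerSeries.coeff_map]; exact (S.isUnit_iff_res_ne_zero.2 hm).map f
    · rw [PowerSeries.coeff_map]
      obtain ⟨r, hr⟩ := S.res_eq_zero_iff.1 (hlow n hn)
      rw [hr, map_mul]
      exact (Commute.all _ _).isNilpotent_mul_right ⟨j, hpos⟩
  obtain ⟨v, hv⟩ := hbu
  have hcm : ∀ g : PowerSeries R, coeffMap f (HahnSeries.ofPowerSeries ℤ R g) =
      HahnSeries.ofPowerSeries ℤ (R ⧸ I) (PowerSeries.map f g) := fun g => by
    ext n
    rw [coeffMap_coeff]
    rcases lt_or_ge n 0 with h | h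
    · rw [ofPowerSeries_coeff_of_neg _ h, ofPowerSeries_coeff_of_neg _ h, map_zero]
    · lift n to ℕ using h
      simp [HahnSeries.ofPowerSeries_apply_coeff]
  have hmain : coeffMap f (HahnSeries.ofPowerSeries ℤ R u) =
      coeffMap f (HahnSeries.ofPowerSeries ℤ R b') := by
    rw [← hu, ← hb', coeffMap_seriesNorm, coeffMap_seriesNorm, hcm, hcm, ← hv]
    have hfac : HahnSeries.ofPowerSeries ℤ (R ⧸ I) (PowerSeries.map f (b + π ^ i * a)) =
        (v : LaurentSeries (R ⧸ I)) * (1 + HahnSeries.C (f (S.ϖ ^ i)) *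
          ((↑v⁻¹ : LaurentSeries (R ⧸ I)) *
            HahnSeries.ofPowerSeries ℤ _ (PowerSeries.map f a))) := by
      rw [map_add, map_mul, map_add, map_mul, ← hv]
      have : HahnSeries.ofPowerSeries ℤ (R ⧸ I) (PowerSeries.map f (π ^ i)) =
          HahnSeries.C (f S.ϖ ^ i) := by
        rw [map_pow, map_pow, PowerSeries.map_C, HahnSeries.ofPowerSeries_C, map_pow]
      rw [this, mul_add, mul_one, ← mul_assoc (v : LaurentSeries (R ⧸ I)),
        mul_comm (v : LaurentSeries (R ⧸ I)), mul_assoc _ (v : LaurentSeries (R ⧸ I)),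
        ← mul_assoc (v : LaurentSeries (R ⧸ I)), Units.mul_inv, one_mul, map_pow f]
    rw [hfac, seriesNorm_mul, seriesNorm_one_add_eq_one p he hep, mul_one]
  have hdvd : ∀ n, S.ϖ ^ j ∣ PowerSeries.coeff n (u - b') := fun n => by
    have h1 := congrArg (fun g => HahnSeries.coeff g (n : ℤ)) hmain
    simp only [coeffMap_coeff, HahnSeries.ofPowerSeries_apply_coeff] at h1
    rw [map_sub, ← Ideal.mem_span_singleton]
    exact Ideal.Quotient.eq.1 h1
  choose w hw using hdvd
  refine Branch.close_iff.2 ⟨⟨algebraMap _ _ (PowerSeries.mk w) / algebraMap _ _ b',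
    ⟨PowerSeries.mk w, b', hb'0, ?_⟩⟩, ?_⟩
  · rw [div_mul_cancel₀ _ (Branch.algebraMap_ne_zero (B.ne_zero_of_res hb'0))]
  · have hb'L := Branch.algebraMap_ne_zero (L := FractionRing (PowerSeries R))
      (B.ne_zero_of_res hb'0)
    have e : u - b' = π ^ j * PowerSeries.mk w := by
      ext n
      rw [← map_pow, PowerSeries.coeff_C_mul, PowerSeries.coeff_mk, hw]
    have e' := congrArg (algebraMap (PowerSeries R) (FractionRing (PowerSeries R))) e
    rw [map_sub, map_mul, map_pow, ← hzb] at e'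
    change z - 1 = algebraMap _ _ π ^ j * (_ / _)
    field_simp
    linear_combination e'

end Setup

end Fermat.Agent.LevelLowerP
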