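import Fermat.Agent.LevelLowerP.GeoAtkin
import Fermat.Agent.LevelLowerP.SeriesStep

/-!
# Hecke relations on the two components

The relations under `T_ℓ` seen on the two components: equality of the logarithmic constants and
the recursion for the logarithmic derivative of the reduction.

Main results: `psi_eq_of_hecke`, `dlog_coeff_of_hecke`, `exists_red_hecke`.
-/

set_option autoImplicit false

noncomputable section

namespace Fermat.Agent.LevelLowerP

open ModularCurve DualNumber TrivSqZeroExt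
open scoped LaurentSeries

namespace GBranch

variable {p : ℕ} {R k : Type*} [CommRing R] [IsDomain R] [IsDiscreteValuationRing R] [Field k]
  [CharP k p] [Fact p.Prime] {S : Setup p R k} {L κ : Type*} [Field L] [Field κ] [Algebra R L]
  [Algebra k κ] (G : GBranch S L κ)

omit [IsDomain R] [IsDiscreteValuationRing R] [CharP k p] [Fact (Nat.Prime p)] in
lemma resUnit_one : G.resUnit (1 : L) = 1 := by
  have h := congrArg TrivSqZeroExt.fst (G.sp_mul 1 1 one_ne_zero one_ne_zero)
  rw [mul_one, TrivSqZeroExt.fst_mul] at h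
  exact (mul_eq_left₀ (G.fst_sp_ne_zero 1 one_ne_zero)).1 h.symm

omit [IsDomain R] [IsDiscreteValuationRing R] [CharP k p] [Fact (Nat.Prime p)] in
lemma psi_zpow {x : L} (hx : x ≠ 0) (n : ℤ) : G.psi (x ^ n) = n * G.psi x := by
  induction n using Int.induction_on with
  | zero =>
    have h := G.psi_mul (one_ne_zero (α := L)) one_ne_zero
    rw [mul_one] at h
    simp [add_eq_left.1 h.symm]
  | succ j ih =>
    rw [zpow_add_one₀ hx, G.psi_mul (zpow_ne_zero _ hx) hx, ih]; push_cast; ring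
  | pred j ih =>
    have h := G.psi_mul (zpow_ne_zero (-(j : ℤ) - 1) hx) hx
    rw [← zpow_add_one₀ hx, sub_add_cancel, ih] at h
    push_cast at h ⊢
    linear_combination -h

omit [IsDomain R] [IsDiscreteValuationRing R] [CharP k p] [Fact (Nat.Prime p)] in
lemma resUnit_zpow {x : L} (hx : x ≠ 0) (n : ℤ) : G.resUnit (x ^ n) = G.resUnit x ^ n := by
  induction n using Int.induction_on with
  | zero => simp [G.resUnit_one]
  | succ j ih =>
    rw [zpow_add_one₀ hx, G.resUnit_mul (zpow_ne_zero _ hx) hx, ih,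
      zpow_add_one₀ (G.resUnit_ne_zero hx)]
  | pred j ih =>
    have h := G.resUnit_mul (zpow_ne_zero (-(j : ℤ) - 1) hx) hx
    rw [← zpow_add_one₀ hx, sub_add_cancel, ih] at h
    rw [zpow_sub_one₀ (G.resUnit_ne_zero hx), h, mul_inv_cancel_right₀ (G.resUnit_ne_zero hx)]

omit [IsDomain R] [IsDiscreteValuationRing R] [CharP k p] [Fact (Nat.Prime p)] in
lemma psi_pow_eq_zero [CharP κ p] {x : L} (hx : x ≠ 0) : G.psi (x ^ p) = 0 := by
  rw [← zpow_natCast, G.psi_zpow hx]; simp

omit [IsDomain R] [IsDiscreteValuationRing R] [CharP k p] [Fact (Nat.Prime p)] in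
lemma resUnit_pow {x : L} (hx : x ≠ 0) (n : ℕ) : G.resUnit (x ^ n) = G.resUnit x ^ n := by
  rw [← zpow_natCast, G.resUnit_zpow hx, zpow_natCast]

omit [CharP k p] [Fact (Nat.Prime p)] in
/-- Constants look the same on all components. -/
lemma exists_const_spec {r : R} (hr : algebraMap R L r ≠ 0) :
    ∃ d c : k, c ≠ 0 ∧ ∀ G : GBranch S L κ, G.psi (algebraMap R L r) = algebraMap k κ d ∧
      G.resUnit (algebraMap R L r) = algebraMap k κ c := by
  have hr0 : r ≠ 0 := fun h => hr (by rw [h, map_zero])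
  obtain ⟨n, u, rfl⟩ := IsDiscreteValuationRing.eq_unit_mul_pow_irreducible hr0 S.irreducible_ϖ
  have hu := S.isUnit_iff_res_ne_zero.1 u.isUnit
  rw [map_mul, map_pow, mul_ne_zero_iff] at hr
  refine ⟨(S.δ u).snd / (S.δ u).fst, S.res u, hu, fun G => ?_⟩
  have h1 : G.psi (algebraMap R L S.ϖ ^ n) = 0 ∧ G.resUnit (algebraMap R L S.ϖ ^ n) = 1 := by
    rcases Nat.eq_zero_or_pos n with rfl | hn
    · exact ⟨by simpa using G.psi_zpow (one_ne_zero (α := L)) 0, by simp [G.resUnit_one]⟩
    · have hπ : algebraMap R L S.ϖ ≠ 0 := fun h => hr.2 (by rw [h, zero_pow hn.ne'])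
      have hπ1 : G.psi (algebraMap R L S.ϖ) = 0 ∧ G.resUnit (algebraMap R L S.ϖ) = 1 := by
        rw [GBranch.psi, GBranch.resUnit, G.sp_ϖ]; simp
      rw [← zpow_natCast, G.psi_zpow hπ, hπ1.1, G.resUnit_zpow hπ, hπ1.2]
      simp
  rw [map_mul, map_pow, G.psi_mul hr.1 hr.2, G.resUnit_mul hr.1 hr.2, h1.1, h1.2, add_zero,
    mul_one]
  refine ⟨?_, ?_⟩
  · rw [GBranch.psi, G.sp_const _ hu, fst_dualMap, snd_dualMap, map_div₀]
  · rw [GBranch.resUnit, G.sp_const _ hu, fst_dualMap, Setup.res_apply]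

end GBranch

section Series

variable {k : Type*} [Field k]

theorem theta_eq_mul_zpow {u G : LaurentSeries k} (hu : u ≠ 0) (h : theta k u = G * u) (n : ℤ) :
    theta k (u ^ n) = (n : LaurentSeries k) * G * u ^ n := by
  induction n using Int.induction_on with
  | zero => simp [theta_one]
  | succ j ih =>
    rw [zpow_add_one₀ hu, theta_mul, ih, h]; push_cast; ring
  | pred j ih =>
    set w := u ^ (-(j : ℤ) - 1) with hw
    have hwu : u ^ (-(j : ℤ)) = w * u := by rw [hw, ← zpow_add_one₀ hu, sub_add_cancel]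
    rw [hwu, theta_mul, h] at ih
    refine mul_right_cancel₀ hu ?_
    push_cast at ih ⊢
    linear_combination ih

/-- The recursion of the logarithmic derivative from a relation under `T_ℓ`. -/
theorem dlog_hecke_coeff {p : ℕ} [CharP k p] (ℓ : ℕ) [NeZero ℓ] (hℓ : (ℓ : k) ≠ 0)
    {u v G : LaurentSeries k} (hu : u ≠ 0) {c : k}
    (hG : theta k u = G * u) {a : ℤ}
    (h : qExpand k ℓ u * seriesNorm ℓ u = HahnSeries.C c * u ^ a * v ^ p) (n : ℤ) :
    G.coeff (ℓ * n) + (if (ℓ : ℤ) ∣ n then (ℓ : k) * G.coeff (n / ℓ) else 0) =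
      (a : k) * G.coeff n := by
  have hq : theta k (qExpand k ℓ u) = (ℓ : LaurentSeries k) * qExpand k ℓ G * qExpand k ℓ u := by
    rw [theta_qExpand, hG, map_mul, ← map_natCast (HahnSeries.C : k →+* LaurentSeries k), mul_assoc]
  have hN : theta k (seriesNorm ℓ u) = seriesSection ℓ 0 G * seriesNorm ℓ u := by
    rw [theta_seriesNorm ℓ hℓ hu, hG, mul_inv_cancel_right₀ hu]
  have hR : theta k (HahnSeries.C c * u ^ a * v ^ p) =
      (a : LaurentSeries k) * G * (HahnSeries.C c * u ^ a * v ^ p) := by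
    have := charP_of_injective_ringHom (HahnSeries.C_injective (Γ := ℤ) (R := k)) p
    rw [mul_assoc, theta_C_mul, theta_mul, theta_pow_char p, mul_zero, add_zero,
      theta_eq_mul_zpow hu hG a]
    ring
  have hne : qExpand k ℓ u * seriesNorm ℓ u ≠ 0 :=
    mul_ne_zero ((map_ne_zero_iff _ (qExpand_injective ℓ)).2 hu) (seriesNorm_ne_zero ℓ hu)
  have key : (ℓ : LaurentSeries k) * qExpand k ℓ G + seriesSection ℓ 0 G =
      (a : LaurentSeries k) * G := by
    refine mul_right_cancel₀ hne ?_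
    conv_rhs => rw [h, ← hR, ← h, theta_mul, hq, hN]
    ring
  have hn := congrArg (fun s => HahnSeries.coeff s n) key
  rw [← map_natCast (HahnSeries.C : k →+* LaurentSeries k),
    ← map_intCast (HahnSeries.C : k →+* LaurentSeries k), HahnSeries.C_apply,
    HahnSeries.C_apply] at hn
  simp only [HahnSeries.coeff_add, HahnSeries.coeff_single_zero_mul, seriesSection_coeff] at hn
  rw [← hn, add_comm]
  by_cases hd : (ℓ : ℤ) ∣ n
  · obtain ⟨m, rfl⟩ := hd
    rw [if_pos (dvd_mul_right _ _), qExpand_coeff_mul,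
      Int.mul_ediv_cancel_left _ (by exact_mod_cast NeZero.ne ℓ), add_zero]
  · rw [if_neg hd, qExpand_coeff_of_not_dvd ℓ _ hd, mul_zero, add_zero, zero_add]

end Series

section Inf

variable {p : ℕ} {R k : Type*} [CommRing R] [IsDomain R] [IsDiscreteValuationRing R] [Field k]
  [CharP k p] [Fact p.Prime] (S : Setup p R k) (M : ℕ) [NeZero M] (hpM : ¬ p ∣ M) [IsAlgClosed k]

local notation "K" => FractionRing R

/-- The expansion at the cusp as a local view of the component at infinity. -/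
def infEmb : Emb (infGB S M hpM) S.discBranch (FractionRing (PowerSeries R)) where
  ι := iInf (M * p)
  e := eInf k M
  e_algebraMap := eInf_algebraMap M
  cst := PowerSeries.C
  cst_ϖ := rfl
  ι_algebraMap r := by rw [algebraMap_eq_cF, iInf_cF]
  ord_eq _ _ := rfl
  sp_eq _ hx := (dualMap_spInf S M hpM hx).symm

omit [IsDiscreteValuationRing R] in
theorem coe_algebraMap_K (N : ℕ) [NeZero N] (c : K) :
    ((algebraMap K (modularFunctionFieldFullC K N) c : modularFunctionFieldFullC K N) :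
      LaurentSeries K) = HahnSeries.C c := by
  show algebraMap K (LaurentSeries K) c = _
  rw [algebraMap_laurentSeries_eq_single, HahnSeries.C_apply]

theorem algebraMap_K_div (a b : R) :
    algebraMap K (modularFunctionFieldFullC K (M * p)) (algebraMap R K a / algebraMap R K b) =
      algebraMap R (modularFunctionFieldFullC K (M * p)) a /
        algebraMap R (modularFunctionFieldFullC K (M * p)) b := by
  rw [map_div₀, algebraMap_eq_cF, algebraMap_eq_cF]
  rfl

omit [IsAlgClosed k] [CharP k p] in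
/-- Constants look the same on all components. -/
theorem exists_constK_spec {c : K} (hc : c ≠ 0) :
    ∃ d e : k, e ≠ 0 ∧ ∀ G : GBranch S (modularFunctionFieldFullC K (M * p))
        (modularFunctionFieldFullC k M),
      G.psi (algebraMap K _ c) = algebraMap k _ d ∧
        G.resUnit (algebraMap K _ c) = algebraMap k _ e := by
  obtain ⟨a, b, -, rfl⟩ := IsFractionRing.div_surjective R c
  rw [div_ne_zero_iff] at hc
  have hne : ∀ r : R, algebraMap R K r ≠ 0 →
      algebraMap R (modularFunctionFieldFullC K (M * p)) r ≠ 0 := fun r hr => by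
    rw [algebraMap_eq_cF]; exact (_root_.map_ne_zero (algebraMap K _)).2 hr
  obtain ⟨da, ea, hea, ha⟩ := GBranch.exists_const_spec (S := S)
    (κ := modularFunctionFieldFullC k M) (hne a hc.1)
  obtain ⟨db, eb, heb, hb⟩ := GBranch.exists_const_spec (S := S)
    (κ := modularFunctionFieldFullC k M) (hne b hc.2)
  refine ⟨da - db, ea / eb, div_ne_zero hea heb, fun G => ?_⟩
  obtain ⟨h1, h2⟩ := ha G
  obtain ⟨h3, h4⟩ := hb G
  rw [algebraMap_K_div, div_eq_mul_inv, ← zpow_neg_one,
    G.psi_mul (hne a hc.1) (zpow_ne_zero _ (hne b hc.2)),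
    G.resUnit_mul (hne a hc.1) (zpow_ne_zero _ (hne b hc.2)), G.psi_zpow (hne b hc.2),
    G.resUnit_zpow (hne b hc.2), h1, h2, h3, h4]
  exact ⟨by rw [map_sub]; push_cast; ring, by rw [zpow_neg_one, map_div₀, div_eq_mul_inv]⟩

variable (ℓ : ℕ) [NeZero ℓ]

/-- The series of `T_ℓ` on the component at infinity. -/
theorem inf_hecke {x z : modularFunctionFieldFullC K (M * p)} (hx : x ≠ 0)
    (hz : (z : LaurentSeries K) = qExpand K ℓ (x : LaurentSeries K) *
      seriesNorm ℓ (x : LaurentSeries K))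
    {c : k} (hc : (infGB S M hpM).psi x = algebraMap k _ c) :
    z ≠ 0 ∧ eInf k M ((infGB S M hpM).resUnit z) =
        qExpand k ℓ (eInf k M ((infGB S M hpM).resUnit x)) *
          seriesNorm ℓ (eInf k M ((infGB S M hpM).resUnit x)) ∧
      (infGB S M hpM).psi z = algebraMap k _ (((ℓ + 1 : ℕ) : k) * c) := by
  set E := infEmb S M hpM
  obtain ⟨h1, h2, h3⟩ := S.disc_hecke ℓ (x := E.ι x) (z := E.ι z) ((_root_.map_ne_zero E.ι).2 hx)
    (by show Setup.toLS R (iInf _ z) = qExpand _ ℓ (Setup.toLS R (iInf _ x)) * seriesNorm ℓ _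
        rw [toLS_iInf, toLS_iInf, hz]
        exact congrArg _ (congrArg _ (toLS_iInf (M * p) x).symm))
    (c := c) (by rw [E.psi_eq hx, hc, E.e_algebraMap])
  have hz0 : z ≠ 0 := fun h => h1 (by rw [h, map_zero])
  rw [E.resUnit_eq hx, E.resUnit_eq hz0] at h2
  rw [E.psi_eq hz0, ← E.e_algebraMap] at h3
  exact ⟨hz0, h2, E.e.injective h3⟩

variable [CharP (modularFunctionFieldFullC k M) p]

/-- The constant of `C c · x ^ a · h ^ p`. -/
theorem inf_hecke_const {x h : modularFunctionFieldFullC K (M * p)} (hx : x ≠ 0) (hh : h ≠ 0)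
    {c : K} (hc : c ≠ 0) {a : ℤ}
    (hT : qExpand K ℓ (x : LaurentSeries K) * seriesNorm ℓ (x : LaurentSeries K) =
      HahnSeries.C c * (x : LaurentSeries K) ^ a * (h : LaurentSeries K) ^ p)
    {cx d : k} (hcx : (infGB S M hpM).psi x = algebraMap k _ cx)
    (hd : (infGB S M hpM).psi (algebraMap K _ c) = algebraMap k _ d) :
    ((ℓ + 1 : ℕ) : k) * cx = d + (a : k) * cx := by
  set G := infGB S M hpM
  have hcL : algebraMap K (modularFunctionFieldFullC K (M * p)) c ≠ 0 := (_root_.map_ne_zero _).2 hc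
  obtain ⟨-, -, h3⟩ := inf_hecke S M hpM ℓ (z := algebraMap K _ c * x ^ a * h ^ p) hx (by
    rw [hT, ← coe_algebraMap_K (M * p)]; push_cast; rfl) hcx
  rw [G.psi_mul (mul_ne_zero hcL (zpow_ne_zero _ hx)) (pow_ne_zero _ hh), G.psi_pow_eq_zero hh,
    G.psi_mul hcL (zpow_ne_zero _ hx), G.psi_zpow hx, hd, hcx, add_zero,
    ← map_intCast (algebraMap k (modularFunctionFieldFullC k M)), ← map_mul, ← map_add] at h3
  exact ((algebraMap k _).injective h3).symm

variable [CharZero R]

/-- Eigenfunctions of `T_ℓ` with eigenvalue not `ℓ + 1` have equal constants on both components. -/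
theorem psi_eq_of_hecke {f h h' : modularFunctionFieldFullC K (M * p)} (hf : f ≠ 0) (hh : h ≠ 0)
    (hh' : h' ≠ 0) {c : K} (hc : c ≠ 0) {a : ℤ}
    (hT : qExpand K ℓ (f : LaurentSeries K) * seriesNorm ℓ (f : LaurentSeries K) =
      HahnSeries.C c * (f : LaurentSeries K) ^ a * (h : LaurentSeries K) ^ p)
    (hT' : qExpand K ℓ (wAL K M p hpM f : LaurentSeries K) *
        seriesNorm ℓ (wAL K M p hpM f : LaurentSeries K) =
      HahnSeries.C c * (wAL K M p hpM f : LaurentSeries K) ^ a * (h' : LaurentSeries K) ^ p)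
    (hne : ((ℓ + 1 : ℕ) : k) - a ≠ 0) {cI c₀ : k}
    (hI : (infGB S M hpM).psi f = algebraMap k _ cI)
    (h₀ : (zeroGB S M hpM).psi f = algebraMap k _ c₀) :
    (infGB S M hpM).psi f = (zeroGB S M hpM).psi f := by
  obtain ⟨d, e, -, hd⟩ := exists_constK_spec S M hc
  have h1 := inf_hecke_const S M hpM ℓ hf hh hc hT hI (hd _).1
  have h2 := inf_hecke_const S M hpM ℓ ((_root_.map_ne_zero (wAL K M p hpM)).2 hf) hh' hc hT' h₀
    (hd _).1
  have h3 : (((ℓ + 1 : ℕ) : k) - a) * (cI - c₀) = 0 := by linear_combination h1 - h2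
  rw [hI, h₀, sub_eq_zero.1 ((mul_eq_zero.1 h3).resolve_left hne)]

omit [CharP (↥(modularFunctionFieldFullC k M)) p] [CharZero R] in
/-- The recursion of the logarithmic derivative of the reduction. -/
theorem dlog_coeff_of_hecke {f h : modularFunctionFieldFullC K (M * p)} (hf : f ≠ 0) (hh : h ≠ 0)
    {c : K} (hc : c ≠ 0) {a : ℤ} (hℓ : (ℓ : k) ≠ 0)
    (hT : qExpand K ℓ (f : LaurentSeries K) * seriesNorm ℓ (f : LaurentSeries K) =
      HahnSeries.C c * (f : LaurentSeries K) ^ a * (h : LaurentSeries K) ^ p)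
    {cI : k} (hI : (infGB S M hpM).psi f = algebraMap k _ cI) {G : LaurentSeries k}
    (hG : theta k (eInf k M ((infGB S M hpM).resUnit f)) =
      G * eInf k M ((infGB S M hpM).resUnit f)) (n : ℤ) :
    G.coeff (ℓ * n) + (if (ℓ : ℤ) ∣ n then (ℓ : k) * G.coeff (n / ℓ) else 0) =
      (a : k) * G.coeff n := by
  set B := infGB S M hpM
  obtain ⟨d, e, -, hd⟩ := exists_constK_spec S M hc
  have hcL : algebraMap K (modularFunctionFieldFullC K (M * p)) c ≠ 0 := (_root_.map_ne_zero _).2 hc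
  obtain ⟨-, h2, -⟩ := inf_hecke S M hpM ℓ (z := algebraMap K _ c * f ^ a * h ^ p) hf (by
    rw [hT, ← coe_algebraMap_K (M * p)]; push_cast; rfl) hI
  rw [B.resUnit_mul (mul_ne_zero hcL (zpow_ne_zero _ hf)) (pow_ne_zero _ hh), B.resUnit_pow hh,
    B.resUnit_mul hcL (zpow_ne_zero _ hf), B.resUnit_zpow hf, (hd _).2, map_mul, map_mul, map_pow,
    map_zpow₀, eInf_algebraMap] at h2
  exact dlog_hecke_coeff ℓ hℓ ((_root_.map_ne_zero (eInf k M)).2 (B.resUnit_ne_zero hf))
    hG h2.symm n

omit [CharP (↥(modularFunctionFieldFullC k M)) p] [CharZero R] in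
/-- The relation under `T_ℓ` of the reduction. -/
theorem exists_red_hecke {f h : modularFunctionFieldFullC K (M * p)} (hf : f ≠ 0) (hh : h ≠ 0)
    {c : K} (hc : c ≠ 0) {a : ℤ}
    (hT : qExpand K ℓ (f : LaurentSeries K) * seriesNorm ℓ (f : LaurentSeries K) =
      HahnSeries.C c * (f : LaurentSeries K) ^ a * (h : LaurentSeries K) ^ p)
    {cI : k} (hI : (infGB S M hpM).psi f = algebraMap k _ cI) :
    ∃ (e : k) (h' : modularFunctionFieldFullC k M), e ≠ 0 ∧ h' ≠ 0 ∧
      qExpand k ℓ (eInf k M ((infGB S M hpM).resUnit f)) *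
          seriesNorm ℓ (eInf k M ((infGB S M hpM).resUnit f)) =
        HahnSeries.C e * eInf k M ((infGB S M hpM).resUnit f) ^ a * eInf k M h' ^ p := by
  set B := infGB S M hpM
  obtain ⟨d, e, he, hd⟩ := exists_constK_spec S M hc
  have hcL : algebraMap K (modularFunctionFieldFullC K (M * p)) c ≠ 0 := (_root_.map_ne_zero _).2 hc
  obtain ⟨-, h2, -⟩ := inf_hecke S M hpM ℓ (z := algebraMap K _ c * f ^ a * h ^ p) hf (by
    rw [hT, ← coe_algebraMap_K (M * p)]; push_cast; rfl) hI
  rw [B.resUnit_mul (mul_ne_zero hcL (zpow_ne_zero _ hf)) (pow_ne_zero _ hh), B.resUnit_pow hh,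
    B.resUnit_mul hcL (zpow_ne_zero _ hf), B.resUnit_zpow hf, (hd _).2, map_mul, map_mul, map_pow,
    map_zpow₀, eInf_algebraMap] at h2
  exact ⟨e, _, he, B.resUnit_ne_zero hh, h2.symm⟩

end Inf

end Fermat.Agent.LevelLowerP
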