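import Fermat.Agent.GalRep.Residual
import Fermat.Agent.GalRep.HeckeLattice
import Fermat.Agent.Hecke.Lifting
import Fermat.Agent.MFCore.Integral

/-!
# Eigensystems modulo `p` in the lattice of parabolic homomorphisms
-/

set_option autoImplicit false

noncomputable section

namespace Fermat.Agent.LevelLowerP

open Matrix CuspForm Fermat.Agent.Cosets
open Fermat.Agent.GalRep (heckeMat heckeOp latticeMat latticeMat_heckeOp latticeMat_injective)

/-- A proper ideal containing `p` of a ring acting faithfully on `ℤ ^ d` kills a non-zero vector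
of `(ℤ/p) ^ d`. -/
theorem exists_vec_killed {T : Type*} [CommRing T] {d : ℕ} (φ : T →+* Matrix (Fin d) (Fin d) ℤ)
    (hφ : Function.Injective φ) {p : ℕ} [Fact p.Prime] (P : Ideal T) (hP : P ≠ ⊤)
    (hp : (p : T) ∈ P) :
    ∃ v : Fin d → ZMod p, v ≠ 0 ∧
      ∀ t ∈ P, (φ t).map (Int.cast : ℤ → ZMod p) *ᵥ v = 0 := by
  classical
  -- the transposed action
  let ψ : T →+* Module.End ℤ (Fin d → ℤ) :=
    { toFun := fun t => Matrix.toLinAlgEquiv' (φ t)ᵀ
      map_one' := by rw [map_one, Matrix.transpose_one, map_one]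
      map_mul' := fun s t => by
        rw [mul_comm s t, map_mul φ, Matrix.transpose_mul, map_mul]
      map_zero' := by rw [map_zero, Matrix.transpose_zero, map_zero]
      map_add' := fun s t => by rw [map_add φ, Matrix.transpose_add, map_add] }
  let : Module T (Fin d → ℤ) := Module.compHom (Fin d → ℤ) ψ
  have hsmul : ∀ (t : T) (x : Fin d → ℤ), t • x = (φ t)ᵀ *ᵥ x := fun t x => rfl
  have hfg : (⊤ : Submodule T (Fin d → ℤ)).FG := by
    refine ⟨Finset.univ.image fun i => Pi.single i 1, eq_top_iff.2 fun x _ => ?_⟩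
    rw [pi_eq_sum_univ' x]
    refine sum_mem fun i _ => ?_
    exact zsmul_mem (Submodule.subset_span (Finset.mem_coe.2
      (Finset.mem_image_of_mem _ (Finset.mem_univ i)))) (x i)
  let red : (Fin d → ℤ) → Fin d → ZMod p := fun x i => (x i : ZMod p)
  have hred : ∀ (A : Matrix (Fin d) (Fin d) ℤ) (x : Fin d → ℤ),
      red (A *ᵥ x) = A.map (Int.cast : ℤ → ZMod p) *ᵥ red x := fun A x => funext fun i =>
    RingHom.map_mulVec (Int.castRingHom (ZMod p)) A x i
  let W : Submodule (ZMod p) (Fin d → ZMod p) := Submodule.span (ZMod p)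
    {u | ∃ t ∈ P, ∃ x : Fin d → ℤ, u = red ((φ t)ᵀ *ᵥ x)}
  have hW : W ≠ ⊤ := by
    intro htop
    have key : ∀ u ∈ W, ∃ x ∈ P • (⊤ : Submodule T (Fin d → ℤ)), red x = u := by
      intro u hu
      induction hu using Submodule.span_induction with
      | mem u hu =>
        obtain ⟨t, ht, x, rfl⟩ := hu
        exact ⟨_, Submodule.smul_mem_smul ht (Submodule.mem_top (x := x)), rfl⟩
      | zero => exact ⟨0, zero_mem _, by funext i; simp [red]⟩
      | add a b _ _ ha hb =>
        obtain ⟨x, hx, rfl⟩ := ha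
        obtain ⟨y, hy, rfl⟩ := hb
        exact ⟨x + y, add_mem hx hy, by funext i; simp [red]⟩
      | smul c a _ ha =>
        obtain ⟨x, hx, rfl⟩ := ha
        obtain ⟨m, rfl⟩ := ZMod.intCast_surjective c
        exact ⟨m • x, zsmul_mem hx m, by funext i; simp [red]⟩
    have hle : (⊤ : Submodule T (Fin d → ℤ)) ≤ P • ⊤ := by
      intro x _
      obtain ⟨x', hx', he⟩ := key (red x) (htop ▸ Submodule.mem_top)
      have hdvd : ∀ i, (p : ℤ) ∣ x i - x' i := fun i => by
        rw [← ZMod.intCast_zmod_eq_zero_iff_dvd, Int.cast_sub, sub_eq_zero]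
        exact (congrFun he i).symm
      choose y hy using hdvd
      have hxy : x = x' + (p : T) • y := funext fun i => by
        rw [hsmul, map_natCast, ← Matrix.diagonal_natCast, Matrix.diagonal_transpose,
          Pi.add_apply, Matrix.mulVec_diagonal]
        linear_combination hy i
      rw [hxy]
      exact add_mem hx' (Submodule.smul_mem_smul hp Submodule.mem_top)
    obtain ⟨r, hr, hr0⟩ :=
      Submodule.exists_sub_one_mem_and_smul_eq_zero_of_fg_of_le_smul P ⊤ hfg hle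
    have hrz : r = 0 := hφ (by
      rw [map_zero]
      refine Matrix.transpose_injective ?_
      rw [Matrix.transpose_zero]
      refine Matrix.ext_of_mulVec_single fun i => ?_
      rw [Matrix.zero_mulVec, ← hsmul]
      exact hr0 _ Submodule.mem_top)
    rw [hrz, zero_sub, neg_mem_iff] at hr
    exact hP ((Ideal.eq_top_iff_one P).2 hr)
  obtain ⟨f, hf0, hf⟩ := Submodule.exists_le_ker_of_lt_top W (lt_top_iff_ne_top.2 hW)
  have hfv : ∀ u : Fin d → ZMod p, f u = (fun j => f (Pi.single j 1)) ⬝ᵥ u := fun u => by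
    conv_lhs => rw [pi_eq_sum_univ' u, map_sum]
    exact Finset.sum_congr rfl fun j _ => by rw [map_smul, smul_eq_mul, mul_comm]
  refine ⟨fun j => f (Pi.single j 1), fun h0 => hf0 (LinearMap.ext fun u => ?_), fun t ht => ?_⟩
  · rw [hfv, h0, zero_dotProduct, LinearMap.zero_apply]
  · funext j
    have h1 : f (red ((φ t)ᵀ *ᵥ Pi.single j 1)) = 0 :=
      hf (Submodule.subset_span ⟨t, ht, _, rfl⟩)
    rw [hfv, hred] at h1
    rw [Pi.zero_apply, ← h1]
    simp [red, Matrix.mulVec, dotProduct, Pi.single_apply, mul_comm, Matrix.transpose_apply]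

variable {N : ℕ} [NeZero N] {p : ℕ} [Fact p.Prime]

/-- An eigenform whose eigenvalues at `S` are congruent to integers gives an eigenvector
modulo `p` with these eigenvalues. -/
theorem exists_eigvec {g : CuspForm (CongruenceSubgroup.Gamma0 N) 2} (hg : g.IsNormalizedEigenform)
    {𝔪 : Ideal (integralClosure ℤ ℂ)} (h𝔪 : 𝔪.IsMaximal) (hp : (p : integralClosure ℤ ℂ) ∈ 𝔪)
    (a : Nat.Primes → ℤ) (S : Set Nat.Primes)
    (h : ∀ q ∈ S, ∀ c : integralClosure ℤ ℂ, (c : ℂ) = ModularFormClass.qCoeff ⇑g q →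
      c - (a q : integralClosure ℤ ℂ) ∈ 𝔪) :
    ∃ v : Fin (homRank N) → ZMod p, v ≠ 0 ∧
      ∀ q ∈ S, (heckeMat N q).map (Int.cast : ℤ → ZMod p) *ᵥ v = (a q : ZMod p) • v := by
  let χ := (Ideal.Quotient.mk 𝔪).comp (GalRep.eigenCharacterInt hg)
  have hmem : ∀ {t}, t ∈ RingHom.ker χ ↔ GalRep.eigenCharacterInt hg t ∈ 𝔪 := fun {t} => by
    rw [RingHom.mem_ker]
    exact Ideal.Quotient.eq_zero_iff_mem
  have hP : RingHom.ker χ ≠ ⊤ := by
    rw [Ne, Ideal.eq_top_iff_one, hmem, map_one, ← Ideal.eq_top_iff_one]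
    exact h𝔪.ne_top
  obtain ⟨v, hv0, hv⟩ := exists_vec_killed (latticeMat N) (latticeMat_injective N)
    (RingHom.ker χ) hP (by rw [hmem, map_natCast]; exact hp)
  refine ⟨v, hv0, fun q hq => ?_⟩
  have h1 := hv (heckeOp N q - (a q : ℤ)) (by
    rw [hmem, map_sub, map_intCast]
    exact h q hq _ (GalRep.eigenCharacterInt_heckeOp hg q))
  rw [map_sub, map_intCast, latticeMat_heckeOp, Matrix.map_sub _ Int.cast_sub,
    Matrix.sub_mulVec, sub_eq_zero] at h1
  rw [h1, ← Matrix.diagonal_intCast, Matrix.diagonal_map Int.cast_zero]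
  funext i
  simp [Matrix.mulVec_diagonal]

/-- An eigenvector modulo `p` lifts to an eigenform with congruent eigenvalues. -/
theorem exists_eigenform_of_eigvec {v : Fin (homRank N) → ZMod p} (hv : v ≠ 0)
    (a : Nat.Primes → ℤ) (S : Set Nat.Primes)
    (h : ∀ q ∈ S, (heckeMat N q).map (Int.cast : ℤ → ZMod p) *ᵥ v = (a q : ZMod p) • v) :
    ∃ (g : CuspForm (CongruenceSubgroup.Gamma0 N) 2) (𝔪 : Ideal (integralClosure ℤ ℂ)),
      g.IsNormalizedEigenform ∧ 𝔪.IsMaximal ∧ (p : integralClosure ℤ ℂ) ∈ 𝔪 ∧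
      ∀ q ∈ S, ∃ c : integralClosure ℤ ℂ, (c : ℂ) = ModularFormClass.qCoeff ⇑g q ∧
        c - (a q : integralClosure ℤ ℂ) ∈ 𝔪 := by
  let φ : heckeAlgebra N 2 ∅ →+* Matrix (Fin (homRank N)) (Fin (homRank N)) (ZMod p) :=
    (Int.castRingHom (ZMod p)).mapMatrix.comp (latticeMat N)
  let J : Ideal (heckeAlgebra N 2 ∅) :=
    { carrier := {t | φ t *ᵥ v = 0}
      add_mem' := fun {s t} (hs : _ = _) (ht : _ = _) => by
        show φ (s + t) *ᵥ v = 0
        rw [map_add, Matrix.add_mulVec, hs, ht, add_zero]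
      zero_mem' := by show φ 0 *ᵥ v = 0; rw [map_zero, Matrix.zero_mulVec]
      smul_mem' := fun c t (ht : _ = _) => by
        show φ (c * t) *ᵥ v = 0
        rw [map_mul, ← Matrix.mulVec_mulVec, ht, Matrix.mulVec_zero] }
  have hJ : J ≠ ⊤ := fun htop => hv (by
    have h1 : φ 1 *ᵥ v = 0 := (Ideal.eq_top_iff_one J).1 htop
    rwa [map_one, Matrix.one_mulVec] at h1)
  obtain ⟨P, hPmax, hle⟩ := Ideal.exists_le_maximal J hJ
  obtain ⟨g, hg, 𝔪, h𝔪, hc⟩ :=
    Hecke.exists_eigenform_lift (MFCore.hasIntegralStructure N 2) P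
  have hchar : ∀ t, GalRep.eigenCharacterInt hg t ∈ 𝔪 ↔ t ∈ P := fun t => by
    obtain ⟨c, hc1, hc2⟩ := hc t
    rwa [show GalRep.eigenCharacterInt hg t = c from Subtype.ext hc1.symm]
  refine ⟨g, 𝔪, hg, h𝔪, ?_, fun q hq => ⟨GalRep.eigenCharacterInt hg (heckeOp N q),
    GalRep.eigenCharacterInt_heckeOp hg q, ?_⟩⟩
  · have := (hchar (p : ℕ)).2 (hle (show φ (p : ℕ) *ᵥ v = 0 by
      rw [map_natCast, ← Matrix.diagonal_natCast, CharP.cast_eq_zero, Matrix.diagonal_zero,
        Matrix.zero_mulVec]))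
    rwa [map_natCast] at this
  · have := (hchar (heckeOp N q - (a q : ℤ))).2 (hle (show φ _ *ᵥ v = 0 by
      rw [map_sub, map_intCast, Matrix.sub_mulVec, ← Matrix.diagonal_intCast]
      have h1 : φ (heckeOp N q) = (heckeMat N q).map (Int.cast : ℤ → ZMod p) := by
        simp [φ, latticeMat_heckeOp]
      rw [h1, h q hq, sub_eq_zero]
      funext i
      simp [Matrix.mulVec_diagonal]))
    rwa [map_sub, map_intCast] at this

end Fermat.Agent.LevelLowerP
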