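import Fermat.Agent.LevelLowerP.ArithPointData
import Fermat.Agent.ResidualLevel.Congr
import Fermat.Agent.EC.Frobenius.Model
import Fermat.Agent.Newform.BadCoeff

/-!
# Level lowering at `p`: from a congruent newform to the point data
-/

set_option autoImplicit false

noncomputable section

namespace Fermat.Agent.LevelLowerP

open Matrix CuspForm ModularFormClass WeierstrassCurve.Affine.Point
open Fermat.Agent.Cosets (homRank)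
open scoped WeierstrassCurve.Affine
open Fermat.Agent.GalRep (heckeMat torsRho)
open Fermat.Agent.Ihara (qPrime invMat corMat resMat resMat_corMat invMat_invMat corMat_hecke
  invMat_hecke)

local notation "ℚbar" => AlgebraicClosure ℚ
local notation "Γℚbar" => AlgebraicClosure ℚ ≃ₐ[ℚ] AlgebraicClosure ℚ

/-- **A congruent newform with `p` in the level, or a lower level.** -/
theorem exists_isNewform_or_lower {W : WeierstrassCurve ℤ} (hΔ : W.Δ ≠ 0) {p : ℕ} [Fact p.Prime]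
    {N : ℕ} [NeZero N] (hN : ¬ p ^ 2 ∣ N) (hmod : W.IsResiduallyModularOfLevel p N) :
    (∃ M : ℕ, M ∣ N ∧ ¬ p ∣ M ∧ W.IsResiduallyModularOfLevel p M) ∨
    ∃ (M : ℕ) (_ : NeZero M) (g : CuspForm (CongruenceSubgroup.Gamma0 (M * p)) 2)
      (𝔪 : Ideal (integralClosure ℤ ℂ)), M * p ∣ N ∧ ¬ p ∣ M ∧ g.IsNewform ∧ 𝔪.IsMaximal ∧
      (p : integralClosure ℤ ℂ) ∈ 𝔪 ∧ ∀ ℓ : ℕ, ℓ.Prime → W.IsGoodPrimeFor ℓ → ¬ ℓ ∣ M * p →
        ∃ c : integralClosure ℤ ℂ, (c : ℂ) = qCoeff ⇑g ℓ ∧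
          c - ((W.apOfModel ℓ : ℤ) : integralClosure ℤ ℂ) ∈ 𝔪 := by
  obtain ⟨f, 𝔪, hf, h𝔪, hp𝔪, hcong⟩ := hmod
  obtain ⟨N', hN', g, hg, hga⟩ := Newform.exists_isNewform_goodEigensystem hf
  have : NeZero N' := ⟨fun h => NeZero.ne N (zero_dvd_iff.1 (h ▸ hN'))⟩
  have hgc : ∀ ℓ : ℕ, ℓ.Prime → W.IsGoodPrimeFor ℓ → ¬ ℓ ∣ N' → ℓ ≠ p →
      ∃ c : integralClosure ℤ ℂ, (c : ℂ) = qCoeff ⇑g ℓ ∧
        c - ((W.apOfModel ℓ : ℤ) : integralClosure ℤ ℂ) ∈ 𝔪 := fun r hr hgood hrN hrp =>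
    ResidualLevel.exists_congr_of_congr_outside W hΔ p hg.1 h𝔪 hp𝔪 N.primeFactors
      (fun ℓ hℓ hℓS hgd _ hℓp => by
        have hℓN : ¬ ℓ ∣ N := fun hd => hℓS (Nat.mem_primeFactors.mpr ⟨hℓ, hd, NeZero.ne N⟩)
        rw [hga ℓ hℓ hℓN]
        exact hcong ℓ hℓ hgd hℓN hℓp) hr hgood hrN hrp
  by_cases hpN' : p ∣ N'
  swap
  · exact Or.inl ⟨N', hN', hpN', g, 𝔪, hg.1, h𝔪, hp𝔪, hgc⟩
  obtain ⟨M, rfl⟩ : ∃ M, N' = M * p := ⟨N' / p, (Nat.div_mul_cancel hpN').symm⟩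
  have hpM : ¬ p ∣ M := fun h => hN ((sq p ▸ mul_dvd_mul_right h p).trans hN')
  exact Or.inr ⟨M, ⟨fun h => hpM (h ▸ dvd_zero _)⟩, g, 𝔪, hN', hpM, hg, h𝔪, hp𝔪,
    fun ℓ hℓ hgood hℓM => hgc ℓ hℓ hgood hℓM fun h => hℓM (h ▸ dvd_mul_left p M)⟩

/-- **The `p`-new vector.** -/
theorem exists_new_vec {W : WeierstrassCurve ℤ} (hΔ : W.Δ ≠ 0) {p : ℕ} [Fact p.Prime] (hp2 : p ≠ 2)
    (hirr : W.ModRepIsIrreducible p) {M : ℕ} [NeZero M] (hpM : ¬ p ∣ M)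
    {g : CuspForm (CongruenceSubgroup.Gamma0 (M * p)) 2} (hg : g.IsNewform)
    {𝔪 : Ideal (integralClosure ℤ ℂ)} (h𝔪 : 𝔪.IsMaximal) (hp : (p : integralClosure ℤ ℂ) ∈ 𝔪)
    (hgc : ∀ ℓ : ℕ, ℓ.Prime → W.IsGoodPrimeFor ℓ → ¬ ℓ ∣ M * p →
      ∃ c : integralClosure ℤ ℂ, (c : ℂ) = qCoeff ⇑g ℓ ∧
        c - ((W.apOfModel ℓ : ℤ) : integralClosure ℤ ℂ) ∈ 𝔪)
    (hred : ∀ (N p : ℕ) [NeZero N], p.Prime → GalRep.TorsionReduction N p)
    (H : Subgroup Γℚbar) (Q : ((W.map (Int.castRingHom ℚ))⁄ℚbar).Point) (hQ0 : Q ≠ 0)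
    (hQp : p • Q = 0) (hQfix : ∀ σ ∈ H, σ • Q = Q) :
    W.IsResiduallyModularOfLevel p M ∨
    ∃ (ε : ℤ) (v : Fin (homRank (M * p)) → ZMod p), (ε = 1 ∨ ε = -1) ∧ v ≠ 0 ∧
      v ∈ eigVecs (M * p) p (eigVal W p ε) (eigPrimes W p M) ∧
      (∀ σ ∈ H, torsRho (M * p) p σ *ᵥ v = v) ∧
      (invMat M p hpM).map (Int.cast : ℤ → ZMod p) *ᵥ v = -(ε : ZMod p) • v ∧
      (corMat M p hpM).map (Int.cast : ℤ → ZMod p) *ᵥ
        ((invMat M p hpM).map (Int.cast : ℤ → ZMod p) *ᵥ v) = 0 := by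
  have hP : p.Prime := Fact.out
  obtain ⟨ε, hε, hεq⟩ : ∃ ε : ℤ, (ε = 1 ∨ ε = -1) ∧ qCoeff ⇑g p = (ε : ℂ) := by
    have h1 := (Newform.newformBadPrimeCoeff (M * p) g hg p hP (dvd_mul_left _ _)).1
      fun hd => hpM ((Nat.mul_dvd_mul_iff_right hP.pos).1 (sq p ▸ hd))
    rcases sq_eq_one_iff.1 h1 with h | h
    · exact ⟨1, Or.inl rfl, by simp [h]⟩
    · exact ⟨-1, Or.inr rfl, by simp [h]⟩
  set S := eigPrimes W p M
  obtain ⟨v₀, hv₀0, hv₀⟩ := exists_eigvec hg.1 h𝔪 hp (eigVal W p ε) S (fun q hq c hc => by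
    by_cases hqp : (q : ℕ) = p
    · have : c = (ε : integralClosure ℤ ℂ) := Subtype.ext (by rw [hc, hqp, hεq]; simp)
      rw [this, eigVal, if_pos hqp, sub_self]
      exact zero_mem _
    · obtain ⟨hqg, hqN⟩ := hq.resolve_left hqp
      obtain ⟨c', hc', hmem⟩ := hgc q q.2 hqg hqN
      rwa [eigVal, if_neg hqp, show c = c' from Subtype.ext (hc.trans hc'.symm)])
  obtain ⟨v, hv0, hv, hvfix⟩ := exists_fixed_eigvec hΔ (W.map (Int.castRingHom ℚ)) rfl hp2 hirr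
    (EC.Frobenius.isIntegralModelOf_map W) (hred (M * p) p hP) (eigVal W p ε) S
    (fun q hgood hq => ⟨Or.inr ⟨hgood, fun hd => hq (dvd_mul_of_dvd_left hd _)⟩,
      eigVal_of_not_dvd W ε fun hd => hq (dvd_mul_of_dvd_left hd _)⟩)
    ⟨v₀, hv₀0, mem_eigVecs.2 hv₀⟩ H Q hQ0 hQp hQfix
  -- the image under the Atkin–Lehner involution
  let w : Matrix (Fin (homRank (M * p))) (Fin (homRank (M * p))) (ZMod p) :=
    (invMat M p hpM).map (Int.cast : ℤ → ZMod p)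
  have hww : w * w = 1 := by
    rw [← map_intCast_mul, invMat_invMat]
    exact Matrix.map_one _ Int.cast_zero Int.cast_one
  by_cases hcor : (corMat M p hpM).map (Int.cast : ℤ → ZMod p) *ᵥ (w *ᵥ v) = 0
  swap
  · rw [mulVec_map_mul] at hcor
    left
    -- the image is still an eigenvector away from `p`
    have hM : 2 ≤ M := by
      by_contra hlt
      obtain rfl : M = 1 := by have := NeZero.pos M; omega
      exact hcor (funext fun i => absurd i.2 (by simp [homRank_one]))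
    obtain ⟨g', 𝔫, hg', h𝔫, hp', hc'⟩ := exists_eigenform_of_eigvec hcor
      (fun q => W.apOfModel q) {q | W.IsGoodPrimeFor q ∧ ¬ (q : ℕ) ∣ M * p} fun q hq => by
        rw [mulVec_map_mul, ← Matrix.mul_assoc,
          ← corMat_hecke M p hpM hM q hq.2, Matrix.mul_assoc, ← invMat_hecke M p hpM q hq.2,
          ← Matrix.mul_assoc, ← mulVec_map_mul,
          mem_eigVecs.1 hv q (Or.inr hq), eigVal_of_not_dvd W ε hq.2, Matrix.mulVec_smul]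
    exact ⟨g', 𝔫, hg', h𝔫, hp', fun ℓ hℓ hgood hℓM hℓp => hc' ⟨ℓ, hℓ⟩ ⟨hgood, fun hd =>
      ((hℓ.dvd_mul).1 hd).elim hℓM fun h => hℓp ((Nat.prime_dvd_prime_iff_eq hℓ hP).1 h)⟩⟩
  refine Or.inr ⟨ε, v, hε, hv0, hv, hvfix, ?_, hcor⟩
  have h1 := congrArg ((resMat M p).map (Int.cast : ℤ → ZMod p) *ᵥ ·) hcor
  simp only [Matrix.mulVec_zero] at h1
  rw [mulVec_map_mul, resMat_corMat, Matrix.map_add _ Int.cast_add,
    map_intCast_mul, Matrix.map_one _ Int.cast_zero Int.cast_one, Matrix.add_mulVec,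
    Matrix.one_mulVec, Matrix.mulVec_mulVec, Matrix.mul_assoc, hww, Matrix.mul_one,
    mem_eigVecs.1 hv _ (Or.inl rfl), eigVal_self, add_eq_zero_iff_eq_neg] at h1
  rw [neg_smul]
  exact h1

/-- **The point data, or a lower level.** -/
theorem exists_pointData {W : WeierstrassCurve ℤ} (hΔ : W.Δ ≠ 0) {p : ℕ} [Fact p.Prime]
    (hp2 : p ≠ 2) (hirr : W.ModRepIsIrreducible p) {M : ℕ} [NeZero M] (hpM : ¬ p ∣ M)
    {g : CuspForm (CongruenceSubgroup.Gamma0 (M * p)) 2} (hg : g.IsNewform)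
    {𝔪 : Ideal (integralClosure ℤ ℂ)} (h𝔪 : 𝔪.IsMaximal) (hp : (p : integralClosure ℤ ℂ) ∈ 𝔪)
    (hgc : ∀ ℓ : ℕ, ℓ.Prime → W.IsGoodPrimeFor ℓ → ¬ ℓ ∣ M * p →
      ∃ c : integralClosure ℤ ℂ, (c : ℂ) = ModularFormClass.qCoeff ⇑g ℓ ∧
        c - ((W.apOfModel ℓ : ℤ) : integralClosure ℤ ℂ) ∈ 𝔪)
    (hred : ∀ (N p : ℕ) [NeZero N], p.Prime → GalRep.TorsionReduction N p)
    (H : Subgroup (AlgebraicClosure ℚ ≃ₐ[ℚ] AlgebraicClosure ℚ))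
    (Q : ((W.map (Int.castRingHom ℚ))⁄ℚbar).Point) (hQ0 : Q ≠ 0)
    (hQp : p • Q = 0) (hQfix : ∀ σ ∈ H, σ • Q = Q) :
    W.IsResiduallyModularOfLevel p M ∨ Nonempty (PointData W p M H) := by
  rcases exists_new_vec hΔ hp2 hirr hpM hg h𝔪 hp hgc hred H Q hQ0 hQp hQfix with h | h
  · exact Or.inl h
  · obtain ⟨ε, v, hε, hv0, hv, hfix, hinv, hcor⟩ := h
    exact Or.inr (nonempty_pointData hpM hε hv0 hv hfix hinv hcor)

end Fermat.Agent.LevelLowerP
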