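import Fermat.Agent.Ihara.NonEisenstein
import Fermat.Agent.EC.Frobenius.Model
import Fermat.Prelude.Def_FLTPrelim_ModularRep

/-!
# A good prime with `a_ℓ ≢ ℓ + 1` for an irreducible `E[p]`
-/

set_option autoImplicit false

noncomputable section

namespace Fermat.Agent.LevelLowerP

open scoped WeierstrassCurve.Affine

/-- **A non-Eisenstein good prime.** -/
theorem exists_good_ne_succ {W : WeierstrassCurve ℤ} (hΔ : W.Δ ≠ 0) {p : ℕ} (hp : p.Prime)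
    (hp2 : p ≠ 2) (hirr : W.ModRepIsIrreducible p) (M : ℕ) [NeZero M] :
    ∃ ℓ : ℕ, ℓ.Prime ∧ W.IsGoodPrimeFor ℓ ∧ ¬ ℓ ∣ M * p ∧
      ¬(p : ℤ) ∣ W.apOfModel ℓ - ((ℓ : ℤ) + 1) := by
  have := EC.Frobenius.isElliptic_map_rat hΔ
  have : NeZero p := ⟨hp.ne_zero⟩
  obtain ⟨ℓ, hℓ, hgood, -, hℓL, -, hne⟩ := Ihara.exists_nonEisenstein_prime
    (W.map (Int.castRingHom ℚ)) (EC.Frobenius.isIntegralModelOf_map W) hp hp2 hirr (M * p)
  exact ⟨ℓ, hℓ, hgood, hℓL, hne⟩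

end Fermat.Agent.LevelLowerP
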