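import Fermat.Prelude.Def_ModularCurve_GenusNumerics
import Mathlib.NumberTheory.LSeries.PrimesInAP
import Mathlib.Data.Nat.ChineseRemainder
import Mathlib.NumberTheory.LegendreSymbol.Basic
import Mathlib.GroupTheory.OrderOfElement

/-!
# The auxiliary prime

A prime killing the elliptic points, with `p ∤ q + 1`.

Main result: `exists_aux_prime`.
-/

set_option autoImplicit false

namespace Fermat.Agent.LevelLowerP

open ModularCurve

theorem nuTwo_mul_eq_zero {q : ℕ} [Fact q.Prime] (hq : q % 4 = 3) (M : ℕ) :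
    nuTwo (M * q) = 0 := by
  refine @Nat.card_of_isEmpty _ ⟨fun ⟨x, hx⟩ => ?_⟩
  have h := congrArg (ZMod.castHom (dvd_mul_left q M) (ZMod q)) hx
  rw [map_add, map_pow, map_one, map_zero] at h
  exact ZMod.mod_four_ne_three_of_sq_eq_neg_one (eq_neg_of_add_eq_zero_left h) hq

theorem nuThree_mul_eq_zero {q : ℕ} [Fact q.Prime] (hq : q % 3 = 2) (M : ℕ) :
    nuThree (M * q) = 0 := by
  refine @Nat.card_of_isEmpty _ ⟨fun ⟨x, hx⟩ => ?_⟩
  have h := congrArg (ZMod.castHom (dvd_mul_left q M) (ZMod q)) hx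
  rw [map_add, map_add, map_pow, map_one, map_zero] at h
  set y := ZMod.castHom (dvd_mul_left q M) (ZMod q) x
  have hy3 : y ^ 3 = 1 := by linear_combination (y - 1) * h
  have hy0 : y ≠ 0 := fun e => by simp [e] at h
  have h1 : orderOf y ∣ 3 := orderOf_dvd_of_pow_eq_one hy3
  have h2 : orderOf y ∣ q - 1 := orderOf_dvd_of_pow_eq_one (ZMod.pow_card_sub_one_eq_one hy0)
  have h3 : ¬ (3 : ℕ) ∣ q - 1 := by have := (Fact.out : q.Prime).pos; omega
  rcases (Nat.dvd_prime Nat.prime_three).1 h1 with h4 | h4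
  · rw [orderOf_eq_one_iff] at h4
    rw [h4] at h
    have h5 : ((3 : ℕ) : ZMod q) = 0 := by push_cast; linear_combination h
    rw [ZMod.natCast_eq_zero_iff, Nat.prime_dvd_prime_iff_eq Fact.out Nat.prime_three] at h5
    omega
  · exact h3 (h4 ▸ h2)

/-- An auxiliary prime `≡ 11 (mod 12)` and `≡ 1 (mod p)`. -/
theorem exists_aux_prime_of_five_le {p : ℕ} (hp : p.Prime) (hp5 : 5 ≤ p) (M : ℕ) [NeZero M] :
    ∃ q : ℕ, q.Prime ∧ ¬ q ∣ M * p ∧ p ≠ q ∧ ¬ p ∣ q + 1 ∧ nuTwo (M * q) = 0 ∧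
      nuThree (M * q) = 0 := by
  have hco : Nat.Coprime 12 p := by
    refine Nat.Coprime.symm (hp.coprime_iff_not_dvd.2 fun h => ?_)
    have h' := Nat.le_of_dvd (by norm_num) h
    interval_cases p <;> first | omega | (revert hp; decide)
  obtain ⟨a, ha12, hap⟩ := Nat.chineseRemainder hco 11 1
  have : NeZero (12 * p) := ⟨Nat.mul_ne_zero (by norm_num) hp.ne_zero⟩
  have hu : IsUnit (a : ZMod (12 * p)) := by
    rw [ZMod.isUnit_iff_coprime]
    refine Nat.Coprime.mul_right ?_ ?_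
    · rw [Nat.Coprime, ha12.gcd_eq]; rfl
    · rw [Nat.Coprime, hap.gcd_eq]; simp
  obtain ⟨q, hqgt, hq, hqa⟩ := Nat.forall_exists_prime_gt_and_eq_mod hu (M * p)
  have hmod : q ≡ a [MOD 12 * p] := (ZMod.natCast_eq_natCast_iff _ _ _).1 hqa
  have h12 : q % 12 = 11 := (hmod.of_mul_right p).trans ha12
  have hqp : q % p = 1 % p := (hmod.of_mul_left 12).trans hap
  rw [Nat.mod_eq_of_lt (a := 1) (by omega)] at hqp
  have := Fact.mk hq
  refine ⟨q, hq, fun h => ?_, fun h => ?_, fun h => ?_, nuTwo_mul_eq_zero (by omega) M,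
    nuThree_mul_eq_zero (by omega) M⟩
  · have := Nat.le_of_dvd (Nat.pos_of_ne_zero (Nat.mul_ne_zero (NeZero.ne M) hp.ne_zero)) h
    omega
  · subst h
    rw [Nat.mod_self] at hqp
    omega
  · rw [Nat.dvd_iff_mod_eq_zero, Nat.add_mod, hqp, Nat.mod_eq_of_lt (a := 1) (by omega)] at h
    rw [Nat.mod_eq_of_lt (by omega)] at h
    omega

theorem exists_prime_eleven_mod (M : ℕ) [NeZero M] :
    ∃ q : ℕ, q.Prime ∧ M < q ∧ q % 12 = 11 := by
  have hu : IsUnit ((11 : ℕ) : ZMod 12) := by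
    rw [ZMod.isUnit_iff_coprime]
    decide
  obtain ⟨q, hqgt, hq, hqa⟩ := Nat.forall_exists_prime_gt_and_eq_mod hu M
  exact ⟨q, hq, hqgt, (ZMod.natCast_eq_natCast_iff' _ _ _).1 hqa⟩

/-- **The auxiliary prime.** For `p = 3` every such prime has `3 ∣ q + 1`. -/
theorem exists_aux_prime {p : ℕ} (hp : p.Prime) (hp2 : p ≠ 2) (M : ℕ) [NeZero M] :
    ∃ q : ℕ, q.Prime ∧ ¬ q ∣ M * p ∧ p ≠ q ∧ (p = 3 ∨ ¬ p ∣ q + 1) ∧ nuTwo (M * q) = 0 ∧
      nuThree (M * q) = 0 := by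
  have : NeZero p := ⟨hp.ne_zero⟩
  rcases eq_or_ne p 3 with rfl | hp3
  · obtain ⟨q, hq, hqgt, h12⟩ := exists_prime_eleven_mod (M * 3)
    have := Fact.mk hq
    refine ⟨q, hq, fun h => ?_, by omega, Or.inl rfl, nuTwo_mul_eq_zero (by omega) M,
      nuThree_mul_eq_zero (by omega) M⟩
    have := Nat.le_of_dvd (Nat.pos_of_ne_zero (NeZero.ne (M * 3))) h
    omega
  have hp5 : 5 ≤ p := by
    have := hp.two_le
    by_contra h
    interval_cases p <;> first | omega | (revert hp; decide)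
  obtain ⟨q, hq, h1, h2, h3, h4, h5⟩ := exists_aux_prime_of_five_le hp hp5 M
  exact ⟨q, hq, h1, h2, Or.inr h3, h4, h5⟩

end Fermat.Agent.LevelLowerP
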