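import Mathlib.RingTheory.RootsOfUnity.AlgebraicallyClosed
import Fermat.Agent.Multiplicative.Inertia
import Fermat.Agent.EC.Torsion.Main

/-!
# A torsion point fixed by part of inertia

A `p`-torsion point of a curve with multiplicative reduction at `p`, `p ∣ v_p(Δ)`, fixed by the
elements of inertia which fix a given `p`th root of a unit of the fixed field of inertia.

Main result: `exists_fixed_torsion_point`.
-/

set_option autoImplicit false

noncomputable section

namespace Fermat.Agent.LevelLowerP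

open WeierstrassCurve Fermat.Agent.Multiplicative
open scoped WeierstrassCurve.Affine

section Valuation

variable {K : Type*} [Field K] {Γ₀ : Type*} [LinearOrderedCommGroupWithZero Γ₀]
  (v : Valuation K Γ₀)

/-- Second order binomial estimate. -/
lemma v_one_add_pow_sub {z : K} (hz : v z ≤ 1) (n : ℕ) :
    v ((1 + z) ^ n - 1 - n * z) ≤ v z ^ 2 := by
  induction n with
  | zero => simp
  | succ j ih =>
    have e : (1 + z) ^ (j + 1) - 1 - ((j + 1 : ℕ) : K) * z =
        (1 + z) * ((1 + z) ^ j - 1 - j * z) + (j : K) * z ^ 2 := by push_cast; ring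
    rw [e]
    refine Valuation.map_add_le _ ?_ ?_
    · rw [map_mul]
      exact (mul_le_of_le_one_left zero_le
        (Valuation.map_add_le _ (map_one v).le hz)).trans ih
    · rw [map_mul, map_pow]
      exact mul_le_of_le_one_left zero_le (natCast_le_one v j)

/-- A `p`th root near a number whose `p`th power is near a given unit. -/
theorem exists_root_near [IsAlgClosed K] [CharZero K] {p : ℕ} (hp : p.Prime) {t T₀ : K}
    (hT₀ : v T₀ = 1) {γ : Γ₀} (h : v (t ^ p - T₀ ^ p) ≤ γ) :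
    ∃ ζ : K, ζ ^ p = 1 ∧ v (p : K) * v (t - ζ * T₀) ≤ γ := by
  classical
  have : NeZero p := ⟨hp.ne_zero⟩
  have hne : (p : K) ≠ 0 := by exact_mod_cast hp.ne_zero
  have : NeZero (p : K) := ⟨hne⟩
  obtain ⟨μ, hμ⟩ := HasEnoughRootsOfUnity.exists_primitiveRoot K p
  have hvμ : ∀ i : ℕ, v (μ ^ i) = 1 := fun i => by
    have h1 : v μ ^ p = 1 := by rw [← map_pow, hμ.pow_eq_one, map_one]
    rw [map_pow, show v μ = 1 from (pow_eq_one_iff.1 h1).resolve_right hp.ne_zero, one_pow]
  have hprod : t ^ p - T₀ ^ p = ∏ i ∈ Finset.range p, (t - μ ^ i * T₀) := by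
    have := congrArg (Polynomial.eval t) (X_pow_sub_C_eq_prod hμ hp.pos (rfl : T₀ ^ p = T₀ ^ p))
    simpa [Polynomial.eval_prod] using this
  obtain ⟨i₀, hi₀, hmin⟩ := Finset.exists_min_image (Finset.range p)
    (fun i => v (t - μ ^ i * T₀)) ⟨0, Finset.mem_range.2 hp.pos⟩
  refine ⟨μ ^ i₀, by rw [← pow_mul, mul_comm, pow_mul, hμ.pow_eq_one, one_pow], ?_⟩
  obtain ⟨n, rfl⟩ := Nat.exists_eq_add_of_le' hp.one_le
  -- the other roots are no closer to `t` than to `μ ^ i₀ T₀`
  have hstep : ∀ i ∈ (Finset.range (n + 1)).erase i₀,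
      v (μ ^ i₀ - μ ^ i) ≤ v (t - μ ^ i * T₀) := fun i hi => by
    rw [← mul_one (v (μ ^ i₀ - μ ^ i)), ← hT₀, ← map_mul,
      show (μ ^ i₀ - μ ^ i) * T₀ = (t - μ ^ i * T₀) - (t - μ ^ i₀ * T₀) by ring]
    exact Valuation.map_sub_le v le_rfl (hmin i (Finset.mem_of_mem_erase hi))
  have hroots : v ((n + 1 : ℕ) : K) =
      ∏ i ∈ (Finset.range (n + 1)).erase i₀, v (μ ^ i₀ - μ ^ i) := by
    have h1 := congrArg (fun P : Polynomial K => P.derivative.eval (μ ^ i₀))
      (X_pow_sub_C_eq_prod hμ hp.pos (α := (1 : K)) (a := 1) (one_pow _))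
    simp only [Polynomial.derivative_sub, Polynomial.derivative_X_pow, Polynomial.derivative_C,
      sub_zero, Polynomial.eval_mul, Polynomial.eval_C, Polynomial.eval_pow, Polynomial.eval_X,
      mul_one] at h1
    rw [Polynomial.derivative_prod_finset, Polynomial.eval_finsetSum,
      Finset.sum_eq_single i₀ ?_ (fun h => absurd hi₀ h)] at h1
    · simp only [Polynomial.derivative_sub, Polynomial.derivative_X, Polynomial.derivative_C,
        sub_zero, mul_one, Polynomial.eval_prod, Polynomial.eval_sub, Polynomial.eval_X,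
        Polynomial.eval_C] at h1
      rw [← map_prod, ← h1, map_mul, map_pow, hvμ, one_pow, mul_one]
    · intro i _ hi
      rw [Polynomial.eval_mul, Polynomial.eval_prod,
        Finset.prod_eq_zero (i := i₀) (Finset.mem_erase.2 ⟨Ne.symm hi, hi₀⟩) (by simp), zero_mul]
  rw [hroots]
  refine le_trans ?_ h
  rw [hprod, map_prod, ← Finset.prod_erase_mul _ _ hi₀]
  exact mul_le_mul_of_nonneg_right (Finset.prod_le_prod' hstep) zero_le

/-- Two `p`th roots of unity closer than `p` coincide. -/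
theorem eq_one_of_pow_eq_one_of_lt [CharZero K] {p : ℕ} (_hp : p.Prime) {ζ : K} (hζ : ζ ^ p = 1)
    (h : v (ζ - 1) < v (p : K)) : ζ = 1 := by
  by_contra hne
  have hz : ζ - 1 ≠ 0 := sub_ne_zero.2 hne
  have hle : v (ζ - 1) ≤ 1 := h.le.trans (natCast_le_one v p)
  have h1 := v_one_add_pow_sub v hle p
  rw [add_sub_cancel, hζ, sub_self, zero_sub, Valuation.map_neg, map_mul, pow_two] at h1
  exact absurd (le_of_mul_le_mul_right h1 ((Valuation.pos_iff v).2 hz)) h.not_ge

end Valuation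

section Node

variable {K : Type*} [Field K] {Γ₀ : Type*} [LinearOrderedCommGroupWithZero Γ₀]
  {v : Valuation K Γ₀} {a x₁ y₁ x₂ y₂ x₃ y₃ l m : K}

/-- The error in the multiplicativity of `phi` carries a factor `a`. -/
theorem phi_prod_le (ha : v a < 1) (h : Triple a x₁ y₁ x₂ y₂ x₃ y₃ l m)
    (h₁ : 1 ≤ v x₁) (h₂ : 1 ≤ v x₂) (h₃ : 1 ≤ v x₃) :
    v (phi x₁ y₁ * phi x₂ y₂ * phi x₃ y₃ - 1) ≤ v a * v (phi x₁ y₁ - 1) := by
  obtain ⟨es₁, le₁, -⟩ := good_vals ha h.onNode₁ h₁
  obtain ⟨es₂, le₂, -⟩ := good_vals ha h.onNode₂ h₂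
  obtain ⟨es₃, le₃, -⟩ := good_vals ha h.onNode₃ h₃
  have p₁ : 1 ≤ v y₁ := h₁.trans le₁
  have p₂ : 1 ≤ v y₂ := h₂.trans le₂
  have p₃ : 1 ≤ v y₃ := h₃.trans le₃
  have q₁ : 0 < v y₁ := zero_lt_one.trans_le p₁
  have s₁ := sum_ne_zero ha h.onNode₁ h₁
  have s₂ := sum_ne_zero ha h.onNode₂ h₂
  have s₃ := sum_ne_zero ha h.onNode₃ h₃
  have e : phi x₁ y₁ * phi x₂ y₂ * phi x₃ y₃ - 1 =
      a * (3 * (x₁ + x₂ + x₃) + 1) / ((x₁ + y₁) * (x₂ + y₂) * (x₃ + y₃)) := by
    rw [phi, phi, phi, div_mul_div_comm, div_mul_div_comm,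
      div_sub_one (mul_ne_zero (mul_ne_zero s₁ s₂) s₃)]
    congr 1
    linear_combination triple_prod_y h - triple_prod_sum h - 3 * a * h.sum₁
  have eD : v ((x₁ + y₁) * (x₂ + y₂) * (x₃ + y₃)) = v y₁ * v y₂ * v y₃ := by
    rw [map_mul, map_mul, es₁, es₂, es₃]
  have hD : 0 < v y₁ * v y₂ * v y₃ :=
    mul_pos (mul_pos q₁ (zero_lt_one.trans_le p₂)) (zero_lt_one.trans_le p₃)
  rw [e, map_div₀, map_mul, eD, v_phi_sub_one ha h.onNode₁ h₁, ← mul_div_assoc,
    div_le_div_iff₀ hD q₁, mul_assoc, mul_assoc]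
  refine mul_le_mul_of_nonneg_left ?_ zero_le
  have hX : v (3 * (x₁ + x₂ + x₃) + 1) ≤ max (v x₁) (max (v x₂) (v x₃)) := by
    refine Valuation.map_add_le v ?_ (by rw [map_one]; exact h₁.trans (le_max_left _ _))
    rw [map_mul]
    have h3 : v (3 : K) ≤ 1 := by
      rw [show (3 : K) = 1 + 1 + 1 by ring]
      exact Valuation.map_add_le v (Valuation.map_add_le v (map_one v).le (map_one v).le)
        (map_one v).le
    refine (mul_le_of_le_one_left zero_le h3).trans ?_
    exact Valuation.map_add_le v (Valuation.map_add_le v (le_max_left _ _)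
      ((le_max_left _ _).trans (le_max_right _ _))) ((le_max_right _ _).trans (le_max_right _ _))
  refine (mul_le_mul_of_nonneg_right hX zero_le).trans ?_
  rcases max_choice (v x₁) (max (v x₂) (v x₃)) with hc | hc <;> rw [hc]
  · exact mul_le_mul_of_nonneg_left
      ((le_mul_of_one_le_right zero_le p₂).trans (le_mul_of_one_le_right zero_le p₃)) zero_le
  · refine le_trans ?_ (le_mul_of_one_le_left zero_le h₁)
    rcases max_choice (v x₂) (v x₃) with hd | hd <;> rw [hd]
    · calc v x₂ * v y₁ ≤ v y₂ * v y₁ := mul_le_mul_of_nonneg_right le₂ zero_le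
        _ = v y₁ * v y₂ := mul_comm _ _
        _ ≤ v y₁ * v y₂ * v y₃ := le_mul_of_one_le_right zero_le p₃
    · calc v x₃ * v y₁ ≤ v y₁ * v y₃ := by
            rw [mul_comm (v y₁)]; exact mul_le_mul_of_nonneg_right le₃ zero_le
        _ ≤ v y₁ * v y₂ * v y₃ :=
            mul_le_mul_of_nonneg_right (le_mul_of_one_le_right zero_le p₂) zero_le

variable {V : WeierstrassCurve K} [DecidableEq K] (N : NodeData v V)

/-- `phiPoint` is multiplicative up to `|a| · |φ(P) - 1|`. -/
lemma phiPoint_add_le {P Q : V.toAffine.Point} (hP : P ∈ N.E0) (hQ : Q ∈ N.E0) :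
    v (N.phiPoint (P + Q) - N.phiPoint P * N.phiPoint Q) ≤ v N.a * v (N.phiPoint P - 1) := by
  have hP' := N.mem_E0.1 hP
  have hne : ∀ {P : V.toAffine.Point}, N.Good P → N.phiPoint P ≠ 0 := fun h e => by
    simpa [e] using N.v_phiPoint h
  rcases N.point_cases P Q with rfl | rfl | rfl |
      ⟨x₁, y₁, x₂, y₂, x₃, y₃, h₁, h₂, h₃, l, m, rfl, rfl, hsum, hT⟩
  · simp [N.phiPoint_zero]
  · simp [N.phiPoint_zero]
  · rw [add_neg_cancel, N.phiPoint_neg hP', N.phiPoint_zero, mul_inv_cancel₀ (hne hP'), sub_self,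
      map_zero]
    exact zero_le
  · have hR : Affine.Point.some x₃ y₃ h₃ ∈ N.E0 :=
      neg_mem_iff.1 (hsum ▸ N.E0.add_mem hP hQ)
    have hR' := N.mem_E0.1 hR
    have key := phi_prod_le N.ha hT hP' (N.mem_E0.1 hQ) hR'
    have hv : v (phi (N.X x₃) (N.Y x₃ y₃)) = 1 := N.v_phiPoint hR'
    have hne : phi (N.X x₃) (N.Y x₃ y₃) ≠ 0 := by intro h; simp [h] at hv
    rw [hsum, N.phiPoint_neg hR']
    simp only [NodeData.phiPoint]
    rw [show (phi (N.X x₃) (N.Y x₃ y₃))⁻¹ -
        phi (N.X x₁) (N.Y x₁ y₁) * phi (N.X x₂) (N.Y x₂ y₂) =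
        -((phi (N.X x₁) (N.Y x₁ y₁) * phi (N.X x₂) (N.Y x₂ y₂) * phi (N.X x₃) (N.Y x₃ y₃) - 1) /
          phi (N.X x₃) (N.Y x₃ y₃)) by field_simp; ring, Valuation.map_neg, map_div₀, hv, div_one]
    exact key

lemma phiPoint_nsmul_le {P : V.toAffine.Point} (hP : P ∈ N.E0) :
    ∀ n : ℕ, v (N.phiPoint (n • P) - N.phiPoint P ^ n) ≤ v N.a * v (N.phiPoint P - 1)
  | 0 => by simp [N.phiPoint_zero]
  | n + 1 => by
    have ih := phiPoint_nsmul_le hP n
    have hadd := phiPoint_add_le N hP (N.E0.nsmul_mem hP n)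
    rw [succ_nsmul', pow_succ']
    have e : N.phiPoint (P + n • P) - N.phiPoint P * N.phiPoint P ^ n =
        (N.phiPoint (P + n • P) - N.phiPoint P * N.phiPoint (n • P)) +
          N.phiPoint P * (N.phiPoint (n • P) - N.phiPoint P ^ n) := by ring
    rw [e]
    refine Valuation.map_add_le v hadd ?_
    rw [map_mul, N.v_phiPoint (N.mem_E0.1 hP), one_mul]
    exact ih

lemma v_phiPoint_sub_one_le_one {P : V.toAffine.Point} (hP : P ∈ N.E0) :
    v (N.phiPoint P - 1) ≤ 1 := N.v_phiPoint_sub_one_le (N.mem_E0.1 hP)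

/-- A torsion point of `E₀` whose character is closer to one than `p` is zero. -/
lemma eq_zero_of_v_phiPoint_lt {p : ℕ} (hvp : v N.a < v (p : K)) {D : V.toAffine.Point}
    (hD : D ∈ N.E0) (hpD : p • D = 0) (hlt : v (N.phiPoint D - 1) < v (p : K)) : D = 0 := by
  by_contra h0
  have hz := N.v_phiPoint_sub_one_pos (N.mem_E0.1 hD) h0
  have h1 := phiPoint_nsmul_le N hD p
  rw [hpD, N.phiPoint_zero, Valuation.map_sub_swap] at h1
  have hb := v_one_add_pow_sub v (v_phiPoint_sub_one_le_one N hD) p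
  rw [add_sub_cancel] at hb
  have h2 : v ((p : K) * (N.phiPoint D - 1)) ≤
      max (v (N.phiPoint D ^ p - 1))
        (v (N.phiPoint D ^ p - 1 - (p : K) * (N.phiPoint D - 1))) := by
    conv_lhs => rw [show (p : K) * (N.phiPoint D - 1) = (N.phiPoint D ^ p - 1) -
      (N.phiPoint D ^ p - 1 - (p : K) * (N.phiPoint D - 1)) by ring]
    exact Valuation.map_sub v _ _
  rw [map_mul] at h2
  refine absurd (h2.trans (max_le_max h1 (hb.trans_eq (pow_two _)))) (not_le.2 ?_)
  exact max_lt (mul_lt_mul_of_pos_right hvp hz) (mul_lt_mul_of_pos_right hlt hz)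

end Node

section QbarPoint

local notation "Qbar" => AlgebraicClosure ℚ
local notation "ΓQ" => (AlgebraicClosure ℚ ≃ₐ[ℚ] AlgebraicClosure ℚ)
local notation "EQ" W => ((WeierstrassCurve.map W (Int.castRingHom ℚ))⁄(AlgebraicClosure ℚ))

open Fermat.Agent.EC.Reduction

variable {W : WeierstrassCurve ℤ} {A : ValuationSubring Qbar} {p : ℕ}

/-- **A point fixed by the stabiliser of a root.** -/
theorem exists_fixed_torsion_point (h : MultAt W A p) (hdvd : p ∣ padicValInt p W.Δ) (hp2 : p ≠ 2) :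
    ∃ u : Qbar, A.valuation u = 1 ∧ (∀ σ ∈ A.inertiaSubgroupIn ℚ, σ u = u) ∧
      ∀ T : Qbar, T ^ p = u → ∃ P : (EQ W).Point, P ≠ 0 ∧ p • P = 0 ∧
        ∀ σ ∈ A.inertiaSubgroupIn ℚ, σ T = T → σ • P = P := by
  classical
  have hp := h.prime
  set N := h.node
  have h3' : 3 ≤ p := by have := hp.two_le; omega
  have h3 : 3 ≤ padicValInt p W.Δ := h3'.trans (Nat.le_of_dvd h.one_le_ord hdvd)
  obtain ⟨R, hR, hRfix⟩ := h.exists_fixed_generator h3
  obtain ⟨m, hm⟩ := hdvd
  have hm0 : 0 < m := Nat.pos_of_ne_zero fun e => by rw [e, mul_zero] at hm; omega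
  have hπ0 : 0 < A.valuation (p : Qbar) := v_prime_pos hp
  have hπ1 : A.valuation (p : Qbar) < 1 := v_prime_lt_one h.liesOver
  have hva : A.valuation N.a = A.valuation (p : Qbar) ^ (p * m) := by rw [h.v_a, hm]
  have hap2 : A.valuation N.a < A.valuation (p : Qbar) ^ 2 := by
    rw [hva]; exact pow_lt_pow_right_of_lt_one₀ hπ0 hπ1 (by nlinarith)
  have hap : A.valuation N.a < A.valuation (p : Qbar) :=
    hap2.trans_le (pow_le_of_le_one zero_le hπ1.le two_ne_zero)
  -- "closer than `p`"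
  have hclose : ∀ {x : Qbar}, A.valuation (p : Qbar) * A.valuation x ≤ A.valuation N.a →
      A.valuation x < A.valuation (p : Qbar) := fun {x} hx => by
    by_contra hge
    exact absurd ((mul_le_mul_of_nonneg_left (not_lt.1 hge) zero_le).trans hx)
      (by rw [← pow_two]; exact hap2.not_ge)
  have hle : ∀ {P : (EQ W).Point}, P ∈ N.E0 →
      A.valuation N.a * A.valuation (N.phiPoint P - 1) ≤ A.valuation N.a := fun hP =>
    mul_le_of_le_one_right zero_le (v_phiPoint_sub_one_le_one N hP)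
  have hcls : ∀ i : ℕ, N.cls (i • R) = QuotientGroup.mk (h.qUnit ^ i) := fun i => by
    have e := map_nsmul N.comp i R
    rw [NodeData.comp_apply, NodeData.comp_apply, hR, ← ofMul_pow, ← QuotientGroup.mk_pow] at e
    exact Additive.ofMul.injective e
  have hker : ∀ i : ℕ, i • R ∈ N.E0 ↔ p * m ∣ i := fun i => by
    rw [NodeData.E0, AddMonoidHom.mem_ker, NodeData.comp_apply, hcls, ofMul_eq_zero,
      QuotientGroup.eq_one_iff, Subgroup.mem_zpowers_iff]
    constructor
    · rintro ⟨j, hj⟩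
      have hj' := congrArg Units.val hj
      rw [Units.val_zpow_eq_zpow_val, Units.val_pow_eq_pow_val, Units.val_mk0, MultAt.qUnit,
        Units.val_mk0, hva, ← zpow_natCast, ← zpow_mul, ← zpow_natCast _ i] at hj'
      have := zpow_right_injective₀ hπ0 hπ1.ne hj'
      exact Int.natCast_dvd_natCast.1 ⟨j, this.symm⟩
    · rintro ⟨j, rfl⟩
      refine ⟨j, Units.ext ?_⟩
      rw [Units.val_zpow_eq_zpow_val, Units.val_pow_eq_pow_val, Units.val_mk0, MultAt.qUnit,
        Units.val_mk0, hva, zpow_natCast, ← pow_mul]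
  set z : (EQ W).Point := -((p * m) • R) with hz
  have hzE : z ∈ N.E0 := neg_mem ((hker _).2 dvd_rfl)
  set u := N.phiPoint z with hu
  have hvu : A.valuation u = 1 := N.v_phiPoint (N.mem_E0.1 hzE)
  refine ⟨u, hvu, fun σ hσ => ?_, fun T hT => ?_⟩
  · rw [hu, ← h.phiPoint_smul hσ]
    congr 1
    rw [hz]
    refine (smul_neg σ _).trans ?_
    congr 1
    rw [← natCast_zsmul, Affine.Point.algEquiv_smul_zsmul σ, hRfix σ hσ]
  have hvT : A.valuation T = 1 := by
    refine (pow_eq_one_iff.1 ?_).resolve_right hp.ne_zero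
    rw [← map_pow, hT, hvu]
  -- the torsion
  have := h.isElliptic
  have hpQ : (p : Qbar) ≠ 0 := by exact_mod_cast hp.ne_zero
  have hcard := EC.Torsion.natCard_setOf_nsmul_eq_zero (W := (EQ W).toAffine) hpQ
  let Tp : AddSubgroup (EQ W).Point := (nsmulAddMonoidHom p : (EQ W).Point →+ (EQ W).Point).ker
  have hTp : ∀ {P}, P ∈ Tp ↔ p • P = 0 := fun {P} => AddMonoidHom.mem_ker
  have hcardT : Nat.card Tp = p ^ 2 :=
    (Nat.card_congr (Equiv.subtypeEquivRight fun P => hTp)).trans hcard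
  let g : Tp →+ Additive N.CompGroup := N.comp.comp Tp.subtype
  have hgker : ∀ D : g.ker, ((D : Tp) : (EQ W).Point) ∈ N.E0 := fun D => D.2
  -- torsion in `E₀` injects into the roots of unity
  have hnear : ∀ D : g.ker, ∃ ζ : Qbar, ζ ^ p = 1 ∧
      A.valuation (N.phiPoint ((D : Tp) : (EQ W).Point) - ζ) < A.valuation (p : Qbar) := fun D => by
    have h1 := phiPoint_nsmul_le N (hgker D) p
    rw [hTp.1 (D : Tp).2, N.phiPoint_zero, Valuation.map_sub_swap] at h1
    obtain ⟨ζ, hζ, hζ'⟩ := exists_root_near A.valuation hp (T₀ := 1) (map_one _)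
      (t := N.phiPoint ((D : Tp) : (EQ W).Point)) (γ := A.valuation N.a)
      (by rw [one_pow]; exact h1.trans (hle (hgker D)))
    rw [mul_one] at hζ'
    exact ⟨ζ, hζ, hclose hζ'⟩
  choose ζ hζ hζ' using hnear
  let ψ : g.ker → {x : Qbar // x ^ p = 1} := fun D => ⟨ζ D, hζ D⟩
  have hψ : Function.Injective ψ := fun D D' e => by
    have e' : ζ D = ζ D' := congrArg Subtype.val e
    have h1 := hgker D
    have h2 := hgker D'
    set P := ((D : Tp) : (EQ W).Point)
    set P' := ((D' : Tp) : (EQ W).Point)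
    have h3 := phiPoint_add_le N (N.E0.sub_mem h1 h2) h2
    rw [sub_add_cancel] at h3
    have hd : A.valuation (N.phiPoint P - N.phiPoint P') < A.valuation (p : Qbar) := by
      rw [show N.phiPoint P - N.phiPoint P' =
        (N.phiPoint P - ζ D) - (N.phiPoint P' - ζ D') by rw [e']; ring]
      exact (Valuation.map_sub _ _ _).trans_lt (max_lt (hζ' D) (hζ' D'))
    have hs : A.valuation (N.phiPoint (P - P') - 1) < A.valuation (p : Qbar) := by
      have e3 : (N.phiPoint (P - P') - 1) * N.phiPoint P' = (N.phiPoint P - N.phiPoint P') -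
          (N.phiPoint P - N.phiPoint (P - P') * N.phiPoint P') := by ring
      rw [← mul_one (A.valuation (N.phiPoint (P - P') - 1)), ← N.v_phiPoint (N.mem_E0.1 h2),
        ← map_mul, e3]
      exact (Valuation.map_sub _ _ _).trans_lt
        (max_lt hd ((h3.trans (hle (N.E0.sub_mem h1 h2))).trans_lt hap))
    have hsub := eq_zero_of_v_phiPoint_lt N hap (N.E0.sub_mem h1 h2)
      (by rw [nsmul_sub, hTp.1 (D : Tp).2, hTp.1 (D' : Tp).2, sub_zero]) hs
    exact Subtype.ext (Subtype.ext (sub_eq_zero.1 hsub))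
  have : NeZero p := ⟨hp.ne_zero⟩
  have : NeZero (p : Qbar) := ⟨hpQ⟩
  obtain ⟨μ, hμ⟩ := HasEnoughRootsOfUnity.exists_primitiveRoot Qbar p
  have hμsurj : Function.Surjective fun i : Fin p =>
      (⟨μ ^ (i : ℕ), by rw [← pow_mul, mul_comm, pow_mul, hμ.pow_eq_one, one_pow]⟩ :
        {x : Qbar // x ^ p = 1}) := fun x => by
    obtain ⟨i, hi, hx⟩ := hμ.eq_pow_of_pow_eq_one x.2
    exact ⟨⟨i, hi⟩, Subtype.ext hx⟩
  have : Finite {x : Qbar // x ^ p = 1} := Finite.of_surjective _ hμsurj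
  have hμcard : Nat.card {x : Qbar // x ^ p = 1} ≤ p :=
    (Nat.card_le_card_of_surjective _ hμsurj).trans_eq (by simp)
  have hkerle : Nat.card g.ker ≤ p := (Nat.card_le_card_of_injective _ hψ).trans hμcard
  let x₀ : Additive N.CompGroup := N.comp (m • R)
  let mul : Fin p → Additive N.CompGroup := fun i => (i : ℕ) • x₀
  have hrange : Set.range g ⊆ Set.range mul := by
    rintro _ ⟨P, rfl⟩
    obtain ⟨k, hk⟩ := h.exists_wPoint_pow (hTp.1 P.2)
    have hcP : N.cls (P : (EQ W).Point) = N.cls R ^ ((m : ℤ) * k) := by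
      rw [hR, NodeData.cls, ← QuotientGroup.mk_zpow]
      congr 1
      refine Units.ext ?_
      rw [Units.val_zpow_eq_zpow_val, Units.val_mk0, MultAt.qUnit, Units.val_mk0]
      refine (pow_left_inj₀ zero_le zero_le hp.ne_zero).1 ?_
      rw [hk, hva, ← zpow_natCast _ (p * m), ← zpow_mul, ← zpow_natCast _ p, ← zpow_mul]
      push_cast
      ring_nf
    refine ⟨⟨(k % p).toNat, ?_⟩, ?_⟩
    · have := Int.emod_lt_of_pos k (by exact_mod_cast hp.pos : (0 : ℤ) < p)
      have := Int.emod_nonneg k (by exact_mod_cast hp.ne_zero : (p : ℤ) ≠ 0)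
      omega
    have hx : g P = k • x₀ := by
      show N.comp (P : (EQ W).Point) = k • N.comp (m • R)
      rw [NodeData.comp_apply, hcP, map_nsmul, NodeData.comp_apply, ofMul_zpow, ← natCast_zsmul,
        smul_smul, mul_comm k]
    have hp0 : (p : ℤ) • x₀ = 0 := by
      rw [natCast_zsmul, ← map_nsmul, ← mul_nsmul', ← AddMonoidHom.mem_ker]
      exact (hker _).2 dvd_rfl
    rw [hx]
    show (k % p).toNat • x₀ = k • x₀
    rw [← natCast_zsmul, Int.toNat_of_nonneg
      (Int.emod_nonneg k (by exact_mod_cast hp.ne_zero))]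
    conv_rhs => rw [← Int.emod_add_mul_ediv k p, add_zsmul, mul_comm (p : ℤ), ← smul_smul, hp0,
      zsmul_zero, add_zero]
  have hfin : (Set.range mul).Finite := Set.finite_range _
  have : Finite Tp := Nat.finite_of_card_ne_zero (by rw [hcardT]; exact pow_ne_zero 2 hp.ne_zero)
  have hmulle : (Set.range mul).ncard ≤ p := by
    rw [← Nat.card_coe_set_eq]
    exact (Finite.card_range_le mul).trans_eq (by simp)
  have hsplit : Nat.card g.ker * (Set.range g).ncard = p ^ 2 := by
    rw [← hcardT, AddSubgroup.card_eq_card_quotient_mul_card_addSubgroup g.ker, mul_comm,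
      ← Nat.card_coe_set_eq]
    congr 1
    exact (Nat.card_congr (QuotientAddGroup.quotientKerEquivRange g).toEquiv).symm
  have hrangele : (Set.range g).ncard ≤ p := (Set.ncard_le_ncard hrange hfin).trans hmulle
  have hkereq : Nat.card g.ker = p := by nlinarith [hp.two_le]
  have hrangeeq : Set.range g = Set.range mul := Set.eq_of_subset_of_ncard_le hrange (by
    rw [hkereq] at hsplit
    have : (Set.range g).ncard = p := mul_left_cancel₀ hp.ne_zero (by rw [hsplit, pow_two])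
    omega) hfin
  have hψb : Function.Bijective ψ := hψ.bijective_of_nat_card_le (hkereq.symm ▸ hμcard)
  obtain ⟨P₀, hP₀⟩ : x₀ ∈ Set.range g := hrangeeq ▸ ⟨⟨1, hp.one_lt⟩, one_nsmul x₀⟩
  -- the unit part of the point
  set S₀ : (EQ W).Point := (P₀ : (EQ W).Point) - m • R with hS₀
  have hS₀E : S₀ ∈ N.E0 := by
    rw [NodeData.E0, AddMonoidHom.mem_ker, map_sub]
    exact sub_eq_zero.2 hP₀
  have hpS₀ : p • S₀ = z := by rw [hS₀, nsmul_sub, hTp.1 P₀.2, zero_sub, ← mul_nsmul', hz]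
  obtain ⟨ξ, hξ, hξ'⟩ := exists_root_near A.valuation hp (t := N.phiPoint S₀) hvT
    (γ := A.valuation N.a) (by
      have h4 := phiPoint_nsmul_le N hS₀E p
      rw [hpS₀, Valuation.map_sub_swap, ← hu, ← hT] at h4
      exact h4.trans (hle hS₀E))
  have hξ0 : ξ ≠ 0 := fun e => by rw [e, zero_pow hp.ne_zero] at hξ; exact zero_ne_one hξ
  have hvξ : A.valuation ξ = 1 :=
    (pow_eq_one_iff.1 (by rw [← map_pow, hξ, map_one])).resolve_right hp.ne_zero
  obtain ⟨D, hD⟩ := hψb.2 ⟨ξ⁻¹, by rw [inv_pow, hξ, inv_one]⟩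
  have hDζ : ζ D = ξ⁻¹ := congrArg Subtype.val hD
  have hDE := hgker D
  set Dp : (EQ W).Point := ((D : Tp) : (EQ W).Point)
  set S := Dp + S₀ with hS
  have hSE : S ∈ N.E0 := N.E0.add_mem hDE hS₀E
  have hST : A.valuation (N.phiPoint S - T) < A.valuation (p : Qbar) := by
    have h5 := (phiPoint_add_le N hDE hS₀E).trans (hle hDE)
    rw [show N.phiPoint S - T = (N.phiPoint (Dp + S₀) - N.phiPoint Dp * N.phiPoint S₀) +
      ((N.phiPoint Dp - ζ D) * N.phiPoint S₀ + ξ⁻¹ * (N.phiPoint S₀ - ξ * T)) by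
        rw [hS, hDζ]; field_simp; ring]
    refine Valuation.map_add_lt _ (h5.trans_lt hap) (Valuation.map_add_lt _ ?_ ?_)
    · rw [map_mul, N.v_phiPoint (N.mem_E0.1 hS₀E), mul_one]; exact hζ' D
    · rw [map_mul, map_inv₀, hvξ, inv_one, one_mul]; exact hclose hξ'
  refine ⟨S + m • R, fun e0 => ?_, ?_, fun σ hσ hσT => ?_⟩
  · have h6 : m • R ∈ N.E0 := by
      have h7 := N.E0.sub_mem (N.E0.zero_mem) hSE
      rwa [← e0, add_sub_cancel_left] at h7
    have := Nat.le_of_dvd hm0 ((hker m).1 h6)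
    nlinarith
  · rw [nsmul_add, hS, nsmul_add, hTp.1 (D : Tp).2, zero_add, hpS₀, hz, ← mul_nsmul',
      neg_add_cancel]
  · have hd := mem_decomposition_of_mem_inertia hσ
    have hmR : σ • (m • R) = m • R := by
      rw [← natCast_zsmul, Affine.Point.algEquiv_smul_zsmul σ, hRfix σ hσ]
    have hpS : p • S = z := by rw [hS, nsmul_add, hTp.1 (D : Tp).2, zero_add, hpS₀]
    have hsub : σ • S - S ∈ N.E0 := h.smul_sub_mem_E0 hσ S
    have hfix : σ • S = S := by
      rw [← sub_eq_zero]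
      refine eq_zero_of_v_phiPoint_lt N hap hsub ?_ ?_
      · rw [nsmul_sub, hpS, ← natCast_zsmul]
        erw [← Affine.Point.algEquiv_smul_zsmul σ]
        rw [natCast_zsmul, hpS, hz, sub_eq_zero]
        refine (smul_neg σ _).trans ?_
        congr 1
        rw [← natCast_zsmul, Affine.Point.algEquiv_smul_zsmul σ, hRfix σ hσ]
      · have h8 := phiPoint_add_le N hsub hSE
        rw [sub_add_cancel, h.phiPoint_smul hσ] at h8
        have h9 : A.valuation (σ (N.phiPoint S) - N.phiPoint S) < A.valuation (p : Qbar) := by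
          rw [show σ (N.phiPoint S) - N.phiPoint S =
            σ (N.phiPoint S - T) - (N.phiPoint S - T) by rw [map_sub, hσT]; ring]
          exact (Valuation.map_sub _ _ _).trans_lt (max_lt (by rw [v_apply hd]; exact hST) hST)
        have e : (N.phiPoint (σ • S - S) - 1) * N.phiPoint S =
            (σ (N.phiPoint S) - N.phiPoint S) -
              (σ (N.phiPoint S) - N.phiPoint (σ • S - S) * N.phiPoint S) := by ring
        rw [← mul_one (A.valuation (N.phiPoint (σ • S - S) - 1)),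
          ← N.v_phiPoint (N.mem_E0.1 hSE), ← map_mul, e]
        exact (Valuation.map_sub _ _ _).trans_lt
          (max_lt h9 ((h8.trans (hle hsub)).trans_lt hap))
    exact (DistribSMul.smul_add σ S _).trans (congrArg₂ (· + ·) hfix hmR)

end QbarPoint

end Fermat.Agent.LevelLowerP
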