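import Fermat.Agent.LevelLowerP.BaseRing
import Fermat.Agent.LevelLowerP.InertiaPoint
import Fermat.Agent.Carayol.Descent.InertiaField
import Mathlib.FieldTheory.KummerPolynomial
import Mathlib.RingTheory.ZMod.UnitsCyclic

/-!
# The base field of a fixed torsion point

The fixed field `K₁` of the stabiliser in inertia of a `p`th root of `1 + p b`, with its embedding
into the fraction field of the base ring, and the torsion point it defines.

Main result: `nonempty_baseData`.
-/

set_option autoImplicit false

noncomputable section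

namespace Fermat.Agent.LevelLowerP

open Fermat.Agent.Carayol Fermat.Agent.Gal Fermat.Agent.Multiplicative
open WeierstrassCurve
open scoped WeierstrassCurve.Affine

local notation "Qbar" => AlgebraicClosure ℚ
local notation "ΓQ" => (AlgebraicClosure ℚ ≃ₐ[ℚ] AlgebraicClosure ℚ)

variable {p : ℕ} {A : ValuationSubring (AlgebraicClosure ℚ)}

local notation "kA" => IsLocalRing.ResidueField (InertiaField.ring A)

/-- The elements of inertia fixing `T`. -/
def stabInertia (A : ValuationSubring (AlgebraicClosure ℚ)) (T : Qbar) : Subgroup ΓQ :=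
  A.inertiaSubgroupIn ℚ ⊓ MulAction.stabilizer ΓQ T

theorem mem_stabInertia {T : Qbar} {σ : ΓQ} :
    σ ∈ stabInertia A T ↔ σ ∈ A.inertiaSubgroupIn ℚ ∧ σ T = T := Iff.rfl

/-- An automorphism fixing the fixed field of inertia agrees with inertia on finite levels. -/
theorem exists_inertia_eqOn {σ : ΓQ} (hσ : ∀ z ∈ InertiaField.field A, σ z = z)
    (_hp : p.Prime) (_hA : A.LiesOverPrime p) (x T : Qbar) :
    ∃ τ ∈ A.inertiaSubgroupIn ℚ, τ x = σ x ∧ τ T = σ T := by
  let L : IntermediateField ℚ Qbar :=
    IntermediateField.normalClosure ℚ ↥(IntermediateField.adjoin ℚ ({x, T} : Set Qbar)) Qbar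
  have : FiniteDimensional ℚ (IntermediateField.adjoin ℚ ({x, T} : Set Qbar)) :=
    IntermediateField.finiteDimensional_adjoin fun y _ => Algebra.IsIntegral.isIntegral y
  have : FiniteDimensional ℚ L := normalClosure.is_finiteDimensional ℚ _ _
  have : Normal ℚ L := normalClosure.normal ℚ _ _
  have : IsGalois ℚ L := ⟨⟩
  have : NumberField L := ⟨⟩
  have hxL : ∀ y ∈ ({x, T} : Set Qbar), y ∈ L := fun y hy =>
    IntermediateField.le_normalClosure _ (IntermediateField.subset_adjoin ℚ _ hy)
  let I := (primeBelow L A).inertia (L ≃ₐ[ℚ] L)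
  have hmem : σ.restrictNormal L ∈ I := by
    rw [← IntermediateField.fixingSubgroup_fixedField I]
    intro y
    obtain ⟨z, hz⟩ := y
    refine Subtype.ext ((AlgEquiv.restrictNormal_commutes σ L z).trans (hσ _ ?_))
    rw [InertiaField.mem_field_iff]
    intro τ hτ
    refine (AlgEquiv.restrictNormal_commutes τ L z).symm.trans ?_
    exact congrArg Subtype.val (hz ⟨_, restrictNormalHom_mem_inertia L hτ⟩)
  obtain ⟨τ, hτ, e⟩ := exists_inertia_restrictNormal_eq L A _ hmem
  have h : ∀ y : L, τ y = σ y := fun y =>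
    (AlgEquiv.restrictNormal_commutes τ L y).symm.trans
      ((congrArg (fun f => (algebraMap L Qbar) (f y)) e).trans
        (AlgEquiv.restrictNormal_commutes σ L y))
  exact ⟨τ, hτ, h ⟨x, hxL x (Or.inl rfl)⟩, h ⟨T, hxL T (Or.inr rfl)⟩⟩

/-- The fixed field of the stabiliser is generated by `T` over the fixed field of inertia. -/
theorem fixedField_stabInertia_le (hp : p.Prime) (hA : A.LiesOverPrime p) (T : Qbar) :
    IntermediateField.fixedField (stabInertia A T) ≤
      (IntermediateField.adjoin (InertiaField.field A) ({T} : Set Qbar)).restrictScalars ℚ := by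
  intro x hx
  rw [← InfiniteGalois.fixedField_fixingSubgroup
    ((IntermediateField.adjoin (InertiaField.field A) ({T} : Set Qbar)).restrictScalars ℚ)]
  rintro ⟨σ, hσ⟩
  have hσf : ∀ z ∈ (IntermediateField.adjoin (InertiaField.field A)
      ({T} : Set Qbar)).restrictScalars ℚ, σ z = z := fun z hz => hσ ⟨z, hz⟩
  obtain ⟨τ, hτ, h1, h2⟩ := exists_inertia_eqOn (σ := σ) (fun z hz => hσf z
    ((IntermediateField.adjoin (InertiaField.field A) ({T} : Set Qbar)).algebraMap_mem ⟨z, hz⟩))
    hp hA x T
  rw [hσf T (IntermediateField.mem_adjoin_simple_self _ T)] at h2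
  exact h1.symm.trans (hx ⟨τ, mem_stabInertia.2 ⟨hτ, h2⟩⟩)

theorem charP_kA (hp : p.Prime) (hA : A.LiesOverPrime p) : CharP kA p := by
  have := Fact.mk hp
  obtain ⟨_, hmax⟩ := InertiaField.isDiscreteValuationRing hp A hA
  rw [CharP.charP_iff_prime_eq_zero hp, ← map_natCast (IsLocalRing.residue (InertiaField.ring A)),
    IsLocalRing.residue_eq_zero_iff, hmax]
  exact Ideal.mem_span_singleton_self _

theorem natCast_ne_zero_ring (hp : p.Prime) : (p : InertiaField.ring A) ≠ 0 := fun h => by
  have h1 := congrArg (fun y => ((InertiaField.incl A y : A) : Qbar)) h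
  simp [hp.ne_zero] at h1

theorem irreducible_natCast (hp : p.Prime) (hA : A.LiesOverPrime p) :
    Irreducible (p : InertiaField.ring A) := by
  obtain ⟨_, hmax⟩ := InertiaField.isDiscreteValuationRing hp A hA
  exact (IsDiscreteValuationRing.irreducible_iff_uniformizer _).2 hmax

theorem residue_eq_zero_iff_dvd (hp : p.Prime) (hA : A.LiesOverPrime p) {x : InertiaField.ring A} :
    IsLocalRing.residue _ x = 0 ↔ (p : InertiaField.ring A) ∣ x := by
  obtain ⟨_, hmax⟩ := InertiaField.isDiscreteValuationRing hp A hA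
  rw [IsLocalRing.residue_eq_zero_iff, hmax, Ideal.mem_span_singleton]

/-- Coercion from the valuation ring of the fixed field of inertia. -/
def toQbar (A : ValuationSubring (AlgebraicClosure ℚ)) : InertiaField.ring A →+* Qbar :=
  (algebraMap (InertiaField.field A) Qbar).comp (InertiaField.ring A).subtype

/-- A `p`th root of `u` fixed with a root of `1 + p b`, `b` a unit. -/
theorem exists_root_reduction (hp : p.Prime) (hA : A.LiesOverPrime p) {u : Qbar}
    (hu : A.valuation u = 1) (hfix : ∀ σ ∈ A.inertiaSubgroupIn ℚ, σ u = u) :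
    ∃ b : InertiaField.ring A, IsLocalRing.residue _ b ≠ 0 ∧
      ∀ T₁ : Qbar, T₁ ^ p = 1 + (p : Qbar) * toQbar A b →
        ∃ T : Qbar, T ^ p = u ∧ ∀ σ ∈ stabInertia A T₁, σ T = T := by
  have := Fact.mk hp
  have hac := InertiaField.isAlgClosed_residueField hp A hA
  have huA : u ∈ A := (A.valuation_le_one_iff _).1 hu.le
  let u₀ : InertiaField.ring A := ⟨⟨u, (InertiaField.mem_field_iff A).2 hfix⟩, huA⟩
  have hu₀ : IsLocalRing.residue _ u₀ ≠ 0 := by
    rw [IsLocalRing.residue_ne_zero_iff_isUnit, ← InertiaField.isUnit_incl_iff,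
      A.valuation_eq_one_iff]
    exact hu
  obtain ⟨c', hc'⟩ := IsAlgClosed.exists_pow_nat_eq (IsLocalRing.residue _ u₀) hp.pos
  obtain ⟨c, rfl⟩ := IsLocalRing.residue_surjective c'
  have hc0 : IsLocalRing.residue _ c ≠ 0 := fun e => hu₀ (by rw [← hc', e, zero_pow hp.ne_zero])
  obtain ⟨ci, hci⟩ := ((IsLocalRing.residue_ne_zero_iff_isUnit c).1 hc0).exists_right_inv
  obtain ⟨b, hb⟩ : ∃ b, u₀ * ci ^ p - 1 = (p : InertiaField.ring A) * b := by
    refine (residue_eq_zero_iff_dvd hp hA).1 ?_
    rw [map_sub, map_mul, map_pow, map_one, ← hc', ← mul_pow, ← map_mul, hci, map_one, one_pow,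
      sub_self]
  have hcq : toQbar A c ^ p * (1 + (p : Qbar) * toQbar A b) = u := by
    have h1 := congrArg (toQbar A) hb
    have h2 : toQbar A c ^ p * toQbar A ci ^ p = 1 := by
      rw [← mul_pow, ← map_mul, hci, map_one, one_pow]
    rw [map_sub, map_mul, map_mul, map_pow, map_natCast, map_one] at h1
    rw [← h1, add_sub_cancel]
    show _ * (u * _) = u
    linear_combination u * h2
  have hcfix : ∀ σ ∈ A.inertiaSubgroupIn ℚ, σ (toQbar A c) = toQbar A c := fun σ hσ =>
    InertiaField.apply_eq A hσ (c : InertiaField.field A)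
  by_cases hb0 : IsLocalRing.residue _ b ≠ 0
  · refine ⟨b, hb0, fun T₁ hT₁ => ⟨toQbar A c * T₁, by rw [mul_pow, hT₁, hcq], fun σ hσ => ?_⟩⟩
    rw [map_mul, hcfix σ hσ.1, (mem_stabInertia.1 hσ).2]
  · obtain ⟨b', rfl⟩ := (residue_eq_zero_iff_dvd hp hA).1 (not_not.1 hb0)
    have hπ0 : 0 < A.valuation (p : Qbar) := v_prime_pos hp
    have hπ1 : A.valuation (p : Qbar) < 1 := v_prime_lt_one hA
    set e := 1 + (p : Qbar) * toQbar A ((p : InertiaField.ring A) * b') with he
    have hvb : A.valuation (toQbar A b') ≤ 1 := (A.valuation_le_one_iff _).2 b'.2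
    have hsmall : A.valuation (e - 1) ≤ A.valuation (p : Qbar) * A.valuation (p : Qbar) := by
      rw [he, add_sub_cancel_left, map_mul (toQbar A), map_natCast, map_mul, map_mul]
      exact mul_le_mul_of_nonneg_left (mul_le_of_le_one_right zero_le hvb) zero_le
    have hve : A.valuation e = 1 := by
      have := hsmall.trans_lt (mul_lt_one_of_nonneg_of_lt_one_left zero_le hπ1 hπ1.le)
      rw [show e = (e - 1) + 1 by ring, Valuation.map_add_eq_of_lt_right _ (by rwa [map_one]),
        map_one]
    obtain ⟨T₀, hT₀⟩ := IsAlgClosed.exists_pow_nat_eq e hp.pos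
    have hvT₀ : A.valuation T₀ = 1 :=
      (pow_eq_one_iff.1 (by rw [← map_pow, hT₀, hve])).resolve_right hp.ne_zero
    obtain ⟨ζ, hζ, hζ'⟩ := exists_root_near A.valuation hp (t := (1 : Qbar)) hvT₀
      (γ := A.valuation (p : Qbar) * A.valuation (p : Qbar))
      (by rw [one_pow, hT₀, Valuation.map_sub_swap]; exact hsmall)
    set T' := ζ * T₀ with hT'
    have hT'p : T' ^ p = e := by rw [hT', mul_pow, hζ, one_mul, hT₀]
    have hw : A.valuation ((T' - 1) / p) ≤ 1 := by
      rw [map_div₀, div_le_one₀ hπ0, Valuation.map_sub_swap]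
      exact le_of_mul_le_mul_left hζ' hπ0
    refine ⟨1, by simp, fun T₁ _ => ⟨toQbar A c * T', by rw [mul_pow, hT'p, hcq], fun σ hσ => ?_⟩⟩
    have hvT' : A.valuation T' = 1 :=
      (pow_eq_one_iff.1 (by rw [← map_pow, hT'p, hve])).resolve_right hp.ne_zero
    have hT'0 : T' ≠ 0 := fun e => by simp [e] at hvT'
    have hσT : σ T' / T' = 1 := by
      refine eq_one_of_pow_eq_one_of_lt A.valuation hp ?_ ?_
      · have hee : σ e = e := by
          rw [he, map_add, map_mul, map_one, map_natCast]
          congr 2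
          exact InertiaField.apply_eq A hσ.1 _
        rw [div_pow, ← map_pow, hT'p, hee, div_self (fun h => by simp [h] at hve)]
      · have h := v_inertia_sub hσ.1 hw
        rw [map_div₀ σ, map_sub σ, map_one, map_natCast, ← sub_div, map_div₀,
          div_lt_one₀ hπ0] at h
        rw [div_sub_one hT'0, map_div₀, hvT', div_one]
        rwa [sub_sub_sub_cancel_right] at h
    rw [map_mul, hcfix σ hσ.1, (div_eq_one_iff_eq hT'0).1 hσT]

/-- The data attached to a curve with multiplicative reduction at `p`. -/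
theorem exists_root_point {W : WeierstrassCurve ℤ} (h : MultAt W A p)
    (hdvd : p ∣ padicValInt p W.Δ) (hp2 : p ≠ 2) :
    ∃ (b : InertiaField.ring A) (T₁ : Qbar)
      (P : ((WeierstrassCurve.map W (Int.castRingHom ℚ))⁄(AlgebraicClosure ℚ)).Point),
      IsLocalRing.residue _ b ≠ 0 ∧ T₁ ^ p = 1 + (p : Qbar) * toQbar A b ∧ P ≠ 0 ∧ p • P = 0 ∧
      ∀ σ ∈ stabInertia A T₁, σ • P = P := by
  obtain ⟨u, hu, hfix, hP⟩ := exists_fixed_torsion_point h hdvd hp2
  obtain ⟨b, hb, hT⟩ := exists_root_reduction h.prime h.liesOver hu hfix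
  obtain ⟨T₁, hT₁⟩ := IsAlgClosed.exists_pow_nat_eq (1 + (p : Qbar) * toQbar A b) h.prime.pos
  obtain ⟨T, hTu, hTfix⟩ := hT T₁ hT₁
  obtain ⟨P, hP0, hpP, hPfix⟩ := hP T hTu
  exact ⟨b, T₁, P, hb, hT₁, hP0, hpP, fun σ hσ => hPfix σ hσ.1 (hTfix σ hσ)⟩

/-- The residue field of the place is that of the fixed field of inertia. -/
theorem exists_residue_hom (hp : p.Prime) (hA : A.LiesOverPrime p) :
    ∃ π : A →+* kA, Function.Surjective π ∧
      ∀ x, π (InertiaField.incl A x) = IsLocalRing.residue _ x := by
  have := Fact.mk hp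
  have := InertiaField.isAlgClosed_residueField hp A hA
  let r : kA →+* IsLocalRing.ResidueField A := IsLocalRing.ResidueField.map (InertiaField.incl A)
  let _ : Algebra kA (IsLocalRing.ResidueField A) := r.toAlgebra
  have := charP_residueField A hp hA
  have hchar := charP_kA (A := A) hp hA
  let _ : Algebra (ZMod p) (IsLocalRing.ResidueField A) := ZMod.algebra _ p
  let _ : Algebra (ZMod p) kA := ZMod.algebra _ p
  have : IsScalarTower (ZMod p) kA (IsLocalRing.ResidueField A) :=
    IsScalarTower.of_algebraMap_eq' (RingHom.ext_zmod _ _)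
  have := isAlgebraic_residueField A hA (q := p)
  have : Algebra.IsAlgebraic kA (IsLocalRing.ResidueField A) :=
    Algebra.IsAlgebraic.tower_top (K := ZMod p) kA
  have hsurj : Function.Surjective r := IsAlgClosed.algebraMap_bijective_of_isIntegral.2
  let e := RingEquiv.ofBijective r ⟨r.injective, hsurj⟩
  exact ⟨e.symm.toRingHom.comp (IsLocalRing.residue A), e.symm.surjective.comp
    IsLocalRing.residue_surjective, fun x => e.symm_apply_eq.2 rfl⟩

theorem isAlgebraic_kA (hp : p.Prime) (hA : A.LiesOverPrime p) [Algebra (ZMod p) kA] :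
    Algebra.IsAlgebraic (ZMod p) kA := by
  have := Fact.mk hp
  obtain ⟨π, hπ, -⟩ := exists_residue_hom hp hA
  have := charP_residueField A hp hA
  let _ : Algebra (ZMod p) (IsLocalRing.ResidueField A) := ZMod.algebra _ p
  have := isAlgebraic_residueField A hA (q := p)
  let r : kA →+* IsLocalRing.ResidueField A := IsLocalRing.ResidueField.map (InertiaField.incl A)
  refine ⟨fun x => ?_⟩
  have h := (Algebra.IsAlgebraic.isAlgebraic (R := ZMod p) (r x))
  exact (isAlgebraic_ringHom_iff_of_comp_eq (RingEquiv.refl (ZMod p)) r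
    r.injective (RingHom.ext_zmod _ _)).1 h

/-- The base ring for `T₁`: a complete valuation ring with the embedding of the fixed field. -/
structure BaseData (p : ℕ) [Fact p.Prime] (A : ValuationSubring (AlgebraicClosure ℚ))
    (T₁ : AlgebraicClosure ℚ) where
  /-- the ring -/
  R : Type
  [commRing : CommRing R]
  [isDomain : IsDomain R]
  [isDVR : IsDiscreteValuationRing R]
  [charZero : CharZero R]
  /-- its structure -/
  S : Setup p R (IsLocalRing.ResidueField (InertiaField.ring A))
  /-- its unramified part -/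
  U : Unram S
  /-- the unramified coefficients -/
  j : InertiaField.ring A →+* R
  res_j : ∀ x, S.res (j x) = IsLocalRing.residue _ x
  /-- the embedding -/
  φ : IntermediateField.fixedField (stabInertia A T₁) →+* FractionRing R
  φ_ring : ∀ (x : InertiaField.ring A)
    (h : toQbar A x ∈ IntermediateField.fixedField (stabInertia A T₁)),
    φ ⟨toQbar A x, h⟩ = algebraMap R (FractionRing R) (j x)

attribute [instance] BaseData.commRing BaseData.isDomain BaseData.isDVR BaseData.charZero

/-- **The base ring for `T₁`.** -/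
theorem nonempty_baseData [Fact p.Prime] (hA : A.LiesOverPrime p) {b : InertiaField.ring A}
    (hb : IsLocalRing.residue _ b ≠ 0) {T₁ : Qbar}
    (hT₁ : T₁ ^ p = 1 + (p : Qbar) * toQbar A b) : Nonempty (BaseData p A T₁) := by
  have hp := (Fact.out : p.Prime)
  obtain ⟨_, hmax⟩ := InertiaField.isDiscreteValuationRing hp A hA
  have hirr := irreducible_natCast hp hA
  have hchar := charP_kA (A := A) hp hA
  obtain ⟨W, _, _, _, ι, ρ, hι, hπ, hc, hρι, hρ⟩ := exists_completion hirr
  rw [map_natCast] at hπ hc
  have : CharZero (InertiaField.ring A) :=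
    charZero_of_injective_ringHom (f := Nat.castRingHom (InertiaField.ring A)) (R := ℕ)
      fun m n h => by simpa [toQbar] using congrArg (toQbar A) h
  have : CharZero W := charZero_of_injective_ringHom hι
  obtain ⟨R, _, _, _, _, ι', S, U, hι', hϖ, hres⟩ := exists_setup hπ ρ hρ
    (b := ι b) (by rw [← RingHom.comp_apply, hρι]; exact hb)
  let j : InertiaField.ring A →+* R := ι'.comp ι
  have hj : Function.Injective ((algebraMap R (FractionRing R)).comp j) :=
    (IsFractionRing.injective R (FractionRing R)).comp (hι'.comp hι)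
  let F := InertiaField.field A
  let ψ : F →+* FractionRing R := IsFractionRing.lift hj
  let _ : Algebra F (FractionRing R) := ψ.toAlgebra
  let u : F := algebraMap (InertiaField.ring A) F (1 + (p : InertiaField.ring A) * b)
  have hu : algebraMap F Qbar u = T₁ ^ p := by
    rw [hT₁]; show toQbar A (1 + (p : InertiaField.ring A) * b) = _; rw [map_add, map_mul,
      map_natCast, map_one]
  have hnp : ∀ y : F, y ^ p ≠ u := by
    intro y hy
    have hyA : y ∈ InertiaField.ring A := by
      obtain ⟨z, hz⟩ := IsIntegrallyClosed.algebraMap_eq_of_integral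
        (show IsIntegral (InertiaField.ring A) y from
          IsIntegral.of_pow hp.pos (hy ▸ isIntegral_algebraMap
            (x := (1 + (p : InertiaField.ring A) * b : InertiaField.ring A))))
      rw [← hz]; exact z.2
    set y₀ : InertiaField.ring A := ⟨y, hyA⟩
    have hy₀ : y₀ ^ p = 1 + (p : InertiaField.ring A) * b :=
      Subtype.ext ((SubmonoidClass.coe_pow y₀ p).trans hy)
    have hdvd : (p : InertiaField.ring A) ∣ y₀ - 1 := by
      rw [← residue_eq_zero_iff_dvd hp hA, ← pow_eq_zero_iff hp.ne_zero, map_sub, map_one,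
        sub_pow_char, one_pow, ← map_pow, hy₀, map_add, map_mul, map_natCast, map_one,
        CharP.cast_eq_zero (IsLocalRing.ResidueField (InertiaField.ring A)) p, zero_mul, add_zero,
        sub_self]
    have h2 := dvd_sub_pow_of_dvd_sub hdvd 1
    rw [pow_one, one_pow, hy₀, add_sub_cancel_left, pow_two] at h2
    exact hb ((residue_eq_zero_iff_dvd hp hA).2
      ((mul_dvd_mul_iff_left (natCast_ne_zero_ring hp)).1 h2))
  have hirrP : Irreducible (Polynomial.X ^ p - Polynomial.C u) :=
    X_pow_sub_C_irreducible_of_prime hp hnp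
  have hint : IsIntegral F T₁ :=
    IsIntegral.of_pow hp.pos (by rw [← hu]; exact isIntegral_algebraMap)
  have hmin : minpoly F T₁ = Polynomial.X ^ p - Polynomial.C u :=
    (minpoly.eq_of_irreducible_of_monic hirrP (by simp [hu])
      (Polynomial.monic_X_pow_sub_C u hp.ne_zero)).symm
  have hy : Polynomial.aeval (algebraMap R (FractionRing R) (1 + S.ϖ))
      (minpoly F (IntermediateField.adjoin.powerBasis hint).gen) = 0 := by
    rw [IntermediateField.adjoin.powerBasis_gen, IntermediateField.minpoly_gen, hmin, map_sub,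
      map_pow, Polynomial.aeval_X, Polynomial.aeval_C, ← map_pow, hϖ]
    show _ - ψ u = 0
    rw [sub_eq_zero]
    refine Eq.trans ?_ (IsFractionRing.lift_algebraMap hj (1 + (p : InertiaField.ring A) * b)).symm
    simp [j]
  let g := (IntermediateField.adjoin.powerBasis hint).lift _ hy
  have hle := fixedField_stabInertia_le hp hA T₁
  refine ⟨{
    R := R
    S := S
    U := U
    j := j
    res_j := fun x => (RingHom.congr_fun hres (ι x)).trans (RingHom.congr_fun hρι x)
    φ := g.toRingHom.comp
      ({ toFun := fun x => ⟨x.1, hle x.2⟩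
         map_one' := rfl
         map_mul' := fun _ _ => rfl
         map_zero' := rfl
         map_add' := fun _ _ => rfl } :
        IntermediateField.fixedField (stabInertia A T₁) →+*
          IntermediateField.adjoin F ({T₁} : Set Qbar))
    φ_ring := fun x h => ?_ }⟩
  show g ⟨toQbar A x, _⟩ = _
  exact (g.commutes (algebraMap (InertiaField.ring A) F x)).trans
    (IsFractionRing.lift_algebraMap hj x)

end Fermat.Agent.LevelLowerP
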