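import Fermat.Agent.Igusa.Reduction

/-!
# The rational chart at level `M`: functions integral over `ℚ[j]` with `p`-integral expansion
-/

set_option autoImplicit false

noncomputable section

namespace Fermat.Agent.LevelLowerP

open Polynomial ModularCurve Fermat.Agent.Igusa

variable (p : ℕ) [Fact p.Prime] (M : ℕ) [NeZero M]

omit [NeZero M] in
theorem jqModC_mem_full_rat : jqModC ℚ ∈ modularFunctionFieldFull M := by
  rw [← modularFunctionFieldFullC_rat]
  exact jqModC_mem_full ℚ M

/-- Elements of `ℚ(X₀(M))` integral over `ℚ[j]`, as series. -/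
def ratInt : Subring (LaurentSeries ℚ) where
  carrier := {x | x ∈ modularFunctionFieldFull M ∧ (evq ℚ).IsIntegralElem x}
  zero_mem' := ⟨zero_mem _, (evq ℚ).isIntegralElem_zero⟩
  one_mem' := ⟨one_mem _, (evq ℚ).isIntegralElem_one⟩
  add_mem' hx hy := ⟨add_mem hx.1 hy.1, hx.2.add (evq ℚ) hy.2⟩
  neg_mem' hx := ⟨neg_mem hx.1, hx.2.neg (evq ℚ)⟩
  mul_mem' hx hy := ⟨mul_mem hx.1 hy.1, hx.2.mul (evq ℚ) hy.2⟩

omit [NeZero M] in
theorem mem_ratInt {x : LaurentSeries ℚ} :
    x ∈ ratInt M ↔ x ∈ modularFunctionFieldFull M ∧ (evq ℚ).IsIntegralElem x := Iff.rfl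

omit [NeZero M] in
theorem jqModC_mem_ratInt : jqModC ℚ ∈ ratInt M :=
  ⟨jqModC_mem_full_rat M, by simpa [evq] using (evq ℚ).isIntegralElem_map (x := Polynomial.X)⟩

/-- The rational chart: integral over `ℚ[j]`, with `p`-integral expansion. -/
def ratChart : Subring (LaurentSeries (ZL p)) := (ratInt M).comap (toQ p)

omit [Fact (Nat.Prime p)] [NeZero M] in
theorem mem_ratChart {x : LaurentSeries (ZL p)} : x ∈ ratChart p M ↔ toQ p x ∈ ratInt M := Iff.rfl

omit [Fact (Nat.Prime p)] [NeZero M] in
theorem jqModC_mem_ratChart : jqModC (ZL p) ∈ ratChart p M := by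
  rw [mem_ratChart, toQ, coeffMap_jqModC]
  exact jqModC_mem_ratInt M

/-- `j` in the rational chart. -/
def chartJ : ratChart p M := ⟨_, jqModC_mem_ratChart p M⟩

/-- Reduction of the rational chart into series over a field of characteristic `p`. -/
def chartRed (k : Type*) [Field k] [CharP k p] : ratChart p M →+* LaurentSeries k :=
  ((coeffMap ((ZMod.castHom dvd_rfl k).comp (red0 p)))).comp (ratChart p M).subtype

omit [NeZero M] in
theorem chartRed_apply (k : Type*) [Field k] [CharP k p] (x : ratChart p M) :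
    chartRed p M k x = coeffMap (ZMod.castHom dvd_rfl k) (redS p (x : LaurentSeries (ZL p))) := by
  ext n
  simp [chartRed, redS]

omit [NeZero M] in
/-- The chart coordinate reduces to `j`. -/
theorem chartRed_chartJ (k : Type*) [Field k] [CharP k p] :
    chartRed p M k (chartJ p M) = jqModC k := by
  show coeffMap _ (jqModC (ZL p)) = _
  rw [coeffMap_jqModC]

end Fermat.Agent.LevelLowerP
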