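import Fermat.Agent.LevelLowerP.GeoExpansion
import Fermat.Agent.LevelLowerP.GeoChart
import Mathlib.RingTheory.Henselian
import Mathlib.RingTheory.AdicCompletion.Basic

/-!
# The unramified subring of the base and its roots of unity
-/

set_option autoImplicit false

noncomputable section

namespace Fermat.Agent.LevelLowerP

open Polynomial ModularCurve Fermat.Agent.Igusa

variable {p : ℕ} {R k : Type*} [CommRing R] [Field k]

/-- A complete subring of the base on which the derivation vanishes and `p` is a uniformizer. -/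
structure Unram (S : Setup p R k) where
  /-- the subring -/
  R₀ : Subring R
  snd_eq : ∀ r ∈ R₀, (S.δ r).snd = 0
  surj : ∀ c : k, ∃ r ∈ R₀, S.res r = c
  dvd : ∀ r ∈ R₀, S.res r = 0 → ∃ r' ∈ R₀, r = p * r'
  complete : IsAdicComplete (Ideal.span {((p : ℕ) : R₀)}) R₀

namespace Unram

variable {S : Setup p R k} (U : Unram S)

/-- Reduction on the subring. -/
def res₀ : U.R₀ →+* k := S.res.comp U.R₀.subtype

theorem res₀_apply (r : U.R₀) : U.res₀ r = S.res r := rfl

theorem res₀_surjective : Function.Surjective U.res₀ := fun c => by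
  obtain ⟨r, hr, e⟩ := U.surj c
  exact ⟨⟨r, hr⟩, e⟩

theorem δ_eq (r : U.R₀) : S.δ (r : R) = TrivSqZeroExt.inl (U.res₀ r) :=
  TrivSqZeroExt.ext (by rw [TrivSqZeroExt.fst_inl]; rfl)
    (by rw [TrivSqZeroExt.snd_inl]; exact U.snd_eq r r.2)

variable [CharP k p]

theorem res₀_eq_zero_iff {r : U.R₀} : U.res₀ r = 0 ↔ ((p : ℕ) : U.R₀) ∣ r := by
  constructor
  · intro h
    obtain ⟨r', hr', e⟩ := U.dvd r r.2 h
    exact ⟨⟨r', hr'⟩, Subtype.ext (by push_cast; exact e)⟩
  · rintro ⟨r', rfl⟩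
    rw [map_mul, map_natCast, CharP.cast_eq_zero, zero_mul]

theorem isUnit_of_res₀ {r : U.R₀} (h : U.res₀ r ≠ 0) : IsUnit r := by
  obtain ⟨y, hy⟩ := U.res₀_surjective (U.res₀ r)⁻¹
  have h1 : U.res₀ (r * y - 1) = 0 := by
    rw [map_sub, map_mul, hy, map_one, mul_inv_cancel₀ h, sub_self]
  have hmem : r * y - 1 ∈ (⊥ : Ideal U.R₀).jacobson := by
    have := U.complete
    exact IsAdicComplete.le_jacobson_bot (Ideal.span {((p : ℕ) : U.R₀)})
      (Ideal.mem_span_singleton.2 (U.res₀_eq_zero_iff.1 h1))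
  have h2 := (Ideal.mem_jacobson_bot.1 hmem) 1
  rw [mul_one, sub_add_cancel] at h2
  exact isUnit_of_mul_isUnit_left h2

variable [Fact p.Prime]

include U in
theorem isUnit_den (q : ZL p) : IsUnit (((q : ℚ).den : ℕ) : U.R₀) := by
  refine U.isUnit_of_res₀ ?_
  rw [map_natCast]
  intro h
  exact den_ne_zero p q ((ZMod.natCast_eq_zero_iff _ _).mpr ((CharP.cast_eq_zero_iff k p _).mp h))

/-- The `p`-local rationals in the subring. -/
def zlFun (q : ZL p) : U.R₀ := ((q : ℚ).num : U.R₀) * ↑(U.isUnit_den q).unit⁻¹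

theorem zlFun_mul_den (q : ZL p) :
    U.zlFun q * (((q : ℚ).den : ℕ) : U.R₀) = ((q : ℚ).num : U.R₀) := by
  rw [zlFun, mul_assoc, IsUnit.val_inv_mul, mul_one]

variable [IsDomain R] [CharZero R]

theorem coe_zlFun (q : ZL p) :
    algebraMap R (FractionRing R) (U.zlFun q : R) = ((q : ℚ) : FractionRing R) := by
  have h := congrArg (fun r : U.R₀ => algebraMap R (FractionRing R) (r : R)) (U.zlFun_mul_den q)
  push_cast at h
  simp only [map_intCast] at h
  rw [Rat.cast_def, eq_div_iff (Nat.cast_ne_zero.2 (q : ℚ).den_nz)]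
  exact h

/-- The `p`-local rationals in the subring, as a ring map. -/
def zl₀ : ZL p →+* U.R₀ where
  toFun := U.zlFun
  map_one' := Subtype.ext (IsFractionRing.injective R (FractionRing R) (by
    rw [U.coe_zlFun]; simp))
  map_zero' := Subtype.ext (IsFractionRing.injective R (FractionRing R) (by
    rw [U.coe_zlFun]; simp))
  map_add' a b := Subtype.ext (IsFractionRing.injective R (FractionRing R) (by
    push_cast; simp only [U.coe_zlFun]; push_cast; rfl))
  map_mul' a b := Subtype.ext (IsFractionRing.injective R (FractionRing R) (by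
    push_cast; simp only [U.coe_zlFun]; push_cast; rfl))

/-- The `p`-local rationals in the base. -/
def zl : ZL p →+* R := U.R₀.subtype.comp U.zl₀

theorem algebraMap_zl (q : ZL p) :
    algebraMap R (FractionRing R) (U.zl q) = ((q : ℚ) : FractionRing R) := U.coe_zlFun q

theorem res₀_zl₀ (q : ZL p) : U.res₀ (U.zl₀ q) = ZMod.castHom dvd_rfl k (red0 p q) := by
  have h := congrArg U.res₀ (U.zlFun_mul_den q)
  rw [map_mul, map_natCast, map_intCast] at h
  have h2 : q * ((q : ℚ).den : ZL p) = ((q : ℚ).num : ZL p) := by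
    refine Subtype.ext ?_
    push_cast
    exact Rat.mul_den_eq_num _
  have h3 := congrArg ((ZMod.castHom dvd_rfl k).comp (red0 p)) h2
  rw [map_mul, map_natCast, map_intCast] at h3
  refine mul_right_cancel₀ ?_ (h.trans h3.symm)
  rw [← map_natCast U.res₀]
  exact ((U.isUnit_den q).map U.res₀).ne_zero

omit [IsDomain R] [CharZero R] [Fact (Nat.Prime p)] in
/-- Roots of unity of order prime to `p`. -/
theorem exists_primitiveRoot [IsAlgClosed k] (M : ℕ) [NeZero M] (hpM : ¬ p ∣ M) :
    ∃ ζ : U.R₀, IsPrimitiveRoot ζ M ∧ IsPrimitiveRoot (U.res₀ ζ) M := by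
  have : NeZero (M : k) := ⟨fun h => hpM ((CharP.cast_eq_zero_iff k p M).mp h)⟩
  obtain ⟨y, hy⟩ := HasEnoughRootsOfUnity.exists_primitiveRoot k M
  obtain ⟨a₀, ha₀⟩ := U.res₀_surjective y
  have := U.complete
  have hM : 0 < M := NeZero.pos M
  obtain ⟨ζ, hζ, hζ'⟩ := HenselianRing.is_henselian (R := U.R₀)
    (I := Ideal.span {((p : ℕ) : U.R₀)}) (X ^ M - C 1) (monic_X_pow_sub_C 1 hM.ne') a₀
    (Ideal.mem_span_singleton.2 (U.res₀_eq_zero_iff.1 (by
      rw [eval_sub, eval_pow, eval_X, eval_C, map_sub, map_pow, map_one, ha₀, hy.pow_eq_one,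
        sub_self])))
    (by
      refine (U.isUnit_of_res₀ ?_).map (Ideal.Quotient.mk _)
      simp only [derivative_sub, derivative_X_pow, derivative_C, sub_zero, eval_mul, eval_natCast,
        eval_pow, eval_X, map_mul, map_natCast, map_pow, ha₀]
      exact mul_ne_zero (NeZero.ne _) (pow_ne_zero _ (hy.ne_zero hM.ne')))
  have hres : U.res₀ ζ = y := by
    rw [← ha₀, ← sub_eq_zero, ← map_sub]
    exact U.res₀_eq_zero_iff.2 (Ideal.mem_span_singleton.1 hζ')
  refine ⟨ζ, ?_, hres ▸ hy⟩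
  refine ⟨by rw [IsRoot.def, eval_sub, eval_pow, eval_X, eval_C, sub_eq_zero] at hζ; exact hζ,
    fun l hl => hy.dvd_of_pow_eq_one l ?_⟩
  rw [← hres, ← map_pow, hl, map_one]

end Unram

end Fermat.Agent.LevelLowerP
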