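import Mathlib.RingTheory.AdicCompletion.LocalRing
import Mathlib.Algebra.Ring.Regular
import Fermat.Agent.LevelLowerP.GeoBase

/-!
# The base ring

The completion of an unramified valuation ring, and the adjunction to it of a `p`th root of
`1 + p b` with `b` a unit.

Main result: `exists_setup`, giving the data `Setup` over such a ring.
-/

set_option autoImplicit false

noncomputable section

namespace Fermat.Agent.LevelLowerP

section Generic

/-- Completeness with respect to an ideal `J` with `J ^ m ≤ I ≤ J`. -/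
theorem isAdicComplete_of_pow_le {O : Type*} [CommRing O] {I J : Ideal O} [IsAdicComplete I O]
    {m : ℕ} (hm : 0 < m) (hIJ : I ≤ J) (hJI : J ^ m ≤ I) : IsAdicComplete J O := by
  have h2 : ∀ n, J ^ (m * n) ≤ I ^ n := fun n => by
    rw [pow_mul]; exact Ideal.pow_right_mono hJI n
  have hh : IsHausdorff J O := ⟨fun x hx => IsHausdorff.haus (I := I) inferInstance x fun n => by
    have := hx (m * n)
    rw [SModEq.zero, smul_eq_mul, Ideal.mul_top] at this ⊢
    exact h2 n this⟩
  have hp : IsPrecomplete J O := ⟨fun f hf => by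
    obtain ⟨L, hL⟩ := IsPrecomplete.prec' (I := I) (fun n => f (m * n)) fun {i n} hin => by
      have := hf (m := m * i) (n := m * n) (Nat.mul_le_mul_left m hin)
      rw [SModEq.sub_mem, smul_eq_mul, Ideal.mul_top] at this ⊢
      exact h2 i this
    refine ⟨L, fun n => ?_⟩
    have h1 := hf (m := n) (n := m * n) (Nat.le_mul_of_pos_left n hm)
    have h3 := hL n
    rw [SModEq.sub_mem, smul_eq_mul, Ideal.mul_top] at h1 h3 ⊢
    have h4 : f (m * n) - L ∈ J ^ n := Ideal.pow_right_mono hIJ n h3
    simpa using add_mem h1 h4⟩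
  exact ⟨⟩

/-- A ring finite free over a complete ring is complete. -/
theorem isAdicComplete_of_basis {W R : Type*} [CommRing W] [CommRing R] [Algebra W R] {ι : Type*}
    [Fintype ι] (b : Module.Basis ι W R) (π : W) [IsAdicComplete (Ideal.span {π}) W] :
    IsAdicComplete (Ideal.span {algebraMap W R π}) R := by
  have hiff : ∀ (n : ℕ) (x : R), x ∈ Ideal.span {algebraMap W R π} ^ n ↔
      ∀ i, b.repr x i ∈ Ideal.span {π} ^ n := fun n x => by
    simp only [Ideal.span_singleton_pow, Ideal.mem_span_singleton, ← map_pow]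
    constructor
    · rintro ⟨y, rfl⟩ i
      rw [← Algebra.smul_def, map_smul, Finsupp.smul_apply, smul_eq_mul]
      exact dvd_mul_right _ _
    · intro h
      choose c hc using h
      refine ⟨∑ i, c i • b i, ?_⟩
      rw [← Algebra.smul_def, Finset.smul_sum]
      conv_lhs => rw [← b.sum_repr x]
      exact Finset.sum_congr rfl fun i _ => by rw [hc i, mul_smul]
  have hh : IsHausdorff (Ideal.span {algebraMap W R π}) R := ⟨fun x hx => by
    refine b.repr.injective (Finsupp.ext fun i => ?_)
    rw [map_zero, Finsupp.zero_apply]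
    refine IsHausdorff.haus (I := Ideal.span {π}) inferInstance _ fun n => ?_
    have := hx n
    rw [SModEq.zero, smul_eq_mul, Ideal.mul_top] at this ⊢
    exact (hiff n x).1 this i⟩
  have hp : IsPrecomplete (Ideal.span {algebraMap W R π}) R := ⟨fun f hf => by
    choose L hL using fun i => IsPrecomplete.prec' (I := Ideal.span {π})
      (fun n => b.repr (f n) i) fun {m n} hmn => by
        have := hf hmn
        rw [SModEq.sub_mem, smul_eq_mul, Ideal.mul_top] at this ⊢
        simpa using (hiff m _).1 this i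
    refine ⟨∑ i, L i • b i, fun n => ?_⟩
    rw [SModEq.sub_mem, smul_eq_mul, Ideal.mul_top, hiff]
    intro i
    have := hL i n
    rw [SModEq.sub_mem, smul_eq_mul, Ideal.mul_top] at this
    rw [map_sub, Finsupp.sub_apply, ← b.equivFun_apply (∑ i, L i • b i), ← b.equivFun_symm_apply,
      LinearEquiv.apply_symm_apply]
    exact this⟩
  exact ⟨⟩

/-- A complete ring with a regular element generating a maximal ideal is a discrete valuation
ring. -/
theorem exists_dvr {O : Type*} [CommRing O] {π : O} [hm : (Ideal.span {π}).IsMaximal]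
    (hreg : ∀ x, π * x = 0 → x = 0) [IsAdicComplete (Ideal.span {π}) O] :
    ∃ _ : IsDomain O, IsDiscreteValuationRing O ∧ Irreducible π := by
  have hloc : IsLocalRing O := isLocalRing_of_isAdicComplete_maximal (Ideal.span {π})
  have hmax : IsLocalRing.maximalIdeal O = Ideal.span {π} := (IsLocalRing.eq_maximalIdeal hm).symm
  have hu : ∀ x : O, ¬ π ∣ x → IsUnit x := fun x hx => by
    by_contra h
    have : x ∈ IsLocalRing.maximalIdeal O := h
    rw [hmax, Ideal.mem_span_singleton] at this
    exact hx this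
  have hπu : ¬ IsUnit π := fun h => hm.ne_top (Ideal.span_singleton_eq_top.2 h)
  have key : ∀ x : O, x ≠ 0 → ∃ (n : ℕ) (u : Oˣ), x = π ^ n * u := fun x hx => by
    classical
    have hex : ∃ n, ¬ π ^ n ∣ x := by
      by_contra hc
      push Not at hc
      refine hx (IsHausdorff.haus (I := Ideal.span {π}) inferInstance x fun n => ?_)
      rw [SModEq.zero, smul_eq_mul, Ideal.mul_top, Ideal.span_singleton_pow,
        Ideal.mem_span_singleton]
      exact hc n
    obtain ⟨n, hn⟩ : ∃ n, Nat.find hex = n + 1 := Nat.exists_eq_succ_of_ne_zero fun e =>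
      (Nat.find_spec hex) (by rw [e, pow_zero]; exact one_dvd x)
    obtain ⟨y, rfl⟩ := not_not.1 (Nat.find_min hex (m := n) (by omega))
    have hy : ¬ π ∣ y := fun hd => by
      refine Nat.find_spec hex ?_
      rw [hn, pow_succ]
      exact mul_dvd_mul_left _ hd
    exact ⟨n, (hu y hy).unit, rfl⟩
  have hpow : ∀ n : ℕ, ∀ x, π ^ n * x = 0 → x = 0 := fun n => by
    induction n with
    | zero => intro x hx; simpa using hx
    | succ j ih => intro x hx; rw [pow_succ', mul_assoc] at hx; exact ih x (hreg _ hx)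
  have : Nontrivial O := hloc.toNontrivial
  have hdom : IsDomain O := by
    have : NoZeroDivisors O := ⟨fun {x y} hxy => by
      by_contra hc
      push Not at hc
      obtain ⟨n, u, rfl⟩ := key x hc.1
      rw [mul_assoc] at hxy
      exact hc.2 ((Units.mul_right_eq_zero u).1 (hpow n _ hxy))⟩
    exact NoZeroDivisors.to_isDomain O
  have hπ0 : π ≠ 0 := fun h => one_ne_zero (hreg 1 (by rw [h, zero_mul]))
  have hirr : Irreducible π := by
    refine ⟨hπu, fun a b hab => ?_⟩
    by_contra hc
    push Not at hc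
    have ha : π ∣ a := not_not.1 fun h => hc.1 (hu a h)
    have hb : π ∣ b := not_not.1 fun h => hc.2 (hu b h)
    obtain ⟨c, hc'⟩ := mul_dvd_mul ha hb
    exact hπu (IsUnit.of_mul_eq_one c (mul_left_cancel₀ hπ0 (by
      rw [← mul_assoc, mul_one]; exact (hab.trans hc').symm)))
  exact ⟨hdom, IsDiscreteValuationRing.ofHasUnitMulPowIrreducibleFactorization
    ⟨π, hirr, fun {x} hx => by
      obtain ⟨n, u, rfl⟩ := key x hx
      exact ⟨n, u, rfl⟩⟩, hirr⟩

end Generic

section Completion

open IsLocalRing AdicCompletion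

/-- The completion of a discrete valuation ring. -/
theorem exists_completion {O : Type} [CommRing O] [IsDomain O] [IsDiscreteValuationRing O] {π : O}
    (hπ : Irreducible π) :
    ∃ (W : Type) (_ : CommRing W) (_ : IsDomain W) (_ : IsDiscreteValuationRing W) (ι : O →+* W)
      (ρ : W →+* ResidueField O), Function.Injective ι ∧ Irreducible (ι π) ∧
      IsAdicComplete (Ideal.span {ι π}) W ∧ ρ.comp ι = residue O ∧ Function.Surjective ρ := by
  set m := maximalIdeal O
  have hm : m = Ideal.span {π} := hπ.maximalIdeal_eq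
  let W := AdicCompletion m O
  let ι : O →+* W := algebraMap O W
  have hmap : m.map ι = Ideal.span {ι π} :=
    (congrArg (Ideal.map ι) hm).trans (by rw [Ideal.map_span, Set.image_singleton])
  have hfg : m.FG := ⟨{π}, by simp [hm]⟩
  have : (Ideal.span {ι π}).IsMaximal := hmap ▸ isMaximal_map_of_le m m le_rfl hfg
  have hc : IsAdicComplete (Ideal.span {ι π}) W := hmap ▸ isAdicComplete_self m hfg
  have hπ0 := hπ.ne_zero
  have hmem : ∀ (n : ℕ) (x : O), x ∈ m ^ n ↔ π ^ n ∣ x := fun n x => by
    rw [hm, Ideal.span_singleton_pow, Ideal.mem_span_singleton]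
  have hreg : ∀ x : W, ι π * x = 0 → x = 0 := by
    intro x
    obtain ⟨f, rfl⟩ := mk_surjective m O x
    intro h
    refine ext_evalₐ fun n => ?_
    have h1 := congrArg (evalₐ m (n + 1)) h
    rw [map_mul, AlgHom.commutes, evalₐ_mk, _root_.map_zero, Ideal.Quotient.algebraMap_eq,
      ← map_mul, Ideal.Quotient.eq_zero_iff_mem, hmem, pow_succ',
      mul_dvd_mul_iff_left hπ0] at h1
    rw [evalₐ_mk, _root_.map_zero, Ideal.Quotient.eq_zero_iff_mem]
    have h2 : (f : ℕ → O) n - (f : ℕ → O) (n + 1) ∈ m ^ n := by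
      have := f.2 (Nat.le_succ n)
      rwa [SModEq.sub_mem, smul_eq_mul, Ideal.mul_top] at this
    have h3 : (f : ℕ → O) (n + 1) ∈ m ^ n := (hmem _ _).2 h1
    simpa using add_mem h2 h3
  obtain ⟨_, hdvr, hirr⟩ := exists_dvr hreg
  refine ⟨W, inferInstance, ‹_›, hdvr, ι, (evalOneₐ m).toRingHom, ?_, hirr, hc, ?_,
    evalOneₐ_surjective m⟩
  · have : IsHausdorff m O :=
      IsHausdorff.of_isLocalRing (I := m) O (IsLocalRing.maximalIdeal.isMaximal O).ne_top
    exact AdicCompletion.of_injective m O
  · exact evalOneₐ_comp_algebraMap_eq_mk m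

end Completion

section Eisenstein

open Polynomial TrivSqZeroExt DualNumber

variable {p : ℕ} [Fact p.Prime] {W k : Type} [CommRing W] [IsDomain W] [CharZero W]
  [IsDiscreteValuationRing W] [Field k] [CharP k p]

/-- The equation of `ϖ = T - 1` with `T ^ p = 1 + p b`. -/
def rootPoly (b : W) : W[X] := (X + C 1) ^ p - C (1 + (p : W) * b)

omit [CharZero W] in
theorem rootPoly_monic (b : W) : (rootPoly (p := p) b).Monic :=
  ((monic_X_add_C (1 : W)).pow p).sub_of_left (degree_C_le.trans_lt (by
    rw [degree_pow, degree_X_add_C, nsmul_one]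
    exact_mod_cast (Fact.out : p.Prime).pos))

/-- **The base ring.** -/
theorem exists_setup (hirr : Irreducible (p : W)) [IsAdicComplete (Ideal.span {(p : W)}) W]
    (ρ : W →+* k) (hρ : Function.Surjective ρ) {b : W} (hb : ρ b ≠ 0) :
    ∃ (R : Type) (_ : CommRing R) (_ : IsDomain R) (_ : IsDiscreteValuationRing R) (_ : CharZero R)
      (ι : W →+* R) (S : Setup p R k) (_ : Unram S),
      Function.Injective ι ∧ (1 + S.ϖ) ^ p = 1 + (p : R) * ι b ∧ S.res.comp ι = ρ := by
  have hp := (Fact.out : p.Prime)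
  let F := rootPoly (p := p) b
  have hev : ∀ {A : Type} [CommRing A] (φ : W →+* A) (x : A),
      F.eval₂ φ x = (x + 1) ^ p - (1 + (p : A) * φ b) := fun φ x => by simp [F, rootPoly, eval₂_pow]
  let R := AdjoinRoot F
  let pb := AdjoinRoot.powerBasis' (rootPoly_monic (p := p) b)
  let ι : W →+* R := algebraMap W R
  let ϖ : R := AdjoinRoot.root F
  have hϖ : (1 + ϖ) ^ p = 1 + (p : R) * ι b := by
    have h := AdjoinRoot.eval₂_root F
    rw [hev, sub_eq_zero, add_comm] at h
    exact h
  have hρp : ρ (p : W) = 0 := by rw [map_natCast]; exact CharP.cast_eq_zero k p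
  -- reduction with derivation
  let δ : R →+* DualNumber k := AdjoinRoot.lift ((inlHom k k).comp ρ) DualNumber.eps (by
    rw [hev]
    have : CharP (DualNumber k) p := charP_of_injective_ringHom TrivSqZeroExt.inl_injective
      (f := inlHom k k) p
    rw [add_pow_char, one_pow, CharP.cast_eq_zero (DualNumber k) p, zero_mul, add_zero,
      show (DualNumber.eps : DualNumber k) ^ p = 0 by
        obtain ⟨j, hj⟩ := Nat.exists_eq_add_of_le hp.two_le
        rw [hj, pow_add, pow_two, DualNumber.eps_mul_eps, zero_mul]]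
    simp)
  have hδι : ∀ a, δ (ι a) = inl (ρ a) := fun a => AdjoinRoot.lift_of _
  have hδϖ : δ ϖ = DualNumber.eps := AdjoinRoot.lift_root _
  let res : R →+* k := (TrivSqZeroExt.fstHom k k k).toRingHom.comp δ
  have hresι : ∀ a, res (ι a) = ρ a := fun a => by
    show (δ (ι a)).fst = _
    rw [hδι, fst_inl]
  have hresϖ : res ϖ = 0 := by
    show (δ ϖ).fst = 0
    rw [hδϖ, DualNumber.fst_eps]
  have hressurj : Function.Surjective res := fun c => by
    obtain ⟨a, rfl⟩ := hρ c
    exact ⟨ι a, hresι a⟩
  -- `p` is `ϖ ^ p` times a unit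
  set s : R := ∑ i ∈ Finset.Ioo 0 p, ϖ ^ (i - 1) * 1 ^ (p - i - 1) * ((p.choose i / p : ℕ) : R)
  have hs : res s = 1 := by
    rw [map_sum, Finset.sum_eq_single 1]
    · rw [map_mul, map_mul, map_pow, map_pow, map_one, one_pow, Nat.sub_self, pow_zero, one_mul,
        one_mul, Nat.choose_one_right, Nat.div_self hp.pos, Nat.cast_one, map_one]
    · intro i hi hi1
      rw [map_mul, map_mul, map_pow, hresϖ,
        zero_pow (by have := (Finset.mem_Ioo.1 hi).1; omega), zero_mul, zero_mul]
    · intro h
      exact absurd (Finset.mem_Ioo.2 ⟨one_pos, hp.one_lt⟩) h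
  have hpϖ : ϖ ^ p = (p : R) * (ι b - ϖ * s) := by
    have h := add_pow_prime_eq hp ϖ (1 : R)
    rw [add_comm ϖ, hϖ, one_pow] at h
    linear_combination -h
  set e : R := ι b - ϖ * s
  have hrese : res e = ρ b := by rw [map_sub, map_mul, hresι, hresϖ, zero_mul, sub_zero]
  -- completeness and the valuation ring
  have hcp : IsAdicComplete (Ideal.span {(p : R)}) R := by
    have := isAdicComplete_of_basis pb.basis (p : W)
    rwa [map_natCast] at this
  have he : IsUnit e := by
    -- `ϖ * s` is nilpotent modulo `p`, which lies in the Jacobson radical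
    let mk := Ideal.Quotient.mk (Ideal.span {(p : R)})
    have hnil : IsNilpotent (mk (ϖ * s)) := ⟨p, by
      rw [← map_pow, Ideal.Quotient.eq_zero_iff_mem, mul_pow, hpϖ, Ideal.mem_span_singleton,
        mul_assoc]
      exact dvd_mul_right _ _⟩
    have hbu : IsUnit b := by
      by_contra hnu
      have : b ∈ IsLocalRing.maximalIdeal W := hnu
      rw [hirr.maximalIdeal_eq, Ideal.mem_span_singleton] at this
      obtain ⟨c, rfl⟩ := this
      exact hb (by rw [map_mul, hρp, zero_mul])
    have hu : IsUnit (mk e) := by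
      rw [map_sub, sub_eq_add_neg]
      exact IsNilpotent.isUnit_add_left_of_commute hnil.neg ((hbu.map ι).map mk) (Commute.all _ _)
    obtain ⟨y, hy⟩ := hu.exists_right_inv
    obtain ⟨y, rfl⟩ := Ideal.Quotient.mk_surjective y
    rw [← map_mul, ← map_one mk, Ideal.Quotient.eq] at hy
    have h2 := (Ideal.mem_jacobson_bot.1
      (IsAdicComplete.le_jacobson_bot (Ideal.span {(p : R)}) hy)) 1
    rw [mul_one, sub_add_cancel] at h2
    exact isUnit_of_mul_isUnit_left h2
  have hpdvd : ϖ ∣ (p : R) := by
    refine ⟨ϖ ^ (p - 1) * ↑he.unit⁻¹, ?_⟩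
    rw [← mul_assoc, ← pow_succ', Nat.sub_add_cancel hp.one_le, hpϖ, mul_assoc, IsUnit.mul_val_inv,
      mul_one]
  have hker : RingHom.ker res = Ideal.span {ϖ} := by
    refine le_antisymm (fun x hx => ?_) ((Ideal.span_singleton_le_iff_mem _).2 hresϖ)
    obtain ⟨q, rfl⟩ := AdjoinRoot.mk_surjective x
    obtain ⟨q', hq'⟩ := X_dvd_iff.2 (show (q - C (q.coeff 0)).coeff 0 = 0 by simp)
    rw [show q = C (q.coeff 0) + X * q' by rw [← hq']; ring, RingHom.mem_ker, map_add, map_mul,
      AdjoinRoot.mk_C, AdjoinRoot.mk_X, map_add, map_mul] at hx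
    change res (ι _) + res ϖ * _ = 0 at hx
    rw [hresι, hresϖ, zero_mul, add_zero] at hx
    have hd : (p : W) ∣ q.coeff 0 := by
      rw [← Ideal.mem_span_singleton, ← hirr.maximalIdeal_eq]
      intro hu
      exact (hu.map ρ).ne_zero hx
    obtain ⟨c, hc⟩ := hd
    rw [show q = C (q.coeff 0) + X * q' by rw [← hq']; ring, map_add, map_mul, AdjoinRoot.mk_C,
      AdjoinRoot.mk_X, Ideal.mem_span_singleton, hc, map_mul, map_natCast]
    exact dvd_add (hpdvd.mul_right _) (dvd_mul_right _ _)
  have : (Ideal.span {ϖ}).IsMaximal := hker ▸ RingHom.ker_isMaximal_of_surjective res hressurj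
  have hcϖ : IsAdicComplete (Ideal.span {ϖ}) R := by
    refine isAdicComplete_of_pow_le (I := Ideal.span {(p : R)}) hp.pos ?_ ?_
    · rw [Ideal.span_singleton_le_span_singleton]; exact hpdvd
    · rw [Ideal.span_singleton_pow, Ideal.span_singleton_le_span_singleton, hpϖ]
      exact dvd_mul_right _ _
  have hp0 : ∀ x : R, (p : R) * x = 0 → x = 0 := fun x hx => by
    refine pb.basis.repr.injective (Finsupp.ext fun i => ?_)
    have h := congrArg (fun y => pb.basis.repr y i) hx
    simp only [← map_natCast (algebraMap W R), ← Algebra.smul_def, map_smul, Finsupp.smul_apply,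
      smul_eq_mul, map_zero, Finsupp.zero_apply, mul_eq_zero] at h
    rw [map_zero, Finsupp.zero_apply]
    exact h.resolve_left hirr.ne_zero
  obtain ⟨_, hdvr, hirrϖ⟩ := exists_dvr (π := ϖ) fun x hx => hp0 x (by
    obtain ⟨c, hc⟩ := hpdvd
    rw [hc, mul_right_comm, hx, zero_mul])
  have hιinj : Function.Injective ι := by
    refine AdjoinRoot.of.injective_of_degree_ne_zero ?_
    show (rootPoly (p := p) b).degree ≠ 0
    rw [rootPoly, Polynomial.degree_sub_C (by
      rw [degree_pow, degree_X_add_C, nsmul_one]; exact_mod_cast hp.pos), degree_pow,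
      degree_X_add_C, nsmul_one]
    exact_mod_cast hp.ne_zero
  have : CharZero R := charZero_of_injective_ringHom hιinj
  have hδw : δ e * δ ↑he.unit⁻¹ = 1 := by rw [← map_mul, IsUnit.mul_val_inv, map_one]
  have hfste : (δ e).fst = ρ b := hrese
  have hsnde : (δ e).snd = -1 := by
    rw [map_sub, map_mul, hδι, hδϖ, TrivSqZeroExt.snd_sub, snd_inl, DualNumber.snd_mul,
      DualNumber.fst_eps, DualNumber.snd_eps, zero_mul, one_mul, show (δ s).fst = 1 from hs]
    ring
  have hfw : ρ b * (δ ↑he.unit⁻¹).fst = 1 := by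
    have := congrArg TrivSqZeroExt.fst hδw
    rwa [fst_mul, hfste, fst_one] at this
  have hsw : ρ b * (δ ↑he.unit⁻¹).snd - (δ ↑he.unit⁻¹).fst = 0 := by
    have := congrArg TrivSqZeroExt.snd hδw
    rw [DualNumber.snd_mul, hfste, hsnde, snd_one] at this
    linear_combination this
  have hfne : (δ ↑he.unit⁻¹).fst ≠ 0 := fun h0 => by simp [h0] at hfw
  let S : Setup p R k :=
    { ϖ := ϖ
      δ := δ
      irreducible_ϖ := hirrϖ
      complete := hcϖ
      surjective_fst := hressurj
      δ_ϖ := hδϖ
      w := ↑he.unit⁻¹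
      natCast_eq := by rw [hpϖ, mul_assoc, IsUnit.mul_val_inv, mul_one]
      fst_w_ne_zero := hfne
      snd_w_ne_zero := fun h0 =>
        hfne (by rw [h0, mul_zero, zero_sub, neg_eq_zero] at hsw; exact hsw) }
  have hcR₀ : IsAdicComplete (Ideal.span {((p : ℕ) : ι.range)}) ι.range := by
    let eq : W ≃+* ι.range := RingEquiv.ofBijective ι.rangeRestrict
      ⟨fun x y h => hιinj (congrArg Subtype.val h), ι.rangeRestrict_surjective⟩
    have : (Ideal.span {(p : W)}).map eq = Ideal.span {((p : ℕ) : ι.range)} := by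
      rw [Ideal.map_span, Set.image_singleton, map_natCast]
    rw [← this, IsAdicComplete.congr_ringEquiv]
    infer_instance
  have U : Unram S :=
    { R₀ := ι.range
      snd_eq := by rintro _ ⟨a, rfl⟩; show (δ (ι a)).snd = 0; rw [hδι, snd_inl]
      surj := fun c => by
        obtain ⟨a, rfl⟩ := hρ c
        exact ⟨ι a, ⟨a, rfl⟩, hresι a⟩
      dvd := by
        rintro _ ⟨a, rfl⟩ h
        rw [show S.res (ι a) = ρ a from hresι a] at h
        have hd : (p : W) ∣ a := by
          rw [← Ideal.mem_span_singleton, ← hirr.maximalIdeal_eq]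
          intro hu
          exact (hu.map ρ).ne_zero h
        obtain ⟨c, rfl⟩ := hd
        exact ⟨ι c, ⟨c, rfl⟩, by rw [map_mul, map_natCast]⟩
      complete := hcR₀ }
  exact ⟨R, inferInstance, ‹_›, hdvr, ‹_›, ι, S, U, hιinj, hϖ, RingHom.ext hresι⟩

end Eisenstein

end Fermat.Agent.LevelLowerP
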