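import Fermat.Agent.LevelLowerP.Branch

/-!
# The ring of integers of a branch

The valuation ring of a branch and its residue map.

The main definitions are `Branch.intRing`, `Branch.intRes` and `Branch.intϖ`.
-/

set_option autoImplicit false

namespace Fermat.Agent.LevelLowerP

open DualNumber TrivSqZeroExt

namespace Branch

variable {O κ : Type*} [CommRing O] [IsDomain O] [Field κ] (B : Branch O κ)
variable {L : Type*} [Field L] [Algebra O L] [IsFractionRing O L]

/-- `x` is integral along the branch. -/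
def IsInt (x : L) : Prop :=
  ∃ s t : O, B.res t ≠ 0 ∧ x * algebraMap O L t = algebraMap O L s

variable {B}

omit [IsDomain O] [IsFractionRing O L] in
lemma IsInt.add {x y : L} (hx : B.IsInt x) (hy : B.IsInt y) : B.IsInt (x + y) := by
  obtain ⟨s, t, ht, e⟩ := hx
  obtain ⟨s', t', ht', e'⟩ := hy
  refine ⟨s * t' + s' * t, t * t', by rw [map_mul]; exact mul_ne_zero ht ht', ?_⟩
  rw [map_add, map_mul, map_mul, map_mul, ← e, ← e']; ring

omit [IsDomain O] [IsFractionRing O L] in
lemma IsInt.mul {x y : L} (hx : B.IsInt x) (hy : B.IsInt y) : B.IsInt (x * y) := by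
  obtain ⟨s, t, ht, e⟩ := hx
  obtain ⟨s', t', ht', e'⟩ := hy
  refine ⟨s * s', t * t', by rw [map_mul]; exact mul_ne_zero ht ht', ?_⟩
  rw [map_mul, map_mul, ← e, ← e']; ring

omit [IsDomain O] [IsFractionRing O L] in
lemma IsInt.neg {x : L} (hx : B.IsInt x) : B.IsInt (-x) := by
  obtain ⟨s, t, ht, e⟩ := hx
  exact ⟨-s, t, ht, by rw [map_neg, ← e]; ring⟩

variable (B)

omit [IsDomain O] [IsFractionRing O L] in
lemma isInt_algebraMap (o : O) : B.IsInt (algebraMap O L o) :=
  ⟨o, 1, by rw [map_one]; exact one_ne_zero, by rw [map_one, mul_one]⟩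

variable (L) in
/-- The elements integral along the branch. -/
def intRing : Subring L where
  carrier := {x | B.IsInt x}
  one_mem' := by simpa using B.isInt_algebraMap (L := L) 1
  zero_mem' := by simpa using B.isInt_algebraMap (L := L) 0
  add_mem' := IsInt.add
  mul_mem' := IsInt.mul
  neg_mem' := IsInt.neg

omit [IsDomain O] [IsFractionRing O L] in
lemma mem_intRing {x : L} : x ∈ B.intRing L ↔ B.IsInt x := Iff.rfl

/-- The residue of an integral element. -/
noncomputable def intResFun (x : B.intRing L) : κ :=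
  B.res x.2.choose / B.res x.2.choose_spec.choose

omit [IsDomain O] in
lemma intResFun_eq {x : B.intRing L} {s t : O} (ht : B.res t ≠ 0)
    (e : (x : L) * algebraMap O L t = algebraMap O L s) : B.intResFun x = B.res s / B.res t := by
  have key : ∀ s₀ t₀ : O, B.res t₀ ≠ 0 → (x : L) * algebraMap O L t₀ = algebraMap O L s₀ →
      B.res s₀ / B.res t₀ = B.res s / B.res t := by
    intro s₀ t₀ h1 h2
    rw [div_eq_div_iff h1 ht, ← map_mul, ← map_mul]
    congr 1
    refine IsFractionRing.injective O L ?_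
    rw [map_mul, map_mul, ← e, ← h2]
    ring
  exact key _ _ x.2.choose_spec.choose_spec.1 x.2.choose_spec.choose_spec.2

/-- The residue map. -/
noncomputable def intRes : B.intRing L →+* κ where
  toFun := B.intResFun
  map_one' := by
    rw [B.intResFun_eq (s := 1) (t := 1) (by rw [map_one]; exact one_ne_zero) (by simp)]; simp
  map_zero' := by
    rw [B.intResFun_eq (s := 0) (t := 1) (by rw [map_one]; exact one_ne_zero) (by simp)]; simp
  map_add' x y := by
    obtain ⟨s, t, ht, e⟩ := x.2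
    obtain ⟨s', t', ht', e'⟩ := y.2
    rw [B.intResFun_eq ht e, B.intResFun_eq ht' e', B.intResFun_eq (s := s * t' + s' * t)
      (t := t * t') (by rw [map_mul]; exact mul_ne_zero ht ht')
      (by rw [map_add, map_mul, map_mul, map_mul, ← e, ← e']; push_cast; ring)]
    rw [map_add, map_mul, map_mul, map_mul, div_add_div _ _ ht ht']
    ring
  map_mul' x y := by
    obtain ⟨s, t, ht, e⟩ := x.2
    obtain ⟨s', t', ht', e'⟩ := y.2
    rw [B.intResFun_eq ht e, B.intResFun_eq ht' e', B.intResFun_eq (s := s * s')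
      (t := t * t') (by rw [map_mul]; exact mul_ne_zero ht ht')
      (by rw [map_mul, map_mul, ← e, ← e']; push_cast; ring)]
    rw [map_mul, map_mul, div_mul_div_comm]

omit [IsDomain O] in
lemma intRes_eq {x : B.intRing L} {s t : O} (ht : B.res t ≠ 0)
    (e : (x : L) * algebraMap O L t = algebraMap O L s) : B.intRes x = B.res s / B.res t :=
  B.intResFun_eq ht e

omit [IsDomain O] in
lemma intRes_algebraMap (o : O) :
    B.intRes ⟨algebraMap O L o, B.isInt_algebraMap o⟩ = B.res o := by
  rw [B.intRes_eq (s := o) (t := 1) (by rw [map_one]; exact one_ne_zero) (by simp)]; simp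

/-- The uniformizer, as an integral element. -/
noncomputable def intϖ : B.intRing L := ⟨algebraMap O L B.ϖ, B.isInt_algebraMap B.ϖ⟩

omit [IsDomain O] in
lemma intRes_ϖ : B.intRes (B.intϖ (L := L)) = 0 := by
  rw [intϖ, B.intRes_algebraMap, B.res_ϖ]

lemma isInt_iff {x : L} : B.IsInt x ↔ x = 0 ∨ 0 ≤ B.ord x := by
  constructor
  · rintro ⟨s, t, ht, e⟩
    by_cases hx : x = 0
    · exact Or.inl hx
    refine Or.inr ?_
    have htL := algebraMap_ne_zero (L := L) (B.ne_zero_of_res ht)
    have hs : s ≠ 0 := fun h0 => mul_ne_zero hx htL (by rw [e, h0, map_zero])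
    obtain ⟨m, s', t', hs', ht', e'⟩ := B.decomp s hs
    have hrep : B.IsRepr (m : ℤ) s' (t * t') x := by
      refine ⟨hs', by rw [map_mul]; exact mul_ne_zero ht ht', ?_⟩
      have ht'L := algebraMap_ne_zero (L := L) (B.ne_zero_of_res ht')
      rw [zpow_natCast, map_mul]
      field_simp
      rw [e, ← map_mul, e', map_mul, map_pow]
    rw [hrep.ord_eq]
    positivity
  · rintro (rfl | h)
    · exact (B.intRing L).zero_mem
    by_cases hx : x = 0
    · exact hx ▸ (B.intRing L).zero_mem
    obtain ⟨s, t, hs, ht, e⟩ := B.isRepr_ord hx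
    obtain ⟨n, hn⟩ := Int.eq_ofNat_of_zero_le h
    refine ⟨B.ϖ ^ n * s, t, ht, ?_⟩
    have htL := algebraMap_ne_zero (L := L) (B.ne_zero_of_res ht)
    conv_lhs => rw [e, hn]
    rw [zpow_natCast, map_mul, map_pow]
    field_simp

lemma intRes_of_ord_eq_zero {x : B.intRing L} (hx : (x : L) ≠ 0) (h : B.ord (x : L) = 0) :
    B.intRes x = B.resUnit (x : L) := by
  obtain ⟨s, t, hs, ht, e⟩ := B.isRepr_ord hx
  have hrep : B.IsRepr (B.ord (x : L)) s t (x : L) := ⟨hs, ht, e⟩
  rw [h, zpow_zero, one_mul] at e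
  have htL := algebraMap_ne_zero (L := L) (B.ne_zero_of_res ht)
  rw [B.intRes_eq ht (by rw [e]; field_simp), resUnit, hrep.sp_eq, TrivSqZeroExt.fst_mul,
    TrivSqZeroExt.fst_inv, div_eq_mul_inv]
  rfl

lemma intRes_eq_zero_iff {x : B.intRing L} :
    B.intRes x = 0 ↔ B.intϖ ∣ x := by
  constructor
  · intro h
    by_cases hx : (x : L) = 0
    · exact ⟨0, Subtype.ext (by simp [hx])⟩
    have h1 : 1 ≤ B.ord (x : L) := by
      rcases (B.isInt_iff.1 x.2).resolve_left hx |>.lt_or_eq with h0 | h0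
      · omega
      · exact absurd (B.intRes_of_ord_eq_zero hx h0.symm ▸ h) (B.resUnit_ne_zero hx)
    have hπ := algebraMap_ne_zero (L := L) B.ϖ_ne_zero
    refine ⟨⟨(x : L) * (algebraMap O L B.ϖ)⁻¹, B.isInt_iff.2 (Or.inr ?_)⟩, Subtype.ext ?_⟩
    · rw [B.ord_mul hx (inv_ne_zero hπ), B.ord_inv hπ, B.ord_ϖ]; omega
    · rw [Subring.coe_mul, intϖ]; field_simp
  · rintro ⟨y, rfl⟩
    rw [map_mul, B.intRes_ϖ, zero_mul]

/-- The order along a branch satisfies the ultrametric inequality. -/
lemma min_ord_le_ord_add {x y : L} (hx : x ≠ 0) (hy : y ≠ 0) (hxy : x + y ≠ 0) :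
    min (B.ord x) (B.ord y) ≤ B.ord (x + y) := by
  wlog h : B.ord x ≤ B.ord y generalizing x y
  · rw [min_comm, add_comm]; exact this hy hx (by rwa [add_comm]) (le_of_not_ge h)
  rw [min_eq_left h]
  have h1 : B.IsInt (1 + y * x⁻¹) := IsInt.add (by simpa using B.isInt_algebraMap (L := L) 1)
    (B.isInt_iff.2 (Or.inr (by rw [B.ord_mul hy (inv_ne_zero hx), B.ord_inv hx]; omega)))
  have e : x + y = x * (1 + y * x⁻¹) := by field_simp
  have hne : (1 + y * x⁻¹) ≠ 0 := right_ne_zero_of_mul (e ▸ hxy)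
  rw [e, B.ord_mul hx hne]
  have := (B.isInt_iff.1 h1).resolve_left hne
  omega

end Branch

end Fermat.Agent.LevelLowerP
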