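import Fermat.Agent.LevelLowerP.RegSeries
import Fermat.Agent.Gal.Residue

/-!
# Rational lifts of regular functions on the reduced curve, and bounded denominators
-/

set_option autoImplicit false

noncomputable section

namespace Fermat.Agent.LevelLowerP

open Polynomial ModularCurve IntermediateField Fermat.Agent.Igusa
open Fermat.Agent.Reduction Fermat.Agent.Reduction.Level

local notation "Qb" => AlgebraicClosure ℚ

variable (p : ℕ) [Fact p.Prime] (M : ℕ) [NeZero M]
variable (k : Type*) [Field k] [CharP k p] [IsAlgClosed k]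

omit [Fact p.Prime] [IsAlgClosed k] [NeZero M] in
theorem natCast_ne_zero_of_not_dvd (hpM : ¬ p ∣ M) : (M : k) ≠ 0 := fun h =>
  hpM ((CharP.cast_eq_zero_iff k p M).mp h)

omit [CharP k p] [IsAlgClosed k] [Fact p.Prime] in
theorem span_eq_of_linearIndependent_of_finrank {E : Type*} [AddCommGroup E] [Module k E]
    {W : Submodule k E} [FiniteDimensional k W] {n : ℕ} {r : Fin n → E} (hr : ∀ i, r i ∈ W)
    (hli : LinearIndependent k r) (hn : Module.finrank k W = n) :
    Submodule.span k (Set.range r) = W :=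
  Submodule.eq_of_le_of_finrank_eq (Submodule.span_le.mpr (by rintro _ ⟨i, rfl⟩; exact hr i))
    (by rw [finrank_span_eq_card hli, Fintype.card_fin, hn])

/-- `A` is a valuation ring over `p` and `π` a residue map compatible with `ℤ_(p) → 𝔽_p → k`. -/
structure IsPlaceRed (A : ValuationSubring Qb) (π : A →+* k) : Prop where
  surjective : Function.Surjective π
  liesOver : A.LiesOverPrime p

omit [CharP k p] in
theorem exists_placeRed [Algebra (ZMod p) k] [Algebra.IsAlgebraic (ZMod p) k] :
    ∃ (A : ValuationSubring Qb) (π : A →+* k), IsPlaceRed p k A π := by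
  have hp : p.Prime := Fact.out
  obtain ⟨A, hA⟩ := Gal.exists_liesOverPrime (L := Qb) hp
  have := Gal.charP_residueField A hp hA
  let : Algebra (ZMod p) (IsLocalRing.ResidueField A) := ZMod.algebra _ p
  have := Gal.isAlgebraic_residueField A hA
  have := Gal.isAlgClosed_residueField A
  have : IsAlgClosure (ZMod p) (IsLocalRing.ResidueField A) := ⟨inferInstance, inferInstance⟩
  have : IsAlgClosure (ZMod p) k := ⟨inferInstance, inferInstance⟩
  let e : IsLocalRing.ResidueField A ≃ₐ[ZMod p] k := IsAlgClosure.equiv (ZMod p) _ _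
  exact ⟨A, e.toRingEquiv.toRingHom.comp (IsLocalRing.residue A),
    e.surjective.comp IsLocalRing.residue_surjective, hA⟩

variable {p M k} {A : ValuationSubring Qb} {π : A →+* k} (hA : IsPlaceRed p k A π)

include hA

omit [IsAlgClosed k] [CharP k p] in
theorem algebraMap_mem_iff {q : ℚ} :
    algebraMap ℚ Qb q ∈ A ↔ q ∈ GaloisRep.ratLocalizedAt p := by
  have hp : p.Prime := Fact.out
  have hden : (q.den : Qb) * algebraMap ℚ Qb q = (q.num : Qb) := by
    rw [← map_natCast (algebraMap ℚ Qb), ← map_mul, mul_comm, Rat.mul_den_eq_num, map_intCast]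
  rw [mem_ZL_iff, Nat.coprime_comm, hp.coprime_iff_not_dvd]
  constructor
  · intro h hd
    have h1 := Gal.mul_mem_nonunits_left A
      ((Gal.natCast_mem_nonunits_iff A hp hA.liesOver q.den).mpr hd) h
    rw [hden, Gal.intCast_mem_nonunits_iff A hp hA.liesOver, Int.natCast_dvd] at h1
    exact hp.not_dvd_one (q.reduced ▸ Nat.dvd_gcd h1 hd)
  · intro hd
    have h1 := Gal.inv_mem_of_mem_of_notMem_nonunits A
      (fun h => hd ((Gal.natCast_mem_nonunits_iff A hp hA.liesOver q.den).mp h))
    rw [show algebraMap ℚ Qb q = (q.num : Qb) * (q.den : Qb)⁻¹ by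
      rw [← hden]; field_simp]
    exact mul_mem (intCast_mem A _) h1

omit [IsAlgClosed k] hA in
theorem residue_algebraMap {q : ZL p} (h : algebraMap ℚ Qb (q : ℚ) ∈ A) :
    π ⟨_, h⟩ = ZMod.castHom dvd_rfl k (red0 p q) := by
  have hden : (⟨_, h⟩ : A) * ((q : ℚ).den : A) = ((q : ℚ).num : A) := by
    refine Subtype.ext ?_
    push_cast
    rw [← map_natCast (algebraMap ℚ Qb), ← map_mul, Rat.mul_den_eq_num, map_intCast]
  have h1 := congrArg π hden
  rw [map_mul, map_natCast, map_intCast] at h1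
  have h2 : q * ((q : ℚ).den : ZL p) = ((q : ℚ).num : ZL p) := by
    refine Subtype.ext ?_
    push_cast
    exact Rat.mul_den_eq_num _
  have h3 := congrArg ((ZMod.castHom dvd_rfl k).comp (red0 p)) h2
  rw [map_mul, map_natCast, map_intCast] at h3
  have hne : (((q : ℚ).den : ℕ) : k) ≠ 0 := fun h0 =>
    den_ne_zero p q ((ZMod.natCast_eq_zero_iff _ _).mpr ((CharP.cast_eq_zero_iff k p _).mp h0))
  exact mul_right_cancel₀ hne (h1.trans h3.symm)

omit [IsAlgClosed k] in
theorem red_toQ (y : LaurentSeries (ZL p)) :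
    Red A π (coeffMap (algebraMap ℚ Qb) (toQ p y))
      (coeffMap (ZMod.castHom dvd_rfl k) (redS p y)) := fun n =>
  ⟨(algebraMap_mem_iff hA).mpr (y.coeff n).2, residue_algebraMap _⟩

omit [IsAlgClosed k] [CharP k p] in
/-- Rational series with `A`-integral coefficients come from `ℤ_(p)`. -/
theorem exists_toQ_eq {x : LaurentSeries ℚ} (h : ∀ n, algebraMap ℚ Qb (x.coeff n) ∈ A) :
    ∃ y : LaurentSeries (ZL p), toQ p y = x := by
  refine ⟨⟨fun n => ⟨x.coeff n, (algebraMap_mem_iff hA).mp (h n)⟩,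
    x.isPWO_support.mono fun n hn => ?_⟩, by ext n; rfl⟩
  simp only [Function.mem_support, ne_eq] at hn
  rw [HahnSeries.mem_support]
  exact fun h0 => hn (Subtype.ext h0)

omit [Fact (Nat.Prime p)] hA [IsAlgClosed k] in
theorem exists_piR_placeRed (hpM : ¬ p ∣ M) :
    ∃ πR : Rz M →+* A, IsPrimitiveRoot (A.subtype.comp πR (zetaR M)) M ∧
      IsPrimitiveRoot (π.comp πR (zetaR M)) M :=
  Reduction.Level.exists_piR A π M (natCast_ne_zero_of_not_dvd p M k hpM)

theorem chartRed_mem_regSeries_of_place (hpM : ¬ p ∣ M) (y : ratChart p M) :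
    chartRed p M k y ∈ regSeries k M := by
  obtain ⟨πR, hK, hk⟩ := exists_piR_placeRed (π := π) hpM
  have hy := coeffMap_mem_regSeries (algebraMap ℚ Qb) (mem_ratInt_iff.mp y.2)
  have hr := red_toQ hA (y : LaurentSeries (ZL p))
  rw [← chartRed_apply] at hr
  obtain ⟨w, hw, hwx, -⟩ :=
    exists_red_all hA.surjective πR hK hk (regFin_iff.mpr hy : RegFin ⟨_, hy.1⟩) hr
  exact hwx ▸ regFin_iff.mp hw

/-- A rational regular element can be scaled into the chart with nonzero reduction. -/
theorem exists_normalized_rat (hpM : ¬ p ∣ M) {x : LaurentSeries ℚ} (hx : x ∈ ratInt M)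
    (hx0 : x ≠ 0) :
    ∃ (c : ℚ) (y : ratChart p M), c ≠ 0 ∧ toQ p (y : LaurentSeries (ZL p)) = c • x ∧
      redS p (y : LaurentSeries (ZL p)) ≠ 0 := by
  obtain ⟨πR, hK, hk⟩ := exists_piR_placeRed (π := π) hpM
  set xb := coeffMap (algebraMap ℚ Qb) x
  have hxb := coeffMap_mem_regSeries (algebraMap ℚ Qb) (mem_ratInt_iff.mp hx)
  have hxb0 : xb ≠ 0 := fun h => hx0 (by
    ext n
    exact (algebraMap ℚ Qb).injective
      ((congrArg (fun s : LaurentSeries Qb => s.coeff n) h).trans (map_zero _).symm))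
  obtain ⟨c, hc, w, hw0, -, hred⟩ := exists_normalized hA.surjective πR hK hk
    (regFin_iff.mpr hxb : RegFin ⟨_, hxb.1⟩) (fun h => hxb0 (congrArg Subtype.val h))
  have hR : Red A π (c • xb) (w : LaurentSeries k) := by
    refine qExpand_coeff_red (N := M) ?_
    have h := hred cst0
    rw [sig_cst0_apply, sig_cst0_apply] at h
    rw [smul_eq_algebraMap_mul]
    exact h
  obtain ⟨n₀, hn₀⟩ : ∃ n, (w : LaurentSeries k).coeff n ≠ 0 := by
    by_contra hall
    push Not at hall
    exact hw0 (Subtype.ext (HahnSeries.ext (funext hall)))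
  have hv := hR.coeff_valuation_eq_one hA.surjective hn₀
  rw [coeff_smulC, coeffMap_coeff, map_mul] at hv
  have hx₀ : x.coeff n₀ ≠ 0 := fun h => by simp [h] at hv
  have hint : ∀ n, algebraMap ℚ Qb (((x.coeff n₀)⁻¹ • x).coeff n) ∈ A := fun n => by
    rw [coeff_smulC, map_mul, map_inv₀, ← ValuationSubring.valuation_le_one_iff, map_mul, map_inv₀]
    have hle := (ValuationSubring.valuation_le_one_iff A _).mpr (hR.coeff_mem n)
    rw [coeff_smulC, coeffMap_coeff, map_mul] at hle
    rw [← eq_inv_of_mul_eq_one_left hv]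
    exact hle
  obtain ⟨y, hy⟩ := exists_toQ_eq hA hint
  refine ⟨(x.coeff n₀)⁻¹, ⟨y, ?_⟩, inv_ne_zero hx₀, hy, fun h => ?_⟩
  · rw [mem_ratChart, hy, mem_ratInt_iff]
    exact Submodule.smul_mem _ _ (mem_ratInt_iff.mp hx)
  · have h1 : (toQ p y).coeff n₀ = 1 := by rw [hy, coeff_smulC, inv_mul_cancel₀ hx₀]
    have h2 : y.coeff n₀ = 1 := Subtype.ext h1
    have h3 := congrArg (fun s : LaurentSeries (ZMod p) => s.coeff n₀) h
    simp [redS, h2] at h3

/-- Reduction of a regular element, given a lift over `ℚ̄`. -/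
theorem mem_span_chartRed_of_place (hpM : ¬ p ∣ M) {y : LaurentSeries Qb}
    (hy : y ∈ regSeries Qb M) {w : LaurentSeries k} (hyw : Red A π y w) :
    w ∈ Submodule.span k (Set.range (chartRed p M k)) := by
  classical
  obtain ⟨πR, hK, hk⟩ := exists_piR_placeRed (π := π) hpM
  obtain ⟨d, z, hz, hzW, hyz⟩ := exists_ratInt_span (W := regSeries Qb M) le_rfl
    (fun σ x hx => coeffMap_mem_regSeries (σ : Qb →+* Qb) hx) hy
  set V0 := Submodule.span ℚ (Set.range fun i => (z i : LaurentSeries ℚ))
  set V := Submodule.span Qb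
    (Set.range fun i => coeffMap (algebraMap ℚ Qb) (z i : LaurentSeries ℚ))
  let A0 : ValuationSubring ℚ := A.comap (algebraMap ℚ Qb)
  let π0 : A0 →+* ZMod p := (red0 p).comp
    { toFun := fun a => (⟨(a : ℚ), (algebraMap_mem_iff hA).mp a.2⟩ : ZL p)
      map_one' := rfl
      map_mul' := fun _ _ => rfl
      map_zero' := rfl
      map_add' := fun _ _ => rfl }
  have hπ0 : Function.Surjective π0 := fun a =>
    ⟨(a.val : A0), by rw [map_natCast, ZMod.natCast_zmod_val]⟩
  have : FiniteDimensional ℚ V0 := FiniteDimensional.span_of_finite ℚ (Set.finite_range _)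
  have : FiniteDimensional Qb V := FiniteDimensional.span_of_finite Qb (Set.finite_range _)
  have hV0mem : ∀ x ∈ V0, x ∈ ratInt M := fun x hx => mem_ratInt_iff.mpr
    (Submodule.span_le.mpr (by rintro _ ⟨i, rfl⟩; exact mem_ratInt_iff.mp (z i).2) hx)
  have hV0V : ∀ x ∈ V0, coeffMap (algebraMap ℚ Qb) x ∈ V := by
    intro x hx
    induction hx using Submodule.span_induction with
    | mem a ha => obtain ⟨i, rfl⟩ := ha; exact Submodule.subset_span ⟨i, rfl⟩
    | zero => rw [map_zero]; exact zero_mem _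
    | add u v _ _ hu hv => rw [map_add]; exact add_mem hu hv
    | smul c u _ hu =>
      rw [smul_eq_algebraMap_mul, map_mul, algebraMap_laurentSeries_eq_single, coeffMap_single,
        ← algebraMap_laurentSeries_eq_single, ← smul_eq_algebraMap_mul]
      exact Submodule.smul_mem _ _ hu
  have hN0 : NormalizableSub A0 π0 V0 := by
    intro x hx hx0
    obtain ⟨c, u, hc, hu, hu0⟩ := exists_normalized_rat hA hpM (hV0mem x hx) hx0
    refine ⟨c, hc, redS p (u : LaurentSeries (ZL p)), hu0, fun n => ?_⟩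
    rw [← hu]
    exact ⟨(algebraMap_mem_iff hA).mpr ((u : LaurentSeries (ZL p)).coeff n).2, rfl⟩
  have hVreg : V ≤ regSeries Qb M := Submodule.span_le.mpr (by rintro _ ⟨i, rfl⟩; exact hzW i)
  have hN : NormalizableSub A π V := by
    intro x hx hx0
    obtain ⟨c, hc, w', hw'0, -, hred⟩ := exists_normalized hA.surjective πR hK hk
      (regFin_iff.mpr (hVreg hx) : RegFin ⟨x, (hVreg hx).1⟩)
      (fun h => hx0 (congrArg Subtype.val h))
    refine ⟨c, hc, (w' : LaurentSeries k), fun h => hw'0 (Subtype.ext h),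
      qExpand_coeff_red (N := M) ?_⟩
    have h := hred cst0
    rw [sig_cst0_apply, sig_cst0_apply] at h
    rw [smul_eq_algebraMap_mul]
    exact h
  let : Algebra (ZMod p) k := ZMod.algebra k p
  have halg : algebraMap (ZMod p) k = ZMod.castHom dvd_rfl k := Subsingleton.elim _ _
  have := (finiteDimensional_redSub hπ0 V0).1
  have := (finiteDimensional_redSub hA.surjective V).1
  let b := Module.finBasis (ZMod p) (redSub hπ0 V0)
  let r : Fin (Module.finrank (ZMod p) (redSub hπ0 V0)) → LaurentSeries k := fun i =>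
    coeffMap (algebraMap (ZMod p) k) (b i : LaurentSeries (ZMod p))
  have hrmem : ∀ i, r i ∈ Set.range (chartRed p M k) ∧ r i ∈ redSub hA.surjective V := by
    intro i
    obtain ⟨v, hv, hvred⟩ := mem_redSub.mp (b i).2
    obtain ⟨u, rfl⟩ := exists_toQ_eq hA fun n => hvred.coeff_mem n
    have hu : redS p u = (b i : LaurentSeries (ZMod p)) := HahnSeries.ext (funext fun n => by
      obtain ⟨_, h⟩ := hvred n
      exact h)
    simp only [r, halg, ← hu]
    refine ⟨⟨⟨u, hV0mem _ hv⟩, chartRed_apply p M k _⟩, mem_redSub.mpr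
      ⟨_, hV0V _ hv, red_toQ hA u⟩⟩
  have hb : LinearIndependent (ZMod p) fun i => (b i : LaurentSeries (ZMod p)) :=
    b.linearIndependent.map' (redSub hπ0 V0).subtype (Submodule.ker_subtype _)
  have hrli : LinearIndependent k r := linearIndependent_coeffMap hb
  have hd0 : Module.finrank ℚ V0 = d := by rw [finrank_span_eq_card hz, Fintype.card_fin]
  have hdV : Module.finrank Qb V = d := by
    rw [finrank_span_eq_card (linearIndependent_coeffMap hz), Fintype.card_fin]
  have hspan : Submodule.span k (Set.range r) = redSub hA.surjective V :=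
    span_eq_of_linearIndependent_of_finrank k (fun i => (hrmem i).2) hrli
      (((finrank_redSub hA.surjective V hN).trans hdV).trans
        ((finrank_redSub hπ0 V0 hN0).trans hd0).symm)
  have hw : w ∈ Submodule.span k (Set.range r) := hspan ▸ mem_redSub.mpr ⟨y, hyz, hyw⟩
  exact Submodule.span_mono (by rintro _ ⟨i, rfl⟩; exact (hrmem i).1) hw

omit hA

variable (p M k) [Algebra (ZMod p) k] [Algebra.IsAlgebraic (ZMod p) k]

/-- Reductions of the rational chart are regular on the reduced curve. -/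
theorem chartRed_regFin (hpM : ¬ p ∣ M) (y : ratChart p M) :
    ∃ w : modularFunctionFieldFullC k M, RegFin w ∧ (w : LaurentSeries k) = chartRed p M k y := by
  obtain ⟨A, π, hA⟩ := exists_placeRed p k
  have h := chartRed_mem_regSeries_of_place hA hpM y
  exact ⟨⟨_, h.1⟩, regFin_iff.mpr h, rfl⟩

/-- **Rational lifts**: regular functions on the reduced curve are spanned by reductions of the
rational chart, given lifts over `ℚ̄`. -/
theorem mem_span_chartRed (hpM : ¬ p ∣ M)
    (h : ∀ (A : ValuationSubring Qb) (π : A →+* k), Function.Surjective π → NormalLift A π M)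
    (w : modularFunctionFieldFullC k M) (hw : RegFin w) :
    (w : LaurentSeries k) ∈ Submodule.span k (Set.range (chartRed p M k)) := by
  obtain ⟨A, π, hA⟩ := exists_placeRed p k
  obtain ⟨y, hy, hred⟩ := h A π hA.surjective w hw
  exact mem_span_chartRed_of_place hA hpM (regFin_iff.mp hy) hred

omit [IsAlgClosed k] [Algebra (ZMod p) k] [Algebra.IsAlgebraic (ZMod p) k] in
/-- **Bounded denominators** in the rational chart. -/
theorem exists_pow_mul_mem (hpM : ¬ p ∣ M) {x : LaurentSeries ℚ} (hx : x ∈ ratInt M) :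
    ∃ (s : ℕ) (y : ratChart p M),
      toQ p (y : LaurentSeries (ZL p)) = (p : LaurentSeries ℚ) ^ s * x := by
  rcases eq_or_ne x 0 with rfl | hx0
  · exact ⟨0, 0, by simp⟩
  obtain ⟨A, π, hA⟩ := exists_placeRed p (AlgebraicClosure (ZMod p))
  obtain ⟨c, y, hc, hy, -⟩ := exists_normalized_rat hA hpM hx hx0
  have hp : p.Prime := Fact.out
  obtain ⟨s, m, hm, hsm⟩ :=
    Nat.exists_eq_pow_mul_and_not_dvd (c⁻¹).den_nz p hp.ne_one
  have hq : (p : ℚ) ^ s * c⁻¹ ∈ GaloisRep.ratLocalizedAt p := by
    have e : (p : ℚ) ^ s * c⁻¹ = Rat.divInt (c⁻¹).num (m : ℤ) := by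
      rw [Rat.divInt_eq_div]
      conv_lhs => rw [← Rat.num_div_den c⁻¹, hsm]
      push_cast
      rw [← mul_div_assoc]
      exact mul_div_mul_left _ _ (pow_ne_zero _ (by exact_mod_cast hp.ne_zero))
    rw [mem_ZL_iff, e]
    exact Nat.Coprime.coprime_dvd_left (Int.natCast_dvd_natCast.mp (Rat.den_dvd _ _))
      ((hp.coprime_iff_not_dvd.mpr hm).symm)
  let C' : LaurentSeries (ZL p) := HahnSeries.C ⟨_, hq⟩
  have hC : toQ p C' = algebraMap ℚ (LaurentSeries ℚ) ((p : ℚ) ^ s * c⁻¹) := by
    rw [algebraMap_laurentSeries_eq_single]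
    exact coeffMap_single _ _ _
  have hC' : C' ∈ ratChart p M := by
    rw [mem_ratChart, hC, mem_ratInt_iff]
    simpa [smul_eq_algebraMap_mul] using
      Submodule.smul_mem (regSeries ℚ M) ((p : ℚ) ^ s * c⁻¹) (mem_ratInt_iff.mp (one_mem _))
  refine ⟨s, ⟨C', hC'⟩ * y, ?_⟩
  rw [Subring.coe_mul, map_mul, hC, hy, smul_eq_algebraMap_mul, ← mul_assoc, ← map_mul,
      mul_assoc, inv_mul_cancel₀ hc, mul_one, map_pow, map_natCast]

end Fermat.Agent.LevelLowerP
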