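import Fermat.Agent.LevelLowerP.GeoGen
import Fermat.Agent.LevelLowerP.GeoDescent
import Fermat.Agent.Kummer.NormSeries
import Fermat.Agent.Reduction.Level.Setup
import Mathlib.LinearAlgebra.Matrix.Charpoly.Eigs
import Mathlib.LinearAlgebra.Lagrange
import Mathlib.FieldTheory.IsAlgClosed.AlgebraicClosure

/-!
# The equation of `y(pτ)` over level `M` with coefficients in the rational chart

`(X - y(q ^ p)) * charpoly (y(t))`, `t ^ p = q`, is congruent to `(X - y ^ p) (X ^ p - y)` modulo
`p` and has coefficients in the chart.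
-/

set_option autoImplicit false

noncomputable section

namespace Fermat.Agent.LevelLowerP

open Polynomial ModularCurve Fermat.Agent.Igusa AlgebraicCurve
open Fermat.Agent.Reduction Fermat.Agent.Reduction.Level
open scoped LaurentSeries

local notation "Qb" => AlgebraicClosure ℚ

section Series

variable {A B : Type*} [CommRing A] [CommRing B] (p : ℕ) [NeZero p]

/-- The monic polynomial with roots `g(q ^ p)` and the conjugates of `g(t)`. -/
def cPoly (g : LaurentSeries A) : (LaurentSeries A)[X] :=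
  (X - C (qExpand A p g)) * (seriesMat p g).charpoly

theorem cPoly_monic (g : LaurentSeries A) : (cPoly p g).Monic :=
  (monic_X_sub_C _).mul (Matrix.charpoly_monic _)

theorem cPoly_natDegree [Nontrivial A] (g : LaurentSeries A) :
    (cPoly p g).natDegree = p + 1 := by
  rw [cPoly, (monic_X_sub_C _).natDegree_mul (Matrix.charpoly_monic _), natDegree_X_sub_C,
    Matrix.charpoly_natDegree_eq_dim, Fintype.card_fin, add_comm]

theorem cPoly_map (f : A →+* B) (g : LaurentSeries A) :
    (cPoly p g).map (coeffMap f) = cPoly p (coeffMap f g) := by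
  rw [cPoly, cPoly, Polynomial.map_mul, Polynomial.map_sub, Polynomial.map_X, Polynomial.map_C,
    coeffMap_qExpand, ← Matrix.charpoly_map]
  congr 2

theorem cPoly_eval_self (g : LaurentSeries A) : (cPoly p g).eval (qExpand A p g) = 0 := by
  simp [cPoly]

theorem cPoly_eval_C (g : LaurentSeries A) (c : A) :
    (cPoly p g).eval (HahnSeries.C c) =
      qExpand A p (HahnSeries.C c - g) * seriesNorm p (HahnSeries.C c - g) := by
  rw [cPoly, eval_mul, eval_sub, eval_X, eval_C, Matrix.eval_charpoly, map_sub, qExpand_C,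
    seriesNorm]
  congr 2
  have h := map_sub (seriesMatHom p) (HahnSeries.C c : LaurentSeries A) g
  simp only [seriesMatHom_apply] at h
  rw [h, ← qExpand_C p c, seriesMat_qExpand, qExpand_C, Matrix.smul_one_eq_diagonal]
  rfl

end Series

/-- A matrix over a domain of characteristic `p` whose `p`-th power is scalar. -/
theorem charpoly_eq_of_pow_eq_smul {R : Type*} [CommRing R] [IsDomain R] {p : ℕ} [Fact p.Prime]
    [CharP R p] (M : Matrix (Fin p) (Fin p) R) {y : R} (h : M ^ p = y • 1) :
    M.charpoly = X ^ p - C y := by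
  refine frobenius_inj R[X] p ?_
  simp only [frobenius_def]
  rw [Matrix.charpoly, ← Matrix.det_pow, Matrix.charmatrix,
    sub_pow_char_of_commute _ (Matrix.scalar_commute _ (Commute.all _) _), ← map_pow,
    show (C : R →+* R[X]).mapMatrix M ^ p = Matrix.scalar (Fin p) (C y) by
      rw [← map_pow, h, Matrix.smul_one_eq_diagonal]
      ext i j
      simp [Matrix.diagonal_apply, apply_ite C],
    ← map_sub, Matrix.scalar_apply, Matrix.det_diagonal, Finset.prod_const, Finset.card_univ,
    Fintype.card_fin]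

theorem cPoly_charP {p : ℕ} [Fact p.Prime] (g : LaurentSeries (ZMod p)) :
    cPoly p g = (X - C (g ^ p)) * (X ^ p - C g) := by
  have : CharP (LaurentSeries (ZMod p)) p :=
    charP_of_injective_ringHom (HahnSeries.C_injective) p
  rw [cPoly, qExpand_eq_pow]
  congr 1
  refine charpoly_eq_of_pow_eq_smul _ ?_
  rw [← seriesMat_qExpand, qExpand_eq_pow]
  exact (map_pow (seriesMatHom p) g p).symm

/-- Values at enough constants determine the field of coefficients. -/
theorem coeff_mem_of_eval_mem {E : Type*} [Field E] [CharZero E] (S : Subfield E) {P : E[X]} {n : ℕ}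
    (hn : P.natDegree < n) (h : ∀ c : ℕ, P.eval (c : E) ∈ S) (l : ℕ) : P.coeff l ∈ S := by
  classical
  let Q : S[X] := Lagrange.interpolate (Finset.range n) (fun i => (i : S)) fun i => ⟨_, h i⟩
  have hinj : Set.InjOn (fun i : ℕ => (i : S)) (Finset.range n : Set ℕ) := fun a _ b _ hab => by
    simpa using congrArg Subtype.val hab
  have hinjE : Set.InjOn (fun i : ℕ => (i : E)) (Finset.range n : Set ℕ) :=
    fun a _ b _ hab => by simpa using hab
  have hQ : P = Q.map S.subtype := by
    refine Polynomial.eq_of_degrees_lt_of_eval_index_eq _ hinjE ?_ ?_ fun i hi => ?_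
    · rw [Finset.card_range]
      exact (Polynomial.degree_le_natDegree).trans_lt (by exact_mod_cast hn)
    · rw [Polynomial.degree_map]
      exact Lagrange.degree_interpolate_lt _ hinj
    · show P.eval ((i : E)) = (Q.map S.subtype).eval (i : E)
      rw [← map_natCast S.subtype i, Polynomial.eval_map, Polynomial.eval₂_at_apply,
        Lagrange.eval_interpolate_at_node _ hinj hi, map_natCast]
      rfl
  rw [hQ, Polynomial.coeff_map]
  exact (Q.coeff l).2

/-- Integrality is transitive through a change of coordinate. -/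
theorem isIntegralElem_trans_coord {L : Type*} [CommRing L] {f g : ℚ[X] →+* L}
    (hC : ∀ a : ℚ, g (C a) = f (C a)) (hX : f.IsIntegralElem (g X)) {x : L}
    (hx : g.IsIntegralElem x) : f.IsIntegralElem x := by
  let : Algebra ℚ[X] L := f.toAlgebra
  have hg : ∀ q, g q ∈ integralClosure ℚ[X] L := fun q => by
    induction q using Polynomial.induction_on' with
    | add a b ha hb => rw [map_add]; exact add_mem ha hb
    | monomial i a =>
      rw [← C_mul_X_pow_eq_monomial, map_mul, map_pow, hC]
      exact mul_mem ((integralClosure ℚ[X] L).algebraMap_mem (C a)) (pow_mem (show g X ∈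
        integralClosure ℚ[X] L from hX) i)
  obtain ⟨P, hP, hPx⟩ := hx
  have h1 : IsIntegral (integralClosure ℚ[X] L) x := by
    refine ⟨P.map (g.codRestrict (integralClosure ℚ[X] L) hg), hP.map _, ?_⟩
    rw [eval₂_map]
    exact hPx
  exact isIntegral_trans x h1

variable (p : ℕ) [Fact p.Prime]

/-- `j(q ^ p)` is integral over `ℚ[j]`. -/
theorem isIntegralElem_jp : (evq ℚ).IsIntegralElem (qExpand ℚ p (jqModC ℚ)) := by
  obtain ⟨hkm, -, -, -⟩ := (exists_kronecker p).choose_spec
  refine ⟨(kQ p).map (mapRingHom (Int.castRingHom ℚ)), hkm.map _, ?_⟩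
  have h := congrArg (SubringClass.subtype (modularFunctionFieldFullC ℚ (1 * p)))
    (kQ_eval₂_eq_zero ℚ 1 p)
  rw [map_zero, Polynomial.hom_eval₂] at h
  rw [eval₂_map, ← h]
  show _ = (kQ p).eval₂ _ (Subtype.val (scaleP 1 p (jC ℚ 1)))
  rw [coe_jpC]
  refine congrArg (fun φ => (kQ p).eval₂ φ _) (Polynomial.ringHom_ext (fun c => by simp) ?_)
  simp [evq, coe_jC_M]

/-- `j` is integral over `ℚ[j(q ^ p)]`. -/
theorem isIntegralElem_j : ((qExpand ℚ p).comp (evq ℚ)).IsIntegralElem (jqModC ℚ) := by
  obtain ⟨hkm, -, -, -⟩ := (exists_kronecker p).choose_spec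
  refine ⟨(kQ p).map (mapRingHom (Int.castRingHom ℚ)), hkm.map _, ?_⟩
  have hp1 : ¬ p ∣ 1 := (Fact.out : p.Prime).not_dvd_one
  have h := congrArg (fun x => Subtype.val (wAL ℚ 1 p hp1 x)) (kQ_eval₂_eq_zero ℚ 1 p)
  change ((SubringClass.subtype (modularFunctionFieldFullC ℚ (1 * p))).comp (wAL ℚ 1 p hp1))
    (evKQ ℚ 1 p (kQ p)) = ((SubringClass.subtype (modularFunctionFieldFullC ℚ (1 * p))).comp
    (wAL ℚ 1 p hp1)) 0 at h
  rw [map_zero, Polynomial.hom_eval₂] at h
  rw [eval₂_map, ← h]
  show _ = (kQ p).eval₂ _ (Subtype.val (wAL ℚ 1 p hp1 (scaleP 1 p (jC ℚ 1))))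
  rw [wAL_scaleP, coe_jC_M]
  refine congrArg (fun φ => (kQ p).eval₂ φ _) (Polynomial.ringHom_ext (fun c => by simp) ?_)
  simp [evq, wAL_inclP, coe_jpC]

/-- The coefficients of the equation are integral over `ℚ[j]`. -/
theorem isIntegralElem_coeff_cPoly {g : LaurentSeries ℚ} (hg : (evq ℚ).IsIntegralElem g) (l : ℕ) :
    (evq ℚ).IsIntegralElem ((cPoly p g).coeff l) := by
  classical
  set f := (qExpand ℚ p).comp (evq ℚ)
  have hC : ∀ a : ℚ, f (C a) = evq ℚ (C a) := fun a => by
    simp [f, evq]
  have h1 : (evq ℚ).IsIntegralElem (qExpand ℚ p g) := by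
    refine isIntegralElem_trans_coord hC (by simpa [f, evq] using isIntegralElem_jp p) ?_
    obtain ⟨P, hP, hPg⟩ := hg
    refine ⟨P, hP, ?_⟩
    rw [← Polynomial.hom_eval₂, hPg, map_zero]
  have h2 : f.IsIntegralElem g := isIntegralElem_trans_coord (fun a => (hC a).symm)
    (by rw [show evq ℚ X = jqModC ℚ by simp [evq]]; exact isIntegralElem_j p) hg
  obtain ⟨r, hr, hrg⟩ := h2
  let Ω := AlgebraicClosure (LaurentSeries ℚ)
  let ι : LaurentSeries ℚ →+* Ω := algebraMap _ _
  set MΩ : Matrix (Fin p) (Fin p) Ω := (seriesMat p g).map ι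
  let : Algebra ℚ[X] Ω := (ι.comp (evq ℚ)).toAlgebra
  have hzero : aeval MΩ (r.map (ι.comp (evq ℚ))) = 0 := by
    have h := congrArg (fun x => ι.mapMatrix (seriesMatHom p x)) hrg
    simp only [map_zero] at h
    rw [aeval_def, eval₂_map]
    refine Eq.trans ?_ h
    rw [Polynomial.hom_eval₂, Polynomial.hom_eval₂]
    refine congrArg (fun φ => r.eval₂ φ MΩ) (RingHom.ext fun q => ?_)
    simp [f, seriesMat_qExpand, Algebra.algebraMap_eq_smul_one, Matrix.map_smul',
      ← Matrix.diagonal_one]
  have hroot : ∀ a ∈ MΩ.charpoly.roots, a ∈ integralClosure ℚ[X] Ω := by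
    intro a ha
    have h1 : a ∈ spectrum Ω MΩ :=
      Matrix.mem_spectrum_iff_isRoot_charpoly.mpr (isRoot_of_mem_roots ha)
    have h2 := spectrum.subset_polynomial_aeval MΩ (r.map (ι.comp (evq ℚ))) ⟨a, h1, rfl⟩
    rw [hzero, spectrum.zero_eq, Set.mem_singleton_iff] at h2
    refine ⟨r, hr, ?_⟩
    rw [← eval_map]
    exact h2
  have hlifts : (cPoly p g).map ι ∈
      Polynomial.lifts (integralClosure ℚ[X] Ω).toSubring.subtype := by
    rw [cPoly, Polynomial.map_mul, Polynomial.map_sub, Polynomial.map_X, Polynomial.map_C,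
      ← Matrix.charpoly_map,
      (IsAlgClosed.splits _).eq_prod_roots_of_monic (Matrix.charpoly_monic MΩ)]
    have hlin : ∀ a ∈ integralClosure ℚ[X] Ω,
        X - C a ∈ Polynomial.lifts (integralClosure ℚ[X] Ω).toSubring.subtype := fun a ha =>
      ⟨X - C (⟨a, ha⟩ : (integralClosure ℚ[X] Ω).toSubring), by
        rw [coe_mapRingHom, Polynomial.map_sub, Polynomial.map_X, Polynomial.map_C]; rfl⟩
    refine mul_mem (hlin _ ?_) (multiset_prod_mem _ fun q hq => ?_)
    · obtain ⟨P, hP, hPg⟩ := h1
      exact ⟨P, hP, by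
        show P.eval₂ (ι.comp (evq ℚ)) (ι _) = 0
        rw [← Polynomial.hom_eval₂, hPg, map_zero]⟩
    · obtain ⟨a, ha, rfl⟩ := Multiset.mem_map.mp hq
      exact hlin a (hroot a ha)
  obtain ⟨⟨c, hc⟩, hc'⟩ := (Polynomial.lifts_iff_coeff_lifts _).mp hlifts l
  rw [coeff_map] at hc'
  obtain ⟨P, hP, hPc⟩ := hc
  refine ⟨P, hP, ι.injective ?_⟩
  rw [map_zero, Polynomial.hom_eval₂, ← hPc]
  exact congrArg (P.eval₂ _) hc'.symm

variable (M : ℕ) [NeZero M]

/-- The coefficients of the equation lie in the function field. -/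
theorem coeff_cPoly_mem_full (hpM : ¬ p ∣ M) {g : LaurentSeries ℚ}
    (hg : g ∈ modularFunctionFieldFullC ℚ M) (l : ℕ) :
    (cPoly p g).coeff l ∈ modularFunctionFieldFull M := by
  refine mem_full_of_coeffMap_mem (L := Qb) ?_
  rw [← Polynomial.coeff_map, cPoly_map]
  have hbar := modularFunctionFieldBar_eq_fullC (N := M)
  have hmem : coeffMap (algebraMap ℚ Qb) g ∈ modularFunctionFieldBar M :=
    hbar ▸ coeffMap_mem_fullC _ hg
  have : CharZero (LaurentSeries Qb) := charZero_of_injective_ringHom HahnSeries.C_injective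
  refine coeff_mem_of_eval_mem (modularFunctionFieldFullC Qb M).toSubfield
    (n := p + 2) (by rw [cPoly_natDegree]; omega) (fun c => ?_) l
  rw [← map_natCast (HahnSeries.C : Qb →+* LaurentSeries Qb), cPoly_eval_C, map_natCast]
  set u : modularFunctionFieldBar M :=
    (c : modularFunctionFieldBar M) - ⟨_, hmem⟩
  have hu : ((u : modularFunctionFieldBar M) : LaurentSeries Qb) =
      (c : LaurentSeries Qb) - coeffMap (algebraMap ℚ Qb) g := by
    simp [u]
  rw [← hu]
  rcases eq_or_ne u 0 with h0 | h0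
  · rw [h0, ZeroMemClass.coe_zero, map_zero, zero_mul]
    exact zero_mem _
  obtain ⟨u', -, hu', -⟩ := Kummer.exists_norm_lift (ℓ := p) hpM h0
  rw [← hu']
  exact hbar ▸ u'.2

/-- **The equation of `y(pτ)`** with Kronecker's congruence. -/
theorem exists_charPoly_mod (hpM : ¬ p ∣ M) (y : ratChart p M) :
    ∃ P G : (ratChart p M)[X], P.Monic ∧ P.natDegree = p + 1 ∧
      P.eval₂ (ratChart p M).subtype (qExpand (ZL p) p (y : LaurentSeries (ZL p))) = 0 ∧
      P = (X - C (y ^ p)) * (X ^ p - C y) + C (p : ratChart p M) * G := by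
  set Y : LaurentSeries (ZL p) := (y : LaurentSeries (ZL p))
  have hy := (mem_ratInt M).mp (mem_ratChart p M |>.mp y.2)
  have hmem : ∀ l, (cPoly p Y).coeff l ∈ ratChart p M := fun l => by
    rw [mem_ratChart, ← coeff_map, toQ, cPoly_map, mem_ratInt]
    exact ⟨coeff_cPoly_mem_full p M hpM (modularFunctionFieldFullC_rat M ▸ hy.1) l,
      isIntegralElem_coeff_cPoly p hy.2 l⟩
  obtain ⟨P, (hP : P.map (ratChart p M).subtype = cPoly p Y),
    (hPd : P.natDegree = (cPoly p Y).natDegree), hPm⟩ := Polynomial.lifts_and_natDegree_eq_and_monic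
    ((Polynomial.lifts_iff_coeff_lifts (f := (ratChart p M).subtype) _).mpr
      fun l => ⟨⟨_, hmem l⟩, rfl⟩) (cPoly_monic p Y)
  have hdvd : C (p : ratChart p M) ∣ P - (X - C (y ^ p)) * (X ^ p - C y) := by
    set D := P - (X - C (y ^ p)) * (X ^ p - C y)
    rw [C_dvd_iff_dvd_coeff]
    intro l
    have hred : redS p ((D.coeff l : ratChart p M) : LaurentSeries (ZL p)) = 0 := by
      have h : D.map ((redS p).comp (ratChart p M).subtype) = 0 := by
        rw [Polynomial.map_sub, ← Polynomial.map_map, hP, redS, cPoly_map, cPoly_charP]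
        simp [Y]
      have h' := congrArg (fun Q => Q.coeff l) h
      simpa using h'
    choose a ha using fun n => (red0_eq_zero_iff p).mp (by
      simpa [redS] using congrArg (fun s : LaurentSeries (ZMod p) => s.coeff n) hred :
        red0 p (((D.coeff l : ratChart p M) : LaurentSeries (ZL p)).coeff n) = 0)
    let s : LaurentSeries (ZL p) := ⟨a, ((D.coeff l : ratChart p M) :
        LaurentSeries (ZL p)).isPWO_support.mono fun n hn => by
      simp only [Function.mem_support, ne_eq] at hn
      rw [HahnSeries.mem_support, ha]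
      exact mul_ne_zero (natCast_prime_ZL p).ne_zero hn⟩
    have hs : ((D.coeff l : ratChart p M) : LaurentSeries (ZL p)) =
        (p : LaurentSeries (ZL p)) * s := by
      ext n
      rw [← map_natCast (HahnSeries.C : ZL p →+* LaurentSeries (ZL p)), HahnSeries.C_apply,
        HahnSeries.coeff_single_zero_mul, ha]
    have hsmem : s ∈ ratChart p M := by
      rw [mem_ratChart, mem_ratInt_iff]
      have h := Submodule.smul_mem (regSeries ℚ M) ((p : ℚ)⁻¹)
        (mem_ratInt_iff.mp (mem_ratChart p M |>.mp (D.coeff l).2))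
      rwa [hs, map_mul, map_natCast, smul_eq_algebraMap_mul, ← mul_assoc, map_inv₀, map_natCast,
        inv_mul_cancel₀ (natCast_laurent_ne_zero (NeZero.ne p)), one_mul] at h
    exact ⟨⟨s, hsmem⟩, Subtype.ext (by push_cast; exact hs)⟩
  obtain ⟨G, hG⟩ := hdvd
  refine ⟨P, G, hPm, hPd.trans (cPoly_natDegree p Y), ?_, by rw [← hG, add_sub_cancel]⟩
  rw [← eval_map, hP]
  exact cPoly_eval_self p Y

end Fermat.Agent.LevelLowerP
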