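import Fermat.Agent.LevelLowerP.Transfer
import Fermat.Agent.FF.Along
import Fermat.Agent.Cosets.Psi

/-!
# Descent to a lower level

Descent along the inclusion of the function field of a lower level, for extensions of degree prime
to `p`: orders divisible by `p` upstairs are divisible by `p` downstairs.

Main results: `dvd_ord_descend`, `not_dvd_finrankAlong`.
-/

set_option autoImplicit false

noncomputable section

namespace Fermat.Agent.LevelLowerP

open AlgebraicCurve ModularCurve Fermat.Agent.Igusa

section Along

variable {K F F' : Type*} [Field K] [IsAlgClosed K] [Field F] [Field F'] [Algebra K F]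
  [Algebra K F'] [FF.IsFunctionField K F] [FF.IsFunctionField K F']

/-- Orders divisible by `p` upstairs are so downstairs. -/
theorem dvd_ord_descend (φ : F →ₐ[K] F') {p : ℕ} (hp : p.Prime) (hd : ¬ p ∣ finrankAlong K φ)
    {u : F} (h : ∀ w : Place K F', (p : ℤ) ∣ w.ord (φ u)) (v : Place K F) : (p : ℤ) ∣ v.ord u := by
  let _ := algebraAlong φ
  have := isScalarTower_along φ
  have : Module.Finite F F' := FF.finiteAlong φ
  have h1 : (p : ℤ) ∣ (Module.finrank F F' : ℤ) * v.ord u := by
    rw [← FF.sum_ramificationIndex (F' := F') v]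
    push_cast
    rw [Finset.sum_mul]
    refine Finset.dvd_sum fun w hw => ?_
    have h2 := h w
    rwa [show φ u = algebraMap F F' u from rfl, w.ord_restrict, Place.mem_fiber.mp hw] at h2
  exact (Int.Prime.dvd_mul' hp h1).resolve_left fun e => hd (by exact_mod_cast e)

end Along

section Level

variable (K : Type*) [Field K] [IsAlgClosed K] {N N' : ℕ} [NeZero N] [NeZero N']

/-- The inclusion in a higher level, over the constants. -/
def levelAlg (h : N ∣ N') :
    modularFunctionFieldFullC K N →ₐ[K] modularFunctionFieldFullC K N' :=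
  { levelIncl h with commutes' := levelIncl_algebraMap h }

omit [IsAlgClosed K] in
theorem levelAlg_apply (h : N ∣ N') (x : modularFunctionFieldFullC K N) :
    levelAlg K h x = levelIncl h x := rfl

omit [IsAlgClosed K] in
theorem levelIncl_jC (h : N ∣ N') : levelIncl h (jC K N) = jC K N' :=
  Subtype.ext (by rw [coe_levelIncl, coe_jC', coe_jC'])

/-- The degree is the quotient of the indices. -/
theorem finrankAlong_levelAlg (hN' : (N' : K) ≠ 0) (h : N ∣ N') :
    finrankAlong K (levelAlg K h) * dedekindPsi N = dedekindPsi N' := by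
  have hN : (N : K) ≠ 0 := fun e => hN' (by
    obtain ⟨c, rfl⟩ := h
    rw [Nat.cast_mul, e, zero_mul])
  have := FF.isFunctionField_fullC K N hN
  have := FF.isFunctionField_fullC K N' hN'
  have h1 := FF.degree_poleDiv_along (levelAlg K h) (FF.transcendental_jC K N)
  rw [levelAlg_apply, levelIncl_jC, FF.degree_poleDiv (FF.transcendental_jC K N'),
    FF.degree_poleDiv (FF.transcendental_jC K N)] at h1
  rw [← finrank_fullC_eq_dedekindPsi N hN, ← finrank_fullC_eq_dedekindPsi N' hN']
  exact_mod_cast h1.symm

/-- The degree of adding a prime not dividing the level. -/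
theorem not_dvd_finrankAlong {p q : ℕ} (hN' : (N' : K) ≠ 0) (hq : q.Prime) (hqN : ¬ q ∣ N)
    (hN'q : N' = N * q) (hpq : ¬ p ∣ q + 1) (h : N ∣ N') :
    ¬ p ∣ finrankAlong K (levelAlg K h) := by
  have h1 := finrankAlong_levelAlg K hN' h
  have h2 : dedekindPsi N' = (q + 1) * dedekindPsi N := by
    rw [hN'q, Cosets.dedekindPsi_mul ((hq.coprime_iff_not_dvd.mpr hqN).symm), mul_comm]
    congr 1
    simpa using Cosets.dedekindPsi_prime_pow hq 0
  rwa [Nat.eq_of_mul_eq_mul_right (Cosets.dedekindPsi_pos (NeZero.ne N)) (h1.trans h2)]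

end Level

end Fermat.Agent.LevelLowerP
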