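import Fermat.Agent.LevelLowerP.GeoNodeAux
import Fermat.Agent.LevelLowerP.LevelDescend
import Fermat.Agent.LevelLowerP.GeoCharPoly

/-!
# Characteristic three: `j = 1/Δ`, `θ j = -j`, and a bound for the different of the `j`-line

With a uniformizer `h` at a finite place and `d = (h³ - h(q³))/3`, differentiating gives
`(T³ - θ d) (θ J)² = J² T³` in the expansion, so `ord θ J ≤ ord J + 2`. Hence at a place where
`3 ∣ ord j` nothing above has ramification index divisible by three.
-/

set_option autoImplicit false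

noncomputable section

namespace Fermat.Agent.LevelLowerP

open Polynomial ModularCurve AlgebraicCurve Fermat.Agent.Igusa Fermat.Agent.FF
open scoped LaurentSeries PowerSeries

/-- In characteristic three `j` is the inverse of `Δ`. -/
theorem jqModC_eq_deltaInvR (K : Type*) [CommRing K] [CharP K 3] : jqModC K = deltaInvR K := by
  have h4 : eisenstein4.map (Int.castRingHom K) = 1 := by
    ext n
    rw [PowerSeries.coeff_map, eisenstein4, PowerSeries.coeff_mk, PowerSeries.coeff_one]
    rcases eq_or_ne n 0 with rfl | hn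
    · simp
    · have h240 : ((240 : ℤ) : K) = 0 := (CharP.intCast_eq_zero_iff K 3 240).2 (by norm_num)
      rw [if_neg hn, if_neg hn, eq_intCast, Int.cast_mul, h240, zero_mul]
  rw [jqModC, deltaInvR, jNum, map_mul, map_pow, h4, one_pow, one_mul]

/-- In characteristic three `θ j = -j`. -/
theorem theta_jqModC_eq_neg (K : Type*) [Field K] [CharP K 3] :
    theta K (jqModC K) = -jqModC K := by
  have : CharP (LaurentSeries K) 3 := charP_of_injective_ringHom HahnSeries.C_injective 3
  have h1728 : (1728 : K) = 0 := by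
    have := (CharP.cast_eq_zero_iff K 3 1728).2 (by norm_num)
    simpa using this
  have h6 := theta_jqModC_pow_six K
  rw [h1728, map_zero, sub_zero, mul_assoc, ← pow_add, show 4 + 3 = 1 + 6 from rfl, pow_add,
    pow_one, ← mul_assoc, jqModC_eq_deltaInvR, deltaR_mul_deltaInvR, one_mul,
    ← jqModC_eq_deltaInvR] at h6
  have hsq : theta K (jqModC K) ^ 2 = jqModC K ^ 2 := by
    have h0 : (theta K (jqModC K) ^ 2 - jqModC K ^ 2) ^ 3 = 0 := by
      rw [sub_pow_char, ← pow_mul, ← pow_mul, h6, sub_self]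
    exact sub_eq_zero.1 (pow_eq_zero_iff (by norm_num) |>.1 h0)
  rcases sq_eq_sq_iff_eq_or_eq_neg.1 hsq with h | h
  · exfalso
    have hc := congrArg (fun s : LaurentSeries K => s.coeff (-1)) h
    rw [theta_jqModC_coeff_neg_one, ModularCurve.coeff_jqModC_neg_one] at hc
    have h2 : ((2 : ℕ) : K) = 0 := by push_cast; linear_combination -hc
    exact absurd ((CharP.cast_eq_zero_iff K 3 2).1 h2) (by norm_num)
  · exact h

variable {p : ℕ} {R k : Type} [CommRing R] [IsDomain R] [IsDiscreteValuationRing R] [Field k]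
  [CharP k p] [Fact p.Prime] [CharZero R] {S : Setup p R k} (U : Unram S) (M : ℕ) [NeZero M]
  [IsAlgClosed k] [Algebra (ZMod p) k] [Algebra.IsAlgebraic (ZMod p) k] (hpM : ¬ p ∣ M)
  (v : Place k (modularFunctionFieldFullC k M)) (hv : 0 ≤ v.ord (jC k M))

/-- The uniformizer at the point on the reduced curve. -/
abbrev unifPt : modularFunctionFieldFullC k M :=
  redA U M hpM (chartHom U M (hRat U M hpM v hv))

/-- `d` with `θ d = h^(p-1) θ h - (θ h)^p` and at most a simple pole at the point. -/
theorem exists_delta : ∃ d : modularFunctionFieldFullC k M,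
    IsPow (HahnSeries.single (1 : ℤ) (1 : k) * ePt U M hpM v hv d) ∧
      theta k (d : LaurentSeries k) =
        (unifPt U M hpM v hv : LaurentSeries k) ^ (p - 1) *
            theta k (unifPt U M hpM v hv : LaurentSeries k) -
          theta k (unifPt U M hpM v hv : LaurentSeries k) ^ p := by
  set y := hRat U M hpM v hv with hy
  obtain ⟨P, G, -, -, hP, hPG⟩ := exists_charPoly_mod p M hpM y
  set Y : LaurentSeries (ZL p) := (y : LaurentSeries (ZL p))
  let χ : LaurentSeries (ZL p) →+* LaurentSeries k :=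
    (coeffMap (ZMod.castHom dvd_rfl k)).comp (redS p)
  have hχ : ∀ u : ratChart p M, χ (u : LaurentSeries (ZL p)) =
      Subtype.val (redA U M hpM (chartHom U M u)) := fun u => by
    rw [chartHom_apply, coe_redA_chartOf, chartRed_apply]
    rfl
  have hred : redS p (Y ^ p - qExpand (ZL p) p Y) = 0 := by
    rw [map_sub, map_pow, redS, coeffMap_qExpand, qExpand_eq_pow, sub_self]
  obtain ⟨D, hD⟩ : ∃ D : LaurentSeries (ZL p),
      (p : LaurentSeries (ZL p)) * D = Y ^ p - qExpand (ZL p) p Y := by
    have hd : ∀ n, (p : ZL p) ∣ (Y ^ p - qExpand (ZL p) p Y).coeff n := fun n =>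
      (red0_eq_zero_iff p).1 (by
        have h' := congrArg (fun s : LaurentSeries (ZMod p) => s.coeff n) hred
        simp only [redS, coeffMap_coeff, HahnSeries.coeff_zero] at h'
        exact h')
    choose a ha using hd
    refine ⟨⟨a, (Y ^ p - qExpand (ZL p) p Y).isPWO_support.mono fun n hn => ?_⟩, ?_⟩
    · simp only [Function.mem_support, ne_eq] at hn
      rw [HahnSeries.mem_support, ha]
      exact mul_ne_zero (natCast_prime_ZL p).ne_zero hn
    · ext n
      rw [← map_natCast (HahnSeries.C : ZL p →+* LaurentSeries (ZL p)), HahnSeries.C_apply,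
        HahnSeries.coeff_single_zero_mul, ha]
  set Q := qExpand (ZL p) p Y
  have hG : G.eval₂ (ratChart p M).subtype Q = D * (Q ^ p - Y) := by
    rw [hPG] at hP
    simp only [eval₂_add, eval₂_mul, eval₂_sub, eval₂_X, eval₂_C, eval₂_X_pow] at hP
    rw [map_natCast, map_pow] at hP
    refine toQ_injective p (mul_left_cancel₀ (Igusa.natCast_laurent_ne_zero p) ?_)
    rw [← map_natCast (toQ p), ← map_mul, ← map_mul]
    congr 1
    change (Q - Y ^ p) * (Q ^ p - Y) + _ = 0 at hP
    linear_combination hP + (Q ^ p - Y) * hD.symm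
  set hκ := redA U M hpM (chartHom U M y) with hhκ
  set N := redA U M hpM (chartHom U M (G.eval (y ^ p))) with hN
  have hQ : χ Q = Subtype.val (hκ ^ p) := by
    rw [SubmonoidClass.coe_pow, hhκ, ← hχ, ← map_pow]
    have := congrArg (coeffMap (ZMod.castHom (dvd_refl p) k)) hred
    rw [map_zero] at this
    exact (sub_eq_zero.1 ((map_sub χ _ _).symm.trans this)).symm
  have hG' : χ (G.eval₂ (ratChart p M).subtype Q) = Subtype.val N := by
    have e1 : hκ ^ p = ((redA U M hpM).comp (chartHom U M)) (y ^ p) := by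
      rw [map_pow]; rfl
    rw [hom_eval₂, hQ, e1, RingHom.comp_apply, ← hχ, hN, ← hχ]
    exact eval₂_at_apply (χ.comp (ratChart p M).subtype) (y ^ p)
  have hne : (hκ ^ p) ^ p - hκ ≠ 0 := by
    intro h
    obtain ⟨h0, h1⟩ := ord_hRat U M hpM v hv
    have h' := congrArg v.ord (sub_eq_zero.1 h)
    change _ = v.ord (redA U M hpM (chartOf U M (hRat U M hpM v hv))) at h'
    rw [← pow_mul, ord_pow] at h'
    change ((p * p : ℕ) : ℤ) * v.ord (redA U M hpM (chartOf U M (hRat U M hpM v hv))) = _ at h'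
    rw [h1] at h'
    have := (Fact.out : p.Prime).two_le
    push_cast at h'
    nlinarith
  refine ⟨N / ((hκ ^ p) ^ p - hκ), ?_, ?_⟩
  · have heh : ePt U M hpM v hv hκ = HahnSeries.single 1 1 := ePt_hRat U M hpM v hv
    have hp2 : 1 < p * p := by
      have := (Fact.out : p.Prime).two_le
      nlinarith
    obtain ⟨W, hW⟩ : ∃ W : k⟦X⟧, W * (PowerSeries.X ^ (p * p - 1) - 1) = 1 :=
      IsUnit.exists_left_inv (by
        rw [PowerSeries.isUnit_iff_constantCoeff, map_sub, map_pow, PowerSeries.constantCoeff_X,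
          zero_pow (by omega), map_one, zero_sub]
        exact isUnit_one.neg)
    refine ⟨discK U M hpM v hv (chartHom U M (G.eval (y ^ p))) * W, ?_⟩
    have hT : HahnSeries.single (1 : ℤ) (1 : k) = ((PowerSeries.X : k⟦X⟧) : LaurentSeries k) :=
      (HahnSeries.ofPowerSeries_X).symm
    rw [map_div₀, ← mul_div_assoc, div_eq_iff ((_root_.map_ne_zero _).2 hne), map_sub,
      map_pow, map_pow, heh, hN, ePt_redA, hT, ← map_pow, ← map_pow, ← map_sub, ← map_mul,
      ← map_mul]
    congr 1
    rw [← pow_mul, show p * p = (p * p - 1) + 1 by omega, pow_succ']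
    linear_combination -(PowerSeries.X * discK U M hpM v hv (chartHom U M (G.eval (y ^ p)))) * hW
  · have hdD : ((N / ((hκ ^ p) ^ p - hκ) : modularFunctionFieldFullC k M) : LaurentSeries k) =
        χ D := by
      have h := congrArg χ hG
      rw [hG', map_mul, map_sub, map_pow, hQ, hχ, ← SubmonoidClass.coe_pow,
        ← AddSubgroupClass.coe_sub] at h
      refine (map_div₀ (SubringClass.subtype (modularFunctionFieldFullC k M)) N _).trans ?_
      rw [div_eq_iff ((_root_.map_ne_zero _).2 hne)]
      exact h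
    have hθD : theta (ZL p) D = Y ^ (p - 1) * theta (ZL p) Y -
        qExpand (ZL p) p (theta (ZL p) Y) := by
      have h1 := congrArg (theta (ZL p)) hD
      rw [← map_natCast (HahnSeries.C : ZL p →+* LaurentSeries (ZL p)), theta_C_mul, map_sub,
        theta_pow, theta_qExpand] at h1
      refine mul_left_cancel₀
        ((map_ne_zero_iff _ HahnSeries.C_injective).2 (natCast_prime_ZL p).ne_zero) (h1.trans ?_)
      rw [map_natCast]
      ring
    rw [hdD]
    show theta k (coeffMap _ (redS p D)) = _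
    have hq : redS p (qExpand (ZL p) p (theta (ZL p) Y)) = (redS p (theta (ZL p) Y)) ^ p := by
      rw [redS, coeffMap_qExpand, qExpand_eq_pow]
    rw [unifPt, ← hy, ← hhκ, hhκ, ← hχ]
    show _ = coeffMap _ (redS p Y) ^ (p - 1) * theta k (coeffMap _ (redS p Y)) -
      theta k (coeffMap _ (redS p Y)) ^ p
    rw [← coeffMap_theta, redS, ← coeffMap_theta, hθD, map_sub, map_sub, ← redS, hq, map_mul,
      map_mul, map_pow, map_pow, map_pow, ← coeffMap_theta, redS, ← coeffMap_theta]

/-- The derivative of the uniformizer in terms of `j`. -/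
theorem exists_wUnif : ∃ wh : modularFunctionFieldFullC k M,
    IsDj (ePt U M hpM v hv) (unifPt U M hpM v hv) wh ∧
      HahnSeries.single (1 : ℤ) (1 : k) =
        ePt U M hpM v hv wh * theta k (ePt U M hpM v hv (jC k M)) := by
  obtain ⟨wh, hwh⟩ := exists_isDj (e := ePt U M hpM v hv) (ePt_algebraMap U M hpM v hv)
    (natCast_ne_zero_of_not_dvd p M k hpM) (unifPt U M hpM v hv)
  refine ⟨wh, hwh, ?_⟩
  have h := hwh.2
  rw [show ePt U M hpM v hv (unifPt U M hpM v hv) = HahnSeries.single 1 1 from
    ePt_hRat U M hpM v hv] at h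
  refine Eq.trans ?_ h
  clear h hwh
  ext n
  rcases eq_or_ne n 1 with rfl | hn <;> simp [*]

theorem theta_ePt_jC_ne_zero : theta k (ePt U M hpM v hv (jC k M)) ≠ 0 := fun h => by
  obtain ⟨wh, -, hT⟩ := exists_wUnif U M hpM v hv
  rw [h, mul_zero] at hT
  exact HahnSeries.single_ne_zero one_ne_zero hT

variable (h3 : p = 3)

include h3 in
/-- **The bound.** -/
theorem order_theta_jC_le :
    (theta k (ePt U M hpM v hv (jC k M))).order ≤ v.ord (jC k M) + 2 := by
  subst h3
  set e := ePt U M hpM v hv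
  set h := unifPt U M hpM v hv
  set T := HahnSeries.single (1 : ℤ) (1 : k) with hTdef
  set J := e (jC k M)
  set θJ := theta k J
  obtain ⟨wh, hwh, hT⟩ := exists_wUnif U M hpM v hv
  obtain ⟨d, hd, hθd⟩ := exists_delta U M hpM v hv
  obtain ⟨wd, hwd⟩ := exists_isDj (e := e) (ePt_algebraMap U M hpM v hv)
    (natCast_ne_zero_of_not_dvd 3 M k hpM) d
  have hj : theta k (jqModC k) = -jqModC k := theta_jqModC_eq_neg k
  have hwdeq : wd = h ^ 2 * wh - jC k M ^ 2 * wh ^ 3 := by
    apply Subtype.ext
    push_cast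
    refine mul_right_cancel₀ (theta_jqModC_ne_zero' (k := k)) ?_
    rw [← hwd.1, hθd, hwh.1, hj, show ((jC k M : modularFunctionFieldFullC k M) : LaurentSeries k)
      = jqModC k from rfl]
    ring
  have hθJ : θJ ≠ 0 := theta_ePt_jC_ne_zero U M hpM v hv
  have key : (T ^ 3 - theta k (e d)) * θJ ^ 2 = J ^ 2 * T ^ 3 := by
    rw [hwd.2, hwdeq, map_sub, map_mul, map_mul, map_pow, map_pow, map_pow,
      show e h = T from ePt_hRat U M hpM v hv, show T = e wh * θJ from hT]
    ring
  have hJ0 : J ≠ 0 := (_root_.map_ne_zero e).2 fun h0 =>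
    jqModC_ne_zero' (k := k) (congrArg Subtype.val h0)
  have hTne : T ≠ 0 := HahnSeries.single_ne_zero one_ne_zero
  have hG0 : T ^ 3 - theta k (e d) ≠ 0 := fun h0 => by
    rw [h0, zero_mul] at key
    exact mul_ne_zero (pow_ne_zero 2 hJ0) (pow_ne_zero 3 hTne) key.symm
  have hG : -1 ≤ (T ^ 3 - theta k (e d)).order := le_order_of_coeff hG0 fun n hn => by
    obtain ⟨a, ha⟩ := hd
    have h1 := congrArg (fun s : LaurentSeries k => s.coeff (n + 1)) ha
    simp only [HahnSeries.coeff_single_mul, one_mul, add_sub_cancel_right,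
      coeff_isPow_of_neg ⟨a, rfl⟩ (show n + 1 < 0 by omega)] at h1
    rw [HahnSeries.coeff_sub, theta_coeff, h1, mul_zero, sub_zero, hTdef, HahnSeries.single_pow,
      HahnSeries.coeff_single_of_ne (by simp; omega)]
  have hTord : T.order = 1 := HahnSeries.order_single one_ne_zero
  have ho := congrArg HahnSeries.order key
  rw [HahnSeries.order_mul hG0 (pow_ne_zero _ hθJ), HahnSeries.order_mul (pow_ne_zero _ hJ0)
      (pow_ne_zero _ hTne), HahnSeries.order_pow, HahnSeries.order_pow, HahnSeries.order_pow,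
    order_ePt U M hpM v hv (fun h0 => hJ0 (by rw [show J = e (jC k M) from rfl, h0, map_zero])),
    hTord] at ho
  simp only [nsmul_eq_mul, Nat.cast_ofNat] at ho
  show θJ.order ≤ _
  omega

include U hpM hv h3 in
/-- **No wild ramification over a place where `3 ∣ ord j`.** -/
theorem not_dvd_ord_jC_of_dvd_ramification {N : ℕ} [NeZero N] (hpN : ¬ p ∣ N) (hMN : M ∣ N)
    (w : Place k (modularFunctionFieldFullC k N)) {e : ℕ} (he : 0 < e) (hpe : p ∣ e)
    (hord : ∀ y, y ≠ 0 → w.ord (levelIncl hMN y) = e * v.ord y) :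
    ¬ (p : ℤ) ∣ v.ord (jC k M) := by
  intro ha
  have hj0 : ∀ L : ℕ, ∀ [NeZero L], (jC k L : modularFunctionFieldFullC k L) ≠ 0 := fun L _ h0 =>
    jqModC_ne_zero' (k := k) (congrArg Subtype.val h0)
  have hwj : w.ord (jC k N) = e * v.ord (jC k M) := by
    rw [← levelIncl_jC k hMN, hord _ (hj0 M)]
  have hw : 0 ≤ w.ord (jC k N) := hwj ▸ mul_nonneg (Int.natCast_nonneg e) hv
  -- downstairs
  obtain ⟨wh, hwh, hT⟩ := exists_wUnif U M hpM v hv
  have hθv := theta_ePt_jC_ne_zero U M hpM v hv
  have hwh0 : wh ≠ 0 := fun h0 => HahnSeries.single_ne_zero (a := (1 : ℤ)) (one_ne_zero (α := k))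
    (by rw [hT, h0, map_zero, zero_mul])
  have hDv : v.ord (jC k M) + 1 ≤ (theta k (ePt U M hpM v hv (jC k M))).order :=
    le_order_of_coeff hθv fun n hn => by
      rw [theta_coeff]
      rcases lt_or_eq_of_le (Int.lt_add_one_iff.1 hn) with hlt | rfl
      · rw [HahnSeries.coeff_eq_zero_of_lt_order
          (by rw [order_ePt U M hpM v hv (hj0 M)]; exact hlt), mul_zero]
      · rw [(CharP.intCast_eq_zero_iff k p _).2 ha, zero_mul]
  have hwhord : v.ord wh = 1 - (theta k (ePt U M hpM v hv (jC k M))).order := by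
    have h := congrArg HahnSeries.order hT
    rw [HahnSeries.order_single one_ne_zero, HahnSeries.order_mul ((_root_.map_ne_zero _).2 hwh0)
      hθv, order_ePt U M hpM v hv hwh0] at h
    omega
  -- upstairs
  have hθw := theta_ePt_jC_ne_zero U N hpN w hw
  obtain ⟨wx, hwx⟩ := exists_isDj (e := ePt U N hpN w hw) (ePt_algebraMap U N hpN w hw)
    (natCast_ne_zero_of_not_dvd p N k hpN) (levelIncl hMN (unifPt U M hpM v hv))
  obtain rfl : wx = levelIncl hMN wh := by
    apply Subtype.ext
    refine mul_right_cancel₀ (theta_jqModC_ne_zero' (k := k)) ?_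
    rw [← hwx.1, coe_levelIncl, coe_levelIncl, hwh.1]
  have hh0 : unifPt U M hpM v hv ≠ 0 := (ord_hRat U M hpM v hv).1
  have hh1 : v.ord (unifPt U M hpM v hv) = 1 := (ord_hRat U M hpM v hv).2
  have hne : theta k (ePt U N hpN w hw (levelIncl hMN (unifPt U M hpM v hv))) ≠ 0 := by
    rw [hwx.2]
    exact mul_ne_zero ((_root_.map_ne_zero _).2 ((_root_.map_ne_zero _).2 hwh0)) hθw
  have hlow : (e : ℤ) + 1 ≤
      (theta k (ePt U N hpN w hw (levelIncl hMN (unifPt U M hpM v hv)))).order :=
    le_order_of_coeff hne fun n hn => by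
      rw [theta_coeff]
      rcases lt_or_eq_of_le (Int.lt_add_one_iff.1 hn) with hlt | rfl
      · rw [HahnSeries.coeff_eq_zero_of_lt_order (by
          rw [order_ePt U N hpN w hw ((_root_.map_ne_zero _).2 hh0), hord _ hh0, hh1, mul_one]
          exact hlt), mul_zero]
      · rw [(CharP.intCast_eq_zero_iff k p _).2 (Int.natCast_dvd_natCast.2 hpe), zero_mul]
  rw [hwx.2, HahnSeries.order_mul ((_root_.map_ne_zero _).2 ((_root_.map_ne_zero _).2 hwh0)) hθw,
    order_ePt U N hpN w hw ((_root_.map_ne_zero _).2 hwh0), hord _ hwh0, hwhord] at hlow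
  have hup := order_theta_jC_le U N hpN w hw h3
  rw [hwj] at hup
  have he3 : 3 ≤ e := h3 ▸ Nat.le_of_dvd he hpe
  nlinarith [mul_le_mul_of_nonneg_left hDv (Int.natCast_nonneg e)]

end Fermat.Agent.LevelLowerP
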