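import Fermat.Agent.Reduction.Series

/-!
# Coefficientwise descent for Laurent series

Linear functionals applied to coefficients, and rational bases of finite dimensional Galois
stable spaces of series.
-/

set_option autoImplicit false

noncomputable section

namespace Fermat.Agent.LevelLowerP

open ModularCurve
open Fermat.Agent.Reduction

section Functional

variable {F E : Type*} [Field F] [Field E] [Algebra F E]

/-- A functional takes the value one at a given nonzero element. -/
theorem exists_functional_eq_one {c : E} (hc : c ≠ 0) : ∃ φ : E →ₗ[F] F, φ c = 1 := by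
  obtain ⟨φ, hφ⟩ := Module.Projective.exists_dual_ne_zero F hc
  exact ⟨(φ c)⁻¹ • φ, inv_mul_cancel₀ hφ⟩

/-- A functional applied to every coefficient. -/
def applyC (φ : E →ₗ[F] F) : LaurentSeries E →ₗ[F] LaurentSeries F where
  toFun x := ⟨fun n => φ (x.coeff n), x.isPWO_support.mono fun n hn => by
    simp only [Function.mem_support, ne_eq] at hn ⊢
    exact fun h => hn (by rw [h, map_zero])⟩
  map_add' x y := by
    ext n
    exact map_add φ _ _
  map_smul' c x := by
    ext n
    exact map_smul φ c _

theorem applyC_coeff (φ : E →ₗ[F] F) (x : LaurentSeries E) (n : ℤ) :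
    (applyC φ x).coeff n = φ (x.coeff n) := rfl

theorem applyC_coeffMap_mul (φ : E →ₗ[F] F) (x : LaurentSeries E) (z : LaurentSeries F) :
    applyC φ (x * coeffMap (algebraMap F E) z) = applyC φ x * z := by
  ext n
  have hx : (applyC φ x).support ⊆ x.support := fun m hm => by
    rw [HahnSeries.mem_support, applyC_coeff] at hm
    exact fun h => hm (by rw [h, map_zero])
  have hz : z.support ⊆ (coeffMap (algebraMap F E) z).support := fun m hm => by
    rw [HahnSeries.mem_support] at hm ⊢
    rw [coeffMap_coeff]
    exact (map_ne_zero _).2 hm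
  rw [applyC_coeff, HahnSeries.coeff_mul, map_sum,
    HahnSeries.coeff_mul_left' x.isPWO_support hx]
  have : z.support = (coeffMap (algebraMap F E) z).support := hz.antisymm fun m hm => by
    rw [HahnSeries.mem_support, coeffMap_coeff] at hm
    exact fun h => hm (by rw [h, map_zero])
  simp only [this]
  refine Finset.sum_congr rfl fun ij _ => ?_
  rw [applyC_coeff, coeffMap_coeff, mul_comm, ← Algebra.smul_def, map_smul, smul_eq_mul, mul_comm]

theorem applyC_smul_coeffMap (φ : E →ₗ[F] F) (c : E) (z : LaurentSeries F) :
    applyC φ (c • coeffMap (algebraMap F E) z) = φ c • z := by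
  ext n
  rw [applyC_coeff, coeff_smulC, coeff_smulC, coeffMap_coeff, mul_comm, ← Algebra.smul_def,
    map_smul, smul_eq_mul, mul_comm]

theorem applyC_coeffMap (φ : E →ₗ[F] F) (hφ : φ 1 = 1) (z : LaurentSeries F) :
    applyC φ (coeffMap (algebraMap F E) z) = z := by
  have := applyC_smul_coeffMap φ 1 z
  rwa [one_smul, hφ, one_smul] at this

/-- Independence is preserved by extension of the coefficient field. -/
theorem linearIndependent_coeffMap {ι : Type*} [Fintype ι] {r : ι → LaurentSeries F}
    (hr : LinearIndependent F r) :
    LinearIndependent E fun i => coeffMap (algebraMap F E) (r i) := by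
  rw [Fintype.linearIndependent_iff] at hr ⊢
  intro c hc i
  by_contra hi
  obtain ⟨φ, hφ⟩ := exists_functional_eq_one (F := F) hi
  have h := congrArg (applyC φ) hc
  rw [map_sum, map_zero] at h
  simp only [applyC_smul_coeffMap] at h
  simpa [hφ] using hr _ h i

end Functional

section Galois

variable (L : Type*) [Field L] [Algebra ℚ L] [IsAlgClosed L] [Algebra.IsAlgebraic ℚ L]

theorem exists_rat_of_fixed {a : L} (h : ∀ σ : L ≃ₐ[ℚ] L, σ a = a) :
    ∃ c : ℚ, algebraMap ℚ L c = a := by
  have : IsAlgClosure ℚ L := ⟨inferInstance, inferInstance⟩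
  have : IsGalois ℚ L := IsAlgClosure.isGalois ℚ L
  refine IntermediateField.mem_bot.mp ?_
  rw [← InfiniteGalois.fixedField_fixingSubgroup (⊥ : IntermediateField ℚ L),
    IntermediateField.mem_fixedField_iff]
  exact fun σ _ => h σ

omit [IsAlgClosed L] in
theorem finite_orbit (a : L) : (Set.range fun σ : L ≃ₐ[ℚ] L => σ a).Finite := by
  refine ((minpoly ℚ a).rootSet_finite L).subset ?_
  rintro _ ⟨σ, rfl⟩
  rw [Polynomial.mem_rootSet]
  exact ⟨minpoly.ne_zero (Algebra.IsAlgebraic.isAlgebraic a).isIntegral, by
    rw [Polynomial.aeval_algHom_apply, minpoly.aeval, map_zero]⟩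

variable {L}

/-- A finite dimensional Galois stable space of series has a rational basis. -/
theorem exists_rat_basis (V : Submodule L (LaurentSeries L)) [FiniteDimensional L V]
    (hV : ∀ σ : L ≃ₐ[ℚ] L, ∀ x ∈ V, coeffMap (σ : L →+* L) x ∈ V) :
    ∃ z : Fin (Module.finrank L V) → LaurentSeries ℚ, LinearIndependent ℚ z ∧
      Submodule.span L (Set.range fun i => coeffMap (algebraMap ℚ L) (z i)) = V := by
  classical
  let e : ℤ → Module.Dual L V := fun n =>
    { toFun := fun x => (x : LaurentSeries L).coeff n
      map_add' := fun _ _ => rfl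
      map_smul' := fun c x => coeff_smulC c _ n }
  obtain ⟨b, hb, hspan, hli⟩ := exists_linearIndependent L (Set.range e)
  have hbfin : b.Finite := hli.setFinite
  have := hbfin.fintype
  have hsep : ∀ x : V, (∀ f ∈ b, f x = 0) → x = 0 := fun x hx => by
    refine Subtype.ext (HahnSeries.ext (funext fun n => ?_))
    have h : ∀ f ∈ Submodule.span L b, f x = 0 := fun f hf => by
      induction hf using Submodule.span_induction with
      | mem f hf => exact hx f hf
      | zero => rfl
      | add f g _ _ hf hg => simp [hf, hg]
      | smul c f _ hf => simp [hf]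
    exact h (e n) (hspan ▸ Submodule.subset_span ⟨n, rfl⟩)
  have hcard : Fintype.card b ≤ Module.finrank L V := by
    rw [← Subspace.dual_finrank_eq]
    exact hli.fintype_card_le_finrank
  let Φ : V →ₗ[L] b → L := LinearMap.pi fun f => (f : Module.Dual L V)
  have hinj : Function.Injective Φ := (injective_iff_map_eq_zero Φ).mpr fun x hx =>
    hsep x fun f hf => congrFun hx ⟨f, hf⟩
  have hd : Fintype.card b = Module.finrank L V := hcard.antisymm
    ((LinearMap.finrank_le_finrank_of_injective hinj).trans_eq
      (Module.finrank_fintype_fun_eq_card L))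
  have hsurj : Function.Surjective Φ :=
    (LinearMap.injective_iff_surjective_of_finrank_eq_finrank
      (by rw [Module.finrank_fintype_fun_eq_card, hd])).mp hinj
  let i₀ : Fin (Module.finrank L V) ≃ b := (Fintype.equivFinOfCardEq hd).symm
  let v : Fin (Module.finrank L V) → V := fun i => Function.surjInv hsurj (Pi.single (i₀ i) 1)
  have hv : ∀ i (f : b), (f : Module.Dual L V) (v i) = (Pi.single (i₀ i) (1 : L) : b → L) f :=
    fun i f => congrFun (Function.surjInv_eq hsurj (Pi.single (i₀ i) 1)) f
  have hfix : ∀ i n, ∀ σ : L ≃ₐ[ℚ] L, σ ((v i : LaurentSeries L).coeff n) =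
      (v i : LaurentSeries L).coeff n := by
    intro i n σ
    let w : V := ⟨coeffMap (σ : L →+* L) (v i : LaurentSeries L), hV σ _ (v i).2⟩
    have hw : w = v i := hinj <| funext fun f => by
      obtain ⟨m, hm⟩ := hb f.2
      show (f : Module.Dual L V) w = (f : Module.Dual L V) (v i)
      have h1 := hv i f
      rw [← hm] at h1 ⊢
      show σ ((v i : LaurentSeries L).coeff m) = (v i : LaurentSeries L).coeff m
      rw [show (v i : LaurentSeries L).coeff m = _ from h1]
      rw [Pi.single_apply]
      split_ifs <;> simp
    exact congrArg (fun x : V => (x : LaurentSeries L).coeff n) hw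
  choose c hc using fun i n => exists_rat_of_fixed L (hfix i n)
  let z : Fin (Module.finrank L V) → LaurentSeries ℚ := fun i =>
    ⟨c i, (v i : LaurentSeries L).isPWO_support.mono fun n hn => by
      simp only [Function.mem_support, ne_eq] at hn
      rw [HahnSeries.mem_support, ← hc]
      exact (map_ne_zero _).2 hn⟩
  have hz : ∀ i, coeffMap (algebraMap ℚ L) (z i) = (v i : LaurentSeries L) := fun i =>
    HahnSeries.ext (funext fun n => hc i n)
  have hvli : LinearIndependent L v := by
    refine LinearIndependent.of_comp Φ ?_
    have : Φ ∘ v = fun i => (Pi.single (i₀ i) (1 : L) : b → L) := funext fun i => funext (hv i)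
    rw [this]
    exact (Pi.linearIndependent_single_one b L).comp i₀ i₀.injective
  have hli' : LinearIndependent L fun i => coeffMap (algebraMap ℚ L) (z i) := by
    simp only [hz]
    exact hvli.map' V.subtype V.ker_subtype
  refine ⟨z, ?_, ?_⟩
  · rw [Fintype.linearIndependent_iff] at hli' ⊢
    intro g hg i
    refine (algebraMap ℚ L).injective ((hli' (fun j => algebraMap ℚ L (g j)) ?_ i).trans
      (map_zero _).symm)
    ext n
    have h := congrArg (fun x : LaurentSeries ℚ => algebraMap ℚ L (x.coeff n)) hg
    simp only [HahnSeries.coeff_sum, coeff_smulC, map_sum, map_mul, coeffMap_coeff,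
      HahnSeries.coeff_zero, map_zero] at h ⊢
    exact h
  · refine Submodule.eq_of_le_of_finrank_eq (Submodule.span_le.mpr ?_) ?_
    · rintro _ ⟨i, rfl⟩
      show coeffMap (algebraMap ℚ L) (z i) ∈ V
      rw [hz i]
      exact (v i).2
    · rw [finrank_span_eq_card hli', Fintype.card_fin]

end Galois

end Fermat.Agent.LevelLowerP
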