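import Fermat.Agent.Igusa.FullField

/-!
# Conjugate embeddings of the level `N` function field and the `p + 1` embeddings of `pM` over `M`
-/

set_option autoImplicit false

noncomputable section

open scoped MatrixGroups
open Polynomial ModularCurve IntermediateField

namespace Fermat.Agent.LevelLowerP

open Fermat.Agent.Igusa

variable {k : Type*} [Field k] [IsAlgClosed k] (N : ℕ) [NeZero N]

/-- The conjugate embedding attached to a coset. -/
theorem exists_conjHom (hN : (N : k) ≠ 0) (π : Rz N →+* k)
    (hπ : IsPrimitiveRoot (π (zetaR N)) N) (i : Cst N) :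
    ∃ σ : modularFunctionFieldFullC k N →+* LaurentSeries k,
      (∀ x : baseC k N, σ (x : modularFunctionFieldFullC k N) = inclN k N x) ∧
      ∀ (d : ℕ) [NeZero d] (hd : d ∣ N),
        σ ⟨qExpand k d (jqModC k), jqModCd_mem_full k N hd⟩ = Gk π hd i := by
  classical
  let inv : baseC k N ≃+* Kj k :=
    (RingEquiv.ofBijective (toBase k N)
      ⟨(toBase k N).injective, toBase_surjective k N⟩).symm
  have hinv : ∀ x, toBase k N (inv x) = x := fun x =>
    (RingEquiv.ofBijective (toBase k N)
      ⟨(toBase k N).injective, toBase_surjective k N⟩).apply_symm_apply x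
  have hphi : ∀ x : baseC k N,
      phiJ N k (inv x) = inclN k N (x : modularFunctionFieldFullC k N) := fun x => by
    rw [← inclN_toBase, RingHom.comp_apply, RingHom.comp_apply, hinv]
    rfl
  set θ := Gk π (dvd_refl N) i
  let g : (baseC k N)[X] →+* LaurentSeries k :=
    Polynomial.eval₂RingHom ((phiJ N k).comp inv.toRingHom) θ
  let f : (baseC k N)[X] →+* modularFunctionFieldFullC k N :=
    (Polynomial.aeval (jNC k N)).toRingHom
  have hint := isIntegral_jNC N hN
  have hf : Function.Surjective f := by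
    intro x
    have hx : x ∈ (baseC k N)⟮jNC k N⟯ := by rw [adjoin_jNC_eq_top N hN]; exact mem_top
    rw [← IntermediateField.mem_toSubalgebra,
      IntermediateField.adjoin_simple_toSubalgebra_of_isAlgebraic hint.isAlgebraic,
      Algebra.adjoin_singleton_eq_range_aeval] at hx
    exact hx
  obtain ⟨P, hPm, hPd, hP⟩ := exists_charPoly_red π (jFam (N := N) dvd_rfl) (equivariant_jFam _)
  have hroot : ∀ j, (P.map (algebraMap k[X] (Kj k))).eval₂ (phiJ N k)
      (Gk π (dvd_refl N) j) = 0 := fun j => by
    rw [← Polynomial.eval_map, hP, Polynomial.eval_prod]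
    exact Finset.prod_eq_zero (Finset.mem_univ j) (by simp [Gk])
  set P' := (P.map (algebraMap k[X] (Kj k))).map (toBase k N)
  have hP' : Polynomial.aeval (jNC k N) P' = 0 := by
    refine inclN_injective k N ?_
    rw [inclN_aeval N π, map_zero]
    exact hroot cst0
  have hmin : minpoly (baseC k N) (jNC k N) = P' := by
    have hm : P'.Monic := (hPm.map _).map _
    refine (Polynomial.eq_of_monic_of_dvd_of_natDegree_le (minpoly.monic hint) hm
      (minpoly.dvd _ _ hP') ?_).symm
    have h1 := IntermediateField.adjoin.finrank hint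
    rw [adjoin_jNC_eq_top N hN, IntermediateField.finrank_top', finrank_fullC N hN] at h1
    rw [← h1, (hPm.map _).natDegree_map, hPm.natDegree_map, hPd]
  have hker : RingHom.ker f ≤ RingHom.ker g := by
    intro q hq
    obtain ⟨r, rfl⟩ := minpoly.dvd (baseC k N) (jNC k N) hq
    rw [RingHom.mem_ker, map_mul, hmin]
    have : g P' = 0 := by
      simp only [g, Polynomial.coe_eval₂RingHom, P', Polynomial.eval₂_map]
      rw [show ((phiJ N k).comp inv.toRingHom).comp (toBase k N) = phiJ N k from
          RingHom.ext fun x => by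
        simp only [RingHom.comp_apply, RingEquiv.toRingHom_eq_coe, RingHom.coe_coe, inv]
        exact congrArg _ ((RingEquiv.ofBijective (toBase k N)
          ⟨(toBase k N).injective, toBase_surjective k N⟩).symm_apply_apply x),
        ← Polynomial.eval₂_map]
      exact hroot i
    rw [this, zero_mul]
  let σ := RingHom.liftOfSurjective f hf ⟨g, hker⟩
  have hσ : ∀ q, σ (f q) = g q := fun q =>
    RingHom.liftOfRightInverse_comp_apply f _ _ ⟨g, hker⟩ q
  refine ⟨σ, fun x => ?_, fun d _ hd => ?_⟩
  · have := hσ (Polynomial.C x)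
    simp only [f, g, AlgHom.toRingHom_eq_coe, RingHom.coe_coe, Polynomial.aeval_C,
      Polynomial.coe_eval₂RingHom, Polynomial.eval₂_C, RingHom.comp_apply,
      RingEquiv.toRingHom_eq_coe] at this
    exact this.trans (hphi x)
  · obtain ⟨H, hH⟩ := exists_eval_eq π hπ _ (equivariant_jFam hd)
    have heq : f (H.map (toBase k N)) = ⟨qExpand k d (jqModC k), jqModCd_mem_full k N hd⟩ := by
      refine inclN_injective k N ?_
      show inclN k N (Polynomial.aeval (jNC k N) (H.map (toBase k N))) = _
      rw [inclN_aeval N π, hH, ← Gk, Gk_cst0]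
      show _ = qExpand k N (qExpand k d (jqModC k))
      rw [qExpand_qExpand]
      exact qExpand_congr (mul_comm d N) _
    rw [← heq, hσ]
    simp only [g, Polynomial.coe_eval₂RingHom, Polynomial.eval₂_map]
    rw [show ((phiJ N k).comp inv.toRingHom).comp (toBase k N) = phiJ N k from
        RingHom.ext fun x => by
      simp only [RingHom.comp_apply, RingEquiv.toRingHom_eq_coe, RingHom.coe_coe, inv]
      exact congrArg _ ((RingEquiv.ofBijective (toBase k N)
        ⟨(toBase k N).injective, toBase_surjective k N⟩).symm_apply_apply x)]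
    rw [hH]
    rfl

section Hecke

variable (M p : ℕ) [NeZero M] [Fact p.Prime]

section

omit [IsAlgClosed k]

/-- Inclusion of intermediate fields. -/
def subIncl {K L : Type*} [Field K] [Field L] [Algebra K L] {A B : IntermediateField K L}
    (h : A ≤ B) : A →+* B where
  toFun x := ⟨x.1, h x.2⟩
  map_one' := rfl
  map_mul' _ _ := rfl
  map_zero' := rfl
  map_add' _ _ := rfl

theorem coe_subIncl {K L : Type*} [Field K] [Field L] [Algebra K L] {A B : IntermediateField K L}
    (h : A ≤ B) (x : A) : Subtype.val (subIncl h x) = x.1 := rfl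

/-- Restriction of an algebra endomorphism of the ambient field. -/
def subMap {K L : Type*} [Field K] [Field L] [Algebra K L] {A B : IntermediateField K L}
    (φ : L →ₐ[K] L) (h : A.map φ ≤ B) : A →+* B where
  toFun x := ⟨φ x.1, h ⟨x.1, x.2, rfl⟩⟩
  map_one' := Subtype.ext (map_one φ)
  map_mul' _ _ := Subtype.ext (map_mul φ _ _)
  map_zero' := Subtype.ext (map_zero φ)
  map_add' _ _ := Subtype.ext (map_add φ _ _)

theorem coe_subMap {K L : Type*} [Field K] [Field L] [Algebra K L] {A B : IntermediateField K L}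
    (φ : L →ₐ[K] L) (h : A.map φ ≤ B) (x : A) : Subtype.val (subMap φ h x) = φ x.1 := rfl

/-- The inclusion `F(M) → F(Mp)`. -/
def inclP : modularFunctionFieldFullC k M →+* modularFunctionFieldFullC k (M * p) :=
  subIncl (full_degeneracyC_le k (dvd_mul_right M p))

theorem coe_inclP (x : modularFunctionFieldFullC k M) :
    Subtype.val (inclP M p x) = Subtype.val x :=
  coe_subIncl _ x

/-- `f(τ) ↦ f(pτ)` from `F(M)` to `F(Mp)`. -/
def scaleP : modularFunctionFieldFullC k M →+* modularFunctionFieldFullC k (M * p) :=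
  subMap (qExpandAlgHomC k p) (full_degeneracyC_map_le k M p)

omit [NeZero M] in
theorem coe_scaleP (x : modularFunctionFieldFullC k M) :
    Subtype.val (scaleP M p x) = qExpand k p x :=
  (coe_subMap _ _ x).trans (qExpandAlgHomC_apply k p x.1)

omit [NeZero N] in
/-- Ring maps out of the function field agree if they agree on constants and generators. -/
theorem hom_ext {L : Type*} [Field L] (f g : modularFunctionFieldFullC k N →+* L)
    (hc : ∀ c : k, f (algebraMap k _ c) = g (algebraMap k _ c))
    (hd : ∀ (d : ℕ) [NeZero d] (h : d ∣ N),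
      f ⟨qExpand k d (jqModC k), jqModCd_mem_full k N h⟩ =
        g ⟨qExpand k d (jqModC k), jqModCd_mem_full k N h⟩) : f = g := by
  refine RingHom.ext fun ⟨x, hx⟩ => ?_
  induction hx using IntermediateField.adjoin_induction with
  | mem x hx =>
    obtain ⟨d, hd0, hdN, rfl⟩ := hx
    exact @hd d hd0 hdN
  | algebraMap c => exact hc c
  | add x y hx' hy' hx hy =>
    have := congrArg₂ (· + ·) hx hy
    simp only [← map_add] at this
    exact this
  | inv x hx' hx =>
    have := congrArg (·⁻¹) hx
    simp only [← map_inv₀] at this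
    exact this
  | mul x y hx' hy' hx hy =>
    have := congrArg₂ (· * ·) hx hy
    simp only [← map_mul] at this
    exact this

end

theorem twist_qExpand {R : Type*} [CommRing R] (c : Rˣ) (d : ℕ) [NeZero d] (s : LaurentSeries R) :
    twist c (qExpand R d s) = qExpand R d (twist (c ^ d) s) := by
  ext n
  rw [twist_coeff]
  by_cases h : (d : ℤ) ∣ n
  · obtain ⟨m, rfl⟩ := h
    rw [qExpand_coeff_mul, qExpand_coeff_mul, twist_coeff, zpow_mul, zpow_natCast]
  · rw [qExpand_coeff_of_not_dvd d _ h, qExpand_coeff_of_not_dvd d _ h, mul_zero]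

omit [NeZero M] in
theorem exists_hecke_coset (hpM : ¬ p ∣ M) (b : ℕ) :
    ∃ i : Cst (M * p), (M : ℤ) ∣ repg i 1 0 ∧ ¬ (p : ℤ) ∣ repg i 1 0 ∧
      (p : ℤ) ∣ repg i 1 1 - (b : ℤ) * repg i 1 0 := by
  have hp : p.Prime := Fact.out
  have hcop : IsCoprime (M : ℤ) (p : ℤ) :=
    Int.isCoprime_iff_nat_coprime.mpr (by simpa using (hp.coprime_iff_not_dvd.mpr hpM).symm)
  obtain ⟨r, s, hrs⟩ := hcop
  set w : ℤ := s * p + (M : ℤ) * b * (r * M)
  have hw : IsCoprime w (M : ℤ) := ⟨1, r - (b : ℤ) * (r * M), by
    simp only [w]; linear_combination hrs⟩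
  have hwp : (p : ℤ) ∣ w - (b : ℤ) * M := ⟨s - (M : ℤ) * b * s, by
    simp only [w]; linear_combination (b : ℤ) * M * hrs⟩
  obtain ⟨u, v, huv⟩ := hw
  let g : SL(2, ℤ) :=
    ⟨!![u, -v; (M : ℤ), w], by rw [Matrix.det_fin_two_of]; linear_combination huv⟩
  obtain ⟨h, hh⟩ := QuotientGroup.mk_out_eq_mul (CongruenceSubgroup.Gamma0 (M * p)) g⁻¹
  set i : Cst (M * p) := ((g⁻¹ : SL(2, ℤ)) : Cst (M * p))
  have hi : repg i = (h : SL(2, ℤ))⁻¹ * g := by rw [repg, hh, mul_inv_rev, inv_inv]
  set a := (h : SL(2, ℤ))⁻¹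
  have hN : ((M : ℤ) * p) ∣ a 1 0 := by
    have h1 := (ZMod.intCast_zmod_eq_zero_iff_dvd _ (M * p)).mp
      (CongruenceSubgroup.Gamma0_mem.mp (inv_mem h.2 : a ∈ CongruenceSubgroup.Gamma0 (M * p)))
    exact_mod_cast h1
  obtain ⟨c, hc⟩ := hN
  have e10 : repg i 1 0 = a 1 0 * u + a 1 1 * M := by
    rw [hi, Matrix.SpecialLinearGroup.coe_mul, Matrix.mul_apply, Fin.sum_univ_two]; rfl
  have e11 : repg i 1 1 = a 1 0 * (-v) + a 1 1 * w := by
    rw [hi, Matrix.SpecialLinearGroup.coe_mul, Matrix.mul_apply, Fin.sum_univ_two]; rfl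
  have hdet : a 0 0 * a 1 1 - a 0 1 * a 1 0 = 1 := by
    rw [← Matrix.det_fin_two]; exact a.det_coe
  refine ⟨i, ⟨p * c * u + a 1 1, by rw [e10, hc]; ring⟩, fun hdvd => ?_, ?_⟩
  · rw [e10, hc] at hdvd
    have h2 : (p : ℤ) ∣ a 1 1 * M := by
      rw [Int.dvd_iff_emod_eq_zero] at hdvd ⊢
      rwa [show (M : ℤ) * p * c * u + a 1 1 * M = a 1 1 * M + p * (M * c * u) by ring,
        Int.add_mul_emod_self_left] at hdvd
    rcases Int.Prime.dvd_mul' hp h2 with h3 | h3
    · have h4 : (p : ℤ) ∣ 1 := by
        rw [← hdet, hc]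
        exact dvd_sub (h3.mul_left _) ⟨a 0 1 * M * c, by ring⟩
      exact hp.ne_one (Nat.dvd_one.mp (Int.natCast_dvd_natCast.mp (by simpa using h4)))
    · exact hpM (Int.natCast_dvd_natCast.mp h3)
  · rw [e10, e11, hc,
      show (M : ℤ) * p * c * -v + a 1 1 * w - b * (M * p * c * u + a 1 1 * M) =
        p * (M * c * -v - b * M * c * u) + a 1 1 * (w - b * M) by ring]
    exact dvd_add (dvd_mul_right _ _) (hwp.mul_left _)

/-- The conjugate embeddings of `F(Mp)` over `F(M)` other than the inclusion. -/
theorem exists_heckeHom (hN : ((M * p : ℕ) : k) ≠ 0) (hpM : ¬ p ∣ M) :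
    ∃ η : kˣ, IsPrimitiveRoot (η : k) p ∧ ∀ b : ℕ,
      ∃ σ : modularFunctionFieldFullC k (M * p) →+* LaurentSeries k,
        (∀ x, σ (inclP M p x) = qExpand k (M * p) x) ∧
        ∀ x, σ (scaleP M p x) = qExpand k M (twist (η ^ b) (x : LaurentSeries k)) := by
  have hp : p.Prime := Fact.out
  obtain ⟨π, hπ⟩ := exists_pi (M * p) hN
  set ζ : kˣ := Units.map (π : Rz (M * p) →* k) (zetaU (M * p))
  refine ⟨ζ ^ M, ?_, fun b => ?_⟩
  · rw [Units.val_pow_eq_pow_val]
    exact IsPrimitiveRoot.pow (NeZero.pos (M * p)) hπ rfl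
  obtain ⟨i, hiM, hip, hib⟩ := exists_hecke_coset M p hpM b
  obtain ⟨σ, hσb, hσ⟩ := exists_conjHom (M * p) hN π hπ i
  set g := repg i
  have hconst : ∀ c : k, σ (algebraMap k _ c) = HahnSeries.C c := fun c => by
    rw [IsScalarTower.algebraMap_apply k (baseC k (M * p))]
    refine (hσb (algebraMap k _ c)).trans ?_
    show qExpand k (M * p) (algebraMap k (LaurentSeries k) c) = _
    rw [algebraMap_laurentSeries_eq_single, ← HahnSeries.C_apply, qExpand_C]
  have hclsM : ∀ d : ℕ, d ∣ M → cls d g = d := fun d hd =>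
    Nat.dvd_antisymm (cls_dvd d g) (Int.natCast_dvd_natCast.mp
      (Int.dvd_coe_gcd dvd_rfl ((Int.natCast_dvd_natCast.mpr hd).trans hiM)))
  have hone : ∀ (d : ℕ) [NeZero d] (hd : d ∣ M), Gk π (hd.trans (dvd_mul_right M p)) i =
      qExpand k (d * (M * p)) (jqModC k) := by
    intro d _ hd
    have := neZero_expo (hd.trans (dvd_mul_right M p)) g
    have h2 : cod d g = 1 := by rw [cod, hclsM d hd, Nat.div_self (NeZero.pos d)]
    have htw : tw (M * p) d g = 1 := by
      have hu : zetaU (M * p) ^ (M * p) = 1 := Units.ext (zetaR_pow_self _)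
      rw [tw, h2, Nat.div_one, mul_comm (hermB d g), zpow_mul, zpow_natCast, hu, one_zpow]
    rw [Gk_eq, htw, map_one, twist_one_apply]
    exact qExpand_congr (by rw [expo, hclsM d hd, h2, Nat.div_one]) _
  refine ⟨σ, fun x => ?_, fun x => ?_⟩
  · refine congrArg (fun f : modularFunctionFieldFullC k M →+* LaurentSeries k => f x)
      (hom_ext M (σ.comp (inclP M p))
        ((qExpand k (M * p)).comp (SubringClass.subtype _)) (fun c => ?_) fun d _ hd => ?_)
    · rw [RingHom.comp_apply, RingHom.comp_apply]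
      exact (hconst c).trans (by
        show _ = qExpand k (M * p) (algebraMap k (LaurentSeries k) c)
        rw [algebraMap_laurentSeries_eq_single, ← HahnSeries.C_apply, qExpand_C])
    · rw [RingHom.comp_apply, RingHom.comp_apply]
      refine (hσ d (hd.trans (dvd_mul_right M p))).trans ?_
      rw [hone d hd]
      show _ = qExpand k (M * p) (qExpand k d (jqModC k))
      rw [qExpand_qExpand]
      exact qExpand_congr (mul_comm _ _) _
  · refine congrArg (fun f : modularFunctionFieldFullC k M →+* LaurentSeries k => f x)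
      (hom_ext M (σ.comp (scaleP M p))
        (((qExpand k M).comp (twist ((ζ ^ M) ^ b))).comp (SubringClass.subtype _))
        (fun c => ?_) fun d _ hd => ?_)
    · rw [RingHom.comp_apply, RingHom.comp_apply, RingHom.comp_apply,
        show scaleP M p (algebraMap k _ c) = algebraMap k _ c from Subtype.ext (by
          show qExpand k p (algebraMap k (LaurentSeries k) c) = algebraMap k (LaurentSeries k) c
          rw [algebraMap_laurentSeries_eq_single, ← HahnSeries.C_apply, qExpand_C]), hconst c]
      show _ = qExpand k M (twist _ (algebraMap k (LaurentSeries k) c))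
      rw [algebraMap_laurentSeries_eq_single, ← HahnSeries.C_apply]
      conv_rhs => rw [show twist ((ζ ^ M) ^ b) (HahnSeries.C c) = HahnSeries.C c from by
        ext n; rcases eq_or_ne n 0 with rfl | hn <;> simp [HahnSeries.C_apply, *]]
      rw [qExpand_C]
    · rw [RingHom.comp_apply, RingHom.comp_apply, RingHom.comp_apply]
      have : NeZero (p * d) := ⟨Nat.mul_ne_zero hp.ne_zero (NeZero.ne d)⟩
      have hpd : p * d ∣ M * p := by rw [mul_comm M]; exact mul_dvd_mul_left p hd
      rw [show scaleP M p ⟨qExpand k d (jqModC k), jqModCd_mem_full k M hd⟩ =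
        ⟨qExpand k (p * d) (jqModC k), jqModCd_mem_full k (M * p) hpd⟩ from
        Subtype.ext (by rw [coe_scaleP, qExpand_qExpand]), hσ (p * d) hpd]
      show _ = qExpand k M (twist _ (qExpand k d (jqModC k)))
      have := neZero_expo hpd g
      have hcls : cls (p * d) g = d := by
        have h1 : Nat.Coprime p (g 1 0).natAbs :=
          hp.coprime_iff_not_dvd.mpr fun h => hip (Int.natCast_dvd.mpr h)
        have h2 := hclsM d hd
        simp only [cls, Int.gcd_def, Int.natAbs_natCast] at h2 ⊢
        rw [Nat.Coprime.gcd_mul_left_cancel d h1]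
        exact h2
      have hcod : cod (p * d) g = p := by rw [cod, hcls, Nat.mul_div_cancel _ (NeZero.pos d)]
      obtain ⟨-, -, h3, h4⟩ := hermite_spec (p * d) g
      rw [hcls] at h3
      rw [hcod] at h4
      obtain ⟨e, he⟩ : (p : ℤ) ∣ hermB (p * d) g - (b : ℤ) * d := by
        have h5 : (p : ℤ) ∣ hermG (p * d) g 1 0 * (hermB (p * d) g - (b : ℤ) * d) := by
          have h6 := hib
          rw [h3, h4, show hermG (p * d) g 1 0 * hermB (p * d) g + hermG (p * d) g 1 1 * p -
            b * (hermG (p * d) g 1 0 * d) = hermG (p * d) g 1 0 * (hermB (p * d) g - (b : ℤ) * d) +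
              p * hermG (p * d) g 1 1 by ring] at h6
          exact (dvd_add_left (dvd_mul_right _ _)).mp h6
        exact (Int.Prime.dvd_mul' hp h5).resolve_left fun h => hip (by rw [h3]; exact h.mul_right _)
      have htw : Units.map (π : Rz (M * p) →* k) (tw (M * p) (p * d) g) = ((ζ ^ M) ^ b) ^ d := by
        rw [tw, hcod, Nat.mul_div_cancel _ hp.pos, map_zpow,
          show hermB (p * d) g * (M : ℕ) = ((M * b * d : ℕ) : ℤ) + ((M * p : ℕ) : ℤ) * e by
            push_cast; linear_combination (M : ℤ) * he,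
          zpow_add, zpow_mul, zpow_natCast, zpow_natCast, ← map_pow _ (zetaU (M * p)) (M * p),
          show zetaU (M * p) ^ (M * p) = 1 from Units.ext (zetaR_pow_self _), map_one, one_zpow,
          mul_one, pow_mul, pow_mul]
      rw [Gk_eq, htw, twist_qExpand, qExpand_qExpand]
      exact qExpand_congr (by rw [expo, hcls, hcod, Nat.mul_div_cancel _ hp.pos, mul_comm]) _

end Hecke

end Fermat.Agent.LevelLowerP
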