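import Fermat.Agent.LevelLowerP.CuspWidth
import Fermat.Agent.Kummer.TorsionMap
import Fermat.Agent.Kummer.Descent
import Fermat.Agent.Kummer.Hecke
import Fermat.Agent.Ihara.Ops

/-!
# Products over coset families, on meromorphic functions and on Kummer functions
-/

set_option autoImplicit false

noncomputable section

open CongruenceSubgroup ModularCurve
open scoped MatrixGroups

namespace Fermat.Agent.LevelLowerP

open Fermat.Agent.Kummer Fermat.Agent.Kummer.MeroH
open Fermat.Agent.MFGenus (FL)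
open Fermat.Agent.Cosets (parEllHoms mem_parEllHoms_iff)
open Fermat.Agent.Ihara (CosetSys mcoe Mat2)

section General

variable {Γ₁ Γ₂ : Subgroup SL(2, ℤ)} {ι κ : Type*} [Fintype ι] [Fintype κ]

/-- The product of the translates of a function by a coset family. -/
def funOp (S : CosetSys Γ₁ Γ₂ ι) : MeroH →* MeroH where
  toFun x := ∏ i, intComp (S.α i) (S.pos i) x
  map_one' := Finset.prod_eq_one fun i _ => map_one _
  map_mul' x y := by simp only [map_mul, Finset.prod_mul_distrib]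

theorem funOp_apply (S : CosetSys Γ₁ Γ₂ ι) (x : MeroH) :
    funOp S x = ∏ i, intComp (S.α i) (S.pos i) x := rfl

/-- Translating by an element of the group on the left. -/
theorem intComp_mcoe_mul (g : SL(2, ℤ)) {A : Mat2} (hA : 0 < A.det) (hgA : 0 < (mcoe g * A).det)
    (x : MeroH) : intComp (mcoe g * A) hgA x = intComp A hA (slComp g x) := by
  have hg : 0 < (g : Mat2).det := by rw [g.2]; exact one_pos
  rw [← intComp_intComp (M := (g : Mat2)) hg hA, intComp_coe]

/-- Two successive products. -/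
theorem funOp_funOp {Γ₃ : Subgroup SL(2, ℤ)} (S : CosetSys Γ₁ Γ₂ ι) (T : CosetSys Γ₂ Γ₃ κ)
    (x : MeroH) : funOp T (funOp S x) = ∏ z : ι × κ, intComp (S.α z.1 * T.α z.2)
      (by rw [Matrix.det_mul]; exact mul_pos (S.pos _) (T.pos _)) x := by
  rw [funOp_apply, Fintype.prod_prod_type, Finset.prod_comm]
  refine Finset.prod_congr rfl fun j _ => ?_
  rw [funOp_apply, map_prod]
  exact Finset.prod_congr rfl fun i _ => intComp_intComp (S.pos i) (T.pos j) _ x

end General

section Level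

variable {N : ℕ} [NeZero N] {ι : Type*} [Fintype ι] (S : CosetSys (Gamma0 N) (Gamma0 N) ι)
  {n : ℕ} [NeZero n]

omit [NeZero N] in
/-- The product of translates has the transferred multiplier. -/
theorem hasMult_funOp {G : MeroH} {φ : Additive (Gamma0 N) →+ ZMod n} (hφ : HasMult G φ) :
    HasMult (funOp S G) (S.op ℤ (ZMod n) φ) := by
  intro γ
  have hγ : 0 < ((γ : SL(2, ℤ)) : Mat2).det := by rw [(γ : SL(2, ℤ)).2]; exact one_pos
  rw [S.op_apply, zeta_sum, map_prod, funOp_apply, map_prod,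
    ← Equiv.prod_comp (S.permE γ) (fun i => intComp (S.α i) (S.pos i) G), ← Finset.prod_mul_distrib]
  refine Finset.prod_congr rfl fun i _ => ?_
  have h1 := S.mul_eq γ i
  rw [← intComp_coe (γ : SL(2, ℤ)) hγ,
    intComp_intComp (S.pos i) hγ (by rw [Matrix.det_mul]; exact mul_pos (S.pos i) hγ),
    intComp_congr _ (by rw [Matrix.det_mul, Ihara.mcoe_det, one_mul]; exact S.pos _) h1,
    intComp_mcoe_mul _ (S.pos _), hφ, map_mul, intComp_const]
  rfl

omit [NeZero N] [NeZero n] in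
/-- The product of translates of an invariant function is invariant. -/
theorem invariant_funOp {x : MeroH} (hx : ∀ γ ∈ Gamma0 N, slComp γ x = x) :
    ∀ γ ∈ Gamma0 N, slComp γ (funOp S x) = funOp S x := by
  have h := hasMult_funOp S (n := 1) (φ := 0) (hasMult_of_invariant hx)
  rw [map_zero] at h
  exact h.invariant

/-- Translates of a function meromorphic at the cusps, in a larger width. -/
theorem exists_isExp_intComp {G : MeroH} (hG : MeroAtCusps N G) {A : Mat2} (hA : 0 < A.det)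
    (δ : SL(2, ℤ)) :
    ∃ t, IsExp ((N * A.det.natAbs : ℕ) : ℝ) (slComp δ (intComp A hA G)) t := by
  have hδ : 0 < (δ : Mat2).det := by rw [δ.2]; exact one_pos
  have hAδ : 0 < (A * (δ : Mat2)).det := by rw [Matrix.det_mul, δ.2, mul_one]; exact hA
  obtain ⟨δ', a, b, d, ha, hd, had, heq⟩ := exists_sl_mul_upper (A * (δ : Mat2)) hAδ
  rw [Matrix.det_mul, δ.2, mul_one] at had
  obtain ⟨s, hs⟩ := hG δ'
  obtain ⟨t, ht⟩ := exists_isExp_intComp_upper (NeZero.pos N) hs (b := b) ha hd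
    (h := N * A.det.natAbs) (e := (a ^ 2).toNat)
    (Nat.mul_pos (NeZero.pos N) (Int.natAbs_pos.2 hA.ne')) (by
      push_cast
      rw [abs_of_pos hA, Int.toNat_of_nonneg (sq_nonneg a), ← had]
      ring)
  refine ⟨t, ?_⟩
  rw [← intComp_coe δ hδ, intComp_intComp hA hδ hAδ, intComp_congr hAδ (heq ▸ hAδ) heq,
    ← intComp_intComp (by rw [δ'.2]; exact one_pos) (det_upper_pos ha hd), intComp_coe]
  exact ht

omit [NeZero n] in
theorem exists_isExp_prod {I : Type*} (s : Finset I) (f : I → MeroH) (h : ℝ)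
    (hf : ∀ i ∈ s, ∃ t, IsExp h (f i) t) : ∃ t, IsExp h (∏ i ∈ s, f i) t := by
  classical
  induction s using Finset.induction with
  | empty => exact ⟨1, by rw [Finset.prod_empty]; exact IsExp.one⟩
  | insert a s ha ih =>
    obtain ⟨t, ht⟩ := hf a (Finset.mem_insert_self a s)
    obtain ⟨u, hu⟩ := ih fun i hi => hf i (Finset.mem_insert_of_mem hi)
    exact ⟨t * u, by rw [Finset.prod_insert ha]; exact ht.mul hu⟩

/-- The product of translates of a function with parabolic–elliptic multiplier is meromorphic at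
the cusps. -/
theorem meroAtCusps_funOp {D : ℕ} (hD : ∀ i, (S.α i).det = D) {G : MeroH}
    (hG : MeroAtCusps N G) {φ : Additive (Gamma0 N) →+ ZMod n} (hφ : HasMult G φ)
    (hmem : φ ∈ parEllHoms ℤ (Gamma0 N) (ZMod n)) : MeroAtCusps N (funOp S G) := by
  intro δ
  rcases Nat.eq_zero_or_pos D with rfl | hD0
  · have : IsEmpty ι := ⟨fun i => by have := S.pos i; rw [hD i] at this; simp at this⟩
    exact ⟨1,
      by rw [funOp_apply, Finset.univ_eq_empty, Finset.prod_empty, map_one]; exact IsExp.one⟩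
  obtain ⟨t, ht⟩ := exists_isExp_prod Finset.univ
    (fun i => slComp δ (intComp (S.α i) (S.pos i) G)) ((N * D : ℕ) : ℝ) fun i _ => by
      obtain ⟨t, ht⟩ := exists_isExp_intComp hG (S.pos i) δ
      refine ⟨t, ?_⟩
      rwa [hD i, Int.natAbs_natCast] at ht
  rw [← map_prod, ← funOp_apply] at ht
  refine exists_isExp_descend (NeZero.pos N) hD0 ht ?_
  set γ : SL(2, ℤ) := δ * ModularGroup.T ^ (N : ℤ) * δ⁻¹ with hγ
  have hmem' : γ ∈ Gamma0 N := by
    rw [Gamma0_mem, hγ]
    simp only [Matrix.SpecialLinearGroup.coe_mul, Matrix.SpecialLinearGroup.coe_inv,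
      ModularGroup.coe_T_zpow, Matrix.adjugate_fin_two, Matrix.mul_apply, Fin.sum_univ_two]
    simp
    ring
  have hop : S.op ℤ (ZMod n) φ (Additive.ofMul ⟨γ, hmem'⟩) = 0 :=
    mem_parEllHoms_iff.1 (S.op_mem_parEllHoms hmem) _ (by
      show ((γ : Mat2).trace) ^ 2 ≤ 4
      rw [hγ, Cosets.TraceClass.trace_conj, Cosets.trace_T_zpow]; norm_num)
  have h1 := hasMult_funOp S hφ ⟨γ, hmem'⟩
  rw [hop, zeta_zero, map_one, one_mul] at h1
  rw [slComp_slComp, show δ * ModularGroup.T ^ (N : ℤ) = γ * δ by rw [hγ]; group,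
    ← slComp_slComp, h1]

variable {L : Type*} [Field L] [Algebra ℚ L] (ι' : L →+* ℂ)

/-- The product of translates of a modular function, over `ℂ`. -/
theorem exists_embed_eq_funOp {D : ℕ} (hD : ∀ i, (S.α i).det = D) (x : FL L N) :
    ∃ z : FL ℂ N, embed (RingHom.id ℂ) N z = funOp S (embed ι' N x) :=
  exists_embed_eq (invariant_funOp S fun _ hγ => slComp_embed ι' x hγ)
    (meroAtCusps_funOp S hD (meroAtCusps_embed ι' x)
      (hasMult_of_invariant (n := 1) fun _ hγ => slComp_embed ι' x hγ)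
      ((parEllHoms ℤ (Gamma0 N) (ZMod 1)).zero_mem))

/-- The same over `L`, given the expansion. -/
theorem exists_embed_eq_funOp_of_isExp {D : ℕ} (hD : ∀ i, (S.α i).det = D) (x : FL L N)
    {s : LaurentSeries L} (hs : IsExp 1 (funOp S (embed ι' N x)) (coeffMap ι' s)) :
    ∃ y : FL L N, (y : LaurentSeries L) = s ∧ embed ι' N y = funOp S (embed ι' N x) := by
  obtain ⟨y, hy⟩ := exists_embed_eq_of_coeff ι'
    (invariant_funOp S fun _ hγ => slComp_embed ι' x hγ)
    (meroAtCusps_funOp S hD (meroAtCusps_embed ι' x)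
      (hasMult_of_invariant (n := 1) fun _ hγ => slComp_embed ι' x hγ)
      ((parEllHoms ℤ (Gamma0 N) (ZMod 1)).zero_mem)) hs fun k => ⟨s.coeff k, by rw [coeffMap_coeff]⟩
  refine ⟨y, ?_, hy⟩
  have h := (((embed_eq_iff ι' y _).1 hy).unique one_pos hs).2 rfl
  exact HahnSeries.ext (funext fun k => ι'.injective (by
    rw [← coeffMap_coeff, ← coeffMap_coeff, h]))

/-- **Eigen relation of a Kummer function.** -/
theorem exists_eq_zpow_mul_pow [IsAlgClosed L] {D : ℕ} (hD : ∀ i, (S.α i).det = D) {f F : FL L N}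
    (hf : f ≠ 0) {G : MeroH} (hG : G ^ n = embed ι' N f) (hGc : MeroAtCusps N G)
    {φ : Additive (Gamma0 N) →+ ZMod n} (hφ : HasMult G φ)
    (hmem : φ ∈ parEllHoms ℤ (Gamma0 N) (ZMod n)) (a : ℤ)
    (hop : S.op ℤ (ZMod n) φ = a • φ) (hF : embed ι' N F = funOp S (embed ι' N f)) :
    ∃ h : FL L N, h ≠ 0 ∧ F = f ^ a * h ^ n := by
  have := isFunctionField_FL (N := N) ι'
  have := charZero_of_injective_algebraMap (algebraMap ℚ L).injective
  have hn := NeZero.ne n
  have hF0 : F ≠ 0 := fun h0 => by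
    rw [h0, map_zero, funOp_apply] at hF
    obtain ⟨i, -, hi⟩ := Finset.prod_eq_zero_iff.1 hF.symm
    exact (map_ne_zero (embed ι' N)).2 hf ((map_eq_zero _).1 hi)
  set R := funOp S G / G ^ a with hR
  have hRinv : ∀ γ ∈ Gamma0 N, slComp γ R = R := fun γ hγ => by
    have h1 := hasMult_funOp S hφ ⟨γ, hγ⟩
    rw [hop] at h1
    have h2 : zeta ((a • φ) (Additive.ofMul ⟨γ, hγ⟩)) = zeta (φ (Additive.ofMul ⟨γ, hγ⟩)) ^ a := by
      rw [AddMonoidHom.smul_apply, zeta, AddChar.map_zsmul_eq_zpow]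
    rw [h2] at h1
    rw [hR, map_div₀, map_zpow₀, h1, hφ ⟨γ, hγ⟩, mul_zpow, map_zpow₀,
      mul_div_mul_left _ _ (zpow_ne_zero _ ((map_ne_zero _).2 (zeta_ne_zero _)))]
  have hN : (0 : ℝ) < N := Nat.cast_pos.2 (NeZero.pos N)
  have hRc : MeroAtCusps N R := fun δ => by
    obtain ⟨u, hu⟩ := meroAtCusps_funOp S hD hGc hφ hmem δ
    obtain ⟨v, hv⟩ := hGc δ
    rw [hR, map_div₀, map_zpow₀]
    rcases Int.eq_nat_or_neg a with ⟨m, rfl | rfl⟩
    · exact ⟨_, by rw [zpow_natCast]; exact hu.div hN (hv.pow m)⟩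
    · exact ⟨_, by rw [zpow_neg, zpow_natCast]; exact hu.div hN ((hv.pow m).inv hN)⟩
  obtain ⟨z, hz⟩ := exists_embed_eq hRinv hRc
  set F₀ := F / f ^ a with hF₀
  have hpow : R ^ n = embed ι' N F₀ := by
    rw [hR, hF₀, map_div₀, map_zpow₀, hF, ← hG, map_pow, div_pow]
    congr 1
    rw [← zpow_natCast, ← zpow_natCast G n, ← zpow_mul, ← zpow_mul, mul_comm]
  have ht : IsExp 1 R (coeffMap (RingHom.id ℂ) (z : LaurentSeries ℂ)) :=
    hz ▸ isExp_embed (RingHom.id ℂ) z
  have htn : coeffMap (RingHom.id ℂ) (z : LaurentSeries ℂ) ^ n =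
      coeffMap ι' (F₀ : LaurentSeries L) :=
    ((ht.pow n).unique one_pos (isExp_embed ι' F₀)).2 hpow
  have hF₀0 : F₀ ≠ 0 := div_ne_zero hF0 (zpow_ne_zero _ hf)
  have hord : (coeffMap ι' (F₀ : LaurentSeries L)).order = (F₀ : LaurentSeries L).order := by
    have h0 : (F₀ : LaurentSeries L) ≠ 0 := fun h0 => hF₀0 (Subtype.ext h0)
    refine le_antisymm (HahnSeries.order_le_of_coeff_ne_zero ?_)
      (HahnSeries.order_le_of_coeff_ne_zero ?_)
    · rw [coeffMap_coeff]
      exact (map_ne_zero ι').2 (HahnSeries.coeff_order_eq_zero.not.2 h0)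
    · intro h1
      refine HahnSeries.coeff_order_eq_zero.not.2 ((map_ne_zero (coeffMap ι')).2 h0) ?_
      rw [coeffMap_coeff, h1, map_zero]
  have hdvd : (n : ℤ) ∣ (F₀ : LaurentSeries L).order := by
    rw [← hord, ← htn, HahnSeries.order_pow, nsmul_eq_mul]
    exact dvd_mul_right _ _
  obtain ⟨h, hh⟩ := exists_embed_eq_of_coeff ι' hRinv hRc ht
    (exists_eq_coeff_of_pow ι' hn _ hdvd htn)
  have hhn : h ^ n = F₀ := embed_injective ι' N (by rw [map_pow, hh, hpow])
  refine ⟨h, fun h0 => hF₀0 (by rw [← hhn, h0, zero_pow hn]), ?_⟩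
  rw [hhn, hF₀, mul_div_cancel₀ _ (zpow_ne_zero _ hf)]

end Level

end Fermat.Agent.LevelLowerP
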