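import Fermat.Agent.Kummer.Multiplier

/-!
# Expansions in different widths

Composition with an integral matrix, and descent of the width of a periodic element.
-/

set_option autoImplicit false

noncomputable section

open Filter Topology Complex
open UpperHalfPlane hiding I continuous_im im re
open scoped MatrixGroups

namespace Fermat.Agent.LevelLowerP

open Fermat.Agent.Kummer Fermat.Agent.Kummer.MeroH

/-- An expansion after `z ↦ (a z + b) / d`, from any width. -/
theorem exists_isExp_intComp_upper {x : MeroH} {h₀ : ℕ} (hh₀ : 0 < h₀) {s : LaurentSeries ℂ}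
    (hx : IsExp h₀ x s) {a b d : ℤ} (ha : 0 < a) (hd : 0 < d) {h e : ℕ} (hh : 0 < h)
    (he : a * h = d * h₀ * e) :
    ∃ t, IsExp h (intComp !![a, b; 0, d] (det_upper_pos ha hd) x) t := by
  have hepos : 0 < e := by
    rcases Nat.eq_zero_or_pos e with h0 | h0
    · subst h0
      simp only [Nat.cast_zero, mul_zero] at he
      have : (0 : ℤ) < a * h := mul_pos ha (by exact_mod_cast hh)
      omega
    · exact h0
  obtain ⟨F, hF, ex⟩ := hx
  obtain ⟨t1, ht1, -⟩ := hF.comp_mul_left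
    (Function.Periodic.qParam_ne_zero (h := (h₀ : ℝ)) ((b : ℂ) / d))
  obtain ⟨t, ht, -, -⟩ := ht1.comp_pow hepos.ne'
  refine ⟨t, _, ht, ?_⟩
  obtain ⟨f, hf, rfl⟩ := exists_rep x
  rw [res_mk, Germ.coe_eq] at ex
  rw [intComp_mk]
  erw [res_mk, Germ.coe_eq]
  obtain ⟨A, hA0, hA⟩ := exists_nhdsNE_of_eventually_cuspFilter ex
  have hM := det_upper_pos (b := b) ha hd
  have hmoeb : ∀ w ∈ uhp, moeb (intGL !![a, b; 0, d] hM) w = ((a : ℂ) * w + b) / d := fun w hw => by
    rw [moeb_intGL hM hw]; simp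
  refine eventually_cuspFilter_of_nhdsNE ((d : ℝ) / a * A) fun z hz hzA => ?_
  have h1 := hA (moeb (intGL !![a, b; 0, d] hM) z) (by
    rw [hmoeb z hz]
    have : (((a : ℂ) * z + b) / d).im = (a : ℝ) * z.im / d := by
      simp [Complex.div_im, Complex.normSq_apply]
      field_simp
    rw [this, lt_div_iff₀ (by exact_mod_cast hd)]
    have ha' : (0 : ℝ) < a := by exact_mod_cast ha
    rw [div_mul_eq_mul_div, div_lt_iff₀ ha'] at hzA
    linarith)
  filter_upwards [(tendsto_moeb_nhdsNE (det_intGL_pos _ hM) hz).eventually h1,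
    mem_nhdsWithin_of_mem_nhds (isOpen_uhp.mem_nhds hz)] with w hw hwu
  simp only [Function.comp_apply] at hw ⊢
  rw [hw, hmoeb w hwu]
  congr 1
  simp only [Function.Periodic.qParam, ← Complex.exp_nat_mul, ← Complex.exp_add]
  congr 1
  have hd0 : (d : ℂ) ≠ 0 := by exact_mod_cast hd.ne'
  have hh0 : (h : ℂ) ≠ 0 := by exact_mod_cast hh.ne'
  have hh00 : (h₀ : ℂ) ≠ 0 := by exact_mod_cast hh₀.ne'
  have he' : (a : ℂ) * h = d * h₀ * e := by exact_mod_cast he
  push_cast
  field_simp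
  linear_combination w * he'

/-- An analytic function with Taylor coefficients supported on the multiples of `e` is a function
of `z ^ e`. -/
theorem exists_analytic_comp_pow {g : ℂ → ℂ} (hg : AnalyticAt ℂ g 0) {e : ℕ} (he : e ≠ 0)
    (hsupp : ∀ m, ¬ e ∣ m → (taylor g).coeff m = 0) :
    ∃ g' : ℂ → ℂ, AnalyticAt ℂ g' 0 ∧ g =ᶠ[𝓝 0] fun z => g' (z ^ e) := by
  choose r hr using fun w : ℂ => IsAlgClosed.exists_pow_nat_eq w (Nat.pos_of_ne_zero he)
  have hlim : Tendsto r (𝓝 0) (𝓝 0) := by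
    rw [Metric.tendsto_nhds_nhds]
    intro ε hε
    refine ⟨ε ^ e, pow_pos hε e, fun {w} hw => ?_⟩
    rw [dist_zero_right] at hw ⊢
    by_contra hlt
    have := pow_le_pow_left₀ hε.le (not_lt.1 hlt) e
    rw [← norm_pow, hr] at this
    linarith
  have hkey : ∀ z : ℂ, HasSum (fun m => z ^ m * (taylor g).coeff m) (g z) →
      HasSum (fun m => (z ^ e) ^ m * (taylor g).coeff (e * m)) (g z) := fun z hz => by
    have h :=
      ((mul_right_injective₀ he).hasSum_iff (f := fun m => z ^ m * (taylor g).coeff m) ?_).2 hz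
    · exact h.congr_fun fun m => by simp [pow_mul]
    · intro m hm
      rw [hsupp m fun ⟨c, hc⟩ => hm ⟨c, hc.symm⟩, mul_zero]
  have hs : ∀ᶠ w in 𝓝 (0 : ℂ), HasSum (fun m => w ^ m * (taylor g).coeff (e * m)) (g (r w)) := by
    filter_upwards [hlim.eventually (eventually_hasSum_taylor hg)] with w hw
    simpa [hr] using hkey _ hw
  refine ⟨fun w => g (r w), (taylor_eq_mk_of_hasSum hs).1, ?_⟩
  have hpow : Tendsto (fun z : ℂ => z ^ e) (𝓝 0) (𝓝 0) := by
    simpa [he] using (continuous_pow e).tendsto (0 : ℂ)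
  filter_upwards [eventually_hasSum_taylor hg, hpow.eventually hs] with z h1 h2
  exact (hkey z h1).unique h2

/-- The width of an expansion descends to any period. -/
theorem exists_isExp_descend {x : MeroH} {N e : ℕ} (hN : 0 < N) (he : 0 < e) {s : LaurentSeries ℂ}
    (hx : IsExp ((N * e : ℕ) : ℝ) x s) (hper : slComp (ModularGroup.T ^ (N : ℤ)) x = x) :
    ∃ t, IsExp N x t := by
  have hNe : (0 : ℝ) < ((N * e : ℕ) : ℝ) := by exact_mod_cast Nat.mul_pos hN he
  obtain ⟨t, ht, htc⟩ := hx.slComp_T_zpow hNe (N : ℤ)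
  rw [hper] at ht
  have hts : t = s := ((ht.unique hNe hx)).2 rfl
  have hsupp : ∀ k : ℤ, s.coeff k ≠ 0 → (e : ℤ) ∣ k := by
    intro k hk
    have h1 := htc k
    rw [hts] at h1
    have h2 : Function.Periodic.qParam ((N * e : ℕ) : ℝ) ((N : ℤ) : ℂ) ^ k = 1 :=
      mul_right_cancel₀ hk (by rw [one_mul]; exact h1.symm)
    rw [Function.Periodic.qParam, ← Complex.exp_int_mul, Complex.exp_eq_one_iff] at h2
    obtain ⟨n, hn⟩ := h2
    refine ⟨n, ?_⟩
    have hN0 : (N : ℂ) ≠ 0 := by exact_mod_cast hN.ne'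
    have he0 : (e : ℂ) ≠ 0 := by exact_mod_cast he.ne'
    push_cast at hn
    field_simp at hn
    have h3 : (k : ℂ) = e * n := by linear_combination hn
    exact_mod_cast h3
  obtain ⟨F, ⟨n, g, hg, hFg, hs⟩, ex⟩ := hx
  have he0 : (e : ℤ) ≠ 0 := by exact_mod_cast he.ne'
  -- make the shift a multiple of `e`
  set j := (n % e).toNat with hj
  have hjn : n = e * (n / e) + (j : ℤ) := by
    rw [hj, Int.toNat_of_nonneg (Int.emod_nonneg n he0)]
    exact (Int.mul_ediv_add_emod n e).symm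
  have hgj : AnalyticAt ℂ (fun z : ℂ => z ^ j) 0 := analyticAt_id.fun_pow j
  set g₁ : ℂ → ℂ := (fun z => z ^ j) * g with hg₁
  have hg₁a : AnalyticAt ℂ g₁ 0 := hgj.mul hg
  have hs₁ : s = shiftSeries (e * (n / e)) (taylor g₁) := by
    rw [hs, hg₁, taylor_mul hgj hg, taylor_id_pow, ← shiftSeries_add_nat, ← hjn]
  have hsupp₁ : ∀ m, ¬ e ∣ m → (taylor g₁).coeff m = 0 := fun m hm => by
    by_contra hne
    have h1 : (e : ℤ) ∣ e * (n / e) + m := by
      refine hsupp _ ?_
      rw [hs₁, shiftSeries, HahnSeries.coeff_single_mul, one_mul, add_sub_cancel_left,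
        HahnSeries.ofPowerSeries_apply_coeff]
      exact hne
    exact hm (Int.natCast_dvd_natCast.1 ((dvd_add_right (dvd_mul_right _ _)).1 h1))
  obtain ⟨g₂, hg₂, hgg⟩ := exists_analytic_comp_pow hg₁a he.ne' hsupp₁
  have hF' : F =ᶠ[𝓝[≠] 0] fun z => (fun w => w ^ (n / e) * g₂ w) (z ^ e) := by
    filter_upwards [hFg, mem_nhdsWithin_of_mem_nhds hgg, self_mem_nhdsWithin] with z hz hz' hz0
    rw [hz, ← zpow_natCast z e, ← zpow_mul]
    simp only [hg₁, Pi.mul_apply] at hz'
    rw [zpow_natCast, ← hz']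
    conv_lhs => rw [hjn, zpow_add₀ (show z ≠ 0 from hz0), zpow_natCast]
    ring
  refine ⟨_, fun w => w ^ (n / e) * g₂ w, ⟨n / e, g₂, hg₂, EventuallyEq.refl _ _, rfl⟩, ?_⟩
  rw [ex, Germ.coe_eq]
  filter_upwards [(tendsto_qParam_cuspFilter hNe).eventually hF'] with z hz
  simp only [Function.comp_apply] at hz ⊢
  rw [hz]
  congr 1 <;> congr 1 <;>
  · simp only [Function.Periodic.qParam, ← Complex.exp_nat_mul]
    congr 1
    have he0 : (e : ℂ) ≠ 0 := by exact_mod_cast he.ne'
    push_cast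
    field_simp

end Fermat.Agent.LevelLowerP
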