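import Fermat.Agent.LevelLowerP.NodeJump

/-!
# The abstract geometric model

The abstract geometry used by the level lowering argument at `p`: two components, their smooth
points, the nodes, and lifting of pairs of reduced functions with bounded poles.

The main definitions are `GBranch`, `LocalPoint`, `LocalNode` and `Model`.
-/

set_option autoImplicit false

namespace Fermat.Agent.LevelLowerP

open DualNumber TrivSqZeroExt
open scoped LaurentSeries

variable {p : ℕ} {R k : Type*} [CommRing R] [IsDomain R] [IsDiscreteValuationRing R] [Field k]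
  [CharP k p] [Fact p.Prime]

/-- A component of the special fibre: the order along it and reduction-with-derivative of the
normalised function. -/
structure GBranch (S : Setup p R k) (L κ : Type*) [Field L] [Field κ] [Algebra R L] [Algebra k κ]
    where
  /-- order along the component -/
  ord : L → ℤ
  /-- reduction and derivative of `x / ϖ ^ ord x` -/
  sp : L → DualNumber κ
  ord_mul : ∀ x y, x ≠ 0 → y ≠ 0 → ord (x * y) = ord x + ord y
  sp_mul : ∀ x y, x ≠ 0 → y ≠ 0 → sp (x * y) = sp x * sp y
  fst_sp_ne_zero : ∀ x, x ≠ 0 → (sp x).fst ≠ 0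
  ord_ϖ : ord (algebraMap R L S.ϖ) = 1
  sp_ϖ : sp (algebraMap R L S.ϖ) = 1
  ord_const : ∀ r, S.res r ≠ 0 → ord (algebraMap R L r) = 0
  sp_const : ∀ r, S.res r ≠ 0 → sp (algebraMap R L r) = dualMap (algebraMap k κ) (S.δ r)

variable {S : Setup p R k} {L κ : Type*} [Field L] [Field κ] [Algebra R L] [Algebra k κ]

namespace GBranch

variable (G : GBranch S L κ)

/-- Logarithmic derivative. -/
noncomputable def psi (x : L) : κ := (G.sp x).snd / (G.sp x).fst

/-- Residue of the normalised function. -/
def resUnit (x : L) : κ := (G.sp x).fst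

/-- Divisibility by `ϖ ^ n`. -/
def Ge (n : ℤ) (x : L) : Prop := x = 0 ∨ n ≤ G.ord x

open Classical in
/-- Residue of an integral function. -/
noncomputable def res (x : L) : κ := if x ≠ 0 ∧ G.ord x = 0 then G.resUnit x else 0

/-- `f` is, up to a constant, a `p`th power modulo every power of `ϖ`. -/
def PowApprox (f : L) : Prop :=
  ∀ n : ℕ, ∃ (r s : R) (g : L), r ≠ 0 ∧ s ≠ 0 ∧ g ≠ 0 ∧
    G.Ge n (f * algebraMap R L s / (algebraMap R L r * g ^ p) - 1)

end GBranch

/-- A smooth point of a component, with its disc. -/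
structure LocalPoint (G : GBranch S L κ) where
  /-- expansion at the point -/
  ι : L →+* FractionRing (PowerSeries R)
  /-- expansion on the reduced curve -/
  e : κ →+* LaurentSeries k
  ι_algebraMap : ∀ r, ι (algebraMap R L r) =
    algebraMap (PowerSeries R) (FractionRing (PowerSeries R)) (PowerSeries.C r)
  e_algebraMap : ∀ c, e (algebraMap k κ c) = HahnSeries.C c
  ord_eq : ∀ x, x ≠ 0 → S.discBranch.ord (ι x) = G.ord x
  sp_eq : ∀ x, x ≠ 0 → S.discBranch.sp (ι x) = dualMap e (G.sp x)

variable [IsDomain (Node R p)]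

/-- A node joining two components, with its annulus. -/
structure LocalNode (GI G₀ : GBranch S L κ) where
  /-- expansion at the node -/
  ι : L →+* FractionRing (Node R p)
  /-- expansion on the component at infinity -/
  eI : κ →+* LaurentSeries k
  /-- expansion on the other component -/
  e₀ : κ →+* LaurentSeries k
  ι_algebraMap : ∀ r, ι (algebraMap R L r) =
    algebraMap (Node R p) (FractionRing (Node R p)) (AdjoinRoot.of _ (PowerSeries.C r))
  eI_algebraMap : ∀ c, eI (algebraMap k κ c) = HahnSeries.C c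
  e₀_algebraMap : ∀ c, e₀ (algebraMap k κ c) = HahnSeries.C c
  ordI_eq : ∀ x, x ≠ 0 → S.infBranch.ord (ι x) = GI.ord x
  ord₀_eq : ∀ x, x ≠ 0 → S.zeroBranch.ord (ι x) = G₀.ord x
  spI_eq : ∀ x, x ≠ 0 → S.infBranch.sp (ι x) = dualMap eI (GI.sp x)
  sp₀_eq : ∀ x, x ≠ 0 → S.zeroBranch.sp (ι x) = dualMap e₀ (G₀.sp x)

/-- Poles of `a` at the origin are bounded by `n`. -/
def PolesLE (n : ℕ) (a : LaurentSeries k) : Prop :=
  IsPow (((PowerSeries.X : PowerSeries k) : LaurentSeries k) ^ n * a)

/-- `x` has no horizontal pole, for valuations integral on `O` and trivial on `ϖ`. -/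
def NoHorizPole {O F : Type*} [CommRing O] [Field F] [Algebra O F] (ϖ : O) (x : F) : Prop :=
  ∀ v : Valuation F (WithZero (Multiplicative ℤ)), (∀ o, v (algebraMap O F o) ≤ 1) →
    v (algebraMap O F ϖ) = 1 → v x ≤ 1

/-- The geometry: two components, their smooth points with allowed pole orders, the nodes, and
lifting of compatible pairs with bounded poles to a finitely generated lattice. -/
structure Model (S : Setup p R k) (L κ : Type*) [Field L] [Field κ] [Algebra R L] [Algebra k κ]
    where
  /-- the component at infinity -/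
  inf : GBranch S L κ
  /-- the other component -/
  zero : GBranch S L κ
  /-- smooth points of the component at infinity -/
  PtI : Type
  /-- smooth points of the other component -/
  Pt₀ : Type
  /-- nodes -/
  Nd : Type
  nonempty_nd : Nonempty Nd
  /-- the discs -/
  ptI : PtI → LocalPoint inf
  /-- the discs -/
  pt₀ : Pt₀ → LocalPoint zero
  /-- the annuli -/
  node : Nd → LocalNode inf zero
  /-- allowed pole orders -/
  poleI : PtI → ℕ → ℕ
  /-- allowed pole orders -/
  pole₀ : Pt₀ → ℕ → ℕ
  poleI_mono : ∀ Q, Monotone (poleI Q)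
  pole₀_mono : ∀ Q, Monotone (pole₀ Q)
  const_inf : ∀ y : κ, (∀ Q, IsPow ((ptI Q).e y)) → (∀ v, IsPow ((node v).eI y)) →
    ∃ c : k, y = algebraMap k κ c
  const_zero : ∀ y : κ, (∀ Q, IsPow ((pt₀ Q).e y)) → (∀ v, IsPow ((node v).e₀ y)) →
    ∃ c : k, y = algebraMap k κ c
  /-- functions integral on both components with bounded poles -/
  latt : ℕ → Submodule R L
  latt_fg : ∀ n, (latt n).FG
  latt_inf : ∀ n, ∀ x ∈ latt n, inf.Ge 0 x
  latt_zero : ∀ n, ∀ x ∈ latt n, zero.Ge 0 x
  latt_regular : ∀ n, ∀ x ∈ latt n,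
    (∀ Q, NoHorizPole (PowerSeries.C S.ϖ) ((ptI Q).ι x *
      algebraMap (PowerSeries R) (FractionRing (PowerSeries R)) PowerSeries.X ^ poleI Q n)) ∧
    (∀ Q, NoHorizPole (PowerSeries.C S.ϖ) ((pt₀ Q).ι x *
      algebraMap (PowerSeries R) (FractionRing (PowerSeries R)) PowerSeries.X ^ pole₀ Q n)) ∧
    ∀ v, NoHorizPole S.nodeϖ ((node v).ι x)
  exists_lift : ∃ n₀, ∀ n, n₀ ≤ n → ∀ a b : κ,
    (∀ Q, PolesLE (poleI Q n) ((ptI Q).e a)) → (∀ Q, PolesLE (pole₀ Q n) ((pt₀ Q).e b)) →
    (∀ v, ∃ α β : PowerSeries k, (node v).eI a = (α : LaurentSeries k) ∧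
      (node v).e₀ b = (β : LaurentSeries k) ∧
      PowerSeries.constantCoeff α = PowerSeries.constantCoeff β) →
    ∃ γ ∈ latt n, inf.res γ = a ∧ zero.res γ = b

namespace Model

variable (M : Model S L κ)

/-- All valuations of the local rings trivial on constants take values divisible by `p` at `f`. -/
def MultDiv (f : L) : Prop :=
  (∀ Q, HorizDiv p (PowerSeries.C S.ϖ) ((M.ptI Q).ι f)) ∧
  (∀ Q, HorizDiv p (PowerSeries.C S.ϖ) ((M.pt₀ Q).ι f)) ∧
  ∀ v, HorizDiv p S.nodeϖ ((M.node v).ι f)

/-- `f` is regular away from the allowed poles, which are bounded by `p` times the bound at `n`. -/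
def RegularUpTo (n : ℕ) (f : L) : Prop :=
  (∀ Q, NoHorizPole (PowerSeries.C S.ϖ) ((M.ptI Q).ι f *
    algebraMap (PowerSeries R) (FractionRing (PowerSeries R)) PowerSeries.X ^ (p * M.poleI Q n))) ∧
  (∀ Q, NoHorizPole (PowerSeries.C S.ϖ) ((M.pt₀ Q).ι f *
    algebraMap (PowerSeries R) (FractionRing (PowerSeries R)) PowerSeries.X ^ (p * M.pole₀ Q n))) ∧
  ∀ v, NoHorizPole S.nodeϖ ((M.node v).ι f)

end Model

end Fermat.Agent.LevelLowerP
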