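import Fermat.Agent.LevelLowerP.GeoLift

/-!
# Finitely generated lattices of lifts

For every bound the compatible pairs form a finite-dimensional space, so finitely many lifts span
a lattice over the base containing lifts of all of them.
-/

set_option autoImplicit false

noncomputable section

namespace Fermat.Agent.LevelLowerP

open Polynomial ModularCurve Fermat.Agent.Igusa AlgebraicCurve
open Fermat.Agent.Reduction Fermat.Agent.Reduction.Level
open scoped LaurentSeries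

variable {p : ℕ} {R k : Type} [CommRing R] [IsDomain R] [IsDiscreteValuationRing R] [Field k]
  [CharP k p] [Fact p.Prime] [CharZero R] (S : Setup p R k) (M : ℕ) [NeZero M] [IsAlgClosed k]

local notation "K" => FractionRing R
local notation "F" => modularFunctionFieldFullC k M
local notation "L" => modularFunctionFieldFullC (FractionRing R) (M * p)

variable (hpM : ¬ p ∣ M)

theorem lifts_zero (n : ℕ) : Lifts S M hpM n 0 0 0 := by
  have h : CuspBdd p M K n (0 : L) := fun w _ =>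
    ⟨fun _ => by rw [map_zero]; exact zero_le, fun _ _ _ => by rw [map_zero]; exact zero_le⟩
  unfold Lifts
  rw [map_zero]
  exact ⟨⟨h, h⟩, ⟨Or.inl rfl, GBranch.res_zero _⟩, Or.inl rfl, GBranch.res_zero _⟩

theorem Lifts.add {n : ℕ} {γ δ : L} {a b a' b' : F} (h : Lifts S M hpM n γ a b)
    (h' : Lifts S M hpM n δ a' b') : Lifts S M hpM n (γ + δ) (a + a') (b + b') := by
  obtain ⟨⟨h1, h2⟩, ⟨h3, h4⟩, h5, h6⟩ := h
  obtain ⟨⟨g1, g2⟩, ⟨g3, g4⟩, g5, g6⟩ := h'
  unfold Lifts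
  rw [map_add]
  exact ⟨⟨h1.add' M g1, h2.add' M g2⟩,
    ⟨(embInf S M hpM).ge_add h3 g3, by rw [(embInf S M hpM).res_add h3 g3, h4, g4]⟩,
    (embInf S M hpM).ge_add h5 g5, by rw [(embInf S M hpM).res_add h5 g5, h6, g6]⟩

theorem Lifts.smul {n : ℕ} {γ : L} {a b : F} (h : Lifts S M hpM n γ a b) (r : R) :
    Lifts S M hpM n (r • γ) (S.res r • a) (S.res r • b) := by
  obtain ⟨⟨h1, h2⟩, ⟨h3, h4⟩, h5, h6⟩ := h
  obtain ⟨hr, hr'⟩ := res_const S M hpM r
  have hw : wAL K M p hpM (algebraMap R L r * γ) = algebraMap R L r * wAL K M p hpM γ := by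
    rw [map_mul, algebraMap_eq_cF, wAL_cF]
  unfold Lifts
  rw [Algebra.smul_def, hw]
  refine ⟨⟨h1.const_mul M r, h2.const_mul M r⟩, ⟨by simpa using GBranch.ge_mul _ hr h3, ?_⟩,
    by simpa using GBranch.ge_mul _ hr h5, ?_⟩
  · rw [(embInf S M hpM).res_mul hr h3, hr', h4]
    exact (Algebra.smul_def _ _).symm
  · rw [(embInf S M hpM).res_mul hr h5, hr', h6]
    exact (Algebra.smul_def _ _).symm

/-- The functions lifting some pair with bound `n`. -/
def liftSub (n : ℕ) : Submodule R L where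
  carrier := {γ | ∃ a b, Lifts S M hpM n γ a b}
  zero_mem' := ⟨0, 0, lifts_zero S M hpM n⟩
  add_mem' := by
    rintro γ δ ⟨a, b, h⟩ ⟨a', b', h'⟩
    exact ⟨_, _, Lifts.add S M hpM h h'⟩
  smul_mem' := by
    rintro r γ ⟨a, b, h⟩
    exact ⟨_, _, Lifts.smul S M hpM h r⟩

/-- The pairs with lifts in a given lattice. -/
def pairsIn (n : ℕ) (Λ : Submodule R L) : Submodule k (F × F) where
  carrier := {ab | ∃ γ ∈ Λ, Lifts S M hpM n γ ab.1 ab.2}
  zero_mem' := ⟨0, zero_mem _, lifts_zero S M hpM n⟩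
  add_mem' := by
    rintro ⟨a, b⟩ ⟨a', b'⟩ ⟨γ, hγ, h⟩ ⟨δ, hδ, h'⟩
    exact ⟨γ + δ, add_mem hγ hδ, Lifts.add S M hpM h h'⟩
  smul_mem' := by
    rintro c ⟨a, b⟩ ⟨γ, hγ, h⟩
    obtain ⟨r, rfl⟩ := S.res_surjective c
    exact ⟨r • γ, Submodule.smul_mem _ r hγ, Lifts.smul S M hpM h r⟩

variable [Algebra (ZMod p) k] [Algebra.IsAlgebraic (ZMod p) k]

/-- **Finitely generated lattices of lifts.** -/
theorem exists_latt (U : Unram S) : ∃ n₀, ∀ n, ∃ Λ : Submodule R L, Λ.FG ∧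
    (∀ x ∈ Λ, LattGood p M K hpM n x ∧ (infGB S M hpM).Ge 0 x ∧ (zeroGB S M hpM).Ge 0 x) ∧
    (n₀ ≤ n → ∀ a b : F, Bdd k M n a → Bdd k M n b →
      (∀ v : Place k F, 0 ≤ v.ord (jC k M) → 0 < v.ord (hasseK p k M) →
        a = phiK p k M b ∨ 0 < v.ord (a - phiK p k M b)) →
      ∃ γ ∈ Λ, (infGB S M hpM).res γ = a ∧ (zeroGB S M hpM).res γ = b) := by
  classical
  have := isFunctionField_level (k := k) (N := M) (natCast_ne_zero_of_not_dvd p M k hpM)
  obtain ⟨n₀, hn₀⟩ := exists_good_lift S M hpM U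
  refine ⟨n₀, fun n => ?_⟩
  let V : Submodule k (F × F) :=
    (riemannRochSpace (jPoles k M n)).prod (riemannRochSpace (jPoles k M n))
  have hV : V.FG :=
    (Module.Finite.iff_fg.1 inferInstance).prod (Module.Finite.iff_fg.1 inferInstance)
  have : Module.Finite k V := Module.Finite.iff_fg.2 hV
  have : Module.Finite k ↥(goodPairs S M hpM n ⊓ V) :=
    Submodule.finiteDimensional_of_le (S₂ := V) inf_le_right
  obtain ⟨s, hs⟩ : (goodPairs S M hpM n ⊓ V).FG := Module.Finite.iff_fg.1 inferInstance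
  have hmem : ∀ ab : s, ∃ γ, Lifts S M hpM n γ (ab : F × F).1 (ab : F × F).2 := fun ab =>
    (Submodule.mem_inf.1 (hs ▸ Submodule.subset_span ab.2)).1
  choose γ hγ using hmem
  let Λ : Submodule R L := Submodule.span R (Set.range γ)
  have hΛ : Λ ≤ liftSub S M hpM n := Submodule.span_le.2 (by
    rintro _ ⟨ab, rfl⟩
    exact ⟨_, _, hγ ab⟩)
  refine ⟨Λ, Submodule.fg_span (Set.finite_range γ), fun x hx => ?_, fun hn a b ha hb hss => ?_⟩
  · obtain ⟨a, b, h1, ⟨h2, -⟩, h3, -⟩ := hΛ hx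
    exact ⟨h1, h2, (zeroGB_ge_iff S M hpM).2 h3⟩
  · obtain ⟨δ, h1, h2, h3, h4, h5⟩ := hn₀ n hn a b ha hb hss
    have hab : (a, b) ∈ goodPairs S M hpM n ⊓ V :=
      ⟨⟨δ, h1, ⟨h2, h4⟩, (zeroGB_ge_iff S M hpM).1 h3, (zeroGB_res S M hpM δ).symm.trans h5⟩,
        (bdd_iff_mem_jPoles a).1 ha, (bdd_iff_mem_jPoles b).1 hb⟩
    have hle : goodPairs S M hpM n ⊓ V ≤ pairsIn S M hpM n Λ := by
      rw [← hs, Submodule.span_le]
      exact fun ab hab' => ⟨γ ⟨ab, hab'⟩, Submodule.subset_span ⟨_, rfl⟩, hγ ⟨ab, hab'⟩⟩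
    obtain ⟨x, hx, -, ⟨-, hxa⟩, -, hxb⟩ := hle hab
    exact ⟨x, hx, hxa, (zeroGB_res S M hpM x).trans hxb⟩

end Fermat.Agent.LevelLowerP
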