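import Fermat.Agent.LevelLowerP.GeoBranch

/-!
# The Atkin-Lehner involution at `p` and the other component
-/

set_option autoImplicit false

noncomputable section

namespace Fermat.Agent.LevelLowerP

open Polynomial ModularCurve Fermat.Agent.Igusa TrivSqZeroExt DualNumber
open scoped LaurentSeries

theorem ringHom_ext_pGens {K F : Type*} [Field K] [Field F] {M p : ℕ} [NeZero M] [Fact p.Prime]
    {f g : modularFunctionFieldFullC K (M * p) →+* F}
    (h1 : ∀ x, f (inclP M p x) = g (inclP M p x))
    (h2 : ∀ x, f (scaleP M p x) = g (scaleP M p x)) : f = g := by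
  refine RingHom.ext fun x => ?_
  have hle : Subfield.closure (Set.range (inclP (k := K) M p) ∪ pGens K M p) ≤
      RingHom.eqLocusField f g := by
    rw [Subfield.closure_le]
    rintro z (⟨y, rfl⟩ | ⟨d, hd0, hd, rfl⟩)
    · exact h1 y
    · have := hd0
      exact h2 _
  rw [closure_pGens] at hle
  exact hle (Subfield.mem_top x)

/-- Extension of scalars of function fields. -/
theorem coeffMap_mem_full {K K' : Type*} [Field K] [Field K'] (φ : K →+* K') (N : ℕ) [NeZero N]
    (x : modularFunctionFieldFullC K N) :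
    coeffMap φ (x : LaurentSeries K) ∈ modularFunctionFieldFullC K' N := by
  have hle : (modularFunctionFieldFullC K N).toSubfield ≤
      (modularFunctionFieldFullC K' N).toSubfield.comap (coeffMap φ) := by
    rw [modularFunctionFieldFullC, IntermediateField.adjoin_toSubfield, Subfield.closure_le]
    rintro y (⟨c, rfl⟩ | ⟨d, hd0, hd, rfl⟩)
    · show coeffMap φ (algebraMap K (LaurentSeries K) c) ∈ modularFunctionFieldFullC K' N
      rw [algebraMap_laurentSeries_eq_single, coeffMap_single,
        ← algebraMap_laurentSeries_eq_single]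
      exact IntermediateField.algebraMap_mem _ _
    · have := hd0
      show coeffMap φ (qExpand K d (jqModC K)) ∈ modularFunctionFieldFullC K' N
      rw [coeffMap_qExpand, coeffMap_jqModC]
      exact jqModCd_mem_full K' N hd
  exact hle x.2

/-- Extension of scalars of function fields. -/
def baseHom {K K' : Type*} [Field K] [Field K'] (φ : K →+* K') (N : ℕ) [NeZero N] :
    modularFunctionFieldFullC K N →+* modularFunctionFieldFullC K' N :=
  ((coeffMap φ).comp (SubringClass.subtype (modularFunctionFieldFullC K N))).codRestrict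
    (modularFunctionFieldFullC K' N) (coeffMap_mem_full φ N)

theorem coe_baseHom {K K' : Type*} [Field K] [Field K'] (φ : K →+* K') (N : ℕ) [NeZero N]
    (x : modularFunctionFieldFullC K N) :
    Subtype.val (baseHom φ N x) = coeffMap φ (Subtype.val x) := rfl

/-- `f(τ) ↔ f(pτ)` on level `Mp` over any field of characteristic zero. -/
theorem exists_atkin (K : Type*) [Field K] [CharZero K] (M p : ℕ) [NeZero M] [Fact p.Prime]
    (hpM : ¬ p ∣ M) :
    ∃ w : modularFunctionFieldFullC K (M * p) →+* modularFunctionFieldFullC K (M * p),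
      (∀ x, w (inclP M p x) = scaleP M p x) ∧ ∀ x, w (scaleP M p x) = inclP M p x := by
  let K' := AlgebraicClosure K
  let φ : K →+* K' := algebraMap K K'
  obtain ⟨η, -, hσ⟩ := exists_heckeHom (k := K') M p
    (by exact_mod_cast NeZero.ne (M * p)) hpM
  obtain ⟨σ, hσ1, hσ2⟩ := hσ 0
  let f : modularFunctionFieldFullC K (M * p) →+* LaurentSeries K' := σ.comp (baseHom φ (M * p))
  let g : modularFunctionFieldFullC K (M * p) →+* LaurentSeries K' :=
    ((qExpand K' M).comp (coeffMap φ)).comp
      (SubringClass.subtype (modularFunctionFieldFullC K (M * p)))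
  have hb1 : ∀ x, baseHom φ (M * p) (inclP M p x) = inclP M p (baseHom φ M x) := fun x =>
    Subtype.ext (by rw [coe_baseHom, coe_inclP, coe_inclP, coe_baseHom])
  have hb2 : ∀ x, baseHom φ (M * p) (scaleP M p x) = scaleP M p (baseHom φ M x) := fun x =>
    Subtype.ext (by rw [coe_baseHom, coe_scaleP, coe_scaleP, coe_baseHom, coeffMap_qExpand])
  have hf1 : ∀ x, f (inclP M p x) = g (scaleP M p x) := fun x => by
    show σ _ = qExpand K' M (coeffMap φ (Subtype.val (scaleP M p x)))
    rw [hb1, hσ1, coe_scaleP, coeffMap_qExpand, qExpand_qExpand]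
    rfl
  have hf2 : ∀ x, f (scaleP M p x) = g (inclP M p x) := fun x => by
    show σ _ = qExpand K' M (coeffMap φ (Subtype.val (inclP M p x)))
    rw [hb2, hσ2, coe_inclP, pow_zero, twist_one_apply]
    rfl
  have hmem : ∀ x, f x ∈ g.fieldRange := fun x => by
    have hle : Subfield.closure (Set.range (inclP (k := K) M p) ∪ pGens K M p) ≤
        g.fieldRange.comap f := by
      rw [Subfield.closure_le]
      rintro z (⟨y, rfl⟩ | ⟨d, hd0, hd, rfl⟩)
      · exact ⟨_, (hf1 y).symm⟩
      · have := hd0
        exact ⟨_, (hf2 _).symm⟩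
    rw [closure_pGens] at hle
    exact hle (Subfield.mem_top x)
  choose w hw using fun x => RingHom.mem_fieldRange.1 (hmem x)
  let W : modularFunctionFieldFullC K (M * p) →+* modularFunctionFieldFullC K (M * p) :=
    { toFun := w
      map_one' := g.injective (by rw [hw, map_one, map_one])
      map_zero' := g.injective (by rw [hw, map_zero, map_zero])
      map_add' := fun x y => g.injective (by rw [hw, map_add, map_add, hw, hw])
      map_mul' := fun x y => g.injective (by rw [hw, map_mul, map_mul, hw, hw]) }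
  exact ⟨W, fun x => g.injective ((hw _).trans (hf1 x)),
    fun x => g.injective ((hw _).trans (hf2 x))⟩

section

variable (K : Type*) [Field K] [CharZero K] (M p : ℕ) [NeZero M] [Fact p.Prime] (hpM : ¬ p ∣ M)

/-- The Atkin-Lehner involution at `p`. -/
def wAL : modularFunctionFieldFullC K (M * p) →+* modularFunctionFieldFullC K (M * p) :=
  (exists_atkin K M p hpM).choose

theorem wAL_inclP (x : modularFunctionFieldFullC K M) :
    wAL K M p hpM (inclP M p x) = scaleP M p x :=
  (exists_atkin K M p hpM).choose_spec.1 x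

theorem wAL_scaleP (x : modularFunctionFieldFullC K M) :
    wAL K M p hpM (scaleP M p x) = inclP M p x :=
  (exists_atkin K M p hpM).choose_spec.2 x

theorem wAL_wAL (x : modularFunctionFieldFullC K (M * p)) : wAL K M p hpM (wAL K M p hpM x) = x :=
  RingHom.congr_fun (ringHom_ext_pGens (f := (wAL K M p hpM).comp (wAL K M p hpM))
    (g := RingHom.id _) (fun y => by simp [wAL_inclP, wAL_scaleP])
    (fun y => by simp [wAL_inclP, wAL_scaleP])) x

end

theorem cF_inclP {R : Type*} [CommRing R] [IsDomain R] (M p : ℕ) [NeZero M] [Fact p.Prime]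
    (r : R) : inclP M p (cF M r) = cF (M * p) r :=
  Subtype.ext (by rw [coe_inclP, coe_cF, coe_cF])

theorem cF_scaleP {R : Type*} [CommRing R] [IsDomain R] (M p : ℕ) [NeZero M] [Fact p.Prime]
    (r : R) : scaleP M p (cF M r) = cF (M * p) r :=
  Subtype.ext (by rw [coe_scaleP, coe_cF, coe_cF, qExpand_C])

variable {p : ℕ} {R k : Type*} [CommRing R] [IsDomain R] [IsDiscreteValuationRing R] [Field k]
  [CharP k p] [Fact p.Prime] [CharZero R] (S : Setup p R k) (M : ℕ) [NeZero M] (hpM : ¬ p ∣ M)
  [IsAlgClosed k]

omit [IsDiscreteValuationRing R] in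
theorem wAL_cF (r : R) :
    wAL (FractionRing R) M p hpM (cF (M * p) r) = cF (M * p) r := by
  conv_lhs => rw [← cF_inclP, wAL_inclP, cF_scaleP]

/-- The component on which `j(pτ)` is the coordinate. -/
def zeroGB : GBranch S (modularFunctionFieldFullC (FractionRing R) (M * p))
    (modularFunctionFieldFullC k M) where
  ord x := (infGB S M hpM).ord (wAL _ M p hpM x)
  sp x := (infGB S M hpM).sp (wAL _ M p hpM x)
  ord_mul x y hx hy := by
    rw [map_mul]
    exact (infGB S M hpM).ord_mul _ _ ((_root_.map_ne_zero _).2 hx) ((_root_.map_ne_zero _).2 hy)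
  sp_mul x y hx hy := by
    rw [map_mul]
    exact (infGB S M hpM).sp_mul _ _ ((_root_.map_ne_zero _).2 hx) ((_root_.map_ne_zero _).2 hy)
  fst_sp_ne_zero x hx := (infGB S M hpM).fst_sp_ne_zero _ ((_root_.map_ne_zero _).2 hx)
  ord_ϖ := by
    rw [algebraMap_eq_cF, wAL_cF]
    exact (infGB S M hpM).ord_ϖ
  sp_ϖ := by
    rw [algebraMap_eq_cF, wAL_cF]
    exact (infGB S M hpM).sp_ϖ
  ord_const r hr := by
    rw [algebraMap_eq_cF, wAL_cF]
    exact (infGB S M hpM).ord_const r hr
  sp_const r hr := by
    rw [algebraMap_eq_cF, wAL_cF]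
    exact (infGB S M hpM).sp_const r hr

/-- Expansions seeing the other component: general generators, after the involution. -/
theorem zeroGB_eq_of_roots {O κ' : Type*} [CommRing O] [IsDomain O] [Field κ'] {B : Branch O κ'}
    {ι : modularFunctionFieldFullC (FractionRing R) (M * p) →+* FractionRing O}
    {e : modularFunctionFieldFullC k M →+* κ'}
    (h : Compat S M B ((ι.comp (wAL _ M p hpM)).comp (inclP M p)) e)
    {gens : Set (modularFunctionFieldFullC (FractionRing R) (M * p))}
    (hgen : Subfield.closure (Set.range (inclP (k := FractionRing R) M p) ∪ gens) = ⊤)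
    (hroot : ∀ g ∈ gens, ∃ P y₀, P.eval₂ (inclP (k := FractionRing R) M p) g = 0 ∧
      Expn.RootAt ((compat_iInf_inclP S M).expn hpM) g P y₀ ∧
      Expn.RootAt (h.expn hpM) g P y₀)
    (x : modularFunctionFieldFullC (FractionRing R) (M * p)) (hx : x ≠ 0) :
    B.ord (ι x) = (zeroGB S M hpM).ord x ∧
      B.sp (ι x) = dualMap e ((zeroGB S M hpM).sp x) := by
  have h' := infGB_eq_of_roots S M hpM h hgen hroot (wAL _ M p hpM x)
    ((_root_.map_ne_zero _).2 hx)
  rwa [RingHom.comp_apply, wAL_wAL] at h'

end Fermat.Agent.LevelLowerP
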