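import Fermat.Agent.LevelLowerP.GeoPoints
import Fermat.Agent.LevelLowerP.GeoDescent
import Fermat.Agent.LevelLowerP.GeoAtkin
import Fermat.Agent.Reduction.Level.Normal
import Fermat.Agent.Reduction.Level.Cusps
import Mathlib.RingTheory.Valuation.LocalSubring

/-!
# Bounded rational lifts

Functions on the reduced curve with poles at most those of `j ^ m` are spanned by reductions of
finitely many elements of the rational chart with the same bound, for large `m`.
-/

set_option autoImplicit false

noncomputable section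

namespace Fermat.Agent.LevelLowerP

open Polynomial ModularCurve AlgebraicCurve Fermat.Agent.Igusa
open Fermat.Agent.Reduction Fermat.Agent.Reduction.Level
open scoped LaurentSeries

local notation "Qb" => AlgebraicClosure ℚ

/-- Valuation rings of a subfield extend. -/
theorem exists_valuationSubring_over {E F : Type*} [Field E] [Field F] (g : E →+* F)
    (V : ValuationSubring E) : ∃ B : ValuationSubring F, B.comap g = V := by
  obtain ⟨B, hB⟩ := LocalSubring.exists_le_valuationSubring (V.toLocalSubring.map g)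
  refine ⟨B, ValuationSubring.toLocalSubring_injective ((V.isMax_toLocalSubring).eq_of_le ?_).symm⟩
  refine ⟨fun x hx => hB.1 ⟨x, hx, rfl⟩, ⟨fun x hx => ?_⟩⟩
  obtain ⟨y, hy⟩ := x
  have hloc := hB.2
  have h1 : IsUnit (Subring.inclusion hB.1 ⟨g y, y, hy, rfl⟩) := by
    obtain ⟨z, hz⟩ := hx.exists_right_inv
    exact IsUnit.of_mul_eq_one ⟨g (z : E), z.2⟩ (Subtype.ext (by
      show g y * g (z : E) = 1
      rw [← map_mul, ← map_one g]
      exact congrArg g (congrArg Subtype.val hz)))
  obtain ⟨⟨w, hw⟩, hw'⟩ := (hloc.map_nonunit _ h1).exists_right_inv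
  obtain ⟨r, hr, rfl⟩ := hw
  refine IsUnit.of_mul_eq_one ⟨r, hr⟩ (Subtype.ext (g.injective ?_))
  show g (y * r) = g 1
  rw [map_mul, map_one]
  exact congrArg Subtype.val hw'

section Valuations

variable {K : Type*} [Field K] {M : ℕ} [NeZero M]

/-- Bounds at all valuation rings over the constants give `Bdd`. -/
theorem bdd_of_forall_mem {m : ℕ} {x : modularFunctionFieldFullC K M}
    (h : ∀ B : ValuationSubring (modularFunctionFieldFullC K M),
      (∀ c, algebraMap K (modularFunctionFieldFullC K M) c ∈ B) →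
        (jC K M ∈ B → x ∈ B) ∧ (jC K M ∉ B → x * (jC K M ^ m)⁻¹ ∈ B)) :
    Bdd K M m x := by
  intro v hv
  obtain ⟨h1, h2⟩ :=
    h v.valuationSubring fun c => (Valuation.mem_valuationSubring_iff v _).mpr (hv c)
  by_cases hj : jC K M ∈ v.valuationSubring
  · exact ((Valuation.mem_valuationSubring_iff v _).mp (h1 hj)).trans
      (one_le_pow₀ (le_max_left _ _))
  · have hlt : 1 < v (jC K M) :=
      not_le.mp fun hle => hj ((Valuation.mem_valuationSubring_iff v _).mpr hle)
    have h3 := (Valuation.mem_valuationSubring_iff v _).mp (h2 hj)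
    rw [map_mul, map_inv₀, map_pow, mul_inv_le_iff₀ (pow_pos (zero_lt_one.trans hlt) m),
      one_mul] at h3
    exact h3.trans (pow_le_pow_left₀ zero_le (le_max_right _ _) m)

variable [FF.IsFunctionField K (modularFunctionFieldFullC K M)]

/-- `Bdd` bounds at all valuation rings over the constants. -/
theorem mem_of_bdd {m : ℕ} {x : modularFunctionFieldFullC K M} (h : Bdd K M m x)
    (B : ValuationSubring (modularFunctionFieldFullC K M))
    (hB : ∀ c, algebraMap K (modularFunctionFieldFullC K M) c ∈ B) :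
    (jC K M ∈ B → x ∈ B) ∧ (jC K M ∉ B → x * (jC K M ^ m)⁻¹ ∈ B) := by
  rcases eq_or_ne B ⊤ with rfl | htop
  · exact ⟨fun _ => ValuationSubring.mem_top _, fun _ => ValuationSubring.mem_top _⟩
  let w : Place K (modularFunctionFieldFullC K M) :=
    ⟨B, hB, htop, FF.isPrincipalIdealRing_valuationSubring_of_ne_top B hB⟩
  have hmem : ∀ y, y ∈ B ↔ w.adicValuation y ≤ 1 := fun y => by
    refine ⟨fun hy => w.adicValuation_le_one_of_mem hy, fun hy => ?_⟩
    refine (FF.mem_toValuationSubring_iff w).mpr ?_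
    show w.adicValuation y ≤ WithZero.exp (-0)
    simpa using hy
  have hx := h w.adicValuation w.adicValuation_algebraMap_le_one
  refine ⟨fun hj => (hmem x).mpr (hx.trans ?_), fun hj => (hmem _).mpr ?_⟩
  · rw [max_eq_left ((hmem _).mp hj), one_pow]
  · have hlt : 1 < w.adicValuation (jC K M) := not_le.mp fun hle => hj ((hmem _).mpr hle)
    rw [max_eq_right hlt.le] at hx
    rw [map_mul, map_inv₀, map_pow, mul_inv_le_iff₀ (pow_pos (zero_lt_one.trans hlt) m), one_mul]
    exact hx

/-- `Bdd` is membership in `L(m·(j)_∞)`. -/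
theorem bdd_iff_mem_jPoles {m : ℕ} (x : modularFunctionFieldFullC K M) :
    Bdd K M m x ↔ x ∈ riemannRochSpace (jPoles K M m) := by
  have key : ∀ v : Place K (modularFunctionFieldFullC K M),
      ((jC K M ∈ v.toValuationSubring → x ∈ v.toValuationSubring) ∧
        (jC K M ∉ v.toValuationSubring → x * (jC K M ^ m)⁻¹ ∈ v.toValuationSubring)) ↔
      (x = 0 ∨ -(jPoles K M m v) ≤ v.ord x) := by
    intro v
    rw [jPoles, Finsupp.smul_apply, FF.poleDiv_apply, smul_eq_mul]
    rcases eq_or_ne x 0 with rfl | hx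
    · simp
    rw [or_iff_right hx]
    by_cases hj : jC K M ∈ v.toValuationSubring
    · rw [iff_true_intro (fun h => absurd hj h :
          jC K M ∉ v.toValuationSubring → x * (jC K M ^ m)⁻¹ ∈ v.toValuationSubring), and_true,
        imp_iff_right hj, FF.mem_toValuationSubring_iff_ord v hx,
        max_eq_right (by have := FF.ord_nonneg_of_mem v hj; omega), mul_zero, neg_zero]
    · have hj0 : jC K M ≠ 0 := fun h => hj (h ▸ zero_mem _)
      have : v.ord (jC K M) < 0 := by
        by_contra hc
        exact hj ((FF.mem_toValuationSubring_iff_ord v hj0).mpr (not_lt.mp hc))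
      rw [iff_true_intro (fun h => absurd h hj :
          jC K M ∈ v.toValuationSubring → x ∈ v.toValuationSubring), true_and, imp_iff_right hj,
        FF.mem_toValuationSubring_iff_ord v (mul_ne_zero hx (inv_ne_zero (pow_ne_zero m hj0))),
        v.ord_mul hx (inv_ne_zero (pow_ne_zero m hj0)), v.ord_inv, FF.ord_pow,
        max_eq_left (by omega)]
      constructor <;> intro <;> linarith
  rw [mem_riemannRochSpace_iff]
  refine ⟨fun h v => (key v).mp (mem_of_bdd h _ v.algebraMap_mem'), fun h => bdd_of_forall_mem ?_⟩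
  intro B hB
  rcases eq_or_ne B ⊤ with rfl | htop
  · exact ⟨fun _ => ValuationSubring.mem_top _, fun _ => ValuationSubring.mem_top _⟩
  exact (key ⟨B, hB, htop, FF.isPrincipalIdealRing_valuationSubring_of_ne_top B hB⟩).mpr (h _)

end Valuations

theorem baseHom_jC {K K' : Type*} [Field K] [Field K'] (f : K →+* K') (M : ℕ) [NeZero M] :
    baseHom f M (jC K M) = jC K' M := by
  refine Subtype.ext ?_
  rw [coe_baseHom]
  exact coeffMap_jqModC f

theorem baseHom_algebraMap {K K' : Type*} [Field K] [Field K'] (f : K →+* K') (M : ℕ) [NeZero M]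
    (c : K) : baseHom f M (algebraMap K (modularFunctionFieldFullC K M) c) =
      algebraMap K' (modularFunctionFieldFullC K' M) (f c) := by
  refine Subtype.ext ?_
  rw [coe_baseHom]
  show coeffMap f (algebraMap K (LaurentSeries K) c) = algebraMap K' (LaurentSeries K') (f c)
  rw [algebraMap_laurentSeries_eq_single, coeffMap_single, algebraMap_laurentSeries_eq_single]

/-- Changing the constants by an automorphism keeps the bound. -/
theorem Bdd.baseHom {K : Type*} [Field K] {M m : ℕ} [NeZero M] {x : modularFunctionFieldFullC K M}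
    (h : Bdd K M m x) (f : K →+* K) : Bdd K M m (LevelLowerP.baseHom f M x) := by
  intro v hv
  have h1 := h (v.comap (LevelLowerP.baseHom f M)) fun c => by
    rw [Valuation.comap_apply, baseHom_algebraMap]
    exact hv _
  rwa [Valuation.comap_apply, Valuation.comap_apply, baseHom_jC] at h1

/-- `Bdd` descends from `ℚ̄` to `ℚ`. -/
theorem bdd_rat_of_bdd {M m : ℕ} [NeZero M] [FF.IsFunctionField Qb (modularFunctionFieldFullC Qb M)]
    {x : modularFunctionFieldFullC ℚ M}
    (h : Bdd Qb M m (baseHom (algebraMap ℚ Qb) M x)) : Bdd ℚ M m x := by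
  refine bdd_of_forall_mem fun B hB => ?_
  obtain ⟨B', hB'⟩ := exists_valuationSubring_over (baseHom (algebraMap ℚ Qb) M) B
  have hmem : ∀ y, y ∈ B ↔ baseHom (algebraMap ℚ Qb) M y ∈ B' := fun y => by
    rw [← hB']
    exact Iff.rfl
  have hrat : ∀ q : ℚ, (q : modularFunctionFieldFullC Qb M) ∈ B' := fun q => by
    have := (hmem _).mp (hB q)
    rwa [baseHom_algebraMap, eq_ratCast, map_ratCast] at this
  have hc : ∀ c : Qb, algebraMap Qb (modularFunctionFieldFullC Qb M) c ∈ B' := fun c => by
    by_contra hnot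
    let : Algebra ℚ (modularFunctionFieldFullC Qb M) := DivisionRing.toRatAlgebra
    have hinv := (B'.mem_or_inv_mem _).resolve_left hnot
    have ht := FF.transcendental_of_mem_of_inv_notMem (K := ℚ) (A := B')
      (fun q => by rw [eq_ratCast]; exact hrat q) hinv (by rwa [inv_inv])
    refine ht ?_
    rw [← map_inv₀]
    exact (Algebra.IsAlgebraic.isAlgebraic (R := ℚ) c⁻¹).algHom
      (algebraMap Qb (modularFunctionFieldFullC Qb M)).toRatAlgHom
  obtain ⟨h1, h2⟩ := mem_of_bdd h B' hc
  rw [hmem, hmem, hmem, map_mul, map_inv₀, map_pow, baseHom_jC]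
  exact ⟨h1, h2⟩

variable {p : ℕ} [Fact p.Prime] {M : ℕ} [NeZero M] {k : Type*} [Field k] [CharP k p] [IsAlgClosed k]
  {A : ValuationSubring Qb} {π : A →+* k}

/-- A finite dimensional Galois stable space of regular series has rational lifts spanning its
reduction. -/
theorem exists_finset_chart (hA : IsPlaceRed p k A π) (hpM : ¬ p ∣ M)
    {W : Submodule Qb (LaurentSeries Qb)} [FiniteDimensional Qb W] (hWreg : W ≤ regSeries Qb M)
    (hW : ∀ σ : Qb ≃ₐ[ℚ] Qb, ∀ x ∈ W, coeffMap (σ : Qb →+* Qb) x ∈ W) :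
    ∃ s : Finset (ratChart p M),
      (∀ y ∈ s, coeffMap (algebraMap ℚ Qb) (toQ p (y : LaurentSeries (ZL p))) ∈ W) ∧
      ∀ x ∈ W, ∀ w : LaurentSeries k, Red A π x w →
        w ∈ Submodule.span k (chartRed p M k '' (s : Set (ratChart p M))) := by
  classical
  obtain ⟨πR, hK, hk⟩ := exists_piR_placeRed (π := π) hpM
  obtain ⟨z, hz, hspanW⟩ := exists_rat_basis W hW
  set V0 := Submodule.span ℚ (Set.range z)
  have hzW : ∀ i, coeffMap (algebraMap ℚ Qb) (z i) ∈ W := fun i =>
    hspanW ▸ Submodule.subset_span ⟨i, rfl⟩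
  let A0 : ValuationSubring ℚ := A.comap (algebraMap ℚ Qb)
  let π0 : A0 →+* ZMod p := (red0 p).comp
    { toFun := fun a => (⟨(a : ℚ), (algebraMap_mem_iff hA).mp a.2⟩ : ZL p)
      map_one' := rfl
      map_mul' := fun _ _ => rfl
      map_zero' := rfl
      map_add' := fun _ _ => rfl }
  have hπ0 : Function.Surjective π0 := fun a =>
    ⟨(a.val : A0), by rw [map_natCast, ZMod.natCast_zmod_val]⟩
  have : FiniteDimensional ℚ V0 := FiniteDimensional.span_of_finite ℚ (Set.finite_range _)
  have hV0W : ∀ x ∈ V0, coeffMap (algebraMap ℚ Qb) x ∈ W := by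
    intro x hx
    induction hx using Submodule.span_induction with
    | mem a ha => obtain ⟨i, rfl⟩ := ha; exact hzW i
    | zero => rw [map_zero]; exact zero_mem _
    | add u v _ _ hu hv => rw [map_add]; exact add_mem hu hv
    | smul c u _ hu =>
      rw [smul_eq_algebraMap_mul, map_mul, algebraMap_laurentSeries_eq_single, coeffMap_single,
        ← algebraMap_laurentSeries_eq_single, ← smul_eq_algebraMap_mul]
      exact Submodule.smul_mem _ _ hu
  have hV0mem : ∀ x ∈ V0, x ∈ ratInt M := fun x hx =>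
    mem_ratInt_iff.mpr (mem_regSeries_of_coeffMap_mem (hWreg (hV0W x hx)))
  have hN0 : NormalizableSub A0 π0 V0 := by
    intro x hx hx0
    obtain ⟨c, u, hc, hu, hu0⟩ := exists_normalized_rat hA hpM (hV0mem x hx) hx0
    refine ⟨c, hc, redS p (u : LaurentSeries (ZL p)), hu0, fun n => ?_⟩
    rw [← hu]
    exact ⟨(algebraMap_mem_iff hA).mpr ((u : LaurentSeries (ZL p)).coeff n).2, rfl⟩
  have hN : NormalizableSub A π W := by
    intro x hx hx0
    obtain ⟨c, hc, w', hw'0, -, hred⟩ := exists_normalized hA.surjective πR hK hk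
      (regFin_iff.mpr (hWreg hx) : RegFin ⟨x, (hWreg hx).1⟩)
      (fun h => hx0 (congrArg Subtype.val h))
    refine ⟨c, hc, (w' : LaurentSeries k), fun h => hw'0 (Subtype.ext h),
      qExpand_coeff_red (N := M) ?_⟩
    have h := hred cst0
    rw [sig_cst0_apply, sig_cst0_apply] at h
    rw [smul_eq_algebraMap_mul]
    exact h
  let : Algebra (ZMod p) k := ZMod.algebra k p
  have halg : algebraMap (ZMod p) k = ZMod.castHom dvd_rfl k := Subsingleton.elim _ _
  have := (finiteDimensional_redSub hπ0 V0).1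
  have := (finiteDimensional_redSub hA.surjective W).1
  let b := Module.finBasis (ZMod p) (redSub hπ0 V0)
  let r : Fin (Module.finrank (ZMod p) (redSub hπ0 V0)) → LaurentSeries k := fun i =>
    coeffMap (algebraMap (ZMod p) k) (b i : LaurentSeries (ZMod p))
  have hlift : ∀ i, ∃ u : ratChart p M,
      coeffMap (algebraMap ℚ Qb) (toQ p (u : LaurentSeries (ZL p))) ∈ W ∧
      chartRed p M k u = r i ∧ r i ∈ redSub hA.surjective W := by
    intro i
    obtain ⟨v, hv, hvred⟩ := mem_redSub.mp (b i).2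
    obtain ⟨u, rfl⟩ := exists_toQ_eq hA fun n => hvred.coeff_mem n
    have hu : redS p u = (b i : LaurentSeries (ZMod p)) := HahnSeries.ext (funext fun n => by
      obtain ⟨_, h⟩ := hvred n
      exact h)
    refine ⟨⟨u, hV0mem _ hv⟩, hV0W _ hv, ?_, ?_⟩
    · rw [chartRed_apply]
      simp only [r, halg, ← hu]
    · simp only [r, halg, ← hu]
      exact mem_redSub.mpr ⟨_, hV0W _ hv, red_toQ hA u⟩
  choose u huW hur hrW using hlift
  refine ⟨Finset.univ.image u, fun y hy => ?_, fun x hx w hxw => ?_⟩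
  · obtain ⟨i, -, rfl⟩ := Finset.mem_image.mp hy
    exact huW i
  have hli0 : LinearIndependent (ZMod p) fun i => (b i : LaurentSeries (ZMod p)) :=
    b.linearIndependent.map' (redSub hπ0 V0).subtype (Submodule.ker_subtype _)
  have hrli : LinearIndependent k r :=
    linearIndependent_coeffMap (F := ZMod p) (E := k)
      (r := fun i => (b i : LaurentSeries (ZMod p))) hli0
  have hd0 : Module.finrank ℚ V0 = Module.finrank Qb W := by
    rw [finrank_span_eq_card hz, Fintype.card_fin]
  have hspan : Submodule.span k (Set.range r) = redSub hA.surjective W :=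
    span_eq_of_linearIndependent_of_finrank k hrW hrli
      ((finrank_redSub hA.surjective W hN).trans ((finrank_redSub hπ0 V0 hN0).trans hd0).symm)
  have hw : w ∈ Submodule.span k (Set.range r) := hspan ▸ mem_redSub.mpr ⟨x, hx, hxw⟩
  refine Submodule.span_mono ?_ hw
  rintro _ ⟨i, rfl⟩
  exact ⟨u i, by simp, hur i⟩

variable (p M k)

/-- **Bounded lifts**: functions bounded by `j ^ m` on the reduced curve are spanned by reductions
of finitely many elements of the chart bounded by `j ^ m`. -/
theorem exists_bdd_lift [Algebra (ZMod p) k] [Algebra.IsAlgebraic (ZMod p) k] (hpM : ¬ p ∣ M) :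
    ∃ m₀, ∀ m, m₀ ≤ m → ∃ s : Finset (ratChart p M), (∀ y ∈ s, ChartBdd p M m y) ∧
      ∀ w : modularFunctionFieldFullC k M, Bdd k M m w →
        (w : LaurentSeries k) ∈ Submodule.span k (chartRed p M k '' (s : Set (ratChart p M))) := by
  obtain ⟨A, π, hA⟩ := exists_placeRed p k
  obtain ⟨πR, hK, hk⟩ := exists_piR_placeRed (π := π) hpM
  have hMQ : (M : Qb) ≠ 0 := Nat.cast_ne_zero.mpr (NeZero.ne M)
  have hMk : (M : k) ≠ 0 := natCast_ne_zero_of_not_dvd p M k hpM
  have := isFunctionField_level (k := Qb) (N := M) hMQ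
  have := isFunctionField_level (k := k) (N := M) hMk
  obtain ⟨m₀, hlift⟩ := exists_lift_poleLE hA.surjective πR hK hk
  refine ⟨m₀, fun m hm => ?_⟩
  let F := modularFunctionFieldFullC Qb M
  let W : Submodule Qb (LaurentSeries Qb) :=
    (riemannRochSpace (jPoles Qb M m)).map (inclLin F)
  have hWreg : W ≤ regSeries Qb M := by
    rintro _ ⟨y, hy, rfl⟩
    exact regFin_iff.mp ((mem_jPoles_iff _ hK m y).mp hy).1
  have hWσ : ∀ σ : Qb ≃ₐ[ℚ] Qb, ∀ x ∈ W, coeffMap (σ : Qb →+* Qb) x ∈ W := by
    rintro σ _ ⟨y, hy, rfl⟩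
    exact ⟨baseHom (σ : Qb →+* Qb) M y,
      (bdd_iff_mem_jPoles _).mp (((bdd_iff_mem_jPoles y).mpr hy).baseHom _), rfl⟩
  obtain ⟨s, hs, hspan⟩ := exists_finset_chart hA hpM hWreg hWσ
  refine ⟨s, fun y hy => ?_, fun w hw => ?_⟩
  · obtain ⟨x', hx', he⟩ := hs y hy
    have hmem : toQ p (y : LaurentSeries (ZL p)) ∈ modularFunctionFieldFullC ℚ M :=
      (mem_ratInt_iff.mp y.2).1
    refine ⟨⟨_, hmem⟩, rfl, bdd_rat_of_bdd ?_⟩
    rw [show baseHom (algebraMap ℚ Qb) M ⟨_, hmem⟩ = x' from Subtype.ext he.symm]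
    exact (bdd_iff_mem_jPoles x').mpr hx'
  · obtain ⟨hwR, hwp⟩ := (mem_jPoles_iff _ hk m w).mp ((bdd_iff_mem_jPoles w).mp hw)
    obtain ⟨y, hy, hyw⟩ := normalLift_of_ne_zero FF.qbarToComplex hA.surjective hMk w hwR
    obtain ⟨m', hm'⟩ : ∃ m' : ℕ, ∀ i, PoleLE ((M : ℤ) * m') (sig _ hK i y) := by
      refine ⟨Finset.univ.sup fun i => (-(sig _ hK i y).order).toNat, fun i => ?_⟩
      refine (poleLE_neg_order _).mono ?_
      have h1 := Finset.le_sup (f := fun i => (-(sig _ hK i y).order).toNat) (Finset.mem_univ i)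
      have h2 : (1 : ℤ) ≤ M := by exact_mod_cast NeZero.pos M
      have h3 : (-(sig _ hK i y).order) ≤ ((Finset.univ.sup fun i =>
          (-(sig _ hK i y).order).toNat : ℕ) : ℤ) := by omega
      nlinarith
    obtain ⟨y', hy', hy'p, hy'w⟩ := hlift w m hm hwp m' y hy hm' fun i =>
      red_conj hA.surjective πR hK hk hy hyw i
    refine hspan _ ⟨y', (mem_jPoles_iff _ hK m y').mpr ⟨hy', hy'p⟩, rfl⟩ _
      (qExpand_coeff_red (N := M) ?_)
    have h' := hy'w cst0
    rwa [sig_cst0_apply, sig_cst0_apply] at h'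

end Fermat.Agent.LevelLowerP
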