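import Fermat.Agent.LevelLowerP.GeoLiftPairs
import Fermat.Agent.LevelLowerP.GeoBdd

/-!
# Supersingular places, and functions without poles
-/

set_option autoImplicit false

noncomputable section

namespace Fermat.Agent.LevelLowerP

open Polynomial ModularCurve Fermat.Agent.Igusa AlgebraicCurve
open scoped LaurentSeries

/-- In an extension of an algebraically closed field, algebraic elements are constants. -/
theorem exists_const_of_isAlgebraic {k F : Type*} [Field k] [IsAlgClosed k] [Field F] [Algebra k F]
    {y : F} (hy : IsAlgebraic k y) : ∃ c : k, y = algebraMap k F c := by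
  obtain ⟨c, hc⟩ := minpoly.mem_range_of_degree_eq_one k y
    (IsAlgClosed.degree_eq_one_of_irreducible k (minpoly.irreducible hy.isIntegral))
  exact ⟨c, hc.symm⟩

variable {p : ℕ} {k : Type} [Field k] [CharP k p] [Fact p.Prime] [IsAlgClosed k]
  [Algebra (ZMod p) k] [Algebra.IsAlgebraic (ZMod p) k] (M : ℕ) [NeZero M]

omit [Algebra.IsAlgebraic (ZMod p) k] [Algebra (ZMod p) k] in
/-- There is a supersingular place. -/
theorem exists_supersingular (hpM : ¬ p ∣ M) : ∃ v : Place k (modularFunctionFieldFullC k M),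
    0 ≤ v.ord (jC k M) ∧ 0 < v.ord (hasseK p k M) := by
  have := FF.isFunctionField_fullC k M (natCast_ne_zero_of_not_dvd p M k hpM)
  have ht : Transcendental k (hasseK p k M) := by
    intro halg
    obtain ⟨c, hc⟩ := exists_const_of_isAlgebraic halg
    have h1 : evC k M ((vH p).map (ZMod.castHom dvd_rfl k)) = evC k M (C c) := by
      rw [← hasseK, hc]
      simp [evC]
    have h2 := congrArg Polynomial.natDegree (evC_injective k M h1)
    rw [Polynomial.natDegree_map, natDegree_vH, natDegree_C] at h2
    have := (Fact.out : p.Prime).two_le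
    omega
  obtain ⟨v, hv⟩ := FF.exists_place_ord_pos ht
  refine ⟨v, ?_, hv⟩
  by_contra hneg
  rw [ord_hasseK_of_neg (not_le.1 hneg)] at hv
  have := mul_nonpos_of_nonneg_of_nonpos (Int.natCast_nonneg (p - 1)) (not_le.1 hneg).le
  omega

omit [Algebra.IsAlgebraic (ZMod p) k] [Algebra (ZMod p) k] [Fact (Nat.Prime p)] in
/-- Functions without poles are constant. -/
theorem exists_const_of_regular (hpM : ¬ p ∣ M) {y : modularFunctionFieldFullC k M}
    (h : ∀ v : Place k (modularFunctionFieldFullC k M), y = 0 ∨ 0 ≤ v.ord y) :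
    ∃ c : k, y = algebraMap k _ c := by
  have := FF.isFunctionField_fullC k M (natCast_ne_zero_of_not_dvd p M k hpM)
  refine exists_const_of_isAlgebraic (by_contra fun ht => ?_)
  obtain ⟨v, hv⟩ := FF.exists_place_ord_neg (K := k) (z := y) ht
  rcases h v with h0 | h0
  · rw [h0, v.ord_zero] at hv
    exact lt_irrefl _ hv
  · omega

omit [IsAlgClosed k] [Algebra.IsAlgebraic (ZMod p) k] [Algebra (ZMod p) k] in
/-- Automorphisms of the constants fix the Hasse invariant. -/
theorem baseHom_hasseK (f : k →+* k) : baseHom f M (hasseK p k M) = hasseK p k M := by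
  refine Subtype.ext ?_
  rw [coe_baseHom, coe_hasseK, coeffMap_vSer]

omit [Algebra.IsAlgebraic (ZMod p) k] [Algebra (ZMod p) k] in
/-- Regularity away from the supersingular places, and of the conjugate there, forces a
constant. -/
theorem exists_const_of_frobenius (hpM : ¬ p ∣ M) {y : modularFunctionFieldFullC k M}
    (h1 : ∀ v : Place k (modularFunctionFieldFullC k M),
      ¬ (0 ≤ v.ord (jC k M) ∧ 0 < v.ord (hasseK p k M)) → y = 0 ∨ 0 ≤ v.ord y)
    (h2 : ∀ v : Place k (modularFunctionFieldFullC k M), 0 ≤ v.ord (jC k M) →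
      0 < v.ord (hasseK p k M) → y = 0 ∨ 0 ≤ v.ord (baseHom (frobenius k p) M y)) :
    ∃ c : k, y = algebraMap k _ c := by
  have := FF.isFunctionField_fullC k M (natCast_ne_zero_of_not_dvd p M k hpM)
  refine exists_const_of_regular M hpM fun v => ?_
  by_cases hss : 0 ≤ v.ord (jC k M) ∧ 0 < v.ord (hasseK p k M)
  swap
  · exact h1 v hss
  let g : k →+* k := (RingEquiv.ofBijective (frobenius k p)
    (bijective_frobenius k p)).symm.toRingHom
  let ψ := baseHom g M
  have hgf : ∀ c, g (frobenius k p c) = c := fun c =>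
    (RingEquiv.ofBijective (frobenius k p) (bijective_frobenius k p)).symm_apply_apply c
  have hψφ : ψ (baseHom (frobenius k p) M y) = y := by
    refine Subtype.ext ?_
    rw [coe_baseHom, coe_baseHom, coeffMap_coeffMap]
    ext n
    rw [coeffMap_coeff, RingHom.comp_apply, hgf]
  set B := v.toValuationSubring.comap ψ
  have hmem : ∀ z, z ∈ B ↔ ψ z ∈ v.toValuationSubring := fun z => Iff.rfl
  have hK : ∀ c, algebraMap k (modularFunctionFieldFullC k M) c ∈ B := fun c => by
    rw [hmem, baseHom_algebraMap]
    exact v.algebraMap_mem' _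
  have hHB : (hasseK p k M)⁻¹ ∉ B := by
    rw [hmem, map_inv₀, baseHom_hasseK M,
      FF.mem_toValuationSubring_iff_ord v (inv_ne_zero (hasseK_ne_zero p k M)), v.ord_inv]
    omega
  let w : Place k (modularFunctionFieldFullC k M) := ⟨B, hK,
    fun h => hHB (h ▸ ValuationSubring.mem_top _),
    FF.isPrincipalIdealRing_valuationSubring_of_ne_top B hK⟩
  have hwj : 0 ≤ w.ord (jC k M) := by
    refine FF.ord_nonneg_of_mem w ((hmem _).2 ?_)
    rw [baseHom_jC]
    exact (FF.mem_toValuationSubring_iff v).mpr (FF.mem_ordGE_of_le_ord v hss.1)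
  have hwH : 0 < w.ord (hasseK p k M) := by
    have h := hHB
    change (hasseK p k M)⁻¹ ∉ w.toValuationSubring at h
    rw [FF.mem_toValuationSubring_iff_ord w (inv_ne_zero (hasseK_ne_zero p k M)), w.ord_inv] at h
    omega
  rcases h2 w hwj hwH with h0 | h0
  · exact Or.inl h0
  right
  refine FF.ord_nonneg_of_mem v ?_
  rw [← hψφ]
  exact (hmem _).1 ((FF.mem_toValuationSubring_iff w).mpr (FF.mem_ordGE_of_le_ord w h0))

end Fermat.Agent.LevelLowerP
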