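import Fermat.Agent.LevelLowerP.GeoExpansion
import Fermat.Agent.LevelLowerP.Conj

/-!
# The component at infinity of the special fibre of level `Mp`
-/

set_option autoImplicit false

noncomputable section

namespace Fermat.Agent.LevelLowerP

open Polynomial ModularCurve Fermat.Agent.Igusa TrivSqZeroExt DualNumber
open scoped LaurentSeries

section Gens

variable (K : Type*) [Field K] (M p : ℕ) [NeZero M] [Fact p.Prime]

/-- The generator `j(dpτ)`. -/
abbrev jdp (d : ℕ) [NeZero d] (hd : d ∣ M) : modularFunctionFieldFullC K (M * p) :=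
  scaleP M p (jGen K M d hd)

omit [NeZero M] in
theorem coe_jdp (d : ℕ) [NeZero d] (hd : d ∣ M) :
    Subtype.val (jdp K M p d hd) = qExpand K p (qExpand K d (jqModC K)) := coe_scaleP M p _

/-- The generators over level `M`. -/
def pGens : Set (modularFunctionFieldFullC K (M * p)) :=
  {g | ∃ (d : ℕ) (_ : NeZero d) (hd : d ∣ M), g = jdp K M p d hd}

theorem closure_pGens :
    Subfield.closure (Set.range (inclP (k := K) M p) ∪ pGens K M p) = ⊤ := by
  refine eq_top_iff.mpr fun x _ => ?_
  obtain ⟨x, hx⟩ := x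
  let T : Subfield (LaurentSeries K) :=
    (Subfield.closure (Set.range (inclP (k := K) M p) ∪ pGens K M p)).map
      (SubringClass.subtype (modularFunctionFieldFullC K (M * p)))
  have hT : (modularFunctionFieldFullC K (M * p)).toSubfield ≤ T := by
    rw [modularFunctionFieldFullC, IntermediateField.adjoin_toSubfield, Subfield.closure_le]
    rintro y (⟨c, rfl⟩ | ⟨e, he0, he, rfl⟩)
    · exact ⟨inclP M p (algebraMap K _ c), Subfield.subset_closure (Or.inl ⟨_, rfl⟩),
        by
          show Subtype.val (inclP (k := K) M p (algebraMap K _ c)) = _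
          rw [coe_inclP]; rfl⟩
    · have := he0
      by_cases hp : p ∣ e
      · obtain ⟨d, rfl⟩ := hp
        have hd0 : NeZero d := ⟨fun h => NeZero.ne (p * d) (by rw [h, mul_zero])⟩
        have hd : d ∣ M :=
          (mul_dvd_mul_iff_left (Fact.out : p.Prime).ne_zero).1 (by rwa [mul_comm M] at he)
        refine ⟨jdp K M p d hd, Subfield.subset_closure (Or.inr ⟨d, hd0, hd, rfl⟩), ?_⟩
        exact (coe_jdp K M p d hd).trans (by rw [qExpand_qExpand])
      · have he' : e ∣ M :=
          ((Fact.out : p.Prime).coprime_iff_not_dvd.2 hp).symm.dvd_of_dvd_mul_right he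
        exact ⟨inclP M p (jGen K M e he'), Subfield.subset_closure (Or.inl ⟨_, rfl⟩),
          (coe_inclP M p _).trans rfl⟩
  obtain ⟨y, hy, hyx⟩ := hT hx
  rwa [show y = ⟨x, hx⟩ from Subtype.ext hyx] at hy

end Gens

/-- Kronecker's modular polynomial. -/
def kQ (p : ℕ) [Fact p.Prime] : ℤ[X][X] := (exists_kronecker p).choose

theorem kQ_relation (K : Type*) [Field K] (M p : ℕ) [NeZero M] [Fact p.Prime] (d : ℕ) [NeZero d]
    (hd : d ∣ M) :
    ((kQ p).map (eval₂RingHom (Int.castRingHom _) (jGen K M d hd))).eval₂ (inclP M p)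
      (jdp K M p d hd) = 0 := by
  apply (SubringClass.subtype (modularFunctionFieldFullC K (M * p))).injective
  have h := congrArg ((qExpand K d).comp (coeffMap (Int.castRingHom K)))
    ((exists_kronecker p).choose_spec.2.2.1)
  rw [map_zero, Polynomial.hom_eval₂, RingHom.comp_apply, coeffMap_jqNModC] at h
  rw [map_zero, Polynomial.eval₂_map, Polynomial.hom_eval₂, ← h]
  show (kQ p).eval₂ _ (Subtype.val (jdp K M p d hd)) = _
  rw [coe_jdp]
  congr 1
  · refine Polynomial.ringHom_ext (fun c => ?_) ?_
    · simp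
    · simp only [RingHom.comp_apply, coe_eval₂RingHom, eval₂_X, evq, coeffMap_jqModC]
      exact coe_inclP M p _
  · rw [jqNModC, qExpand_qExpand, qExpand_qExpand]
    exact qExpand_congr (mul_comm p d) _

theorem kQ_deriv_map (p : ℕ) [Fact p.Prime] :
    ((kQ p).derivative.eval (X ^ p)).map (Int.castRingHom (ZMod p)) =
      (X : (ZMod p)[X]) ^ (p * p) - X := by
  have h := (exists_kronecker p).choose_spec.2.2.2
  rw [← Polynomial.coe_mapRingHom, ← Polynomial.eval_map_apply, ← Polynomial.derivative_map]
  show eval _ (derivative ((exists_kronecker p).choose.map _)) = _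
  rw [h, derivative_mul]
  simp only [derivative_sub, derivative_X, derivative_C, sub_zero, one_mul, eval_add, eval_mul,
    eval_sub, eval_pow, eval_X, eval_C, Polynomial.coe_mapRingHom, Polynomial.map_pow,
    Polynomial.map_X, sub_self, zero_mul, add_zero, ← pow_mul]

variable {p : ℕ} {R k : Type*} [CommRing R] [IsDomain R] [IsDiscreteValuationRing R] [Field k]
  [CharP k p] [Fact p.Prime] (S : Setup p R k) (M : ℕ) [NeZero M] (hpM : ¬ p ∣ M) [IsAlgClosed k]

theorem dualMap_injective {A B : Type*} [CommRing A] [CommRing B] {f : A →+* B}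
    (hf : Function.Injective f) : Function.Injective (dualMap f) := fun x y h =>
  TrivSqZeroExt.ext (hf (by rw [← fst_dualMap, h, fst_dualMap]))
    (hf (by rw [← snd_dualMap, h, snd_dualMap]))

theorem qExpand_jq_ne_zero (K : Type*) [Field K] (d : ℕ) [NeZero d] :
    qExpand K d (jqModC K) ≠ 0 :=
  (map_ne_zero_iff _ (qExpand_injective d)).2 jqModC_ne_zero'

theorem ord₀_sp₀_jGen (d : ℕ) [NeZero d] (hd : d ∣ M) :
    jGen (FractionRing R) M d hd ≠ 0 ∧ ord₀ S M hpM (jGen (FractionRing R) M d hd) = 0 ∧
      sp₀ S M hpM (jGen (FractionRing R) M d hd) = inl (jGen k M d hd) := by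
  have hj : jGen (FractionRing R) M d hd ≠ 0 := fun h =>
    qExpand_jq_ne_zero _ d (congrArg Subtype.val h)
  obtain ⟨x, hx, hx'⟩ := S.ofInt_spec (qExpand ℤ d (jqModC ℤ))
  have hne : (S.discBranch.intδ x).fst ≠ 0 := by
    rw [hx', TrivSqZeroExt.fst_inl, coeffMap_qExpand, coeffMap_jqModC]
    exact qExpand_jq_ne_zero _ d
  obtain ⟨h1, h2⟩ := (compat_iInf S M).ord_sp_eq hpM _ hj
  rw [iInf_jGen, ← hx, S.discBranch.ord_eq_zero_of_intδ hne] at h1
  rw [iInf_jGen, ← hx, S.discBranch.sp_eq_intδ hne, hx'] at h2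
  refine ⟨hj, h1.symm, dualMap_injective (eInf k M).injective ?_⟩
  rw [← h2]
  refine TrivSqZeroExt.ext ?_ ?_
  · simp [jGen, coeffMap_qExpand, coeffMap_jqModC]
  · simp

include hpM in
theorem Compat.exists_jGen {O κ' : Type*} [CommRing O] [IsDomain O] [Field κ'] {B : Branch O κ'}
    {ι : modularFunctionFieldFullC (FractionRing R) M →+* FractionRing O}
    {e : modularFunctionFieldFullC k M →+* κ'} (h : Compat S M B ι e) (d : ℕ) [NeZero d]
    (hd : d ∣ M) : ∃ x : B.intRing (FractionRing O),
      (x : FractionRing O) = ι (jGen (FractionRing R) M d hd) ∧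
      B.intδ x = inl (e (jGen k M d hd)) := by
  obtain ⟨hj, ho, hs⟩ := ord₀_sp₀_jGen S M hpM d hd
  obtain ⟨h1, h2⟩ := h.ord_sp_eq hpM _ hj
  rw [ho] at h1
  rw [hs] at h2
  let x : B.intRing (FractionRing O) :=
    ⟨ι (jGen (FractionRing R) M d hd), B.isInt_iff.2 (Or.inr h1.ge)⟩
  have hne : (B.intδ x).fst ≠ 0 := by
    rw [B.fst_intδ, B.intRes_of_ord_eq_zero (x := x) ((_root_.map_ne_zero ι).2 hj) h1]
    exact B.resUnit_ne_zero ((_root_.map_ne_zero ι).2 hj)
  refine ⟨x, rfl, ?_⟩
  rw [← B.sp_eq_intδ hne]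
  refine h2.trans (TrivSqZeroExt.ext ?_ ?_) <;> simp

/-- `j(dpτ)` is residually the simple root `j(dτ)^p` of Kronecker's equation. -/
theorem rootAt_jdp {O κ' : Type*} [CommRing O] [IsDomain O] [Field κ'] {B : Branch O κ'}
    {ι : modularFunctionFieldFullC (FractionRing R) (M * p) →+* FractionRing O}
    {e : modularFunctionFieldFullC k M →+* κ'}
    (h : Compat S M B (ι.comp (inclP M p)) e) (d : ℕ) [NeZero d] (hd : d ∣ M)
    (hnear : B.BGe 1 (ι (jdp (FractionRing R) M p d hd) -
      ι (inclP M p (jGen (FractionRing R) M d hd)) ^ p)) :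
    Expn.RootAt (h.expn hpM) (jdp (FractionRing R) M p d hd)
      ((kQ p).map (eval₂RingHom (Int.castRingHom _) (jGen (FractionRing R) M d hd)))
      (jGen (FractionRing R) M d hd ^ p) := by
  obtain ⟨x, hx, hx'⟩ := h.exists_jGen S M hpM d hd
  have hev : ∀ a : ℤ[X],
      ι (inclP M p (eval₂ (Int.castRingHom _) (jGen (FractionRing R) M d hd) a)) =
        ((eval₂ (Int.castRingHom (B.intRing (FractionRing O))) x a :
          B.intRing (FractionRing O)) : FractionRing O) := by
    intro a
    refine RingHom.congr_fun (Polynomial.ringHom_ext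
      (f := (ι.comp (inclP M p)).comp
        (eval₂RingHom (Int.castRingHom _) (jGen (FractionRing R) M d hd)))
      (g := (B.intRing (FractionRing O)).subtype.comp
        (eval₂RingHom (Int.castRingHom (B.intRing (FractionRing O))) x))
      (fun c => by simp) ?_) a
    simpa using hx.symm
  set D := (kQ p).derivative.eval (X ^ p) with hDdef
  have hD : (((kQ p).map (eval₂RingHom (Int.castRingHom _)
        (jGen (FractionRing R) M d hd))).derivative.eval
      (jGen (FractionRing R) M d hd ^ p)) =
      eval₂ (Int.castRingHom _) (jGen (FractionRing R) M d hd) D := by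
    rw [derivative_map, hDdef, ← coe_eval₂RingHom, ← Polynomial.eval_map_apply]
    simp
  have hne : (B.intδ (eval₂ (Int.castRingHom (B.intRing (FractionRing O))) x D)).fst ≠ 0 := by
    set χ : ZMod p →+* k := ZMod.castHom dvd_rfl k
    set z : modularFunctionFieldFullC k M := jGen k M d hd
    have h1 : (B.intδ (eval₂ (Int.castRingHom (B.intRing (FractionRing O))) x D)).fst =
        e (z ^ (p * p) - z) := by
      have h2 : ((TrivSqZeroExt.fstHom κ' κ' κ').toRingHom.comp (B.intδ.comp
          (eval₂RingHom (Int.castRingHom (B.intRing (FractionRing O))) x))) =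
          e.comp ((eval₂RingHom ((algebraMap k _).comp χ) z).comp
            (Polynomial.mapRingHom (Int.castRingHom (ZMod p)))) := by
        refine Polynomial.ringHom_ext (fun c => by simp) ?_
        simp [hx', z]
      have h3 := RingHom.congr_fun h2 D
      simp only [RingHom.comp_apply, AlgHom.toRingHom_eq_coe, RingHom.coe_coe,
        Polynomial.coe_mapRingHom, coe_eval₂RingHom] at h3
      rw [hDdef, kQ_deriv_map p] at h3
      simp only [eval₂_sub, eval₂_X_pow, eval₂_X] at h3
      rw [hDdef]
      exact h3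
    rw [h1, _root_.map_ne_zero, sub_ne_zero]
    intro h0
    have h4 := congrArg (fun y : modularFunctionFieldFullC k M =>
      (Subtype.val y : LaurentSeries k).order) h0
    simp only [SubmonoidClass.coe_pow] at h4
    rw [show Subtype.val z = qExpand k d (jqModC k) from rfl,
      order_natPow (qExpand_jq_ne_zero k d), order_qExpand, order_jqModC] at h4
    have hd0 : (1 : ℤ) ≤ d := by exact_mod_cast NeZero.pos d
    have hp2 : (2 : ℤ) ≤ p := by exact_mod_cast (Fact.out : p.Prime).two_le
    push_cast at h4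
    have hp4 : (4 : ℤ) ≤ p * p := by nlinarith
    nlinarith [mul_le_mul_of_nonneg_right hp4 (show (0 : ℤ) ≤ d by omega)]
  refine ⟨fun i => ?_, ?_, ?_, ?_, ?_⟩
  · show B.BGe 0 (ι (inclP M p _))
    rw [coeff_map, coe_eval₂RingHom, hev]
    exact Branch.mem_intRing_iff_bGe.1 (Subtype.mem _)
  · show B.BGe 0 (ι (inclP M p _))
    rw [map_pow, map_pow]
    exact Branch.bGe_zero_pow p (hx ▸ Branch.mem_intRing_iff_bGe.1 x.2)
  · show B.BGe 1 (ι _ - ι (inclP M p _))
    rw [map_pow, map_pow]
    exact hnear
  · rw [hD]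
    intro h0
    exact B.ne_zero_of_intδ hne (by rw [← hev, h0, map_zero])
  · show B.ord (ι (inclP M p _)) = 0
    rw [hD, hev]
    exact B.ord_eq_zero_of_intδ hne

theorem iInf_comp_inclP : (iInf (R := R) (M * p)).comp (inclP M p) = iInf M :=
  RingHom.ext fun x => (Setup.toLS R).injective (by
    rw [RingHom.comp_apply, toLS_iInf, toLS_iInf]
    exact coe_inclP M p x)

omit [IsAlgClosed k] [CharP k p] in
theorem compat_iInf_inclP :
    Compat S M S.discBranch ((iInf (M * p)).comp (inclP M p)) (eInf k M) := by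
  rw [iInf_comp_inclP]
  exact compat_iInf S M

omit [IsAlgClosed k] in
theorem iInf_near (d : ℕ) [NeZero d] (hd : d ∣ M) :
    S.discBranch.BGe 1 (iInf (M * p) (jdp (FractionRing R) M p d hd) -
      iInf (M * p) (inclP M p (jGen (FractionRing R) M d hd)) ^ p) := by
  have : NeZero (p * d) := ⟨Nat.mul_ne_zero (Fact.out : p.Prime).ne_zero (NeZero.ne d)⟩
  obtain ⟨x, hx, hx'⟩ := S.ofInt_spec (qExpand ℤ (p * d) (jqModC ℤ))
  obtain ⟨y, hy, hy'⟩ := S.ofInt_spec (qExpand ℤ d (jqModC ℤ))
  have e1 : iInf (M * p) (jdp (FractionRing R) M p d hd) = (x : FractionRing (PowerSeries R)) :=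
    (Setup.toLS R).injective (by
      rw [toLS_iInf, hx, Setup.toLS_ofInt, coeffMap_qExpand, coeffMap_jqModC, coe_jdp,
        qExpand_qExpand])
  have e2 : iInf (M * p) (inclP M p (jGen (FractionRing R) M d hd)) =
      (y : FractionRing (PowerSeries R)) := by
    rw [show iInf (M * p) (inclP M p (jGen (FractionRing R) M d hd)) =
      iInf M (jGen (FractionRing R) M d hd) from RingHom.congr_fun (iInf_comp_inclP M) _,
      iInf_jGen, hy]
  rw [e1, e2]
  have hres : S.discBranch.intRes (x - y ^ p) = 0 := by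
    rw [← S.discBranch.fst_intδ, map_sub, map_pow, hx', hy', TrivSqZeroExt.fst_sub,
      TrivSqZeroExt.fst_pow, TrivSqZeroExt.fst_inl, TrivSqZeroExt.fst_inl, sub_eq_zero]
    have hc : Int.castRingHom k = (ZMod.castHom dvd_rfl k).comp (Int.castRingHom (ZMod p)) :=
      RingHom.ext_int _ _
    rw [hc, ← coeffMap_coeffMap, ← coeffMap_coeffMap, ← map_pow]
    refine congrArg _ ?_
    rw [coeffMap_qExpand, coeffMap_qExpand, coeffMap_jqModC,
      ← qExpand_qExpand, qExpand_eq_pow p (qExpand (ZMod p) d (jqModC (ZMod p)))]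
  obtain ⟨z, hz⟩ := S.discBranch.intRes_eq_zero_iff.1 hres
  have hz' := congrArg Subtype.val hz
  push_cast at hz'
  rw [hz']
  exact ((Branch.bGe_ord _).mono (le_of_eq S.discBranch.ord_ϖ.symm)).mul
    (Branch.mem_intRing_iff_bGe.1 z.2) |>.mono (by norm_num)

include hpM in
theorem exists_spInf {x : modularFunctionFieldFullC (FractionRing R) (M * p)} (hx : x ≠ 0) :
    ∃ c, S.discBranch.sp (iInf (M * p) x) = dualMap (eInf k M) c := by
  obtain ⟨y, -, -, -, h, -⟩ := Expn.exists_eq_of_roots
    (E := (compat_iInf_inclP S M).expn hpM) (E₂ := (compat_iInf_inclP S M).expn hpM)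
    (closure_pGens (FractionRing R) M p) (fun g hg => by
      obtain ⟨d, hd0, hd, rfl⟩ := hg
      have hr := rootAt_jdp S M hpM (compat_iInf_inclP S M) d hd (iInf_near S M d hd)
      exact ⟨_, _, kQ_relation _ M p d hd, hr, hr⟩) hx
  exact ⟨_, h⟩

open Classical in
/-- Reduction with derivative along the component at infinity. -/
def spInf (x : modularFunctionFieldFullC (FractionRing R) (M * p)) :
    DualNumber (modularFunctionFieldFullC k M) :=
  if hx : x ≠ 0 then (exists_spInf S M hpM hx).choose else 0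

theorem dualMap_spInf {x : modularFunctionFieldFullC (FractionRing R) (M * p)} (hx : x ≠ 0) :
    dualMap (eInf k M) (spInf S M hpM x) = S.discBranch.sp (iInf (M * p) x) := by
  rw [spInf, dif_pos hx]
  exact (exists_spInf S M hpM hx).choose_spec.symm

/-- The component at infinity. -/
def infGB : GBranch S (modularFunctionFieldFullC (FractionRing R) (M * p))
    (modularFunctionFieldFullC k M) where
  ord x := S.discBranch.ord (iInf (M * p) x)
  sp x := spInf S M hpM x
  ord_mul x y hx hy := by
    rw [map_mul, S.discBranch.ord_mul ((_root_.map_ne_zero _).2 hx) ((_root_.map_ne_zero _).2 hy)]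
  sp_mul x y hx hy := by
    refine dualMap_injective (eInf k M).injective ?_
    rw [map_mul, dualMap_spInf S M hpM (mul_ne_zero hx hy), dualMap_spInf S M hpM hx,
      dualMap_spInf S M hpM hy, map_mul,
      S.discBranch.sp_mul ((_root_.map_ne_zero _).2 hx) ((_root_.map_ne_zero _).2 hy)]
  fst_sp_ne_zero x hx h := by
    apply S.discBranch.fst_sp_ne_zero ((_root_.map_ne_zero (iInf (M * p))).2 hx)
    rw [← dualMap_spInf S M hpM hx, fst_dualMap, h, map_zero]
  ord_ϖ := by
    rw [algebraMap_eq_cF, iInf_cF]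
    exact S.discBranch.ord_ϖ
  sp_ϖ := by
    have h := S.discBranch.isRepr_ϖ (L := FractionRing (PowerSeries R))
    refine dualMap_injective (eInf k M).injective ?_
    rw [map_one, algebraMap_eq_cF, dualMap_spInf S M hpM, iInf_cF]
    · exact h.sp_eq.trans (by simp)
    · exact (_root_.map_ne_zero (algebraMap (FractionRing R) _)).2
        ((map_ne_zero_iff _ (IsFractionRing.injective R _)).2 S.irreducible_ϖ.ne_zero)
  ord_const r hr := by
    rw [algebraMap_eq_cF, iInf_cF]
    refine S.discBranch.ord_algebraMap ?_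
    show (S.δS (PowerSeries.C r)).fst ≠ 0
    rw [δS_C, fst_dualMap]
    exact (_root_.map_ne_zero _).2 hr
  sp_const r hr := by
    have hr' : S.discBranch.res (PowerSeries.C r) ≠ 0 := by
      show (S.δS (PowerSeries.C r)).fst ≠ 0
      rw [δS_C, fst_dualMap]
      exact (_root_.map_ne_zero _).2 hr
    refine dualMap_injective (eInf k M).injective ?_
    rw [algebraMap_eq_cF, dualMap_spInf S M hpM, iInf_cF,
      (S.discBranch.isRepr_algebraMap hr').sp_eq, map_one, TrivSqZeroExt.inv_one, mul_one]
    · show S.δS _ = _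
      rw [δS_C]
      refine TrivSqZeroExt.ext ?_ ?_ <;> simp [algebraMap_laurentSeries_eq_single]
    · intro h0
      have := congrArg Subtype.val h0
      rw [coe_cF, ZeroMemClass.coe_zero, map_eq_zero_iff _ HahnSeries.C_injective,
        map_eq_zero_iff _ (IsFractionRing.injective R _)] at this
      exact hr (by rw [this, map_zero])

/-- Expansions compatible on level `M` and near the residual roots see the component at infinity:
general generators. -/
theorem infGB_eq_of_roots {O κ' : Type*} [CommRing O] [IsDomain O] [Field κ'] {B : Branch O κ'}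
    {ι : modularFunctionFieldFullC (FractionRing R) (M * p) →+* FractionRing O}
    {e : modularFunctionFieldFullC k M →+* κ'} (h : Compat S M B (ι.comp (inclP M p)) e)
    {gens : Set (modularFunctionFieldFullC (FractionRing R) (M * p))}
    (hgen : Subfield.closure (Set.range (inclP (k := FractionRing R) M p) ∪ gens) = ⊤)
    (hroot : ∀ g ∈ gens, ∃ P y₀, P.eval₂ (inclP (k := FractionRing R) M p) g = 0 ∧
      Expn.RootAt ((compat_iInf_inclP S M).expn hpM) g P y₀ ∧
      Expn.RootAt (h.expn hpM) g P y₀)
    (x : modularFunctionFieldFullC (FractionRing R) (M * p)) (hx : x ≠ 0) :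
    B.ord (ι x) = (infGB S M hpM).ord x ∧
      B.sp (ι x) = dualMap e ((infGB S M hpM).sp x) := by
  obtain ⟨y, -, h1, h2, h3, h4⟩ := Expn.exists_eq_of_roots
    (E := (compat_iInf_inclP S M).expn hpM) (E₂ := h.expn hpM) hgen hroot hx
  refine ⟨h2.trans h1.symm, h4.trans (congrArg (dualMap e) ?_)⟩
  exact dualMap_injective (eInf k M).injective
    (h3.symm.trans (dualMap_spInf S M hpM hx).symm)

end Fermat.Agent.LevelLowerP
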