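import Fermat.Agent.Igusa.Base
import Fermat.Agent.LevelOne.Ramanujan

/-!
# The derivation `θ = q d/dq` on Laurent series and the formal identity for `θ j`
-/

set_option autoImplicit false

noncomputable section

open scoped UpperHalfPlane Manifold Real

namespace Fermat.Agent.LevelLowerP

open Fermat.Agent.Igusa ModularCurve

local notation "qP" => Function.Periodic.qParam

section Theta

variable (R : Type*) [CommRing R]

/-- `θ = q d/dq`. -/
def theta : LaurentSeries R →+ LaurentSeries R where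
  toFun s :=
    { coeff := fun n => (n : R) * s.coeff n
      isPWO_support' := s.isPWO_support.mono fun n hn h0 => hn (by simp [h0]) }
  map_zero' := by ext n; simp
  map_add' x y := by ext n; simp [mul_add]

variable {R}

@[simp]
theorem theta_coeff (s : LaurentSeries R) (n : ℤ) : (theta R s).coeff n = (n : R) * s.coeff n :=
  rfl

theorem theta_mul (x y : LaurentSeries R) :
    theta R (x * y) = theta R x * y + x * theta R y := by
  ext n
  have h1 : (theta R x * y).coeff n = ∑ p ∈ Finset.antidiagonal x.isPWO_support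
      y.isPWO_support n, (p.1 : R) * x.coeff p.1 * y.coeff p.2 :=
    HahnSeries.coeff_mul_left' x.isPWO_support fun m hm h0 => hm (by simp [h0])
  have h2 : (x * theta R y).coeff n = ∑ p ∈ Finset.antidiagonal x.isPWO_support
      y.isPWO_support n, x.coeff p.1 * ((p.2 : R) * y.coeff p.2) :=
    HahnSeries.coeff_mul_right' y.isPWO_support fun m hm h0 => hm (by simp [h0])
  rw [HahnSeries.coeff_add, h2, h1, ← Finset.sum_add_distrib, theta_coeff,
    HahnSeries.coeff_mul, Finset.mul_sum]
  refine Finset.sum_congr rfl fun p hp => ?_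
  rw [← (Finset.mem_antidiagonal.mp hp).2.2]
  push_cast
  ring

theorem theta_C_mul (r : R) (x : LaurentSeries R) :
    theta R (HahnSeries.C r * x) = HahnSeries.C r * theta R x := by
  ext n
  simp [HahnSeries.C_apply, mul_left_comm]

theorem theta_one : theta R 1 = 0 := by
  ext n
  rcases eq_or_ne n 0 with rfl | hn <;> simp [HahnSeries.coeff_one, *]

theorem theta_pow (x : LaurentSeries R) (m : ℕ) :
    theta R (x ^ m) = (m : LaurentSeries R) * x ^ (m - 1) * theta R x := by
  induction m with
  | zero => simp [theta_one]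
  | succ m ih =>
    rw [pow_succ, theta_mul, ih]
    rcases m with _ | m
    · simp
    · push_cast [Nat.add_sub_cancel]
      ring

theorem coeffMap_theta {S : Type*} [CommRing S] (φ : R →+* S) (s : LaurentSeries R) :
    coeffMap φ (theta R s) = theta S (coeffMap φ s) := by
  ext n
  rw [coeffMap_coeff, theta_coeff, theta_coeff, coeffMap_coeff, map_mul, map_intCast]

@[simp]
theorem theta_C (r : R) : theta R (HahnSeries.C r) = 0 := by
  ext n
  rcases eq_or_ne n 0 with rfl | hn <;> simp [HahnSeries.C_apply, *]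

theorem theta_qExpand (N : ℕ) [NeZero N] (s : LaurentSeries R) :
    theta R (qExpand R N s) = HahnSeries.C (N : R) * qExpand R N (theta R s) := by
  ext n
  rw [theta_coeff, HahnSeries.C_apply, HahnSeries.coeff_single_zero_mul]
  by_cases hd : (N : ℤ) ∣ n
  · obtain ⟨m, rfl⟩ := hd
    rw [qExpand_coeff_mul, qExpand_coeff_mul, theta_coeff]
    push_cast
    ring
  · rw [qExpand_coeff_of_not_dvd N _ hd, qExpand_coeff_of_not_dvd N _ hd, mul_zero, mul_zero]

theorem theta_pow_char (p : ℕ) [CharP R p] (s : LaurentSeries R) : theta R (s ^ p) = 0 := by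
  have : (p : LaurentSeries R) = 0 := by
    rw [← map_natCast (HahnSeries.C : R →+* LaurentSeries R), CharP.cast_eq_zero, map_zero]
  rw [theta_pow, this, zero_mul, zero_mul]

end Theta

theorem hasExp_normalizedDeriv {f : ℍ → ℂ} {s : LaurentSeries ℂ} (hf : HasExp 1 f s) :
    HasExp 1 (Derivative.normalizedDerivOfComplex f) (theta ℂ s) := by
  refine ⟨Derivative.normalizedDerivOfComplex_mdifferentiable hf.1, fun τ => ?_⟩
  let F : ℤ → ℂ → ℂ := fun n z => s.coeff n * qP ((1 : ℕ) : ℝ) z ^ n
  set a : ℝ := τ.im / 2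
  set b : ℝ := τ.im * 2
  let U : Set ℂ := {z | a < z.im ∧ z.im < b}
  have ha : 0 < a := by positivity
  have hb : 0 < b := by positivity
  have hU : IsOpen U :=
    (isOpen_lt continuous_const Complex.continuous_im).inter
      (isOpen_lt Complex.continuous_im continuous_const)
  have hτU : (τ : ℂ) ∈ U := ⟨by simp only [a, UpperHalfPlane.coe_im]; linarith,
    by simp only [b, UpperHalfPlane.coe_im]; linarith⟩
  let ta : ℍ := UpperHalfPlane.mk ⟨0, a⟩ ha
  let tb : ℍ := UpperHalfPlane.mk ⟨0, b⟩ hb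
  have hu : Summable fun n : ℤ => ‖F n ta‖ + ‖F n tb‖ :=
    (hf.2 ta).summable.norm.add (hf.2 tb).summable.norm
  have hd : ∀ n, DifferentiableOn ℂ (F n) U := fun n =>
    ((Function.Periodic.differentiable_qParam).zpow
      (Or.inl fun z => Function.Periodic.qParam_ne_zero z)).differentiableOn.const_mul _
  have hle : ∀ n : ℤ, ∀ w ∈ U, ‖F n w‖ ≤ ‖F n ta‖ + ‖F n tb‖ := by
    intro n w hw
    have hexp : ∀ x : ℝ, Real.exp x ^ n = Real.exp (x * n) := fun x => by
      rw [Real.exp_mul, Real.rpow_intCast]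
    simp only [F, norm_mul, norm_zpow, Function.Periodic.norm_qParam, Nat.cast_one, div_one,
      hexp, ← mul_add]
    refine mul_le_mul_of_nonneg_left ?_ (norm_nonneg _)
    have hta : (ta : ℂ).im = a := rfl
    have htb : (tb : ℂ).im = b := rfl
    rw [hta, htb]
    rcases le_or_gt 0 n with hn | hn
    · refine le_add_of_le_of_nonneg (Real.exp_le_exp.mpr ?_) (Real.exp_pos _).le
      have : (0 : ℝ) ≤ n := by exact_mod_cast hn
      nlinarith [Real.pi_pos, hw.1, mul_le_mul_of_nonneg_left hw.1.le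
        (mul_nonneg this Real.pi_pos.le)]
    · refine le_add_of_nonneg_of_le (Real.exp_pos _).le (Real.exp_le_exp.mpr ?_)
      have : (n : ℝ) ≤ 0 := by exact_mod_cast hn.le
      nlinarith [Real.pi_pos, hw.2, mul_le_mul_of_nonpos_left hw.2.le
        (mul_nonpos_of_nonpos_of_nonneg this Real.pi_pos.le)]
  have h := Complex.hasSum_deriv_of_summable_norm hu hd hU hle hτU
  have hev : (fun w => ∑' n, F n w) =ᶠ[nhds (τ : ℂ)] f ∘ UpperHalfPlane.ofComplex := by
    refine Filter.eventuallyEq_of_mem (hU.mem_nhds hτU) fun w hw => ?_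
    have hw0 : 0 < w.im := ha.trans hw.1
    rw [Function.comp_apply, UpperHalfPlane.ofComplex_apply_of_im_pos hw0]
    exact (hf.2 ⟨w, hw0⟩).tsum_eq
  rw [hev.deriv_eq] at h
  refine (h.mul_left (2 * π * Complex.I)⁻¹).congr_fun fun n => ?_
  have hq : HasDerivAt (fun z : ℂ => qP ((1 : ℕ) : ℝ) z ^ n)
      ((n : ℂ) * qP ((1 : ℕ) : ℝ) τ ^ n * (2 * π * Complex.I)) τ := by
    have h1 : (fun z : ℂ => qP ((1 : ℕ) : ℝ) z ^ n) =
        fun z => Complex.exp ((n : ℂ) * (2 * π * Complex.I * z)) := by
      funext z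
      rw [Complex.exp_int_mul]
      simp [Function.Periodic.qParam]
    rw [congrFun h1 τ, h1]
    have h2 := (((hasDerivAt_id (τ : ℂ)).const_mul (2 * π * Complex.I)).const_mul (n : ℂ)).cexp
    refine h2.congr_deriv ?_
    simp only [id_eq]
    ring
  rw [theta_coeff, (hq.const_mul (s.coeff n)).deriv]
  field_simp

theorem theta_jqModC_pow_six_complex :
    theta ℂ (jqModC ℂ) ^ 6 =
      deltaR ℂ * jqModC ℂ ^ 4 * (jqModC ℂ - HahnSeries.C (1728 : ℂ)) ^ 3 := by
  set x : (ℍ → ℂ) × LaurentSeries ℂ :=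
    (Derivative.normalizedDerivOfComplex jFun, theta ℂ (jqModC ℂ))
  set y : (ℍ → ℂ) × LaurentSeries ℂ := (jFun, jqModC ℂ)
  set d : (ℍ → ℂ) × LaurentSeries ℂ := (ModularForm.discriminant, deltaR ℂ)
  set c : (ℍ → ℂ) × LaurentSeries ℂ := (fun _ => (1728 : ℂ), HahnSeries.C (1728 : ℂ))
  have hx : x ∈ QS 1 := hasExp_normalizedDeriv hasExp_jFun
  have hy : y ∈ QS 1 := hasExp_jFun
  have hd : d ∈ QS 1 := hasExp_delta
  have hc : c ∈ QS 1 := hasExp_const 1 1728
  have hl : x ^ 6 ∈ QS 1 := pow_mem hx 6
  have hr : d * y ^ 4 * (y - c) ^ 3 ∈ QS 1 :=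
    mul_mem (mul_mem hd (pow_mem hy 4)) (pow_mem (sub_mem hy hc) 3)
  have hfun : (x ^ 6).1 = (d * y ^ 4 * (y - c) ^ 3).1 := by
    funext τ
    simp only [x, y, d, c, Prod.fst_mul, Prod.pow_fst, Prod.fst_sub, Pi.mul_apply, Pi.pow_apply,
      Pi.sub_apply]
    have hj : jFun = LevelOne.jFun := by
      funext z
      simp only [jFun, LevelOne.jFun, div_eq_mul_inv]
    have hD : Derivative.normalizedDerivOfComplex jFun τ =
        -(ModularForm.E₄ τ ^ 2 * ModularForm.E₆ τ / ModularForm.discriminant τ) := by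
      rw [Derivative.normalizedDerivOfComplex, hj, (LevelOne.hasDerivAt_jFun τ).deriv]
      field_simp
    have hΔ := ModularForm.discriminant_ne_zero τ
    have h6 : ModularForm.E₆ τ ^ 2 = ModularForm.E₄ τ ^ 3 - 1728 * ModularForm.discriminant τ := by
      rw [ModularForm.discriminant_eq_E₄_cube_sub_E₆_sq]; ring
    rw [hD, jFun]
    calc (-(ModularForm.E₄ τ ^ 2 * ModularForm.E₆ τ / ModularForm.discriminant τ)) ^ 6
        = ModularForm.E₄ τ ^ 12 * (ModularForm.E₆ τ ^ 2) ^ 3 /
            ModularForm.discriminant τ ^ 6 := by ring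
      _ = _ := by
        rw [h6]
        field_simp
  have := (mem_QS.mp hl)
  rw [hfun] at this
  have h3 := this.unique (mem_QS.mp hr)
  simpa [x, y, d, c] using h3

/-- `(θ j)⁶ = Δ j⁴ (j - 1728)³`, over any ring. -/
theorem theta_jqModC_pow_six (R : Type*) [CommRing R] :
    theta R (jqModC R) ^ 6 =
      deltaR R * jqModC R ^ 4 * (jqModC R - HahnSeries.C (1728 : R)) ^ 3 := by
  have hZ : theta ℤ (jqModC ℤ) ^ 6 =
      deltaR ℤ * jqModC ℤ ^ 4 * (jqModC ℤ - HahnSeries.C (1728 : ℤ)) ^ 3 := by
    have hinj : Function.Injective (coeffMap (Int.castRingHom ℂ)) := fun u v huv => by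
      ext n
      refine Int.cast_injective (α := ℂ) ?_
      simpa only [coeffMap_coeff, eq_intCast] using congrArg (fun w => w.coeff n) huv
    apply hinj
    simpa only [map_pow, map_mul, map_sub, coeffMap_theta, coeffMap_jqModC, HahnSeries.C_apply,
      coeffMap_single, coeffMap_deltaR, map_ofNat] using theta_jqModC_pow_six_complex
  simpa only [map_pow, map_mul, map_sub, coeffMap_theta, coeffMap_jqModC, HahnSeries.C_apply,
    coeffMap_single, coeffMap_deltaR, map_ofNat] using congrArg (coeffMap (Int.castRingHom R)) hZ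

/-- The leading coefficient of `θ j` is `-1`. -/
theorem theta_jqModC_coeff_neg_one (R : Type*) [CommRing R] :
    (theta R (jqModC R)).coeff (-1) = -1 := by
  have := coeff_jqModC_pow_self R 1
  simp only [pow_one, Nat.cast_one] at this
  rw [theta_coeff, this]
  simp

end Fermat.Agent.LevelLowerP
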