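import Fermat.Agent.LevelLowerP.GeoBranch
import Fermat.Agent.LevelLowerP.GeoAtkin
import Fermat.Agent.LevelLowerP.Theta

/-!
# Level `Mp` over level `M`: conjugates, generators, and the function `Δ(τ)/Δ(pτ)`
-/

set_option autoImplicit false

noncomputable section

namespace Fermat.Agent.LevelLowerP

open Polynomial ModularCurve Fermat.Agent.Igusa
open scoped LaurentSeries

section Gen

variable {K : Type*} [Field K] [CharZero K] {M p : ℕ} [NeZero M] [Fact p.Prime]

omit [CharZero K] in
theorem inclP_jC : inclP M p (jC K M) = jC K (M * p) := by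
  apply Subtype.val_injective
  rw [coe_inclP]
  rfl

omit [CharZero K] in
theorem inclP_algebraMap (c : K) :
    inclP M p (algebraMap K (modularFunctionFieldFullC K M) c) =
      algebraMap K (modularFunctionFieldFullC K (M * p)) c :=
  Subtype.val_injective (((coe_inclP M p _).trans
    (IntermediateField.coe_algebraMap_apply _ c)).trans
    (IntermediateField.coe_algebraMap_apply _ c).symm)

theorem closure_jdp_top :
    Subfield.closure (Set.range (inclP (k := K) M p) ∪ {jdp K M p M dvd_rfl}) = ⊤ := by
  refine eq_top_iff.2 fun x _ => ?_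
  set T := Subfield.closure (Set.range (inclP (k := K) M p) ∪ {jdp K M p M dvd_rfl})
  have hj : jC K (M * p) ∈ T := by
    rw [← inclP_jC]
    exact Subfield.subset_closure (Or.inl ⟨_, rfl⟩)
  have hc : ∀ c : K, algebraMap K (modularFunctionFieldFullC K (M * p)) c ∈ T := fun c => by
    rw [← inclP_algebraMap]
    exact Subfield.subset_closure (Or.inl ⟨_, rfl⟩)
  have hjN : jNC K (M * p) ∈ T := by
    refine Subfield.subset_closure (Or.inr (Subtype.ext ?_))
    rw [coe_jdp, qExpand_qExpand]
    exact qExpand_congr (mul_comm M p) _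
  have hev : ∀ b : K[X], evC K (M * p) b ∈ T := fun b => by
    rw [evC, Polynomial.coe_eval₂RingHom, Polynomial.eval₂_eq_sum_range]
    exact sum_mem fun i _ => mul_mem (hc _) (pow_mem hj i)
  obtain ⟨b, hb, a, hab⟩ := exists_val2_eq K (M * p) x
  rw [eq_div_of_mul_eq ((map_ne_zero_iff _ (evC_injective K (M * p))).2 hb) hab]
  exact div_mem (sum_mem fun l _ => mul_mem (hev _) (pow_mem hjN _)) (hev _)

/-- A function with `p + 1` distinct conjugates generates level `Mp` over level `M`, and any monic
equation of degree `p + 1` is its minimal one: expansions extend by any root of it. -/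
theorem generator_of_conj {g : modularFunctionFieldFullC K (M * p)} {ι Ω : Type*} [Fintype ι]
    [Field Ω] (σ : ι → modularFunctionFieldFullC K (M * p) →+* Ω)
    (φ : modularFunctionFieldFullC K M →+* Ω)
    (hσ : ∀ i x, σ i (inclP M p x) = φ x) (hinj : Function.Injective fun i => σ i g)
    (hcard : Fintype.card ι = p + 1) :
    Subfield.closure (Set.range (inclP (k := K) M p) ∪ {g}) = ⊤ ∧
      ∀ P : (modularFunctionFieldFullC K M)[X], P.Monic → P.natDegree = p + 1 →
        P.eval₂ (inclP M p) g = 0 →
        P.derivative.eval₂ (inclP M p) g ≠ 0 ∧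
        ∀ {Ω' : Type*} [Field Ω'] (ι₀ : modularFunctionFieldFullC K M →+* Ω') (ρ : Ω'),
          P.eval₂ ι₀ ρ = 0 →
          ∃ f : modularFunctionFieldFullC K (M * p) →+* Ω', f.comp (inclP M p) = ι₀ ∧ f g = ρ := by
  classical
  let : Algebra (modularFunctionFieldFullC K M) (modularFunctionFieldFullC K (M * p)) :=
    (inclP M p).toAlgebra
  -- shortcut for instance search
  let _ : Module (modularFunctionFieldFullC K M) (modularFunctionFieldFullC K (M * p)) :=
    Algebra.toModule
  set θ := jdp K M p M dvd_rfl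
  obtain ⟨hkm, hkd, -, -⟩ := (exists_kronecker p).choose_spec
  have hθ : aeval θ ((kQ p).map (eval₂RingHom (Int.castRingHom (modularFunctionFieldFullC K M))
      (jGen K M M dvd_rfl))) = 0 := by
    rw [aeval_def, RingHom.algebraMap_toAlgebra]
    exact kQ_relation K M p M dvd_rfl
  have hθint : IsIntegral (modularFunctionFieldFullC K M) θ := ⟨_, hkm.map _, hθ⟩
  have htop : IntermediateField.adjoin (modularFunctionFieldFullC K M) {θ} = ⊤ := by
    apply IntermediateField.toSubfield_injective
    rw [IntermediateField.adjoin_toSubfield, IntermediateField.top_toSubfield,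
      RingHom.algebraMap_toAlgebra]
    exact closure_jdp_top
  have hfin : FiniteDimensional (modularFunctionFieldFullC K M)
      (modularFunctionFieldFullC K (M * p)) := by
    have h := IntermediateField.adjoin.finiteDimensional hθint
    rw [htop] at h
    exact IntermediateField.topEquiv.toLinearEquiv.finiteDimensional
  have hdim : Module.finrank (modularFunctionFieldFullC K M)
      (modularFunctionFieldFullC K (M * p)) ≤ p + 1 := by
    rw [← IntermediateField.finrank_top', ← htop, IntermediateField.adjoin.finrank hθint]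
    refine (Polynomial.natDegree_le_of_dvd (minpoly.dvd _ _ hθ) (hkm.map _).ne_zero).trans ?_
    rw [kQ, hkm.natDegree_map]
    exact le_of_eq hkd
  have hgint : IsIntegral (modularFunctionFieldFullC K M) g :=
    IsIntegral.of_finite (modularFunctionFieldFullC K M) g
  set m := minpoly (modularFunctionFieldFullC K M) g
  have hroot : ∀ i, (m.map φ).IsRoot (σ i g) := fun i => by
    rw [IsRoot.def, eval_map, show φ = (σ i).comp
        (algebraMap (modularFunctionFieldFullC K M) (modularFunctionFieldFullC K (M * p))) from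
      RingHom.ext fun x => (hσ i x).symm, ← Polynomial.hom_eval₂, ← aeval_def, minpoly.aeval,
      map_zero]
  have hdeg : p + 1 ≤ m.natDegree := by
    rw [← hcard, ← m.natDegree_map φ]
    refine le_trans ?_ (Polynomial.card_roots' _)
    refine le_trans ?_ (Multiset.toFinset_card_le _)
    rw [← Finset.card_univ, ← Finset.card_image_of_injective Finset.univ hinj]
    refine Finset.card_le_card fun y hy => ?_
    obtain ⟨i, -, rfl⟩ := Finset.mem_image.1 hy
    rw [Multiset.mem_toFinset, Polynomial.mem_roots']
    exact ⟨Polynomial.map_ne_zero (minpoly.ne_zero hgint), hroot i⟩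
  have hgtop : IntermediateField.adjoin (modularFunctionFieldFullC K M) {g} = ⊤ := by
    rw [← IntermediateField.finrank_eq_one_iff_eq_top]
    have h1 := IntermediateField.adjoin.finrank hgint
    have : Module.Free (modularFunctionFieldFullC K M)
        (IntermediateField.adjoin (modularFunctionFieldFullC K M) {g}) :=
      Module.Free.of_divisionRing _ _
    have : Module.Free (IntermediateField.adjoin (modularFunctionFieldFullC K M) {g})
        (modularFunctionFieldFullC K (M * p)) :=
      Module.Free.of_divisionRing _ _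
    have h2 := Module.finrank_mul_finrank (modularFunctionFieldFullC K M)
      (IntermediateField.adjoin (modularFunctionFieldFullC K M) {g})
      (modularFunctionFieldFullC K (M * p))
    rw [h1] at h2
    rcases Nat.eq_zero_or_pos (Module.finrank
        (IntermediateField.adjoin (modularFunctionFieldFullC K M) {g})
        (modularFunctionFieldFullC K (M * p))) with h0 | h0
    · rw [h0, mul_zero] at h2
      exact absurd h2.symm Module.finrank_pos.ne'
    · nlinarith
  refine ⟨?_, fun P hPm hPd hP => ?_⟩
  · have h := congrArg IntermediateField.toSubfield hgtop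
    rwa [IntermediateField.adjoin_toSubfield, IntermediateField.top_toSubfield,
      RingHom.algebraMap_toAlgebra] at h
  have hPg : aeval g P = 0 := by rwa [aeval_def, RingHom.algebraMap_toAlgebra]
  have hmP : P = m := (Polynomial.eq_of_monic_of_dvd_of_natDegree_le (minpoly.monic hgint) hPm
    (minpoly.dvd _ _ hPg) (by rw [hPd]; exact hdeg))
  refine ⟨fun h => ?_, ?_⟩
  · have h' : aeval g P.derivative = 0 := by rwa [aeval_def, RingHom.algebraMap_toAlgebra]
    have hd : P.derivative.natDegree < P.natDegree :=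
      Polynomial.natDegree_derivative_lt (by omega)
    have h0 : P.derivative = 0 := by
      by_contra h0
      have := Polynomial.natDegree_le_of_dvd (minpoly.dvd _ _ h') h0
      rw [← show P.natDegree = m.natDegree from congrArg _ hmP] at hdeg
      change m.natDegree ≤ _ at this
      rw [← hmP] at this
      omega
    have := Polynomial.derivative_eq_zero.1 h0
    omega
  intro Ω' _ ι₀ ρ hρ
  let ev : (modularFunctionFieldFullC K M)[X] →+* (modularFunctionFieldFullC K (M * p)) :=
    (aeval g).toRingHom
  have hev : Function.Surjective ev := by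
    intro x
    have hx : x ∈ IntermediateField.adjoin (modularFunctionFieldFullC K M) {g} := by
      rw [hgtop]; trivial
    rw [← IntermediateField.mem_toSubalgebra,
      IntermediateField.adjoin_simple_toSubalgebra_of_isAlgebraic hgint.isAlgebraic,
      Algebra.adjoin_singleton_eq_range_aeval] at hx
    exact hx
  let e : (modularFunctionFieldFullC K M)[X] →+* Ω' := eval₂RingHom ι₀ ρ
  have hker : RingHom.ker ev ≤ RingHom.ker e := by
    intro q hq
    obtain ⟨r, rfl⟩ := minpoly.dvd (modularFunctionFieldFullC K M) g hq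
    rw [RingHom.mem_ker, map_mul]
    rw [show e (minpoly (modularFunctionFieldFullC K M) g) = 0 by
      rw [show minpoly (modularFunctionFieldFullC K M) g = P from hmP.symm]; exact hρ, zero_mul]
  let f := RingHom.liftOfSurjective ev hev ⟨e, hker⟩
  have hf : ∀ q, f (ev q) = e q := fun q =>
    RingHom.liftOfRightInverse_comp_apply ev _ _ ⟨e, hker⟩ q
  refine ⟨f, RingHom.ext fun x => ?_, ?_⟩
  · have h := hf (C x)
    simp only [ev, e, AlgHom.toRingHom_eq_coe, RingHom.coe_coe, aeval_C, coe_eval₂RingHom,
      eval₂_C] at h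
    exact h
  · have h := hf X
    simp only [ev, e, AlgHom.toRingHom_eq_coe, RingHom.coe_coe, aeval_X, coe_eval₂RingHom,
      eval₂_X] at h
    exact h

variable (K M p)

/-- The conjugates over level `M`, in series over an algebraically closed extension. -/
theorem exists_conjugates (hpM : ¬ p ∣ M) :
    ∃ (η : (AlgebraicClosure K)ˣ)
      (σ : Option (Fin p) → modularFunctionFieldFullC K (M * p) →+*
        LaurentSeries (AlgebraicClosure K)),
      IsPrimitiveRoot (η : AlgebraicClosure K) p ∧
      (∀ o x, σ o (inclP M p x) =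
        qExpand _ (M * p) (coeffMap (algebraMap K (AlgebraicClosure K)) (Subtype.val x))) ∧
      (∀ y, σ none y =
        qExpand _ (M * p) (coeffMap (algebraMap K (AlgebraicClosure K)) (Subtype.val y))) ∧
      ∀ (b : Fin p) x, σ (some b) (scaleP M p x) = qExpand _ M (twist (η ^ (b : ℕ))
        (coeffMap (algebraMap K (AlgebraicClosure K)) (Subtype.val x))) := by
  set φ := algebraMap K (AlgebraicClosure K)
  obtain ⟨η, hη, hσ⟩ := exists_heckeHom (k := AlgebraicClosure K) M p
    (by exact_mod_cast NeZero.ne (M * p)) hpM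
  choose τ hτ1 hτ2 using hσ
  let s : Option (Fin p) → modularFunctionFieldFullC K (M * p) →+*
      LaurentSeries (AlgebraicClosure K) := fun o => match o with
    | none => ((qExpand _ (M * p)).comp (coeffMap φ)).comp
        (SubringClass.subtype (modularFunctionFieldFullC K (M * p)))
    | some b => (τ (b : ℕ)).comp (baseHom φ (M * p))
  have hb1 : ∀ x, baseHom φ (M * p) (inclP M p x) = inclP M p (baseHom φ M x) := fun x =>
    Subtype.ext (by rw [coe_baseHom, coe_inclP, coe_inclP, coe_baseHom])
  have hb2 : ∀ x, baseHom φ (M * p) (scaleP M p x) = scaleP M p (baseHom φ M x) := fun x =>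
    Subtype.ext (by rw [coe_baseHom, coe_scaleP, coe_scaleP, coe_baseHom, coeffMap_qExpand])
  refine ⟨η, s, hη, fun o x => ?_, fun y => rfl, fun b x => ?_⟩
  · cases o with
    | none =>
      show qExpand _ (M * p) (coeffMap φ (Subtype.val (inclP M p x))) = _
      rw [coe_inclP]
    | some b =>
      show τ (b : ℕ) (baseHom φ (M * p) (inclP M p x)) = _
      rw [hb1, hτ1]
      rfl
  · show τ (b : ℕ) (baseHom φ (M * p) (scaleP M p x)) = _
    rw [hb2, hτ2]
    rfl

end Gen

section VFun

/-- Derivative in the inner variable. -/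
def dX (Q : ℤ[X][X]) : ℤ[X][X] := Q.sum fun l a => monomial l (derivative a)

theorem dX_monomial (l : ℕ) (a : ℤ[X]) : dX (monomial l a) = monomial l (derivative a) :=
  Polynomial.sum_monomial_index a (fun l a => monomial l (derivative a)) (by simp)

theorem dX_add (P Q : ℤ[X][X]) : dX (P + Q) = dX P + dX Q :=
  Polynomial.sum_add_index P Q _ (fun _ => by simp) fun _ a b => by simp

theorem theta_eval₂ {R : Type*} [CommRing R] (a b : LaurentSeries R) (Q : ℤ[X][X]) :
    theta R (Q.eval₂ (eval₂RingHom (Int.castRingHom _) a) b) =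
      (dX Q).eval₂ (eval₂RingHom (Int.castRingHom _) a) b * theta R a +
        Q.derivative.eval₂ (eval₂RingHom (Int.castRingHom _) a) b * theta R b := by
  have hq : ∀ q : ℤ[X], theta R (q.eval₂ (Int.castRingHom _) a) =
      q.derivative.eval₂ (Int.castRingHom _) a * theta R a := by
    intro q
    induction q using Polynomial.induction_on' with
    | add q r hq hr => simp only [eval₂_add, map_add, hq, hr, add_mul]
    | monomial i c =>
      rw [eval₂_monomial, derivative_monomial, eval₂_monomial,
        show (Int.castRingHom (LaurentSeries R)) c = HahnSeries.C (c : R) by simp,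
        theta_C_mul, theta_pow, map_mul, map_natCast,
        show (Int.castRingHom (LaurentSeries R)) c = HahnSeries.C (c : R) by simp]
      ring
  induction Q using Polynomial.induction_on' with
  | add P Q hP hQ => simp only [dX_add, eval₂_add, map_add, hP, hQ]; ring
  | monomial l c =>
    rw [dX_monomial, derivative_monomial, eval₂_monomial, eval₂_monomial, eval₂_monomial,
      theta_mul, theta_pow, coe_eval₂RingHom, hq, eval₂_mul, eval₂_natCast]
    ring

variable (K : Type*) [Field K] [CharZero K] (M p : ℕ) [NeZero M] [Fact p.Prime]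

/-- The weight zero substitute for `dj ^ 6 / Δ`. -/
def rPoly {A : Type*} [CommRing A] (x : A) : A := x ^ 4 * (x - 1728) ^ 3

/-- `∂Φ/∂X` or `∂Φ/∂Y` of Kronecker's equation at `(j, j(pτ))`. -/
abbrev evKQ (Q : ℤ[X][X]) : modularFunctionFieldFullC K (M * p) :=
  Q.eval₂ (eval₂RingHom (Int.castRingHom _) (inclP M p (jC K M))) (scaleP M p (jC K M))

/-- `Δ(τ)/Δ(pτ)` as an element of the function field. -/
def vElt : modularFunctionFieldFullC K (M * p) :=
  (p : modularFunctionFieldFullC K (M * p)) ^ 6 *
    (evKQ K M p (kQ p).derivative / evKQ K M p (dX (kQ p))) ^ 6 *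
    (rPoly (scaleP M p (jC K M)) / rPoly (inclP M p (jC K M)))

theorem theta_jqModC_ne_zero : theta K (jqModC K) ≠ 0 := by
  intro h
  have h1 := congrArg (fun s : LaurentSeries K => s.coeff (-1)) h
  simp [coeff_jqModC_neg_one] at h1

omit [CharZero K] in
theorem coe_jC_M : Subtype.val (inclP M p (jC K M)) = jqModC K := coe_inclP M p _

omit [CharZero K] [NeZero M] in
theorem coe_jpC : Subtype.val (scaleP M p (jC K M)) = qExpand K p (jqModC K) := coe_scaleP M p _

omit [CharZero K] in
theorem kQ_eval₂_eq_zero : evKQ K M p (kQ p) = 0 := by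
  apply (SubringClass.subtype (modularFunctionFieldFullC K (M * p))).injective
  have h := congrArg (coeffMap (Int.castRingHom K)) ((exists_kronecker p).choose_spec.2.2.1)
  rw [map_zero, Polynomial.hom_eval₂, coeffMap_jqNModC] at h
  rw [map_zero, Polynomial.hom_eval₂, ← h]
  show (kQ p).eval₂ _ (Subtype.val (scaleP M p (jC K M))) = _
  rw [coe_jpC]
  congr 1
  refine Polynomial.ringHom_ext (fun c => by simp) ?_
  simp [evq, coeffMap_jqModC, coe_jC_M]

theorem jqModC_sub_ne_zero (c : K) : jqModC K - HahnSeries.C c ≠ 0 := by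
  intro h
  have := congrArg (fun s : LaurentSeries K => s.coeff (-1)) h
  simp [coeff_jqModC_neg_one, HahnSeries.C_apply] at this

theorem rPoly_jqModC_ne_zero : rPoly (jqModC K) ≠ 0 := by
  refine mul_ne_zero (pow_ne_zero _ (jqModC_ne_zero_of_nontrivial K)) (pow_ne_zero _ ?_)
  have := jqModC_sub_ne_zero K 1728
  rwa [map_ofNat] at this

omit [CharZero K] in
/-- The differential relation of Kronecker's equation, on any images of `(j, j(pτ))`. -/
theorem relation_theta {Ω : Type*} [CommRing Ω]
    (f : modularFunctionFieldFullC K (M * p) →+* LaurentSeries Ω) :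
    f (evKQ K M p (dX (kQ p))) * theta Ω (f (inclP M p (jC K M))) +
      f (evKQ K M p (kQ p).derivative) * theta Ω (f (scaleP M p (jC K M))) = 0 := by
  have key : ∀ Q : ℤ[X][X], f (evKQ K M p Q) = Q.eval₂
      (eval₂RingHom (Int.castRingHom _) (f (inclP M p (jC K M)))) (f (scaleP M p (jC K M))) := by
    intro Q
    rw [evKQ, Polynomial.hom_eval₂]
    congr 1
    exact Polynomial.ringHom_ext (fun c => by simp) (by simp)
  rw [key, key, ← theta_eval₂, ← key, kQ_eval₂_eq_zero, map_zero, map_zero]

theorem theta_twist {R : Type*} [CommRing R] (c : Rˣ) (s : LaurentSeries R) :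
    theta R (twist c s) = twist c (theta R s) := by
  ext n
  rw [theta_coeff, twist_coeff, twist_coeff, theta_coeff]
  ring

theorem coeff_one_deltaR (R : Type*) [CommRing R] : (deltaR R).coeff 1 = 1 := by
  rw [deltaR, HahnSeries.coeff_single_mul, one_mul, sub_self]
  show (HahnSeries.ofPowerSeries ℤ R _).coeff ((0 : ℕ) : ℤ) = 1
  rw [HahnSeries.ofPowerSeries_apply_coeff, PowerSeries.coeff_map]
  simp [constantCoeff_dedekindEtaUnit]

theorem map_rPoly {A B : Type*} [CommRing A] [CommRing B] (f : A →+* B) (x : A) :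
    f (rPoly x) = rPoly (f x) := by
  simp only [rPoly, map_mul, map_pow, map_sub, map_ofNat]

theorem theta_twist_jq_pow_six {R : Type*} [CommRing R] (n : ℕ) [NeZero n] (c : Rˣ) :
    theta R (qExpand R n (twist c (jqModC R))) ^ 6 =
      (n : LaurentSeries R) ^ 6 * qExpand R n (twist c (deltaR R)) *
        rPoly (qExpand R n (twist c (jqModC R))) := by
  rw [theta_qExpand, theta_twist, mul_pow, map_natCast, ← map_pow, ← map_pow,
    theta_jqModC_pow_six, map_ofNat, ← map_rPoly, ← map_rPoly, rPoly]
  simp only [map_mul, map_pow, mul_assoc]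

theorem rPoly_j_ne_zero : rPoly (inclP M p (jC K M)) ≠ 0 := by
  intro h
  have h' := congrArg (SubringClass.subtype (modularFunctionFieldFullC K (M * p))) h
  rw [map_zero, map_rPoly] at h'
  exact rPoly_jqModC_ne_zero K ((congrArg rPoly (coe_jC_M K M p)).symm.trans h')

omit [NeZero M] in
theorem rPoly_jp_ne_zero : rPoly (scaleP M p (jC K M)) ≠ 0 := by
  intro h
  have h' := congrArg (SubringClass.subtype (modularFunctionFieldFullC K (M * p))) h
  rw [map_zero, map_rPoly] at h'
  refine rPoly_jqModC_ne_zero K (qExpand_injective p ?_)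
  rw [map_zero, map_rPoly, ← coe_jpC K M p]
  exact h'

variable (hpM : ¬ p ∣ M)

include hpM in
/-- The conjugates of `j(pτ)` are distinct. -/
theorem evKQ_deriv_ne_zero : evKQ K M p (kQ p).derivative ≠ 0 := by
  obtain ⟨η, σ, hη, hσ, hσn, hσs⟩ := exists_conjugates K M p hpM
  set φ := algebraMap K (AlgebraicClosure K)
  set g := scaleP M p (jC K M)
  have hn : σ none g = qExpand _ (M * p * p) (jqModC (AlgebraicClosure K)) := by
    rw [hσn, coe_jpC, coeffMap_qExpand, coeffMap_jqModC, qExpand_qExpand]
  have hb : ∀ b, σ (some b) g =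
      qExpand _ M (twist (η ^ (b : ℕ)) (jqModC (AlgebraicClosure K))) := fun b => by
    rw [hσs]
    exact congrArg (fun s => qExpand _ M (twist (η ^ (b : ℕ)) s)) (coeffMap_jqModC φ)
  have hlead : ∀ b : Fin p, (qExpand _ M (twist (η ^ (b : ℕ))
      (jqModC (AlgebraicClosure K)))).coeff ((M : ℤ) * (-1)) =
        (((η ^ (b : ℕ)) ^ (-1 : ℤ) : (AlgebraicClosure K)ˣ) : AlgebraicClosure K) := fun b => by
    rw [qExpand_coeff_mul, twist_coeff, coeff_jqModC_neg_one, mul_one]
  have hinj : Function.Injective fun o => σ o g := by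
    have hne : ∀ b : Fin p, σ (some b) g ≠ σ none g := by
      intro b h
      have h1 := congrArg (fun s : LaurentSeries (AlgebraicClosure K) =>
        s.coeff ((M : ℤ) * (-1))) h
      simp only [hn, hb, hlead] at h1
      rw [qExpand_coeff_of_not_dvd] at h1
      · exact Units.ne_zero _ h1
      · intro hd
        have h2 : M * p * p ∣ M := by
          rw [← Int.natCast_dvd_natCast]
          simpa using hd
        have h3 := Nat.le_of_dvd (NeZero.pos M) h2
        have h2p := (Fact.out : p.Prime).two_le
        have := NeZero.pos M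
        nlinarith [Nat.mul_le_mul_left M (Nat.mul_le_mul h2p h2p)]
    rintro (_ | b) (_ | b') h
    · rfl
    · exact absurd h.symm (hne b')
    · exact absurd h (hne b)
    · have h1 := congrArg (fun s : LaurentSeries (AlgebraicClosure K) =>
        s.coeff ((M : ℤ) * (-1))) h
      simp only [hb, hlead] at h1
      have h2 : η ^ (b : ℕ) = η ^ (b' : ℕ) := by
        rw [← inv_inj, ← zpow_neg_one, ← zpow_neg_one]
        exact Units.ext h1
      exact congrArg some (Fin.ext (hη.pow_inj b.2 b'.2 (by simpa using congrArg Units.val h2)))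
  obtain ⟨hkm, hkd, -, -⟩ := (exists_kronecker p).choose_spec
  obtain ⟨-, h⟩ := generator_of_conj.{_, _, _, 0} σ (((qExpand _ (M * p)).comp (coeffMap φ)).comp
      (SubringClass.subtype (modularFunctionFieldFullC K M))) hσ hinj (by simp)
  have h2 := (h ((kQ p).map (eval₂RingHom (Int.castRingHom _) (jC K M))) (hkm.map _)
    (by rw [kQ, hkm.natDegree_map]; exact hkd) ?_).1
  · rw [derivative_map, eval₂_map] at h2
    convert h2 using 2
    exact Polynomial.ringHom_ext (fun c => by simp) (by simp)
  · rw [eval₂_map]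
    refine Eq.trans ?_ (kQ_eval₂_eq_zero K M p)
    exact congrArg (fun f => (kQ p).eval₂ f g)
      (Polynomial.ringHom_ext (fun c => by simp) (by simp))

theorem natCast_laurent_ne_zero {R : Type*} [Field R] [CharZero R] {n : ℕ} (hn : n ≠ 0) :
    (n : LaurentSeries R) ≠ 0 := by
  rw [← map_natCast (HahnSeries.C : R →+* LaurentSeries R)]
  exact (_root_.map_ne_zero _).2 (Nat.cast_ne_zero.2 hn)

include hpM in
theorem evKQ_dX_ne_zero : evKQ K M p (dX (kQ p)) ≠ 0 := by
  intro h
  have h1 := relation_theta K M p (SubringClass.subtype (modularFunctionFieldFullC K (M * p)))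
  rw [h, map_zero, zero_mul, zero_add, mul_eq_zero] at h1
  rcases h1 with h1 | h1
  · exact evKQ_deriv_ne_zero K M p hpM ((map_eq_zero_iff _ Subtype.val_injective).1 h1)
  · change theta K (Subtype.val (scaleP M p (jC K M))) = 0 at h1
    rw [coe_jpC, theta_qExpand, map_natCast, mul_eq_zero] at h1
    rcases h1 with h1 | h1
    · exact natCast_laurent_ne_zero (Fact.out : p.Prime).ne_zero h1
    · exact theta_jqModC_ne_zero K ((map_eq_zero_iff _ (qExpand_injective p)).1 h1)

include hpM in
/-- The value of `Δ(τ)/Δ(pτ)` wherever `(j, j(pτ))` go to twisted expansions of `j`. -/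
theorem map_vElt {Ω : Type*} [Field Ω] [CharZero Ω]
    (f : modularFunctionFieldFullC K (M * p) →+* LaurentSeries Ω) (n m : ℕ) [NeZero n] [NeZero m]
    (c d : Ωˣ) (hj : f (inclP M p (jC K M)) = qExpand Ω n (twist c (jqModC Ω)))
    (hjp : f (scaleP M p (jC K M)) = qExpand Ω m (twist d (jqModC Ω))) :
    f (vElt K M p) = (p : LaurentSeries Ω) ^ 6 * (n : LaurentSeries Ω) ^ 6 /
      (m : LaurentSeries Ω) ^ 6 *
        (qExpand Ω n (twist c (deltaR Ω)) * qExpand Ω m (twist d (deltaInvR Ω))) := by
  have hX : f (evKQ K M p (dX (kQ p))) ≠ 0 :=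
    (_root_.map_ne_zero _).2 (evKQ_dX_ne_zero K M p hpM)
  have hr : rPoly (qExpand Ω n (twist c (jqModC Ω))) ≠ 0 := by
    rw [← hj, ← map_rPoly]
    exact (_root_.map_ne_zero _).2 (rPoly_j_ne_zero K M p)
  have hr' : rPoly (qExpand Ω m (twist d (jqModC Ω))) ≠ 0 := by
    rw [← hjp, ← map_rPoly]
    exact (_root_.map_ne_zero _).2 (rPoly_jp_ne_zero K M p)
  have hb : theta Ω (f (scaleP M p (jC K M))) ^ 6 ≠ 0 := by
    rw [hjp, theta_twist_jq_pow_six]
    refine mul_ne_zero (mul_ne_zero (pow_ne_zero _ (natCast_laurent_ne_zero (NeZero.ne m))) ?_) hr'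
    exact left_ne_zero_of_mul_eq_one (b := qExpand Ω m (twist d (deltaInvR Ω)))
      (by rw [← map_mul, ← map_mul, deltaR_mul_deltaInvR, map_one, map_one])
  have hθ : theta Ω (f (scaleP M p (jC K M))) ≠ 0 := fun h => hb (by rw [h, zero_pow (by norm_num)])
  have hdiv : f (evKQ K M p (kQ p).derivative) / f (evKQ K M p (dX (kQ p))) =
      -(theta Ω (f (inclP M p (jC K M))) / theta Ω (f (scaleP M p (jC K M)))) := by
    rw [← neg_div, div_eq_div_iff hX hθ]
    linear_combination relation_theta K M p f
  have hD : qExpand Ω m (twist d (deltaR Ω)) * qExpand Ω m (twist d (deltaInvR Ω)) = 1 := by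
    rw [← map_mul, ← map_mul, deltaR_mul_deltaInvR, map_one, map_one]
  rw [vElt, map_mul, map_mul, map_pow, map_pow, map_natCast, map_div₀, map_div₀, hdiv, map_rPoly,
    map_rPoly, Even.neg_pow (by decide), div_pow, hj, hjp, theta_twist_jq_pow_six,
    theta_twist_jq_pow_six]
  rw [hjp, theta_twist_jq_pow_six] at hb
  rw [eq_inv_of_mul_eq_one_right hD]
  field_simp

include hpM in
theorem coe_vElt : Subtype.val (vElt K M p) = vSer p K := by
  refine (map_vElt K M p hpM (SubringClass.subtype (modularFunctionFieldFullC K (M * p))) 1 p 1 1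
    ?_ ?_).trans ?_
  · rw [twist_one_apply, qExpand_one_apply]
    exact coe_jC_M K M p
  · rw [twist_one_apply]
    exact coe_jpC K M p
  · have := natCast_laurent_ne_zero (R := K) (Fact.out : p.Prime).ne_zero
    rw [twist_one_apply, twist_one_apply, qExpand_one_apply, vSer, Nat.cast_one, one_pow, mul_one,
      div_self (pow_ne_zero _ this), one_mul]

include hpM in
theorem coe_wAL_vElt : Subtype.val (wAL K M p hpM (vElt K M p)) =
    (p : LaurentSeries K) ^ 12 * (qExpand K p (deltaR K) * deltaInvR K) := by
  refine (map_vElt K M p hpM ((SubringClass.subtype (modularFunctionFieldFullC K (M * p))).comp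
    (wAL K M p hpM)) p 1 1 1 ?_ ?_).trans ?_
  · rw [RingHom.comp_apply, wAL_inclP, twist_one_apply]
    exact coe_jpC K M p
  · rw [RingHom.comp_apply, wAL_scaleP, twist_one_apply, qExpand_one_apply]
    exact coe_jC_M K M p
  · rw [twist_one_apply, twist_one_apply, qExpand_one_apply, Nat.cast_one, one_pow, div_one,
      ← pow_add]

/-- The modular equation of `Δ(τ)/Δ(pτ)`. -/
def vQ : ℤ[X][X] := (exists_vPoly p).choose

theorem vQ_monic : (vQ p).Monic := (exists_vPoly p).choose_spec.choose_spec.1

theorem vQ_natDegree : (vQ p).natDegree = p + 1 :=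
  (exists_vPoly p).choose_spec.choose_spec.2.1.trans (card_Cst_prime p)

include hpM in
theorem vQ_relation :
    ((vQ p).map (eval₂RingHom (Int.castRingHom _) (jC K M))).eval₂ (inclP M p)
      (vElt K M p) = 0 := by
  apply (SubringClass.subtype (modularFunctionFieldFullC K (M * p))).injective
  have h := congrArg (coeffMap (Int.castRingHom K))
    ((exists_vPoly p).choose_spec.choose_spec.2.2.1)
  rw [map_zero, Polynomial.hom_eval₂, coeffMap_vSer] at h
  rw [map_zero, Polynomial.eval₂_map, Polynomial.hom_eval₂, ← h]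
  show (vQ p).eval₂ _ (Subtype.val (vElt K M p)) = _
  rw [coe_vElt K M p hpM]
  refine congrArg (fun g => (vQ p).eval₂ g (vSer p K))
    (Polynomial.ringHom_ext (fun c => by simp) ?_)
  simp [evq, coeffMap_jqModC, coe_jC_M]

include hpM in
/-- `Δ(τ)/Δ(pτ)` has `p + 1` conjugates over level `M`. -/
theorem vElt_generator :
    Subfield.closure (Set.range (inclP (k := K) M p) ∪ {vElt K M p}) = ⊤ ∧
      ((vQ p).map (eval₂RingHom (Int.castRingHom (modularFunctionFieldFullC K M))
        (jC K M))).derivative.eval₂ (inclP M p) (vElt K M p) ≠ 0 ∧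
      ∀ {Ω : Type*} [Field Ω] (ι₀ : modularFunctionFieldFullC K M →+* Ω) (ρ : Ω),
        ((vQ p).map (eval₂RingHom (Int.castRingHom _) (jC K M))).eval₂ ι₀ ρ = 0 →
        ∃ f : modularFunctionFieldFullC K (M * p) →+* Ω,
          f.comp (inclP M p) = ι₀ ∧ f (vElt K M p) = ρ := by
  obtain ⟨η, σ, hη, hσ, hσn, hσs⟩ := exists_conjugates K M p hpM
  set φ := algebraMap K (AlgebraicClosure K)
  set Ω := AlgebraicClosure K
  have hn : σ none (vElt K M p) = qExpand Ω (M * p) (vSer p Ω) := by
    rw [hσn, coe_vElt K M p hpM, coeffMap_vSer]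
  have hb : ∀ b, σ (some b) (vElt K M p) = (p : LaurentSeries Ω) ^ 12 *
      (qExpand Ω (M * p) (deltaR Ω) * qExpand Ω M (twist (η ^ (b : ℕ)) (deltaInvR Ω))) := by
    intro b
    refine (map_vElt K M p hpM (σ (some b)) (M * p) M 1 (η ^ (b : ℕ)) ?_ ?_).trans ?_
    · rw [hσ, twist_one_apply]
      exact congrArg _ (coeffMap_jqModC φ)
    · rw [hσs]
      exact congrArg (fun s => qExpand Ω M (twist (η ^ (b : ℕ)) s)) (coeffMap_jqModC φ)
    · have := natCast_laurent_ne_zero (R := Ω) (NeZero.ne M)
      rw [twist_one_apply, Nat.cast_mul, mul_pow]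
      field_simp
      rfl
  have hD : ∀ c : Ωˣ, qExpand Ω M (twist c (deltaR Ω)) * qExpand Ω M (twist c (deltaInvR Ω)) = 1 :=
    fun c => by rw [← map_mul, ← map_mul, deltaR_mul_deltaInvR, map_one, map_one]
  have hp0 := natCast_laurent_ne_zero (R := Ω) (Fact.out : p.Prime).ne_zero
  have hDp : qExpand Ω (M * p) (deltaR Ω) ≠ 0 :=
    left_ne_zero_of_mul_eq_one (b := qExpand Ω (M * p) (deltaInvR Ω))
      (by rw [← map_mul, deltaR_mul_deltaInvR, map_one])
  have hinj : Function.Injective fun o => σ o (vElt K M p) := by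
    have hne : ∀ b : Fin p, σ (some b) (vElt K M p) ≠ σ none (vElt K M p) := by
      intro b h
      rw [hn, hb, vSer, map_mul, qExpand_qExpand] at h
      have h1 : (p : LaurentSeries Ω) ^ 12 * qExpand Ω M (twist (η ^ (b : ℕ)) (deltaInvR Ω)) *
          qExpand Ω (M * p * p) (deltaR Ω) = 1 := by
        refine mul_left_cancel₀ hDp ?_
        calc qExpand Ω (M * p) (deltaR Ω) * ((p : LaurentSeries Ω) ^ 12 *
              qExpand Ω M (twist (η ^ (b : ℕ)) (deltaInvR Ω)) * qExpand Ω (M * p * p) (deltaR Ω))
            = (p : LaurentSeries Ω) ^ 12 * (qExpand Ω (M * p) (deltaR Ω) *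
              qExpand Ω M (twist (η ^ (b : ℕ)) (deltaInvR Ω))) *
                qExpand Ω (M * p * p) (deltaR Ω) := by
              ring
          _ = _ := by
            rw [h, mul_assoc, ← map_mul, mul_comm (deltaInvR Ω), deltaR_mul_deltaInvR, map_one]
      have h2 : (p : LaurentSeries Ω) ^ 12 * qExpand Ω (M * p * p) (deltaR Ω) =
          qExpand Ω M (twist (η ^ (b : ℕ)) (deltaR Ω)) := by
        linear_combination qExpand Ω M (twist (η ^ (b : ℕ)) (deltaR Ω)) * h1 -
          (p : LaurentSeries Ω) ^ 12 * qExpand Ω (M * p * p) (deltaR Ω) * hD (η ^ (b : ℕ))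
      have h3 := congrArg (fun s : LaurentSeries Ω => s.coeff ((M : ℤ) * 1)) h2
      rw [show ((p : LaurentSeries Ω) ^ 12) = HahnSeries.C ((p : Ω) ^ 12) by
        rw [map_pow, map_natCast]] at h3
      simp only [qExpand_coeff_mul, twist_coeff, HahnSeries.C_apply,
        HahnSeries.coeff_single_zero_mul] at h3
      rw [qExpand_coeff_of_not_dvd, mul_zero, coeff_one_deltaR, mul_one] at h3
      · exact Units.ne_zero _ h3.symm
      · intro hd
        have h4 : M * p * p ∣ M := by
          rw [← Int.natCast_dvd_natCast]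
          simpa using hd
        have h5 := Nat.le_of_dvd (NeZero.pos M) h4
        have h2p := (Fact.out : p.Prime).two_le
        have := NeZero.pos M
        nlinarith [Nat.mul_le_mul_left M (Nat.mul_le_mul h2p h2p)]
    rintro (_ | b) (_ | b') h
    · rfl
    · exact absurd h.symm (hne b')
    · exact absurd h (hne b)
    · simp only [hb] at h
      have h' := mul_left_cancel₀ hDp (mul_left_cancel₀ (pow_ne_zero 12 hp0) h)
      have h1 : qExpand Ω M (twist (η ^ (b' : ℕ)) (deltaR Ω)) =
          qExpand Ω M (twist (η ^ (b : ℕ)) (deltaR Ω)) := by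
        linear_combination qExpand Ω M (twist (η ^ (b : ℕ)) (deltaR Ω)) *
            qExpand Ω M (twist (η ^ (b' : ℕ)) (deltaR Ω)) * h' -
          qExpand Ω M (twist (η ^ (b' : ℕ)) (deltaR Ω)) * hD (η ^ (b : ℕ)) +
          qExpand Ω M (twist (η ^ (b : ℕ)) (deltaR Ω)) * hD (η ^ (b' : ℕ))
      have h2 := congrArg (fun s : LaurentSeries Ω => s.coeff ((M : ℤ) * 1)) h1
      simp only [qExpand_coeff_mul, twist_coeff, coeff_one_deltaR] at h2
      simp only [mul_one, zpow_one] at h2
      exact congrArg some (Fin.ext (hη.pow_inj b.2 b'.2 (by simpa using h2.symm)))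
  obtain ⟨h1, h2⟩ := generator_of_conj σ (((qExpand _ (M * p)).comp (coeffMap φ)).comp
      (SubringClass.subtype (modularFunctionFieldFullC K M))) hσ hinj (by simp)
  obtain ⟨h3, h4⟩ := h2 _ ((vQ_monic p).map _)
    (by rw [(vQ_monic p).natDegree_map, vQ_natDegree]) (vQ_relation K M p hpM)
  exact ⟨h1, h3, h4⟩

/-- The reduction of `Δ(τ)/Δ(pτ)` is a polynomial in `j`. -/
theorem exists_vQ_reduction : ∃ H : (ZMod p)[X],
    vSer p (ZMod p) = evq (ZMod p) H ∧
    (vQ p).map (Polynomial.mapRingHom (Int.castRingHom (ZMod p))) = X ^ p * (X - C H) := by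
  obtain ⟨-, -, -, hH, hred⟩ := (exists_vPoly p).choose_spec.choose_spec
  have hc : Fintype.card (Cst p) - 1 = p := by rw [card_Cst_prime, Nat.add_sub_cancel]
  refine ⟨_, ?_, hred.trans (congrArg (fun n => X ^ n * (X - C _)) hc)⟩
  rw [hH, vSer, qExpand_eq_pow]
  have hp : p = p - 1 + 1 := by have := NeZero.pos p; omega
  rw [← congrArg (fun n => deltaInvR (ZMod p) ^ n) hp.symm, pow_succ', ← mul_assoc,
    deltaR_mul_deltaInvR, one_mul]

end VFun

end Fermat.Agent.LevelLowerP
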