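import Fermat.Agent.LevelLowerP.GeoDiscEmb
import Fermat.Agent.LevelLowerP.GeoGen
import Fermat.Agent.LevelLowerP.GeoBranch
import Mathlib.RingTheory.Henselian

/-!
# Ordinary points of the component at infinity
-/

set_option autoImplicit false

noncomputable section

namespace Fermat.Agent.LevelLowerP

open Polynomial ModularCurve Fermat.Agent.Igusa AlgebraicCurve Fermat.Agent.FF TrivSqZeroExt
open Fermat.Agent.Reduction Fermat.Agent.Reduction.Level
open scoped LaurentSeries PowerSeries

section Hasse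

variable (p : ℕ) [Fact p.Prime]

/-- The supersingular polynomial, as reduction of `Δ(τ)/Δ(pτ)`. -/
def vH : (ZMod p)[X] := (exists_vQ_reduction p).choose

theorem vSer_eq_vH : vSer p (ZMod p) = evq (ZMod p) (vH p) :=
  (exists_vQ_reduction p).choose_spec.1

theorem vQ_map :
    (vQ p).map (Polynomial.mapRingHom (Int.castRingHom (ZMod p))) = X ^ p * (X - C (vH p)) :=
  (exists_vQ_reduction p).choose_spec.2

theorem vH_ne_zero : vH p ≠ 0 := by
  intro h
  have h1 := vSer_eq_vH p
  rw [h, map_zero, vSer, mul_eq_zero] at h1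
  have hD := deltaR_mul_deltaInvR (ZMod p)
  rcases h1 with h1 | h1
  · rw [h1, zero_mul] at hD; exact zero_ne_one hD
  · rw [(map_eq_zero_iff _ (qExpand_injective p)).1 h1, mul_zero] at hD; exact zero_ne_one hD

/-- An integral lift of the supersingular polynomial. -/
def vHZ : ℤ[X] :=
  (Polynomial.map_surjective (Int.castRingHom (ZMod p)) (ZMod.ringHom_surjective _) (vH p)).choose

theorem vHZ_map : (vHZ p).map (Int.castRingHom (ZMod p)) = vH p :=
  (Polynomial.map_surjective (Int.castRingHom (ZMod p)) (ZMod.ringHom_surjective _)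
    (vH p)).choose_spec

theorem vQ_derivative_eval :
    ((vQ p).derivative.eval (vHZ p)).map (Int.castRingHom (ZMod p)) = vH p ^ p := by
  have h : ((vQ p).derivative.eval (vHZ p)).map (Int.castRingHom (ZMod p)) =
      ((vQ p).map (Polynomial.mapRingHom (Int.castRingHom (ZMod p)))).derivative.eval (vH p) := by
    rw [Polynomial.derivative_map, ← vHZ_map p, ← Polynomial.coe_mapRingHom]
    exact (Polynomial.eval_map_apply (mapRingHom (Int.castRingHom (ZMod p))) (vHZ p)).symm
  rw [h, vQ_map]
  simp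

theorem vQ_eval :
    ((vQ p).eval (vHZ p)).map (Int.castRingHom (ZMod p)) = 0 := by
  have h : ((vQ p).eval (vHZ p)).map (Int.castRingHom (ZMod p)) =
      ((vQ p).map (Polynomial.mapRingHom (Int.castRingHom (ZMod p)))).eval (vH p) := by
    rw [← vHZ_map p, ← Polynomial.coe_mapRingHom]
    exact (Polynomial.eval_map_apply (mapRingHom (Int.castRingHom (ZMod p))) (vHZ p)).symm
  rw [h, vQ_map]
  simp

variable (k : Type*) [Field k] [CharP k p] (M : ℕ) [NeZero M]

/-- The Hasse invariant on the reduced curve. -/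
def hasseK : modularFunctionFieldFullC k M := evC k M ((vH p).map (ZMod.castHom dvd_rfl k))

omit [NeZero M] in
theorem hasseK_ne_zero : hasseK p k M ≠ 0 :=
  (map_ne_zero_iff _ (evC_injective k M)).2
    ((Polynomial.map_ne_zero_iff (RingHom.injective _)).2 (vH_ne_zero p))

omit [NeZero M] in
theorem coe_hasseK : Subtype.val (hasseK p k M) = vSer p k := by
  rw [hasseK, coe_evC]
  refine Eq.trans ?_ (coeffMap_vSer p (ZMod.castHom dvd_rfl k))
  rw [vSer_eq_vH, coeffMap_evq]

omit [NeZero M] in
/-- Evaluation of integral polynomials at `j` sees only the reduction of the coefficients. -/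
theorem eval₂_int_eq_evC (a : ℤ[X]) :
    a.eval₂ (Int.castRingHom (modularFunctionFieldFullC k M)) (jC k M) =
      evC k M ((a.map (Int.castRingHom (ZMod p))).map (ZMod.castHom dvd_rfl k)) := by
  rw [evC, Polynomial.map_map, coe_eval₂RingHom, Polynomial.eval₂_map]
  congr 1
  exact RingHom.ext_int _ _

end Hasse

section Root

variable {p : ℕ} {R k : Type} [CommRing R] [IsDomain R] [IsDiscreteValuationRing R] [Field k]
  [CharP k p] [Fact p.Prime] [CharZero R] (S : Setup p R k) (M : ℕ) [NeZero M] (hpM : ¬ p ∣ M)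
  [IsAlgClosed k]

variable {O κ' : Type*} [CommRing O] [IsDomain O] [Field κ'] {B : Branch O κ'}
  {ι : modularFunctionFieldFullC (FractionRing R) (M * p) →+* FractionRing O}
  {e : modularFunctionFieldFullC k M →+* κ'}

omit [IsDiscreteValuationRing R] [CharP k p] [CharZero R] [IsAlgClosed k] in
/-- Integral polynomials in `j` along a compatible expansion. -/
theorem Compat.exists_int_j (h : Compat S M B (ι.comp (inclP M p)) e) (a : ℤ[X]) :
    ∃ x : B.intRing (FractionRing O),
      (x : FractionRing O) =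
        ι (inclP M p (a.eval₂ (Int.castRingHom _) (jC (FractionRing R) M))) ∧
      (B.intδ x).fst = e (a.eval₂ (Int.castRingHom _) (jC k M)) := by
  refine ⟨a.eval₂ (Int.castRingHom _) ⟨_, h.int_j⟩, ?_, ?_⟩
  · exact RingHom.congr_fun (Polynomial.ringHom_ext
      (f := (B.intRing (FractionRing O)).subtype.comp
        (eval₂RingHom (Int.castRingHom (B.intRing (FractionRing O))) ⟨_, h.int_j⟩))
      (g := (ι.comp (inclP M p)).comp
        (eval₂RingHom (Int.castRingHom _) (jC (FractionRing R) M)))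
      (fun c => by simp) (by simp)) a
  · exact RingHom.congr_fun (Polynomial.ringHom_ext
      (f := ((TrivSqZeroExt.fstHom κ' κ' κ').toRingHom.comp B.intδ).comp
        (eval₂RingHom (Int.castRingHom (B.intRing (FractionRing O))) ⟨_, h.int_j⟩))
      (g := e.comp (eval₂RingHom (Int.castRingHom _) (jC k M)))
      (fun c => by simp) (by simpa using congrArg TrivSqZeroExt.fst h.δ_j)) a

omit [CharZero R] in
/-- `Δ(τ)/Δ(pτ)` is residually the simple root `H(j)` of its equation. -/
theorem rootAt_vElt (h : Compat S M B (ι.comp (inclP M p)) e)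
    (hnear : B.BGe 1 (ι (vElt (FractionRing R) M p) -
      ι (inclP M p ((vHZ p).eval₂ (Int.castRingHom _) (jC (FractionRing R) M))))) :
    Expn.RootAt (h.expn hpM) (vElt (FractionRing R) M p)
      ((vQ p).map (eval₂RingHom (Int.castRingHom _) (jC (FractionRing R) M)))
      ((vHZ p).eval₂ (Int.castRingHom _) (jC (FractionRing R) M)) := by
  obtain ⟨d, hd, hd'⟩ := h.exists_int_j S M ((vQ p).derivative.eval (vHZ p))
  have hne : (B.intδ d).fst ≠ 0 := by
    rw [hd', eval₂_int_eq_evC p k M, vQ_derivative_eval, Polynomial.map_pow, map_pow, map_pow]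
    exact pow_ne_zero _ ((_root_.map_ne_zero e).2 (hasseK_ne_zero p k M))
  have hD : (((vQ p).map (eval₂RingHom (Int.castRingHom _) (jC (FractionRing R) M))).derivative.eval
      ((vHZ p).eval₂ (Int.castRingHom _) (jC (FractionRing R) M))) =
      ((vQ p).derivative.eval (vHZ p)).eval₂ (Int.castRingHom _) (jC (FractionRing R) M) := by
    rw [derivative_map, ← coe_eval₂RingHom, ← Polynomial.eval_map_apply]
  refine ⟨fun i => ?_, ?_, ?_, ?_, ?_⟩
  · show B.BGe 0 (ι (inclP M p _))
    rw [coeff_map, coe_eval₂RingHom]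
    obtain ⟨x, hx, -⟩ := h.exists_int_j S M ((vQ p).coeff i)
    exact hx ▸ Branch.mem_intRing_iff_bGe.1 x.2
  · show B.BGe 0 (ι (inclP M p _))
    obtain ⟨x, hx, -⟩ := h.exists_int_j S M (vHZ p)
    exact hx ▸ Branch.mem_intRing_iff_bGe.1 x.2
  · exact hnear
  · rw [hD]
    intro h0
    exact B.ne_zero_of_intδ hne (by rw [hd, h0]; simp)
  · show B.ord (ι (inclP M p _)) = 0
    rw [hD, ← hd]
    exact B.ord_eq_zero_of_intδ hne

omit [IsAlgClosed k] in
include hpM in
/-- On the component at infinity `Δ(τ)/Δ(pτ) ≡ H(j)`. -/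
theorem iInf_near_vElt : S.discBranch.BGe 1 (iInf (M * p) (vElt (FractionRing R) M p) -
    iInf (M * p) (inclP M p ((vHZ p).eval₂ (Int.castRingHom _) (jC (FractionRing R) M)))) := by
  obtain ⟨y, hy, hy'⟩ := (compat_iInf_inclP (R := R) (k := k) S M).exists_int_j S M (vHZ p)
  obtain ⟨x, hx, hx'⟩ := S.ofInt_spec (vSer p ℤ)
  have e1 : iInf (M * p) (vElt (FractionRing R) M p) = (x : FractionRing (PowerSeries R)) :=
    (Setup.toLS R).injective (by
      rw [toLS_iInf, hx, Setup.toLS_ofInt, coeffMap_vSer, coe_vElt _ M p hpM])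
  have hres : S.discBranch.intRes (x - y) = 0 := by
    rw [← S.discBranch.fst_intδ, map_sub, TrivSqZeroExt.fst_sub, hx', hy',
      eval₂_int_eq_evC p k M, vHZ_map, TrivSqZeroExt.fst_inl, sub_eq_zero, coeffMap_vSer]
    exact (coe_hasseK p k M).symm
  obtain ⟨z, hz⟩ := S.discBranch.intRes_eq_zero_iff.1 hres
  have hz' := congrArg Subtype.val hz
  push_cast at hz'
  rw [e1, show iInf (M * p) (inclP M p _) = ((y : S.discBranch.intRing _) :
    FractionRing (PowerSeries R)) from hy.symm, hz']
  exact ((Branch.bGe_ord _).mono (le_of_eq S.discBranch.ord_ϖ.symm)).mul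
    (Branch.mem_intRing_iff_bGe.1 z.2) |>.mono (by norm_num)

/-- Expansions compatible on level `M` with `Δ(τ)/Δ(pτ) ≡ H(j)` see the component at infinity. -/
theorem infGB_eq_of_vElt (h : Compat S M B (ι.comp (inclP M p)) e)
    (hnear : B.BGe 1 (ι (vElt (FractionRing R) M p) -
      ι (inclP M p ((vHZ p).eval₂ (Int.castRingHom _) (jC (FractionRing R) M)))))
    (x : modularFunctionFieldFullC (FractionRing R) (M * p)) (hx : x ≠ 0) :
    B.ord (ι x) = (infGB S M hpM).ord x ∧
      B.sp (ι x) = dualMap e ((infGB S M hpM).sp x) :=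
  infGB_eq_of_roots S M hpM h (vElt_generator.{0, 0} (FractionRing R) M p hpM).1
    (fun g hg => by
      obtain rfl := hg
      exact ⟨_, _, vQ_relation (FractionRing R) M p hpM,
        rootAt_vElt S M hpM (compat_iInf_inclP S M) (iInf_near_vElt S M hpM),
        rootAt_vElt S M hpM h hnear⟩) x hx

end Root

section Point

variable {p : ℕ} {R k : Type} [CommRing R] [IsDomain R] [IsDiscreteValuationRing R] [Field k]
  [CharP k p] [Fact p.Prime] [CharZero R] {S : Setup p R k} (U : Unram S) (M : ℕ) [NeZero M]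

omit [IsDomain R] [IsDiscreteValuationRing R] [CharZero R] [Fact (Nat.Prime p)] in
theorem mem_seriesIdeal_of_res₀ {f : U.R₀⟦X⟧}
    (hf : U.res₀ (PowerSeries.constantCoeff f) = 0) :
    f ∈ seriesIdeal ((p : ℕ) : U.R₀) := by
  obtain ⟨c, hc⟩ := U.res₀_eq_zero_iff.1 hf
  rw [seriesIdeal, Ideal.mem_span_pair]
  obtain ⟨g, hg⟩ : (PowerSeries.X : U.R₀⟦X⟧) ∣ f - PowerSeries.C (PowerSeries.constantCoeff f) :=
    PowerSeries.X_dvd_iff.2 (by simp)
  refine ⟨PowerSeries.C c, g, ?_⟩
  rw [← map_mul, mul_comm c, ← hc, mul_comm g, ← hg]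
  ring

variable [IsAlgClosed k] [Algebra (ZMod p) k] [Algebra.IsAlgebraic (ZMod p) k] (hpM : ¬ p ∣ M)
  (v : Place k (modularFunctionFieldFullC k M)) (hv : 0 ≤ v.ord (jC k M))

include hpM hv

theorem discR_chartJ :
    algebraMap (PowerSeries R) (FractionRing (PowerSeries R))
      (discR U M hpM v hv (chartOf U M (chartJ p M))) =
      ιPt U M hpM v hv (jC (FractionRing R) M) := by
  rw [← toF_chartJ U M, ιPt_toF]

/-- The point of the component at infinity over an ordinary point of the reduced curve. -/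
theorem exists_ordinary (hord : (ePt U M hpM v hv (hasseK p k M)).coeff 0 ≠ 0) :
    ∃ P : LocalPoint (infGB S M hpM),
      P.e = ePt U M hpM v hv ∧ P.ι.comp (inclP M p) = ιPt U M hpM v hv := by
  have := U.complete
  set ξ := discA U M hpM v hv (chartOf U M (chartJ p M)) with hξ
  let σ : ℤ[X] →+* U.R₀⟦X⟧ := eval₂RingHom (Int.castRingHom _) ξ
  have hjr : redA U M hpM (chartOf U M (chartJ p M)) = jC k M := Subtype.val_injective (by
    rw [coe_redA_chartOf, chartRed_chartJ]; rfl)
  have hσ : ∀ a : ℤ[X],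
      ((PowerSeries.map U.res₀ (σ a) : k⟦X⟧) : LaurentSeries k) =
        ePt U M hpM v hv (evC k M ((a.map (Int.castRingHom (ZMod p))).map
          (ZMod.castHom dvd_rfl k))) := by
    intro a
    rw [← eval₂_int_eq_evC p k M]
    exact RingHom.congr_fun (Polynomial.ringHom_ext
      (f := ((HahnSeries.ofPowerSeries ℤ k).comp (PowerSeries.map U.res₀)).comp σ)
      (g := (ePt U M hpM v hv).comp (eval₂RingHom (Int.castRingHom _) (jC k M)))
      (fun c => by simp) (by
        simp only [σ, RingHom.comp_apply, coe_eval₂RingHom, eval₂_X]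
        rw [← hjr, ePt_redA]
        rfl)) a
  have hcoeff : ∀ f : U.R₀⟦X⟧, U.res₀ (PowerSeries.constantCoeff f) =
      ((PowerSeries.map U.res₀ f : k⟦X⟧) : LaurentSeries k).coeff ((0 : ℕ) : ℤ) := fun f => by
    rw [HahnSeries.ofPowerSeries_apply_coeff, PowerSeries.coeff_map,
      PowerSeries.coeff_zero_eq_constantCoeff_apply]
  have : IsAdicComplete (seriesIdeal ((p : ℕ) : U.R₀)) U.R₀⟦X⟧ := isAdicComplete_series _
  set G := (vQ p).map σ
  have hG : ∀ a : ℤ[X], G.eval (σ a) = σ ((vQ p).eval a) := fun a =>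
    Polynomial.eval_map_apply σ a
  have h0 : G.eval (σ (vHZ p)) ∈ seriesIdeal ((p : ℕ) : U.R₀) := by
    refine mem_seriesIdeal_of_res₀ U ?_
    rw [hG, hcoeff, hσ, vQ_eval, Polynomial.map_zero, map_zero, map_zero]
    rfl
  have hH0 : U.res₀ (PowerSeries.constantCoeff (σ (vHZ p))) ≠ 0 := by
    rw [hcoeff, hσ, vHZ_map]
    exact hord
  have h1 : IsUnit (G.derivative.eval (σ (vHZ p))) := by
    rw [PowerSeries.isUnit_iff_constantCoeff]
    refine U.isUnit_of_res₀ ?_
    rw [derivative_map, show ((vQ p).derivative.map σ).eval (σ (vHZ p)) =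
        σ ((vQ p).derivative.eval (vHZ p)) from Polynomial.eval_map_apply σ _,
      show U.res₀ (PowerSeries.constantCoeff (σ ((vQ p).derivative.eval (vHZ p)))) =
        U.res₀ (PowerSeries.constantCoeff (σ (vHZ p))) ^ p from ?_]
    · exact pow_ne_zero _ hH0
    · have h : PowerSeries.map U.res₀ (σ ((vQ p).derivative.eval (vHZ p))) =
          PowerSeries.map U.res₀ (σ (vHZ p)) ^ p := HahnSeries.ofPowerSeries_injective (Γ := ℤ) (by
        rw [map_pow, hσ, hσ, vQ_derivative_eval, vHZ_map, Polynomial.map_pow, map_pow, map_pow])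
      have h' := congrArg PowerSeries.constantCoeff h
      rw [map_pow, ← PowerSeries.coeff_zero_eq_constantCoeff_apply, PowerSeries.coeff_map,
        ← PowerSeries.coeff_zero_eq_constantCoeff_apply, PowerSeries.coeff_map] at h'
      simpa [PowerSeries.coeff_zero_eq_constantCoeff_apply] using h'
  obtain ⟨ρ, hρ, hρ'⟩ := HenselianRing.is_henselian (R := U.R₀⟦X⟧)
    (I := seriesIdeal ((p : ℕ) : U.R₀)) G ((vQ_monic p).map _) (σ (vHZ p)) h0
    (h1.map (Ideal.Quotient.mk _))
  have hρH : PowerSeries.map U.res₀ ρ = PowerSeries.map U.res₀ (σ (vHZ p)) := by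
    have hz := congrArg (PowerSeries.map U.res₀) hρ.eq_zero
    rw [map_zero, eval_map, Polynomial.hom_eval₂] at hz
    have : CharP k⟦X⟧ p := charP_of_injective_ringHom PowerSeries.C_injective p
    let τ : (ZMod p)[X] →+* k⟦X⟧ := eval₂RingHom (ZMod.castHom (dvd_refl p) k⟦X⟧)
      (PowerSeries.map U.res₀ ξ)
    have hτ : (PowerSeries.map U.res₀).comp σ =
        τ.comp (mapRingHom (Int.castRingHom (ZMod p))) :=
      Polynomial.ringHom_ext (fun c => by simp [σ, τ]) (by simp [σ, τ])
    rw [hτ, ← Polynomial.eval₂_map, vQ_map, eval₂_mul, eval₂_X_pow, eval₂_sub, eval₂_X, eval₂_C,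
      mul_eq_zero] at hz
    rcases hz with hz | hz
    · exfalso
      apply hH0
      have h2 : U.res₀ (PowerSeries.constantCoeff ρ) = 0 := by
        have := congrArg PowerSeries.constantCoeff (pow_eq_zero_iff (NeZero.ne p) |>.1 hz)
        rwa [map_zero, ← PowerSeries.coeff_zero_eq_constantCoeff_apply, PowerSeries.coeff_map,
          PowerSeries.coeff_zero_eq_constantCoeff_apply] at this
      have h3 : U.res₀ (PowerSeries.constantCoeff (ρ - σ (vHZ p))) = 0 := by
        rw [seriesIdeal, Ideal.mem_span_pair] at hρ'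
        obtain ⟨a, b, hab⟩ := hρ'
        rw [← hab]
        simp [CharP.cast_eq_zero]
      rwa [map_sub, map_sub, h2, zero_sub, neg_eq_zero] at h3
    · rw [sub_eq_zero.1 hz]
      exact (congrArg τ (vHZ_map p)).symm.trans (RingHom.congr_fun hτ (vHZ p)).symm
  have hsub : ((vQ p).map (eval₂RingHom (Int.castRingHom _) (jC (FractionRing R) M))).eval₂
      (ιPt U M hpM v hv)
      (algebraMap (PowerSeries R) _ (PowerSeries.map U.R₀.subtype ρ)) = 0 := by
    have hz := congrArg ((algebraMap (PowerSeries R) (FractionRing (PowerSeries R))).comp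
      (PowerSeries.map U.R₀.subtype)) hρ.eq_zero
    rw [map_zero, eval_map, Polynomial.hom_eval₂, RingHom.comp_apply] at hz
    rw [eval₂_map, ← hz]
    congr 1
    refine Polynomial.ringHom_ext (fun c => by simp [σ]) ?_
    simp only [σ, RingHom.comp_apply, coe_eval₂RingHom, eval₂_X]
    exact (discR_chartJ U M hpM v hv).symm
  obtain ⟨f, hf, hfv⟩ := (vElt_generator (FractionRing R) M p hpM).2.2 (ιPt U M hpM v hv)
    (algebraMap (PowerSeries R) _ (PowerSeries.map U.R₀.subtype ρ)) hsub
  have hC : Compat S M S.discBranch (f.comp (inclP M p)) (ePt U M hpM v hv) :=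
    hf.symm ▸ compat_ιPt U M hpM v hv
  have hnear : S.discBranch.BGe 1 (f (vElt (FractionRing R) M p) -
      f (inclP M p ((vHZ p).eval₂ (Int.castRingHom _) (jC (FractionRing R) M)))) := by
    obtain ⟨y, hy, hy'⟩ := hC.exists_int_j S M (vHZ p)
    rw [show f (inclP M p _) = ((y : S.discBranch.intRing _) :
      FractionRing (PowerSeries R)) from hy.symm, hfv]
    let x : S.discBranch.intRing (FractionRing (PowerSeries R)) :=
      ⟨_, S.discBranch.isInt_algebraMap (PowerSeries.map U.R₀.subtype ρ)⟩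
    have hx : S.discBranch.intδ x = S.δS (PowerSeries.map U.R₀.subtype ρ) := by
      rw [S.discBranch.intδ_eq (s := PowerSeries.map U.R₀.subtype ρ) (t := 1)
        (by rw [map_one]; exact one_ne_zero) (by rw [map_one, mul_one]), map_one,
        TrivSqZeroExt.inv_one, mul_one]
      rfl
    have hres : S.discBranch.intRes (x - y) = 0 := by
      rw [← S.discBranch.fst_intδ, map_sub, TrivSqZeroExt.fst_sub, hx, hy', δS_map_subtype,
        TrivSqZeroExt.fst_inl, hρH, hσ, eval₂_int_eq_evC p k M, sub_self]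
    obtain ⟨z, hz⟩ := S.discBranch.intRes_eq_zero_iff.1 hres
    have hz' := congrArg Subtype.val hz
    push_cast at hz'
    show S.discBranch.BGe 1
      ((x : FractionRing (PowerSeries R)) - (y : FractionRing (PowerSeries R)))
    rw [hz']
    exact ((Branch.bGe_ord _).mono (le_of_eq S.discBranch.ord_ϖ.symm)).mul
      (Branch.mem_intRing_iff_bGe.1 z.2) |>.mono (by norm_num)
  exact ⟨{
      ι := f
      e := ePt U M hpM v hv
      ι_algebraMap := fun r => by
        rw [algebraMap_eq_cF, ← cF_inclP, ← RingHom.comp_apply f, hf, ιPt_cF]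
      e_algebraMap := ePt_algebraMap U M hpM v hv
      ord_eq := fun x hx => (infGB_eq_of_vElt S M hpM hC hnear x hx).1
      sp_eq := fun x hx => (infGB_eq_of_vElt S M hpM hC hnear x hx).2 }, rfl, hf⟩

end Point

end Fermat.Agent.LevelLowerP
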