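import Fermat.Agent.LevelLowerP.GeoLiftDef
import Fermat.Agent.LevelLowerP.GeoOrdinary
import Fermat.Agent.LevelLowerP.GeoBdd
import Fermat.Agent.FF.Genus

/-!
# Compatible pairs of functions on the two components

Every pair of bounded functions agreeing through Frobenius at the supersingular points is a
combination of the pairs `(x, Φ x)`, `(Φ x, x)`, `(H ^ s x, 0)`, `(0, H ^ s x)`.
-/

set_option autoImplicit false

noncomputable section

namespace Fermat.Agent.LevelLowerP

open Polynomial ModularCurve Fermat.Agent.Igusa AlgebraicCurve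
open Fermat.Agent.Reduction Fermat.Agent.Reduction.Level
open scoped LaurentSeries

variable {p : ℕ} [Fact p.Prime] {k : Type*} [Field k] [CharP k p] [IsAlgClosed k] {M : ℕ}
  [NeZero M]

omit [IsAlgClosed k] [NeZero M] in
theorem phiK_jC : phiK p k M (jC k M) = jC k M ^ p := by
  refine Subtype.ext ?_
  rw [coe_phiK, SubmonoidClass.coe_pow]
  show qExpand k p (jqModC k) = jqModC k ^ p
  have h := qExpand_jq_eq_pow p (k := k) 1
  rwa [qExpand_one_apply] at h

omit [IsAlgClosed k] [NeZero M] in
theorem phiK_algebraMap (c : k) :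
    phiK p k M (algebraMap k ↥(modularFunctionFieldFullC k M) c) =
      algebraMap k ↥(modularFunctionFieldFullC k M) c := by
  refine Subtype.ext ?_
  rw [coe_phiK]
  show qExpand k p (algebraMap k (LaurentSeries k) c) = algebraMap k (LaurentSeries k) c
  rw [algebraMap_laurentSeries_eq_single, ← HahnSeries.C_apply, qExpand_C]

variable (p k M) in
/-- The Frobenius relative to the constants, as a linear map. -/
def phiLin : ↥(modularFunctionFieldFullC k M) →ₗ[k] ↥(modularFunctionFieldFullC k M) where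
  toFun := phiK p k M
  map_add' := map_add _
  map_smul' c x := by
    rw [RingHom.id_apply, Algebra.smul_def, Algebra.smul_def, map_mul, phiK_algebraMap]

omit [IsAlgClosed k] [NeZero M] in
theorem hasseK_pow_eq : phiK p k M (hasseK p k M) = hasseK p k M ^ p := by
  refine Subtype.ext ?_
  rw [coe_phiK, SubmonoidClass.coe_pow, coe_hasseK,
    ← coeffMap_vSer p (ZMod.castHom dvd_rfl k), ← coeffMap_qExpand, qExpand_eq_pow, map_pow]

omit [NeZero M] in
/-- Values of the Frobenius are `p`th powers. -/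
theorem exists_phiK_eq_pow (x : ↥(modularFunctionFieldFullC k M)) :
    ∃ u : ↥(modularFunctionFieldFullC k M), phiK p k M x = u ^ p := by
  have : CharP ↥(modularFunctionFieldFullC k M) p :=
    charP_of_injective_algebraMap (algebraMap k ↥(modularFunctionFieldFullC k M)).injective p
  have h : (⊤ : Subfield ↥(modularFunctionFieldFullC k M)) ≤
      (frobenius ↥(modularFunctionFieldFullC k M) p).fieldRange.comap (phiK p k M) := by
    intro z _
    obtain ⟨z, hz⟩ := z
    let T : Subfield (LaurentSeries k) :=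
      ((frobenius ↥(modularFunctionFieldFullC k M) p).fieldRange.comap (phiK p k M)).map
        (SubringClass.subtype (modularFunctionFieldFullC k M))
    have hT : (modularFunctionFieldFullC k M).toSubfield ≤ T := by
      rw [modularFunctionFieldFullC, IntermediateField.adjoin_toSubfield, Subfield.closure_le]
      rintro y (⟨c, rfl⟩ | ⟨d, hd0, hd, rfl⟩)
      · obtain ⟨e, he⟩ := IsAlgClosed.exists_pow_nat_eq c (Fact.out : p.Prime).pos
        refine ⟨algebraMap k ↥(modularFunctionFieldFullC k M) c,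
          ⟨algebraMap k ↥(modularFunctionFieldFullC k M) e, ?_⟩, rfl⟩
        rw [frobenius_def, ← map_pow, he, phiK_algebraMap]
      · have := hd0
        refine ⟨jGen k M d hd, ⟨jGen k M d hd, Subtype.ext ?_⟩, rfl⟩
        rw [frobenius_def, SubmonoidClass.coe_pow, coe_phiK]
        exact (qExpand_jq_eq_pow p d).symm
    obtain ⟨y, hy, hyz⟩ := hT hz
    rwa [show (⟨z, hz⟩ : ↥(modularFunctionFieldFullC k M)) = y from Subtype.ext hyz.symm]
  obtain ⟨u, hu⟩ := h (Subfield.mem_top x)
  exact ⟨u, by rw [← hu, frobenius_def]⟩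

omit [NeZero M] in
theorem exists_iterate_eq_pow (i : ℕ) (x : ↥(modularFunctionFieldFullC k M)) :
    ∃ u : ↥(modularFunctionFieldFullC k M), (phiK p k M)^[i] x = u ^ p ^ i := by
  induction i generalizing x with
  | zero => exact ⟨x, by rw [pow_zero, pow_one]; rfl⟩
  | succ i ih =>
    obtain ⟨u, hu⟩ := exists_phiK_eq_pow (p := p) x
    obtain ⟨w, hw⟩ := ih u
    exact ⟨w, by
      rw [Function.iterate_succ_apply, hu, iterate_map_pow, hw, ← pow_mul, ← pow_succ]⟩

variable (p) in
theorem natDegree_vH : (vH p).natDegree = p - 1 := by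
  have hD : deltaR (ZMod p) ≠ 0 := left_ne_zero_of_mul_eq_one (deltaR_mul_deltaInvR _)
  have hE : qExpand (ZMod p) p (deltaInvR (ZMod p)) ≠ 0 :=
    (map_ne_zero_iff _ (qExpand_injective p)).2
      (right_ne_zero_of_mul_eq_one (deltaR_mul_deltaInvR _))
  have h := order_evq (vH_ne_zero p)
  rw [← vSer_eq_vH, vSer, HahnSeries.order_mul hD hE, order_deltaR, order_qExpand,
    order_deltaInvR] at h
  have := (Fact.out : p.Prime).pos
  omega

omit [IsAlgClosed k] [NeZero M] in
theorem hasseK_eq_evC : hasseK p k M =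
    Reduction.Level.evC k M ((vH p).map (ZMod.castHom dvd_rfl k)) := by
  refine Subtype.ext ?_
  rw [hasseK, LevelLowerP.coe_evC, Reduction.Level.coe_evC]

omit [IsAlgClosed k] [NeZero M] in
/-- The pole of the Hasse invariant. -/
theorem ord_hasseK_of_neg {v : Place k ↥(modularFunctionFieldFullC k M)} (hv : v.ord (jC k M) < 0) :
    v.ord (hasseK p k M) = ((p - 1 : ℕ) : ℤ) * v.ord (jC k M) := by
  rw [hasseK_eq_evC, ord_evC v hv ((Polynomial.map_ne_zero_iff (RingHom.injective _)).2
    (vH_ne_zero p)), Polynomial.natDegree_map, natDegree_vH]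

omit [IsAlgClosed k] [NeZero M] in
theorem ord_hasseK_nonneg {v : Place k ↥(modularFunctionFieldFullC k M)} (hv : 0 ≤ v.ord (jC k M)) :
    0 ≤ v.ord (hasseK p k M) := by
  refine FF.ord_nonneg_of_mem v ?_
  rw [hasseK_eq_evC, Reduction.Level.evC_apply]
  exact FF.aeval_mem_of_mem v.algebraMap_mem'
    ((FF.mem_toValuationSubring_iff v).mpr (FF.mem_ordGE_of_le_ord v hv)) _

variable (p k M) in
/-- Functions vanishing at the supersingular points. -/
def vanishSS : Submodule k ↥(modularFunctionFieldFullC k M) :=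
  ⨅ v ∈ {v : Place k ↥(modularFunctionFieldFullC k M) |
      0 ≤ v.ord (jC k M) ∧ 0 < v.ord (hasseK p k M)}, FF.ordGE v 1

omit [IsAlgClosed k] [NeZero M] in
theorem mem_vanishSS {z : ↥(modularFunctionFieldFullC k M)} : z ∈ vanishSS p k M ↔
    ∀ v : Place k ↥(modularFunctionFieldFullC k M), 0 ≤ v.ord (jC k M) →
    0 < v.ord (hasseK p k M) → z ∈ FF.ordGE v 1 := by
  simp [vanishSS, Submodule.mem_iInf]

variable [FF.IsFunctionField k ↥(modularFunctionFieldFullC k M)]

omit [IsAlgClosed k] [NeZero M] in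
/-- Membership in `L(n·(j)_∞)`. -/
theorem mem_jPoles_iff_ord {n : ℕ} {x : ↥(modularFunctionFieldFullC k M)} (hx : x ≠ 0) :
    x ∈ riemannRochSpace (jPoles k M n) ↔ ∀ v : Place k ↥(modularFunctionFieldFullC k M),
      (0 ≤ v.ord (jC k M) → 0 ≤ v.ord x) ∧
      (v.ord (jC k M) < 0 → (n : ℤ) * v.ord (jC k M) ≤ v.ord x) := by
  rw [mem_riemannRochSpace_iff]
  refine forall_congr' fun v => ?_
  rw [or_iff_right hx, jPoles, Finsupp.smul_apply, FF.poleDiv_apply, smul_eq_mul]
  rcases lt_or_ge (v.ord (jC k M)) 0 with hj | hj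
  · rw [max_eq_left (by omega), mul_neg, neg_neg]
    exact ⟨fun h => ⟨fun h' => absurd h' (not_le.mpr hj), fun _ => h⟩, fun h => h.2 hj⟩
  · rw [max_eq_right (by omega), mul_zero, neg_zero]
    exact ⟨fun h => ⟨fun _ => h, fun h' => absurd h' (not_lt.mpr hj)⟩, fun h => h.1 hj⟩

omit [IsAlgClosed k] [NeZero M] in
theorem jPoles_mono {m n : ℕ} (h : m ≤ n) :
    riemannRochSpace (jPoles k M m) ≤ riemannRochSpace (jPoles k M n) := by
  refine FF.riemannRochSpace_mono fun v => ?_
  simp only [jPoles, Finsupp.smul_apply, smul_eq_mul]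
  exact mul_le_mul_of_nonneg_right (by omega) (FF.poleDiv_nonneg (K := k) (jC k M) v)

omit [IsAlgClosed k] [NeZero M] in
theorem hasseK_mul_mem {n : ℕ} {x : ↥(modularFunctionFieldFullC k M)}
    (hx : x ∈ riemannRochSpace (jPoles k M n)) :
    hasseK p k M * x ∈ riemannRochSpace (jPoles k M (n + (p - 1))) := by
  rcases eq_or_ne x 0 with rfl | hx0
  · rw [mul_zero]; exact zero_mem _
  have hH := hasseK_ne_zero p k M
  rw [mem_jPoles_iff_ord hx0] at hx
  rw [mem_jPoles_iff_ord (mul_ne_zero hH hx0)]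
  intro v
  rw [v.ord_mul hH hx0]
  refine ⟨fun hj => add_nonneg (ord_hasseK_nonneg hj) ((hx v).1 hj), fun hj => ?_⟩
  have := (hx v).2 hj
  rw [ord_hasseK_of_neg hj]
  push_cast
  linarith

omit [IsAlgClosed k] [NeZero M] in
theorem of_hasseK_mul_mem {n m : ℕ} {x : ↥(modularFunctionFieldFullC k M)} (hm : p - 1 ≤ m)
    (hx : x ∈ riemannRochSpace (jPoles k M n))
    (hHx : hasseK p k M * x ∈ riemannRochSpace (jPoles k M m)) :
    x ∈ riemannRochSpace (jPoles k M (m - (p - 1))) := by
  rcases eq_or_ne x 0 with rfl | hx0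
  · exact zero_mem _
  have hH := hasseK_ne_zero p k M
  rw [mem_jPoles_iff_ord hx0] at hx
  rw [mem_jPoles_iff_ord (mul_ne_zero hH hx0)] at hHx
  rw [mem_jPoles_iff_ord hx0]
  refine fun v => ⟨(hx v).1, fun hj => ?_⟩
  have h := (hHx v).2 hj
  rw [v.ord_mul hH hx0, ord_hasseK_of_neg hj] at h
  rw [Nat.cast_sub hm]
  linarith

omit [IsAlgClosed k] in
theorem phiK_mem {n : ℕ} {x : ↥(modularFunctionFieldFullC k M)}
    (hx : x ∈ riemannRochSpace (jPoles k M n)) :
    phiK p k M x ∈ riemannRochSpace (jPoles k M (p * n)) := by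
  rw [← bdd_iff_mem_jPoles] at hx ⊢
  intro v hv
  have h := hx (v.comap (phiK p k M)) fun c => by
    rw [Valuation.comap_apply, phiK_algebraMap]
    exact hv c
  rw [Valuation.comap_apply, Valuation.comap_apply, phiK_jC, map_pow] at h
  refine h.trans (le_of_eq ?_)
  rw [pow_mul]
  congr 1
  rcases le_total 1 (v (jC k M)) with h1 | h1
  · rw [max_eq_right h1, max_eq_right (one_le_pow₀ h1)]
  · rw [max_eq_left h1, max_eq_left (pow_le_one₀ zero_le h1), one_pow]

omit [IsAlgClosed k] [NeZero M] in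
theorem phiK_vanishSS {z : ↥(modularFunctionFieldFullC k M)} (hz : z ∈ vanishSS p k M) :
    phiK p k M z ∈ vanishSS p k M := by
  rw [mem_vanishSS] at hz ⊢
  intro v hj hH
  rcases eq_or_ne z 0 with rfl | hz0
  · rw [map_zero]; exact zero_mem _
  set B := v.toValuationSubring.comap (phiK p k M) with hBdef
  have hmem : ∀ y : ↥(modularFunctionFieldFullC k M), y ∈ B ↔ phiK p k M y ∈ v.toValuationSubring :=
    fun y => Iff.rfl
  have hneg : ∀ y : ↥(modularFunctionFieldFullC k M), y ≠ 0 →
      (0 < v.ord (phiK p k M y) ↔ y⁻¹ ∉ B) := fun y hy => by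
    rw [hmem, map_inv₀, FF.mem_toValuationSubring_iff_ord v
      (inv_ne_zero ((_root_.map_ne_zero _).2 hy)), v.ord_inv]
    omega
  have hHB : (hasseK p k M)⁻¹ ∉ B := by
    rw [← hneg _ (hasseK_ne_zero p k M), hasseK_pow_eq, FF.ord_pow]
    exact mul_pos (by exact_mod_cast (Fact.out : p.Prime).pos) hH
  let w : Place k ↥(modularFunctionFieldFullC k M) :=
    ⟨B, fun c => by rw [hmem, phiK_algebraMap]; exact v.algebraMap_mem' c,
    fun h => hHB (h ▸ ValuationSubring.mem_top _),
    FF.isPrincipalIdealRing_valuationSubring_of_ne_top B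
      fun c => by rw [hmem, phiK_algebraMap]; exact v.algebraMap_mem' c⟩
  have hwpos : ∀ y : ↥(modularFunctionFieldFullC k M), y ≠ 0 → (0 < w.ord y ↔ y⁻¹ ∉ B) :=
    fun y hy => by
    show _ ↔ y⁻¹ ∉ w.toValuationSubring
    rw [FF.mem_toValuationSubring_iff_ord w (inv_ne_zero hy), w.ord_inv]
    omega
  have hwj : 0 ≤ w.ord (jC k M) := by
    refine FF.ord_nonneg_of_mem w ((hmem _).2 ?_)
    rw [phiK_jC]
    exact pow_mem ((FF.mem_toValuationSubring_iff v).mpr (FF.mem_ordGE_of_le_ord v hj)) p
  have h1 := (FF.mem_ordGE_of_ne_zero w hz0).1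
    (hz w hwj ((hwpos _ (hasseK_ne_zero p k M)).2 hHB))
  have h2 := (hneg z hz0).2 ((hwpos z hz0).1 (by omega))
  exact FF.mem_ordGE_of_le_ord v (by omega)

omit [IsAlgClosed k] in
theorem iterate_mem {n : ℕ} {x : ↥(modularFunctionFieldFullC k M)}
    (hx : x ∈ riemannRochSpace (jPoles k M n)) (i : ℕ) :
    (phiK p k M)^[i] x ∈ riemannRochSpace (jPoles k M (p ^ i * n)) := by
  induction i with
  | zero => simpa using hx
  | succ i ih =>
    rw [Function.iterate_succ_apply', pow_succ, mul_comm (p ^ i), mul_assoc]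
    exact phiK_mem ih

omit [IsAlgClosed k] [NeZero M] in
theorem iterate_vanishSS {z : ↥(modularFunctionFieldFullC k M)} (hz : z ∈ vanishSS p k M) (i : ℕ) :
    (phiK p k M)^[i] z ∈ vanishSS p k M := by
  induction i with
  | zero => exact hz
  | succ i ih => rw [Function.iterate_succ_apply']; exact phiK_vanishSS ih

/-- High Frobenius iterates of functions vanishing at the supersingular points are divisible by
the Hasse invariant. -/
theorem exists_iterate_eq_hasseK_mul {m : ℕ} {z : ↥(modularFunctionFieldFullC k M)}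
    (hz : z ∈ riemannRochSpace (jPoles k M m)) (hss : z ∈ vanishSS p k M) :
    ∃ i N : ℕ, ∃ a ∈ riemannRochSpace (jPoles k M N),
      (phiK p k M)^[2 * i] z = hasseK p k M * a := by
  classical
  have hH := hasseK_ne_zero p k M
  set Z := (FF.finite_setOf_ord_pos (K := k) (hasseK p k M)).toFinset
  obtain ⟨i, hi⟩ : ∃ i : ℕ, ∀ v ∈ Z, v.ord (hasseK p k M) ≤ ((p ^ (2 * i) : ℕ) : ℤ) := by
    refine ⟨Z.sup fun v => (v.ord (hasseK p k M)).toNat, fun v hv => ?_⟩
    have h1 := Finset.le_sup (f := fun v : Place k ↥(modularFunctionFieldFullC k M) =>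
      (v.ord (hasseK p k M)).toNat) hv
    have h2 := Nat.lt_pow_self (n := 2 * Z.sup fun v => (v.ord (hasseK p k M)).toNat)
      (Fact.out : p.Prime).one_lt
    omega
  set y := (phiK p k M)^[2 * i] z with hy
  set N := max (p ^ (2 * i) * m) (p - 1)
  refine ⟨i, N, y / hasseK p k M, ?_, by rw [← hy, mul_div_cancel₀ _ hH]⟩
  rcases eq_or_ne y 0 with h0 | h0
  · rw [h0, zero_div]; exact zero_mem _
  have hyN : y ∈ riemannRochSpace (jPoles k M N) :=
    jPoles_mono (le_max_left _ _) (iterate_mem hz _)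
  have hyV := iterate_vanishSS (p := p) hss (2 * i)
  rw [← hy] at hyV
  obtain ⟨u, hu⟩ := exists_iterate_eq_pow (p := p) (2 * i) z
  rw [← hy] at hu
  rw [mem_jPoles_iff_ord h0] at hyN
  rw [mem_jPoles_iff_ord (div_ne_zero h0 hH)]
  intro v
  rw [div_eq_mul_inv, v.ord_mul h0 (inv_ne_zero hH), v.ord_inv]
  refine ⟨fun hj => ?_, fun hj => ?_⟩
  · rcases (ord_hasseK_nonneg (p := p) hj).lt_or_eq with hpos | hzero
    · have h1 := (FF.mem_ordGE_of_ne_zero v h0).1 (mem_vanishSS.1 hyV v hj hpos)
      have h2 := hi v ((Set.Finite.mem_toFinset _).2 hpos)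
      rw [hu, FF.ord_pow] at h1 ⊢
      have h3 : 0 < v.ord u := by
        by_contra hc
        have := mul_nonpos_of_nonneg_of_nonpos (Int.natCast_nonneg (p ^ (2 * i))) (not_lt.1 hc)
        omega
      have h4 := le_mul_of_one_le_right (Int.natCast_nonneg (p ^ (2 * i))) h3
      omega
    · have := (hyN v).1 hj
      omega
  · have h1 := (hyN v).2 hj
    rw [ord_hasseK_of_neg hj]
    nlinarith

/-- Large bounds split into a fixed one and multiples of the Hasse invariant. -/
theorem exists_split (hpM : ¬ p ∣ M) (m₀ : ℕ) :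
    ∃ m' : ℕ, m₀ ≤ m' ∧ p - 1 ≤ m' ∧ ∀ n, m' ≤ n → ∀ a ∈ riemannRochSpace (jPoles k M n),
      ∃ r ∈ riemannRochSpace (jPoles k M m'), ∃ a' ∈ riemannRochSpace (jPoles k M (n - (p - 1))),
        a = r + hasseK p k M * a' := by
  classical
  obtain ⟨πk, hπk⟩ := exists_pi (k := k) M (natCast_ne_zero_of_not_dvd p M k hpM)
  obtain ⟨D₀, hD₀⟩ := FF.exists_ell_eq_of_degree_ge k ↥(modularFunctionFieldFullC k M)
  refine ⟨max m₀ D₀.toNat + (p - 1), by omega, by omega, fun n hn a ha => ?_⟩
  set d := p - 1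
  set m' := max m₀ D₀.toNat + d
  set g := FF.riemannGenus k ↥(modularFunctionFieldFullC k M)
  have hidx : (1 : ℤ) ≤ idx M := by
    have : 0 < idx M := Fintype.card_pos
    exact_mod_cast this
  have hdim : ∀ l, D₀.toNat ≤ l →
      (Module.finrank k (riemannRochSpace (jPoles k M l)) : ℤ) = l * idx M + 1 - g := by
    intro l hl
    have hle : (l : ℤ) ≤ l * idx M := le_mul_of_one_le_right (Int.natCast_nonneg _) hidx
    have h := hD₀ (jPoles k M l) (by rw [degree_jPoles _ hπk]; omega)
    rwa [degree_jPoles _ hπk] at h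
  let L : ↥(modularFunctionFieldFullC k M) →ₗ[k] ↥(modularFunctionFieldFullC k M) :=
    LinearMap.mulLeft k (hasseK p k M)
  have hL : Function.Injective L := fun x y h => mul_left_cancel₀ (hasseK_ne_zero p k M) h
  set V := fun l => riemannRochSpace (jPoles k M l)
  have hsub : (V (n - d)).map L ≤ V n := by
    rintro _ ⟨x, hx, rfl⟩
    have h := hasseK_mul_mem (p := p) hx
    rwa [Nat.sub_add_cancel (le_trans (Nat.le_add_left _ _) hn)] at h
  have hinf : V m' ⊓ (V (n - d)).map L = (V (m' - d)).map L := by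
    ext x
    constructor
    · rintro ⟨hx, y, hy, rfl⟩
      exact ⟨y, of_hasseK_mul_mem (Nat.le_add_left _ _) hy hx, rfl⟩
    · rintro ⟨y, hy, rfl⟩
      refine ⟨?_, y, jPoles_mono (by omega) hy, rfl⟩
      have h := hasseK_mul_mem (p := p) hy
      rwa [Nat.sub_add_cancel (Nat.le_add_left _ _)] at h
  have hdimL : ∀ l, Module.finrank k ((V l).map L) = Module.finrank k (V l) := fun l =>
    (Submodule.equivMapOfInjective L hL _).finrank_eq.symm
  have h1 := Submodule.finrank_sup_add_finrank_inf_eq (V m') ((V (n - d)).map L)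
  rw [hinf, hdimL, hdimL] at h1
  have h2 : Module.finrank k (V n) ≤ Module.finrank k ↥(V m' ⊔ (V (n - d)).map L) := by
    have e1 := hdim n (by omega)
    have e2 := hdim m' (by omega)
    have e3 := hdim (n - d) (by omega)
    have e4 := hdim (m' - d) (by omega)
    have e5 : ((n - d : ℕ) : ℤ) = n - d := by omega
    have e6 : ((m' - d : ℕ) : ℤ) = m' - d := by omega
    rw [e5] at e3
    rw [e6] at e4
    have : (Module.finrank k (V n) : ℤ) + Module.finrank k (V (m' - d)) =
        Module.finrank k (V m') + Module.finrank k (V (n - d)) := by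
      simp only [V, e1, e2, e3, e4]; ring
    omega
  have heq : V m' ⊔ (V (n - d)).map L = V n :=
    Submodule.eq_of_le_of_finrank_le (sup_le (jPoles_mono hn) hsub) h2
  obtain ⟨r, hr, _, ⟨a', ha', rfl⟩, hra⟩ := Submodule.mem_sup.1 (heq.ge ha)
  exact ⟨r, hr, a', ha', hra.symm⟩

/-- **Compatible pairs** lie in any family of spaces containing the standard pairs. -/
theorem mem_of_compatible (hpM : ¬ p ∣ M)
    (P : ℕ → Submodule k (↥(modularFunctionFieldFullC k M) × ↥(modularFunctionFieldFullC k M)))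
    (hP : Monotone P) {m₀ : ℕ}
    (hA : ∀ m, m₀ ≤ m → ∀ N, p * m ≤ N → ∀ x ∈ riemannRochSpace (jPoles k M m),
      (x, phiK p k M x) ∈ P N ∧ (phiK p k M x, x) ∈ P N)
    (hC : ∀ m, m₀ ≤ m → ∀ s, 1 ≤ s → ∀ N, s * (p - 1) + m ≤ N → p * m ≤ N →
      ∀ x ∈ riemannRochSpace (jPoles k M m),
      (hasseK p k M ^ s * x, 0) ∈ P N ∧ (0, hasseK p k M ^ s * x) ∈ P N) :
    ∃ n₀, ∀ n, n₀ ≤ n → ∀ a b : ↥(modularFunctionFieldFullC k M),
      a ∈ riemannRochSpace (jPoles k M n) →
      b ∈ riemannRochSpace (jPoles k M n) → a - phiK p k M b ∈ vanishSS p k M → (a, b) ∈ P n := by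
  classical
  obtain ⟨m', hm₀, hmd, hsplit⟩ := exists_split (k := k) hpM m₀
  set V := fun l => riemannRochSpace (jPoles k M l)
  have hd : 0 < p - 1 := by have := (Fact.out : p.Prime).two_le; omega
  -- multiples of the Hasse invariant
  have hH : ∀ n, m' ≤ n → ∀ s, 1 ≤ s → ∀ N, s * (p - 1) + n ≤ N → p * (m' + p) ≤ N →
      ∀ x ∈ V n, (hasseK p k M ^ s * x, 0) ∈ P N ∧ (0, hasseK p k M ^ s * x) ∈ P N := by
    intro n
    induction n using Nat.strong_induction_on with
    | _ n ih =>
      intro hn s hs N hN hN' x hx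
      rcases lt_or_ge n (m' + (p - 1)) with hlt | hge
      · exact hC n (hm₀.trans hn) s hs N hN
          ((Nat.mul_le_mul_left p (by omega)).trans hN') x hx
      obtain ⟨r, hr, x', hx', rfl⟩ := hsplit n hn x hx
      have h1 := hC m' hm₀ s hs N (by omega) ((Nat.mul_le_mul_left p (by omega)).trans hN') r hr
      have h2 := ih (n - (p - 1)) (by omega) (by omega) (s + 1) (by omega) N
        (by rw [add_mul, one_mul]; omega) hN' x' hx'
      rw [pow_succ, mul_assoc] at h2
      constructor
      · have h := add_mem h1.1 h2.1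
        rwa [Prod.mk_add_mk, add_zero, ← mul_add] at h
      · have h := add_mem h1.2 h2.2
        rwa [Prod.mk_add_mk, add_zero, ← mul_add] at h
  have hH1 : ∀ n, m' ≤ n → ∀ N, (p - 1) + n ≤ N → p * (m' + p) ≤ N → ∀ x ∈ V n,
      (hasseK p k M * x, 0) ∈ P N ∧ (0, hasseK p k M * x) ∈ P N := fun n hn N hN hN' x hx => by
    simpa using hH n hn 1 le_rfl N (by omega) hN' x hx
  -- bounded compatible pairs
  have hbdd : ∀ r s, r ∈ V m' → s ∈ V m' → r - phiK p k M s ∈ vanishSS p k M →
      ∃ N, (r, s) ∈ P N := by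
    intro r s hr hs hss
    set z := r - phiK p k M s
    have hz : z ∈ V (max m' (p * m')) := sub_mem (jPoles_mono (le_max_left _ _) hr)
      (jPoles_mono (le_max_right _ _) (phiK_mem hs))
    obtain ⟨i, N₁, a, ha, hia⟩ := exists_iterate_eq_hasseK_mul hz hss
    set x := ∑ l ∈ Finset.range i, (phiK p k M)^[2 * l] z
    have hx : ∃ l, x ∈ V l := ⟨p ^ (2 * i) * max m' (p * m'), sum_mem fun l hl =>
      jPoles_mono (Nat.mul_le_mul_right _ (Nat.pow_le_pow_right (Fact.out : p.Prime).pos
        (by rw [Finset.mem_range] at hl; omega))) (iterate_mem hz _)⟩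
    obtain ⟨l, hxl⟩ := hx
    set m₁ := max (max m' N₁) (p * l) + l
    set N := p * (m₁ + m' + p) + (p - 1) + m₁
    have hxm : x ∈ V m₁ := jPoles_mono (by omega) hxl
    have hym : -phiK p k M x ∈ V m₁ := neg_mem (jPoles_mono (by omega) (phiK_mem hxl))
    have hpm : ∀ l, l ≤ m₁ + m' + p → p * l ≤ N := fun l hl =>
      (Nat.mul_le_mul_left p hl).trans (by omega)
    refine ⟨N, ?_⟩
    have t1 := (hA m₁ (by omega) N (hpm _ (by omega)) x hxm).1
    have t2 := (hA m₁ (by omega) N (hpm _ (by omega)) _ hym).2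
    have t3 := (hA m' hm₀ N (hpm _ (by omega)) s hs).2
    have t4 := (hH1 m₁ (by omega) N (by omega) (hpm _ (by omega)) a
      (jPoles_mono (by omega) ha)).1
    have h := add_mem (add_mem (add_mem t1 t2) t3) t4
    simp only [Prod.mk_add_mk, add_zero] at h
    convert h using 2
    · rw [map_neg, ← hia]
      have hstep : phiK p k M (phiK p k M x) + z = x + (phiK p k M)^[2 * i] z := by
        have := Finset.sum_range_succ (fun l => (phiK p k M)^[2 * l] z) i
        rw [Finset.sum_range_succ'] at this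
        simp only [Nat.mul_zero, Function.iterate_zero, id_eq] at this
        refine Eq.trans ?_ this
        simp only [x, map_sum]
        congr 1
        refine Finset.sum_congr rfl fun l _ => ?_
        rw [show 2 * (l + 1) = (2 * l + 1) + 1 by ring, Function.iterate_succ_apply',
          Function.iterate_succ_apply']
      linear_combination hstep
    · abel
  -- uniformity
  let W : Submodule k (↥(modularFunctionFieldFullC k M) × ↥(modularFunctionFieldFullC k M)) :=
    (V m').prod (V m') ⊓ (vanishSS p k M).comap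
      (LinearMap.fst k ↥(modularFunctionFieldFullC k M) ↥(modularFunctionFieldFullC k M) -
        (phiLin p k M).comp
          (LinearMap.snd k ↥(modularFunctionFieldFullC k M) ↥(modularFunctionFieldFullC k M)))
  have : FiniteDimensional k W := by
    let e : W →ₗ[k] V m' × V m' :=
      (((LinearMap.fst k ↥(modularFunctionFieldFullC k M) ↥(modularFunctionFieldFullC k M)).comp
        W.subtype).codRestrict (V m') fun x => x.2.1.1).prod
        (((LinearMap.snd k ↥(modularFunctionFieldFullC k M) ↥(modularFunctionFieldFullC k M)).comp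
          W.subtype).codRestrict (V m') fun x => x.2.1.2)
    refine Module.Finite.of_injective e fun x y h => Subtype.ext (Prod.ext ?_ ?_)
    · exact congrArg (fun z : V m' × V m' => (z.1 : ↥(modularFunctionFieldFullC k M))) h
    · exact congrArg (fun z : V m' × V m' => (z.2 : ↥(modularFunctionFieldFullC k M))) h
  have : Module.Free k W := Module.Free.of_divisionRing k W
  let b := Module.finBasis k W
  choose N hN using fun i => hbdd
    (b i : ↥(modularFunctionFieldFullC k M) × ↥(modularFunctionFieldFullC k M)).1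
    (b i : ↥(modularFunctionFieldFullC k M) × ↥(modularFunctionFieldFullC k M)).2
    (b i).2.1.1 (b i).2.1.2 (b i).2.2
  refine ⟨Finset.univ.sup N + p * (m' + p) + m' + (p - 1), fun n hn a c ha hc hcomp => ?_⟩
  obtain ⟨r, hr, a', ha', hra⟩ := hsplit n (by omega) a ha
  obtain ⟨s, hs, c', hc', hsc⟩ := hsplit n (by omega) c hc
  have hrs : (r, s) ∈ W := by
    refine ⟨⟨hr, hs⟩, ?_⟩
    show r - phiK p k M s ∈ vanishSS p k M
    have e : r - phiK p k M s = a - phiK p k M c - hasseK p k M * a' +
        hasseK p k M ^ p * phiK p k M c' := by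
      rw [hra, hsc, map_add, map_mul, hasseK_pow_eq]
      ring
    rw [e]
    refine add_mem (sub_mem hcomp ?_) ?_
    · refine mem_vanishSS.2 fun v hj hpos => ?_
      rcases eq_or_ne a' 0 with h0 | h0
      · rw [h0, mul_zero]; exact zero_mem _
      refine FF.mem_ordGE_of_le_ord v ?_
      rw [v.ord_mul (hasseK_ne_zero p k M) h0]
      have := ((mem_jPoles_iff_ord h0).1 ha' v).1 hj
      omega
    · refine mem_vanishSS.2 fun v hj hpos => ?_
      rcases eq_or_ne (phiK p k M c') 0 with h0 | h0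
      · rw [h0, mul_zero]; exact zero_mem _
      refine FF.mem_ordGE_of_le_ord v ?_
      rw [v.ord_mul (pow_ne_zero _ (hasseK_ne_zero p k M)) h0, FF.ord_pow]
      have := ((mem_jPoles_iff_ord h0).1 (phiK_mem hc') v).1 hj
      have := le_mul_of_one_le_left (Int.le_of_lt hpos)
        (show (1 : ℤ) ≤ p by exact_mod_cast (Fact.out : p.Prime).one_le)
      omega
  have hrsP : (r, s) ∈ P n := by
    have h : W ≤ P n := by
      intro x hx
      have h1 : (⟨x, hx⟩ : W) ∈ (P n).comap W.subtype := by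
        have htop : (⊤ : Submodule k W) ≤ (P n).comap W.subtype := by
          rw [← b.span_eq, Submodule.span_le]
          rintro _ ⟨i, rfl⟩
          exact hP ((Finset.le_sup (Finset.mem_univ i)).trans (by omega)) (hN i)
        exact htop Submodule.mem_top
      exact h1
    exact h hrs
  have t1 := (hH1 (n - (p - 1)) (by omega) n (by omega) (by omega) a' ha').1
  have t2 := (hH1 (n - (p - 1)) (by omega) n (by omega) (by omega) c' hc').2
  have h := add_mem (add_mem hrsP t1) t2
  rw [Prod.mk_add_mk, Prod.mk_add_mk, add_zero, add_zero, ← hra, ← hsc] at h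
  exact h

end Fermat.Agent.LevelLowerP
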