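import Fermat.Agent.LevelLowerP.GeoGauss

/-!
# The expansion at infinity, and expansions with prescribed values of `j` and `j(Mτ)`
-/

set_option autoImplicit false

noncomputable section

namespace Fermat.Agent.LevelLowerP

open Polynomial ModularCurve Fermat.Agent.Igusa TrivSqZeroExt DualNumber
open scoped LaurentSeries

variable {R : Type*} [CommRing R] [IsDomain R]

/-- Constants in the function fields over `R`. -/
instance algF (N : ℕ) [NeZero N] :
    Algebra R (modularFunctionFieldFullC (FractionRing R) N) := (cF N).toAlgebra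

theorem algebraMap_eq_cF (N : ℕ) [NeZero N] (r : R) :
    algebraMap R (modularFunctionFieldFullC (FractionRing R) N) r = cF N r := rfl

theorem coe_cF (N : ℕ) [NeZero N] (r : R) :
    ((cF N r : modularFunctionFieldFullC (FractionRing R) N) : LaurentSeries (FractionRing R)) =
      HahnSeries.C (algebraMap R (FractionRing R) r) := by
  show algebraMap (FractionRing R) (LaurentSeries (FractionRing R)) _ = _
  rw [algebraMap_laurentSeries_eq_single, HahnSeries.C_apply]

/-- The generator `j(dτ)`. -/
def jGen (K : Type*) [Field K] (N d : ℕ) [NeZero d] (hd : d ∣ N) :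
    modularFunctionFieldFullC K N :=
  ⟨qExpand K d (jqModC K), jqModCd_mem_full K N hd⟩

theorem coe_jGen (K : Type*) [Field K] (N d : ℕ) [NeZero d] (hd : d ∣ N) :
    ((jGen K N d hd : modularFunctionFieldFullC K N) : LaurentSeries K) =
      qExpand K d (jqModC K) := rfl

section Inf

theorem mem_range_toLS (N : ℕ) [NeZero N]
    (x : modularFunctionFieldFullC (FractionRing R) N) :
    ∃ y, Setup.toLS R y = (x : LaurentSeries (FractionRing R)) := by
  have hT : (modularFunctionFieldFullC (FractionRing R) N).toSubfield ≤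
      (Setup.toLS R).fieldRange := by
    rw [modularFunctionFieldFullC, IntermediateField.adjoin_toSubfield, Subfield.closure_le]
    rintro y (⟨c, rfl⟩ | ⟨d, hd0, -, rfl⟩)
    · obtain ⟨a, b, -, rfl⟩ := IsFractionRing.div_surjective R c
      show algebraMap (FractionRing R) (LaurentSeries (FractionRing R)) _ ∈ _
      rw [map_div₀, algebraMap_laurentSeries_eq_single, algebraMap_laurentSeries_eq_single,
        ← HahnSeries.C_apply, ← HahnSeries.C_apply, ← Setup.toLS_C, ← Setup.toLS_C]
      exact div_mem ⟨_, rfl⟩ ⟨_, rfl⟩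
    · exact ⟨Setup.ofInt R (qExpand ℤ d (jqModC ℤ)), by
        rw [Setup.toLS_ofInt, coeffMap_qExpand, coeffMap_jqModC]⟩
  exact RingHom.mem_fieldRange.1 (hT x.2)

/-- The expansion at infinity. -/
def iInf (N : ℕ) [NeZero N] :
    modularFunctionFieldFullC (FractionRing R) N →+* FractionRing (PowerSeries R) where
  toFun x := (mem_range_toLS N x).choose
  map_one' := (Setup.toLS R).injective (by rw [(mem_range_toLS N 1).choose_spec, map_one]; rfl)
  map_zero' := (Setup.toLS R).injective (by rw [(mem_range_toLS N 0).choose_spec, map_zero]; rfl)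
  map_add' x y := (Setup.toLS R).injective (by
    rw [(mem_range_toLS N (x + y)).choose_spec, map_add, (mem_range_toLS N x).choose_spec,
      (mem_range_toLS N y).choose_spec]; rfl)
  map_mul' x y := (Setup.toLS R).injective (by
    rw [(mem_range_toLS N (x * y)).choose_spec, map_mul, (mem_range_toLS N x).choose_spec,
      (mem_range_toLS N y).choose_spec]; rfl)

theorem toLS_iInf (N : ℕ) [NeZero N] (x : modularFunctionFieldFullC (FractionRing R) N) :
    Setup.toLS R (iInf N x) = (x : LaurentSeries (FractionRing R)) :=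
  (mem_range_toLS N x).choose_spec

theorem iInf_cF (N : ℕ) [NeZero N] (r : R) :
    iInf N (cF N r) =
      algebraMap (PowerSeries R) (FractionRing (PowerSeries R)) (PowerSeries.C r) :=
  (Setup.toLS R).injective (by rw [toLS_iInf, Setup.toLS_C, coe_cF])

theorem iInf_jGen (N d : ℕ) [NeZero N] [NeZero d] (hd : d ∣ N) :
    iInf N (jGen (FractionRing R) N d hd) = Setup.ofInt R (qExpand ℤ d (jqModC ℤ)) :=
  (Setup.toLS R).injective (by
    rw [toLS_iInf, Setup.toLS_ofInt, coeffMap_qExpand, coeffMap_jqModC, coe_jGen])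

end Inf

variable {p : ℕ} {k : Type*} [IsDiscreteValuationRing R] [Field k]
  [CharP k p] [Fact p.Prime] (S : Setup p R k)


variable (M : ℕ) [NeZero M]

omit [IsDomain R] [IsDiscreteValuationRing R] [CharP k p] [Fact (Nat.Prime p)] in
theorem δS_C (r : R) : S.δS (PowerSeries.C r) =
    dualMap (HahnSeries.C : k →+* LaurentSeries k) (S.δ r) := by
  refine TrivSqZeroExt.ext ?_ ?_
  · rw [S.fst_δS, fst_dualMap, PowerSeries.map_C, HahnSeries.ofPowerSeries_C]
    rfl
  · rw [S.snd_δS, snd_dualMap, ← HahnSeries.ofPowerSeries_C]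
    congr 1
    ext n
    rw [PowerSeries.coeff_mk, PowerSeries.coeff_C, PowerSeries.coeff_C]
    split_ifs <;> simp

/-- The expansion of the reduced curve at infinity. -/
abbrev eInf (k : Type*) [Field k] (M : ℕ) [NeZero M] :
    modularFunctionFieldFullC k M →+* LaurentSeries k :=
  SubringClass.subtype (modularFunctionFieldFullC k M)

omit [CharP k p] [Fact p.Prime] in
theorem eInf_algebraMap (c : k) :
    eInf k M (algebraMap k (modularFunctionFieldFullC k M) c) = HahnSeries.C c := by
  show algebraMap k (LaurentSeries k) c = _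
  rw [algebraMap_laurentSeries_eq_single, HahnSeries.C_apply]

omit [CharP k p] [Fact (Nat.Prime p)] in
theorem compat_iInf : Compat S M S.discBranch (iInf M) (eInf k M) := by
  have hc : ∀ r : R, S.discBranch.IsInt (iInf M (cF M r)) := fun r => by
    rw [iInf_cF]; exact S.discBranch.isInt_algebraMap _
  obtain ⟨x, hx, hx'⟩ := S.ofInt_spec (qExpand ℤ 1 (jqModC ℤ))
  obtain ⟨y, hy, hy'⟩ := S.ofInt_spec (qExpand ℤ M (jqModC ℤ))
  have hj : iInf M (jC (FractionRing R) M) = (x : FractionRing (PowerSeries R)) := by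
    rw [hx, ← iInf_jGen M 1 (one_dvd M)]
    exact congrArg _ (Subtype.ext (by rw [coe_jGen, qExpand_one_apply]; rfl))
  have hjN : iInf M (jNC (FractionRing R) M) = (y : FractionRing (PowerSeries R)) := by
    rw [hy, ← iInf_jGen M M dvd_rfl]
    rfl
  refine ⟨iInf_cF M S.ϖ, hc, fun r => ?_, hj ▸ x.2, ?_, hjN ▸ y.2, ?_⟩
  · rw [S.discBranch.intδ_eq (s := PowerSeries.C r) (t := 1)
      (by rw [map_one]; exact one_ne_zero) (by rw [map_one, mul_one]; exact iInf_cF M r)]
    rw [map_one, TrivSqZeroExt.inv_one, mul_one]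
    show S.δS _ = _
    rw [δS_C]
    refine TrivSqZeroExt.ext ?_ ?_ <;> simp [algebraMap_laurentSeries_eq_single]
  · refine ((congrArg S.discBranch.intδ (Subtype.ext hj)).trans hx').trans ?_
    rw [qExpand_one_apply, coeffMap_jqModC]
    rfl
  · refine ((congrArg S.discBranch.intδ (Subtype.ext hjN)).trans hy').trans ?_
    rw [coeffMap_qExpand, coeffMap_jqModC]
    rfl

omit [Fact (Nat.Prime p)] in
theorem val2_evR_ne_zero (hpM : ¬ p ∣ M) [IsAlgClosed k] {a : Fin (idx M) → R[X]}
    (ha : ∃ l, (a l).map S.res ≠ 0) :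
    val2 (evR M) (jNC (FractionRing R) M) a ≠ 0 := by
  obtain ⟨u, hu, hu'⟩ := (compat_iInf S M).exists_val a
  intro h
  refine S.discBranch.ne_zero_of_intδ (x := u) ?_ (by rw [hu, h, map_zero])
  rw [hu', fst_dualMap]
  exact (_root_.map_ne_zero _).2 (fst_val2_evδ_ne_zero S M hpM ha)

section Hom

local notation "K" => FractionRing R

/-- The integral modular equation of level `M`. -/
def jQ : ℤ[X][X] := (exists_jPoly M).choose

omit [Fact (Nat.Prime p)] in
include S in
theorem minpoly_jNC (hpM : ¬ p ∣ M) [IsAlgClosed k] [CharZero R] :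
    minpoly (baseC K M) (jNC K M) =
      (jQ M).map (eval₂RingHom (Int.castRingHom (baseC K M)) (jBase K M)) := by
  classical
  obtain ⟨hQm, hQd, hQ⟩ := (exists_jPoly M).choose_spec
  set τ := eval₂RingHom (Int.castRingHom (baseC K M)) (jBase K M)
  have hP : aeval (jNC K M) ((jQ M).map τ) = 0 := by
    apply (SubringClass.subtype (modularFunctionFieldFullC K M)).injective
    rw [map_zero, aeval_def, Polynomial.eval₂_map, Polynomial.hom_eval₂]
    have h := congrArg (coeffMap (Int.castRingHom K)) hQ
    rw [map_zero, Polynomial.hom_eval₂, coeffMap_jqNModC] at h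
    rw [← h]
    show (jQ M).eval₂ _ (jqNModC K M) = _
    congr 1
    refine Polynomial.ringHom_ext (fun c => ?_) ?_
    · simp
    · simp [τ, jBase, jC, evq, coeffMap_jqModC]
  have hint : IsIntegral (baseC K M) (jNC K M) := ⟨_, hQm.map _, hP⟩
  refine (Polynomial.eq_of_monic_of_dvd_of_natDegree_le (minpoly.monic hint) (hQm.map _)
    (minpoly.dvd _ _ hP) ?_).symm
  rw [hQm.natDegree_map]
  show (jQ M).natDegree ≤ _
  rw [show (jQ M).natDegree = idx M from hQd]
  by_contra hlt
  push Not at hlt
  set H := minpoly (baseC K M) (jNC K M)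
  choose c hc using fun l : Fin (idx M) => toBase_surjective K M (H.coeff l)
  obtain ⟨b, hb⟩ := IsLocalization.exist_integer_multiples (nonZeroDivisors K[X])
    (Finset.univ : Finset (Fin (idx M))) c
  choose a ha using fun l => hb l (Finset.mem_univ l)
  have hb0 : (b : K[X]) ≠ 0 := nonZeroDivisors.ne_zero b.2
  have hab : ∀ l, evC K M (a l) = evC K M b * ((H.coeff (l : ℕ) : baseC K M) :
      modularFunctionFieldFullC K M) := fun l => by
    have h := congrArg (fun z => ((toBase K M z : baseC K M) : modularFunctionFieldFullC K M))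
      (ha l)
    simp only [Algebra.smul_def, map_mul, MulMemClass.coe_mul, toBase,
      IsFractionRing.lift_algebraMap, coe_toBasePoly_eq] at h
    rw [h, ← toBase, hc]
  have hsum : val2 (evC K M) (jNC K M) a = 0 := by
    rw [val2]
    simp only [hab, mul_assoc, ← Finset.mul_sum]
    refine mul_eq_zero_of_right _ ?_
    have h := minpoly.aeval (baseC K M) (jNC K M)
    rw [aeval_eq_sum_range' hlt, ← Fin.sum_univ_eq_sum_range
      (fun i => H.coeff i • jNC K M ^ i)] at h
    exact h
  have hane : a ≠ 0 := fun h => by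
    have hmem : H.natDegree < idx M := hlt
    have h1 := hab ⟨H.natDegree, hmem⟩
    rw [h, Pi.zero_apply, map_zero, eq_comm, mul_eq_zero] at h1
    rcases h1 with h1 | h1
    · exact hb0 (evC_injective K M (h1.trans (map_zero _).symm))
    · rw [(minpoly.monic hint).coeff_natDegree] at h1
      exact one_ne_zero h1
  obtain ⟨n, a', ha', hae⟩ := S.exists_primitive a hane
  refine val2_evR_ne_zero S M hpM ha' ?_
  have : val2 (evC K M) (jNC K M) a =
      evC K M (C (algebraMap R K S.ϖ ^ n)) * val2 (evR M) (jNC K M) a' := by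
    rw [val2, val2, Finset.mul_sum]
    refine Finset.sum_congr rfl fun l _ => ?_
    rw [hae l, map_mul, evC_map, mul_assoc]
  rw [hsum, eq_comm, mul_eq_zero] at this
  refine this.resolve_left ((map_ne_zero_iff _ (evC_injective K M)).2 (C_ne_zero.2 ?_))
  exact zpow_ne_zero _ ((map_ne_zero_iff _ (IsFractionRing.injective R K)).2
    S.irreducible_ϖ.ne_zero)

/-- The expansion with prescribed constants and prescribed values of `j` and `j(Mτ)`. -/
theorem exists_compat (hpM : ¬ p ∣ M) [IsAlgClosed k] {O κ' : Type*} [CommRing O] [IsDomain O]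
    [Field κ'] (B : Branch O κ') (e : modularFunctionFieldFullC k M →+* κ')
    (f : R →+* B.intRing (FractionRing O))
    (hfϖ : (f S.ϖ : FractionRing O) = algebraMap O _ B.ϖ)
    (hf : ∀ r, B.intδ (f r) = dualMap e (dualMap (algebraMap k _) (S.δ r)))
    (J G : B.intRing (FractionRing O)) (hJ : B.intδ J = inl (e (jC k M)))
    (hG : B.intδ G = inl (e (jNC k M)))
    (hrel : (jQ M).eval₂ (eval₂RingHom (Int.castRingHom _) J) G = 0) :
    ∃ ι : modularFunctionFieldFullC K M →+* FractionRing O,
      Compat S M B ι e ∧ (∀ r, ι (cF M r) = f r) ∧ ι (jC K M) = J ∧ ι (jNC K M) = G := by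
  have := S.charZero
  let incl := (B.intRing (FractionRing O)).subtype
  let ψ : R[X] →+* B.intRing (FractionRing O) := eval₂RingHom f J
  have hψ : ∀ a, B.intδ (ψ a) = dualMap e (evδ S M a) := fun a => by
    refine congrArg (fun g : R[X] →+* DualNumber κ' => g a)
      (Polynomial.ringHom_ext (f := B.intδ.comp ψ) (g := (dualMap e).comp (evδ S M))
        (fun c => ?_) ?_)
    · simp [ψ, evδ, hf]
    · simp only [ψ, evδ, RingHom.comp_apply, coe_eval₂RingHom, eval₂_X, hJ]
      refine TrivSqZeroExt.ext ?_ ?_ <;> simp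
  have hψ0 : ∀ a : R[X], a.map S.res ≠ 0 → incl (ψ a) ≠ 0 := fun a ha =>
    B.ne_zero_of_intδ (x := ψ a) (by
      rw [hψ, fst_dualMap]
      exact (_root_.map_ne_zero e).2 (fst_evδ_ne_zero S M ha))
  have hϖ0 : algebraMap O (FractionRing O) B.ϖ ≠ 0 := Branch.algebraMap_ne_zero B.ϖ_ne_zero
  have hfinj : Function.Injective (incl.comp f) := by
    rw [injective_iff_map_eq_zero]
    intro r hr
    by_contra hr0
    obtain ⟨n, u, rfl⟩ := IsDiscreteValuationRing.eq_unit_mul_pow_irreducible hr0 S.irreducible_ϖ
    rw [map_mul, map_pow, mul_eq_zero] at hr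
    rcases hr with hr | hr
    · exact (u.isUnit.map (incl.comp f)).ne_zero hr
    · exact pow_ne_zero n hϖ0 (by rw [← hfϖ]; exact hr)
  let φ : K →+* FractionRing O := IsFractionRing.lift hfinj
  have hφ : ∀ r, φ (algebraMap R K r) = incl (f r) := fun r => IsFractionRing.lift_algebraMap _ r
  let ψK : K[X] →+* FractionRing O := eval₂RingHom φ (incl J)
  have hψK : ∀ a : R[X], ψK (a.map (algebraMap R K)) = incl (ψ a) := fun a => by
    simp only [ψK, ψ, coe_eval₂RingHom, Polynomial.eval₂_map, Polynomial.hom_eval₂]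
    congr 1
    exact RingHom.ext hφ
  have hψKinj : Function.Injective ψK := by
    rw [injective_iff_map_eq_zero]
    intro a ha
    by_contra ha0
    obtain ⟨n, a', ⟨_, ha'⟩, hae⟩ := S.exists_primitive (fun _ : Unit => a)
      fun h => ha0 (congrFun h ())
    rw [hae (), map_mul, hψK, mul_eq_zero] at ha
    refine ha.elim (fun h => ?_) (hψ0 _ ha')
    simp only [ψK, coe_eval₂RingHom, eval₂_C, map_zpow₀, hφ] at h
    exact zpow_ne_zero n hϖ0 (by rw [← hfϖ]; exact h)
  let ΨK : Kj K →+* FractionRing O := IsFractionRing.lift hψKinj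
  let inv : baseC K M ≃+* Kj K :=
    (RingEquiv.ofBijective (toBase K M)
      ⟨(toBase K M).injective, toBase_surjective K M⟩).symm
  let θ : baseC K M →+* FractionRing O := ΨK.comp inv.toRingHom
  have hθ : ∀ a : K[X], θ (toBasePoly K M a) = ψK a := fun a => by
    have : inv (toBasePoly K M a) = algebraMap K[X] (Kj K) a := by
      rw [show toBasePoly K M a = toBase K M (algebraMap K[X] (Kj K) a) from
        (IsFractionRing.lift_algebraMap _ a).symm]
      exact (RingEquiv.ofBijective (toBase K M)
        ⟨(toBase K M).injective, toBase_surjective K M⟩).symm_apply_apply _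
    show ΨK (inv _) = _
    rw [this]
    exact IsFractionRing.lift_algebraMap _ a
  let g : (baseC K M)[X] →+* FractionRing O := eval₂RingHom θ (incl G)
  let ev : (baseC K M)[X] →+* modularFunctionFieldFullC K M :=
    (aeval (jNC K M)).toRingHom
  have hQm := (exists_jPoly M).choose_spec.1
  have hmin := minpoly_jNC S M hpM
  have hint : IsIntegral (baseC K M) (jNC K M) := by
    refine minpoly.ne_zero_iff.1 ?_
    rw [hmin]
    exact (hQm.map _).ne_zero
  have hev : Function.Surjective ev := by
    intro x
    have hx : x ∈ IntermediateField.adjoin (baseC K M) {jNC K M} := by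
      rw [adjoin_jNC_eq_top' K M]; trivial
    rw [← IntermediateField.mem_toSubalgebra,
      IntermediateField.adjoin_simple_toSubalgebra_of_isAlgebraic hint.isAlgebraic,
      Algebra.adjoin_singleton_eq_range_aeval] at hx
    exact hx
  have hker : RingHom.ker ev ≤ RingHom.ker g := by
    intro q hq
    obtain ⟨r, rfl⟩ := minpoly.dvd (baseC K M) (jNC K M) hq
    have h0 : g (minpoly (baseC K M) (jNC K M)) = 0 := by
      rw [hmin]
      simp only [g, coe_eval₂RingHom, Polynomial.eval₂_map]
      have h := congrArg incl hrel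
      rw [map_zero, Polynomial.hom_eval₂] at h
      rw [← h]
      congr 1
      refine Polynomial.ringHom_ext (fun c => by simp) ?_
      have hX : (eval₂RingHom (Int.castRingHom (baseC K M)) (jBase K M)) X =
          toBasePoly K M X := by simp [toBasePoly]
      rw [RingHom.comp_apply, hX, hθ]
      simp [ψK]
    rw [RingHom.mem_ker, map_mul, h0, zero_mul]
  let ι := RingHom.liftOfSurjective ev hev ⟨g, hker⟩
  have hι : ∀ q, ι (ev q) = g q := fun q =>
    RingHom.liftOfRightInverse_comp_apply ev _ _ ⟨g, hker⟩ q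
  have hbase : ∀ a : K[X], ι (evC K M a) = ψK a := fun a => by
    have h := hι (C (toBasePoly K M a))
    simp only [ev, g, AlgHom.toRingHom_eq_coe, RingHom.coe_coe, aeval_C, coe_eval₂RingHom,
      eval₂_C, hθ] at h
    rw [← coe_toBasePoly_eq K M a]
    exact h
  have h1 : ∀ r, ι (cF M r) = incl (f r) := fun r => by
    rw [show cF M r = evC K M (C (algebraMap R K r)) by simp [evC, cF], hbase]
    simp [ψK, hφ]
  have h2 : ι (jC K M) = incl J := by
    rw [show jC K M = evC K M X by simp [evC], hbase]
    simp [ψK]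
  have h3 : ι (jNC K M) = incl G := by
    have h := hι X
    simp only [ev, g, AlgHom.toRingHom_eq_coe, RingHom.coe_coe, aeval_X, coe_eval₂RingHom,
      eval₂_X] at h
    exact h
  refine ⟨ι, ⟨(h1 S.ϖ).trans hfϖ, fun r => by rw [h1]; exact (f r).2, fun r => ?_,
    by rw [h2]; exact J.2, ?_, by rw [h3]; exact G.2, ?_⟩, h1, h2, h3⟩
  · exact (congrArg B.intδ (Subtype.ext (h1 r))).trans (hf r)
  · exact (congrArg B.intδ (Subtype.ext h2)).trans hJ
  · exact (congrArg B.intδ (Subtype.ext h3)).trans hG

end Hom

end Fermat.Agent.LevelLowerP
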