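import Mathlib.RingTheory.AdjoinRoot
import Mathlib.RingTheory.Polynomial.UniqueFactorization
import Mathlib.Algebra.Polynomial.Roots
import Mathlib.Algebra.Polynomial.SpecificDegree
import Fermat.Agent.LevelLowerP.Series

/-!
# The ring of a node

The ring of the annulus `X Y = p` over the base, as `R⟦T⟧[X]/(X² - T X + p)` with `T = X + Y`, and
its two branches.

The main definitions are the branches `Setup.infBranch` and `Setup.zeroBranch`.
-/

set_option autoImplicit false

namespace Fermat.Agent.LevelLowerP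

open DualNumber TrivSqZeroExt Polynomial
open scoped LaurentSeries PowerSeries

/-- The equation of a node. -/
noncomputable def nodePoly (R : Type*) [CommRing R] (p : ℕ) : (PowerSeries R)[X] :=
  X ^ 2 - C (PowerSeries.X : PowerSeries R) * X + C (p : PowerSeries R)

/-- The ring of a node. -/
abbrev Node (R : Type*) [CommRing R] (p : ℕ) : Type _ := AdjoinRoot (nodePoly R p)

section Basic

variable {R : Type*} [CommRing R] {p : ℕ}

/-- The coordinate on the branch at infinity. -/
noncomputable def nodeX : Node R p := AdjoinRoot.root _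

/-- The parameter `X + Y`. -/
noncomputable def nodeT : Node R p := AdjoinRoot.of _ PowerSeries.X

/-- The coordinate on the other branch. -/
noncomputable def nodeY : Node R p := nodeT - nodeX

lemma eval₂_nodePoly {S : Type*} [CommRing S] (f : PowerSeries R →+* S) (r : S) :
    (nodePoly R p).eval₂ f r = r ^ 2 - f PowerSeries.X * r + (p : S) := by
  simp [nodePoly]

lemma nodeX_add_nodeY : (nodeX + nodeY : Node R p) = nodeT := by simp [nodeY]

lemma nodeX_mul_nodeY : (nodeX * nodeY : Node R p) = (p : Node R p) := by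
  have h := AdjoinRoot.eval₂_root (nodePoly R p)
  rw [eval₂_nodePoly] at h
  rw [nodeY, nodeT, nodeX]
  linear_combination -h

variable [Nontrivial R]

lemma natDegree_nodePoly : (nodePoly R p).natDegree = 2 := by
  unfold nodePoly; compute_degree!

omit [Nontrivial R] in
lemma monic_nodePoly : (nodePoly R p).Monic := by
  unfold nodePoly; monicity!

lemma exists_eq_add (g : Node R p) :
    ∃ A B : PowerSeries R, g = AdjoinRoot.of _ A + AdjoinRoot.of _ B * nodeX := by
  obtain ⟨P, rfl⟩ := AdjoinRoot.mk_surjective g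
  set Q := P %ₘ nodePoly R p with hQ
  have hdeg : Q.natDegree < 2 := by
    have h1 : nodePoly R p ≠ 1 := fun h => by
      have := congrArg Polynomial.natDegree h
      rw [natDegree_nodePoly, natDegree_one] at this; omega
    simpa [natDegree_nodePoly] using natDegree_modByMonic_lt P monic_nodePoly h1
  refine ⟨Q.coeff 0, Q.coeff 1, ?_⟩
  have h : AdjoinRoot.mk (nodePoly R p) P = AdjoinRoot.mk _ Q := by
    rw [AdjoinRoot.mk_eq_mk]
    exact ⟨P /ₘ nodePoly R p, by rw [hQ]; linear_combination -(modByMonic_add_div P (nodePoly R p))⟩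
  rw [h, Polynomial.eq_X_add_C_of_natDegree_le_one (Nat.le_of_lt_succ hdeg)]
  simp [nodeX, add_comm]

lemma eq_zero_of_add_eq_zero {A B : PowerSeries R}
    (h : (AdjoinRoot.of _ A + AdjoinRoot.of _ B * nodeX : Node R p) = 0) : A = 0 ∧ B = 0 := by
  have h' : AdjoinRoot.mk (nodePoly R p) (C A + C B * X) = 0 := by simpa [nodeX] using h
  rw [AdjoinRoot.mk_eq_zero] at h'
  have h0 : (C A + C B * X : (PowerSeries R)[X]) = 0 := by
    by_contra hne
    obtain ⟨Q, hQ⟩ := h'
    have hQ0 : Q ≠ 0 := fun e => hne (by rw [hQ, e, mul_zero])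
    have hle : (C A + C B * X : (PowerSeries R)[X]).natDegree ≤ 1 := by compute_degree
    rw [hQ, monic_nodePoly.natDegree_mul' hQ0, natDegree_nodePoly] at hle
    omega
  have hA := congrArg (fun P => coeff P 0) h0
  have hB := congrArg (fun P => coeff P 1) h0
  simp at hA hB
  exact ⟨hA, hB⟩

/-- The involution exchanging the branches. -/
noncomputable def nodeConj : Node R p →+* Node R p :=
  AdjoinRoot.lift (AdjoinRoot.of _) nodeY (by
    rw [eval₂_nodePoly]
    have h := nodeX_mul_nodeY (R := R) (p := p)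
    rw [nodeY, nodeT] at h ⊢
    linear_combination -h)

omit [Nontrivial R] in
lemma nodeConj_of (A : PowerSeries R) : nodeConj (p := p) (AdjoinRoot.of _ A) = AdjoinRoot.of _ A :=
  AdjoinRoot.lift_of _

omit [Nontrivial R] in
lemma nodeConj_nodeX : nodeConj (R := R) (p := p) nodeX = nodeY := AdjoinRoot.lift_root _

omit [Nontrivial R] in
lemma mul_nodeConj (A B : PowerSeries R) :
    ((AdjoinRoot.of _ A + AdjoinRoot.of _ B * nodeX) *
      nodeConj (AdjoinRoot.of _ A + AdjoinRoot.of _ B * nodeX) : Node R p) =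
      AdjoinRoot.of _ (A ^ 2 + A * B * PowerSeries.X + B ^ 2 * (p : PowerSeries R)) := by
  rw [map_add, map_mul, nodeConj_of, nodeConj_of, nodeConj_nodeX]
  simp only [map_add, map_mul, map_pow, map_natCast]
  have h := nodeX_mul_nodeY (R := R) (p := p)
  rw [nodeY, nodeT] at h ⊢
  linear_combination (AdjoinRoot.of (nodePoly R p) B) ^ 2 * h

omit [Nontrivial R] in
lemma isUnit_of_constantCoeff {A B : PowerSeries R}
    (hA : IsUnit (PowerSeries.constantCoeff A ^ 2 +
      PowerSeries.constantCoeff B ^ 2 * (p : R))) :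
    IsUnit (AdjoinRoot.of _ A + AdjoinRoot.of _ B * nodeX : Node R p) := by
  refine isUnit_of_mul_isUnit_left
    (y := nodeConj (AdjoinRoot.of _ A + AdjoinRoot.of _ B * nodeX)) ?_
  rw [mul_nodeConj]
  refine (PowerSeries.isUnit_iff_constantCoeff.2 ?_).map _
  simpa using hA

end Basic

namespace Setup

variable {p : ℕ} {R k : Type*} [CommRing R] [IsDomain R] [IsDiscreteValuationRing R] [Field k]
  [CharP k p] [Fact p.Prime] (S : Setup p R k)

omit [IsDomain R] [IsDiscreteValuationRing R] [Fact (Nat.Prime p)] in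
lemma δ_natCast_prime : S.δ (p : R) = 0 := by
  rw [S.δ_natCast, CharP.cast_eq_zero]; ext <;> simp

omit [IsDomain R] [IsDiscreteValuationRing R] [Fact (Nat.Prime p)] in
lemma δS_natCast_prime : S.δS (p : PowerSeries R) = 0 := by
  rw [map_natCast]
  have : ((p : ℕ) : LaurentSeries k) = 0 := by
    rw [← map_natCast (HahnSeries.C (Γ := ℤ) (R := k)), CharP.cast_eq_zero, map_zero]
  ext1
  · rw [TrivSqZeroExt.fst_natCast, this, TrivSqZeroExt.fst_zero]
  · rw [TrivSqZeroExt.snd_natCast, TrivSqZeroExt.snd_zero]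

/-- The branch at infinity: `X` is the coordinate and `Y = 0`. -/
noncomputable def δinf : Node R p →+* DualNumber (LaurentSeries k) :=
  AdjoinRoot.lift S.δS (S.δS PowerSeries.X) (by
    rw [eval₂_nodePoly, ← map_natCast S.δS, S.δS_natCast_prime]
    ring)

/-- The other branch: `X = 0`. -/
noncomputable def δzero : Node R p →+* DualNumber (LaurentSeries k) :=
  AdjoinRoot.lift S.δS 0 (by
    rw [eval₂_nodePoly, ← map_natCast S.δS, S.δS_natCast_prime]
    ring)

omit [IsDomain R] [IsDiscreteValuationRing R] [Fact (Nat.Prime p)] in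
lemma δinf_of (A : PowerSeries R) : S.δinf (AdjoinRoot.of _ A) = S.δS A := AdjoinRoot.lift_of _

omit [IsDomain R] [IsDiscreteValuationRing R] [Fact (Nat.Prime p)] in
lemma δinf_nodeX : S.δinf nodeX = S.δS PowerSeries.X := AdjoinRoot.lift_root _

omit [IsDomain R] [IsDiscreteValuationRing R] [Fact (Nat.Prime p)] in
lemma δzero_of (A : PowerSeries R) : S.δzero (AdjoinRoot.of _ A) = S.δS A := AdjoinRoot.lift_of _

omit [IsDomain R] [IsDiscreteValuationRing R] [Fact (Nat.Prime p)] in
lemma δzero_nodeX : S.δzero nodeX = 0 := AdjoinRoot.lift_root _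

omit [IsDomain R] [IsDiscreteValuationRing R] [Fact (Nat.Prime p)] in
lemma δzero_nodeY : S.δzero nodeY = S.δS PowerSeries.X := by
  rw [nodeY, map_sub, nodeT, δzero_of, δzero_nodeX, sub_zero]

omit [IsDomain R] [IsDiscreteValuationRing R] [Fact p.Prime] [CharP k p] in
lemma fst_δS_X : (S.δS PowerSeries.X).fst =
    ((PowerSeries.X : PowerSeries k) : LaurentSeries k) := by rw [S.fst_δS, PowerSeries.map_X]

omit [IsDomain R] [IsDiscreteValuationRing R] [Fact p.Prime] [CharP k p] in
lemma fst_δS_X_ne_zero : (S.δS PowerSeries.X).fst ≠ 0 := by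
  rw [fst_δS_X]
  exact (map_ne_zero_iff _ HahnSeries.ofPowerSeries_injective).2 PowerSeries.X_ne_zero

omit [CharP k p] in
include S in
theorem no_root_nodePoly (hp : p ≠ 2) (r : PowerSeries R) :
    r ^ 2 - PowerSeries.X * r + (p : PowerSeries R) ≠ 0 := by
  intro hr
  have h0 := congrArg (PowerSeries.constantCoeff (R := R)) hr
  simp only [map_add, map_sub, map_mul, map_pow, PowerSeries.constantCoeff_X, zero_mul, sub_zero,
    map_natCast, map_zero] at h0
  set r0 := PowerSeries.constantCoeff r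
  have hw := S.isUnit_w
  have hr0 : r0 ≠ 0 := fun e => by
    rw [e, zero_pow two_ne_zero, zero_add, S.natCast_eq] at h0
    exact mul_ne_zero (pow_ne_zero _ S.irreducible_ϖ.ne_zero) hw.ne_zero h0
  obtain ⟨n, u, hu⟩ := IsDiscreteValuationRing.eq_unit_mul_pow_irreducible hr0 S.irreducible_ϖ
  have h1 : (u ^ 2 : Rˣ) * S.ϖ ^ (2 * n) = ((-hw.unit : Rˣ) : R) * S.ϖ ^ p := by
    rw [hu, S.natCast_eq] at h0
    push_cast
    rw [IsUnit.unit_spec]
    linear_combination h0
  have h2 :=
    IsDiscreteValuationRing.unit_mul_pow_congr_pow S.irreducible_ϖ S.irreducible_ϖ _ _ _ _ h1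
  have hp' := (Fact.out : p.Prime).eq_two_or_odd
  omega

omit [CharP k p] in
include S in
theorem irreducible_nodePoly (hp : p ≠ 2) : Irreducible (nodePoly R p) := by
  rw [(monic_nodePoly (R := R)).irreducible_iff_roots_eq_zero_of_degree_le_three
    natDegree_nodePoly.ge (natDegree_nodePoly.trans_le (by norm_num))]
  refine Multiset.eq_zero_of_forall_notMem fun r hr => S.no_root_nodePoly hp r ?_
  have h := (mem_roots'.1 hr).2
  rwa [IsRoot, eval, eval₂_nodePoly] at h

omit [CharP k p] in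
include S in
/-- The node ring is a domain. -/
theorem isDomain_node (hp : p ≠ 2) : IsDomain (Node R p) :=
  AdjoinRoot.isDomain_of_prime
    (UniqueFactorizationMonoid.irreducible_iff_prime.1 (S.irreducible_nodePoly hp))

omit [CharP k p] [Fact p.Prime] in
/-- Descent step for the decomposition along a branch. -/
theorem node_decomp [IsDomain (Node R p)] (δ : Node R p →+* DualNumber (LaurentSeries k))
    (hδ : ∀ A, δ (AdjoinRoot.of _ A) = S.δS A) (x : Node R p) (hx : (δ x).fst ≠ 0)
    (hdiv : ∀ g, (δ g).fst = 0 → ∃ g', g * x = AdjoinRoot.of _ (PowerSeries.C S.ϖ) * g')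
    (g : Node R p) (hg : g ≠ 0) :
    ∃ (m : ℕ) (s t : Node R p), (δ s).fst ≠ 0 ∧ (δ t).fst ≠ 0 ∧
      g * t = AdjoinRoot.of _ (PowerSeries.C S.ϖ) ^ m * s := by
  have key : ∀ (m : ℕ) (g h Q : Node R p), (δ Q).fst ≠ 0 →
      g * h = AdjoinRoot.of _ (PowerSeries.C S.ϖ) ^ m * Q →
      ∃ (m : ℕ) (s t : Node R p), (δ s).fst ≠ 0 ∧ (δ t).fst ≠ 0 ∧
        g * t = AdjoinRoot.of _ (PowerSeries.C S.ϖ) ^ m * s := by
    intro m
    induction m with
    | zero =>
      intro g h Q hQ e
      rw [pow_zero, one_mul] at e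
      rw [← e, map_mul, TrivSqZeroExt.fst_mul] at hQ
      exact ⟨0, g, 1, left_ne_zero_of_mul hQ, by simp, by simp⟩
    | succ j ih =>
      intro g h Q hQ e
      by_cases hg0 : (δ g).fst = 0
      · obtain ⟨g', hg'⟩ := hdiv g hg0
        have hϖ : AdjoinRoot.of (nodePoly R p) (PowerSeries.C S.ϖ) ≠ 0 := fun e0 =>
          S.prime_C_ϖ.ne_zero (eq_zero_of_add_eq_zero (B := 0) (p := p) (by simpa using e0)).1
        obtain ⟨m', s, t, hs, ht, e'⟩ := ih g' h (x * Q)
          (by rw [map_mul, TrivSqZeroExt.fst_mul]; exact mul_ne_zero hx hQ)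
          (by
            apply mul_left_cancel₀ hϖ
            linear_combination x * e - h * hg')
        refine ⟨m' + 1, s, x * t, hs,
          by rw [map_mul, TrivSqZeroExt.fst_mul]; exact mul_ne_zero hx ht, ?_⟩
        linear_combination t * hg' + AdjoinRoot.of _ (PowerSeries.C S.ϖ) * e'
      · exact ⟨0, g, 1, hg0, by simp, by simp⟩
  obtain ⟨A, B, rfl⟩ := exists_eq_add g
  have hN : A ^ 2 + A * B * PowerSeries.X + B ^ 2 * (p : PowerSeries R) ≠ 0 := by
    intro h0
    have h := mul_nodeConj (p := p) A B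
    rw [h0, map_zero] at h
    rcases mul_eq_zero.1 h with h | h
    · exact hg h
    · rw [map_add, map_mul, nodeConj_of, nodeConj_of, nodeConj_nodeX, nodeY, nodeT] at h
      obtain ⟨hA, hB⟩ := eq_zero_of_add_eq_zero (A := A + B * PowerSeries.X) (B := -B) (p := p)
        (by rw [map_add, map_mul, map_neg]; linear_combination h)
      rw [neg_eq_zero] at hB
      rw [hB, zero_mul, add_zero] at hA
      exact hg (by rw [hA, hB]; simp)
  obtain ⟨m, Q, hQ, e⟩ := S.exists_eq_pow_mul hN
  exact key m _ (nodeConj (AdjoinRoot.of _ A + AdjoinRoot.of _ B * nodeX)) (AdjoinRoot.of _ Q)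
    (by rw [hδ]; exact hQ) (by rw [mul_nodeConj, e, map_mul, map_pow])

variable [IsDomain (Node R p)]

omit [IsDomain R] [IsDiscreteValuationRing R] [Fact p.Prime] [CharP k p] [IsDomain (Node R p)] in
lemma natCast_node_eq :
    (p : Node R p) = AdjoinRoot.of _ (PowerSeries.C S.ϖ) ^ p *
      AdjoinRoot.of _ (PowerSeries.C S.w) := by
  rw [← map_pow, ← map_mul, ← map_pow, ← map_mul, ← S.natCast_eq, map_natCast, map_natCast]

omit [CharP k p] [Fact (Nat.Prime p)] [IsDomain (Node R p)] in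
lemma of_C_ϖ_ne_zero : AdjoinRoot.of (nodePoly R p) (PowerSeries.C S.ϖ) ≠ 0 := fun e0 =>
  S.prime_C_ϖ.ne_zero (eq_zero_of_add_eq_zero (B := 0) (p := p) (by simpa using e0)).1

omit [IsDomain (Node R p)] [CharP k p] [Fact (Nat.Prime p)] in
lemma exists_eq_mul_of_map_res_eq_zero {A : PowerSeries R} (h : PowerSeries.map S.res A = 0) :
    ∃ A' : PowerSeries R, A = PowerSeries.C S.ϖ * A' := S.map_res_eq_zero_iff.1 h

omit [IsDomain (Node R p)] in
lemma dvd_of_fst_δzero {g : Node R p} (h : (S.δzero g).fst = 0) :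
    ∃ g', g * nodeY = AdjoinRoot.of _ (PowerSeries.C S.ϖ) * g' := by
  obtain ⟨A, B, rfl⟩ := exists_eq_add g
  rw [map_add, map_mul, δzero_of, δzero_of, δzero_nodeX, mul_zero, add_zero,
    S.fst_δS_eq_zero_iff] at h
  obtain ⟨A', rfl⟩ := S.exists_eq_mul_of_map_res_eq_zero h
  refine ⟨AdjoinRoot.of _ A' * nodeY + AdjoinRoot.of _ B *
    (AdjoinRoot.of _ (PowerSeries.C S.ϖ) ^ (p - 1) * AdjoinRoot.of _ (PowerSeries.C S.w)), ?_⟩
  have hp := S.natCast_node_eq
  have hxy := nodeX_mul_nodeY (R := R) (p := p)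
  have hsucc : AdjoinRoot.of (nodePoly R p) (PowerSeries.C S.ϖ) ^ p =
      AdjoinRoot.of _ (PowerSeries.C S.ϖ) * AdjoinRoot.of _ (PowerSeries.C S.ϖ) ^ (p - 1) := by
    rw [← pow_succ', Nat.sub_add_cancel (Fact.out : p.Prime).pos]
  rw [map_mul]
  linear_combination AdjoinRoot.of (nodePoly R p) B * (hxy + hp) +
    AdjoinRoot.of (nodePoly R p) B * AdjoinRoot.of _ (PowerSeries.C S.w) * hsucc

omit [IsDomain (Node R p)] in
lemma dvd_of_fst_δinf {g : Node R p} (h : (S.δinf g).fst = 0) :
    ∃ g', g * nodeX = AdjoinRoot.of _ (PowerSeries.C S.ϖ) * g' := by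
  obtain ⟨A, B, rfl⟩ := exists_eq_add g
  have h' : PowerSeries.map S.res (A + B * PowerSeries.X) = 0 := by
    rw [← S.fst_δS_eq_zero_iff, map_add, map_mul, ← S.δinf_of A, ← S.δinf_of B, ← S.δinf_nodeX,
      ← map_mul, ← map_add]
    exact h
  obtain ⟨A', hA⟩ := S.exists_eq_mul_of_map_res_eq_zero h'
  refine ⟨AdjoinRoot.of _ A' * nodeX - AdjoinRoot.of _ B *
    (AdjoinRoot.of _ (PowerSeries.C S.ϖ) ^ (p - 1) * AdjoinRoot.of _ (PowerSeries.C S.w)), ?_⟩
  have hA' : AdjoinRoot.of (nodePoly R p) A + AdjoinRoot.of _ B * AdjoinRoot.of _ PowerSeries.X =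
      AdjoinRoot.of _ (PowerSeries.C S.ϖ) * AdjoinRoot.of _ A' := by
    rw [← map_mul, ← map_add, hA, map_mul]
  have hp := S.natCast_node_eq
  have hxy := nodeX_mul_nodeY (R := R) (p := p)
  rw [nodeY, nodeT] at hxy
  have hsucc : AdjoinRoot.of (nodePoly R p) (PowerSeries.C S.ϖ) ^ p =
      AdjoinRoot.of _ (PowerSeries.C S.ϖ) * AdjoinRoot.of _ (PowerSeries.C S.ϖ) ^ (p - 1) := by
    rw [← pow_succ', Nat.sub_add_cancel (Fact.out : p.Prime).pos]
  linear_combination nodeX * hA' - AdjoinRoot.of (nodePoly R p) B * (hxy + hp) -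
    AdjoinRoot.of (nodePoly R p) B * AdjoinRoot.of _ (PowerSeries.C S.w) * hsucc

/-- The branch at infinity of a node. -/
noncomputable def infBranch : Branch (Node R p) (LaurentSeries k) where
  ϖ := AdjoinRoot.of _ (PowerSeries.C S.ϖ)
  δ := S.δinf
  ϖ_ne_zero := S.of_C_ϖ_ne_zero
  fst_ϖ := by rw [S.δinf_of]; exact S.discBranch.fst_ϖ
  decomp g hg := S.node_decomp S.δinf S.δinf_of nodeX
    (by rw [S.δinf_nodeX]; exact S.fst_δS_X_ne_zero) (fun _ h => S.dvd_of_fst_δinf h) g hg

/-- The other branch of a node. -/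
noncomputable def zeroBranch : Branch (Node R p) (LaurentSeries k) where
  ϖ := AdjoinRoot.of _ (PowerSeries.C S.ϖ)
  δ := S.δzero
  ϖ_ne_zero := S.of_C_ϖ_ne_zero
  fst_ϖ := by rw [S.δzero_of]; exact S.discBranch.fst_ϖ
  decomp g hg := S.node_decomp S.δzero S.δzero_of nodeY
    (by rw [S.δzero_nodeY]; exact S.fst_δS_X_ne_zero) (fun _ h => S.dvd_of_fst_δzero h) g hg

end Setup

end Fermat.Agent.LevelLowerP
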