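import Mathlib.RingTheory.MvPowerSeries.Equiv
import Mathlib.RingTheory.AdicCompletion.RingHom
import Fermat.Agent.LevelLowerP.Node

/-!
# Completeness of the node ring

Completeness of the node ring and evaluation of power series in it.

Main results: `evalSeries`, `isAdicComplete_nodeMax`.
-/

set_option autoImplicit false

namespace Fermat.Agent.LevelLowerP

open Polynomial
open scoped PowerSeries

section Generic

/-- Completeness with respect to an ideal `J` with `J ^ 2 ≤ I ≤ J`. -/
theorem isAdicComplete_of_sq_le {O : Type*} [CommRing O] {I J : Ideal O} [IsAdicComplete I O]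
    (hIJ : I ≤ J) (hJI : J ^ 2 ≤ I) : IsAdicComplete J O := by
  have h2 : ∀ n, J ^ (2 * n) ≤ I ^ n := fun n => by
    rw [pow_mul]; exact Ideal.pow_right_mono hJI n
  have hh : IsHausdorff J O := ⟨fun x hx => IsHausdorff.haus (I := I) inferInstance x fun n => by
    have := hx (2 * n)
    rw [SModEq.zero, smul_eq_mul, Ideal.mul_top] at this ⊢
    exact h2 n this⟩
  have hp : IsPrecomplete J O := ⟨fun f hf => by
    obtain ⟨L, hL⟩ := IsPrecomplete.prec' (I := I) (fun n => f (2 * n)) fun {m n} hmn => by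
      have := hf (m := 2 * m) (n := 2 * n) (by omega)
      rw [SModEq.sub_mem, smul_eq_mul, Ideal.mul_top] at this ⊢
      exact h2 m this
    refine ⟨L, fun n => ?_⟩
    have h1 := hf (m := n) (n := 2 * n) (by omega)
    have h3 := hL n
    rw [SModEq.sub_mem, smul_eq_mul, Ideal.mul_top] at h1 h3 ⊢
    have h4 : f (2 * n) - L ∈ J ^ n := Ideal.pow_right_mono hIJ n h3
    simpa using add_mem h1 h4⟩
  exact ⟨⟩

variable {σ R O : Type*} [Finite σ] [CommRing R] [CommRing O] (J : Ideal O) [IsAdicComplete J O]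
  (φ : R →+* O) (a : σ → O) (ha : ∀ s, a s ∈ J)

/-- Evaluation modulo `J ^ n`. -/
noncomputable def evalTrunc (n : ℕ) : MvPowerSeries σ R →+* O ⧸ J ^ n :=
  (Ideal.Quotient.lift (MvPolynomial.idealOfVars σ R ^ n)
    ((Ideal.Quotient.mk (J ^ n)).comp (MvPolynomial.eval₂Hom φ a)) (fun P hP => by
      rw [RingHom.comp_apply, Ideal.Quotient.eq_zero_iff_mem]
      have hle : (MvPolynomial.idealOfVars σ R).map (MvPolynomial.eval₂Hom φ a) ≤ J := by
        rw [MvPolynomial.idealOfVars, Ideal.map_span, Ideal.span_le]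
        rintro _ ⟨_, ⟨s, rfl⟩, rfl⟩
        simpa using ha s
      have := Ideal.mem_map_of_mem (MvPolynomial.eval₂Hom φ a) hP
      rw [Ideal.map_pow] at this
      exact Ideal.pow_right_mono hle n this)).comp
    (MvPowerSeries.truncTotalAlgHom σ R n).toRingHom

omit [IsAdicComplete J O] in
theorem evalTrunc_apply (n : ℕ) (f : MvPowerSeries σ R) :
    evalTrunc J φ a ha n f =
      Ideal.Quotient.mk (J ^ n) (MvPolynomial.eval₂Hom φ a (MvPowerSeries.truncTotal n f)) := rfl

omit [IsAdicComplete J O] in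
theorem evalTrunc_compat {m n : ℕ} (hle : m ≤ n) :
    (Ideal.Quotient.factorPow J hle).comp (evalTrunc J φ a ha n) = evalTrunc J φ a ha m :=
  RingHom.ext fun f => by
    rw [RingHom.comp_apply, evalTrunc_apply, evalTrunc_apply, Ideal.Quotient.factorPow,
      Ideal.Quotient.factor_mk, Ideal.Quotient.mk_eq_mk_iff_sub_mem, ← map_sub]
    have hle' : (MvPolynomial.idealOfVars σ R).map (MvPolynomial.eval₂Hom φ a) ≤ J := by
      rw [MvPolynomial.idealOfVars, Ideal.map_span, Ideal.span_le]
      rintro _ ⟨_, ⟨s, rfl⟩, rfl⟩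
      simpa using ha s
    have := Ideal.mem_map_of_mem (MvPolynomial.eval₂Hom φ a)
      (MvPowerSeries.truncTotal_sub_truncTotal_mem_pow_idealOfVars hle le_rfl f)
    rw [Ideal.map_pow] at this
    exact Ideal.pow_right_mono hle' m this

/-- Evaluation of power series at elements of `J` in a `J`-adically complete ring. -/
noncomputable def evalSeries : MvPowerSeries σ R →+* O :=
  IsAdicComplete.liftRingHom J (evalTrunc J φ a ha) (evalTrunc_compat J φ a ha)

theorem evalSeries_sub_eval_truncTotal (n : ℕ) (f : MvPowerSeries σ R) :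
    evalSeries J φ a ha f - MvPolynomial.eval₂Hom φ a (MvPowerSeries.truncTotal n f) ∈ J ^ n := by
  rw [← Ideal.Quotient.mk_eq_mk_iff_sub_mem, ← evalTrunc_apply J φ a ha n f]
  exact IsAdicComplete.mk_liftRingHom J _ (evalTrunc_compat J φ a ha) n f

theorem evalSeries_coe (P : MvPolynomial σ R) :
    evalSeries J φ a ha (P : MvPowerSeries σ R) = MvPolynomial.eval₂Hom φ a P := by
  refine sub_eq_zero.1 (IsHausdorff.haus (I := J) inferInstance _ fun n => ?_)
  rw [SModEq.zero, smul_eq_mul, Ideal.mul_top]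
  set m := max n (P.totalDegree + 1)
  have h := evalSeries_sub_eval_truncTotal J φ a ha m (P : MvPowerSeries σ R)
  rw [(MvPowerSeries.truncTotal_coe_eq_self_iff P (by omega)).2 (by omega)] at h
  exact Ideal.pow_le_pow_right (le_max_left _ _) h

theorem evalSeries_C (r : R) : evalSeries J φ a ha (MvPowerSeries.C r) = φ r := by
  rw [← MvPolynomial.coe_C, evalSeries_coe]; simp

theorem evalSeries_X (s : σ) : evalSeries J φ a ha (MvPowerSeries.X s) = a s := by
  rw [← MvPolynomial.coe_X, evalSeries_coe]; simp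

end Generic

section NodeRing

variable {R : Type*} [CommRing R] {p : ℕ}

/-- The ideal `(ϖ, T)` of `R⟦T⟧`. -/
noncomputable def seriesIdeal (ϖ : R) : Ideal (PowerSeries R) :=
  Ideal.span {PowerSeries.C ϖ, PowerSeries.X}

lemma dvd_coeff_of_mem (ϖ : R) {n : ℕ} {f : PowerSeries R} (hf : f ∈ seriesIdeal ϖ ^ n) (i : ℕ) :
    ϖ ^ (n - i) ∣ PowerSeries.coeff i f := by
  induction n generalizing f i with
  | zero => simp
  | succ m ih =>
    rw [pow_succ] at hf
    revert i
    refine Submodule.mul_induction_on hf ?_ fun x y hx hy i => by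
      rw [map_add]; exact dvd_add (hx i) (hy i)
    · intro a ha b hb i
      obtain ⟨u, v, rfl⟩ := Ideal.mem_span_pair.1 hb
      rw [mul_add, map_add]
      refine dvd_add ?_ ?_
      · rw [← mul_assoc, mul_comm, PowerSeries.coeff_C_mul, PowerSeries.coeff_mul]
        rcases Nat.eq_zero_or_pos (m + 1 - i) with h | h
        · simp [h]
        rw [show m + 1 - i = (m - i) + 1 by omega, pow_succ', Finset.mul_sum]
        refine Finset.dvd_sum fun x hx => mul_dvd_mul_left ϖ (dvd_mul_of_dvd_left ?_ _)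
        have := (Finset.HasAntidiagonal.mem_antidiagonal.1 hx)
        exact (pow_dvd_pow ϖ (by omega)).trans (ih ha x.1)
      · rw [← mul_assoc, mul_comm]
        rcases i with _ | j
        · simp
        · rw [PowerSeries.coeff_succ_X_mul, PowerSeries.coeff_mul]
          refine Finset.dvd_sum fun x hx => dvd_mul_of_dvd_left ?_ _
          have := (Finset.HasAntidiagonal.mem_antidiagonal.1 hx)
          exact (pow_dvd_pow ϖ (by omega)).trans (ih ha x.1)

lemma mem_of_dvd_coeff (ϖ : R) : ∀ (n : ℕ) (f : PowerSeries R),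
    (∀ i < n, ϖ ^ (n - i) ∣ PowerSeries.coeff i f) → f ∈ seriesIdeal ϖ ^ n := by
  intro n
  induction n with
  | zero => intro f _; simp
  | succ m ih =>
    intro f hf
    obtain ⟨c, hc⟩ := hf 0 (by omega)
    have hsplit : f = PowerSeries.C ϖ ^ (m + 1) * PowerSeries.C c +
        PowerSeries.X * PowerSeries.mk fun i => PowerSeries.coeff (i + 1) f := by
      ext i
      rcases i with _ | j
      · rw [map_add, ← map_pow, ← map_mul, PowerSeries.coeff_C, if_pos rfl,
          PowerSeries.coeff_zero_X_mul, add_zero]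
        simpa using hc
      · rw [map_add, ← map_pow, ← map_mul, PowerSeries.coeff_C, if_neg (Nat.succ_ne_zero j),
          PowerSeries.coeff_succ_X_mul, zero_add, PowerSeries.coeff_mk]
    rw [hsplit]
    refine Ideal.add_mem _ (Ideal.mul_mem_right _ _ (Ideal.pow_mem_pow ?_ _)) ?_
    · exact Ideal.subset_span (by simp)
    · rw [pow_succ']
      refine Ideal.mul_mem_mul (Ideal.subset_span (by simp)) (ih _ fun i hi => ?_)
      rw [PowerSeries.coeff_mk]
      have := hf (i + 1) (by omega)
      rwa [show m + 1 - (i + 1) = m - i by omega] at this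

theorem isAdicComplete_series (ϖ : R) [IsAdicComplete (Ideal.span {ϖ}) R] :
    IsAdicComplete (seriesIdeal ϖ) (PowerSeries R) := by
  have hh : IsHausdorff (seriesIdeal ϖ) (PowerSeries R) := ⟨fun f hf => PowerSeries.ext fun i => by
    rw [map_zero]
    refine IsHausdorff.haus (I := Ideal.span {ϖ}) inferInstance _ fun n => ?_
    have h := hf (n + i)
    rw [SModEq.zero, smul_eq_mul, Ideal.mul_top] at h ⊢
    rw [Ideal.span_singleton_pow, Ideal.mem_span_singleton]
    have h' := dvd_coeff_of_mem ϖ h i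
    rwa [Nat.add_sub_cancel] at h'⟩
  have hp : IsPrecomplete (seriesIdeal ϖ) (PowerSeries R) := ⟨fun f hf => by
    have hdiv : ∀ i {m n}, m ≤ n →
        ϖ ^ (m - i) ∣ PowerSeries.coeff i (f m) - PowerSeries.coeff i (f n) :=
      fun i {m n} hmn => by
        have h := hf hmn
        rw [SModEq.sub_mem, smul_eq_mul, Ideal.mul_top] at h
        simpa using dvd_coeff_of_mem ϖ h i
    have hlim : ∀ i, ∃ l : R, ∀ n, ϖ ^ n ∣ PowerSeries.coeff i (f (n + i)) - l := fun i => by
      obtain ⟨l, hl⟩ := IsPrecomplete.prec' (I := Ideal.span {ϖ})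
        (fun n => PowerSeries.coeff i (f (n + i))) fun {m n} hmn => by
          rw [SModEq.sub_mem, smul_eq_mul, Ideal.mul_top, Ideal.span_singleton_pow,
            Ideal.mem_span_singleton]
          have := hdiv i (m := m + i) (n := n + i) (by omega)
          rwa [Nat.add_sub_cancel] at this
      exact ⟨l, fun n => by
        have := hl n
        rwa [SModEq.sub_mem, smul_eq_mul, Ideal.mul_top, Ideal.span_singleton_pow,
          Ideal.mem_span_singleton] at this⟩
    choose l hl using hlim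
    refine ⟨PowerSeries.mk l, fun n => ?_⟩
    rw [SModEq.sub_mem, smul_eq_mul, Ideal.mul_top]
    refine mem_of_dvd_coeff ϖ n _ fun i hi => ?_
    have h1 := hl i (n - i)
    rw [Nat.sub_add_cancel hi.le] at h1
    simpa using h1⟩
  exact ⟨⟩

/-- The ideal `(ϖ, T)` of the node ring. -/
noncomputable def nodeIdeal (ϖ : R) (p : ℕ) : Ideal (Node R p) :=
  (seriesIdeal ϖ).map (AdjoinRoot.of (nodePoly R p))

variable [Nontrivial R]

lemma mem_map_of_iff (I : Ideal (PowerSeries R)) (A B : PowerSeries R) :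
    AdjoinRoot.of (nodePoly R p) A + AdjoinRoot.of _ B * nodeX ∈
      I.map (AdjoinRoot.of (nodePoly R p)) ↔ A ∈ I ∧ B ∈ I := by
  refine ⟨fun h => ?_, fun ⟨hA, hB⟩ =>
    add_mem (Ideal.mem_map_of_mem _ hA) (Ideal.mul_mem_right _ _ (Ideal.mem_map_of_mem _ hB))⟩
  have key : ∀ g ∈ I.map (AdjoinRoot.of (nodePoly R p)), ∀ A B, g = AdjoinRoot.of _ A +
      AdjoinRoot.of _ B * nodeX → A ∈ I ∧ B ∈ I := by
    intro g hg
    refine Submodule.span_induction ?_ ?_ ?_ ?_ hg
    · rintro _ ⟨x, hx, rfl⟩ A B e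
      obtain ⟨hA, hB⟩ := eq_zero_of_add_eq_zero (A := A - x) (B := B) (p := p)
        (by rw [map_sub]; linear_combination -e)
      exact ⟨by rw [sub_eq_zero.1 hA]; exact hx, by rw [hB]; exact I.zero_mem⟩
    · intro A B e
      obtain ⟨hA, hB⟩ := eq_zero_of_add_eq_zero e.symm
      exact ⟨hA ▸ I.zero_mem, hB ▸ I.zero_mem⟩
    · intro x y _ _ hx hy A B e
      obtain ⟨A', B', rfl⟩ := exists_eq_add x
      obtain ⟨hA', hB'⟩ := hx A' B' rfl
      obtain ⟨hA'', hB''⟩ := hy (A - A') (B - B') (by rw [map_sub, map_sub]; linear_combination e)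
      exact ⟨by simpa using add_mem hA' hA'', by simpa using add_mem hB' hB''⟩
    · intro c x _ hx A B e
      obtain ⟨A', B', rfl⟩ := exists_eq_add x
      obtain ⟨hA', hB'⟩ := hx A' B' rfl
      obtain ⟨C, D, rfl⟩ := exists_eq_add c
      have hxy := nodeX_mul_nodeY (R := R) (p := p)
      rw [nodeY, nodeT] at hxy
      obtain ⟨hA, hB⟩ := eq_zero_of_add_eq_zero (p := p)
        (A := A - (C * A' - D * B' * (p : PowerSeries R)))
        (B := B - (C * B' + D * A' + D * B' * PowerSeries.X)) (by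
          rw [smul_eq_mul] at e
          simp only [map_sub, map_add, map_mul, map_natCast]
          linear_combination -e - AdjoinRoot.of (nodePoly R p) D * AdjoinRoot.of _ B' * hxy)
      rw [sub_eq_zero.1 hA, sub_eq_zero.1 hB]
      exact ⟨I.sub_mem (I.mul_mem_left _ hA') (I.mul_mem_right _ (I.mul_mem_left _ hB')),
        I.add_mem (I.add_mem (I.mul_mem_left _ hB') (I.mul_mem_left _ hA'))
          (I.mul_mem_right _ (I.mul_mem_left _ hB'))⟩
  exact key _ h A B rfl

theorem isAdicComplete_nodeIdeal (ϖ : R) [IsAdicComplete (Ideal.span {ϖ}) R] :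
    IsAdicComplete (nodeIdeal ϖ p) (Node R p) := by
  have := isAdicComplete_series ϖ
  have hpow : ∀ n, nodeIdeal ϖ p ^ n = (seriesIdeal ϖ ^ n).map (AdjoinRoot.of (nodePoly R p)) :=
    fun n => by rw [nodeIdeal, Ideal.map_pow]
  have hh : IsHausdorff (nodeIdeal ϖ p) (Node R p) := ⟨fun g hg => by
    obtain ⟨A, B, rfl⟩ := exists_eq_add g
    have h : ∀ n, A ∈ seriesIdeal ϖ ^ n ∧ B ∈ seriesIdeal ϖ ^ n := fun n => by
      have := hg n
      rw [SModEq.zero, smul_eq_mul, Ideal.mul_top, hpow, mem_map_of_iff] at this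
      exact this
    have hA : A = 0 := IsHausdorff.haus (I := seriesIdeal ϖ) inferInstance _ fun n => by
      rw [SModEq.zero, smul_eq_mul, Ideal.mul_top]; exact (h n).1
    have hB : B = 0 := IsHausdorff.haus (I := seriesIdeal ϖ) inferInstance _ fun n => by
      rw [SModEq.zero, smul_eq_mul, Ideal.mul_top]; exact (h n).2
    simp [hA, hB]⟩
  have hp : IsPrecomplete (nodeIdeal ϖ p) (Node R p) := ⟨fun f hf => by
    choose A B hAB using fun n => exists_eq_add (f n)
    have hc : ∀ {m n}, m ≤ n → A m - A n ∈ seriesIdeal ϖ ^ m ∧ B m - B n ∈ seriesIdeal ϖ ^ m :=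
      fun {m n} hmn => by
        have := hf hmn
        rw [SModEq.sub_mem, smul_eq_mul, Ideal.mul_top, hpow, hAB m, hAB n] at this
        rw [← mem_map_of_iff (p := p)]
        rw [map_sub, map_sub]
        convert this using 1
        ring
    obtain ⟨LA, hLA⟩ := IsPrecomplete.prec' (I := seriesIdeal ϖ) A fun {m n} hmn => by
      rw [SModEq.sub_mem, smul_eq_mul, Ideal.mul_top]; exact (hc hmn).1
    obtain ⟨LB, hLB⟩ := IsPrecomplete.prec' (I := seriesIdeal ϖ) B fun {m n} hmn => by
      rw [SModEq.sub_mem, smul_eq_mul, Ideal.mul_top]; exact (hc hmn).2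
    refine ⟨AdjoinRoot.of _ LA + AdjoinRoot.of _ LB * nodeX, fun n => ?_⟩
    have h1 := hLA n
    have h2 := hLB n
    rw [SModEq.sub_mem, smul_eq_mul, Ideal.mul_top] at h1 h2 ⊢
    rw [hpow, hAB n]
    have := (mem_map_of_iff (p := p) _ _ _).2 ⟨h1, h2⟩
    rw [map_sub, map_sub] at this
    convert this using 1
    ring⟩
  exact ⟨⟩

/-- The maximal ideal `(ϖ, X, Y)` of the node ring. -/
noncomputable def nodeMax (ϖ : R) (p : ℕ) : Ideal (Node R p) :=
  nodeIdeal ϖ p ⊔ Ideal.span {nodeX}

omit [Nontrivial R] in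
lemma nodeX_mem_nodeMax (ϖ : R) : (nodeX : Node R p) ∈ nodeMax ϖ p :=
  Ideal.mem_sup_right (Ideal.mem_span_singleton_self _)

omit [Nontrivial R] in
lemma nodeY_mem_nodeMax (ϖ : R) : (nodeY : Node R p) ∈ nodeMax ϖ p :=
  Ideal.sub_mem _ (Ideal.mem_sup_left (Ideal.mem_map_of_mem _ (Ideal.subset_span (by simp))))
    (nodeX_mem_nodeMax ϖ)

/-- The node ring is complete for `nodeMax`. -/
theorem isAdicComplete_nodeMax (ϖ : R) [IsAdicComplete (Ideal.span {ϖ}) R]
    (hp : ϖ ∣ (p : R)) : IsAdicComplete (nodeMax ϖ p) (Node R p) := by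
  have := isAdicComplete_nodeIdeal (p := p) ϖ
  refine isAdicComplete_of_sq_le (I := nodeIdeal ϖ p) le_sup_left ?_
  rw [nodeMax, sq, Ideal.sup_mul, Ideal.mul_sup, Ideal.mul_sup]
  refine sup_le (sup_le Ideal.mul_le_left Ideal.mul_le_left) (sup_le Ideal.mul_le_right ?_)
  rw [Ideal.span_singleton_mul_span_singleton, Ideal.span_singleton_le_iff_mem]
  have e : (nodeX * nodeX : Node R p) = nodeT * nodeX - (p : Node R p) := by
    rw [← nodeX_mul_nodeY (p := p), nodeY]; ring
  rw [e]
  refine Ideal.sub_mem _ (Ideal.mul_mem_right _ _ (Ideal.mem_map_of_mem _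
    (Ideal.subset_span (by simp)))) ?_
  obtain ⟨c, hc⟩ := hp
  have : (p : Node R p) =
      AdjoinRoot.of _ (PowerSeries.C ϖ) * AdjoinRoot.of _ (PowerSeries.C c) := by
    rw [← map_mul, ← map_mul, ← hc, map_natCast, map_natCast]
  rw [this]
  exact Ideal.mul_mem_right _ _ (Ideal.mem_map_of_mem _ (Ideal.subset_span (by simp)))

end NodeRing

end Fermat.Agent.LevelLowerP
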