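import Fermat.Agent.LevelLowerP.GeoBase
import Fermat.Agent.LevelLowerP.GeoExpansion
import Fermat.Agent.LevelLowerP.Node
import Fermat.Agent.LevelLowerP.NodeComplete

/-!
# The parametrisation of a node: `(b - a ^ p) (b ^ p - a) + p g(a, b) = 0` in the node ring
-/

set_option autoImplicit false

noncomputable section

namespace Fermat.Agent.LevelLowerP

open Polynomial TrivSqZeroExt
open scoped LaurentSeries PowerSeries

section Branches

variable {p : ℕ} {R k : Type*} [CommRing R] [IsDomain R] [IsDiscreteValuationRing R] [Field k]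
  [CharP k p] [Fact p.Prime] (S : Setup p R k)

omit [IsDomain R] [IsDiscreteValuationRing R] [Fact (Nat.Prime p)] in
theorem splitδ_natCast : (splitDual k).comp (PowerSeries.map S.δ) (p : R⟦X⟧) = 0 := by
  have : CharP k⟦X⟧ p := charP_of_injective_ringHom PowerSeries.C_injective p
  rw [map_natCast, ← TrivSqZeroExt.inl_natCast, CharP.cast_eq_zero, TrivSqZeroExt.inl_zero]

/-- The branch at infinity, with power series values. -/
def δinfP : Node R p →+* DualNumber k⟦X⟧ :=
  AdjoinRoot.lift ((splitDual k).comp (PowerSeries.map S.δ))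
    ((splitDual k).comp (PowerSeries.map S.δ) PowerSeries.X) (by
    rw [eval₂_nodePoly, ← map_natCast ((splitDual k).comp (PowerSeries.map S.δ)),
      splitδ_natCast S]
    ring)

/-- The other branch, with power series values. -/
def δzeroP : Node R p →+* DualNumber k⟦X⟧ :=
  AdjoinRoot.lift ((splitDual k).comp (PowerSeries.map S.δ)) 0 (by
    rw [eval₂_nodePoly, ← map_natCast ((splitDual k).comp (PowerSeries.map S.δ)),
      splitδ_natCast S]
    ring)

omit [IsDiscreteValuationRing R] [Fact (Nat.Prime p)] in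
theorem δinf_eq (g : Node R p) :
    S.δinf g = dualMap (HahnSeries.ofPowerSeries ℤ k) (δinfP S g) := by
  obtain ⟨A, B, rfl⟩ := exists_eq_add g
  rw [map_add, map_mul, S.δinf_of, S.δinf_of, S.δinf_nodeX]
  simp only [map_add, map_mul, δinfP, nodeX, AdjoinRoot.lift_of, AdjoinRoot.lift_root]
  rfl

omit [IsDiscreteValuationRing R] [Fact (Nat.Prime p)] in
theorem δzero_eq (g : Node R p) :
    S.δzero g = dualMap (HahnSeries.ofPowerSeries ℤ k) (δzeroP S g) := by
  obtain ⟨A, B, rfl⟩ := exists_eq_add g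
  rw [map_add, map_mul, S.δzero_of, S.δzero_of, S.δzero_nodeX]
  simp only [map_add, map_mul, δzeroP, nodeX, AdjoinRoot.lift_of, AdjoinRoot.lift_root, map_zero]
  rfl

omit [IsDomain R] [IsDiscreteValuationRing R] [CharP k p] [Fact p.Prime] in
theorem splitδ_X : (splitDual k).comp (PowerSeries.map S.δ) PowerSeries.X = inl PowerSeries.X := by
  rw [RingHom.comp_apply, PowerSeries.map_X]
  refine TrivSqZeroExt.ext ?_ ?_
  · ext n
    rw [coeff_fst_splitDual, fst_inl, PowerSeries.coeff_X, PowerSeries.coeff_X,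
      apply_ite TrivSqZeroExt.fst]
    simp
  · ext n
    rw [coeff_snd_splitDual, snd_inl, map_zero, PowerSeries.coeff_X, apply_ite TrivSqZeroExt.snd]
    simp

omit [IsDomain R] [IsDiscreteValuationRing R] [Fact (Nat.Prime p)] in
theorem δinfP_nodeX : δinfP S (nodeX : Node R p) = inl PowerSeries.X :=
  (AdjoinRoot.lift_root _).trans (splitδ_X S)

omit [IsDomain R] [IsDiscreteValuationRing R] [Fact (Nat.Prime p)] in
theorem δinfP_nodeY : δinfP S (nodeY : Node R p) = inl 0 := by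
  rw [nodeY, map_sub, nodeT, δinfP, AdjoinRoot.lift_of, nodeX, AdjoinRoot.lift_root, sub_self,
    TrivSqZeroExt.inl_zero]

omit [IsDomain R] [IsDiscreteValuationRing R] [Fact (Nat.Prime p)] in
theorem δzeroP_nodeX : δzeroP S (nodeX : Node R p) = inl 0 :=
  (AdjoinRoot.lift_root _).trans (TrivSqZeroExt.inl_zero (R := k⟦X⟧) (M := k⟦X⟧)).symm

omit [IsDomain R] [IsDiscreteValuationRing R] [Fact (Nat.Prime p)] in
theorem δzeroP_nodeY : δzeroP S (nodeY : Node R p) = inl PowerSeries.X := by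
  rw [nodeY, map_sub, δzeroP_nodeX, TrivSqZeroExt.inl_zero, sub_zero, nodeT, δzeroP,
    AdjoinRoot.lift_of, splitδ_X]

end Branches

section Dual

variable {k : Type*} [CommRing k]

/-- Dual series with derivative divisible by `T ^ m`. -/
def sndDvd (m : ℕ) : Subring (DualNumber k⟦X⟧) where
  carrier := {x | PowerSeries.X ^ m ∣ x.snd}
  one_mem' := by simp
  zero_mem' := by simp
  add_mem' hx hy := by simpa using dvd_add hx hy
  neg_mem' hx := by simpa using hx
  mul_mem' {x y} hx hy := by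
    show _ ∣ (x * y).snd
    rw [DualNumber.snd_mul]
    exact dvd_add (dvd_mul_of_dvd_right hy _) (dvd_mul_of_dvd_left hx _)

theorem mem_sndDvd {m : ℕ} {x : DualNumber k⟦X⟧} :
    x ∈ sndDvd m ↔ PowerSeries.X ^ m ∣ x.snd := Iff.rfl

theorem inl_mem_sndDvd (m : ℕ) (f : k⟦X⟧) : (inl f : DualNumber k⟦X⟧) ∈ sndDvd m := by
  simp [mem_sndDvd]

theorem snd_pow_char (p : ℕ) [Fact p.Prime] [CharP k p] (x : DualNumber k⟦X⟧) :
    (x ^ p).snd = 0 := by
  rw [TrivSqZeroExt.snd_pow, nsmul_eq_mul, smul_eq_mul]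
  have : (p : k⟦X⟧) = 0 := by
    rw [← map_natCast (PowerSeries.C : k →+* k⟦X⟧), CharP.cast_eq_zero, map_zero]
  rw [this, zero_mul]

end Dual

variable {p : ℕ} {R k : Type} [CommRing R] [IsDomain R] [IsDiscreteValuationRing R] [Field k]
  [CharP k p] [Fact p.Prime] {S : Setup p R k} (U : Unram S)

/-- The constants in the node ring. -/
def nodeConst : U.R₀ →+* Node R p :=
  ((AdjoinRoot.of (nodePoly R p)).comp PowerSeries.C).comp U.R₀.subtype

/-- The maximal ideal of the node ring. -/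
abbrev nodeJ (S : Setup p R k) : Ideal (Node R p) := nodeMax S.ϖ p

omit [CharP k p] in
theorem isAdicComplete_nodeJ (S : Setup p R k) : IsAdicComplete (nodeJ S) (Node R p) := by
  have := S.complete
  exact isAdicComplete_nodeMax S.ϖ
    (S.natCast_eq ▸ dvd_mul_of_dvd_left (dvd_pow_self _ (Fact.out : p.Prime).ne_zero) _)

/-- Evaluation of series at an element of the maximal ideal. -/
def evalNode (a : Node R p) (ha : a ∈ nodeJ S) : U.R₀⟦X⟧ →+* Node R p :=
  haveI := isAdicComplete_nodeJ S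
  evalSeries (σ := Unit) (nodeJ S) (nodeConst U) (fun _ => a) (fun _ => ha)

omit [CharP k p] in
theorem evalNode_C (a : Node R p) (ha : a ∈ nodeJ S) (r : U.R₀) :
    evalNode U a ha (PowerSeries.C r) = nodeConst U r :=
  haveI := isAdicComplete_nodeJ S
  evalSeries_C (σ := Unit) (nodeJ S) (nodeConst U) (fun _ => a) (fun _ => ha) r

omit [CharP k p] in
theorem evalNode_X (a : Node R p) (ha : a ∈ nodeJ S) :
    evalNode U a ha PowerSeries.X = a :=
  haveI := isAdicComplete_nodeJ S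
  evalSeries_X (σ := Unit) (nodeJ S) (nodeConst U) (fun _ => a) (fun _ => ha) ()

omit [CharP k p] in
theorem exists_poly_approx (a : Node R p) (_ha : a ∈ nodeJ S) (n : ℕ) (f : U.R₀⟦X⟧) :
    ∃ P : MvPolynomial Unit U.R₀, ∀ (a' : Node R p) (ha' : a' ∈ nodeJ S),
      evalNode U a' ha' f - MvPolynomial.eval₂Hom (nodeConst U) (fun _ => a') P ∈ nodeJ S ^ n :=
  ⟨MvPowerSeries.truncTotal n f, fun a' ha' =>
    haveI := isAdicComplete_nodeJ S
    evalSeries_sub_eval_truncTotal (σ := Unit) (nodeJ S) (nodeConst U) (fun _ => a')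
      (fun _ => ha') n f⟩

omit [CharP k p] in
theorem evalNode_congr {a a' : Node R p} (ha : a ∈ nodeJ S) (ha' : a' ∈ nodeJ S) {n : ℕ}
    (h : a - a' ∈ nodeJ S ^ n) (f : U.R₀⟦X⟧) :
    evalNode U a ha f - evalNode U a' ha' f ∈ nodeJ S ^ n := by
  obtain ⟨P, hP⟩ := exists_poly_approx U a ha n f
  have h1 := hP a ha
  have h2 := hP a' ha'
  have h3 : MvPolynomial.eval₂Hom (nodeConst U) (fun _ => a) P -
      MvPolynomial.eval₂Hom (nodeConst U) (fun _ => a') P ∈ nodeJ S ^ n := by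
    rw [← Ideal.Quotient.mk_eq_mk_iff_sub_mem, MvPolynomial.map_eval₂Hom,
      MvPolynomial.map_eval₂Hom]
    congr 1
    rw [show (fun _ : Unit => Ideal.Quotient.mk (nodeJ S ^ n) a) =
      fun _ => Ideal.Quotient.mk (nodeJ S ^ n) a' from
      funext fun _ => Ideal.Quotient.mk_eq_mk_iff_sub_mem _ _ |>.2 h]
  have h4 := add_mem (sub_mem h1 h2) h3
  convert h4 using 1
  ring

omit [CharP k p] in
theorem eval₂_congr {a a' b b' : Node R p} (ha : a ∈ nodeJ S) (ha' : a' ∈ nodeJ S) {n : ℕ}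
    (h : a - a' ∈ nodeJ S ^ n) (h' : b - b' ∈ nodeJ S ^ n) (g : U.R₀⟦X⟧[X]) :
    g.eval₂ (evalNode U a ha) b - g.eval₂ (evalNode U a' ha') b' ∈ nodeJ S ^ n := by
  rw [← Ideal.Quotient.mk_eq_mk_iff_sub_mem, Polynomial.hom_eval₂, Polynomial.hom_eval₂,
    (Ideal.Quotient.mk_eq_mk_iff_sub_mem b b').2 h']
  congr 1
  exact RingHom.ext fun f => (Ideal.Quotient.mk_eq_mk_iff_sub_mem _ _).2
    (evalNode_congr U ha ha' h f)

omit [IsDomain R] [IsDiscreteValuationRing R] [CharP k p] in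
theorem pow_sub_pow_mem {b b' : Node R p} {n : ℕ} (hb : b ∈ nodeJ S) (hb' : b' ∈ nodeJ S)
    (h : b - b' ∈ nodeJ S ^ n) : b ^ p - b' ^ p ∈ nodeJ S ^ (n + 1) := by
  rw [← geom_sum₂_mul, pow_succ']
  refine Ideal.mul_mem_mul (Submodule.sum_mem _ fun i _ => ?_) h
  have h2 := (Fact.out : p.Prime).two_le
  rcases i with _ | i
  · exact Ideal.mul_mem_left _ _ (Ideal.pow_mem_of_mem _ hb' _ (by omega))
  · exact Ideal.mul_mem_right _ _ (Ideal.pow_mem_of_mem _ hb _ (by omega))

variable (g : U.R₀⟦X⟧[X])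

open Classical in
/-- One step of the iteration solving the node equations. -/
def nodeStep (q : Node R p × Node R p) : Node R p × Node R p :=
  if h : q.1 ∈ nodeJ S then
    (q.2 ^ p + nodeX * g.eval₂ (evalNode U q.1 h) q.2, nodeY + q.1 ^ p)
  else 0

/-- The iterates. -/
def nodeSeq : ℕ → Node R p × Node R p
  | 0 => 0
  | n + 1 => nodeStep U g (nodeSeq n)

omit [CharP k p] in
theorem nodeStep_eq {q : Node R p × Node R p} (h : q.1 ∈ nodeJ S) :
    nodeStep U g q = (q.2 ^ p + nodeX * g.eval₂ (evalNode U q.1 h) q.2, nodeY + q.1 ^ p) := by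
  rw [nodeStep, dif_pos h]

omit [CharP k p] in
theorem nodeSeq_mem (n : ℕ) : (nodeSeq U g n).1 ∈ nodeJ S ∧ (nodeSeq U g n).2 ∈ nodeJ S := by
  induction n with
  | zero => exact ⟨zero_mem _, zero_mem _⟩
  | succ n ih =>
    rw [nodeSeq, nodeStep_eq U g ih.1]
    exact ⟨add_mem (Ideal.pow_mem_of_mem _ ih.2 _ (Fact.out : p.Prime).pos)
        (Ideal.mul_mem_right _ _ (nodeX_mem_nodeMax _)),
      add_mem (nodeY_mem_nodeMax _) (Ideal.pow_mem_of_mem _ ih.1 _ (Fact.out : p.Prime).pos)⟩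

omit [CharP k p] in
theorem nodeStep_congr {q q' : Node R p × Node R p} {n : ℕ} (h : q.1 ∈ nodeJ S)
    (h' : q'.1 ∈ nodeJ S) (k2 : q.2 ∈ nodeJ S) (k2' : q'.2 ∈ nodeJ S)
    (h1 : q.1 - q'.1 ∈ nodeJ S ^ n) (h2 : q.2 - q'.2 ∈ nodeJ S ^ n) :
    (nodeStep U g q).1 - (nodeStep U g q').1 ∈ nodeJ S ^ (n + 1) ∧
      (nodeStep U g q).2 - (nodeStep U g q').2 ∈ nodeJ S ^ (n + 1) := by
  rw [nodeStep_eq U g h, nodeStep_eq U g h']
  refine ⟨?_, ?_⟩
  · show q.2 ^ p + nodeX * _ - (q'.2 ^ p + nodeX * _) ∈ _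
    rw [add_sub_add_comm, ← mul_sub]
    refine add_mem (pow_sub_pow_mem k2 k2' h2) ?_
    rw [pow_succ']
    exact Ideal.mul_mem_mul (nodeX_mem_nodeMax _) (eval₂_congr U h h' h1 h2 g)
  · show nodeY + q.1 ^ p - (nodeY + q'.1 ^ p) ∈ _
    rw [add_sub_add_left_eq_sub]
    exact pow_sub_pow_mem h h' h1

omit [CharP k p] in
/-- The node equations have a solution. -/
theorem exists_node_solution : ∃ (a b : Node R p) (ha : a ∈ nodeJ S), b ∈ nodeJ S ∧
    a = b ^ p + nodeX * g.eval₂ (evalNode U a ha) b ∧ b = nodeY + a ^ p := by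
  have := isAdicComplete_nodeJ S
  have hcauchy : ∀ n, (nodeSeq U g n).1 - (nodeSeq U g (n + 1)).1 ∈ nodeJ S ^ n ∧
      (nodeSeq U g n).2 - (nodeSeq U g (n + 1)).2 ∈ nodeJ S ^ n := by
    intro n
    induction n with
    | zero => simp
    | succ n ih =>
      exact nodeStep_congr U g (nodeSeq_mem U g n).1 (nodeSeq_mem U g (n + 1)).1
        (nodeSeq_mem U g n).2 (nodeSeq_mem U g (n + 1)).2 ih.1 ih.2
  have hlim : ∀ (π : Node R p × Node R p → Node R p),
      (∀ n, π (nodeSeq U g n) - π (nodeSeq U g (n + 1)) ∈ nodeJ S ^ n) →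
      ∃ L, ∀ n, π (nodeSeq U g n) - L ∈ nodeJ S ^ n := by
    intro π hπ
    have hc : ∀ m d, π (nodeSeq U g m) - π (nodeSeq U g (m + d)) ∈ nodeJ S ^ m := by
      intro m d
      induction d with
      | zero => simp
      | succ d ih =>
        have := add_mem ih (Ideal.pow_le_pow_right (Nat.le_add_right m d) (hπ (m + d)))
        simpa [add_assoc] using this
    obtain ⟨L, hL⟩ := IsPrecomplete.prec' (I := nodeJ S) (fun n => π (nodeSeq U g n))
      fun {m n} hmn => by
        rw [SModEq.sub_mem, smul_eq_mul, Ideal.mul_top]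
        obtain ⟨d, rfl⟩ := Nat.exists_eq_add_of_le hmn
        exact hc m d
    refine ⟨L, fun n => ?_⟩
    have := hL n
    rwa [SModEq.sub_mem, smul_eq_mul, Ideal.mul_top] at this
  obtain ⟨a, ha'⟩ := hlim Prod.fst fun n => (hcauchy n).1
  obtain ⟨b, hb'⟩ := hlim Prod.snd fun n => (hcauchy n).2
  have ha : a ∈ nodeJ S := by
    have := sub_mem (nodeSeq_mem U g 1).1 (Ideal.pow_le_self one_ne_zero (ha' 1))
    simpa using this
  have hb : b ∈ nodeJ S := by
    have := sub_mem (nodeSeq_mem U g 1).2 (Ideal.pow_le_self one_ne_zero (hb' 1))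
    simpa using this
  refine ⟨a, b, ha, hb, ?_⟩
  have hfix : ∀ n, (nodeStep U g (a, b)).1 - a ∈ nodeJ S ^ n ∧
      (nodeStep U g (a, b)).2 - b ∈ nodeJ S ^ n := by
    intro n
    obtain ⟨h1, h2⟩ := nodeStep_congr U g (q := (a, b)) (q' := nodeSeq U g n) ha
      (nodeSeq_mem U g n).1 hb (nodeSeq_mem U g n).2
      (by simpa using neg_mem (ha' n)) (by simpa using neg_mem (hb' n))
    have h3 := Ideal.pow_le_pow_right (Nat.le_succ n) (add_mem h1 (ha' (n + 1)))
    have h4 := Ideal.pow_le_pow_right (Nat.le_succ n) (add_mem h2 (hb' (n + 1)))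
    simp only [nodeSeq] at h3 h4
    exact ⟨by simpa using h3, by simpa using h4⟩
  have e1 := sub_eq_zero.1 (IsHausdorff.haus' (I := nodeJ S) (M := Node R p) _ fun n => by
    rw [SModEq.zero, smul_eq_mul, Ideal.mul_top]; exact (hfix n).1)
  have e2 := sub_eq_zero.1 (IsHausdorff.haus' (I := nodeJ S) (M := Node R p) _ fun n => by
    rw [SModEq.zero, smul_eq_mul, Ideal.mul_top]; exact (hfix n).2)
  rw [nodeStep_eq U g ha] at e1 e2
  exact ⟨e1.symm, e2.symm⟩

section Branch

variable (δ : Node R p →+* DualNumber k⟦X⟧)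
  (hC : ∀ r : R, δ (AdjoinRoot.of (nodePoly R p) (PowerSeries.C r)) =
    (splitDual k).comp (PowerSeries.map S.δ) (PowerSeries.C r))
  {ξ η : k⟦X⟧} (hX : δ nodeX = inl ξ) (hY : δ nodeY = inl η)
  (hξ : PowerSeries.X ∣ ξ) (hη : PowerSeries.X ∣ η)

include hC

omit [IsDomain R] [IsDiscreteValuationRing R] [CharP k p] [Fact (Nat.Prime p)] in
theorem δ_nodeConst (r : U.R₀) :
    δ (nodeConst U r) = inl (PowerSeries.C (U.res₀ r)) := by
  show δ (AdjoinRoot.of (nodePoly R p) (PowerSeries.C (r : R))) = _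
  rw [hC, RingHom.comp_apply, PowerSeries.map_C]
  refine TrivSqZeroExt.ext ?_ ?_
  · ext n
    rw [coeff_fst_splitDual, fst_inl, PowerSeries.coeff_C, PowerSeries.coeff_C,
      apply_ite TrivSqZeroExt.fst]
    simp [Unram.res₀_apply, Setup.res_apply]
  · ext n
    rw [coeff_snd_splitDual, snd_inl, map_zero, PowerSeries.coeff_C, apply_ite TrivSqZeroExt.snd]
    simp [U.snd_eq _ r.2]

include hX hY hξ hη

omit [IsDomain R] [IsDiscreteValuationRing R] [CharP k p] [Fact (Nat.Prime p)] in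
theorem δ_mem_pow {n : ℕ} {x : Node R p} (hx : x ∈ nodeJ S ^ n) :
    PowerSeries.X ^ n ∣ (δ x).fst ∧ PowerSeries.X ^ (n - 1) ∣ (δ x).snd := by
  have hT : δ nodeT = inl (ξ + η) := by
    rw [← nodeX_add_nodeY, map_add, hX, hY, TrivSqZeroExt.inl_add]
  have hJ : ∀ x ∈ nodeJ S, PowerSeries.X ∣ (δ x).fst := by
    intro x hx
    have hle : nodeJ S ≤ (Ideal.span {(PowerSeries.X : k⟦X⟧)}).comap
        ((TrivSqZeroExt.fstHom k⟦X⟧ k⟦X⟧ k⟦X⟧).toRingHom.comp δ) := by
      refine sup_le (Ideal.map_le_iff_le_comap.2 (Ideal.span_le.2 ?_)) (Ideal.span_le.2 ?_)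
      · rintro y (rfl | rfl) <;>
          simp only [SetLike.mem_coe, Ideal.mem_comap, RingHom.comp_apply,
            Ideal.mem_span_singleton, AlgHom.toRingHom_eq_coe, RingHom.coe_coe, fstHom_apply]
        · rw [hC, RingHom.comp_apply, PowerSeries.map_C]
          refine PowerSeries.X_dvd_iff.2 ?_
          rw [← PowerSeries.coeff_zero_eq_constantCoeff_apply, coeff_fst_splitDual,
            PowerSeries.coeff_zero_C, ← Setup.res_apply, S.res_ϖ]
        · rw [show AdjoinRoot.of (nodePoly R p) PowerSeries.X = nodeT from rfl, hT, fst_inl]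
          exact dvd_add hξ hη
      · rintro y rfl
        simp only [SetLike.mem_coe, Ideal.mem_comap, RingHom.comp_apply, Ideal.mem_span_singleton,
          AlgHom.toRingHom_eq_coe, RingHom.coe_coe, fstHom_apply, hX, fst_inl]
        exact hξ
    simpa [Ideal.mem_span_singleton] using hle hx
  induction n generalizing x with
  | zero => simp
  | succ n ih =>
    rw [pow_succ] at hx
    induction hx using Submodule.mul_induction_on' with
    | mem_mul_mem a ha c hc =>
      obtain ⟨h1, h2⟩ := ih ha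
      rw [map_mul, TrivSqZeroExt.fst_mul, DualNumber.snd_mul, Nat.add_sub_cancel, pow_succ]
      refine ⟨mul_dvd_mul h1 (hJ c hc), dvd_add (dvd_mul_of_dvd_left h1 _) ?_⟩
      rcases n with _ | n
      · simp
      · rw [Nat.add_sub_cancel] at h2
        rw [pow_succ]
        exact mul_dvd_mul h2 (hJ c hc)
    | add a _ b _ ha hb =>
      rw [map_add, TrivSqZeroExt.fst_add, TrivSqZeroExt.snd_add]
      exact ⟨dvd_add ha.1 hb.1, dvd_add ha.2 hb.2⟩

omit [CharP k p] in
theorem δ_evalNode_mem {a : Node R p} (ha : a ∈ nodeJ S) {m : ℕ} (hm : δ a ∈ sndDvd m)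
    (f : U.R₀⟦X⟧) : δ (evalNode U a ha f) ∈ sndDvd m := by
  obtain ⟨P, hP⟩ := exists_poly_approx U a ha (m + 1) f
  have h1 : ∀ Q : MvPolynomial Unit U.R₀,
      δ (MvPolynomial.eval₂Hom (nodeConst U) (fun _ => a) Q) ∈ sndDvd m := fun Q => by
    induction Q using MvPolynomial.induction_on with
    | C r => simp [δ_nodeConst U δ hC, inl_mem_sndDvd]
    | add P Q hP hQ => rw [map_add, map_add]; exact add_mem hP hQ
    | mul_X P s h => rw [map_mul, map_mul, MvPolynomial.eval₂Hom_X']; exact mul_mem h hm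
  have h2 : δ (evalNode U a ha f - MvPolynomial.eval₂Hom (nodeConst U) (fun _ => a) P) ∈
      sndDvd m :=
    mem_sndDvd.2 (δ_mem_pow δ hC hX hY hξ hη (hP a ha)).2
  have := add_mem h2 (h1 P)
  rwa [map_sub, sub_add_cancel] at this

theorem snd_δ_solution {a b : Node R p} {g : U.R₀⟦X⟧[X]} (ha : a ∈ nodeJ S)
    (e1 : a = b ^ p + nodeX * g.eval₂ (evalNode U a ha) b) (e2 : b = nodeY + a ^ p) :
    (δ a).snd = 0 ∧ (δ b).snd = 0 := by
  have hb : (δ b).snd = 0 := by
    rw [e2, map_add, map_pow, TrivSqZeroExt.snd_add, hY, snd_inl, snd_pow_char p, add_zero]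
  refine ⟨?_, hb⟩
  have hm : ∀ m, δ a ∈ sndDvd m := by
    intro m
    induction m with
    | zero => simp [mem_sndDvd]
    | succ m ih =>
      have hg : δ (g.eval₂ (evalNode U a ha) b) ∈ sndDvd m := by
        rw [Polynomial.eval₂_eq_sum_range, map_sum]
        refine sum_mem fun i _ => ?_
        rw [map_mul, map_pow]
        exact mul_mem (δ_evalNode_mem U δ hC hX hY hξ hη ha ih _)
          (pow_mem (mem_sndDvd.2 (hb ▸ dvd_zero _)) i)
      obtain ⟨c, hc⟩ := hξ
      rw [mem_sndDvd] at hg ⊢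
      rw [e1, map_add, map_pow, map_mul, TrivSqZeroExt.snd_add, snd_pow_char p, zero_add, hX,
        DualNumber.snd_mul, fst_inl, snd_inl, zero_mul, add_zero, pow_succ, hc,
        mul_comm (PowerSeries.X : k⟦X⟧) c, mul_assoc]
      exact dvd_mul_of_dvd_right (mul_comm (PowerSeries.X : k⟦X⟧) (δ _).snd ▸
        mul_dvd_mul_right hg _) _
  refine PowerSeries.ext fun i => ?_
  have := mem_sndDvd.1 (hm (i + 1))
  rw [PowerSeries.X_pow_dvd_iff] at this
  rw [map_zero]
  exact this i (by omega)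

/-- Series are seen through their reductions along either branch. -/
theorem exists_sigma {a b : Node R p} {g : U.R₀⟦X⟧[X]} (ha : a ∈ nodeJ S)
    (e1 : a = b ^ p + nodeX * g.eval₂ (evalNode U a ha) b) (e2 : b = nodeY + a ^ p) :
    ∃ σ : k⟦X⟧ →+* k⟦X⟧, (∀ c, σ (PowerSeries.C c) = PowerSeries.C c) ∧
      σ PowerSeries.X = (δ a).fst ∧
      (∀ f, PowerSeries.constantCoeff (σ f) = PowerSeries.constantCoeff f) ∧
      ∀ f, δ (evalNode U a ha f) = inl (σ (PowerSeries.map U.res₀ f)) := by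
  have hsnd : ∀ f, (δ (evalNode U a ha f)).snd = 0 := fun f => by
    refine PowerSeries.ext fun i => ?_
    have := mem_sndDvd.1 (δ_evalNode_mem U δ hC hX hY hξ hη ha (m := i + 1)
      (mem_sndDvd.2 ((snd_δ_solution U δ hC hX hY hξ hη ha e1 e2).1 ▸ dvd_zero _)) f)
    rw [PowerSeries.X_pow_dvd_iff] at this
    rw [map_zero]
    exact this i (by omega)
  let F : U.R₀⟦X⟧ →+* k⟦X⟧ :=
    (TrivSqZeroExt.fstHom k⟦X⟧ k⟦X⟧ k⟦X⟧).toRingHom.comp (δ.comp (evalNode U a ha))
  have hFC : ∀ r, F (PowerSeries.C r) = PowerSeries.C (U.res₀ r) := fun r => by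
    show (δ (evalNode U a ha (PowerSeries.C r))).fst = _
    rw [evalNode_C, δ_nodeConst U δ hC, fst_inl]
  have hsurj : Function.Surjective (PowerSeries.map U.res₀) := fun f => by
    choose r hr using fun n => U.res₀_surjective (PowerSeries.coeff n f)
    exact ⟨PowerSeries.mk r, PowerSeries.ext fun n => by simp [hr]⟩
  have hker : RingHom.ker (PowerSeries.map U.res₀) ≤ RingHom.ker F := by
    intro f hf
    rw [RingHom.mem_ker] at hf ⊢
    have h0 : ∀ n, ∃ c, PowerSeries.coeff n f = ((p : ℕ) : U.R₀) * c := fun n =>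
      U.res₀_eq_zero_iff.1 (by simpa using congrArg (PowerSeries.coeff n) hf)
    choose c hc using h0
    have hf' : f = PowerSeries.C ((p : ℕ) : U.R₀) * PowerSeries.mk c :=
      PowerSeries.ext fun n => by rw [PowerSeries.coeff_C_mul, PowerSeries.coeff_mk, hc]
    rw [hf', map_mul, hFC, map_natCast, CharP.cast_eq_zero, map_zero, zero_mul]
  let σ := RingHom.liftOfSurjective (PowerSeries.map U.res₀) hsurj ⟨F, hker⟩
  have hσ : ∀ f, σ (PowerSeries.map U.res₀ f) = F f := fun f =>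
    RingHom.liftOfRightInverse_comp_apply _ _ _ ⟨F, hker⟩ f
  have hσC : ∀ c, σ (PowerSeries.C c) = PowerSeries.C c := fun c => by
    obtain ⟨r, rfl⟩ := U.res₀_surjective c
    exact ((congrArg σ (PowerSeries.map_C _ r).symm).trans (hσ _)).trans (hFC r)
  have hσX : σ PowerSeries.X = (δ a).fst := by
    rw [← PowerSeries.map_X U.res₀, hσ]
    show (δ (evalNode U a ha PowerSeries.X)).fst = _
    rw [evalNode_X]
  refine ⟨σ, hσC, hσX, fun f => ?_, fun f => ?_⟩
  · obtain ⟨f', hf'⟩ : (PowerSeries.X : k⟦X⟧) ∣ f - PowerSeries.C (PowerSeries.constantCoeff f) :=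
      PowerSeries.X_dvd_iff.2 (by simp)
    have h1 := congrArg (fun x => PowerSeries.constantCoeff (σ x)) hf'
    have h2 := (δ_mem_pow δ hC hX hY hξ hη (n := 1) (x := a) (by rwa [pow_one])).1
    simp only [map_sub, map_mul, hσC, hσX, PowerSeries.constantCoeff_C] at h1
    rw [pow_one, PowerSeries.X_dvd_iff] at h2
    rwa [h2, zero_mul, sub_eq_zero] at h1
  · refine TrivSqZeroExt.ext ?_ ?_
    · rw [fst_inl, hσ]; rfl
    · rw [snd_inl, hsnd]

end Branch

end Fermat.Agent.LevelLowerP
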