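import Fermat.Agent.LevelLowerP.GeoNodeAux
import Fermat.Agent.LevelLowerP.GeoNodeSeries
import Fermat.Agent.LevelLowerP.GeoBdd
import Fermat.Agent.LevelLowerP.GeoLiftPairs
import Fermat.Agent.LevelLowerP.Defs
import Mathlib.RingTheory.Henselian
import Fermat.Agent.LevelLowerP.GeoCharPoly

/-!
# The nodes over the supersingular points
-/

set_option autoImplicit false

noncomputable section

namespace Fermat.Agent.LevelLowerP

open Polynomial ModularCurve Fermat.Agent.Igusa AlgebraicCurve Fermat.Agent.FF TrivSqZeroExt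
open scoped LaurentSeries PowerSeries

/-- If two additive maps have complementary kernels and one is nonzero, the other vanishes. -/
theorem eq_zero_of_cover {A B C : Type*} [AddCommGroup A] [AddCommGroup B] [AddCommGroup C]
    (f : A →+ B) (g : A →+ C) (h : ∀ a, f a = 0 ∨ g a = 0) {a₀ : A} (h₀ : f a₀ ≠ 0) (a : A) :
    g a = 0 := by
  rcases h a with ha | ha
  · have h1 := (h (a + a₀)).resolve_left (by rwa [map_add, ha, zero_add])
    rwa [map_add, (h a₀).resolve_left h₀, add_zero] at h1
  · exact ha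

section Series

variable {k : Type*} [Field k]

theorem theta_ofPowerSeries_ne_zero {f : k⟦X⟧} (h : PowerSeries.coeff 1 f ≠ 0) :
    theta k (HahnSeries.ofPowerSeries ℤ k f) ≠ 0 := fun h0 => by
  have := congrArg (fun s : LaurentSeries k => s.coeff ((1 : ℕ) : ℤ)) h0
  rw [theta_coeff, HahnSeries.ofPowerSeries_apply_coeff] at this
  exact h (by simpa using this)

theorem coeff_one_of_X_sq_dvd {f : k⟦X⟧} (h : PowerSeries.X ^ 2 ∣ f) : PowerSeries.coeff 1 f = 0 :=
  PowerSeries.X_pow_dvd_iff.1 h 1 (by norm_num)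

theorem isPow_of_isPow_pow {p : ℕ} (hp : p ≠ 0) {x : LaurentSeries k} (h : IsPow (x ^ p)) :
    IsPow x := by
  rcases eq_or_ne x 0 with rfl | hx
  · exact ⟨0, by simp⟩
  obtain ⟨a, ha⟩ := h
  have h0 : 0 ≤ (x ^ p).order := by
    by_contra hlt
    exact mt HahnSeries.coeff_order_eq_zero.1 (pow_ne_zero p hx)
      (ha ▸ ofPowerSeries_coeff_of_neg a (not_le.1 (ha ▸ hlt)))
  rw [order_natPow hx] at h0
  have h1 : 0 ≤ x.order := by
    by_contra hlt
    have : (p : ℤ) * x.order < 0 := mul_neg_of_pos_of_neg (by omega) (not_le.1 hlt)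
    omega
  obtain ⟨n, hn⟩ := Int.eq_ofNat_of_zero_le h1
  refine ⟨PowerSeries.X ^ n * x.powerSeriesPart, ?_⟩
  conv_lhs => rw [← LaurentSeries.single_order_mul_powerSeriesPart x]
  rw [map_mul, map_pow, HahnSeries.ofPowerSeries_X, HahnSeries.single_pow, one_pow, hn]
  simp

end Series

variable {p : ℕ} {R k : Type} [CommRing R] [IsDomain R] [IsDiscreteValuationRing R] [Field k]
  [CharP k p] [Fact p.Prime] [CharZero R] {S : Setup p R k} (U : Unram S) (M : ℕ) [NeZero M]
  [IsAlgClosed k] [Algebra (ZMod p) k] [Algebra.IsAlgebraic (ZMod p) k] (hpM : ¬ p ∣ M)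

section Basic

omit [IsAlgClosed k] [Algebra (ZMod p) k] [Algebra.IsAlgebraic (ZMod p) k] [CharZero R]
  [IsDomain R] [IsDiscreteValuationRing R] [CharP k p] [Fact p.Prime] in
theorem natCast_mem_nodeJ : (p : Node R p) ∈ nodeJ S := by
  rw [← nodeX_mul_nodeY]
  exact (nodeJ S).mul_mem_right _ (nodeX_mem_nodeMax S.ϖ)

omit [CharZero R] [IsAlgClosed k] [Algebra (ZMod p) k] [Algebra.IsAlgebraic (ZMod p) k]
    [IsDomain R] [IsDiscreteValuationRing R] [Fact (Nat.Prime p)] in
theorem δinf_const (r : R) :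
    S.δinf (AdjoinRoot.of (nodePoly R p) (PowerSeries.C r)) = dualMap HahnSeries.C (S.δ r) := by
  rw [S.δinf_of, δS_C]

omit [CharZero R] [IsAlgClosed k] [Algebra (ZMod p) k] [Algebra.IsAlgebraic (ZMod p) k]
    [IsDomain R] [IsDiscreteValuationRing R] [Fact (Nat.Prime p)] in
theorem δzero_const (r : R) :
    S.δzero (AdjoinRoot.of (nodePoly R p) (PowerSeries.C r)) = dualMap HahnSeries.C (S.δ r) := by
  rw [S.δzero_of, δS_C]

omit [IsDiscreteValuationRing R] in
/-- `Φ` on reductions of the rational chart is the `p`th power. -/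
theorem phiK_redA_chartHom (y : ratChart p M) :
    phiK p k M (redA U M hpM (chartHom U M y)) = redA U M hpM (chartHom U M y) ^ p := by
  apply Subtype.val_injective
  rw [coe_phiK, SubmonoidClass.coe_pow, chartHom_apply, coe_redA_chartOf, chartRed_apply,
    ← coeffMap_qExpand, qExpand_eq_pow, map_pow]

omit [IsDiscreteValuationRing R] in
theorem baseHom_redA_chartHom (f : k →+* k) (y : ratChart p M) :
    baseHom f M (redA U M hpM (chartHom U M y)) = redA U M hpM (chartHom U M y) := by
  apply Subtype.val_injective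
  rw [coe_baseHom, chartHom_apply, coe_redA_chartOf, chartRed_apply, coeffMap_coeffMap,
    RingHom.ext_zmod (f.comp (ZMod.castHom dvd_rfl k)) (ZMod.castHom dvd_rfl k)]

end Basic

variable (v : Place k (modularFunctionFieldFullC k M)) (hv : 0 ≤ v.ord (jC k M))

/-- The rational parameter in the chart. -/
abbrev hA : chartA U M := chartHom U M (hRat U M hpM v hv)

/-- The chart in the node ring, by substituting `a` for the parameter. -/
def nodeA (a : Node R p) (ha : a ∈ nodeJ S) : chartA U M →+* Node R p :=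
  (evalNode U a ha).comp (discA U M hpM v hv)

include hpM hv

theorem nodeA_hA (a : Node R p) (ha : a ∈ nodeJ S) :
    nodeA U M hpM v hv a ha (hA U M hpM v hv) = a := by
  show evalNode U a ha (discA U M hpM v hv (chartOf U M (hRat U M hpM v hv))) = a
  rw [discA_hRat, evalNode_X]

theorem nodeA_algebraMap (a : Node R p) (ha : a ∈ nodeJ S) (r : U.R₀) :
    nodeA U M hpM v hv a ha (algebraMap U.R₀ _ r) =
      AdjoinRoot.of (nodePoly R p) (PowerSeries.C (r : R)) := by
  rw [nodeA, RingHom.comp_apply, discA_algebraMap, evalNode_C]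
  rfl

theorem ePt_hA : ePt U M hpM v hv (redA U M hpM (hA U M hpM v hv)) =
    ((PowerSeries.X : k⟦X⟧) : LaurentSeries k) := by
  show ePt U M hpM v hv (redA U M hpM (chartOf U M (hRat U M hpM v hv))) = _
  rw [ePt_hRat, HahnSeries.ofPowerSeries_X]

/-- The parametrisation of the node over a supersingular point. -/
theorem exists_node_param (h2 : nuTwo M = 0) (h3 : nuThree M = 0)
    (hss : (ePt U M hpM v hv (hasseK p k M)).coeff 0 = 0) :
    ∃ (P G : (ratChart p M)[X]) (a b : Node R p) (ha : a ∈ nodeJ S) (ξ β : k⟦X⟧)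
      (σI σ₀ : k⟦X⟧ →+* k⟦X⟧),
      (P.Monic ∧ P.natDegree = p + 1 ∧
        P.eval₂ (ratChart p M).subtype
          (qExpand (ZL p) p (hRat U M hpM v hv : LaurentSeries (ZL p))) = 0 ∧
        P = (X - C (hRat U M hpM v hv ^ p)) * (X ^ p - C (hRat U M hpM v hv)) +
          C (p : ratChart p M) * G ∧
        P.eval₂ ((nodeA U M hpM v hv a ha).comp (chartHom U M)) b = 0) ∧
      (δinfP S b = inl (ξ ^ p) ∧ δzeroP S b = inl β) ∧
      (PowerSeries.constantCoeff ξ = 0 ∧ PowerSeries.coeff 1 ξ ≠ 0) ∧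
      (PowerSeries.constantCoeff β = 0 ∧ PowerSeries.coeff 1 β ≠ 0) ∧
      (σI PowerSeries.X = ξ ∧ σ₀ PowerSeries.X = β ^ p) ∧
      (∀ f, PowerSeries.constantCoeff (σI f) = PowerSeries.constantCoeff f) ∧
      (∀ f, PowerSeries.constantCoeff (σ₀ f) = PowerSeries.constantCoeff f) ∧
      (∀ x, δinfP S (nodeA U M hpM v hv a ha x) = inl (σI (discK U M hpM v hv x))) ∧
      ∀ x, δzeroP S (nodeA U M hpM v hv a ha x) = inl (σ₀ (discK U M hpM v hv x)) := by
  obtain ⟨P, G, hPm, hPd, hP, hPG⟩ := exists_charPoly_mod p M hpM (hRat U M hpM v hv)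
  set g := G.map ((discA U M hpM v hv).comp (chartHom U M)) with hg
  obtain ⟨a, b, ha, hb, e1, e2⟩ := exists_node_solution U g
  set χ := (nodeA U M hpM v hv a ha).comp (chartHom U M)
  have hχh : χ (hRat U M hpM v hv) = a := nodeA_hA U M hpM v hv a ha
  have hroot : P.eval₂ χ b = 0 := by
    have hgg : G.eval₂ χ b = g.eval₂ (evalNode U a ha) b := by
      rw [hg, eval₂_map]
      rfl
    rw [hPG]
    simp only [eval₂_add, eval₂_mul, eval₂_sub, eval₂_X, eval₂_C, eval₂_X_pow]
    rw [map_natCast, map_pow, hχh, hgg, ← nodeX_mul_nodeY]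
    linear_combination (b ^ p - a) * e2 + (-nodeY) * e1
  have hCI : ∀ r : R, δinfP S (AdjoinRoot.of (nodePoly R p) (PowerSeries.C r)) =
      (splitDual k).comp (PowerSeries.map S.δ) (PowerSeries.C r) := fun r => AdjoinRoot.lift_of _
  have hC0 : ∀ r : R, δzeroP S (AdjoinRoot.of (nodePoly R p) (PowerSeries.C r)) =
      (splitDual k).comp (PowerSeries.map S.δ) (PowerSeries.C r) := fun r => AdjoinRoot.lift_of _
  obtain ⟨sIa, sIb⟩ := snd_δ_solution U (δinfP S) hCI (δinfP_nodeX S) (δinfP_nodeY S) dvd_rfl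
    (dvd_zero _) ha e1 e2
  obtain ⟨s0a, s0b⟩ := snd_δ_solution U (δzeroP S) hC0 (δzeroP_nodeX S) (δzeroP_nodeY S)
    (dvd_zero _) dvd_rfl ha e1 e2
  obtain ⟨σI, -, hIX, hIc, hI⟩ := exists_sigma U (δinfP S) hCI (δinfP_nodeX S) (δinfP_nodeY S)
    dvd_rfl (dvd_zero _) ha e1 e2
  obtain ⟨σ₀, -, h0X, h0c, h0⟩ := exists_sigma U (δzeroP S) hC0 (δzeroP_nodeX S) (δzeroP_nodeY S)
    (dvd_zero _) dvd_rfl ha e1 e2
  set ξ := (δinfP S a).fst with hξ
  set β := (δzeroP S b).fst with hβ
  have hδb : δinfP S b = inl (ξ ^ p) := TrivSqZeroExt.ext (by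
    rw [fst_inl, e2, map_add, map_pow, δinfP_nodeY, TrivSqZeroExt.fst_add, fst_inl, zero_add,
      TrivSqZeroExt.fst_pow]) (by rw [snd_inl, sIb])
  have hδb0 : δzeroP S b = inl β := TrivSqZeroExt.ext (by rw [fst_inl]) (by rw [snd_inl, s0b])
  have hX2 : ∀ {f : k⟦X⟧}, PowerSeries.constantCoeff f = 0 →
      PowerSeries.X ^ 2 ∣ (f ^ p) ^ p := fun {f} hf => by
    rw [← pow_mul]
    exact (pow_dvd_pow_of_dvd (PowerSeries.X_dvd_iff.2 hf) 2).trans
      (pow_dvd_pow f ((Fact.out : p.Prime).two_le.trans (Nat.le_mul_self p)))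
  have hξ0 : PowerSeries.constantCoeff ξ = 0 := by
    have := (δ_mem_pow (δinfP S) hCI (δinfP_nodeX S) (δinfP_nodeY S) dvd_rfl (dvd_zero _)
      (n := 1) (x := a) (by rwa [pow_one])).1
    rwa [pow_one, PowerSeries.X_dvd_iff] at this
  have hβ0 : PowerSeries.constantCoeff β = 0 := by
    have := (δ_mem_pow (δzeroP S) hC0 (δzeroP_nodeX S) (δzeroP_nodeY S) (dvd_zero _) dvd_rfl
      (n := 1) (x := b) (by rwa [pow_one])).1
    rwa [pow_one, PowerSeries.X_dvd_iff] at this
  have hξe : ξ = (ξ ^ p) ^ p + PowerSeries.X * (δinfP S (g.eval₂ (evalNode U a ha) b)).fst := by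
    conv_lhs => rw [hξ, e1]
    rw [map_add, map_pow, map_mul, δinfP_nodeX, hδb, TrivSqZeroExt.fst_add,
      TrivSqZeroExt.fst_pow, fst_inl, TrivSqZeroExt.fst_mul, fst_inl]
  let ev : Node R p →+* k := (PowerSeries.constantCoeff).comp
    ((TrivSqZeroExt.fstHom k⟦X⟧ k⟦X⟧ k⟦X⟧).toRingHom.comp (δinfP S))
  have hg0 : ev (g.eval₂ (evalNode U a ha) b) =
      evalPt U M hpM v hv (chartHom U M (G.coeff 0)) := by
    have hb0 : ev b = 0 := by
      show PowerSeries.constantCoeff (δinfP S b).fst = 0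
      rw [hδb, fst_inl, map_pow, hξ0, zero_pow (NeZero.ne p)]
    rw [hom_eval₂, hb0, eval₂_at_zero, hg, coeff_map, ← constantCoeff_discK]
    show PowerSeries.constantCoeff (δinfP S (evalNode U a ha _)).fst = _
    rw [hI, fst_inl, hIc]
    rfl
  have hξ1 : PowerSeries.coeff 1 ξ ≠ 0 := by
    rw [hξe, map_add, coeff_one_of_X_sq_dvd (hX2 hξ0), zero_add, PowerSeries.coeff_succ_X_mul,
      PowerSeries.coeff_zero_eq_constantCoeff_apply]
    exact hg0.symm ▸ evalPt_coeff_ne_zero U M hpM v hv h2 h3 hss hP hPG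
  have hδa0 : δzeroP S a = inl (β ^ p) := TrivSqZeroExt.ext (by
    rw [fst_inl, e1, map_add, map_pow, map_mul, δzeroP_nodeX, TrivSqZeroExt.inl_zero, zero_mul,
      add_zero, TrivSqZeroExt.fst_pow]) (by rw [snd_inl, s0a])
  have hβ1 : PowerSeries.coeff 1 β ≠ 0 := by
    have h : β = PowerSeries.X + (β ^ p) ^ p := by
      conv_lhs => rw [hβ, e2]
      rw [map_add, map_pow, δzeroP_nodeY, hδa0, TrivSqZeroExt.fst_add, fst_inl,
        TrivSqZeroExt.fst_pow, fst_inl]
    rw [h, map_add, coeff_one_of_X_sq_dvd (hX2 hβ0), add_zero, PowerSeries.coeff_one_X]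
    exact one_ne_zero
  refine ⟨P, G, a, b, ha, ξ, β, σI, σ₀, ⟨hPm, hPd, hP, hPG, hroot⟩, ⟨hδb, hδb0⟩, ⟨hξ0, hξ1⟩,
    ⟨hβ0, hβ1⟩, ⟨hIX, ?_⟩, hIc, h0c, fun x => hI _, fun x => h0 _⟩
  rw [h0X, hδa0, fst_inl]

variable [IsDomain (Node R p)]

/-- Residues of `f(pτ)` along a branch of a node: roots of the reduced equation. -/
theorem exists_scaleRes {B : Branch (Node R p) (LaurentSeries k)}
    (ι : modularFunctionFieldFullC (FractionRing R) (M * p) →+* FractionRing (Node R p))
    {a : Node R p} {ha : a ∈ nodeJ S}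
    (hinc : ∀ x, ι (inclP M p (toF U M x)) = algebraMap _ _ (nodeA U M hpM v hv a ha x))
    (E : modularFunctionFieldFullC k M →+* LaurentSeries k)
    (hB : ∀ x, B.δ (nodeA U M hpM v hv a ha x) = inl (E (redA U M hpM x))) :
    ∃ f : chartA U M →+* B.intRing (FractionRing (Node R p)),
      (∀ x, (f x : FractionRing (Node R p)) = ι (scaleP M p (toF U M x))) ∧
      (∀ r, (f (algebraMap U.R₀ _ r) : FractionRing (Node R p)) =
        algebraMap _ _ (AdjoinRoot.of (nodePoly R p) (PowerSeries.C (r : R)))) ∧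
      ∀ y : ratChart p M,
        (B.intδ (f (chartHom U M y))).fst - E (redA U M hpM (chartHom U M y)) ^ p = 0 ∨
          (B.intδ (f (chartHom U M y))).fst ^ p - E (redA U M hpM (chartHom U M y)) = 0 := by
  have : CharP (LaurentSeries k) p := charP_of_injective_ringHom HahnSeries.C_injective p
  let ψ : ratChart p M →+* B.intRing (FractionRing (Node R p)) :=
    (((algebraMap (Node R p) (FractionRing (Node R p))).comp
      (nodeA U M hpM v hv a ha)).comp (chartHom U M)).codRestrict _ fun u => B.isInt_algebraMap _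
  have hψ : ∀ u, (B.intδ (ψ u)).fst = E (redA U M hpM (chartHom U M u)) := fun u => by
    rw [show ψ u = ⟨algebraMap _ _ (nodeA U M hpM v hv a ha (chartHom U M u)),
      B.isInt_algebraMap _⟩ from rfl, B.intδ_algebraMap, hB, fst_inl]
  have hconst : ∀ r : U.R₀, ι (scaleP M p (toF U M (algebraMap U.R₀ _ r))) =
      algebraMap _ _ (AdjoinRoot.of (nodePoly R p) (PowerSeries.C (r : R))) := fun r => by
    rw [← nodeA_algebraMap U M hpM v hv a ha, ← hinc, toF_algebraMap, cF_scaleP, cF_inclP]
  have hrat : ∀ y : ratChart p M, ∃ z : B.intRing (FractionRing (Node R p)),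
      (z : FractionRing (Node R p)) = ι (scaleP M p (toF U M (chartHom U M y))) ∧
      ((B.intδ z).fst - E (redA U M hpM (chartHom U M y)) ^ p = 0 ∨
        (B.intδ z).fst ^ p - E (redA U M hpM (chartHom U M y)) = 0) := by
    intro y
    obtain ⟨P, G, hPm, -, hP, hPG⟩ := exists_charPoly_mod p M hpM y
    set z := ι (scaleP M p (toF U M (chartHom U M y)))
    have hroot : P.eval₂ ((B.intRing (FractionRing (Node R p))).subtype.comp ψ) z = 0 := by
      have := congrArg ι (eval₂_scale_eq_zero U M hP)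
      rw [map_zero, eval₂_map, hom_eval₂] at this
      rw [← this]
      congr 1
      exact RingHom.ext fun u => (hinc _).symm
    have hz : B.BGe 0 z := Branch.bGe_zero_of_root (hPm.map _)
      (fun i => by rw [coeff_map]; exact Branch.mem_intRing_iff_bGe.1 (ψ _).2)
      (by rw [eval_map]; exact hroot)
    let z' : B.intRing (FractionRing (Node R p)) := ⟨z, Branch.mem_intRing_iff_bGe.2 hz⟩
    have hroot' : P.eval₂ ψ z' = 0 := Subtype.ext
      ((hom_eval₂ P ψ (B.intRing (FractionRing (Node R p))).subtype z').trans hroot)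
    refine ⟨z', rfl, ?_⟩
    let ρ : B.intRing (FractionRing (Node R p)) →+* LaurentSeries k :=
      (TrivSqZeroExt.fstHom (LaurentSeries k) (LaurentSeries k) (LaurentSeries k)).toRingHom.comp
        B.intδ
    have h' := congrArg ρ hroot'
    rw [map_zero, hom_eval₂, hPG] at h'
    simp only [eval₂_add, eval₂_mul, eval₂_sub, eval₂_X, eval₂_C, eval₂_X_pow] at h'
    rw [map_natCast, CharP.cast_eq_zero, zero_mul, add_zero, map_pow] at h'
    change ((B.intδ z').fst - (B.intδ (ψ y)).fst ^ p) *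
      ((B.intδ z').fst ^ p - (B.intδ (ψ y)).fst) = 0 at h'
    rw [hψ] at h'
    exact mul_eq_zero.1 h'
  have hint : ∀ x, B.IsInt (ι (scaleP M p (toF U M x))) := fun x => by
    induction x using chartA_induction U M with
    | hc r => rw [hconst]; exact B.isInt_algebraMap _
    | hy y => obtain ⟨z, hz, -⟩ := hrat y; exact hz ▸ z.2
    | ha x y hx hy => simp only [RingHom.map_add]; exact hx.add hy
    | hm x y hx hy => simp only [map_mul]; exact hx.mul hy
  refine ⟨((ι.comp (scaleP M p)).comp (toF U M)).codRestrict _ hint, fun x => rfl, hconst,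
    fun y => ?_⟩
  obtain ⟨z, hz, hz'⟩ := hrat y
  rw [show ((ι.comp (scaleP M p)).comp (toF U M)).codRestrict _ hint (chartHom U M y) = z from
    Subtype.ext hz.symm]
  exact hz'

/-- The node over a supersingular point. -/
theorem exists_node (h2 : nuTwo M = 0) (h3 : nuThree M = 0)
    (hss : (ePt U M hpM v hv (hasseK p k M)).coeff 0 = 0) :
    ∃ N : LocalNode (infGB S M hpM) (zeroGB S M hpM),
      (∀ z, z ≠ 0 → (N.eI z).order = v.ord z) ∧
      (∀ z, z ≠ 0 → (N.e₀ z).order = v.ord (baseHom (frobenius k p) M z)) ∧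
      (∃ c : Node R p, N.ι (inclP M p (jC (FractionRing R) M)) = algebraMap _ _ c) ∧
      ∀ x : chartA U M, ∃ α β : k⟦X⟧,
        N.eI (phiK p k M (redA U M hpM x)) = (α : LaurentSeries k) ∧
        N.e₀ (redA U M hpM x) = (β : LaurentSeries k) ∧
        PowerSeries.constantCoeff α = PowerSeries.constantCoeff β := by
  have : CharP (LaurentSeries k) p := charP_of_injective_ringHom HahnSeries.C_injective p
  have := isAdicComplete_nodeJ S
  obtain ⟨P, G, a, b, ha, ξ, β, σI, σ₀, ⟨hPm, hPd, hP, hPG, hroot⟩, ⟨hbI, hb0⟩, ⟨hξ0, hξ1⟩,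
    ⟨hβ0, hβ1⟩, ⟨hIX, h0X⟩, hIc, h0c, hI, h0⟩ := exists_node_param U M hpM v hv h2 h3 hss
  set χ := nodeA U M hpM v hv a ha
  set h := hRat U M hpM v hv
  set hk := redA U M hpM (chartHom U M h)
  obtain ⟨τI, hτI, hτIo⟩ := exists_laurentExt σI hIX (d := 1) hξ1
    (fun i hi => by rw [Nat.lt_one_iff] at hi; subst hi; simpa using hξ0) hIc
  have hβp : PowerSeries.coeff p (β ^ p) ≠ 0 ∧ ∀ i < p, PowerSeries.coeff i (β ^ p) = 0 := by
    obtain ⟨c, hc⟩ := PowerSeries.X_dvd_iff.2 hβ0
    have hc1 : PowerSeries.constantCoeff c ≠ 0 := by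
      rwa [hc, PowerSeries.coeff_succ_X_mul, PowerSeries.coeff_zero_eq_constantCoeff_apply] at hβ1
    rw [hc, mul_pow]
    refine ⟨?_, PowerSeries.X_pow_dvd_iff.1 (dvd_mul_right _ _)⟩
    rw [PowerSeries.coeff_X_pow_mul', if_pos le_rfl, Nat.sub_self,
      PowerSeries.coeff_zero_eq_constantCoeff_apply, map_pow]
    exact pow_ne_zero _ hc1
  obtain ⟨τ₀, hτ₀, hτ₀o⟩ := exists_laurentExt σ₀ h0X hβp.1 hβp.2 h0c
  let eI := τI.comp (ePt U M hpM v hv)
  let ε := τ₀.comp (ePt U M hpM v hv)
  have hδI : ∀ x, S.infBranch.δ (χ x) = inl (eI (redA U M hpM x)) := fun x => by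
    show S.δinf _ = inl (τI (ePt U M hpM v hv _))
    rw [δinf_eq, hI, ePt_redA, hτI]
    exact TrivSqZeroExt.ext (by simp) (by simp)
  have hδ0 : ∀ x, S.zeroBranch.δ (χ x) = inl (ε (redA U M hpM x)) := fun x => by
    show S.δzero _ = inl (τ₀ (ePt U M hpM v hv _))
    rw [δzero_eq, h0, ePt_redA, hτ₀]
    exact TrivSqZeroExt.ext (by simp) (by simp)
  have heIh : eI hk = (ξ : LaurentSeries k) := by
    show τI (ePt U M hpM v hv (redA U M hpM (hA U M hpM v hv))) = _
    rw [ePt_hA, hτI, hIX]
  have hεh : ε hk = ((β ^ p : k⟦X⟧) : LaurentSeries k) := by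
    show τ₀ (ePt U M hpM v hv (redA U M hpM (hA U M hpM v hv))) = _
    rw [ePt_hA, hτ₀, h0X]
  have heIC : ∀ c, eI (algebraMap k _ c) = HahnSeries.C c := fun c => by
    obtain ⟨r, rfl⟩ := U.res₀_surjective c
    have := congrArg TrivSqZeroExt.fst (hδI (algebraMap U.R₀ _ r))
    rw [nodeA_algebraMap, fst_inl, redA_algebraMap] at this
    rw [← this]
    show (S.δinf _).fst = _
    rw [δinf_const, fst_dualMap]
    rfl
  have hεC : ∀ c, ε (algebraMap k _ c) = HahnSeries.C c := fun c => by
    obtain ⟨r, rfl⟩ := U.res₀_surjective c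
    have := congrArg TrivSqZeroExt.fst (hδ0 (algebraMap U.R₀ _ r))
    rw [nodeA_algebraMap, fst_inl, redA_algebraMap] at this
    rw [← this]
    show (S.δzero _).fst = _
    rw [δzero_const, fst_dualMap]
    rfl
  -- the expansion at level `M`
  let K' := FractionRing (Node R p)
  let fR : R →+* S.infBranch.intRing K' :=
    (((algebraMap (Node R p) K').comp (AdjoinRoot.of (nodePoly R p))).comp
      PowerSeries.C).codRestrict _ fun r => S.infBranch.isInt_algebraMap _
  let gN : Node R p →+* S.infBranch.intRing K' :=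
    (algebraMap (Node R p) K').codRestrict _ S.infBranch.isInt_algebraMap
  obtain ⟨ι₁, hC1, hι₁c, hι₁j, hι₁N⟩ := exists_compat S M hpM S.infBranch eI fR rfl
    (fun r => by
      rw [show fR r = ⟨algebraMap _ _ (AdjoinRoot.of (nodePoly R p) (PowerSeries.C r)),
        S.infBranch.isInt_algebraMap _⟩ from rfl, S.infBranch.intδ_algebraMap]
      show S.δinf _ = _
      rw [δinf_const]
      exact TrivSqZeroExt.ext (by simp [heIC]) (by simp [heIC]))
    (gN (χ (chartHom U M (chartJ p M)))) (gN (χ (chartHom U M (chartJN M))))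
    (by
      rw [show gN (χ (chartHom U M (chartJ p M))) = ⟨algebraMap _ _ _,
        S.infBranch.isInt_algebraMap _⟩ from rfl, S.infBranch.intδ_algebraMap, hδI,
        redA_chartHom_chartJ])
    (by
      rw [show gN (χ (chartHom U M (chartJN M))) = ⟨algebraMap _ _ _,
        S.infBranch.isInt_algebraMap _⟩ from rfl, S.infBranch.intδ_algebraMap, hδI]
      refine congrArg (fun z => inl (eI z)) (Subtype.val_injective ?_)
      rw [chartHom_apply, coe_redA_chartOf]
      show coeffMap _ (jqNModC (ZL p) M) = jqNModC k M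
      rw [coeffMap_jqNModC])
    (by
      have h' := congrArg (gN.comp (χ.comp (chartHom U M))) (chartJN_relation (p := p) M)
      rw [map_zero, hom_eval₂] at h'
      rw [← h']
      congr 1
      exact Polynomial.ringHom_ext (fun c => by simp) (by simp))
  have hι₁ : ∀ x, ι₁ (toF U M x) = algebraMap _ _ (χ x) := fun x => RingHom.congr_fun
    (chartA_hom_ext U M ι₁ ((algebraMap (Node R p) K').comp χ)
      (fun r => by
        rw [toF_algebraMap, hι₁c, RingHom.comp_apply, nodeA_algebraMap]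
        rfl)
      (by rw [toF_chartJ, hι₁j]; rfl) (by rw [toF_chartJN, hι₁N]; rfl)) x
  -- generation by `h(pτ)` and the expansion at level `M p`
  obtain ⟨n, hn, hnc⟩ := exists_coeff_hRat U M hpM v hv
  obtain ⟨hgen, hext⟩ := scale_generator hpM (H := toF U M (chartHom U M h)) hn hnc
  set PK := P.map ((toF U M).comp (chartHom U M))
  obtain ⟨-, hext'⟩ := hext PK (hPm.map _) ((hPm.natDegree_map _).trans hPd)
    (eval₂_scale_eq_zero U M hP)
  obtain ⟨ι, hιi, hιb⟩ := hext' ι₁ (algebraMap (Node R p) K' b) (by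
    have h' := congrArg (algebraMap (Node R p) K') hroot
    rw [map_zero, hom_eval₂] at h'
    rw [eval₂_map, ← h']
    congr 1
    exact RingHom.ext fun u => hι₁ _)
  have hinc : ∀ x, ι (inclP M p (toF U M x)) = algebraMap _ _ (χ x) := fun x => by
    rw [← hι₁, ← hιi]; rfl
  have hCI : Compat S M S.infBranch (ι.comp (inclP M p)) eI := hιi.symm ▸ hC1
  -- residues of `f(pτ)`
  obtain ⟨fI, hfI, hfIc, hfIy⟩ :=
    exists_scaleRes U M hpM v hv (B := S.infBranch) ι hinc eI hδI
  obtain ⟨f₀, hf₀, hf₀c, hf₀y⟩ :=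
    exists_scaleRes U M hpM v hv (B := S.zeroBranch) ι hinc ε hδ0
  let rI : ratChart p M →+* LaurentSeries k :=
    ((TrivSqZeroExt.fstHom (LaurentSeries k) (LaurentSeries k) (LaurentSeries k)).toRingHom.comp
      S.infBranch.intδ).comp (fI.comp (chartHom U M))
  let r₀ : ratChart p M →+* LaurentSeries k :=
    ((TrivSqZeroExt.fstHom (LaurentSeries k) (LaurentSeries k) (LaurentSeries k)).toRingHom.comp
      S.zeroBranch.intδ).comp (f₀.comp (chartHom U M))
  let qI : ratChart p M →+* LaurentSeries k := eI.comp ((redA U M hpM).comp (chartHom U M))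
  let q₀ : ratChart p M →+* LaurentSeries k := ε.comp ((redA U M hpM).comp (chartHom U M))
  have hf₀h : f₀ (chartHom U M h) = ⟨algebraMap _ _ b, S.zeroBranch.isInt_algebraMap b⟩ :=
    Subtype.ext ((hf₀ _).trans hιb)
  have hδ0b : S.zeroBranch.intδ (f₀ (chartHom U M h)) = inl (β : LaurentSeries k) := by
    rw [hf₀h, S.zeroBranch.intδ_algebraMap]
    show S.δzero b = _
    rw [δzero_eq, hb0]
    exact TrivSqZeroExt.ext (by simp) (by simp)
  have hθξ := theta_ofPowerSeries_ne_zero hξ1
  have hθβ := theta_ofPowerSeries_ne_zero hβ1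
  have hIall : ∀ y, rI y = qI y ^ p := fun y => sub_eq_zero.1 (eq_zero_of_cover
    (((frobenius (LaurentSeries k) p).comp rI).toAddMonoidHom - qI.toAddMonoidHom)
    (rI.toAddMonoidHom - ((frobenius (LaurentSeries k) p).comp qI).toAddMonoidHom)
    (fun y => (hfIy y).symm) (a₀ := h) (by
      show rI h ^ p - qI h ≠ 0
      rw [sub_ne_zero, show qI h = (ξ : LaurentSeries k) from heIh]
      intro h'
      exact hθξ (by rw [← h', theta_pow_char p])) y)
  have h0all : ∀ y, r₀ y ^ p = q₀ y := fun y => sub_eq_zero.1 (eq_zero_of_cover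
    (r₀.toAddMonoidHom - ((frobenius (LaurentSeries k) p).comp q₀).toAddMonoidHom)
    (((frobenius (LaurentSeries k) p).comp r₀).toAddMonoidHom - q₀.toAddMonoidHom)
    hf₀y (a₀ := h) (by
      show (S.zeroBranch.intδ (f₀ (chartHom U M h))).fst - q₀ h ^ p ≠ 0
      rw [hδ0b, fst_inl, sub_ne_zero, show q₀ h = _ from hεh]
      intro h'
      exact hθβ (by rw [h', theta_pow_char p])) y)
  -- the expansion of the reduced curve on the other component
  let φf := baseHom (frobenius k p) M
  have hfrobA : ∀ x, (S.zeroBranch.intδ (f₀ x)).fst ^ p = ε (φf (redA U M hpM x)) := fun x => by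
    induction x using chartA_induction U M with
    | hc r =>
      rw [show f₀ (algebraMap U.R₀ _ r) = ⟨algebraMap _ _ _, S.zeroBranch.isInt_algebraMap _⟩
        from Subtype.ext (hf₀c r), S.zeroBranch.intδ_algebraMap, redA_algebraMap,
        baseHom_algebraMap, hεC]
      show (S.δzero _).fst ^ p = _
      rw [δzero_const, fst_dualMap, ← map_pow]
      rfl
    | hy y => rw [baseHom_redA_chartHom]; exact h0all y
    | ha x y hx hy => simp only [RingHom.map_add, TrivSqZeroExt.fst_add, add_pow_char, hx, hy]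
    | hm x y hx hy => simp only [map_mul, TrivSqZeroExt.fst_mul, mul_pow, hx, hy]
  obtain ⟨F, hF⟩ := exists_extend U M hpM (S.zeroBranch.intδ.comp f₀)
    (fun x hx => by
      obtain ⟨d, rfl⟩ := (redA_eq_zero_iff U M hpM).1 hx
      have hp0 : S.zeroBranch.intδ (f₀ (algebraMap U.R₀ (chartA U M) ((p : ℕ) : U.R₀))) = 0 := by
        simp only [map_natCast]
        rw [← TrivSqZeroExt.inl_natCast, CharP.cast_eq_zero, TrivSqZeroExt.inl_zero]
      rw [map_mul, RingHom.comp_apply, hp0, zero_mul])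
    (fun x hx => TrivSqZeroExt.isUnit_iff_isUnit_fst.2 (IsUnit.mk0 _ fun h' => by
      have := hfrobA x
      rw [show (S.zeroBranch.intδ (f₀ x)).fst = 0 from h', zero_pow (NeZero.ne p), eq_comm,
        map_eq_zero_iff _ ε.injective, map_eq_zero_iff _ φf.injective] at this
      exact hx this))
  let e₀ :=
    (TrivSqZeroExt.fstHom (LaurentSeries k) (LaurentSeries k) (LaurentSeries k)).toRingHom.comp F
  let D : modularFunctionFieldFullC k M →+ LaurentSeries k :=
    (TrivSqZeroExt.sndHom (LaurentSeries k) (LaurentSeries k)).toAddMonoidHom.comp F.toAddMonoidHom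
  have he₀h : e₀ hk = (β : LaurentSeries k) := by
    show (F hk).fst = _
    rw [hF]
    exact (congrArg TrivSqZeroExt.fst hδ0b).trans (fst_inl _ _)
  have hD : D = 0 := deriv_eq_zero_of_theta hpM e₀ D
    (fun x y => by
      show (F (x * y)).snd = (F x).fst * (F y).snd + (F y).fst * (F x).snd
      rw [map_mul, DualNumber.snd_mul]
      ring)
    (fun x => by
      show (F (x ^ p)).snd = 0
      rw [map_pow, TrivSqZeroExt.snd_pow, nsmul_eq_mul, CharP.cast_eq_zero, zero_mul])
    (h := hk) (theta_hRat_ne_zero U M hpM v hv) (by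
      show (F hk).snd = 0
      rw [hF]
      exact (congrArg TrivSqZeroExt.snd hδ0b).trans (snd_inl _ _))
  have hFe : ∀ z, F z = inl (e₀ z) := fun z => TrivSqZeroExt.ext (fst_inl _ _).symm
    ((DFunLike.congr_fun hD z).trans (snd_inl _ _).symm)
  have hfrob : ∀ z, e₀ z ^ p = ε (φf z) := fun z => by
    obtain ⟨x, y, hy, hxy⟩ := exists_frac U M hpM z
    have key : ∀ x, e₀ (redA U M hpM x) ^ p = ε (φf (redA U M hpM x)) := fun x => by
      show (F (redA U M hpM x)).fst ^ p = _
      rw [hF]
      exact hfrobA x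
    have h1 := key x
    rw [← hxy, map_mul, map_mul, map_mul, mul_pow, key y] at h1
    exact mul_right_cancel₀ ((_root_.map_ne_zero ε).2 ((_root_.map_ne_zero φf).2 hy)) h1
  have he₀C : ∀ c, e₀ (algebraMap k _ c) = HahnSeries.C c := fun c => by
    obtain ⟨r, rfl⟩ := U.res₀_surjective c
    show (F _).fst = _
    rw [← redA_algebraMap U M hpM, hF, RingHom.comp_apply,
      show f₀ (algebraMap U.R₀ _ r) = ⟨algebraMap _ _ _, S.zeroBranch.isInt_algebraMap _⟩
        from Subtype.ext (hf₀c r), S.zeroBranch.intδ_algebraMap]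
    show (S.δzero _).fst = _
    rw [δzero_const, fst_dualMap]
    rfl
  set ι' := ι.comp (wAL (FractionRing R) M p hpM)
  have hι' : ∀ x, (ι'.comp (inclP M p)) x = ι (scaleP M p x) := fun x => by
    rw [RingHom.comp_apply, RingHom.comp_apply, wAL_inclP]
  have hcC : ∀ r, (ι'.comp (inclP M p)) (cF M r) =
      algebraMap _ _ (AdjoinRoot.of (nodePoly R p) (PowerSeries.C r)) := fun r => by
    rw [hι', cF_scaleP, ← cF_inclP]
    exact (RingHom.congr_fun hιi _).trans (hι₁c r)
  have hchart : ∀ x, S.zeroBranch.intδ (f₀ x) = inl (e₀ (redA U M hpM x)) := fun x => by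
    rw [← hFe, hF]
    rfl
  have hf₀' : ∀ x, (ι'.comp (inclP M p)) (toF U M x) = (f₀ x : K') := fun x =>
    (hι' _).trans (hf₀ x).symm
  have hC0 : Compat S M S.zeroBranch (ι'.comp (inclP M p)) e₀ :=
    { map_ϖ := hcC S.ϖ
      int_const := fun r => hcC r ▸ S.zeroBranch.isInt_algebraMap _
      δ_const := fun r => by
        refine ((congrArg S.zeroBranch.intδ (Subtype.ext (hcC r) :
          (_ : S.zeroBranch.intRing K') = ⟨_, S.zeroBranch.isInt_algebraMap _⟩)).trans
          (S.zeroBranch.intδ_algebraMap _)).trans ?_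
        show S.δzero _ = _
        rw [δzero_const]
        exact TrivSqZeroExt.ext (by simp [he₀C]) (by simp [he₀C])
      int_j := by
        rw [← toF_chartJ U M, hf₀']
        exact S.zeroBranch.mem_intRing.1 (f₀ _).2
      δ_j := by
        rw [← redA_chartHom_chartJ U M hpM, ← hchart]
        exact congrArg _ (Subtype.ext ((congrArg _ (toF_chartJ U M).symm).trans (hf₀' _)))
      int_jN := by
        rw [← toF_chartJN U M, hf₀']
        exact S.zeroBranch.mem_intRing.1 (f₀ _).2
      δ_jN := by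
        have hN : jNC k M = redA U M hpM (chartHom U M (chartJN M)) := Subtype.val_injective (by
          rw [chartHom_apply, coe_redA_chartOf]
          show jqNModC k M = coeffMap _ (jqNModC (ZL p) M)
          rw [coeffMap_jqNModC])
        rw [hN, ← hchart]
        exact congrArg _ (Subtype.ext ((congrArg _ (toF_chartJN U M).symm).trans (hf₀' _))) }
  have hrootI : ∀ g ∈ ({scaleP M p (toF U M (chartHom U M h))} :
      Set (modularFunctionFieldFullC (FractionRing R) (M * p))), ∃ P y₀,
      P.eval₂ (inclP (k := FractionRing R) M p) g = 0 ∧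
      Expn.RootAt ((compat_iInf_inclP S M).expn hpM) g P y₀ ∧
      Expn.RootAt (hCI.expn hpM) g P y₀ := by
    rintro g rfl
    exact ⟨PK, _, eval₂_scale_eq_zero U M hP,
      rootAt_scale U M hpM v hv (compat_iInf_inclP S M) hPm hP hPG
        (theta_hRat_ne_zero U M hpM v hv),
      rootAt_scale U M hpM v hv hCI hPm hP hPG (by rwa [show eI _ = _ from heIh])⟩
  have hroot₀ : ∀ g ∈ ({scaleP M p (toF U M (chartHom U M h))} :
      Set (modularFunctionFieldFullC (FractionRing R) (M * p))), ∃ P y₀,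
      P.eval₂ (inclP (k := FractionRing R) M p) g = 0 ∧
      Expn.RootAt ((compat_iInf_inclP S M).expn hpM) g P y₀ ∧
      Expn.RootAt (hC0.expn hpM) g P y₀ := by
    rintro g rfl
    exact ⟨PK, _, eval₂_scale_eq_zero U M hP,
      rootAt_scale U M hpM v hv (compat_iInf_inclP S M) hPm hP hPG
        (theta_hRat_ne_zero U M hpM v hv),
      rootAt_scale U M hpM v hv hC0 hPm hP hPG (by rwa [show e₀ _ = _ from he₀h])⟩
  refine ⟨{
      ι := ι
      eI := eI
      e₀ := e₀
      ι_algebraMap := fun r => by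
        rw [algebraMap_eq_cF, ← cF_inclP]
        exact (RingHom.congr_fun hιi _).trans (hι₁c r)
      eI_algebraMap := heIC
      e₀_algebraMap := he₀C
      ordI_eq := fun x hx => (infGB_eq_of_roots S M hpM hCI hgen hrootI x hx).1
      ord₀_eq := fun x hx => (zeroGB_eq_of_roots S M hpM hC0 hgen hroot₀ x hx).1
      spI_eq := fun x hx => (infGB_eq_of_roots S M hpM hCI hgen hrootI x hx).2
      sp₀_eq := fun x hx => (zeroGB_eq_of_roots S M hpM hC0 hgen hroot₀ x hx).2 },
    fun z hz => ?_, fun z hz => ?_,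
    ⟨χ (chartHom U M (chartJ p M)), (congrArg (fun z => ι (inclP M p z))
      (toF_chartJ U M).symm).trans (hinc _)⟩, fun x => ?_⟩
  · show (τI (ePt U M hpM v hv z)).order = _
    rw [hτIo _ ((_root_.map_ne_zero _).2 hz), order_ePt U M hpM v hv hz, Nat.cast_one, one_mul]
  · show (e₀ z).order = v.ord (φf z)
    have h1 := congrArg HahnSeries.order (hfrob z)
    rw [order_natPow ((_root_.map_ne_zero _).2 hz)] at h1
    change _ = (τ₀ (ePt U M hpM v hv (φf z))).order at h1
    rw [hτ₀o _ ((_root_.map_ne_zero _).2 ((_root_.map_ne_zero φf).2 hz)),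
      order_ePt U M hpM v hv ((_root_.map_ne_zero φf).2 hz)] at h1
    exact mul_left_cancel₀ (by exact_mod_cast NeZero.ne p) h1
  show ∃ α β' : k⟦X⟧, eI (phiK p k M (redA U M hpM x)) = (α : LaurentSeries k) ∧
    e₀ (redA U M hpM x) = (β' : LaurentSeries k) ∧
    PowerSeries.constantCoeff α = PowerSeries.constantCoeff β'
  induction x using chartA_induction U M with
  | hc r =>
    refine ⟨PowerSeries.C (U.res₀ r), PowerSeries.C (U.res₀ r), ?_, ?_, rfl⟩
    · rw [redA_algebraMap, phiK_algebraMap, heIC, HahnSeries.ofPowerSeries_C]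
    · rw [redA_algebraMap, he₀C, HahnSeries.ofPowerSeries_C]
  | ha x y hx hy =>
    obtain ⟨α, β', e1, e2, e3⟩ := hx
    obtain ⟨α', β'', e1', e2', e3'⟩ := hy
    exact ⟨α + α', β' + β'',
      by rw [RingHom.map_add, RingHom.map_add, RingHom.map_add, e1, e1', RingHom.map_add],
      by rw [RingHom.map_add, RingHom.map_add, e2, e2', RingHom.map_add],
      by rw [RingHom.map_add, RingHom.map_add, e3, e3']⟩
  | hm x y hx hy =>
    obtain ⟨α, β', e1, e2, e3⟩ := hx
    obtain ⟨α', β'', e1', e2', e3'⟩ := hy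
    exact ⟨α * α', β' * β'', by rw [map_mul, map_mul, map_mul, e1, e1', map_mul],
      by rw [map_mul, map_mul, e2, e2', map_mul], by rw [map_mul, map_mul, e3, e3']⟩
  | hy y =>
    set d := discK U M hpM v hv (chartHom U M y)
    set A := PowerSeries.constantCoeff d with hA_def
    have hqI : qI y = ((σI d : k⟦X⟧) : LaurentSeries k) := by
      show τI (ePt U M hpM v hv (redA U M hpM (chartHom U M y))) = _
      rw [ePt_redA, hτI]
    have hq₀ : q₀ y = ((σ₀ d : k⟦X⟧) : LaurentSeries k) := by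
      show τ₀ (ePt U M hpM v hv (redA U M hpM (chartHom U M y))) = _
      rw [ePt_redA, hτ₀]
    have hr₀ : e₀ (redA U M hpM (chartHom U M y)) = r₀ y := by
      show (F _).fst = _
      rw [hF]
      rfl
    obtain ⟨β', hβ'⟩ := isPow_of_isPow_pow (NeZero.ne p) (x := r₀ y) ⟨σ₀ d, (h0all y).trans hq₀⟩
    have hβA : PowerSeries.constantCoeff β' ^ p = A := by
      have h' := h0all y
      rw [hβ', hq₀, ← map_pow] at h'
      rw [← map_pow, HahnSeries.ofPowerSeries_injective h', h0c]
    refine ⟨σI d ^ p, β', ?_, hr₀.trans hβ', ?_⟩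
    · rw [phiK_redA_chartHom, map_pow, map_pow, ← hqI]
      rfl
    rw [map_pow, hIc]
    refine frobenius_inj k p ?_
    rw [frobenius_def, frobenius_def, hβA, ← pow_mul, ← hA_def]
    by_contra hAne
    -- otherwise the simple root lifts to the node ring and the two branches disagree
    obtain ⟨c, hc⟩ := U.res₀_surjective A
    obtain ⟨Q, H, hQm, -, hQ, hQH⟩ := exists_charPoly_mod p M hpM y
    set κ := χ.comp (chartHom U M)
    let mk := Ideal.Quotient.mk (nodeJ S)
    have hκy : mk (κ y) = mk (nodeConst U c) := by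
      rw [Ideal.Quotient.eq]
      have hmem : discA U M hpM v hv (chartHom U M y) - PowerSeries.C c ∈
          seriesIdeal ((p : ℕ) : U.R₀) := by
        refine mem_seriesIdeal_of_res₀ U ?_
        rw [map_sub, map_sub, PowerSeries.constantCoeff_C, hc, sub_eq_zero, hA_def]
        show _ = PowerSeries.constantCoeff (PowerSeries.map U.res₀ _)
        rw [← PowerSeries.coeff_zero_eq_constantCoeff_apply,
          ← PowerSeries.coeff_zero_eq_constantCoeff_apply, PowerSeries.coeff_map]
      rw [seriesIdeal, Ideal.mem_span_pair] at hmem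
      obtain ⟨u, w, huw⟩ := hmem
      have h' := congrArg (evalNode U a ha) huw
      rw [map_add, map_mul, map_mul, map_sub, evalNode_C, evalNode_C, evalNode_X,
        map_natCast] at h'
      rw [show κ y - nodeConst U c = _ from h'.symm]
      exact add_mem ((nodeJ S).mul_mem_left _ natCast_mem_nodeJ) ((nodeJ S).mul_mem_left _ ha)
    have hmp : (p : Node R p ⧸ nodeJ S) = 0 := by
      rw [← map_natCast mk]
      exact Ideal.Quotient.eq_zero_iff_mem.2 natCast_mem_nodeJ
    set s := nodeConst U c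
    have h0' : (Q.map κ).eval (s ^ p) ∈ nodeJ S := by
      rw [← Ideal.Quotient.eq_zero_iff_mem, eval_map, hom_eval₂, hQH]
      simp only [eval₂_add, eval₂_mul, eval₂_sub, eval₂_X, eval₂_C, eval₂_X_pow]
      rw [map_natCast, hmp, zero_mul, add_zero]
      simp only [RingHom.comp_apply, map_pow]
      rw [hκy, sub_self, zero_mul]
    have h1' : IsUnit (mk ((Q.map κ).derivative.eval (s ^ p))) := by
      rw [derivative_map, eval_map, hom_eval₂, hQH]
      simp only [derivative_add, derivative_mul, derivative_sub, derivative_X, derivative_C,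
        sub_zero, one_mul, zero_mul, zero_add, eval₂_add, eval₂_mul, eval₂_sub, eval₂_X,
        eval₂_C, eval₂_X_pow]
      rw [map_natCast, hmp, zero_mul, add_zero]
      simp only [RingHom.comp_apply, map_pow]
      rw [hκy, sub_self, zero_mul, add_zero, ← map_pow, ← map_pow, ← map_sub,
        show (s ^ p) ^ p - s = nodeConst U ((c ^ p) ^ p - c) by rw [map_sub, map_pow, map_pow]]
      refine ((U.isUnit_of_res₀ ?_).map (nodeConst U)).map mk
      rw [map_sub, map_pow, map_pow, hc, ← pow_mul, sub_ne_zero]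
      exact hAne
    obtain ⟨x', hx', hx's⟩ := HenselianRing.is_henselian (R := Node R p) (I := nodeJ S) (Q.map κ)
      (hQm.map _) (s ^ p) h0' h1'
    have hxI : PowerSeries.constantCoeff (δinfP S x').fst = A ^ p := by
      have h' := (δ_mem_pow (δinfP S) (fun r => AdjoinRoot.lift_of _) (δinfP_nodeX S)
        (δinfP_nodeY S) dvd_rfl (dvd_zero _) (n := 1) (x := x' - s ^ p) (by rwa [pow_one])).1
      rw [pow_one, PowerSeries.X_dvd_iff, map_sub, TrivSqZeroExt.fst_sub, map_sub, sub_eq_zero,
        map_pow, δ_nodeConst U (δinfP S) (fun r => AdjoinRoot.lift_of _), TrivSqZeroExt.fst_pow,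
        fst_inl, map_pow, PowerSeries.constantCoeff_C, hc] at h'
      exact h'
    have hx0 : PowerSeries.constantCoeff (δzeroP S x').fst = A ^ p := by
      have h' := (δ_mem_pow (δzeroP S) (fun r => AdjoinRoot.lift_of _) (δzeroP_nodeX S)
        (δzeroP_nodeY S) (dvd_zero _) dvd_rfl (n := 1) (x := x' - s ^ p) (by rwa [pow_one])).1
      rw [pow_one, PowerSeries.X_dvd_iff, map_sub, TrivSqZeroExt.fst_sub, map_sub, sub_eq_zero,
        map_pow, δ_nodeConst U (δzeroP S) (fun r => AdjoinRoot.lift_of _), TrivSqZeroExt.fst_pow,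
        fst_inl, map_pow, PowerSeries.constantCoeff_C, hc] at h'
      exact h'
    let ψ : ratChart p M →+* S.infBranch.intRing K' := gN.comp κ
    let ρ : S.infBranch.intRing K' →+* LaurentSeries k :=
      (TrivSqZeroExt.fstHom (LaurentSeries k) (LaurentSeries k) (LaurentSeries k)).toRingHom.comp
        S.infBranch.intδ
    have hρψ : ∀ u, ρ (ψ u) = qI u := fun u => by
      show (S.infBranch.intδ ⟨algebraMap _ _ (κ u), S.infBranch.isInt_algebraMap _⟩).fst = _
      rw [S.infBranch.intδ_algebraMap, show S.infBranch.δ (κ u) = _ from hδI _, fst_inl]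
      rfl
    have hρx : ρ (gN x') = ((δinfP S x').fst : LaurentSeries k) := by
      show (S.infBranch.intδ ⟨algebraMap _ _ x', S.infBranch.isInt_algebraMap _⟩).fst = _
      rw [S.infBranch.intδ_algebraMap]
      show (S.δinf x').fst = _
      rw [δinf_eq, fst_dualMap]
    have hz' : Q.eval₂ ψ (gN x') = 0 := by
      rw [← hom_eval₂, ← eval_map, hx'.eq_zero, map_zero]
    have hz : Q.eval₂ ψ (fI (chartHom U M y)) = 0 := Subtype.ext (by
      have h' := congrArg ι (eval₂_scale_eq_zero U M hQ)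
      rw [map_zero, eval₂_map, hom_eval₂] at h'
      refine Eq.trans (hom_eval₂ Q ψ (S.infBranch.intRing K').subtype _) (Eq.trans ?_ h')
      show eval₂ _ (fI (chartHom U M y) : K') Q = _
      rw [hfI]
      exact congrArg (fun φ => Q.eval₂ φ _) (RingHom.ext fun u => (hinc _).symm))
    have hρz : ρ (gN x') = qI y ^ p := by
      have h' := congrArg ρ hz'
      rw [map_zero, hom_eval₂, hQH] at h'
      simp only [eval₂_add, eval₂_mul, eval₂_sub, eval₂_X, eval₂_C, eval₂_X_pow] at h'
      rw [map_natCast, CharP.cast_eq_zero, zero_mul, add_zero, map_pow] at h'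
      change (ρ (gN x') - ρ (ψ y) ^ p) * (ρ (gN x') ^ p - ρ (ψ y)) = 0 at h'
      rw [hρψ] at h'
      rcases mul_eq_zero.1 h' with h'' | h''
      · exact sub_eq_zero.1 h''
      · rw [hρx, hqI, ← map_pow, ← map_sub,
          map_eq_zero_iff _ HahnSeries.ofPowerSeries_injective] at h''
        have h3 := congrArg PowerSeries.constantCoeff (sub_eq_zero.1 h'')
        rw [map_pow, hxI, hIc, ← pow_mul, ← hA_def] at h3
        exact absurd h3 hAne
    have heq : gN x' = fI (chartHom U M y) := by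
      obtain ⟨w, hw⟩ := (Q.map ψ).binomExpansion (gN x') (fI (chartHom U M y) - gN x')
      rw [add_sub_cancel, eval_map, eval_map, hz, hz'] at hw
      set d' := fI (chartHom U M y) - gN x' with hd'
      have hd0 : ρ d' = 0 := by
        rw [hd', map_sub, hρz]
        exact sub_eq_zero.2 (hIall y)
      have hfac : d' * ((Q.map ψ).derivative.eval (gN x') + w * d') = 0 := by
        linear_combination -hw
      rcases mul_eq_zero.1 hfac with h'' | h''
      · exact (sub_eq_zero.1 h'').symm
      · exfalso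
        have h3 := congrArg ρ h''
        rw [map_add, map_mul, hd0, mul_zero, add_zero, map_zero, derivative_map, eval_map,
          hom_eval₂, hρz, hQH] at h3
        simp only [derivative_add, derivative_mul, derivative_sub, derivative_X, derivative_C,
          sub_zero, one_mul, zero_mul, zero_add, eval₂_add, eval₂_mul, eval₂_sub, eval₂_X,
          eval₂_C, eval₂_X_pow] at h3
        rw [map_natCast, CharP.cast_eq_zero, zero_mul, add_zero] at h3
        simp only [RingHom.comp_apply, map_pow, hρψ] at h3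
        rw [sub_self, zero_mul, add_zero, hqI, ← map_pow, ← map_pow,
          ← map_sub, map_eq_zero_iff _ HahnSeries.ofPowerSeries_injective] at h3
        have h4 := congrArg PowerSeries.constantCoeff (sub_eq_zero.1 h3)
        rw [map_pow, map_pow, hIc, ← pow_mul, ← hA_def] at h4
        exact hAne h4
    have hK : (f₀ (chartHom U M y) : K') = algebraMap _ _ x' := by
      rw [hf₀, ← hfI, ← heq]
      rfl
    have hr : r₀ y = ((δzeroP S x').fst : LaurentSeries k) := by
      show (S.zeroBranch.intδ (f₀ (chartHom U M y))).fst = _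
      rw [show f₀ (chartHom U M y) = ⟨_, S.zeroBranch.isInt_algebraMap x'⟩ from Subtype.ext hK,
        S.zeroBranch.intδ_algebraMap]
      show (S.δzero x').fst = _
      rw [δzero_eq, fst_dualMap]
    rw [hβ'] at hr
    rw [← HahnSeries.ofPowerSeries_injective hr] at hx0
    rw [hx0, ← pow_mul] at hβA
    exact hAne hβA

end Fermat.Agent.LevelLowerP
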