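import Fermat.Agent.LevelLowerP.LocalIntegral

/-!
# Components and their local expansions

Additive properties of the components, transported from any local expansion.

The main definition is `Emb`, a component seen in the fraction field of a local ring.
-/

set_option autoImplicit false

namespace Fermat.Agent.LevelLowerP

open DualNumber TrivSqZeroExt
open scoped LaurentSeries

variable {p : ℕ} {R k : Type*} [CommRing R] [IsDomain R] [IsDiscreteValuationRing R] [Field k]
  [CharP k p] [Fact p.Prime] {S : Setup p R k} {L κ : Type*} [Field L] [Field κ] [Algebra R L]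
  [Algebra k κ]

/-- A component seen in the field of fractions of a local ring. -/
structure Emb (G : GBranch S L κ) {O : Type*} [CommRing O] [IsDomain O]
    (B : Branch O (LaurentSeries k)) (F : Type*) [Field F] [Algebra O F] [IsFractionRing O F] where
  /-- expansion -/
  ι : L →+* F
  /-- expansion on the reduced curve -/
  e : κ →+* LaurentSeries k
  e_algebraMap : ∀ c, e (algebraMap k κ c) = HahnSeries.C c
  /-- constants of the local ring -/
  cst : R →+* O
  cst_ϖ : cst S.ϖ = B.ϖ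
  ι_algebraMap : ∀ r, ι (algebraMap R L r) = algebraMap O F (cst r)
  ord_eq : ∀ x, x ≠ 0 → B.ord (ι x) = G.ord x
  sp_eq : ∀ x, x ≠ 0 → B.sp (ι x) = dualMap e (G.sp x)

namespace LocalPoint

variable {G : GBranch S L κ} (Q : LocalPoint G)

/-- The disc as an expansion of the component. -/
noncomputable def emb : Emb G S.discBranch (FractionRing (PowerSeries R)) where
  ι := Q.ι
  e := Q.e
  e_algebraMap := Q.e_algebraMap
  cst := PowerSeries.C
  cst_ϖ := rfl
  ι_algebraMap := Q.ι_algebraMap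
  ord_eq := Q.ord_eq
  sp_eq := Q.sp_eq

end LocalPoint

namespace LocalNode

variable [IsDomain (Node R p)] {GI G₀ : GBranch S L κ} (v : LocalNode GI G₀)

/-- The annulus as an expansion of the component at infinity. -/
noncomputable def embI : Emb GI S.infBranch (FractionRing (Node R p)) where
  ι := v.ι
  e := v.eI
  e_algebraMap := v.eI_algebraMap
  cst := (AdjoinRoot.of _).comp PowerSeries.C
  cst_ϖ := rfl
  ι_algebraMap := v.ι_algebraMap
  ord_eq := v.ordI_eq
  sp_eq := v.spI_eq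

/-- The annulus as an expansion of the other component. -/
noncomputable def emb₀ : Emb G₀ S.zeroBranch (FractionRing (Node R p)) where
  ι := v.ι
  e := v.e₀
  e_algebraMap := v.e₀_algebraMap
  cst := (AdjoinRoot.of _).comp PowerSeries.C
  cst_ϖ := rfl
  ι_algebraMap := v.ι_algebraMap
  ord_eq := v.ord₀_eq
  sp_eq := v.sp₀_eq

end LocalNode

namespace GBranch

variable (G : GBranch S L κ)

omit [IsDomain R] [IsDiscreteValuationRing R] [CharP k p] [Fact (Nat.Prime p)] in
lemma psi_mul {x y : L} (hx : x ≠ 0) (hy : y ≠ 0) : G.psi (x * y) = G.psi x + G.psi y := by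
  have h1 := G.fst_sp_ne_zero x hx
  have h2 := G.fst_sp_ne_zero y hy
  rw [psi, psi, psi, G.sp_mul x y hx hy, DualNumber.snd_mul, TrivSqZeroExt.fst_mul]
  field_simp; ring

omit [IsDomain R] [IsDiscreteValuationRing R] [CharP k p] [Fact (Nat.Prime p)] in
lemma resUnit_mul {x y : L} (hx : x ≠ 0) (hy : y ≠ 0) :
    G.resUnit (x * y) = G.resUnit x * G.resUnit y := by
  rw [resUnit, G.sp_mul x y hx hy, TrivSqZeroExt.fst_mul]; rfl

omit [IsDomain R] [IsDiscreteValuationRing R] [CharP k p] [Fact (Nat.Prime p)] in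
lemma resUnit_ne_zero {x : L} (hx : x ≠ 0) : G.resUnit x ≠ 0 := G.fst_sp_ne_zero x hx

omit [IsDomain R] [IsDiscreteValuationRing R] [CharP k p] [Fact (Nat.Prime p)] in
lemma res_of_ord_eq_zero {x : L} (hx : x ≠ 0) (h : G.ord x = 0) : G.res x = G.resUnit x := by
  rw [res, if_pos ⟨hx, h⟩]

omit [IsDomain R] [IsDiscreteValuationRing R] [CharP k p] [Fact (Nat.Prime p)] in
lemma res_zero : G.res 0 = 0 := by simp [res]

omit [IsDomain R] [IsDiscreteValuationRing R] [CharP k p] [Fact (Nat.Prime p)] in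
lemma res_of_ord_ne_zero {x : L} (h : G.ord x ≠ 0) : G.res x = 0 := by simp [res, h]

omit [IsDomain R] [IsDiscreteValuationRing R] [CharP k p] [Fact (Nat.Prime p)] in
lemma ge_mono {m n : ℤ} (h : m ≤ n) {x : L} (hx : G.Ge n x) : G.Ge m x :=
  hx.imp id h.trans

omit [IsDomain R] [IsDiscreteValuationRing R] [CharP k p] [Fact (Nat.Prime p)] in
lemma ge_mul {m n : ℤ} {x y : L} (hx : G.Ge m x) (hy : G.Ge n y) : G.Ge (m + n) (x * y) := by
  by_cases h1 : x = 0
  · exact Or.inl (by simp [h1])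
  by_cases h2 : y = 0
  · exact Or.inl (by simp [h2])
  refine Or.inr ?_
  rw [G.ord_mul x y h1 h2]
  exact add_le_add (hx.resolve_left h1) (hy.resolve_left h2)

omit [IsDomain R] [IsDiscreteValuationRing R] [CharP k p] [Fact (Nat.Prime p)] in
lemma res_eq_zero_iff {x : L} (hx : G.Ge 0 x) : G.res x = 0 ↔ G.Ge 1 x := by
  refine ⟨fun h => ?_, fun h => ?_⟩
  · by_cases h0 : x = 0
    · exact Or.inl h0
    refine Or.inr ?_
    rcases (hx.resolve_left h0).lt_or_eq with h' | h'
    · omega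
    · exact absurd (G.res_of_ord_eq_zero h0 h'.symm ▸ h) (G.resUnit_ne_zero h0)
  · rcases h with h | h
    · rw [h, G.res_zero]
    · exact G.res_of_ord_ne_zero (by omega)

end GBranch

namespace Emb

variable {G : GBranch S L κ} {O : Type*} [CommRing O] [IsDomain O]
  {B : Branch O (LaurentSeries k)} {F : Type*} [Field F] [Algebra O F] [IsFractionRing O F]
  (E : Emb G B F)

omit [IsDomain R] [IsDiscreteValuationRing R] [CharP k p] [Fact (Nat.Prime p)] in
lemma e_injective : Function.Injective E.e := E.e.injective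

omit [IsDomain R] [IsDiscreteValuationRing R] [CharP k p] [Fact (Nat.Prime p)] in
lemma psi_eq {x : L} (hx : x ≠ 0) : B.psi (E.ι x) = E.e (G.psi x) := by
  rw [Branch.psi, E.sp_eq x hx, fst_dualMap, snd_dualMap, GBranch.psi, map_div₀]

omit [IsDomain R] [IsDiscreteValuationRing R] [CharP k p] [Fact (Nat.Prime p)] in
lemma resUnit_eq {x : L} (hx : x ≠ 0) : B.resUnit (E.ι x) = E.e (G.resUnit x) := by
  rw [Branch.resUnit, E.sp_eq x hx, fst_dualMap, GBranch.resUnit]

omit [IsDomain R] [IsDiscreteValuationRing R] [CharP k p] [Fact (Nat.Prime p)] in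
include E in
lemma algebraMap_ϖ_ne_zero : algebraMap R L S.ϖ ≠ 0 := fun h => by
  have h1 := E.ι_algebraMap S.ϖ
  rw [h, map_zero, E.cst_ϖ] at h1
  exact Branch.algebraMap_ne_zero B.ϖ_ne_zero h1.symm

omit [CharP k p] [Fact (Nat.Prime p)] in
include E in
lemma algebraMap_ne_zero {r : R} (hr : r ≠ 0) : algebraMap R L r ≠ 0 := by
  obtain ⟨n, u, rfl⟩ := IsDiscreteValuationRing.eq_unit_mul_pow_irreducible hr S.irreducible_ϖ
  rw [map_mul, map_pow]
  exact mul_ne_zero (u.isUnit.map _).ne_zero (pow_ne_zero _ E.algebraMap_ϖ_ne_zero)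

omit [IsDomain R] [IsDiscreteValuationRing R] [CharP k p] [Fact (Nat.Prime p)] in
include E in
lemma ord_one : G.ord (1 : L) = 0 := by
  rw [← E.ord_eq 1 one_ne_zero, map_one, B.ord_one]

omit [IsDomain R] [IsDiscreteValuationRing R] [CharP k p] [Fact (Nat.Prime p)] in
include E in
lemma ord_pow {x : L} (hx : x ≠ 0) (n : ℕ) : G.ord (x ^ n) = n * G.ord x := by
  induction n with
  | zero => simp [E.ord_one]
  | succ j ih => rw [pow_succ, G.ord_mul _ _ (pow_ne_zero j hx) hx, ih]; push_cast; ring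

omit [IsDomain R] [IsDiscreteValuationRing R] [CharP k p] [Fact (Nat.Prime p)] in
include E in
lemma ord_inv {x : L} (hx : x ≠ 0) : G.ord x⁻¹ = -G.ord x := by
  have h := G.ord_mul x x⁻¹ hx (inv_ne_zero hx)
  rw [mul_inv_cancel₀ hx, E.ord_one] at h; omega

omit [IsDomain R] [IsDiscreteValuationRing R] [CharP k p] [Fact (Nat.Prime p)] in
lemma ge_iff {n : ℤ} {x : L} : G.Ge n x ↔ E.ι x = 0 ∨ n ≤ B.ord (E.ι x) := by
  by_cases hx : x = 0
  · simp [GBranch.Ge, hx]
  · simp [GBranch.Ge, hx, E.ord_eq x hx]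

omit [IsDomain R] [IsDiscreteValuationRing R] [CharP k p] [Fact (Nat.Prime p)] in
lemma isInt_iff {x : L} : B.IsInt (E.ι x) ↔ G.Ge 0 x := by rw [B.isInt_iff, E.ge_iff]

omit [IsDomain R] [IsDiscreteValuationRing R] [CharP k p] [Fact (Nat.Prime p)] in
include E in
lemma ge_add {n : ℤ} {x y : L} (hx : G.Ge n x) (hy : G.Ge n y) : G.Ge n (x + y) := by
  by_cases h1 : x = 0
  · simpa [h1] using hy
  by_cases h2 : y = 0
  · simpa [h2] using hx
  by_cases h3 : x + y = 0
  · exact Or.inl h3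
  refine Or.inr ?_
  have := B.min_ord_le_ord_add ((map_ne_zero E.ι).2 h1) ((map_ne_zero E.ι).2 h2)
    (by rw [← map_add]; exact (map_ne_zero E.ι).2 h3)
  rw [← map_add, E.ord_eq _ h1, E.ord_eq _ h2, E.ord_eq _ h3] at this
  exact le_trans (le_min (hx.resolve_left h1) (hy.resolve_left h2)) this

omit [IsDomain R] [IsDiscreteValuationRing R] [CharP k p] [Fact (Nat.Prime p)] in
include E in
lemma ge_neg {n : ℤ} {x : L} (hx : G.Ge n x) : G.Ge n (-x) := by
  rw [E.ge_iff] at hx ⊢
  rw [map_neg]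
  rcases hx with h | h
  · exact Or.inl (by rw [h, neg_zero])
  · refine Or.inr ?_
    by_cases h0 : E.ι x = 0
    · rwa [h0, neg_zero, ← h0]
    have h1 : B.ord (-1 : F) = 0 := by
      have := B.ord_mul (L := F) (x := -1) (y := -1) (neg_ne_zero.2 one_ne_zero)
        (neg_ne_zero.2 one_ne_zero)
      rw [neg_mul_neg, one_mul, B.ord_one] at this
      omega
    rw [← neg_one_mul, B.ord_mul (neg_ne_zero.2 one_ne_zero) h0, h1, zero_add]
    exact h

omit [IsDomain R] [IsDiscreteValuationRing R] [CharP k p] [Fact (Nat.Prime p)] in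
include E in
lemma ge_sub {n : ℤ} {x y : L} (hx : G.Ge n x) (hy : G.Ge n y) : G.Ge n (x - y) := by
  rw [sub_eq_add_neg]; exact E.ge_add hx (E.ge_neg hy)

omit [IsDomain R] [IsDiscreteValuationRing R] [CharP k p] [Fact (Nat.Prime p)] in
include E in
lemma ge_one : G.Ge 0 (1 : L) := Or.inr E.ord_one.ge

omit [IsDomain R] [IsDiscreteValuationRing R] [CharP k p] [Fact (Nat.Prime p)] in
include E in
lemma ge_pow {x : L} (hx : G.Ge 0 x) (n : ℕ) : G.Ge 0 (x ^ n) := by
  induction n with
  | zero => simpa using E.ge_one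
  | succ j ih => rw [pow_succ]; simpa using G.ge_mul ih hx

omit [IsDomain R] [IsDiscreteValuationRing R] [CharP k p] [Fact (Nat.Prime p)] in
include E in
lemma ge_algebraMap (r : R) : G.Ge 0 (algebraMap R L r) := by
  rw [← E.isInt_iff, E.ι_algebraMap]; exact B.isInt_algebraMap _

omit [IsDomain R] [IsDiscreteValuationRing R] [CharP k p] [Fact (Nat.Prime p)] in
include E in
lemma ge_ϖ_pow (n : ℕ) : G.Ge n (algebraMap R L S.ϖ ^ n) :=
  Or.inr (by rw [E.ord_pow E.algebraMap_ϖ_ne_zero, G.ord_ϖ, mul_one])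

omit [IsDomain R] [IsDiscreteValuationRing R] [CharP k p] [Fact (Nat.Prime p)] in
include E in
lemma exists_eq_mul_of_ge {n : ℕ} {x : L} (hx : G.Ge n x) :
    ∃ y, G.Ge 0 y ∧ x = algebraMap R L S.ϖ ^ n * y := by
  have hπ := pow_ne_zero n E.algebraMap_ϖ_ne_zero
  refine ⟨x * (algebraMap R L S.ϖ ^ n)⁻¹, ?_, by field_simp⟩
  by_cases h : x = 0
  · exact Or.inl (by simp [h])
  refine Or.inr ?_
  rw [G.ord_mul _ _ h (inv_ne_zero hπ), E.ord_inv hπ, E.ord_pow E.algebraMap_ϖ_ne_zero, G.ord_ϖ,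
    mul_one]
  have := hx.resolve_left h
  omega

omit [IsDomain R] [IsDiscreteValuationRing R] [CharP k p] [Fact (Nat.Prime p)] in
lemma intRes_eq {x : L} (hx : G.Ge 0 x) :
    B.intRes ⟨E.ι x, E.isInt_iff.2 hx⟩ = E.e (G.res x) := by
  by_cases h0 : x = 0
  · subst h0
    have e0 : (⟨E.ι 0, E.isInt_iff.2 hx⟩ : B.intRing F) = 0 := Subtype.ext (map_zero E.ι)
    rw [G.res_zero, e0]
    exact (map_zero _).trans (map_zero E.e).symm
  have hι := (map_ne_zero E.ι).2 h0
  rcases (hx.resolve_left h0).lt_or_eq with h | h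
  · rw [G.res_of_ord_ne_zero h.ne', map_zero, B.intRes_eq_zero_iff]
    have hπ := Branch.algebraMap_ne_zero (L := F) B.ϖ_ne_zero
    refine ⟨⟨E.ι x * (algebraMap O F B.ϖ)⁻¹, B.isInt_iff.2 (Or.inr ?_)⟩, Subtype.ext ?_⟩
    · rw [B.ord_mul hι (inv_ne_zero hπ), B.ord_inv hπ, B.ord_ϖ, E.ord_eq x h0]; omega
    · rw [Subring.coe_mul, Branch.intϖ]; field_simp
  · rw [G.res_of_ord_eq_zero h0 h.symm,
      B.intRes_of_ord_eq_zero (x := ⟨E.ι x, E.isInt_iff.2 hx⟩) hι (by rw [E.ord_eq x h0, h]),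
      E.resUnit_eq h0]

omit [IsDomain R] [IsDiscreteValuationRing R] [CharP k p] [Fact (Nat.Prime p)] in
include E in
lemma res_add {x y : L} (hx : G.Ge 0 x) (hy : G.Ge 0 y) : G.res (x + y) = G.res x + G.res y := by
  apply E.e_injective
  rw [map_add, ← E.intRes_eq hx, ← E.intRes_eq hy, ← E.intRes_eq (E.ge_add hx hy), ← map_add]
  exact congrArg _ (Subtype.ext (map_add _ _ _))

omit [IsDomain R] [IsDiscreteValuationRing R] [CharP k p] [Fact (Nat.Prime p)] in
include E in
lemma res_mul {x y : L} (hx : G.Ge 0 x) (hy : G.Ge 0 y) : G.res (x * y) = G.res x * G.res y := by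
  apply E.e_injective
  rw [map_mul, ← E.intRes_eq hx, ← E.intRes_eq hy,
    ← E.intRes_eq (by simpa using G.ge_mul hx hy), ← map_mul]
  exact congrArg _ (Subtype.ext (map_mul _ _ _))

omit [IsDomain R] [IsDiscreteValuationRing R] [CharP k p] [Fact (Nat.Prime p)] in
include E in
lemma res_one : G.res (1 : L) = 1 := by
  apply E.e_injective
  rw [← E.intRes_eq E.ge_one]
  refine Eq.trans ?_ (map_one E.e).symm
  refine Eq.trans (congrArg _ ?_) (map_one B.intRes)
  exact Subtype.ext (map_one E.ι)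

end Emb

end Fermat.Agent.LevelLowerP
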