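import Fermat.Agent.LevelLowerP.GeoGen
import Fermat.Agent.LevelLowerP.GeoChart

/-!
# Cuspidal points and bounds at the cusps
-/

set_option autoImplicit false

noncomputable section

namespace Fermat.Agent.LevelLowerP

open Polynomial ModularCurve Fermat.Agent.Igusa AlgebraicCurve
open scoped LaurentSeries

section Bounds

/-- `x` is at most `j ^ m` for all valuations trivial on constants. -/
def Bdd (K : Type*) [Field K] (M : ℕ) [NeZero M] (m : ℕ) (x : modularFunctionFieldFullC K M) :
    Prop :=
  ∀ v : Valuation (modularFunctionFieldFullC K M) (WithZero (Multiplicative ℤ)),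
    (∀ c, v (algebraMap K (modularFunctionFieldFullC K M) c) ≤ 1) →
      v x ≤ max 1 (v (jC K M)) ^ m

/-- An element of the rational chart with poles at most those of `j ^ m`. -/
def ChartBdd (p : ℕ) [Fact p.Prime] (M : ℕ) [NeZero M] (m : ℕ) (y : ratChart p M) : Prop :=
  ∃ x : modularFunctionFieldFullC ℚ M,
    (x : LaurentSeries ℚ) = toQ p (y : LaurentSeries (ZL p)) ∧ Bdd ℚ M m x

end Bounds

section Cusp

variable {p : ℕ} {R k : Type} [CommRing R] [IsDomain R] [IsDiscreteValuationRing R] [Field k]
  [CharP k p] [Fact p.Prime]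

/-- `x` is a unit times `T ^ n`. -/
def UnitMulPow (x : FractionRing (PowerSeries R)) (n : ℤ) : Prop :=
  ∃ u : (PowerSeries R)ˣ, x = algebraMap (PowerSeries R) _ (u : PowerSeries R) *
    algebraMap (PowerSeries R) (FractionRing (PowerSeries R)) PowerSeries.X ^ n

variable (S : Setup p R k) (M : ℕ) [NeZero M] (hpM : ¬ p ∣ M) [IsAlgClosed k]
  [CharZero (FractionRing R)]

/-- A smooth point of the component at infinity over a cusp `v`. -/
structure CuspPt (v : Place k (modularFunctionFieldFullC k M)) where
  /-- the point -/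
  P : LocalPoint (infGB S M hpM)
  /-- pole order of `j` in the parameter -/
  width : ℕ
  width_pos : 0 < width
  not_dvd : ¬ p ∣ width
  /-- order of the parameter at the cusp -/
  ramif : ℕ
  ramif_pos : 0 < ramif
  e_order : ∀ y, y ≠ 0 → (P.e y).order = ramif * v.ord y
  map_j : UnitMulPow (P.ι (inclP M p (jC (FractionRing R) M))) (-width)
  map_jp : UnitMulPow (P.ι (scaleP M p (jC (FractionRing R) M))) (-((p * width : ℕ) : ℤ))
  map_v : UnitMulPow (P.ι (vElt (FractionRing R) M p)) (-(((p - 1) * width : ℕ) : ℤ))

end Cusp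

end Fermat.Agent.LevelLowerP
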