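import Fermat.Agent.LevelLowerP.Theta
import Fermat.Agent.LevelLowerP.GeoPoints
import Mathlib.FieldTheory.PurelyInseparable.PerfectClosure
import Mathlib.FieldTheory.KummerPolynomial

/-!
# Functions killed by `θ` in characteristic `p`

A modular function mod `p` killed by `θ` is a `p`th power of one.

Main result: `exists_pow_of_theta_eq_zero`.
-/

set_option autoImplicit false

noncomputable section

namespace Fermat.Agent.LevelLowerP

open ModularCurve Fermat.Agent.Igusa Polynomial

variable {p : ℕ} [Fact p.Prime] {k : Type*} [Field k] [CharP k p] [IsAlgClosed k]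
  {M : ℕ} [NeZero M]

local notation "F" => modularFunctionFieldFullC k M

omit [IsAlgClosed k] in
theorem theta_jqModC_ne_zero' : theta k (jqModC k) ≠ 0 := fun h => by
  have h1 := congrArg (fun s : LaurentSeries k => s.coeff (-1)) h
  rw [theta_jqModC_coeff_neg_one] at h1
  simp at h1

/-- The `p`th powers. -/
def powSubfield (p : ℕ) [Fact p.Prime] [CharP F p] : Subfield F := (frobenius F p).fieldRange

theorem mem_adjoin_jC (hpM : ¬ p ∣ M) [CharP F p] (x : F) :
    x ∈ Algebra.adjoin (powSubfield (k := k) (M := M) p) {jC k M} := by
  have := isSeparable_fullC (k := k) M (fun h => hpM ((CharP.cast_eq_zero_iff k p M).mp h))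
  have : ExpChar (baseC k M) p := by
    have : CharP (baseC k M) p := charP_of_injective_algebraMap (algebraMap k _).injective p
    exact ExpChar.prime Fact.out
  have hint : IsIntegral (powSubfield (k := k) (M := M) p) (jC k M) :=
    IsIntegral.of_pow (Fact.out : p.Prime).pos
      (isIntegral_algebraMap (x := (⟨jC k M ^ p, ⟨jC k M, rfl⟩⟩ : powSubfield (k := k) (M := M) p)))
  rw [← IntermediateField.adjoin_simple_toSubalgebra_of_isAlgebraic hint.isAlgebraic,
    IntermediateField.mem_toSubalgebra]
  set E := IntermediateField.adjoin (powSubfield (k := k) (M := M) p) ({jC k M} : Set F)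
  have hk : ∀ c : k, algebraMap k F c ∈ E := fun c => by
    obtain ⟨d, rfl⟩ := IsAlgClosed.exists_pow_nat_eq c (Fact.out : p.Prime).pos
    exact E.algebraMap_mem ⟨_, algebraMap k F d,
      (frobenius_def p _).trans (map_pow (algebraMap k F) d p).symm⟩
  have htop : IntermediateField.adjoin (baseC k M) (Set.univ : Set F) = _ :=
    IntermediateField.adjoin_eq_adjoin_pow_expChar_of_isSeparable' _ _ _ p
  rw [IntermediateField.adjoin_univ] at htop
  have hx : x ∈ IntermediateField.adjoin (baseC k M) ((· ^ p) '' (Set.univ : Set F)) :=
    htop ▸ IntermediateField.mem_top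
  induction hx using IntermediateField.adjoin_induction with
  | mem y hy =>
    obtain ⟨z, -, rfl⟩ := hy
    exact E.algebraMap_mem ⟨_, z, rfl⟩
  | algebraMap c =>
    obtain ⟨c, hc⟩ := c
    show c ∈ E
    induction hc using IntermediateField.adjoin_induction with
    | mem y hy =>
      rcases hy with rfl
      exact IntermediateField.mem_adjoin_simple_self _ _
    | algebraMap a => exact hk a
    | add a b _ _ ha hb => exact add_mem ha hb
    | inv a _ ha => exact inv_mem ha
    | mul a b _ _ ha hb => exact mul_mem ha hb
  | add a b _ _ ha hb => exact add_mem ha hb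
  | inv a _ ha => exact inv_mem ha
  | mul a b _ _ ha hb => exact mul_mem ha hb

/-- `θ u = 0` forces `u` to be a `p`th power in the function field. -/
theorem exists_pow_of_theta_eq_zero (hpM : ¬ p ∣ M) {u : F}
    (hu : theta k (u : LaurentSeries k) = 0) : ∃ v : F, u = v ^ p := by
  have : CharP F p := charP_of_injective_algebraMap (algebraMap k F).injective p
  have : CharP (LaurentSeries k) p :=
    charP_of_injective_ringHom (HahnSeries.C_injective (Γ := ℤ) (R := k)) p
  set P := powSubfield (k := k) (M := M) p
  set j := jC k M
  have hpow : ∀ a : P, theta k ((a : F) : LaurentSeries k) = 0 := fun a => by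
    obtain ⟨z, hz⟩ := a.2
    rw [← hz, frobenius_def, SubmonoidClass.coe_pow, theta_pow_char p]
  have hθ : ∀ q : P[X], theta k ((aeval j q : F) : LaurentSeries k) =
      ((aeval j (derivative q) : F) : LaurentSeries k) * theta k (jqModC k) := fun q => by
    induction q using Polynomial.induction_on' with
    | add a b ha hb =>
      rw [map_add, map_add, AddMemClass.coe_add, map_add, map_add, AddMemClass.coe_add, add_mul,
        ha, hb]
    | monomial n a =>
      rw [derivative_monomial, aeval_monomial, aeval_monomial, map_mul, map_natCast,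
        MulMemClass.coe_mul, theta_mul, SubmonoidClass.coe_pow, MulMemClass.coe_mul,
        MulMemClass.coe_mul, SubmonoidClass.coe_pow, theta_pow,
        show theta k ((algebraMap P F a : F) : LaurentSeries k) = 0 from hpow a, zero_mul, zero_add,
        show ((n : F) : LaurentSeries k) = (n : LaurentSeries k) from map_natCast
          (SubringClass.subtype (modularFunctionFieldFullC k M)) n]
      show _ = _ * theta k ((j : F) : LaurentSeries k)
      ring
  have hj : ∀ b : P, b ^ p ≠ ⟨j ^ p, j, rfl⟩ := fun b hb => by
    have h1 : (b : F) = j := frobenius_inj F p (congrArg Subtype.val hb)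
    exact theta_jqModC_ne_zero' (k := k) (by
      have h2 := hpow b
      rwa [h1] at h2)
  have hirr := X_pow_sub_C_irreducible_of_prime (Fact.out : p.Prime) hj
  have hmon : (X ^ p - C (⟨j ^ p, j, rfl⟩ : P)).Monic :=
    monic_X_pow_sub_C _ (Fact.out : p.Prime).ne_zero
  have hj0 : aeval j (X ^ p - C (⟨j ^ p, j, rfl⟩ : P)) = 0 := by
    rw [map_sub, map_pow, aeval_X, aeval_C]
    exact sub_self _
  obtain ⟨q, hq⟩ := (Algebra.adjoin_singleton_eq_range_aeval P j).le (mem_adjoin_jC hpM u)
  set r := q %ₘ (X ^ p - C (⟨j ^ p, j, rfl⟩ : P)) with hr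
  have hru : aeval j r = u := by
    rw [hr, Polynomial.aeval_modByMonic_eq_self_of_root hj0]; exact hq
  have hdeg : r.natDegree < p := by
    have h1 := Polynomial.natDegree_modByMonic_lt q hmon (fun e => by
      have := congrArg Polynomial.natDegree e
      rw [natDegree_X_pow_sub_C, natDegree_one] at this
      exact (Fact.out : p.Prime).ne_zero this)
    rwa [natDegree_X_pow_sub_C] at h1
  have hd0 : derivative r = 0 := by
    by_contra hne
    have h1 := hθ r
    rw [hru, hu, eq_comm, mul_eq_zero] at h1
    have h2 : aeval j (derivative r) = 0 :=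
      Subtype.ext (h1.resolve_right theta_jqModC_ne_zero')
    have h3 := Polynomial.natDegree_le_of_dvd
      (minpoly.eq_of_irreducible_of_monic hirr hj0 hmon ▸ minpoly.dvd P j h2) hne
    rw [natDegree_X_pow_sub_C] at h3
    have := Polynomial.natDegree_derivative_le r
    omega
  have hC : r = C (r.coeff 0) := by
    refine Polynomial.ext fun n => ?_
    rcases n with _ | n
    · simp
    rw [coeff_C_succ]
    rcases le_or_gt p (n + 1) with h | h
    · exact coeff_eq_zero_of_natDegree_lt (by omega)
    have h1 := congrArg (fun s : P[X] => s.coeff n) hd0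
    rw [coeff_derivative, coeff_zero, mul_eq_zero] at h1
    refine h1.resolve_right fun e => ?_
    have : CharP P p := charP_of_injective_algebraMap (algebraMap P F).injective p |> fun _ => by
      exact (Subfield.subtype P).charP (Subfield.subtype P).injective p
    rw [← Nat.cast_one, ← Nat.cast_add, CharP.cast_eq_zero_iff P p] at e
    exact Nat.not_dvd_of_pos_of_lt n.succ_pos h e
  obtain ⟨v, hv⟩ := (r.coeff 0).2
  refine ⟨v, ?_⟩
  rw [← hru, hC, aeval_C]
  exact hv.symm

end Fermat.Agent.LevelLowerP
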