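import Fermat.Agent.LevelLowerP.GeoOrdinary
import Fermat.Agent.LevelLowerP.KappaPow

/-!
# Generalities for the nodes: residues of chart functions, extensions, and derivations killing a
uniformizer
-/

set_option autoImplicit false

noncomputable section

namespace Fermat.Agent.LevelLowerP

open Polynomial ModularCurve Fermat.Agent.Igusa AlgebraicCurve TrivSqZeroExt
open scoped LaurentSeries

namespace Branch

variable {O κ : Type*} [CommRing O] [IsDomain O] [Field κ] {B : Branch O κ}
  {L : Type*} [Field L] [Algebra O L] [IsFractionRing O L]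

theorem bGe_pow {o : ℤ} {x : L} (hx : B.BGe o x) (n : ℕ) : B.BGe (n * o) (x ^ n) := by
  induction n with
  | zero =>
    rw [Nat.cast_zero, zero_mul, pow_zero]
    exact Or.inr (le_of_eq B.ord_one.symm)
  | succ n ih =>
    rw [pow_succ, Nat.cast_succ, add_mul, one_mul]
    exact ih.mul hx

theorem bGe_sum {ι : Type*} (s : Finset ι) (f : ι → L) {n : ℤ} (h : ∀ i ∈ s, B.BGe n (f i)) :
    B.BGe n (∑ i ∈ s, f i) :=
  Finset.sum_induction f _ (fun _ _ => BGe.add) (bGe_zero n) h

/-- Roots of monic polynomials with integral coefficients are integral along a branch. -/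
theorem bGe_zero_of_root {x : L} {P : L[X]} (hP : P.Monic) (hc : ∀ i, B.BGe 0 (P.coeff i))
    (h : P.eval x = 0) : B.BGe 0 x := by
  rcases eq_or_ne x 0 with rfl | hx
  · exact bGe_zero 0
  by_contra hne
  have ho : B.ord x < 0 := not_le.1 fun h0 => hne (Or.inr h0)
  rw [eval_eq_sum_range, Finset.sum_range_succ, hP.coeff_natDegree, one_mul] at h
  have h1 : x ^ P.natDegree = -∑ i ∈ Finset.range P.natDegree, P.coeff i * x ^ i := by
    linear_combination h
  have h2 : B.BGe (((P.natDegree : ℤ) - 1) * B.ord x) (x ^ P.natDegree) := by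
    rw [h1]
    refine BGe.neg (bGe_sum _ _ fun i hi => ?_)
    rw [Finset.mem_range] at hi
    refine ((hc i).mul (bGe_pow (bGe_ord x) i)).mono ?_
    rw [zero_add]
    exact mul_le_mul_of_nonpos_right (by omega) ho.le
  have h3 : B.ord (x ^ P.natDegree) = P.natDegree * B.ord x := by
    induction P.natDegree with
    | zero => rw [pow_zero, Nat.cast_zero, zero_mul, B.ord_one]
    | succ n ih => rw [pow_succ, B.ord_mul (pow_ne_zero _ hx) hx, ih]; push_cast; ring
  have h4 := h2.resolve_left (pow_ne_zero _ hx)
  rw [h3] at h4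
  nlinarith

theorem fst_intδ_ne_zero_of_ord {x : B.intRing L} (hx : (x : L) ≠ 0) (h : B.ord (x : L) = 0) :
    (B.intδ x).fst ≠ 0 := by
  rw [B.fst_intδ, B.intRes_of_ord_eq_zero hx h]
  exact B.resUnit_ne_zero hx

/-- Elements with vanishing residue are divisible by the uniformizer. -/
theorem bGe_one_of_fst_intδ {x : B.intRing L} (h : (B.intδ x).fst = 0) : B.BGe 1 (x : L) := by
  rw [B.fst_intδ] at h
  obtain ⟨z, rfl⟩ := B.intRes_eq_zero_iff.1 h
  rw [Subring.coe_mul]
  exact ((bGe_ord _).mono (le_of_eq B.ord_ϖ.symm)).mul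
    (mem_intRing_iff_bGe.1 z.2) |>.mono (by norm_num)

end Branch

section Chart

variable {p : ℕ} {R k : Type} [CommRing R] [IsDomain R] [IsDiscreteValuationRing R] [Field k]
  [CharP k p] [Fact p.Prime] [CharZero R] {S : Setup p R k} (U : Unram S) (M : ℕ) [NeZero M]
  [IsAlgClosed k] [Algebra (ZMod p) k] [Algebra.IsAlgebraic (ZMod p) k] (hpM : ¬ p ∣ M)
  {v : Place k (modularFunctionFieldFullC k M)} (hv : 0 ≤ v.ord (jC k M))

include hpM hv

theorem ord₀_sp₀_toF {a : chartA U M} (ha : redA U M hpM a ≠ 0) :
    toF U M a ≠ 0 ∧ ord₀ S M hpM (toF U M a) = 0 ∧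
      sp₀ S M hpM (toF U M a) = inl (redA U M hpM a) := by
  let x : S.discBranch.intRing (FractionRing (PowerSeries R)) :=
    ⟨_, S.discBranch.isInt_algebraMap (discR U M hpM v hv a)⟩
  have hx : S.discBranch.intδ x = inl (ePt U M hpM v hv (redA U M hpM a)) := by
    rw [S.discBranch.intδ_algebraMap, ePt_redA]
    exact δS_map_subtype U (discA U M hpM v hv a)
  have hne : (S.discBranch.intδ x).fst ≠ 0 := by
    rw [hx, fst_inl]
    exact (_root_.map_ne_zero _).2 ha
  have h0 : toF U M a ≠ 0 := fun h => by
    refine S.discBranch.ne_zero_of_intδ hne ?_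
    rw [show (x : FractionRing (PowerSeries R)) = ιPt U M hpM v hv (toF U M a) from
      (ιPt_toF U M hpM v hv a).symm, h, map_zero]
  obtain ⟨h1, h2⟩ := (compat_ιPt U M hpM v hv).ord_sp_eq hpM (toF U M a) h0
  rw [ιPt_toF U M hpM v hv a] at h1 h2
  refine ⟨h0, ?_, dualMap_injective (ePt U M hpM v hv).injective ?_⟩
  · rw [← h1]
    exact S.discBranch.ord_eq_zero_of_intδ hne
  · refine h2.symm.trans ((S.discBranch.sp_eq_intδ hne).trans ?_)
    rw [hx]
    refine TrivSqZeroExt.ext ?_ ?_ <;> simp

/-- Chart functions are integral along every compatible expansion, with the expected residue. -/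
theorem Compat.exists_chart {O κ' : Type*} [CommRing O] [IsDomain O] [Field κ'] {B : Branch O κ'}
    {ι : modularFunctionFieldFullC (FractionRing R) M →+* FractionRing O}
    {e : modularFunctionFieldFullC k M →+* κ'} (h : Compat S M B ι e) (a : chartA U M) :
    ∃ x : B.intRing (FractionRing O), (x : FractionRing O) = ι (toF U M a) ∧
      B.intδ x = inl (e (redA U M hpM a)) := by
  have key : ∀ a : chartA U M, redA U M hpM a ≠ 0 →
      ∃ x : B.intRing (FractionRing O), (x : FractionRing O) = ι (toF U M a) ∧
        B.intδ x = inl (e (redA U M hpM a)) := by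
    intro a ha
    obtain ⟨h0, h1, h2⟩ := ord₀_sp₀_toF U M hpM hv ha
    obtain ⟨h3, h4⟩ := h.ord_sp_eq hpM (toF U M a) h0
    rw [h1] at h3
    refine ⟨⟨_, B.isInt_iff.2 (Or.inr (le_of_eq h3.symm))⟩, rfl, ?_⟩
    rw [← B.sp_eq_intδ (Branch.fst_intδ_ne_zero_of_ord ((_root_.map_ne_zero ι).2 h0) h3), h4, h2]
    refine TrivSqZeroExt.ext ?_ ?_ <;> simp
  by_cases ha : redA U M hpM a = 0
  · obtain ⟨x, hx, hx'⟩ := key (a + 1) (by rw [map_add, map_one, ha, zero_add]; exact one_ne_zero)
    refine ⟨x - 1, ?_, ?_⟩
    · push_cast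
      rw [hx, map_add, map_add, map_one, map_one, add_sub_cancel_right]
    · rw [map_sub, map_one, hx', map_add, map_one, ha, zero_add, map_one, map_zero,
        TrivSqZeroExt.inl_one, sub_self, TrivSqZeroExt.inl_zero]
  · exact key a ha

omit hv [IsDiscreteValuationRing R] in
/-- Maps of the chart killing the kernel of reduction, with nonzero reductions to units, extend
to the reduced function field. -/
theorem exists_extend {T : Type*} [CommRing T] (f : chartA U M →+* T)
    (h0 : ∀ a, redA U M hpM a = 0 → f a = 0) (hu : ∀ a, redA U M hpM a ≠ 0 → IsUnit (f a)) :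
    ∃ F : modularFunctionFieldFullC k M →+* T, ∀ a, F (redA U M hpM a) = f a := by
  have heq : ∀ a b, redA U M hpM a = redA U M hpM b → f a = f b := by
    intro a b h
    have h1 := h0 (a + algebraMap U.R₀ _ (-1) * b) (by
      rw [map_add, map_mul, redA_algebraMap, map_neg, map_one, map_neg, map_one, h, neg_one_mul,
        add_neg_cancel])
    have hn : f (algebraMap U.R₀ _ (-1)) = -1 :=
      ((f.comp (algebraMap U.R₀ (chartA U M))).map_neg 1).trans (by rw [map_one])
    rwa [map_add, map_mul, hn, neg_one_mul, add_neg_eq_zero] at h1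
  choose a b hb hab using exists_frac U M hpM
  let F : modularFunctionFieldFullC k M → T := fun z => f (a z) * ↑(hu (b z) (hb z)).unit⁻¹
  have hF : ∀ z a' b', redA U M hpM b' ≠ 0 → z * redA U M hpM b' = redA U M hpM a' →
      F z * f b' = f a' := by
    intro z a' b' hb' h'
    have h1 := heq (a z * b') (a' * b z) (by rw [map_mul, map_mul, ← hab z, ← h']; ring)
    rw [map_mul, map_mul] at h1
    refine (hu (b z) (hb z)).mul_right_cancel ?_
    rw [← h1]
    simp only [F]
    rw [mul_right_comm, mul_assoc (f (a z)), IsUnit.val_inv_mul, mul_one]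
  have hF1 : ∀ a', F (redA U M hpM a') = f a' := fun a' => by
    have := hF (redA U M hpM a') a' 1 (by rw [map_one]; exact one_ne_zero)
      (by rw [map_one, mul_one])
    rwa [map_one, mul_one] at this
  refine ⟨{
    toFun := F
    map_one' := by rw [← map_one (redA U M hpM), hF1, map_one]
    map_zero' := by rw [← map_zero (redA U M hpM), hF1, map_zero]
    map_mul' := fun x y => by
      refine ((hu (b x) (hb x)).mul (hu (b y) (hb y))).mul_right_cancel ?_
      rw [← map_mul, hF (x * y) (a x * a y) (b x * b y)
        (by rw [map_mul]; exact mul_ne_zero (hb x) (hb y))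
        (by rw [map_mul, map_mul, ← hab x, ← hab y]; ring), map_mul, map_mul,
        ← hF x (a x) (b x) (hb x) (hab x), ← hF y (a y) (b y) (hb y) (hab y)]
      ring
    map_add' := fun x y => by
      refine ((hu (b x) (hb x)).mul (hu (b y) (hb y))).mul_right_cancel ?_
      rw [← map_mul, hF (x + y) (a x * b y + a y * b x) (b x * b y)
        (by rw [map_mul]; exact mul_ne_zero (hb x) (hb y))
        (by rw [map_add, map_mul, map_mul, map_mul, ← hab x, ← hab y]; ring), map_add, map_mul,
        map_mul, map_mul, ← hF x (a x) (b x) (hb x) (hab x), ← hF y (a y) (b y) (hb y) (hab y)]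
      ring }, hF1⟩

end Chart

section Derivation

variable {p : ℕ} [Fact p.Prime] {k : Type*} [Field k] [CharP k p] [IsAlgClosed k]
  {M : ℕ} [NeZero M]

local notation "F" => modularFunctionFieldFullC k M

omit [CharP k p] [IsAlgClosed k] [NeZero M] in
/-- The value of a derivation on a polynomial in `j` over the `p`th powers. -/
theorem deriv_aeval_jC [CharP F p] {E : Type*} [CommRing E] (φ : F →+* E) (D : F →+ E)
    (hD : ∀ x y, D (x * y) = φ x * D y + φ y * D x)
    (hP : ∀ a : powSubfield (k := k) (M := M) p, D (a : F) = 0)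
    (q : (powSubfield (k := k) (M := M) p)[X]) :
    D (aeval (jC k M) q) = φ (aeval (jC k M) (derivative q)) * D (jC k M) := by
  induction q using Polynomial.induction_on' with
  | add a b ha hb => rw [map_add, map_add, map_add, map_add, map_add, ha, hb, add_mul]
  | monomial n a =>
    have hpow : ∀ n : ℕ, D (jC k M ^ n) = φ ((n : F) * jC k M ^ (n - 1)) * D (jC k M) := by
      intro n
      induction n with
      | zero =>
        have h1 := hD 1 1
        rw [map_one, one_mul, one_mul] at h1
        simp [show D (1 : F) = 0 by linear_combination -h1]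
      | succ n ih =>
        rw [pow_succ, hD, ih]
        rcases n with _ | n
        · simp
        · simp only [map_mul, map_add, map_one, map_natCast, map_pow, Nat.add_sub_cancel,
            Nat.cast_add, Nat.cast_one, pow_succ]
          ring
    rw [derivative_monomial, aeval_monomial, aeval_monomial, hD, hpow,
      show D (algebraMap _ F a) = 0 from hP a, mul_zero, add_zero, map_mul, map_natCast]
    simp only [map_mul, map_natCast]
    ring

/-- A derivation along a field map killing `p`th powers and a function not killed by `θ` is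
zero. -/
theorem deriv_eq_zero_of_theta (hpM : ¬ p ∣ M) {E : Type*} [Field E] (φ : F →+* E) (D : F →+ E)
    (hD : ∀ x y, D (x * y) = φ x * D y + φ y * D x) (hp : ∀ x, D (x ^ p) = 0) {h : F}
    (hh : theta k (h : LaurentSeries k) ≠ 0) (hDh : D h = 0) : D = 0 := by
  have : CharP F p := charP_of_injective_algebraMap (algebraMap k F).injective p
  have hP : ∀ a : powSubfield (k := k) (M := M) p, D (a : F) = 0 := fun a => by
    obtain ⟨z, hz⟩ := a.2
    rw [← hz, frobenius_def, hp]
  have : CharP (LaurentSeries k) p :=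
    charP_of_injective_ringHom (HahnSeries.C_injective (Γ := ℤ) (R := k)) p
  obtain ⟨q, hq⟩ := (Algebra.adjoin_singleton_eq_range_aeval _ (jC k M)).le (mem_adjoin_jC hpM h)
  let Dθ : F →+ LaurentSeries k :=
    (theta k).comp (SubringClass.subtype (modularFunctionFieldFullC k M)).toAddMonoidHom
  have hθ := deriv_aeval_jC (SubringClass.subtype (modularFunctionFieldFullC k M)) Dθ
    (fun x y => by
      show theta k ((x * y : F) : LaurentSeries k) = _
      rw [MulMemClass.coe_mul, theta_mul]
      show _ = (x : LaurentSeries k) * theta k (y : LaurentSeries k) +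
        (y : LaurentSeries k) * theta k (x : LaurentSeries k)
      ring)
    (fun a => by
      obtain ⟨z, hz⟩ := a.2
      show theta k ((a : F) : LaurentSeries k) = 0
      rw [← hz, frobenius_def, SubmonoidClass.coe_pow, theta_pow_char p]) q
  have hne : aeval (jC k M) (derivative q) ≠ 0 := fun h0 => hh (by
    rw [h0, map_zero, zero_mul] at hθ
    rw [← hq]
    exact hθ)
  have hj : D (jC k M) = 0 := by
    have h1 := deriv_aeval_jC φ D hD hP q
    rw [show aeval (jC k M) q = h from hq, hDh, eq_comm, mul_eq_zero] at h1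
    exact h1.resolve_left ((_root_.map_ne_zero φ).2 hne)
  refine AddMonoidHom.ext fun x => ?_
  obtain ⟨r, hr⟩ := (Algebra.adjoin_singleton_eq_range_aeval _ (jC k M)).le (mem_adjoin_jC hpM x)
  rw [← hr]
  refine (deriv_aeval_jC φ D hD hP r).trans ?_
  rw [hj, mul_zero]
  rfl

end Derivation

end Fermat.Agent.LevelLowerP
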