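import Fermat.Agent.LevelLowerP.GeoLiftPairs
import Fermat.Agent.LevelLowerP.GeoNodeBase
import Fermat.Agent.LevelLowerP.GBranch

/-!
# Lifts of compatible pairs of functions on the two components
-/

set_option autoImplicit false

noncomputable section

namespace Fermat.Agent.LevelLowerP

open Polynomial ModularCurve Fermat.Agent.Igusa AlgebraicCurve TrivSqZeroExt
open Fermat.Agent.Reduction Fermat.Agent.Reduction.Level
open scoped LaurentSeries

section Bounds

variable {K : Type*} [Field K] [CharZero K] {M p : ℕ} [NeZero M] [Fact p.Prime]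

omit [CharZero K] [NeZero M] in
theorem scaleP_algebraMap (c : K) :
    scaleP M p (algebraMap K (modularFunctionFieldFullC K M) c) =
      algebraMap K (modularFunctionFieldFullC K (M * p)) c := by
  apply Subtype.val_injective
  rw [coe_scaleP]
  show qExpand K p (algebraMap K (LaurentSeries K) c) = algebraMap K (LaurentSeries K) c
  rw [algebraMap_laurentSeries_eq_single, ← HahnSeries.C_apply, qExpand_C]

variable {L : Type*} [Field L] {Γ₀ : Type*} [LinearOrderedCommGroupWithZero Γ₀]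
  (w : Valuation L Γ₀)

omit [CharZero K] [NeZero M] [Fact p.Prime] in
/-- Roots of monic equations over `ℤ[z]` are bounded where `z` is. -/
theorem val_root_le_one {P : ℤ[X][X]} (hP : P.Monic) {x z : L} (hz : w z ≤ 1)
    (h : P.eval₂ (eval₂RingHom (Int.castRingHom L) z) x = 0) : w x ≤ 1 := by
  let V := w.valuationSubring
  let z' : V := ⟨z, hz⟩
  let g : ℤ[X] →+* V := eval₂RingHom (Int.castRingHom V) z'
  have hg : (algebraMap V L).comp g = eval₂RingHom (Int.castRingHom L) z :=
    Polynomial.ringHom_ext (fun c => by simp [g]) (by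
      simp only [g, RingHom.comp_apply, coe_eval₂RingHom, eval₂_X]
      rfl)
  have hint : IsIntegral V x := ⟨P.map g, hP.map g, by rw [eval₂_map, hg]; exact h⟩
  obtain ⟨y, rfl⟩ := IsIntegrallyClosed.isIntegral_iff.1 hint
  exact y.2

end Bounds

variable {p : ℕ} {R k : Type} [CommRing R] [IsDomain R] [IsDiscreteValuationRing R] [Field k]
  [CharP k p] [Fact p.Prime] [CharZero R] (S : Setup p R k) (M : ℕ) [NeZero M] [IsAlgClosed k]

local notation "K" => FractionRing R
local notation "F" => modularFunctionFieldFullC k M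
local notation "L" => modularFunctionFieldFullC (FractionRing R) (M * p)

/-- The component at infinity seen by the expansion at infinity. -/
def embInf (hpM : ¬ p ∣ M) : Emb (infGB S M hpM) S.discBranch (FractionRing (PowerSeries R)) where
  ι := iInf (M * p)
  e := eInf k M
  e_algebraMap := eInf_algebraMap M
  cst := PowerSeries.C
  cst_ϖ := rfl
  ι_algebraMap r := by rw [algebraMap_eq_cF, iInf_cF]
  ord_eq _ _ := rfl
  sp_eq _ hx := (dualMap_spInf S M hpM hx).symm

omit [CharZero R] [IsAlgClosed k] in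
/-- The second copy of level `M` at infinity. -/
theorem compat_iInf_scaleP : Compat S M S.discBranch ((iInf (M * p)).comp (scaleP M p))
    ((eInf k M).comp (phiK p k M)) := by
  have hcc : ∀ r : R, (iInf (M * p)).comp (scaleP M p) (cF M r) =
      algebraMap (PowerSeries R) (FractionRing (PowerSeries R)) (PowerSeries.C r) := fun r => by
    rw [RingHom.comp_apply, cF_scaleP, iInf_cF]
  obtain ⟨x, hx, hx'⟩ := S.ofInt_spec (qExpand ℤ p (jqModC ℤ))
  obtain ⟨y, hy, hy'⟩ := S.ofInt_spec (qExpand ℤ p (qExpand ℤ M (jqModC ℤ)))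
  have hj : (iInf (M * p)).comp (scaleP M p) (jC K M) = (x : FractionRing (PowerSeries R)) :=
    (Setup.toLS R).injective (by
      rw [hx, RingHom.comp_apply, toLS_iInf, Setup.toLS_ofInt, coe_scaleP, coeffMap_qExpand,
        coeffMap_jqModC]
      rfl)
  have hjN : (iInf (M * p)).comp (scaleP M p) (jNC K M) = (y : FractionRing (PowerSeries R)) :=
    (Setup.toLS R).injective (by
      rw [hy, RingHom.comp_apply, toLS_iInf, Setup.toLS_ofInt, coe_scaleP, coeffMap_qExpand,
        coeffMap_qExpand, coeffMap_jqModC]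
      rfl)
  refine ⟨hcc S.ϖ, fun r => by rw [hcc]; exact S.discBranch.isInt_algebraMap _, fun r => ?_,
    hj ▸ x.2, ?_, hjN ▸ y.2, ?_⟩
  · rw [S.discBranch.intδ_eq (s := PowerSeries.C r) (t := 1)
      (by rw [map_one]; exact one_ne_zero) (by rw [map_one, mul_one]; exact hcc r)]
    rw [map_one, TrivSqZeroExt.inv_one, mul_one]
    show S.δS _ = _
    rw [δS_C]
    refine TrivSqZeroExt.ext ?_ ?_ <;>
      simp [phiK_algebraMap, algebraMap_laurentSeries_eq_single]
  · refine ((congrArg S.discBranch.intδ (Subtype.ext hj)).trans hx').trans ?_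
    rw [coeffMap_qExpand, coeffMap_jqModC]
    rfl
  · refine ((congrArg S.discBranch.intδ (Subtype.ext hjN)).trans hy').trans ?_
    rw [coeffMap_qExpand, coeffMap_qExpand, coeffMap_jqModC]
    rfl

variable (hpM : ¬ p ∣ M)

omit [CharZero R] in
/-- Residues read off from the expansion at infinity. -/
theorem res_of_intδ {z : L} {a : F} (x : S.discBranch.intRing (FractionRing (PowerSeries R)))
    (hx : (x : FractionRing (PowerSeries R)) = iInf (M * p) z)
    (hδ : (S.discBranch.intδ x).fst = eInf k M a) :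
    (infGB S M hpM).Ge 0 z ∧ (infGB S M hpM).res z = a := by
  have hge : (infGB S M hpM).Ge 0 z := (embInf S M hpM).isInt_iff.1 (by
    show S.discBranch.IsInt (iInf (M * p) z)
    rw [← hx]; exact x.2)
  refine ⟨hge, (embInf S M hpM).e_injective ?_⟩
  rw [← (embInf S M hpM).intRes_eq hge]
  refine Eq.trans ?_ hδ
  rw [S.discBranch.fst_intδ]
  exact congrArg _ (Subtype.ext hx.symm)

omit [CharZero R] in
theorem res_const (r : R) : (infGB S M hpM).Ge 0 (algebraMap R L r) ∧
    (infGB S M hpM).res (algebraMap R L r) = algebraMap k F (S.res r) :=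
  res_of_intδ S M hpM ⟨_, (compat_iInf_inclP S M).int_const r⟩
    (by
      show iInf (M * p) (inclP M p (cF M r)) = _
      rw [cF_inclP]; rfl)
    (by rw [(compat_iInf_inclP S M).δ_const r, fst_dualMap, fst_dualMap]; rfl)

theorem res_vElt : (infGB S M hpM).Ge 0 (vElt K M p) ∧
    (infGB S M hpM).res (vElt K M p) = hasseK p k M := by
  obtain ⟨x, hx, hx'⟩ := S.ofInt_spec (vSer p ℤ)
  refine res_of_intδ S M hpM x ((Setup.toLS R).injective ?_) ?_
  · rw [toLS_iInf, hx, Setup.toLS_ofInt, coeffMap_vSer, coe_vElt _ M p hpM]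
  · rw [hx', TrivSqZeroExt.fst_inl, coeffMap_vSer]
    exact (coe_hasseK p k M).symm

theorem res_wAL_vElt : (infGB S M hpM).Ge 0 (wAL K M p hpM (vElt K M p)) ∧
    (infGB S M hpM).res (wAL K M p hpM (vElt K M p)) = 0 := by
  obtain ⟨x, hx, hx'⟩ := S.ofInt_spec
    ((p : LaurentSeries ℤ) ^ 12 * (qExpand ℤ p (deltaR ℤ) * deltaInvR ℤ))
  refine res_of_intδ S M hpM x ((Setup.toLS R).injective ?_) ?_
  · rw [toLS_iInf, hx, Setup.toLS_ofInt, coe_wAL_vElt, map_mul, map_mul, map_pow, map_natCast,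
      coeffMap_qExpand, coeffMap_deltaR, coeffMap_deltaInvR]
  · rw [hx', TrivSqZeroExt.fst_inl, map_zero, map_mul, map_pow, map_natCast,
      ← map_natCast (HahnSeries.C : k →+* LaurentSeries k), CharP.cast_eq_zero, map_zero,
      zero_pow (by norm_num), zero_mul]

theorem zeroGB_ge_iff {n : ℤ} {x : L} :
    (zeroGB S M hpM).Ge n x ↔ (infGB S M hpM).Ge n (wAL K M p hpM x) :=
  or_congr (_root_.map_eq_zero _).symm Iff.rfl

theorem zeroGB_res (x : L) :
    (zeroGB S M hpM).res x = (infGB S M hpM).res (wAL K M p hpM x) := by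
  rcases eq_or_ne x 0 with rfl | hx
  · rw [map_zero, GBranch.res_zero, GBranch.res_zero]
  by_cases h : (zeroGB S M hpM).ord x = 0
  · have h' : (infGB S M hpM).ord (wAL K M p hpM x) = 0 := h
    rw [GBranch.res_of_ord_eq_zero _ hx h,
      GBranch.res_of_ord_eq_zero (infGB S M hpM) ((_root_.map_ne_zero _).2 hx) h']
    rfl
  · have h' : (infGB S M hpM).ord (wAL K M p hpM x) ≠ 0 := h
    rw [GBranch.res_of_ord_ne_zero _ h, GBranch.res_of_ord_ne_zero (infGB S M hpM) h']

/-- `γ` lifts `(a, b)` with poles bounded by `n`. -/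
def Lifts (n : ℕ) (γ : L) (a b : F) : Prop :=
  (CuspBdd p M K n γ ∧ CuspBdd p M K n (wAL K M p hpM γ)) ∧
  ((infGB S M hpM).Ge 0 γ ∧ (infGB S M hpM).res γ = a) ∧
  ((infGB S M hpM).Ge 0 (wAL K M p hpM γ) ∧ (infGB S M hpM).res (wAL K M p hpM γ) = b)

theorem Lifts.swap {n : ℕ} {γ : L} {a b : F} (h : Lifts S M hpM n γ a b) :
    Lifts S M hpM n (wAL K M p hpM γ) b a := by
  obtain ⟨⟨h1, h2⟩, h3, h4⟩ := h
  unfold Lifts
  rw [wAL_wAL]
  exact ⟨⟨h2, h1⟩, h4, h3⟩

omit [IsDiscreteValuationRing R] [CharP k p] [IsAlgClosed k] [CharZero R] in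
theorem CuspBdd.add' {n : ℕ} {x y : L} (hx : CuspBdd p M K n x) (hy : CuspBdd p M K n y) :
    CuspBdd p M K n (x + y) := fun w hw =>
  ⟨fun h => (w.map_add x y).trans (max_le ((hx w hw).1 h) ((hy w hw).1 h)),
   fun h1 h2 h3 => (w.map_add x y).trans (max_le ((hx w hw).2 h1 h2 h3) ((hy w hw).2 h1 h2 h3))⟩

omit [IsDiscreteValuationRing R] [CharP k p] [IsAlgClosed k] [CharZero R] in
theorem CuspBdd.const_mul {n : ℕ} {x : L} (hx : CuspBdd p M K n x) (r : R) :
    CuspBdd p M K n (algebraMap R L r * x) := fun w hw => by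
  have hr : w (algebraMap R L r) ≤ 1 := hw (algebraMap R K r)
  rw [map_mul]
  exact ⟨fun h => mul_le_one' hr ((hx w hw).1 h),
    fun h1 h2 h3 => (mul_le_of_le_one_left' hr).trans ((hx w hw).2 h1 h2 h3)⟩

/-- The pairs with lifts bounded by `n`. -/
def goodPairs (n : ℕ) : Submodule k (F × F) where
  carrier := {ab | ∃ γ, Lifts S M hpM n γ ab.1 ab.2}
  zero_mem' := by
    refine ⟨0, ?_, ⟨Or.inl rfl, GBranch.res_zero _⟩, ?_⟩
    · rw [map_zero]
      have h : CuspBdd p M K n (0 : L) := fun w _ =>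
        ⟨fun _ => by rw [map_zero]; exact zero_le, fun _ _ _ => by rw [map_zero]; exact zero_le⟩
      exact ⟨h, h⟩
    · rw [map_zero]
      exact ⟨Or.inl rfl, GBranch.res_zero _⟩
  add_mem' := by
    rintro ⟨a, b⟩ ⟨a', b'⟩ ⟨γ, ⟨h1, h2⟩, ⟨h3, h4⟩, h5, h6⟩ ⟨δ, ⟨g1, g2⟩, ⟨g3, g4⟩, g5, g6⟩
    refine ⟨γ + δ, ?_, ⟨(embInf S M hpM).ge_add h3 g3, ?_⟩, ?_⟩
    · rw [map_add]
      exact ⟨h1.add' M g1, h2.add' M g2⟩
    · rw [(embInf S M hpM).res_add h3 g3, h4, g4]; rfl
    · rw [map_add]
      refine ⟨(embInf S M hpM).ge_add h5 g5, ?_⟩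
      rw [(embInf S M hpM).res_add h5 g5, h6, g6]; rfl
  smul_mem' := by
    rintro c ⟨a, b⟩ ⟨γ, ⟨h1, h2⟩, ⟨h3, h4⟩, h5, h6⟩
    obtain ⟨r, rfl⟩ := S.res_surjective c
    obtain ⟨hr, hr'⟩ := res_const S M hpM r
    have hw : wAL K M p hpM (algebraMap R L r * γ) = algebraMap R L r * wAL K M p hpM γ := by
      rw [map_mul, algebraMap_eq_cF, wAL_cF]
    refine ⟨algebraMap R L r * γ, ?_, ⟨by simpa using GBranch.ge_mul _ hr h3, ?_⟩, ?_⟩
    · rw [hw]
      exact ⟨h1.const_mul M r, h2.const_mul M r⟩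
    · rw [(embInf S M hpM).res_mul hr h3, hr', h4]
      exact (Algebra.smul_def _ _).symm
    · rw [hw]
      refine ⟨by simpa using GBranch.ge_mul _ hr h5, ?_⟩
      rw [(embInf S M hpM).res_mul hr h5, hr', h6]
      exact (Algebra.smul_def _ _).symm

theorem goodPairs_mono : Monotone (goodPairs S M hpM) := by
  rintro m n hmn ab ⟨γ, ⟨h1, h2⟩, h3, h4⟩
  have key : ∀ x : L, CuspBdd p M K m x → CuspBdd p M K n x := fun x hx w hw =>
    ⟨(hx w hw).1, fun g1 g2 g3 => ((hx w hw).2 g1 g2 g3).trans (pow_le_pow_right' g1.le hmn)⟩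
  exact ⟨γ, ⟨key _ h1, key _ h2⟩, h3, h4⟩

omit [CharZero R] in
theorem ge_res_pow {x : L} {a : F} (h : (infGB S M hpM).Ge 0 x ∧ (infGB S M hpM).res x = a)
    (s : ℕ) : (infGB S M hpM).Ge 0 (x ^ s) ∧ (infGB S M hpM).res (x ^ s) = a ^ s := by
  refine ⟨(embInf S M hpM).ge_pow h.1 s, ?_⟩
  induction s with
  | zero => rw [pow_zero, pow_zero, (embInf S M hpM).res_one]
  | succ s ih =>
    rw [pow_succ, (embInf S M hpM).res_mul ((embInf S M hpM).ge_pow h.1 s) h.1, ih, h.2, pow_succ]

omit [CharZero R] in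
theorem ge_res_mul {x y : L} {a b : F} (hx : (infGB S M hpM).Ge 0 x ∧ (infGB S M hpM).res x = a)
    (hy : (infGB S M hpM).Ge 0 y ∧ (infGB S M hpM).res y = b) :
    (infGB S M hpM).Ge 0 (x * y) ∧ (infGB S M hpM).res (x * y) = a * b :=
  ⟨by simpa using GBranch.ge_mul _ hx.1 hy.1,
    by rw [(embInf S M hpM).res_mul hx.1 hy.1, hx.2, hy.2]⟩

omit [IsDiscreteValuationRing R] in
/-- Bounds of the three functions at a valuation where `j` is bounded. -/
theorem val_le_one_of_j {w : Valuation L (WithZero (Multiplicative ℤ))}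
    (hj : w (inclP M p (jC K M)) ≤ 1) :
    w (scaleP M p (jC K M)) ≤ 1 ∧ w (vElt K M p) ≤ 1 ∧ w (wAL K M p hpM (vElt K M p)) ≤ 1 := by
  have h1 : w (scaleP M p (jC K M)) ≤ 1 :=
    val_root_le_one w (exists_kronecker p).choose_spec.1 hj (kQ_eval₂_eq_zero K M p)
  have hv : (vQ p).eval₂ (eval₂RingHom (Int.castRingHom L) (inclP M p (jC K M)))
      (vElt K M p) = 0 := by
    have h := vQ_relation K M p hpM
    rw [Polynomial.eval₂_map] at h
    refine Eq.trans (congrArg (fun g => (vQ p).eval₂ g (vElt K M p)) ?_) h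
    exact Polynomial.ringHom_ext (fun c => by simp) (by simp)
  refine ⟨h1, val_root_le_one w (vQ_monic p) hj hv, val_root_le_one w (vQ_monic p) h1 ?_⟩
  have h := congrArg (wAL K M p hpM) hv
  rw [map_zero, Polynomial.hom_eval₂] at h
  refine Eq.trans (congrArg
    (fun g => (vQ p).eval₂ g (wAL K M p hpM (vElt K M p))) ?_) h
  exact Polynomial.ringHom_ext (fun c => by simp) (by simp [wAL_inclP])

omit [IsDiscreteValuationRing R] in
theorem vElt_mul_wAL_vElt : vElt K M p * wAL K M p hpM (vElt K M p) =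
    algebraMap K L ((p : K) ^ 12) := by
  apply Subtype.val_injective
  rw [MulMemClass.coe_mul, coe_vElt K M p hpM, coe_wAL_vElt, map_pow, map_natCast,
    SubmonoidClass.coe_pow, vSer]
  have h : qExpand K p (deltaR K) * qExpand K p (deltaInvR K) = 1 := by
    rw [← map_mul, deltaR_mul_deltaInvR, map_one]
  rw [show (((p : L)) : LaurentSeries K) = (p : LaurentSeries K) from
    map_natCast (SubringClass.subtype (modularFunctionFieldFullC K (M * p))) p]
  linear_combination ((p : LaurentSeries K) ^ 12 * (deltaR K * deltaInvR K)) * h +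
    (p : LaurentSeries K) ^ 12 * deltaR_mul_deltaInvR K

variable [Algebra (ZMod p) k] [Algebra.IsAlgebraic (ZMod p) k] (U : Unram S)

omit [IsAlgClosed k] [Algebra.IsAlgebraic (ZMod p) k] [Algebra (ZMod p) k] in
/-- Chart functions are rational. -/
theorem toF_chartOf {y : ratChart p M} {x : modularFunctionFieldFullC ℚ M}
    (hx : (x : LaurentSeries ℚ) = toQ p (y : LaurentSeries (ZL p))) :
    toF U M (chartOf U M y) = baseHom (algebraMap ℚ K) M x := by
  apply Subtype.val_injective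
  rw [coe_baseHom, hx, coe_toF, toQ, coeffMap_coeffMap]
  show coeffMap _ (coeffMap U.zl₀ _) = _
  rw [coeffMap_coeffMap,
    show ((algebraMap R (FractionRing R)).comp U.R₀.subtype).comp U.zl₀ =
      (algebraMap ℚ (FractionRing R)).comp (GaloisRep.ratLocalizedAt p).subtype from
      RingHom.ext fun q => (U.algebraMap_zl q).trans (eq_ratCast (algebraMap ℚ _) _).symm]
  rfl

omit [IsAlgClosed k] [Algebra.IsAlgebraic (ZMod p) k] [Algebra (ZMod p) k] in
theorem val_chart_le {y : ratChart p M} {m : ℕ} (hy : ChartBdd p M m y)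
    {w : Valuation L (WithZero (Multiplicative ℤ))} (hw : ∀ c, w (algebraMap K L c) ≤ 1) :
    w (inclP M p (toF U M (chartOf U M y))) ≤ max 1 (w (inclP M p (jC K M))) ^ m ∧
      w (scaleP M p (toF U M (chartOf U M y))) ≤ max 1 (w (scaleP M p (jC K M))) ^ m := by
  obtain ⟨x, hx, hb⟩ := hy
  rw [toF_chartOf S M U hx]
  constructor
  · have h := hb (w.comap ((inclP M p).comp (baseHom (algebraMap ℚ K) M))) fun c => by
      rw [Valuation.comap_apply, RingHom.comp_apply, baseHom_algebraMap, inclP_algebraMap]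
      exact hw _
    simpa only [Valuation.comap_apply, RingHom.comp_apply, baseHom_jC] using h
  · have h := hb (w.comap ((scaleP M p).comp (baseHom (algebraMap ℚ K) M))) fun c => by
      rw [Valuation.comap_apply, RingHom.comp_apply, baseHom_algebraMap, scaleP_algebraMap]
      exact hw _
    simpa only [Valuation.comap_apply, RingHom.comp_apply, baseHom_jC] using h

variable [FF.IsFunctionField k (modularFunctionFieldFullC k M)]

theorem res_chart (y : ratChart p M) :
    ((infGB S M hpM).Ge 0 (inclP M p (toF U M (chartOf U M y))) ∧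
      (infGB S M hpM).res (inclP M p (toF U M (chartOf U M y))) = redA U M hpM (chartOf U M y)) ∧
    ((infGB S M hpM).Ge 0 (scaleP M p (toF U M (chartOf U M y))) ∧
      (infGB S M hpM).res (scaleP M p (toF U M (chartOf U M y))) =
        phiK p k M (redA U M hpM (chartOf U M y))) := by
  obtain ⟨v, hv⟩ := FF.exists_place_ord_pos (FF.transcendental_jC k M)
  constructor
  · obtain ⟨x, hx, hδ⟩ :=
      Compat.exists_chart U M hpM hv.le (compat_iInf_inclP S M) (chartOf U M y)
    exact res_of_intδ S M hpM x hx (by rw [hδ, TrivSqZeroExt.fst_inl])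
  · obtain ⟨x, hx, hδ⟩ :=
      Compat.exists_chart U M hpM hv.le (compat_iInf_scaleP S M) (chartOf U M y)
    exact res_of_intδ S M hpM x hx (by rw [hδ, TrivSqZeroExt.fst_inl]; rfl)

/-- Lifts of the pairs `(x, Φ x)`. -/
theorem lifts_chart {y : ratChart p M} {m N : ℕ} (hy : ChartBdd p M m y) (hN : p * m ≤ N) :
    Lifts S M hpM N (inclP M p (toF U M (chartOf U M y))) (redA U M hpM (chartOf U M y))
      (phiK p k M (redA U M hpM (chartOf U M y))) := by
  obtain ⟨h1, h2⟩ := res_chart S M hpM U y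
  unfold Lifts
  rw [wAL_inclP]
  refine ⟨⟨fun w hw => ?_, fun w hw => ?_⟩, h1, h2⟩
  · obtain ⟨b, -⟩ := val_chart_le S M U hy hw
    refine ⟨fun h => b.trans (by rw [max_eq_left h, one_pow]), fun h _ _ => b.trans ?_⟩
    rw [max_eq_right h.le]
    exact pow_le_pow_right' h.le
      ((Nat.le_mul_of_pos_left m (Fact.out : p.Prime).pos).trans hN)
  · obtain ⟨-, b⟩ := val_chart_le S M U hy hw
    refine ⟨fun h => b.trans (by rw [max_eq_left (val_le_one_of_j M hpM h).1, one_pow]),
      fun h e _ => b.trans ?_⟩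
    rw [e, max_eq_right (one_le_pow₀ h.le), ← pow_mul]
    exact pow_le_pow_right' h.le hN

/-- Lifts of the pairs `(H ^ s x, 0)`. -/
theorem lifts_chart_hasse {y : ratChart p M} {m N s : ℕ} (hy : ChartBdd p M m y) (hs : 1 ≤ s)
    (hN : s * (p - 1) + m ≤ N) (hN' : p * m ≤ N) :
    Lifts S M hpM N (inclP M p (toF U M (chartOf U M y)) * vElt K M p ^ s)
      (hasseK p k M ^ s * redA U M hpM (chartOf U M y)) 0 := by
  obtain ⟨h1, h2⟩ := res_chart S M hpM U y
  unfold Lifts
  rw [map_mul, map_pow, wAL_inclP]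
  refine ⟨⟨fun w hw => ?_, fun w hw => ?_⟩, ?_, ?_⟩
  · obtain ⟨b, -⟩ := val_chart_le S M U hy hw
    rw [map_mul, map_pow]
    refine ⟨fun h => mul_le_one' (b.trans (by rw [max_eq_left h, one_pow]))
      (pow_le_one₀ zero_le (val_le_one_of_j M hpM h).2.1), fun h _ e => ?_⟩
    rw [max_eq_right h.le] at b
    refine (mul_le_mul' b le_rfl).trans ?_
    rw [e, ← pow_mul, ← pow_add]
    exact pow_le_pow_right' h.le (by rw [mul_comm] at hN; omega)
  · obtain ⟨-, b⟩ := val_chart_le S M U hy hw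
    rw [map_mul, map_pow]
    refine ⟨fun h => ?_, fun h e e' => ?_⟩
    · exact mul_le_one' (b.trans (by rw [max_eq_left (val_le_one_of_j M hpM h).1, one_pow]))
        (pow_le_one₀ zero_le (val_le_one_of_j M hpM h).2.2)
    · rw [e, max_eq_right (one_le_pow₀ h.le), ← pow_mul] at b
      have hprod : w (vElt K M p) * w (wAL K M p hpM (vElt K M p)) ≤ 1 := by
        rw [← map_mul, vElt_mul_wAL_vElt]
        exact hw _
      have hw' : w (wAL K M p hpM (vElt K M p)) ≤ 1 :=
        (le_mul_of_one_le_left' (by rw [e']; exact one_le_pow₀ h.le)).trans hprod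
      exact (mul_le_of_le_one_right' (pow_le_one₀ zero_le hw')).trans
        (b.trans (pow_le_pow_right' h.le hN'))
  · have := ge_res_mul S M hpM h1 (ge_res_pow S M hpM (res_vElt S M hpM) s)
    rwa [mul_comm (hasseK p k M ^ s)]
  · have := ge_res_mul S M hpM h2 (ge_res_pow S M hpM (res_wAL_vElt S M hpM) s)
    rwa [zero_pow (by omega : s ≠ 0), mul_zero] at this

omit [FF.IsFunctionField k (modularFunctionFieldFullC k M)] [IsDiscreteValuationRing R] in
/-- Submodules containing the chart functions of a spanning set contain what it spans. -/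
theorem mem_of_chart_span {s : Finset (ratChart p M)} (Q : Submodule k F)
    (hQ : ∀ y ∈ s, redA U M hpM (chartOf U M y) ∈ Q) {x : F}
    (hx : (x : LaurentSeries k) ∈
      Submodule.span k (chartRed p M k '' (s : Set (ratChart p M)))) : x ∈ Q := by
  have h : Submodule.span k (chartRed p M k '' (s : Set (ratChart p M))) ≤
      Q.map (inclLin (modularFunctionFieldFullC k M)) := by
    rw [Submodule.span_le]
    rintro _ ⟨y, hy, rfl⟩
    exact ⟨_, hQ y hy, coe_redA_chartOf U M hpM y⟩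
  obtain ⟨x', hx', e⟩ := h hx
  rwa [← Subtype.val_injective (p := (· ∈ modularFunctionFieldFullC k M)) e]

omit [FF.IsFunctionField k (modularFunctionFieldFullC k M)] in
/-- **Lifting**: compatible pairs of reduced functions with bounded poles are reductions of one
good function. -/
theorem exists_good_lift (U : Unram S) : ∃ n₀, ∀ n, n₀ ≤ n →
    ∀ a b : modularFunctionFieldFullC k M, Bdd k M n a → Bdd k M n b →
    (∀ v : Place k (modularFunctionFieldFullC k M), 0 ≤ v.ord (jC k M) →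
      0 < v.ord (hasseK p k M) → a = phiK p k M b ∨ 0 < v.ord (a - phiK p k M b)) →
    ∃ γ, LattGood p M (FractionRing R) hpM n γ ∧
      (infGB S M hpM).Ge 0 γ ∧ (zeroGB S M hpM).Ge 0 γ ∧
      (infGB S M hpM).res γ = a ∧ (zeroGB S M hpM).res γ = b := by
  have := isFunctionField_level (k := k) (N := M) (natCast_ne_zero_of_not_dvd p M k hpM)
  obtain ⟨m₀, hm₀⟩ := exists_bdd_lift p M k hpM
  have hA : ∀ m, m₀ ≤ m → ∀ N, p * m ≤ N → ∀ x ∈ riemannRochSpace (jPoles k M m),
      (x, phiK p k M x) ∈ goodPairs S M hpM N ∧ (phiK p k M x, x) ∈ goodPairs S M hpM N := by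
    intro m hm N hN x hx
    obtain ⟨t, ht, hspan⟩ := hm₀ m hm
    exact mem_of_chart_span S M hpM U
      ((goodPairs S M hpM N).comap (LinearMap.id.prod (phiLin p k M)) ⊓
        (goodPairs S M hpM N).comap ((phiLin p k M).prod LinearMap.id))
      (fun y hy => ⟨⟨_, lifts_chart S M hpM U (ht y hy) hN⟩,
        ⟨_, (lifts_chart S M hpM U (ht y hy) hN).swap S M hpM⟩⟩)
      (hspan x ((bdd_iff_mem_jPoles x).2 hx))
  have hC : ∀ m, m₀ ≤ m → ∀ s, 1 ≤ s → ∀ N, s * (p - 1) + m ≤ N → p * m ≤ N →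
      ∀ x ∈ riemannRochSpace (jPoles k M m),
      (hasseK p k M ^ s * x, 0) ∈ goodPairs S M hpM N ∧
        (0, hasseK p k M ^ s * x) ∈ goodPairs S M hpM N := by
    intro m hm s hs N hN hN' x hx
    obtain ⟨t, ht, hspan⟩ := hm₀ m hm
    exact mem_of_chart_span S M hpM U
      ((goodPairs S M hpM N).comap ((LinearMap.mulLeft k (hasseK p k M ^ s)).prod 0) ⊓
        (goodPairs S M hpM N).comap
          ((0 : F →ₗ[k] F).prod (LinearMap.mulLeft k (hasseK p k M ^ s))))
      (fun y hy => ⟨⟨_, lifts_chart_hasse S M hpM U (ht y hy) hs hN hN'⟩,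
        ⟨_, (lifts_chart_hasse S M hpM U (ht y hy) hs hN hN').swap S M hpM⟩⟩)
      (hspan x ((bdd_iff_mem_jPoles x).2 hx))
  obtain ⟨n₀, hn₀⟩ := mem_of_compatible hpM (goodPairs S M hpM) (goodPairs_mono S M hpM) hA hC
  refine ⟨n₀, fun n hn a b ha hb hss => ?_⟩
  obtain ⟨γ, h1, ⟨h2, h3⟩, h4, h5⟩ := hn₀ n hn a b ((bdd_iff_mem_jPoles a).1 ha)
    ((bdd_iff_mem_jPoles b).1 hb) (mem_vanishSS.2 fun v hj hH => (hss v hj hH).elim
      (fun h => by rw [h, sub_self]; exact zero_mem _)
      (fun h => FF.mem_ordGE_of_le_ord v (by omega)))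
  exact ⟨γ, h1, h2, (zeroGB_ge_iff S M hpM).2 h4, h3, (zeroGB_res S M hpM γ).trans h5⟩

end Fermat.Agent.LevelLowerP
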