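import Fermat.Agent.LevelLowerP.GeoModelDef
import Fermat.Agent.LevelLowerP.GeoLift

/-!
# Lifts of functions on the reduced curve with roots of unity as constants

Every function on the reduced curve is the residue of a quotient of chart functions whose constants
are roots of unity of order prime to `p`.
-/

set_option autoImplicit false

noncomputable section

namespace Fermat.Agent.LevelLowerP

open Polynomial ModularCurve Fermat.Agent.Igusa AlgebraicCurve
open Fermat.Agent.Reduction Fermat.Agent.Reduction.Level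
open scoped LaurentSeries

variable {p : ℕ} {R k : Type} [CommRing R] [IsDomain R] [IsDiscreteValuationRing R] [Field k]
  [CharP k p] [Fact p.Prime] [CharZero R] (S : Setup p R k) (M : ℕ) [NeZero M] [IsAlgClosed k]
  [Algebra (ZMod p) k] [Algebra.IsAlgebraic (ZMod p) k] (U : Unram S)

omit [IsDiscreteValuationRing R] [IsDomain R] [CharZero R] [IsAlgClosed k] in
/-- Nonzero constants of the residue field have finite order, prime to `p`. -/
theorem exists_pow_eq_one_not_dvd {c : k} (hc : c ≠ 0) :
    ∃ n : ℕ, 0 < n ∧ ¬ p ∣ n ∧ c ^ n = 1 := by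
  let E := IntermediateField.adjoin (ZMod p) {c}
  have : FiniteDimensional (ZMod p) E :=
    IntermediateField.adjoin.finiteDimensional (Algebra.IsAlgebraic.isAlgebraic c).isIntegral
  have : Finite E := Module.finite_of_finite (ZMod p)
  let _ := Fintype.ofFinite E
  have hcE : (⟨c, IntermediateField.mem_adjoin_simple_self _ c⟩ : E) ≠ 0 := fun h =>
    hc (congrArg Subtype.val h)
  have hfin : IsOfFinOrder c := by
    refine isOfFinOrder_iff_pow_eq_one.2 ⟨Fintype.card E - 1, ?_, ?_⟩
    · have := Fintype.one_lt_card (α := E); omega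
    · have h := congrArg Subtype.val (FiniteField.pow_card_sub_one_eq_one _ hcE)
      simpa using h
  refine ⟨orderOf c, hfin.orderOf_pos, fun hd => ?_, pow_orderOf_eq_one c⟩
  obtain ⟨m, hm⟩ := hd
  have hp := (Fact.out : p.Prime)
  have h : c ^ m = 1 := frobenius_inj k p (by
    rw [frobenius_def, frobenius_def, one_pow, ← pow_mul, mul_comm m, ← hm, pow_orderOf_eq_one])
  have h1 := orderOf_dvd_of_pow_eq_one h
  have hpos : 0 < m := by
    rcases Nat.eq_zero_or_pos m with h0 | h0
    · have := hfin.orderOf_pos; rw [hm, h0] at this; simp at this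
    · exact h0
  have h2 := Nat.le_of_dvd hpos h1
  rw [hm] at h2
  have := Nat.mul_le_mul_right m hp.two_le
  omega

omit [IsDomain R] [IsDiscreteValuationRing R] [CharZero R] in
/-- Roots of unity of order prime to `p` lift all nonzero constants. -/
theorem exists_root_res₀_eq {c : k} (hc : c ≠ 0) :
    ∃ r : U.R₀, U.res₀ r = c ∧ ∃ n : ℕ, 0 < n ∧ ¬ p ∣ n ∧ r ^ n = 1 := by
  obtain ⟨n, hn, hpn, hcn⟩ := exists_pow_eq_one_not_dvd (p := p) hc
  have : NeZero n := ⟨hn.ne'⟩
  obtain ⟨ζ, hζ, hζ'⟩ := U.exists_primitiveRoot n hpn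
  obtain ⟨i, -, hi⟩ := hζ'.eq_pow_of_pow_eq_one hcn
  exact ⟨ζ ^ i, by rw [map_pow, hi], n, hn, hpn,
    by rw [← pow_mul, mul_comm, pow_mul, hζ.pow_eq_one, one_pow]⟩

variable (hpM : ¬ p ∣ M)

/-- Chart functions may be replaced by ones with roots of unity as constants. -/
theorem exists_root_rep (a : chartA U M) : ∃ a' : chartA U M,
    Subtype.val (toF U M a') ∈ rootField p (FractionRing R) M ∧
      redA U M hpM a' = redA U M hpM a := by
  obtain ⟨a, ha⟩ := a
  induction ha using Algebra.adjoin_induction with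
  | mem x hx =>
    obtain ⟨y, rfl⟩ := hx
    refine ⟨chartOf U M y, ?_, rfl⟩
    refine Subfield.subset_closure (Or.inl ⟨toQ p (y : LaurentSeries (ZL p)), y.2.1, ?_⟩)
    rw [coe_toF, toQ, coeffMap_coeffMap]
    show _ = coeffMap _ (coeffMap U.zl₀ _)
    rw [coeffMap_coeffMap, show ((algebraMap R (FractionRing R)).comp U.R₀.subtype).comp U.zl₀ =
      (algebraMap ℚ (FractionRing R)).comp (GaloisRep.ratLocalizedAt p).subtype from
      RingHom.ext fun q => (U.algebraMap_zl q).trans (eq_ratCast (algebraMap ℚ _) _).symm]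
    rfl
  | algebraMap r =>
    by_cases hr : U.res₀ r = 0
    · refine ⟨0, ?_, ?_⟩
      · rw [map_zero]; exact zero_mem _
      · rw [map_zero]
        exact (((redA_algebraMap U M hpM r).trans (by rw [hr, map_zero]))).symm
    obtain ⟨r', hr', n, hn, hpn, hrn⟩ := exists_root_res₀_eq S U hr
    refine ⟨algebraMap U.R₀ _ r', ?_, ?_⟩
    · refine Subfield.subset_closure (Or.inr ⟨algebraMap R (FractionRing R) (r' : R),
        ⟨n, hn, hpn, ?_⟩, ?_⟩)
      · rw [← map_pow, ← SubmonoidClass.coe_pow, hrn, OneMemClass.coe_one, map_one]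
      · rw [toF_algebraMap, coe_cF]
    · rw [redA_algebraMap, hr']
      exact (redA_algebraMap U M hpM r).symm
  | add x y hx hy ihx ihy =>
    obtain ⟨a, ha, ha'⟩ := ihx
    obtain ⟨b, hb, hb'⟩ := ihy
    refine ⟨a + b, by rw [map_add]; exact add_mem ha hb, ?_⟩
    rw [map_add, ha', hb', ← map_add]
    rfl
  | mul x y hx hy ihx ihy =>
    obtain ⟨a, ha, ha'⟩ := ihx
    obtain ⟨b, hb, hb'⟩ := ihy
    refine ⟨a * b, by rw [map_mul]; exact mul_mem ha hb, ?_⟩
    rw [map_mul, ha', hb', ← map_mul]
    rfl

/-- Residues of chart functions at the component at infinity. -/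
theorem res_toF (a : chartA U M) :
    (infGB S M hpM).Ge 0 (inclP M p (toF U M a)) ∧
      (infGB S M hpM).res (inclP M p (toF U M a)) = redA U M hpM a := by
  have := isFunctionField_level (k := k) (natCast_ne_zero_level M hpM)
  obtain ⟨v, hv⟩ := FF.exists_place_ord_pos (FF.transcendental_jC k M)
  obtain ⟨x, hx, hδ⟩ := Compat.exists_chart U M hpM hv.le (compat_iInf_inclP S M) a
  exact res_of_intδ S M hpM x hx (by rw [hδ, TrivSqZeroExt.fst_inl])

include U in
/-- Every function on the reduced curve is the residue of a function over a field of roots of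
unity. -/
theorem exists_rootLift (y : modularFunctionFieldFullC k M) :
    ∃ x : modularFunctionFieldFullC (FractionRing R) (M * p),
      (x : LaurentSeries (FractionRing R)) ∈ rootField p (FractionRing R) M ∧
      (infGB S M hpM).res x = y := by
  obtain ⟨a, b, hb, hab⟩ := exists_frac U M hpM y
  obtain ⟨a', ha, ha'⟩ := exists_root_rep S M U hpM a
  obtain ⟨b', hb', hb''⟩ := exists_root_rep S M U hpM b
  obtain ⟨hA, hA'⟩ := res_toF S M U hpM a'
  obtain ⟨hB, hB'⟩ := res_toF S M U hpM b'
  rw [ha'] at hA'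
  rw [hb''] at hB'
  set A := inclP M p (toF U M a')
  set B := inclP M p (toF U M b')
  have hB0 : B ≠ 0 := fun h => hb (by rw [← hB', h, GBranch.res_zero])
  have hBord : (infGB S M hpM).ord B = 0 := by
    by_contra h
    exact hb (by rw [← hB', GBranch.res_of_ord_ne_zero _ h])
  have hBi : (infGB S M hpM).Ge 0 B⁻¹ :=
    Or.inr (by rw [(embInf S M hpM).ord_inv hB0, hBord, neg_zero])
  have hge : (infGB S M hpM).Ge 0 (A * B⁻¹) := by simpa using GBranch.ge_mul _ hA hBi
  refine ⟨A * B⁻¹, ?_, mul_right_cancel₀ hb ?_⟩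
  · rw [MulMemClass.coe_mul, IntermediateField.coe_inv]
    refine mul_mem ?_ (inv_mem ?_)
    · show Subtype.val (inclP M p (toF U M a')) ∈ _
      rw [coe_inclP]; exact ha
    · show Subtype.val (inclP M p (toF U M b')) ∈ _
      rw [coe_inclP]; exact hb'
  · rw [hab, ← hA', ← hB', ← (embInf S M hpM).res_mul hge hB, mul_assoc, inv_mul_cancel₀ hB0,
      mul_one]

end Fermat.Agent.LevelLowerP
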