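import Fermat.Agent.LevelLowerP.GeoModelReg
import Fermat.Agent.LevelLowerP.GeoModelPlaces
import Fermat.Agent.LevelLowerP.GeoLattice
import Fermat.Agent.LevelLowerP.GeoRootLift
import Fermat.Agent.LevelLowerP.GeoNode

/-!
# The model of level `M p` in characteristic `p`

Main result: `exists_geoModel`.
-/

set_option autoImplicit false

noncomputable section

namespace Fermat.Agent.LevelLowerP

open Polynomial ModularCurve Fermat.Agent.Igusa AlgebraicCurve Fermat.Agent.FF
open scoped LaurentSeries PowerSeries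

variable {p : ℕ} {R k : Type} [CommRing R] [IsDomain R] [IsDiscreteValuationRing R] [Field k]
  [CharP k p] [Fact p.Prime] [CharZero R] (S : Setup p R k) (M : ℕ) [NeZero M] [IsAlgClosed k]

local notation "K" => FractionRing R
local notation "L" => modularFunctionFieldFullC (FractionRing R) (M * p)
local notation "F" => modularFunctionFieldFullC k M

omit [CharP k p] [Fact p.Prime] [IsAlgClosed k] in
theorem order_nonneg_of_isPow {x : LaurentSeries k} (hx : IsPow x) : 0 ≤ x.order := by
  obtain ⟨f, rfl⟩ := hx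
  rcases eq_or_ne f 0 with rfl | hf
  · simp
  by_contra hlt
  exact mt HahnSeries.coeff_order_eq_zero.1
    ((map_ne_zero_iff _ HahnSeries.ofPowerSeries_injective).2 hf)
    (ofPowerSeries_coeff_of_neg f (not_le.1 hlt))

omit [CharP k p] [Fact p.Prime] [IsAlgClosed k] in
theorem order_pos_of_constantCoeff {f : k⟦X⟧} (hf : f ≠ 0)
    (h0 : PowerSeries.constantCoeff f = 0) :
    0 < (HahnSeries.ofPowerSeries ℤ k f).order := by
  have hne : HahnSeries.ofPowerSeries ℤ k f ≠ 0 :=
    (map_ne_zero_iff _ HahnSeries.ofPowerSeries_injective).2 hf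
  rcases (order_nonneg_of_isPow ⟨f, rfl⟩).eq_or_lt with h | h
  · refine absurd ?_ (mt HahnSeries.coeff_order_eq_zero.1 hne)
    rw [← h, show (0 : ℤ) = ((0 : ℕ) : ℤ) from rfl, HahnSeries.ofPowerSeries_apply_coeff,
      PowerSeries.coeff_zero_eq_constantCoeff_apply, h0]
  · exact h

omit [IsAlgClosed k] [CharP k p] [Fact p.Prime] [NeZero M] in
theorem ord_nonneg_of_isPow {v : Place k F} {e : F →+* LaurentSeries k} {r : ℕ} (hr : 0 < r)
    (he : ∀ y, y ≠ 0 → (e y).order = r * v.ord y) {y : F} (hy : y ≠ 0) (hp : IsPow (e y)) :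
    0 ≤ v.ord y := by
  have h := order_nonneg_of_isPow hp
  rw [he y hy] at h
  exact nonneg_of_mul_nonneg_right h (by exact_mod_cast hr)

variable [Algebra (ZMod p) k] [Algebra.IsAlgebraic (ZMod p) k] (hpM : ¬ p ∣ M)

include hpM in
omit [Algebra (ZMod p) k] [Algebra.IsAlgebraic (ZMod p) k] in
/-- Regularity of the conjugate at the supersingular places gives regularity there. -/
theorem ord_nonneg_of_frobenius {y : F}
    (h : ∀ v : Place k F, 0 ≤ v.ord (jC k M) → 0 < v.ord (hasseK p k M) →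
      y = 0 ∨ 0 ≤ v.ord (baseHom (frobenius k p) M y))
    {v : Place k F} (hj : 0 ≤ v.ord (jC k M)) (hH : 0 < v.ord (hasseK p k M)) :
    y = 0 ∨ 0 ≤ v.ord y := by
  have := FF.isFunctionField_fullC k M (natCast_ne_zero_of_not_dvd p M k hpM)
  let g : k →+* k := (RingEquiv.ofBijective (frobenius k p)
    (bijective_frobenius k p)).symm.toRingHom
  let ψ := baseHom g M
  have hψφ : ψ (baseHom (frobenius k p) M y) = y := by
    refine Subtype.ext ?_
    rw [coe_baseHom, coe_baseHom, coeffMap_coeffMap]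
    ext n
    rw [coeffMap_coeff, RingHom.comp_apply]
    exact (RingEquiv.ofBijective (frobenius k p) (bijective_frobenius k p)).symm_apply_apply _
  set B := v.toValuationSubring.comap ψ
  have hmem : ∀ z, z ∈ B ↔ ψ z ∈ v.toValuationSubring := fun z => Iff.rfl
  have hK : ∀ c, algebraMap k F c ∈ B := fun c => by
    rw [hmem, baseHom_algebraMap]
    exact v.algebraMap_mem' _
  have hHB : (hasseK p k M)⁻¹ ∉ B := by
    rw [hmem, map_inv₀, baseHom_hasseK M,
      FF.mem_toValuationSubring_iff_ord v (inv_ne_zero (hasseK_ne_zero p k M)), v.ord_inv]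
    omega
  let w : Place k F := ⟨B, hK, fun h' => hHB (h' ▸ ValuationSubring.mem_top _),
    FF.isPrincipalIdealRing_valuationSubring_of_ne_top B hK⟩
  have hwj : 0 ≤ w.ord (jC k M) := by
    refine FF.ord_nonneg_of_mem w ((hmem _).2 ?_)
    rw [baseHom_jC]
    exact (FF.mem_toValuationSubring_iff v).mpr (FF.mem_ordGE_of_le_ord v hj)
  have hwH : 0 < w.ord (hasseK p k M) := by
    have h' := hHB
    change (hasseK p k M)⁻¹ ∉ w.toValuationSubring at h'
    rw [FF.mem_toValuationSubring_iff_ord w (inv_ne_zero (hasseK_ne_zero p k M)), w.ord_inv] at h'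
    omega
  rcases h w hwj hwH with h0 | h0
  · exact Or.inl h0
  right
  refine FF.ord_nonneg_of_mem v ?_
  rw [← hψφ]
  exact (hmem _).1 ((FF.mem_toValuationSubring_iff w).mpr (FF.mem_ordGE_of_le_ord w h0))

variable [CharZero (FractionRing R)] in
omit [Algebra (ZMod p) k] [Algebra.IsAlgebraic (ZMod p) k] [CharZero R] [CharZero K] in
/-- The width of a cusp is the pole order of `j` times the ramification. -/
theorem CuspPt.ramif_mul_ord {v : Place k F} (C : CuspPt S M hpM v) :
    (C.ramif : ℤ) * v.ord (jC k M) = -(C.width : ℤ) := by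
  set x := inclP M p (jC K M) with hx_def
  have hj : jC k M ≠ 0 := fun h => jqModC_ne_zero' (congrArg Subtype.val h)
  have hC := compat_iInf_inclP (R := R) (k := k) S M
  have hne : (S.discBranch.intδ ⟨_, hC.int_j⟩).fst ≠ 0 := by
    rw [hC.δ_j, TrivSqZeroExt.fst_inl]
    exact (_root_.map_ne_zero _).2 hj
  have hx0 : x ≠ 0 := fun h => S.discBranch.ne_zero_of_intδ hne (by
    show iInf (M * p) x = 0
    rw [h, map_zero])
  have hres : (infGB S M hpM).resUnit x = jC k M := (eInf k M).injective (by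
    have h1 := congrArg TrivSqZeroExt.fst (dualMap_spInf S M hpM hx0)
    rw [fst_dualMap] at h1
    show eInf k M (spInf S M hpM x).fst = _
    rw [h1]
    refine (congrArg TrivSqZeroExt.fst (S.discBranch.sp_eq_intδ hne)).trans ?_
    rw [hC.δ_j, TrivSqZeroExt.fst_inl])
  have hι : S.discBranch.resUnit (C.P.ι x) = C.P.e (jC k M) := by
    rw [← hres, Branch.resUnit, C.P.sp_eq x hx0, fst_dualMap]
    rfl
  obtain ⟨u, hu⟩ := C.map_j
  have hXres : ∀ g : R⟦X⟧, S.discBranch.res g =
      ((PowerSeries.map S.res g : k⟦X⟧) : LaurentSeries k) := fun g => S.fst_δS g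
  have hu0 : PowerSeries.constantCoeff (PowerSeries.map S.res (u : R⟦X⟧)) ≠ 0 :=
    (PowerSeries.isUnit_iff_constantCoeff.1 ((u.isUnit).map (PowerSeries.map S.res))).ne_zero
  have hures : S.discBranch.res (u : R⟦X⟧) ≠ 0 := by
    rw [hXres]
    exact (map_ne_zero_iff _ HahnSeries.ofPowerSeries_injective).2 fun h =>
      hu0 (by rw [h, map_zero])
  have hTres : S.discBranch.res PowerSeries.X ≠ 0 := by
    have := res_X_pow_ne_zero S 1
    rwa [pow_one] at this
  have hT0 : algebraMap (PowerSeries R) (FractionRing (PowerSeries R)) PowerSeries.X ≠ 0 :=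
    Branch.algebraMap_ne_zero PowerSeries.X_ne_zero
  rw [show C.P.ι x = _ from hu, S.discBranch.resUnit_mul
      (Branch.algebraMap_ne_zero u.ne_zero) (zpow_ne_zero _ hT0),
    S.discBranch.resUnit_algebraMap hures, S.discBranch.resUnit_zpow hT0,
    S.discBranch.resUnit_algebraMap hTres, hXres, hXres, PowerSeries.map_X,
    HahnSeries.ofPowerSeries_X] at hι
  have ho : (HahnSeries.ofPowerSeries ℤ k (PowerSeries.map S.res (u : R⟦X⟧))).order =
      ((0 : ℕ) : ℤ) :=
    order_ofPowerSeries_eq (by rwa [PowerSeries.coeff_zero_eq_constantCoeff_apply])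
      (fun i hi => absurd hi (Nat.not_lt_zero i))
  have h := congrArg HahnSeries.order hι
  rw [C.e_order _ hj, HahnSeries.order_mul
    ((map_ne_zero_iff _ HahnSeries.ofPowerSeries_injective).2 fun h => hu0 (by rw [h, map_zero]))
    (zpow_ne_zero _ (HahnSeries.single_ne_zero one_ne_zero)), ho] at h
  rw [← h, zpow_neg, zpow_natCast, HahnSeries.single_pow, one_pow,
    show (HahnSeries.single ((C.width) • (1 : ℤ)) (1 : k))⁻¹ =
      HahnSeries.single (-(C.width : ℤ)) (1 : k) from
      inv_eq_of_mul_eq_one_right (by simp [HahnSeries.single_mul_single]),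
    HahnSeries.order_single one_ne_zero]
  push_cast
  ring

variable [IsDomain (Node R p)]

/-- **The geometric model.** -/
theorem exists_geoModel (U : Unram S) (_hp2 : p ≠ 2) (hpM : ¬ p ∣ M) (h2 : nuTwo M = 0)
    (h3 : nuThree M = 0) : Nonempty (GeoModel M S hpM) := by
  classical
  have := FF.isFunctionField_fullC k M (natCast_ne_zero_of_not_dvd p M k hpM)
  have : CharZero K := IsFractionRing.charZero R
  let CP := {v : Place k F // v.ord (jC k M) < 0}
  let OP := {v : Place k F // 0 ≤ v.ord (jC k M) ∧ ¬ 0 < v.ord (hasseK p k M)}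
  let SS := {v : Place k F // 0 ≤ v.ord (jC k M) ∧ 0 < v.ord (hasseK p k M)}
  let cp : ∀ v : CP, CuspPt S M hpM v.1 := fun v => (exists_cuspPt S U M hpM v.1 v.2).some
  have hord : ∀ v : OP, (ePt U M hpM v.1 v.2.1 (hasseK p k M)).coeff 0 ≠ 0 := fun v => by
    have hH := hasseK_ne_zero p k M
    have h0 : (ePt U M hpM v.1 v.2.1 (hasseK p k M)).order = 0 := by
      rw [order_ePt U M hpM v.1 v.2.1 hH]
      have := ord_hasseK_nonneg (p := p) (v := v.1) v.2.1
      have := v.2.2
      omega
    have := mt HahnSeries.coeff_order_eq_zero.1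
      ((_root_.map_ne_zero (ePt U M hpM v.1 v.2.1)).2 hH)
    rwa [h0] at this
  choose op hope hopi using fun v : OP => exists_ordinary U M hpM v.1 v.2.1 (hord v)
  have hss : ∀ v : SS, (ePt U M hpM v.1 v.2.1 (hasseK p k M)).coeff 0 = 0 := fun v => by
    refine HahnSeries.coeff_eq_zero_of_lt_order ?_
    rw [order_ePt U M hpM v.1 v.2.1 (hasseK_ne_zero p k M)]
    exact v.2.2
  choose nd hndI hnd₀ hndj hnda using
    fun v : SS => exists_node U M hpM v.1 v.2.1 h2 h3 (hss v)
  let ptI : Option (CP ⊕ OP) → LocalPoint (infGB S M hpM)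
    | none => infPoint S M hpM
    | some (Sum.inl v) => (cp v).P
    | some (Sum.inr v) => op v
  let width : Option (CP ⊕ OP) → ℕ
    | none => 1
    | some (Sum.inl v) => (cp v).width
    | some (Sum.inr _) => 0
  have hopj : ∀ v : OP, (op v).ι (inclP M p (jC K M)) =
      algebraMap (PowerSeries R) (FractionRing (PowerSeries R))
        (discR U M hpM v.1 v.2.1 (chartOf U M (chartJ p M))) := fun v => by
    rw [discR_chartJ U M hpM v.1 v.2.1, ← hopi v]
    rfl
  have hreg : ∀ (Q : Option (CP ⊕ OP)) (n : ℕ) (x : L), CuspBdd p M K n x →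
      NoHorizPole (PowerSeries.C S.ϖ) ((ptI Q).ι x *
        algebraMap (PowerSeries R) (FractionRing (PowerSeries R))
          PowerSeries.X ^ (n * width Q)) := by
    rintro (_ | v | v) n x hx
    · obtain ⟨u1, u2, u3⟩ := unitMulPow_infty S M hpM
      exact noHorizPole_of_cusp S M _ (infPoint S M hpM).ι_algebraMap one_pos u1 u2 u3 hx
    · exact noHorizPole_of_cusp S M _ (cp v).P.ι_algebraMap (cp v).width_pos (cp v).map_j
        (cp v).map_jp (cp v).map_v hx
    · show NoHorizPole _ ((op v).ι x * _ ^ (n * 0))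
      rw [mul_zero, pow_zero, mul_one]
      exact noHorizPole_of_finite S M _ PowerSeries.C (op v).ι_algebraMap (hopj v) hx
  have hregN : ∀ (v : SS) (n : ℕ) (x : L), CuspBdd p M K n x →
      NoHorizPole S.nodeϖ ((nd v).ι x) := fun v n x hx =>
    noHorizPole_of_finite S M _ ((AdjoinRoot.of (nodePoly R p)).comp PowerSeries.C)
      (nd v).ι_algebraMap (hndj v).choose_spec hx
  obtain ⟨n₀, hlatt⟩ := exists_latt S M hpM U
  choose Λ hΛfg hΛ hΛlift using hlatt
  have hcusp : ∀ (v : CP) (y : F), y ≠ 0 → IsPow ((cp v).P.e y) → 0 ≤ v.1.ord y :=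
    fun v y hy h => ord_nonneg_of_isPow M (cp v).ramif_pos (cp v).e_order hy h
  have hopord : ∀ (v : OP) (y : F), y ≠ 0 → ((op v).e y).order = v.1.ord y := fun v y hy => by
    rw [hope, order_ePt U M hpM v.1 v.2.1 hy]
  have hrat : ∀ v : CP, ¬ p ∣ (cp v).ramif := fun v h => (cp v).not_dvd (by
    have h' := CuspPt.ramif_mul_ord S M hpM (cp v)
    obtain ⟨c, hc⟩ := h
    exact Int.natCast_dvd_natCast.1 ⟨-(c : ℤ) * v.1.ord (jC k M), by
      rw [hc] at h'; push_cast at h'; linarith⟩)
  refine ⟨{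
    toModel := {
      inf := infGB S M hpM
      zero := zeroGB S M hpM
      PtI := Option (CP ⊕ OP)
      Pt₀ := Option (CP ⊕ OP)
      Nd := SS
      nonempty_nd := let ⟨v, hv⟩ := exists_supersingular (p := p) (k := k) M hpM; ⟨⟨v, hv⟩⟩
      ptI := ptI
      pt₀ := fun Q => toZero S M hpM (ptI Q)
      node := nd
      poleI := fun Q n => n * width Q
      pole₀ := fun Q n => n * width Q
      poleI_mono := fun Q m n h => Nat.mul_le_mul_right _ h
      pole₀_mono := fun Q m n h => Nat.mul_le_mul_right _ h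
      const_inf := ?_
      const_zero := ?_
      latt := Λ
      latt_fg := hΛfg
      latt_inf := fun n x hx => (hΛ n x hx).2.1
      latt_zero := fun n x hx => (hΛ n x hx).2.2
      latt_regular := fun n x hx =>
        ⟨fun Q => hreg Q n x (hΛ n x hx).1.1,
          fun Q => hreg Q n _ (hΛ n x hx).1.2,
          fun v => hregN v n x (hΛ n x hx).1.1⟩
      exists_lift := ?_ }
    inf_eq := rfl
    zero_eq := rfl
    inftyPt := none
    ι_infty := rfl
    exists_rootLift := fun y => exists_rootLift S M U hpM y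
    coverage := ?_
    regular_of_bdd := ?_ }⟩
  · intro y hQ hv
    refine exists_const_of_regular M hpM fun w => (eq_or_ne y 0).imp_right fun hy => ?_
    rcases lt_or_ge (w.ord (jC k M)) 0 with hj | hj
    · exact hcusp ⟨w, hj⟩ y hy (hQ (some (Sum.inl ⟨w, hj⟩)))
    by_cases hH : 0 < w.ord (hasseK p k M)
    · have h := order_nonneg_of_isPow (hv ⟨w, hj, hH⟩)
      rwa [hndI ⟨w, hj, hH⟩ y hy] at h
    · have h := order_nonneg_of_isPow (hQ (some (Sum.inr ⟨w, hj, hH⟩)))
      change 0 ≤ ((op ⟨w, hj, hH⟩).e y).order at h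
      rwa [hopord _ y hy] at h
  · intro y hQ hv
    refine exists_const_of_frobenius M hpM (fun w hw => (eq_or_ne y 0).imp_right fun hy => ?_)
      (fun w hj hH => (eq_or_ne y 0).imp_right fun hy => ?_)
    · rcases lt_or_ge (w.ord (jC k M)) 0 with hj | hj
      · exact hcusp ⟨w, hj⟩ y hy (hQ (some (Sum.inl ⟨w, hj⟩)))
      · have h := order_nonneg_of_isPow (hQ (some (Sum.inr ⟨w, hj, fun hH => hw ⟨hj, hH⟩⟩)))
        change 0 ≤ ((op _).e y).order at h
        rwa [hopord _ y hy] at h
    · have h := order_nonneg_of_isPow (hv ⟨w, hj, hH⟩)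
      rwa [hnd₀ ⟨w, hj, hH⟩ y hy] at h
  · refine ⟨n₀, fun n hn a b ha hb hN => ?_⟩
    have hbdd : ∀ y : F, (∀ Q, PolesLE (n * width Q) ((ptI Q).e y)) →
        (∀ w : Place k F, 0 ≤ w.ord (jC k M) → 0 < w.ord (hasseK p k M) →
          y = 0 ∨ 0 ≤ w.ord y) → Bdd k M n y := by
      intro y hQ hS
      rw [bdd_iff_mem_jPoles]
      rcases eq_or_ne y 0 with rfl | hy
      · exact zero_mem _
      rw [mem_jPoles_iff_ord hy]
      intro w
      constructor
      · intro hj
        by_cases hH : 0 < w.ord (hasseK p k M)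
        · exact (hS w hj hH).resolve_left hy
        · have h : IsPow (((PowerSeries.X : k⟦X⟧) : LaurentSeries k) ^ (n * 0) *
            (op ⟨w, hj, hH⟩).e y) := hQ (some (Sum.inr ⟨w, hj, hH⟩))
          rw [mul_zero, pow_zero, one_mul] at h
          have h' := order_nonneg_of_isPow h
          rwa [hopord ⟨w, hj, hH⟩ y hy] at h'
      · intro hj
        set C := cp ⟨w, hj⟩
        have h := order_nonneg_of_isPow (x := ((PowerSeries.X : k⟦X⟧) : LaurentSeries k) ^
          (n * C.width) * C.P.e y) (hQ (some (Sum.inl ⟨w, hj⟩)))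
        rw [HahnSeries.ofPowerSeries_X, HahnSeries.order_mul
            (pow_ne_zero _ (HahnSeries.single_ne_zero one_ne_zero))
            ((_root_.map_ne_zero _).2 hy), HahnSeries.single_pow, one_pow,
          HahnSeries.order_single one_ne_zero, C.e_order y hy, nsmul_eq_mul, mul_one] at h
        have hw := CuspPt.ramif_mul_ord S M hpM C
        push_cast at h
        change (C.ramif : ℤ) * w.ord (jC k M) = _ at hw
        refine le_of_mul_le_mul_left ?_ (show (0 : ℤ) < C.ramif by exact_mod_cast C.ramif_pos)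
        rw [mul_left_comm, hw]
        linarith
    have hA : Bdd k M n a := hbdd a ha fun w hj hH => by
      obtain ⟨α, β, e1, -, -⟩ := hN ⟨w, hj, hH⟩
      refine (eq_or_ne a 0).imp_right fun hy => ?_
      have h := order_nonneg_of_isPow (⟨α, e1⟩ : IsPow ((nd ⟨w, hj, hH⟩).eI a))
      rwa [hndI _ a hy] at h
    have hB : Bdd k M n b := hbdd b hb fun w hj hH => by
      refine ord_nonneg_of_frobenius M hpM (fun w hj hH => ?_) hj hH
      obtain ⟨α, β, -, e2, -⟩ := hN ⟨w, hj, hH⟩
      refine (eq_or_ne b 0).imp_right fun hy => ?_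
      have h := order_nonneg_of_isPow (⟨β, e2⟩ : IsPow ((nd ⟨w, hj, hH⟩).e₀ b))
      rwa [hnd₀ _ b hy] at h
    refine hΛlift n hn a b hA hB fun w hj hH => ?_
    obtain ⟨x, hx⟩ : ∃ x : chartA U M, redA U M hpM x = b := by
      rcases eq_or_ne b 0 with rfl | hy
      · exact ⟨0, map_zero _⟩
      refine redA_surj U M hpM (regFin_of_regRing M hpM fun u hu => mem_ordGE_of_le_ord u ?_)
      exact ((mem_jPoles_iff_ord hy).1 ((bdd_iff_mem_jPoles b).1 hB) u).1 hu
    obtain ⟨α, β, e1, e2, e3⟩ := hN ⟨w, hj, hH⟩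
    obtain ⟨α', β', g1, g2, g3⟩ := hnda ⟨w, hj, hH⟩ x
    rw [hx] at g1 g2
    have hββ : β = β' := HahnSeries.ofPowerSeries_injective (e2.symm.trans g2)
    refine (eq_or_ne a (phiK p k M b)).imp_right fun hne => ?_
    have hsub : a - phiK p k M b ≠ 0 := sub_ne_zero.2 hne
    have he : (nd ⟨w, hj, hH⟩).eI (a - phiK p k M b) =
        HahnSeries.ofPowerSeries ℤ k (α - α') := by rw [map_sub, map_sub, e1, g1]
    have hne' : α - α' ≠ 0 := fun h0 =>
      (_root_.map_ne_zero (nd ⟨w, hj, hH⟩).eI).2 hsub (by rw [he, h0, map_zero])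
    have h := order_pos_of_constantCoeff hne' (by rw [map_sub, e3, g3, hββ, sub_self])
    rwa [← he, hndI _ _ hsub] at h
  · intro w
    rcases lt_or_ge (w.ord (jC k M)) 0 with hj | hj
    · exact ⟨(cp ⟨w, hj⟩).ramif, (cp ⟨w, hj⟩).ramif_pos, hrat _,
        Or.inl ⟨some (Sum.inl ⟨w, hj⟩), (cp ⟨w, hj⟩).e_order⟩⟩
    refine ⟨1, one_pos, (Fact.out : p.Prime).not_dvd_one, ?_⟩
    by_cases hH : 0 < w.ord (hasseK p k M)
    · exact Or.inr ⟨⟨w, hj, hH⟩, fun y hy => by rw [Nat.cast_one, one_mul]; exact hndI _ y hy⟩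
    · exact Or.inl ⟨some (Sum.inr ⟨w, hj, hH⟩), fun y hy => by
        rw [Nat.cast_one, one_mul]; exact hopord _ y hy⟩
  · intro m
    refine ⟨m, fun n hn f hf => ?_⟩
    obtain ⟨hc1, hc2⟩ := cuspBdd_of_bdd M hpM (N := p * n) (Nat.mul_le_mul_left p hn) hf
    refine ⟨fun Q => ?_, fun Q => ?_, fun v => hregN v (p * n) f hc1⟩
    · show NoHorizPole _ ((ptI Q).ι f * _ ^ (p * (n * width Q)))
      have h := hreg Q (p * n) f hc1
      rw [mul_assoc] at h
      exact h
    · show NoHorizPole _ ((ptI Q).ι (wAL K M p hpM f) * _ ^ (p * (n * width Q)))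
      have h := hreg Q (p * n) (wAL K M p hpM f) hc2
      rw [mul_assoc] at h
      exact h

end Fermat.Agent.LevelLowerP
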