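import Fermat.Agent.FF.Genus
import Fermat.Agent.FF.Places

/-!
# Functions regular where `j` is finite: integrality, simple zeros, unit ideals
-/

set_option autoImplicit false

noncomputable section

namespace Fermat.Agent.LevelLowerP

open AlgebraicCurve Polynomial
open Fermat.Agent.FF

variable {K F : Type*} [Field K] [Field F] [Algebra K F]

variable (K) in
/-- Functions without poles where `j` is finite. -/
def regRing (j : F) : Subring F where
  carrier := {x | ∀ v : Place K F, 0 ≤ v.ord j → x ∈ ordGE v 0}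
  zero_mem' := fun v _ => zero_mem (ordGE v 0)
  one_mem' := fun v _ => one_mem_ordGE_zero v
  add_mem' := fun hx hy v hv => add_mem (hx v hv) (hy v hv)
  neg_mem' := fun hx v hv => neg_mem (hx v hv)
  mul_mem' := fun hx hy v hv => by simpa using mul_mem_ordGE v (hx v hv) (hy v hv)

variable {j : F}

theorem self_mem_regRing : j ∈ regRing K j := fun v hv => mem_ordGE_of_le_ord v hv

theorem algebraMap_mem_regRing (a : K) : algebraMap K F a ∈ regRing K j :=
  fun v _ => algebraMap_mem_ordGE_zero v a

theorem isIntegralElem_mem_regRing {x : F}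
    (hx : (Polynomial.aeval j : K[X] →ₐ[K] F).toRingHom.IsIntegralElem x) : x ∈ regRing K j := by
  intro v hv
  rw [← mem_toValuationSubring_iff]
  set V := v.toValuationSubring
  have hj : j ∈ V := (mem_toValuationSubring_iff v).mpr (mem_ordGE_of_le_ord v hv)
  let φ : K[X] →+* V := RingHom.codRestrict (Polynomial.aeval j : K[X] →ₐ[K] F).toRingHom V
    fun p => aeval_mem_of_mem v.algebraMap_mem' hj p
  obtain ⟨P, hP, h⟩ := hx
  have hint : IsIntegral V x := ⟨P.map φ, hP.map _, by rw [Polynomial.eval₂_map]; exact h⟩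
  obtain ⟨y, hy⟩ := IsIntegrallyClosed.algebraMap_eq_of_integral hint
  exact hy ▸ y.2

variable [IsFunctionField K F]

theorem exists_place_of_le {V : ValuationSubring F} (hK : ∀ a : K, algebraMap K F a ∈ V)
    (hne : V ≠ ⊤) : ∃ v : Place K F, v.toValuationSubring = V :=
  ⟨⟨V, hK, hne, isPrincipalIdealRing_valuationSubring_of_ne_top V hK⟩, rfl⟩

theorem isIntegralElem_of_mem_regRing {x : F} (hx : x ∈ regRing K j) :
    (Polynomial.aeval j : K[X] →ₐ[K] F).toRingHom.IsIntegralElem x := by
  by_contra hni
  let : Algebra K[X] F := (Polynomial.aeval j : K[X] →ₐ[K] F).toRingHom.toAlgebra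
  have : IsIntegrallyClosedIn (integralClosure K[X] F).toSubring F :=
    inferInstanceAs (IsIntegrallyClosedIn (integralClosure K[X] F) F)
  obtain ⟨V, hV, hxV⟩ := Subring.exists_le_valuationSubring_of_isIntegrallyClosedIn
    (R := (integralClosure K[X] F).toSubring) (x := x) hni
  have hmem : ∀ p : K[X], Polynomial.aeval j p ∈ V := fun p =>
    hV ((integralClosure K[X] F).algebraMap_mem p)
  obtain ⟨v, rfl⟩ := exists_place_of_le (V := V)
    (fun a => by simpa using hmem (Polynomial.C a)) (fun h => hxV (h ▸ ValuationSubring.mem_top x))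
  refine hxV ((mem_toValuationSubring_iff v).mpr (hx v ?_))
  exact ord_nonneg_of_mem v (by simpa using hmem Polynomial.X)

/-- Regular functions without a common zero generate the unit ideal. -/
theorem exists_sum_eq_one {ι : Type*} [Fintype ι] (c : ι → F) (hc : ∀ i, c i ∈ regRing K j)
    (hne : ∃ i, c i ≠ 0)
    (h : ∀ v : Place K F, 0 ≤ v.ord j → ∃ i, c i ≠ 0 ∧ v.ord (c i) = 0) :
    ∃ a : ι → F, (∀ i, a i ∈ regRing K j) ∧ ∑ i, a i * c i = 1 := by
  let c' : ι → regRing K j := fun i => ⟨c i, hc i⟩
  by_cases htop : Ideal.span (Set.range c') = ⊤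
  · obtain ⟨a, ha⟩ := Ideal.mem_span_range_iff_exists_fun.mp (htop ▸ Submodule.mem_top :
      (1 : regRing K j) ∈ Ideal.span (Set.range c'))
    refine ⟨fun i => a i, fun i => (a i).2, ?_⟩
    simpa [c'] using congrArg Subtype.val ha
  · obtain ⟨V, hV, hVn⟩ := Ideal.image_subset_nonunits_valuationSubring _ htop
    have hnu : ∀ i, c i ∈ V.nonunits := fun i =>
      hVn ⟨c' i, Ideal.subset_span ⟨i, rfl⟩, rfl⟩
    obtain ⟨i₀, hi₀⟩ := hne
    obtain ⟨v, rfl⟩ := exists_place_of_le (V := V) (fun a => hV (algebraMap_mem_regRing a))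
      (fun htop => by
        rcases (ValuationSubring.mem_nonunits_iff_or _).mp (hnu i₀) with h0 | h0
        · exact hi₀ h0
        · exact h0 (htop ▸ ValuationSubring.mem_top _))
    obtain ⟨i, hi, hord⟩ := h v (ord_nonneg_of_mem v (hV self_mem_regRing))
    rcases (ValuationSubring.mem_nonunits_iff_or _).mp (hnu i) with h0 | h0
    · exact absurd h0 hi
    · exact absurd ((mem_toValuationSubring_iff_ord v (inv_ne_zero hi)).mpr
        (by rw [v.ord_inv, hord]; rfl)) h0

/-- A regular function with simple zero at a given point of a finite set of places, vanishing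
at the others. -/
theorem exists_regular_simple_zero (hj : Transcendental K j) (hdeg : ∀ v : Place K F, v.deg = 1)
    (Z : Finset (Place K F)) (hZ : ∀ w ∈ Z, 0 ≤ w.ord j) {v : Place K F} (hv : v ∈ Z) :
    ∃ y ∈ regRing K j, (∀ w ∈ Z, y ∈ ordGE w 1) ∧ y ≠ 0 ∧ v.ord y = 1 := by
  classical
  obtain ⟨N, hN⟩ := exists_ell_eq_of_degree_ge K F
  set E := poleDiv K j
  have hEdeg : 1 ≤ Divisor.degree E := by
    obtain ⟨u, hu⟩ := exists_place_ord_neg hj
    have hu' : u ∈ E.support := by
      rw [Finsupp.mem_support_iff, poleDiv_apply, max_eq_left (by omega)]; omega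
    rw [degree_eq_sum]
    refine le_trans ?_ (Finset.single_le_sum (f := fun w => E w * (w.deg : ℤ))
      (fun w _ => mul_nonneg (poleDiv_nonneg j w) (Int.natCast_nonneg _)) hu')
    show 1 ≤ E u * (u.deg : ℤ)
    rw [hdeg, Nat.cast_one, mul_one, poleDiv_apply, max_eq_left (by omega)]
    omega
  set n : ℤ := |N| + Z.card + 1
  set S : Divisor K F := ∑ w ∈ Z, Finsupp.single w 1
  set D := n • E - S
  have hS : Divisor.degree S = Z.card := by
    simp [S, map_sum, Divisor.degree_single, hdeg]
  have hDdeg : N + 1 ≤ Divisor.degree D := by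
    rw [map_sub, map_zsmul, hS, smul_eq_mul]
    have : n ≤ n * Divisor.degree E := le_mul_of_one_le_right (by positivity) hEdeg
    have := le_abs_self N
    omega
  have hD'deg : Divisor.degree (D - Finsupp.single v 1) = Divisor.degree D - 1 := by
    rw [map_sub, Divisor.degree_single, hdeg]; simp
  have hlt : ell (D - Finsupp.single v 1) < ell D := by
    have h1 := hN D (by omega)
    have h2 := hN (D - Finsupp.single v 1) (by omega)
    omega
  obtain ⟨y, hyD, hyD'⟩ : ∃ y ∈ riemannRochSpace D,
      y ∉ riemannRochSpace (D - Finsupp.single v 1) := by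
    by_contra h
    push Not at h
    refine absurd hlt (not_lt.mpr (le_of_eq ?_))
    rw [ell, ell, le_antisymm
      (riemannRochSpace_mono (sub_le_self D (Finsupp.single_nonneg.mpr zero_le_one))) h]
  rw [mem_riemannRochSpace] at hyD
  have hSapp : ∀ w, S w = if w ∈ Z then 1 else 0 := fun w => by
    simp [S, Finsupp.finsetSum_apply, Finsupp.single_apply]
  have hDapp : ∀ w, D w = n * E w - S w := fun w => by simp [D]
  have hEZ : ∀ w, 0 ≤ w.ord j → E w = 0 := fun w hw => by
    rw [poleDiv_apply, max_eq_right (by omega)]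
  have hy0 : y ≠ 0 := fun h => hyD' (h ▸ zero_mem _)
  have hyZ : ∀ w ∈ Z, y ∈ ordGE w 1 := fun w hw => by
    have := hyD w
    rwa [hDapp, hEZ w (hZ w hw), hSapp, if_pos hw, mul_zero, zero_sub, neg_neg] at this
  refine ⟨y, fun w hw => ordGE_antitone w ?_ (hyD w), hyZ, hy0, ?_⟩
  · rw [hDapp, hEZ w hw, hSapp]
    split_ifs <;> omega
  · by_contra hne
    refine hyD' (mem_riemannRochSpace.mpr fun w => ?_)
    by_cases hw : w = v
    · subst hw
      refine mem_ordGE_of_le_ord w ?_
      have h1 := (mem_ordGE_of_ne_zero w hy0).mp (hyZ w hv)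
      rw [Finsupp.sub_apply, Finsupp.single_eq_same, hDapp, hEZ w (hZ w hv), hSapp, if_pos hv]
      omega
    · rw [Finsupp.sub_apply, Finsupp.single_eq_of_ne hw, sub_zero]
      exact hyD w

end Fermat.Agent.LevelLowerP
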