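import Fermat.Agent.LevelLowerP.NodeComplete

/-!
# The disc of a smooth point

A point `ε` of an integral `R₀`-algebra whose reduction has `h` as a uniformizer gives the
expansion `A → R₀⟦T⟧`, `h ↦ T`: the rings `A_m / m^n` and `R₀⟦T⟧/(ϖ,T)^n` agree.
-/

set_option autoImplicit false

noncomputable section

namespace Fermat.Agent.LevelLowerP

open Polynomial
open scoped PowerSeries

/-- A point of the special fibre of an `R₀`-algebra with a uniformizer of the fibre. -/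
structure SmoothPt (R₀ k A : Type*) [CommRing R₀] [Field k] [CommRing A] [Algebra R₀ A]
    (ϖ : R₀) (res : R₀ →+* k) where
  /-- the point -/
  ε : A →+* k
  /-- the parameter -/
  h : A
  ε_algebraMap : ∀ r, ε (algebraMap R₀ A r) = res r
  ε_h : ε h = 0
  ϖ_ne_zero : algebraMap R₀ A ϖ ≠ 0
  gen : ∀ a, ε a = 0 → ∃ s c d, ε s ≠ 0 ∧ s * a = c * h + d * algebraMap R₀ A ϖ
  reg : ∀ a, algebraMap R₀ A ϖ ∣ h * a → algebraMap R₀ A ϖ ∣ a

namespace SmoothPt

variable {R₀ k A : Type*} [CommRing R₀] [Field k] [CommRing A] [IsDomain A] [Algebra R₀ A]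
  {ϖ : R₀} {res : R₀ →+* k} (P : SmoothPt R₀ k A ϖ res)

/-- The prime of the point. -/
abbrev prime : Ideal A := RingHom.ker P.ε

instance isPrime_prime : P.prime.IsPrime := RingHom.ker_isPrime P.ε

/-- The local ring at the point. -/
abbrev Loc : Type _ := Localization.AtPrime P.prime

/-- Evaluation at the parameter. -/
def φ : R₀[X] →+* P.Loc := eval₂RingHom ((algebraMap A P.Loc).comp (algebraMap R₀ A))
  (algebraMap A P.Loc P.h)

omit [IsDomain A] in
theorem φ_C (r : R₀) : P.φ (C r) = algebraMap A P.Loc (algebraMap R₀ A r) := by simp [φ]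

omit [IsDomain A] in
theorem φ_X : P.φ X = algebraMap A P.Loc P.h := by simp [φ]

/-- `(ϖ, h)` in the local ring. -/
def m : Ideal P.Loc := Ideal.span {P.φ (C ϖ), P.φ X}

omit [IsDomain A] in
theorem φ_ϖ_mem : P.φ (C ϖ) ∈ P.m := Ideal.subset_span (by simp)

omit [IsDomain A] in
theorem φ_X_mem : P.φ X ∈ P.m := Ideal.subset_span (by simp)

theorem φ_ϖ_ne_zero : P.φ (C ϖ) ≠ 0 := by
  rw [φ_C]
  exact fun h => P.ϖ_ne_zero (IsLocalization.injective P.Loc
    (Ideal.primeCompl_le_nonZeroDivisors P.prime) (by rw [h, map_zero]))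

omit [IsDomain A] in
theorem isUnit_of_ε {s : A} (hs : P.ε s ≠ 0) : IsUnit (algebraMap A P.Loc s) :=
  IsLocalization.map_units P.Loc (⟨s, hs⟩ : P.prime.primeCompl)

omit [IsDomain A] in
theorem mem_m_of_ε {a : A} (ha : P.ε a = 0) : algebraMap A P.Loc a ∈ P.m := by
  obtain ⟨s, c, d, hs, e⟩ := P.gen a ha
  have h := congrArg (algebraMap A P.Loc) e
  rw [map_mul, map_add, map_mul, map_mul, ← P.φ_X, ← P.φ_C] at h
  refine (Ideal.unit_mul_mem_iff_mem _ (P.isUnit_of_ε hs)).1 ?_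
  rw [h]
  exact add_mem (Ideal.mul_mem_left _ _ P.φ_X_mem) (Ideal.mul_mem_left _ _ P.φ_ϖ_mem)

variable (hker : ∀ r, res r = 0 ↔ ϖ ∣ r) (hsurj : Function.Surjective res)

omit [IsDomain A] in
theorem sub_C_mem (hsurj : Function.Surjective res) (u : P.Loc) :
    ∃ r, u - P.φ (C r) ∈ P.m := by
  obtain ⟨⟨a, s⟩, hu⟩ := IsLocalization.surj P.prime.primeCompl u
  have hs : P.ε (s : A) ≠ 0 := s.2
  obtain ⟨r, hr⟩ := hsurj (P.ε a / P.ε (s : A))
  refine ⟨r, (Ideal.unit_mul_mem_iff_mem _ (P.isUnit_of_ε hs)).1 ?_⟩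
  rw [mul_sub, mul_comm, hu, φ_C, ← map_mul, ← map_sub]
  refine P.mem_m_of_ε ?_
  rw [map_sub, map_mul, P.ε_algebraMap, hr, mul_div_cancel₀ _ hs, sub_self]

omit [IsDomain A] in
include hsurj in
theorem exists_sub_φ_mem (n : ℕ) (y : P.Loc) (hy : y ∈ P.m ^ n) :
    ∃ Q : R₀[X], y - P.φ Q ∈ P.m ^ (n + 1) ∧ P.φ Q ∈ P.m ^ n := by
  induction n generalizing y with
  | zero =>
    obtain ⟨r, hr⟩ := P.sub_C_mem hsurj y
    exact ⟨C r, by simpa using hr, by simp⟩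
  | succ n ih =>
    rw [pow_succ] at hy
    refine Submodule.mul_induction_on hy (fun a ha b hb => ?_) fun x z ⟨Q, h1, h2⟩ ⟨Q', h1', h2'⟩ =>
      ⟨Q + Q', by rw [map_add]; simpa [add_sub_add_comm] using add_mem h1 h1',
        by rw [map_add]; exact add_mem h2 h2'⟩
    obtain ⟨Q, hQ, hQm⟩ := ih a ha
    obtain ⟨u, v, rfl⟩ := Ideal.mem_span_pair.1 hb
    obtain ⟨r, hr⟩ := P.sub_C_mem hsurj u
    obtain ⟨r', hr'⟩ := P.sub_C_mem hsurj v
    set B : R₀[X] := C r * C ϖ + C r' * X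
    have hB1 : P.φ B ∈ P.m := by
      rw [map_add, map_mul, map_mul]
      exact add_mem (Ideal.mul_mem_left _ _ P.φ_ϖ_mem) (Ideal.mul_mem_left _ _ P.φ_X_mem)
    have hB2 : u * P.φ (C ϖ) + v * P.φ X - P.φ B ∈ P.m ^ 2 := by
      rw [map_add, map_mul, map_mul, pow_two, show u * P.φ (C ϖ) + v * P.φ X -
        (P.φ (C r) * P.φ (C ϖ) + P.φ (C r') * P.φ X) =
        (u - P.φ (C r)) * P.φ (C ϖ) + (v - P.φ (C r')) * P.φ X by ring]
      exact add_mem (Ideal.mul_mem_mul hr P.φ_ϖ_mem) (Ideal.mul_mem_mul hr' P.φ_X_mem)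
    refine ⟨Q * B, ?_, ?_⟩
    · rw [map_mul, show a * (u * P.φ (C ϖ) + v * P.φ X) - P.φ Q * P.φ B =
        a * (u * P.φ (C ϖ) + v * P.φ X - P.φ B) + (a - P.φ Q) * P.φ B by ring]
      refine add_mem ?_ ?_
      · rw [show n + 1 + 1 = n + 2 by omega, pow_add]
        exact Ideal.mul_mem_mul ha hB2
      · rw [pow_succ]
        exact Ideal.mul_mem_mul hQ hB1
    · rw [map_mul, pow_succ]
      exact Ideal.mul_mem_mul hQm hB1

omit [IsDomain A] in
include hsurj in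
theorem exists_poly (n : ℕ) (x : P.Loc) : ∃ Q : R₀[X], x - P.φ Q ∈ P.m ^ n := by
  induction n with
  | zero => exact ⟨0, by simp⟩
  | succ n ih =>
    obtain ⟨Q, hQ⟩ := ih
    obtain ⟨Q', hQ', -⟩ := P.exists_sub_φ_mem hsurj n _ hQ
    exact ⟨Q + Q', by rw [map_add, ← sub_sub]; exact hQ'⟩

theorem dvd_of_dvd_h_mul {x : P.Loc} (hx : P.φ (C ϖ) ∣ P.φ X * x) : P.φ (C ϖ) ∣ x := by
  obtain ⟨y, hy⟩ := hx
  obtain ⟨⟨a, s⟩, ha⟩ := IsLocalization.surj P.prime.primeCompl x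
  obtain ⟨⟨b, t⟩, hb⟩ := IsLocalization.surj P.prime.primeCompl y
  have e : algebraMap A P.Loc (P.h * (a * t)) =
      algebraMap A P.Loc (algebraMap R₀ A ϖ * (b * s)) := by
    simp only [map_mul, ← ha, ← hb, ← P.φ_X, ← P.φ_C]
    linear_combination algebraMap A P.Loc s * algebraMap A P.Loc t * hy
  obtain ⟨c, hc⟩ := P.reg _ ⟨b * s, IsLocalization.injective P.Loc
    (Ideal.primeCompl_le_nonZeroDivisors P.prime) e⟩
  refine ((P.isUnit_of_ε s.2).mul (P.isUnit_of_ε t.2)).dvd_mul_right.1 ⟨algebraMap A P.Loc c, ?_⟩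
  have hc' := congrArg (algebraMap A P.Loc) hc
  rw [map_mul, map_mul, ← ha] at hc'
  rw [P.φ_C]
  linear_combination hc'

theorem dvd_pow_of_dvd_h_mul (j : ℕ) {x : P.Loc} (hx : P.φ (C ϖ) ^ j ∣ P.φ X * x) :
    P.φ (C ϖ) ^ j ∣ x := by
  induction j generalizing x with
  | zero => simp
  | succ j ih =>
    obtain ⟨z, rfl⟩ := P.dvd_of_dvd_h_mul ((dvd_pow_self _ (Nat.succ_ne_zero j)).trans hx)
    rw [pow_succ'] at hx ⊢
    refine mul_dvd_mul_left _ (ih ?_)
    rw [← mul_left_comm] at hx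
    exact (mul_dvd_mul_iff_left P.φ_ϖ_ne_zero).1 hx

omit [IsDomain A] in
theorem exists_eq_of_mem (n : ℕ) {x : P.Loc} (hx : x ∈ P.m ^ (n + 1)) :
    ∃ a, ∃ y ∈ P.m ^ n, x = a * P.φ (C ϖ) ^ (n + 1) + y * P.φ X := by
  induction n generalizing x with
  | zero =>
    rw [zero_add, pow_one] at hx
    obtain ⟨u, v, rfl⟩ := Ideal.mem_span_pair.1 hx
    exact ⟨u, v, by simp, by simp⟩
  | succ n ih =>
    rw [pow_succ] at hx
    refine Submodule.mul_induction_on hx (fun a ha b hb => ?_)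
      fun x z ⟨a, y, hy, e⟩ ⟨a', y', hy', e'⟩ =>
        ⟨a + a', y + y', add_mem hy hy', by rw [e, e']; ring⟩
    obtain ⟨a', y, hy, rfl⟩ := ih ha
    obtain ⟨u, v, rfl⟩ := Ideal.mem_span_pair.1 hb
    refine ⟨a' * u, y * (u * P.φ (C ϖ) + v * P.φ X) + a' * v * P.φ (C ϖ) ^ (n + 1),
      add_mem ?_ (Ideal.mul_mem_left _ _ (Ideal.pow_mem_pow P.φ_ϖ_mem _)), by ring⟩
    rw [pow_succ]
    exact Ideal.mul_mem_mul hy (add_mem (Ideal.mul_mem_left _ _ P.φ_ϖ_mem)
      (Ideal.mul_mem_left _ _ P.φ_X_mem))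

theorem mem_pow_of_h_mul_mem {n : ℕ} {x : P.Loc} (hx : P.φ X * x ∈ P.m ^ (n + 1)) :
    x ∈ P.m ^ n := by
  obtain ⟨a, y, hy, e⟩ := P.exists_eq_of_mem n hx
  obtain ⟨z, hz⟩ := P.dvd_pow_of_dvd_h_mul (n + 1) (x := x - y) ⟨a, by linear_combination e⟩
  rw [show x = y + P.φ (C ϖ) * (P.φ (C ϖ) ^ n * z) by rw [pow_succ'] at hz; linear_combination hz]
  exact add_mem hy (Ideal.mul_mem_left _ _ (Ideal.mul_mem_right _ _
    (Ideal.pow_mem_pow P.φ_ϖ_mem n)))

/-- The residue map of the local ring. -/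
def εLoc : P.Loc →+* k :=
  IsLocalization.lift (M := P.prime.primeCompl) (g := P.ε) fun y => isUnit_iff_ne_zero.2 y.2

omit [IsDomain A] in
theorem εLoc_φ_C (r : R₀) : P.εLoc (P.φ (C r)) = res r := by
  rw [φ_C, εLoc, IsLocalization.lift_eq, P.ε_algebraMap]

omit [IsDomain A] in
include hker in
theorem εLoc_of_mem_m {x : P.Loc} (hx : x ∈ P.m) : P.εLoc x = 0 := by
  obtain ⟨u, v, rfl⟩ := Ideal.mem_span_pair.1 hx
  rw [map_add, map_mul, map_mul, P.εLoc_φ_C, (hker ϖ).2 dvd_rfl, φ_X, εLoc,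
    IsLocalization.lift_eq, P.ε_h, mul_zero, mul_zero, add_zero]

/-- `(ϖ, T)` in `R₀[T]`, seen in series. -/
def serIdeal (n : ℕ) : Ideal R₀[X] :=
  (seriesIdeal ϖ ^ n).comap (Polynomial.coeToPowerSeries.ringHom)

omit [IsDomain A] in
theorem φ_mem_of_mem_span {Q : R₀[X]} {n : ℕ} (hQ : Q ∈ Ideal.span {C ϖ, X} ^ n) :
    P.φ Q ∈ P.m ^ n := by
  have := Ideal.mem_map_of_mem P.φ hQ
  rwa [Ideal.map_pow, Ideal.map_span, Set.image_pair] at this

omit [IsDomain A] in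
theorem mem_span_of_mem_serIdeal {Q : R₀[X]} {n : ℕ}
    (hQ : Q ∈ serIdeal (R₀ := R₀) (ϖ := ϖ) n) : Q ∈ Ideal.span {C ϖ, X} ^ n := by
  rw [← Polynomial.sum_monomial_eq Q]
  refine Ideal.sum_mem _ fun i _ => ?_
  show monomial i (Q.coeff i) ∈ _
  rw [← C_mul_X_pow_eq_monomial]
  rcases le_or_gt n i with hni | hni
  · exact Ideal.mul_mem_left _ _ (Ideal.pow_le_pow_right hni
      (Ideal.pow_mem_pow (Ideal.subset_span (by simp)) i))
  · obtain ⟨c, hc⟩ := dvd_coeff_of_mem ϖ (f := (Q : R₀⟦X⟧)) hQ i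
    rw [Polynomial.coeff_coe] at hc
    rw [hc, map_mul, map_pow, mul_right_comm]
    refine Ideal.mul_mem_right _ _ ?_
    rw [show n = (n - i) + i by omega, pow_add]
    exact Ideal.mul_mem_mul
      (by rw [Nat.add_sub_cancel]; exact Ideal.pow_mem_pow (Ideal.subset_span (by simp)) _)
      (Ideal.pow_mem_pow (Ideal.subset_span (by simp)) i)

include hker in
theorem mem_serIdeal_iff (n : ℕ) (Q : R₀[X]) :
    Q ∈ serIdeal (R₀ := R₀) (ϖ := ϖ) n ↔ P.φ Q ∈ P.m ^ n := by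
  refine ⟨fun h => P.φ_mem_of_mem_span (mem_span_of_mem_serIdeal h), ?_⟩
  induction n generalizing Q with
  | zero => intro _; simp [serIdeal]
  | succ n ih =>
    intro hQ
    have hsplit : P.φ Q = P.φ (C (Q.coeff 0)) + P.φ X * P.φ Q.divX := by
      rw [← map_mul, ← map_add, add_comm, Polynomial.X_mul_divX_add]
    obtain ⟨a, y, -, hy⟩ := P.exists_eq_of_mem n hQ
    have hdvd : ∀ j ≤ n + 1, ϖ ^ j ∣ Q.coeff 0 := by
      intro j
      induction j with
      | zero => simp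
      | succ j ihj =>
        intro hj
        obtain ⟨u, hu⟩ := ihj (by omega)
        have hu' : P.φ (C (Q.coeff 0)) = P.φ (C ϖ) ^ j * P.φ (C u) := by
          rw [hu, C_mul, map_mul, C_pow, map_pow]
        have he : P.φ (C ϖ) ^ j * P.φ (C ϖ) ^ (n + 1 - j) = P.φ (C ϖ) ^ (n + 1) := by
          rw [← pow_add, Nat.add_sub_cancel' (by omega)]
        obtain ⟨d, hd⟩ : P.φ (C ϖ) ^ j ∣ y - P.φ Q.divX := by
          refine P.dvd_pow_of_dvd_h_mul j ⟨P.φ (C u) - a * P.φ (C ϖ) ^ (n + 1 - j), ?_⟩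
          linear_combination hsplit - hy + hu' + a * he
        have key : P.φ (C ϖ) ^ j * P.φ (C u) =
            P.φ (C ϖ) ^ j * (a * P.φ (C ϖ) ^ (n + 1 - j) + P.φ X * d) := by
          linear_combination hy - hsplit - hu' - a * he + P.φ X * hd
        have h1 := congrArg P.εLoc (mul_left_cancel₀ (pow_ne_zero j P.φ_ϖ_ne_zero) key)
        rw [P.εLoc_φ_C, P.εLoc_of_mem_m hker (add_mem (Ideal.mul_mem_left _ _
          (Ideal.pow_mem_of_mem _ P.φ_ϖ_mem _ (by omega)))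
          (Ideal.mul_mem_right _ _ P.φ_X_mem))] at h1
        obtain ⟨u', rfl⟩ := (hker u).1 h1
        exact ⟨u', by rw [hu]; ring⟩
    obtain ⟨c, hc⟩ := hdvd (n + 1) le_rfl
    have hX : P.φ X * P.φ Q.divX ∈ P.m ^ (n + 1) := by
      rw [show P.φ X * P.φ Q.divX = P.φ Q - P.φ (C (Q.coeff 0)) by rw [hsplit]; ring, hc, C_mul,
        map_mul, C_pow, map_pow]
      exact sub_mem hQ (Ideal.mul_mem_right _ _ (Ideal.pow_mem_pow P.φ_ϖ_mem _))
    have hrec := ih _ (P.mem_pow_of_h_mul_mem hX)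
    show (Q : R₀⟦X⟧) ∈ seriesIdeal ϖ ^ (n + 1)
    rw [← Polynomial.X_mul_divX_add Q, Polynomial.coe_add, Polynomial.coe_mul, Polynomial.coe_X,
      Polynomial.coe_C, hc, map_mul, map_pow, pow_succ']
    exact add_mem (Ideal.mul_mem_mul (Ideal.subset_span (by simp)) hrec)
      (Ideal.mul_mem_right _ _ (by
        rw [← pow_succ']; exact Ideal.pow_mem_pow (Ideal.subset_span (by simp)) _))

/-- `R₀[T] → A_m / m ^ n`. -/
def toQuot (n : ℕ) : R₀[X] →+* P.Loc ⧸ P.m ^ n := (Ideal.Quotient.mk _).comp P.φ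

omit [IsDomain A] in
include hsurj in
theorem toQuot_surjective (n : ℕ) : Function.Surjective (P.toQuot n) := fun x => by
  obtain ⟨x, rfl⟩ := Ideal.Quotient.mk_surjective x
  obtain ⟨Q, hQ⟩ := P.exists_poly hsurj n x
  exact ⟨Q, (Ideal.Quotient.eq.2 hQ).symm⟩

/-- `A → R₀⟦T⟧ / (ϖ, T) ^ n`. -/
def discTrunc (hker : ∀ r, res r = 0 ↔ ϖ ∣ r) (hsurj : Function.Surjective res) (n : ℕ) :
    A →+* R₀⟦X⟧ ⧸ seriesIdeal ϖ ^ n :=
  (RingHom.liftOfSurjective (P.toQuot n) (P.toQuot_surjective hsurj n)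
      ⟨(Ideal.Quotient.mk _).comp Polynomial.coeToPowerSeries.ringHom, fun Q hQ => by
        rw [RingHom.mem_ker, toQuot, RingHom.comp_apply, Ideal.Quotient.eq_zero_iff_mem,
          ← P.mem_serIdeal_iff hker] at hQ
        rw [RingHom.mem_ker, RingHom.comp_apply, Ideal.Quotient.eq_zero_iff_mem]
        exact hQ⟩).comp ((Ideal.Quotient.mk _).comp (algebraMap A P.Loc))

include hker hsurj in
theorem discTrunc_eq {n : ℕ} {a : A} {Q : R₀[X]} (hQ : algebraMap A P.Loc a - P.φ Q ∈ P.m ^ n) :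
    P.discTrunc hker hsurj n a = Ideal.Quotient.mk _ (Q : R₀⟦X⟧) := by
  rw [discTrunc, RingHom.comp_apply, RingHom.comp_apply, Ideal.Quotient.eq.2 hQ]
  exact RingHom.liftOfRightInverse_comp_apply _ _ _ _ Q

theorem discTrunc_compat {m n : ℕ} (hle : m ≤ n) :
    (Ideal.Quotient.factorPow (seriesIdeal ϖ) hle).comp (P.discTrunc hker hsurj n) =
      P.discTrunc hker hsurj m := RingHom.ext fun a => by
  obtain ⟨Q, hQ⟩ := P.exists_poly hsurj n (algebraMap A P.Loc a)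
  rw [RingHom.comp_apply, P.discTrunc_eq hker hsurj hQ,
    P.discTrunc_eq hker hsurj (Ideal.pow_le_pow_right hle hQ), Ideal.Quotient.factorPow,
    Ideal.Quotient.factor_mk]

variable [IsAdicComplete (Ideal.span {ϖ}) R₀]

/-- The expansion at the point. -/
def disc (hker : ∀ r, res r = 0 ↔ ϖ ∣ r) (hsurj : Function.Surjective res) : A →+* R₀⟦X⟧ :=
  haveI := isAdicComplete_series ϖ
  IsAdicComplete.liftRingHom (seriesIdeal ϖ) (P.discTrunc hker hsurj)
    (P.discTrunc_compat hker hsurj)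

include hker hsurj in
/-- The defining congruence of the expansion. -/
theorem disc_spec (n : ℕ) (a : A) :
    ∃ Q : R₀[X], algebraMap A P.Loc a - P.φ Q ∈ P.m ^ n ∧
      P.disc hker hsurj a - (Q : R₀⟦X⟧) ∈ seriesIdeal ϖ ^ n := by
  have := isAdicComplete_series ϖ
  obtain ⟨Q, hQ⟩ := P.exists_poly hsurj n (algebraMap A P.Loc a)
  refine ⟨Q, hQ, ?_⟩
  rw [← Ideal.Quotient.mk_eq_mk_iff_sub_mem, disc, IsAdicComplete.mk_liftRingHom]
  exact P.discTrunc_eq hker hsurj hQ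

include hker hsurj in
theorem disc_eq_of_poly {a : A} {Q : R₀[X]} (h : algebraMap A P.Loc a = P.φ Q) :
    P.disc hker hsurj a = (Q : R₀⟦X⟧) := by
  have := isAdicComplete_series ϖ
  refine sub_eq_zero.1 (IsHausdorff.haus (I := seriesIdeal ϖ) inferInstance _ fun n => ?_)
  rw [SModEq.zero, smul_eq_mul, Ideal.mul_top, ← Ideal.Quotient.mk_eq_mk_iff_sub_mem, disc,
    IsAdicComplete.mk_liftRingHom]
  exact P.discTrunc_eq hker hsurj (by rw [h, sub_self]; exact zero_mem _)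

theorem disc_algebraMap (r : R₀) :
    P.disc hker hsurj (algebraMap R₀ A r) = PowerSeries.C r := by
  rw [P.disc_eq_of_poly hker hsurj (Q := C r) (P.φ_C r).symm, Polynomial.coe_C]

theorem disc_h : P.disc hker hsurj P.h = PowerSeries.X := by
  rw [P.disc_eq_of_poly hker hsurj (Q := X) P.φ_X.symm, Polynomial.coe_X]

/-- The constant term of the reduced expansion is the value at the point. -/
theorem res_constantCoeff_disc (a : A) :
    res (PowerSeries.constantCoeff (P.disc hker hsurj a)) = P.ε a := by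
  obtain ⟨Q, hQ, hQ'⟩ := P.disc_spec hker hsurj 1 a
  rw [pow_one] at hQ hQ'
  have h1 := P.εLoc_of_mem_m hker hQ
  rw [map_sub, sub_eq_zero, εLoc, IsLocalization.lift_eq, ← εLoc] at h1
  have h2 : P.εLoc (P.φ Q) = res (Q.coeff 0) := by
    conv_lhs => rw [← Polynomial.X_mul_divX_add Q]
    rw [map_add, map_add, map_mul, map_mul, P.εLoc_of_mem_m hker P.φ_X_mem, zero_mul, zero_add,
      P.εLoc_φ_C]
  have h4 := dvd_coeff_of_mem ϖ (n := 1) (f := P.disc hker hsurj a - (Q : R₀⟦X⟧))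
    (by rwa [pow_one]) 0
  rw [Nat.sub_zero, pow_one, PowerSeries.coeff_zero_eq_constantCoeff_apply, map_sub,
    Polynomial.constantCoeff_coe] at h4
  have h3 := (hker _).2 h4
  rw [map_sub, sub_eq_zero] at h3
  rw [h1, h2, h3]

end SmoothPt

end Fermat.Agent.LevelLowerP
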