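import Fermat.Agent.LevelLowerP.GeoFinite
import Fermat.Agent.LevelLowerP.FiniteRegular
import Fermat.Agent.LevelLowerP.GeoDisc
import Fermat.Agent.FF.Deriv

/-!
# Discs over the finite points of the reduced curve
-/

set_option autoImplicit false

noncomputable section

namespace Fermat.Agent.LevelLowerP

open Polynomial ModularCurve Fermat.Agent.Igusa AlgebraicCurve Fermat.Agent.FF
open Fermat.Agent.Reduction Fermat.Agent.Reduction.Level
open scoped LaurentSeries PowerSeries

section General

variable {K F : Type*} [Field K] [Field F] [Algebra K F] [IsFunctionField K F] {j : F}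

/-- A regular function vanishing to high order on a finite set of finite places and not at one
other finite place. -/
theorem exists_regular_unit (hj : Transcendental K j) (hdeg : ∀ v : Place K F, v.deg = 1)
    (Z : Finset (Place K F)) (hZ : ∀ w ∈ Z, 0 ≤ w.ord j) {v : Place K F} (hv : v ∉ Z)
    (hvj : 0 ≤ v.ord j) (N : ℕ) :
    ∃ y ∈ regRing K j, (∀ w ∈ Z, y ∈ ordGE w N) ∧ y ≠ 0 ∧ v.ord y = 0 := by
  classical
  obtain ⟨N₀, hN₀⟩ := exists_ell_eq_of_degree_ge K F
  set E := poleDiv K j
  have hEdeg : 1 ≤ Divisor.degree E := by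
    obtain ⟨u, hu⟩ := exists_place_ord_neg hj
    have hu' : u ∈ E.support := by
      rw [Finsupp.mem_support_iff, poleDiv_apply, max_eq_left (by omega)]; omega
    rw [degree_eq_sum]
    refine le_trans ?_ (Finset.single_le_sum (f := fun w => E w * (w.deg : ℤ))
      (fun w _ => mul_nonneg (poleDiv_nonneg j w) (Int.natCast_nonneg _)) hu')
    show 1 ≤ E u * (u.deg : ℤ)
    rw [hdeg, Nat.cast_one, mul_one, poleDiv_apply, max_eq_left (by omega)]
    omega
  set n : ℤ := |N₀| + N * Z.card + 1
  set S : Divisor K F := ∑ w ∈ Z, Finsupp.single w (N : ℤ)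
  set D := n • E - S
  have hS : Divisor.degree S = N * Z.card := by
    simp [S, map_sum, Divisor.degree_single, hdeg, mul_comm]
  have hDdeg : N₀ + 1 ≤ Divisor.degree D := by
    rw [map_sub, map_zsmul, hS, smul_eq_mul]
    have : n ≤ n * Divisor.degree E := le_mul_of_one_le_right (by positivity) hEdeg
    have := le_abs_self N₀
    omega
  have hD'deg : Divisor.degree (D - Finsupp.single v 1) = Divisor.degree D - 1 := by
    rw [map_sub, Divisor.degree_single, hdeg]; simp
  have hlt : ell (D - Finsupp.single v 1) < ell D := by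
    have h1 := hN₀ D (by omega)
    have h2 := hN₀ (D - Finsupp.single v 1) (by omega)
    omega
  obtain ⟨y, hyD, hyD'⟩ : ∃ y ∈ riemannRochSpace D,
      y ∉ riemannRochSpace (D - Finsupp.single v 1) := by
    by_contra h
    push Not at h
    refine absurd hlt (not_lt.mpr (le_of_eq ?_))
    rw [ell, ell, le_antisymm
      (riemannRochSpace_mono (sub_le_self D (Finsupp.single_nonneg.mpr zero_le_one))) h]
  rw [mem_riemannRochSpace] at hyD
  have hSapp : ∀ w, S w = if w ∈ Z then (N : ℤ) else 0 := fun w => by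
    simp [S, Finsupp.finsetSum_apply, Finsupp.single_apply]
  have hDapp : ∀ w, D w = n * E w - S w := fun w => by simp [D]
  have hEZ : ∀ w, 0 ≤ w.ord j → E w = 0 := fun w hw => by
    rw [poleDiv_apply, max_eq_right (by omega)]
  have hy0 : y ≠ 0 := fun h => hyD' (h ▸ zero_mem _)
  refine ⟨y, fun w hw => ordGE_antitone w ?_ (hyD w), fun w hw => ?_, hy0, ?_⟩
  · rw [hDapp, hEZ w hw, hSapp]
    split_ifs <;> omega
  · have := hyD w
    rwa [hDapp, hEZ w (hZ w hw), hSapp, if_pos hw, mul_zero, zero_sub, neg_neg] at this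
  · have h0 := (mem_ordGE_of_ne_zero v hy0).mp (hyD v)
    rw [hDapp, hEZ v hvj, hSapp, if_neg hv] at h0
    refine le_antisymm ?_ (by simpa using h0)
    by_contra hne
    refine hyD' (mem_riemannRochSpace.mpr fun w => ?_)
    by_cases hw : w = v
    · subst hw
      refine mem_ordGE_of_le_ord w ?_
      rw [Finsupp.sub_apply, Finsupp.single_eq_same, hDapp, hEZ w hvj, hSapp, if_neg hv]
      omega
    · rw [Finsupp.sub_apply, Finsupp.single_eq_of_ne hw, sub_zero]
      exact hyD w

/-- Functions finite at `v` are quotients of regular functions with denominator nonzero at `v`. -/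
theorem exists_local_fraction (hj : Transcendental K j) (hdeg : ∀ v : Place K F, v.deg = 1)
    {v : Place K F} (hvj : 0 ≤ v.ord j) {z : F} (hz : z ∈ ordGE v 0) :
    ∃ s ∈ regRing K j, s ≠ 0 ∧ v.ord s = 0 ∧ s * z ∈ regRing K j := by
  classical
  rcases eq_or_ne z 0 with rfl | hz0
  · exact ⟨1, one_mem _, one_ne_zero, v.ord_one, by rw [mul_zero]; exact zero_mem _⟩
  let Z := (finite_setOf_ord_neg (K := K) z).toFinset.filter fun w => 0 ≤ w.ord j
  have hv : v ∉ Z := fun h => by
    rw [Finset.mem_filter, Set.Finite.mem_toFinset] at h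
    have h1 := (mem_ordGE_of_ne_zero v hz0).mp hz
    have h2 : v.ord z < 0 := h.1
    omega
  let N : ℕ := Z.sup fun w => (-w.ord z).toNat
  obtain ⟨s, hs, hsZ, hs0, hsv⟩ := exists_regular_unit hj hdeg Z
    (fun w hw => (Finset.mem_filter.mp hw).2) hv hvj N
  refine ⟨s, hs, hs0, hsv, fun w hw => ?_⟩
  rw [mem_ordGE_of_ne_zero w (mul_ne_zero hs0 hz0), w.ord_mul hs0 hz0]
  have h0 := (mem_ordGE_of_ne_zero w hs0).mp (hs w hw)
  rcases lt_or_ge (w.ord z) 0 with hlt | hge
  · have hwZ : w ∈ Z := Finset.mem_filter.mpr ⟨(Set.Finite.mem_toFinset _).mpr hlt, hw⟩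
    have h1 := (mem_ordGE_of_ne_zero w hs0).mp (hsZ w hwZ)
    have h2 : (-w.ord z).toNat ≤ N := Finset.le_sup (f := fun w => (-w.ord z).toNat) hwZ
    omega
  · omega

end General

variable {p : ℕ} {R k : Type} [CommRing R] [IsDomain R] [IsDiscreteValuationRing R] [Field k]
  [CharP k p] [Fact p.Prime] [CharZero R] {S : Setup p R k} (U : Unram S) (M : ℕ) [NeZero M]

section Chart

/-- `j(Mτ)` in the rational chart. -/
def chartJN : ratChart p M :=
  ⟨jqNModC (ZL p) M, by
    rw [mem_ratChart, toQ, coeffMap_jqNModC]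
    obtain ⟨Q, hQm, -, hQ⟩ := exists_jPoly M
    refine ⟨?_, Q.map (mapRingHom (Int.castRingHom ℚ)), hQm.map _, ?_⟩
    · rw [← modularFunctionFieldFullC_rat]
      exact modularFunctionFieldC_le_full ℚ M (jqNModC_mem ℚ M)
    · have h := congrArg (coeffMap (Int.castRingHom ℚ)) hQ
      rw [map_zero, Polynomial.hom_eval₂, coeffMap_jqNModC] at h
      rw [eval₂_map, ← h]
      congr 1
      exact RingHom.ext fun q => (coeffMap_evq (Int.castRingHom ℚ) q).symm⟩

omit [NeZero M] in
theorem toF_chartJ : toF U M (chartOf U M (chartJ p M)) = jC (FractionRing R) M := by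
  apply Subtype.val_injective
  rw [coe_toF]
  show coeffMap _ (coeffMap U.zl₀ (jqModC (ZL p))) = jqModC (FractionRing R)
  rw [coeffMap_jqModC, coeffMap_jqModC]

theorem toF_chartJN : toF U M (chartOf U M (chartJN M)) = jNC (FractionRing R) M := by
  apply Subtype.val_injective
  rw [coe_toF]
  show coeffMap _ (coeffMap U.zl₀ (jqNModC (ZL p) M)) = jqNModC (FractionRing R) M
  rw [coeffMap_jqNModC, coeffMap_jqNModC]

omit [CharP k p] [CharZero R] [IsDomain R] [IsDiscreteValuationRing R] [Fact (Nat.Prime p)] in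
/-- Every element of the rational chart is algebraically determined by `j` and `j(Mτ)`. -/
theorem exists_int_fraction (y : ratChart p M) :
    ∃ a ∈ Subring.closure ({chartJ p M, chartJN M} : Set (ratChart p M)),
      ∃ b ∈ Subring.closure ({chartJ p M, chartJN M} : Set (ratChart p M)),
        b ≠ 0 ∧ y * b = a := by
  set C₀ := Subring.closure ({chartJ p M, chartJN M} : Set (ratChart p M))
  let ι : ratChart p M →+* LaurentSeries ℚ := (toQ p).comp (ratChart p M).subtype
  have hι : Function.Injective ι := fun a b h => Subtype.ext (toQ_injective p h)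
  let T : Subfield (LaurentSeries ℚ) := Subfield.closure (ι '' C₀)
  have hj : jqModC ℚ ∈ T := Subfield.subset_closure
    ⟨chartJ p M, Subring.subset_closure (by simp), by
      show toQ p (jqModC (ZL p)) = _
      rw [toQ, coeffMap_jqModC]⟩
  have hev : ∀ q : ℚ[X], evq ℚ q ∈ T := fun q => by
    induction q using Polynomial.induction_on' with
    | add a b ha hb => rw [map_add]; exact add_mem ha hb
    | monomial i c =>
      rw [evq, coe_eval₂RingHom, eval₂_monomial,
        show (HahnSeries.C c : LaurentSeries ℚ) = (c : LaurentSeries ℚ) from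
          (eq_ratCast (HahnSeries.C : ℚ →+* LaurentSeries ℚ) c)]
      exact mul_mem (SubfieldClass.ratCast_mem T c) (pow_mem hj i)
  have hy : ι y ∈ T := by
    have hyF : ι y ∈ modularFunctionFieldFullC ℚ M := by
      rw [modularFunctionFieldFullC_rat]; exact y.2.1
    obtain ⟨b, hb, a, hab⟩ := exists_val2_eq ℚ M ⟨ι y, hyF⟩
    have h := congrArg Subtype.val hab
    rw [MulMemClass.coe_mul, coe_evC, val2, AddSubmonoidClass.coe_finsetSum] at h
    have hb0 : evq ℚ b ≠ 0 := (map_ne_zero_iff _ (evq_injective ℚ)).2 hb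
    rw [show ι y = (ι y * evq ℚ b) / evq ℚ b from (mul_div_cancel_right₀ _ hb0).symm, h]
    refine div_mem (sum_mem fun l _ => ?_) (hev _)
    rw [MulMemClass.coe_mul, coe_evC, SubmonoidClass.coe_pow]
    refine mul_mem (hev _) (pow_mem (show jqNModC ℚ M ∈ T from Subfield.subset_closure
      ⟨chartJN M, Subring.subset_closure (by simp), ?_⟩) _)
    show toQ p (jqNModC (ZL p) M) = _
    rw [toQ, coeffMap_jqNModC]
  have hcl : Subring.closure (ι '' (C₀ : Set (ratChart p M))) = C₀.map ι := by
    rw [← Subring.coe_map, Subring.closure_eq]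
  rw [Subfield.mem_closure_iff, hcl] at hy
  obtain ⟨x, hx, z, hz, hxz⟩ := hy
  obtain ⟨a, ha, rfl⟩ := hx
  obtain ⟨b, hb, rfl⟩ := hz
  rcases eq_or_ne b 0 with rfl | hb0
  · rw [map_zero, div_zero] at hxz
    exact ⟨0, zero_mem _, 1, one_mem _, one_ne_zero,
      hι (by rw [map_mul, ← hxz, zero_mul, map_zero])⟩
  · refine ⟨a, ha, b, hb, hb0, hι ?_⟩
    rw [map_mul, ← hxz, div_mul_cancel₀ _ ((map_ne_zero_iff ι hι).2 hb0)]

variable {O : Type*} [Field O]

/-- Maps out of the chart that agree on constants, `j`, `j(Mτ)` agree when one extends to the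
function field. -/
theorem chartA_hom_ext (f : modularFunctionFieldFullC (FractionRing R) M →+* O)
    (g : chartA U M →+* O) (hc : ∀ r, f (toF U M (algebraMap U.R₀ _ r)) = g (algebraMap U.R₀ _ r))
    (hj : f (toF U M (chartOf U M (chartJ p M))) = g (chartOf U M (chartJ p M)))
    (hN : f (toF U M (chartOf U M (chartJN M))) = g (chartOf U M (chartJN M))) :
    f.comp (toF U M) = g := by
  let φ : ratChart p M →+* chartA U M := (chartEmb U M).codRestrict _ (chartEmb_mem U M)
  have hcl : ∀ a ∈ Subring.closure ({chartJ p M, chartJN M} : Set (ratChart p M)),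
      f (toF U M (φ a)) = g (φ a) := fun a ha =>
    RingHom.eqOn_set_closure (f := (f.comp (toF U M)).comp φ) (g := g.comp φ)
      (by rintro x (rfl | rfl); exacts [hj, hN]) ha
  have hrat : ∀ y, f (toF U M (φ y)) = g (φ y) := fun y => by
    obtain ⟨a, ha, b, hb, hb0, hyb⟩ := exists_int_fraction M y
    have h := hcl a ha
    rw [← hyb, map_mul, map_mul, map_mul, map_mul, hcl b hb] at h
    refine mul_right_cancel₀ ?_ h
    rw [← hcl b hb]
    refine (_root_.map_ne_zero f).2 ((map_ne_zero_iff _ (toF_injective U M)).2 fun h0 => hb0 ?_)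
    apply Subtype.ext
    ext n
    have h1 := congrArg (fun s : chartA U M => algebraMap R (FractionRing R)
      ((s : LaurentSeries U.R₀).coeff n : R)) h0
    have h2 : algebraMap R (FractionRing R) (U.zl ((b : LaurentSeries (ZL p)).coeff n)) = 0 := by
      simpa [φ, chartEmb, Unram.zl] using h1
    rw [U.algebraMap_zl] at h2
    exact_mod_cast h2
  refine RingHom.ext fun a => ?_
  obtain ⟨c, hc'⟩ := (mem_chartA_iff U M).1 a.2
  have ha : a = ∑ y ∈ c.support, algebraMap U.R₀ _ (c y) * φ y := by
    apply Subtype.ext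
    rw [← hc', AddSubmonoidClass.coe_finsetSum, Finsupp.sum]
    refine Finset.sum_congr rfl fun y _ => ?_
    rw [MulMemClass.coe_mul, Subalgebra.coe_algebraMap, algebraMap_series, smul_series]
    rfl
  rw [ha, RingHom.comp_apply, map_sum, map_sum, map_sum]
  exact Finset.sum_congr rfl fun y _ => by rw [map_mul, map_mul, map_mul, hc, hrat]

end Chart

section Point

variable [IsAlgClosed k] [Algebra (ZMod p) k] [Algebra.IsAlgebraic (ZMod p) k] (hpM : ¬ p ∣ M)
  (v : Place k (modularFunctionFieldFullC k M)) (hv : 0 ≤ v.ord (jC k M))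

omit [Fact (Nat.Prime p)] [IsAlgClosed k] [Algebra (ZMod p) k]
    [Algebra.IsAlgebraic (ZMod p) k] [NeZero M] in
include hpM in
theorem natCast_ne_zero_level : (M : k) ≠ 0 := natCast_ne_zero_of_not_dvd p M k hpM

omit [Fact (Nat.Prime p)] [Algebra (ZMod p) k] [Algebra.IsAlgebraic (ZMod p) k] in
theorem regFin_of_regRing {x : modularFunctionFieldFullC k M} (hpM : ¬ p ∣ M)
    (hx : x ∈ regRing k (jC k M)) : RegFin x :=
  regFin_of_forall_mem (natCast_ne_zero_level M hpM) fun w hw =>
    (mem_toValuationSubring_iff w).2 (hx w (ord_nonneg_of_mem w hw))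

omit [Fact (Nat.Prime p)] [Algebra (ZMod p) k] [Algebra.IsAlgebraic (ZMod p) k] in
theorem residue_bijective (hpM : ¬ p ∣ M) (v : Place k (modularFunctionFieldFullC k M)) :
    Function.Bijective (algebraMap k v.ResidueField) := by
  have := isFunctionField_level (k := k) (natCast_ne_zero_level M hpM)
  exact IsAlgClosed.algebraMap_bijective_of_isIntegral

include hpM hv

omit [IsDiscreteValuationRing R] in
theorem redA_mem_ordGE (a : chartA U M) : redA U M hpM a ∈ ordGE v 0 := by
  rw [← mem_toValuationSubring_iff]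
  exact (redA_regFin U M hpM a).mem_place v
    ((mem_toValuationSubring_iff v).2 (mem_ordGE_of_le_ord v hv))

/-- Reduction into the valuation ring at the point. -/
def redV : chartA U M →+* v.toValuationSubring :=
  (redA U M hpM).codRestrict v.toValuationSubring.toSubring fun a =>
    (mem_toValuationSubring_iff v).2 (redA_mem_ordGE U M hpM v hv a)

omit hv in
/-- The residue field at the point is the field of constants. -/
def resEquiv : k ≃+* v.ResidueField :=
  RingEquiv.ofBijective (algebraMap k v.ResidueField) (residue_bijective M hpM v)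

omit hv [Fact (Nat.Prime p)] [Algebra (ZMod p) k] [Algebra.IsAlgebraic (ZMod p) k] in
theorem resEquiv_apply (c : k) : resEquiv M hpM v c = algebraMap k v.ResidueField c := rfl

/-- The value at the point. -/
def evalPt : chartA U M →+* k :=
  ((resEquiv M hpM v).symm.toRingHom.comp
    (IsLocalRing.residue v.toValuationSubring)).comp (redV U M hpM v hv)

omit [IsDiscreteValuationRing R] in
theorem evalPt_sub_mem (a : chartA U M) :
    redA U M hpM a - algebraMap k _ (evalPt U M hpM v hv a) ∈ ordGE v 1 := by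
  have h : IsLocalRing.residue v.toValuationSubring
      (redV U M hpM v hv a - algebraMap k _ (evalPt U M hpM v hv a)) = 0 := by
    have h1 : algebraMap k v.ResidueField (evalPt U M hpM v hv a) =
        IsLocalRing.residue v.toValuationSubring (redV U M hpM v hv a) := by
      rw [← resEquiv_apply M hpM v]
      exact (resEquiv M hpM v).apply_symm_apply _
    rw [map_sub, sub_eq_zero, ← h1]
    rfl
  have h2 := (residue_eq_zero_iff v _).1 h
  rw [AddSubgroupClass.coe_sub, Place.coe_algebraMap] at h2
  exact h2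

omit [IsDiscreteValuationRing R] in
theorem evalPt_eq_zero_iff {a : chartA U M} :
    evalPt U M hpM v hv a = 0 ↔ redA U M hpM a ∈ ordGE v 1 := by
  constructor
  · intro h
    have := evalPt_sub_mem U M hpM v hv a
    rwa [h, map_zero, sub_zero] at this
  · intro h
    rw [evalPt, RingHom.comp_apply, RingHom.comp_apply,
      (residue_eq_zero_iff v (redV U M hpM v hv a)).2 h, map_zero]

omit [IsDiscreteValuationRing R] in
theorem evalPt_algebraMap (r : U.R₀) :
    evalPt U M hpM v hv (algebraMap U.R₀ _ r) = U.res₀ r := by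
  by_contra hne
  have h := evalPt_sub_mem U M hpM v hv (algebraMap U.R₀ _ r)
  rw [redA_algebraMap, ← map_sub, mem_ordGE_of_ne_zero v ((_root_.map_ne_zero _).2
    (sub_ne_zero.2 (Ne.symm hne))), ord_algebraMap] at h
  omega

omit [IsDiscreteValuationRing R] in
/-- Some rational function of the chart is a uniformizer at the point. -/
theorem exists_uniformizer_rat : ∃ y : ratChart p M,
    redA U M hpM (chartOf U M y) ≠ 0 ∧ v.ord (redA U M hpM (chartOf U M y)) = 1 := by
  have hM := natCast_ne_zero_level (k := k) M hpM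
  have := isFunctionField_level (k := k) hM
  obtain ⟨w, hw, hwv, hw0, hw1⟩ := exists_regular_simple_zero (transcendental_jC k M)
    (fun u => deg_eq_one u) {v} (by simpa using hv) (Finset.mem_singleton_self v)
  obtain ⟨a, ha⟩ := redA_surj U M hpM (regFin_of_regRing M hpM hw)
  obtain ⟨y, hy⟩ : ∃ y : ratChart p M, redA U M hpM (chartOf U M y) -
      algebraMap k _ (evalPt U M hpM v hv (chartOf U M y)) ∉ ordGE v 2 := by
    by_contra hall
    push Not at hall
    have : ∀ b : chartA U M,
        redA U M hpM b - algebraMap k _ (evalPt U M hpM v hv b) ∈ ordGE v 2 := by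
      intro b
      obtain ⟨c, hc⟩ := (mem_chartA_iff U M).1 b.2
      have hb : b = ∑ y ∈ c.support, algebraMap U.R₀ _ (c y) * chartOf U M y := by
        apply Subtype.ext
        rw [← hc, AddSubmonoidClass.coe_finsetSum, Finsupp.sum]
        refine Finset.sum_congr rfl fun y _ => ?_
        rw [MulMemClass.coe_mul, Subalgebra.coe_algebraMap, algebraMap_series, smul_series]
        rfl
      rw [hb, map_sum, map_sum, map_sum, ← Finset.sum_sub_distrib]
      refine sum_mem fun y _ => ?_
      rw [map_mul, map_mul, redA_algebraMap, evalPt_algebraMap, map_mul, ← mul_sub,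
        ← Algebra.smul_def]
      exact Submodule.smul_mem _ _ (hall y)
    have h := this a
    rw [ha, (evalPt_eq_zero_iff U M hpM v hv).2
      (ha ▸ mem_ordGE_of_le_ord v (le_of_eq hw1.symm)), map_zero, sub_zero,
      mem_ordGE_of_ne_zero v hw0] at h
    omega
  set c := evalPt U M hpM v hv (chartOf U M y)
  set x := redA U M hpM (chartOf U M y) - algebraMap k _ c
  have hx0 : x ≠ 0 := fun h => hy (h ▸ zero_mem _)
  have hx1 : v.ord x = 1 := by
    have h1 := (mem_ordGE_of_ne_zero v hx0).1 (evalPt_sub_mem U M hpM v hv (chartOf U M y))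
    rw [mem_ordGE_of_ne_zero v hx0] at hy
    omega
  obtain ⟨g, hg⟩ := Polynomial.map_surjective (Int.castRingHom (ZMod p))
    (ZMod.ringHom_surjective _) (minpoly (ZMod p) c)
  have hcint : IsIntegral (ZMod p) c := (Algebra.IsAlgebraic.isAlgebraic c).isIntegral
  set G : k[X] := g.map (Int.castRingHom k)
  have hG : G = (minpoly (ZMod p) c).map (algebraMap (ZMod p) k) := by
    rw [← hg, Polynomial.map_map,
      RingHom.ext_int ((algebraMap (ZMod p) k).comp (Int.castRingHom (ZMod p))) (Int.castRingHom k)]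
  obtain ⟨q, hq⟩ : X - C c ∣ G := dvd_iff_isRoot.2 (by
    rw [IsRoot.def, hG, eval_map, ← aeval_def, minpoly.aeval])
  have hq0 : q.eval c ≠ 0 := by
    intro h0
    have hsep : G.Separable := hG ▸
      (PerfectField.separable_of_irreducible (minpoly.irreducible hcint)).map
    refine hsep.eval₂_derivative_ne_zero (RingHom.id k) (x := c) ?_ ?_ <;>
      simp [hq, derivative_mul, h0]
  refine ⟨g.eval₂ (Int.castRingHom _) y, ?_⟩
  have hred : redA U M hpM (chartOf U M (g.eval₂ (Int.castRingHom _) y)) =
      x * aeval (redA U M hpM (chartOf U M y)) q := by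
    let φ : ratChart p M →+* chartA U M := (chartEmb U M).codRestrict _ (chartEmb_mem U M)
    show (redA U M hpM).comp φ (g.eval₂ (Int.castRingHom _) y) = _
    rw [Polynomial.hom_eval₂]
    have : ((redA U M hpM).comp φ) y = redA U M hpM (chartOf U M y) := rfl
    rw [this, show x = aeval (redA U M hpM (chartOf U M y)) (X - C c) by simp [x], ← map_mul,
      ← hq, aeval_def, eval₂_map]
    congr 1
    exact RingHom.ext_int _ _
  have hval : aeval (redA U M hpM (chartOf U M y)) q -
      algebraMap k _ (q.eval c) ∈ ordGE v 1 := by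
    obtain ⟨d, hd⟩ := (X_sub_C_dvd_sub_C_eval (p := q) (a := c))
    have h := congrArg (aeval (redA U M hpM (chartOf U M y))) hd
    rw [map_sub, aeval_C, map_mul, map_sub, aeval_X, aeval_C] at h
    rw [h, ← zero_add (1 : ℤ)]
    rw [add_comm (0 : ℤ) 1]
    exact mul_mem_ordGE v (evalPt_sub_mem U M hpM v hv _)
      (aeval_mem_ordGE_zero v (redA_mem_ordGE U M hpM v hv _) d)
  have hq' : aeval (redA U M hpM (chartOf U M y)) q ≠ 0 ∧
      v.ord (aeval (redA U M hpM (chartOf U M y)) q) = 0 := by
    have hne : algebraMap k (modularFunctionFieldFullC k M) (q.eval c) ≠ 0 :=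
      (_root_.map_ne_zero _).2 hq0
    refine ⟨fun h => ?_, ?_⟩
    · rw [h, zero_sub, Submodule.neg_mem_iff, mem_ordGE_of_ne_zero v hne, ord_algebraMap] at hval
      omega
    · rw [(ord_eq_of_sub_mem v hne (by rwa [ord_algebraMap, zero_add])).2, ord_algebraMap]
  exact ⟨hred ▸ mul_ne_zero hx0 hq'.1, by rw [hred, v.ord_mul hx0 hq'.1, hx1, hq'.2, add_zero]⟩

/-- The rational uniformizer. -/
def hRat : ratChart p M := (exists_uniformizer_rat U M hpM v hv).choose

omit [IsDiscreteValuationRing R] in
theorem ord_hRat : redA U M hpM (chartOf U M (hRat U M hpM v hv)) ≠ 0 ∧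
    v.ord (redA U M hpM (chartOf U M (hRat U M hpM v hv))) = 1 :=
  (exists_uniformizer_rat U M hpM v hv).choose_spec

omit [IsDiscreteValuationRing R] in
/-- Chart elements vanishing to order `m` are multiples of the `m`th power of the parameter. -/
theorem exists_rep {a : chartA U M} {m : ℕ} (ha : redA U M hpM a ∈ ordGE v m) :
    ∃ s c d, evalPt U M hpM v hv s ≠ 0 ∧
      s * a = c * chartOf U M (hRat U M hpM v hv) ^ m + d * algebraMap U.R₀ _ ((p : ℕ) : U.R₀) ∧
      (v.ord (redA U M hpM a) = m → redA U M hpM a ≠ 0 → evalPt U M hpM v hv c ≠ 0) := by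
  have hM := natCast_ne_zero_level (k := k) M hpM
  have := isFunctionField_level (k := k) hM
  obtain ⟨hh0, hh1⟩ := ord_hRat U M hpM v hv
  set h := redA U M hpM (chartOf U M (hRat U M hpM v hv))
  have hz : redA U M hpM a / h ^ m ∈ ordGE v 0 := by
    rcases eq_or_ne (redA U M hpM a) 0 with h0 | h0
    · rw [h0, zero_div]; exact zero_mem _
    refine mem_ordGE_of_le_ord v ?_
    rw [ord_div v h0 (pow_ne_zero _ hh0), ord_pow, hh1]
    have := (mem_ordGE_of_ne_zero v h0).1 ha
    omega
  obtain ⟨s', hs', hs0, hsv, hsz⟩ :=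
    exists_local_fraction (transcendental_jC k M) (fun u => deg_eq_one u) hv hz
  obtain ⟨s, hs⟩ := redA_surj U M hpM (regFin_of_regRing M hpM hs')
  obtain ⟨c, hc⟩ := redA_surj U M hpM (regFin_of_regRing M hpM hsz)
  obtain ⟨d, hd⟩ : algebraMap U.R₀ (chartA U M) ((p : ℕ) : U.R₀) ∣
      s * a - c * chartOf U M (hRat U M hpM v hv) ^ m := by
    rw [← redA_eq_zero_iff U M hpM]
    refine (eq_sub_of_add_eq ((map_add (redA U M hpM) _ _).symm.trans
      (congrArg _ (sub_add_cancel _ (c * chartOf U M (hRat U M hpM v hv) ^ m))))).trans ?_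
    rw [map_mul, map_mul, map_pow, hs, hc]
    rw [mul_assoc, div_mul_cancel₀ _ (pow_ne_zero _ hh0), sub_self]
  refine ⟨s, c, d, fun h0 => ?_, by rw [mul_comm d, ← hd]; ring, fun hord ha0 h0 => ?_⟩
  · rw [evalPt_eq_zero_iff, hs, mem_ordGE_of_ne_zero v hs0] at h0
    omega
  · have hne : s' * (redA U M hpM a / h ^ m) ≠ 0 :=
      mul_ne_zero hs0 (div_ne_zero ha0 (pow_ne_zero _ hh0))
    rw [evalPt_eq_zero_iff, hc, mem_ordGE_of_ne_zero v hne,
      v.ord_mul hs0 (div_ne_zero ha0 (pow_ne_zero _ hh0)), hsv,
      ord_div v ha0 (pow_ne_zero _ hh0), ord_pow, hh1, hord] at h0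
    omega

/-- The smooth point of the chart over `v`. -/
def smoothPt : SmoothPt U.R₀ k (chartA U M) ((p : ℕ) : U.R₀) U.res₀ where
  ε := evalPt U M hpM v hv
  h := chartOf U M (hRat U M hpM v hv)
  ε_algebraMap := evalPt_algebraMap U M hpM v hv
  ε_h := (evalPt_eq_zero_iff U M hpM v hv).2
    (mem_ordGE_of_le_ord v (le_of_eq (ord_hRat U M hpM v hv).2.symm))
  ϖ_ne_zero h := by
    have h1 := congrArg (toF U M) h
    rw [map_natCast, map_natCast, map_zero] at h1
    have : CharZero (FractionRing R) :=
      charZero_of_injective_algebraMap (IsFractionRing.injective R (FractionRing R))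
    have : CharZero (modularFunctionFieldFullC (FractionRing R) M) :=
      charZero_of_injective_algebraMap (algebraMap (FractionRing R) _).injective
    exact (Fact.out : p.Prime).ne_zero (Nat.cast_eq_zero.1 h1)
  gen a ha := by
    obtain ⟨s, c, d, hs, he, -⟩ := exists_rep U M hpM v hv (m := 1)
      ((evalPt_eq_zero_iff U M hpM v hv).1 ha)
    exact ⟨s, c, d, hs, by rwa [pow_one] at he⟩
  reg a ha := by
    rw [← redA_eq_zero_iff U M hpM] at ha ⊢
    rw [map_mul, mul_eq_zero] at ha
    exact ha.resolve_left (ord_hRat U M hpM v hv).1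

end Point

end Fermat.Agent.LevelLowerP
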