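import Fermat.Agent.FF.NormFormula
import Mathlib.LinearAlgebra.Trace
import Mathlib.RingTheory.Nilpotent.Lemmas

/-!
# The value of a trace at a place is the sum of the values weighted by the ramification indices
-/

set_option autoImplicit false

noncomputable section

namespace Fermat.Agent.LevelLowerP

open AlgebraicCurve Fermat.Agent.FF

variable {K F F' : Type*} [Field K] [IsAlgClosed K] [Field F] [Field F'] [Algebra K F]
  [Algebra K F'] [IsFunctionField K F]

/-- Functions finite at a place have a value there. -/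
theorem exists_value (v : Place K F) {r : F} (hr : r ∈ ordGE v 0) :
    ∃ a : K, r - algebraMap K F a ∈ ordGE v 1 := by
  have hbij : Function.Bijective (algebraMap K v.ResidueField) :=
    IsAlgClosed.algebraMap_bijective_of_isIntegral
  obtain ⟨a, ha⟩ := hbij.2
    (IsLocalRing.residue v.toValuationSubring ⟨r, (mem_toValuationSubring_iff v).2 hr⟩)
  refine ⟨a, ?_⟩
  have h := (residue_eq_zero_iff v (⟨r, (mem_toValuationSubring_iff v).2 hr⟩ -
    algebraMap K v.toValuationSubring a)).1 (by
      rw [map_sub, sub_eq_zero, ← ha]; rfl)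
  rwa [AddSubgroupClass.coe_sub, Place.coe_algebraMap] at h

section Trace

variable [Algebra F F'] [IsScalarTower K F F'] [Module.Finite F F'] [IsFunctionField K F']

/-- Multiplication by a function without poles on `T`, modulo orders `n`. -/
def mulQuot (T : Finset (Place K F')) (n : Place K F' → ℕ) (g : F')
    (hg : g ∈ multiGE T fun _ => 0) : MultiQuot T n →ₗ[K] MultiQuot T n :=
  Submodule.mapQ _ _
    ((LinearMap.mulLeft K g).restrict fun y hy => mem_multiGE.2 fun w hw => by
      simpa using mul_mem_ordGE w (mem_multiGE.1 hg w hw) (mem_multiGE.1 hy w hw))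
    fun y hy => mem_multiGE.2 fun w hw => by
      have h := mul_mem_ordGE w (mem_multiGE.1 hg w hw) (mem_multiGE.1 hy w hw)
      rwa [zero_add] at h

omit [IsAlgClosed K] [Algebra F F'] [IsScalarTower K F F'] [Module.Finite F F']
  [IsFunctionField K F'] in
theorem mulQuot_mk (T : Finset (Place K F')) (n : Place K F' → ℕ) (g : F')
    (hg : g ∈ multiGE T fun _ => 0) (y : multiGE T fun _ : Place K F' => (0 : ℤ)) :
    mulQuot T n g hg (Submodule.Quotient.mk y) =
      Submodule.Quotient.mk ⟨g * y, mem_multiGE.2 fun w hw => by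
        simpa using mul_mem_ordGE w (mem_multiGE.1 hg w hw) (mem_multiGE.1 y.2 w hw)⟩ :=
  rfl

omit [IsAlgClosed K] [Algebra F F'] [IsScalarTower K F F'] [Module.Finite F F']
  [IsFunctionField K F'] in
theorem mk_eq_mk {T : Finset (Place K F')} {n : Place K F' → ℕ}
    {x y : multiGE T fun _ : Place K F' => (0 : ℤ)}
    (h : ∀ w ∈ T, (x : F') - y ∈ ordGE w (n w)) :
    (Submodule.Quotient.mk x : MultiQuot T n) = Submodule.Quotient.mk y :=
  (Submodule.Quotient.eq _).2 (mem_multiGE.2 h)

/-- **The value of the trace.** -/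
theorem trace_sub_mem (v : Place K F) (f : F') (c : Place K F' → K)
    (hf : ∀ w ∈ v.fiber F', f - algebraMap K F' (c w) ∈ ordGE w 1) :
    Algebra.trace F F' f -
      algebraMap K F (∑ w ∈ v.fiber F', (w.ramificationIndex F : K) * c w) ∈ ordGE v 1 := by
  classical
  set T := v.fiber F' with hT
  set e : Place K F' → ℕ := fun w => w.ramificationIndex F with he
  set A : Submodule K F' := multiGE T fun _ => 0 with hA
  obtain ⟨hfin, hrank⟩ := finrank_multiQuot T e
  have hrank' : Module.finrank K (MultiQuot T e) = Module.finrank F F' := by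
    rw [hrank, Finset.sum_congr rfl fun w _ => by rw [deg_eq_one w, mul_one]]
    exact sum_ramificationIndex v
  obtain ⟨b, hbS, hrepr⟩ := exists_semiLocal_basis (F' := F') v
  have hf0 : f ∈ A := mem_multiGE.2 fun w hw => by
    rw [← sub_add_cancel f (algebraMap K F' (c w))]
    exact add_mem (ordGE_antitone w zero_le_one (hf w hw)) (algebraMap_mem_ordGE_zero w _)
  have hup : ∀ {r : F}, r ∈ ordGE v 1 → ∀ w ∈ T, algebraMap F F' r ∈ ordGE w (e w) := by
    intro r hr w hw
    have h := algebraMap_mem_ordGE w (f := r) (n := 1) (by rwa [Place.mem_fiber.1 hw])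
    simpa using h
  let β : Fin (Module.finrank F F') → MultiQuot T e := fun i =>
    Submodule.Quotient.mk ⟨b i, mem_multiGE.2 (hbS i)⟩
  -- coordinates reduce
  have hcoord : ∀ y : A, ∃ a : Fin (Module.finrank F F') → K,
      (∀ i, b.repr (y : F') i - algebraMap K F (a i) ∈ ordGE v 1) ∧
      (Submodule.Quotient.mk y : MultiQuot T e) = ∑ i, a i • β i := by
    intro y
    choose a ha using fun i => exists_value v ((mem_toValuationSubring_iff v).1
      (hrepr _ (fun w hw => mem_multiGE.1 y.2 w hw) i))
    refine ⟨a, ha, ?_⟩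
    have : ∑ i, a i • β i = Submodule.Quotient.mk
        (∑ i, a i • (⟨b i, mem_multiGE.2 (hbS i)⟩ : A)) := by
      rw [← Submodule.mkQ_apply, map_sum]
      exact Finset.sum_congr rfl fun i _ => by rw [map_smul, Submodule.mkQ_apply]
    rw [this]
    refine mk_eq_mk fun w hw => ?_
    rw [AddSubmonoidClass.coe_finsetSum]
    conv => arg 2; arg 1; rw [← b.sum_repr (y : F')]
    rw [← Finset.sum_sub_distrib]
    refine sum_mem fun i _ => ?_
    rw [SetLike.val_smul, ← algebraMap_smul F (a i) (b i), ← sub_smul, Algebra.smul_def]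
    simpa using mul_mem_ordGE w (hup (ha i) w hw) (hbS i w hw)
  have hspan : ⊤ ≤ Submodule.span K (Set.range β) := by
    rintro q -
    obtain ⟨y, rfl⟩ := Submodule.Quotient.mk_surjective _ q
    obtain ⟨a, -, h⟩ := hcoord y
    exact h ▸ sum_mem fun i _ => Submodule.smul_mem _ _ (Submodule.subset_span ⟨i, rfl⟩)
  let B := basisOfTopLeSpanOfCardEqFinrank β hspan (by rw [hrank', Fintype.card_fin])
  have hB : ∀ i, B i = β i := fun i => by
    rw [coe_basisOfTopLeSpanOfCardEqFinrank]
  -- the trace reduces
  have hred : ∀ (g : F') (hg : g ∈ A),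
      Algebra.trace F F' g - algebraMap K F (LinearMap.trace K _ (mulQuot T e g hg)) ∈
        ordGE v 1 := by
    intro g hg
    choose a ha hmk using fun j => hcoord ⟨g * b j, mem_multiGE.2 fun w hw => by
      simpa using mul_mem_ordGE w (mem_multiGE.1 hg w hw) (hbS j w hw)⟩
    rw [Algebra.trace_eq_matrix_trace b, LinearMap.trace_eq_matrix_trace K B, Matrix.trace,
      Matrix.trace, map_sum, ← Finset.sum_sub_distrib]
    refine sum_mem fun i _ => ?_
    rw [Matrix.diag_apply, Matrix.diag_apply, Algebra.leftMulMatrix_eq_repr_mul,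
      LinearMap.toMatrix_apply, hB, mulQuot_mk, hmk i,
      show ∑ k, a i k • β k = ∑ k, a i k • B k by simp only [hB], B.repr_sum_self]
    exact ha i i
  -- idempotents
  choose ε hε using fun w₀ : Place K F' =>
    exists_approx T (fun w => if w = w₀ then 1 else 0) fun w => (e w : ℤ)
  have hεA : ∀ w₀, ε w₀ ∈ A := fun w₀ => mem_multiGE.2 fun w hw => by
    rw [← sub_add_cancel (ε w₀) (if w = w₀ then 1 else 0)]
    refine add_mem (ordGE_antitone w (by positivity) (hε w₀ w hw)) ?_
    split_ifs
    · exact one_mem_ordGE_zero w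
    · exact zero_mem _
  have htrε : ∀ w₀ ∈ T, LinearMap.trace K _ (mulQuot T e (ε w₀) (hεA w₀)) = (e w₀ : K) := by
    intro w₀ hw₀
    set L := mulQuot T e (ε w₀) (hεA w₀)
    let n : Place K F' → ℕ := fun w => if w = w₀ then e w₀ else 0
    let G : A →ₗ[K] MultiQuot T e := L.comp (Submodule.mkQ _)
    have hker : LinearMap.ker G = (multiGE T fun w => (n w : ℤ)).comap A.subtype := by
      ext y
      rw [LinearMap.mem_ker, Submodule.mem_comap]
      show (mulQuot T e (ε w₀) (hεA w₀) (Submodule.Quotient.mk y)) = 0 ↔ _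
      rw [mulQuot_mk, Submodule.Quotient.mk_eq_zero, Submodule.mem_comap]
      show ε w₀ * (y : F') ∈ multiGE T _ ↔ (y : F') ∈ multiGE T _
      simp only [mem_multiGE]
      refine forall₂_congr fun w hw => ?_
      have h1 := mul_mem_ordGE w (hε w₀ w hw) (mem_multiGE.1 y.2 w hw)
      rw [add_zero] at h1
      rcases eq_or_ne w w₀ with rfl | hne
      · simp only [n, if_true] at h1 ⊢
        rw [sub_mul, one_mul] at h1
        exact ⟨fun h => by simpa using sub_mem h h1, fun h => by simpa using add_mem h1 h⟩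
      · simp only [n, if_neg hne, sub_zero] at h1 ⊢
        exact ⟨fun _ => by simpa using mem_multiGE.1 y.2 w hw, fun _ => h1⟩
    have hrange : LinearMap.range G = LinearMap.range L := by
      rw [LinearMap.range_comp, Submodule.range_mkQ, Submodule.map_top]
    have hproj : LinearMap.IsProj (LinearMap.range L) L := by
      refine ⟨fun x => ⟨x, rfl⟩, ?_⟩
      rintro x ⟨q, rfl⟩
      obtain ⟨y, rfl⟩ := Submodule.Quotient.mk_surjective _ q
      simp only [L, mulQuot_mk]
      refine mk_eq_mk fun w hw => ?_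
      show ε w₀ * (ε w₀ * (y : F')) - ε w₀ * (y : F') ∈ _
      rw [show ε w₀ * (ε w₀ * (y : F')) - ε w₀ * (y : F') =
        (ε w₀ * (ε w₀ - 1)) * (y : F') by ring, ← add_zero ((e w : ℕ) : ℤ)]
      refine mul_mem_ordGE w ?_ (mem_multiGE.1 y.2 w hw)
      rcases eq_or_ne w w₀ with rfl | hne
      · simpa using mul_mem_ordGE w (mem_multiGE.1 (hεA w) w hw)
          (by simpa using hε w w hw : ε w - 1 ∈ ordGE w (e w))
      · simpa using mul_mem_ordGE w (by simpa [hne] using hε w₀ w hw : ε w₀ ∈ ordGE w (e w))
          (sub_mem (mem_multiGE.1 (hεA w₀) w hw) (one_mem_ordGE_zero w))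
    have := (finrank_multiQuot T n).1
    have heq : Module.finrank K (LinearMap.range L) = e w₀ := by
      rw [← hrange, ← (G.quotKerEquivRange).finrank_eq,
        (Submodule.quotEquivOfEq _ _ hker).finrank_eq, (finrank_multiQuot T n).2,
        Finset.sum_eq_single w₀ (fun w _ hw => by simp [n, hw]) (fun h => absurd hw₀ h),
        deg_eq_one w₀, mul_one]
      simp [n]
    rw [hproj.trace, heq]
  -- the nilpotent part
  set g := f - ∑ w ∈ T, algebraMap K F' (c w) * ε w with hg
  have hgA : g ∈ A := sub_mem hf0 (sum_mem fun w _ => by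
    rw [← Algebra.smul_def]; exact Submodule.smul_mem _ _ (hεA w))
  have hg1 : ∀ w ∈ T, g ∈ ordGE w 1 := fun w hw => by
    rw [hg, ← Finset.add_sum_erase _ _ hw, ← sub_sub]
    have he1 : (1 : ℤ) ≤ (e w : ℕ) := by exact_mod_cast w.ramificationIndex_pos (F := F)
    refine sub_mem ?_ (sum_mem fun w' hw' => ?_)
    · rw [show f - algebraMap K F' (c w) * ε w =
        (f - algebraMap K F' (c w)) - c w • (ε w - 1) by rw [Algebra.smul_def]; ring]
      exact sub_mem (hf w hw) (Submodule.smul_mem _ _
        (ordGE_antitone w he1 (by simpa using hε w w hw)))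
    · rw [← Algebra.smul_def]
      exact Submodule.smul_mem _ _ (ordGE_antitone w he1
        (by simpa [(Finset.ne_of_mem_erase hw').symm] using hε w' w hw))
  have hsplit : mulQuot T e f hf0 =
      mulQuot T e g hgA + ∑ w ∈ T, c w • mulQuot T e (ε w) (hεA w) := by
    refine LinearMap.ext fun q => ?_
    obtain ⟨y, rfl⟩ := Submodule.Quotient.mk_surjective _ q
    rw [LinearMap.add_apply, LinearMap.sum_apply]
    simp only [LinearMap.smul_apply, mulQuot_mk]
    rw [← Submodule.mkQ_apply, ← Submodule.mkQ_apply]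
    simp only [← Submodule.mkQ_apply, ← map_smul, ← map_sum, ← map_add]
    congr 1
    refine Subtype.ext ?_
    simp only [AddMemClass.coe_add, AddSubmonoidClass.coe_finsetSum, SetLike.val_smul,
      Algebra.smul_def, hg, sub_mul, Finset.sum_mul, mul_assoc, sub_add_cancel]
  have hnil : IsNilpotent (mulQuot T e g hgA) := by
    refine ⟨∑ w ∈ T, e w, LinearMap.ext fun q => ?_⟩
    obtain ⟨y, rfl⟩ := Submodule.Quotient.mk_surjective _ q
    have hpow : ∀ (m : ℕ) (y : A), ∃ z : A, (∀ w ∈ T, (z : F') ∈ ordGE w m) ∧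
        (mulQuot T e g hgA ^ m) (Submodule.Quotient.mk y) = Submodule.Quotient.mk z := by
      intro m
      induction m with
      | zero =>
        intro y
        exact ⟨y, fun w hw => by simpa using mem_multiGE.1 y.2 w hw, by simp⟩
      | succ m ih =>
        intro y
        obtain ⟨z, hz, hq⟩ := ih y
        refine ⟨_, fun w hw => ?_, by
          rw [pow_succ', Module.End.mul_apply, hq, mulQuot_mk]⟩
        have := mul_mem_ordGE w (hg1 w hw) (hz w hw)
        rwa [add_comm (1 : ℤ), ← Nat.cast_succ] at this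
    obtain ⟨z, hz, hq⟩ := hpow (∑ w ∈ T, e w) y
    rw [hq, LinearMap.zero_apply, Submodule.Quotient.mk_eq_zero]
    exact mem_multiGE.2 fun w hw => ordGE_antitone w
      (by exact_mod_cast Finset.single_le_sum (fun i _ => Nat.zero_le (e i)) hw) (hz w hw)
  have htrace : LinearMap.trace K _ (mulQuot T e f hf0) =
      ∑ w ∈ T, (w.ramificationIndex F : K) * c w := by
    rw [hsplit, map_add, (LinearMap.isNilpotent_trace_of_isNilpotent hnil).eq_zero, zero_add,
      map_sum]
    exact Finset.sum_congr rfl fun w hw => by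
      rw [map_smul, htrε w hw, smul_eq_mul, mul_comm]
  exact htrace ▸ hred f hf0

end Trace

end Fermat.Agent.LevelLowerP
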