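import Fermat.Agent.LevelLowerP.SpecialPoint
import Fermat.Agent.LevelLowerP.TraceResidue
import Fermat.Agent.LevelLowerP.GeoDiscPt

/-!
# Where `3 ∤ ord j > 0` at level `M ℓ` in characteristic three, the two maps to level `M` agree

The trace to level one of a regular function, at `j = 0`, is the sum of the values weighted by the
orders of `j`. In characteristic zero the orders are `3`, or `1` at elliptic points, where the two
maps agree; so the weighted sum of values of `f(ℓτ) - f(τ)` is divisible by three.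
-/

set_option autoImplicit false

noncomputable section

namespace Fermat.Agent.LevelLowerP

open Polynomial ModularCurve AlgebraicCurve Fermat.Agent.Igusa Fermat.Agent.FF
open Fermat.Agent.Reduction Fermat.Agent.Reduction.Level
open scoped LaurentSeries

section Trace

variable {K : Type} [Field K] [IsAlgClosed K] {L : ℕ} [NeZero L] (π : Rz L →+* K)
  (hπ : IsPrimitiveRoot (π (zetaR L)) L)

/-- `j` at level one is a coordinate. -/
theorem exists_place_zero : ∃ v₀ : Place K (modularFunctionFieldFullC K 1),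
    v₀.ord (jC K 1) = 1 ∧
      ∀ v : Place K (modularFunctionFieldFullC K 1), 0 < v.ord (jC K 1) → v = v₀ := by
  classical
  have h1 : ((1 : ℕ) : K) ≠ 0 := by simp
  have := FF.isFunctionField_fullC K 1 h1
  have hj := FF.transcendental_jC K 1
  set s := (FF.finite_setOf_ord_pos (K := K) (jC K 1)).toFinset
  have hs : ∀ v, v ∈ s ↔ 0 < v.ord (jC K 1) := fun v => by simp [s]
  have hsum := MFGenus.sum_ord_zeros hj (fun v => FF.deg_eq_one v) s hs
  have hrank : Module.finrank (baseC K 1) (modularFunctionFieldFullC K 1) = 1 := by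
    rw [finrank_fullC_eq_dedekindPsi 1 h1]
    exact dedekindPsi_one
  rw [hrank, Nat.cast_one] at hsum
  have hne : s.Nonempty := by
    by_contra h
    rw [Finset.not_nonempty_iff_eq_empty] at h
    rw [h, Finset.sum_empty] at hsum
    exact zero_ne_one hsum
  obtain ⟨v₀, hv₀⟩ := hne
  refine ⟨v₀, ?_, fun v hv => ?_⟩
  · have hle := Finset.single_le_sum (f := fun v : Place K (modularFunctionFieldFullC K 1) =>
      v.ord (jC K 1)) (fun v hv => ((hs v).1 hv).le) hv₀
    have := (hs v₀).1 hv₀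
    omega
  · by_contra hne
    have hle := Finset.sum_le_sum_of_subset_of_nonneg (f := fun v : Place K
      (modularFunctionFieldFullC K 1) => v.ord (jC K 1)) (s := {v, v₀}) (t := s)
      (by intro x hx; simp at hx; rcases hx with rfl | rfl; exacts [(hs _).2 hv, hv₀])
      (fun x hx _ => ((hs x).1 hx).le)
    rw [Finset.sum_pair hne, hsum] at hle
    have := (hs v₀).1 hv₀
    omega

include hπ

/-- **The trace to level one of a regular function, and its value at `j = 0`.** -/
theorem exists_trace_poly {f : modularFunctionFieldFullC K L} (hf : RegFin f) :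
    ∃ T : K[X], evJ K L T = ∑ i, sig π hπ i f ∧
      ∀ (Z : Finset (Place K (modularFunctionFieldFullC K L))) (c : Place K _ → K),
        (∀ w, w ∈ Z ↔ 0 < w.ord (jC K L)) →
        (∀ w ∈ Z, f - algebraMap K _ (c w) ∈ ordGE w 1) →
        T.eval 0 = ∑ w ∈ Z, (w.ord (jC K L) : K) * c w := by
  classical
  have hL := Reduction.Level.natCast_level_ne_zero π hπ
  have h1 : ((1 : ℕ) : K) ≠ 0 := by simp
  have := FF.isFunctionField_fullC K 1 h1
  have := FF.isFunctionField_fullC K L hL
  set φ := levelAlg K (one_dvd L)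
  have he : Reduction.Level.incl (k := K) (one_dvd L) = levelIncl (one_dvd L) :=
    RingHom.ext fun x => Subtype.ext (by rw [Reduction.Level.coe_incl, coe_levelIncl])
  let _ := algebraAlong φ
  have := isScalarTower_along φ
  have : Module.Finite (modularFunctionFieldFullC K 1) (modularFunctionFieldFullC K L) :=
    FF.finiteAlong φ
  have hfix : fixSet (one_dvd L) π = Finset.univ := Finset.eq_univ_iff_forall.2 fun i => by
    have h2 : incl (one_dvd L) (jNC K 1) = jC K L := Subtype.ext (by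
      rw [coe_incl, coe_jC']
      exact qExpand_one_apply _)
    rw [mem_fixSet, ← sig_incl_jNC (one_dvd L) π hπ, ← sig_incl_jNC (one_dvd L) π hπ, h2, sig_jC,
      sig_jC]
  obtain ⟨hreg, htr⟩ : RegFin (Algebra.trace (modularFunctionFieldFullC K 1)
      (modularFunctionFieldFullC K L) f) ∧
      qExpand K L ((Algebra.trace (modularFunctionFieldFullC K 1)
        (modularFunctionFieldFullC K L) f : modularFunctionFieldFullC K 1) : LaurentSeries K) =
        ∑ i, sig π hπ i f := by
    have ha := (regFin_norm_trace (one_dvd L) π hπ hf).2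
    have hb := (qExpand_norm_trace (one_dvd L) π hπ f).2
    rw [hfix] at hb
    rw [he] at ha hb
    exact ⟨ha, hb⟩
  set t := Algebra.trace (modularFunctionFieldFullC K 1) (modularFunctionFieldFullC K L) f
  -- regular functions at level one are polynomials in `j`
  obtain ⟨T, hT⟩ : ∃ T : K[X], Level.evC K 1 T = t := by
    obtain ⟨π₁, hπ₁⟩ := exists_pi (k := K) 1 h1
    have htop : t ∈ (⊥ : IntermediateField (baseC K 1) (modularFunctionFieldFullC K 1)) := by
      have h2 : IntermediateField.adjoin (baseC K 1) {jNC K 1} = ⊥ := by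
        rw [IntermediateField.adjoin_simple_eq_bot_iff,
          show jNC K 1 = jC K 1 from Subtype.ext (qExpand_one_apply _)]
        exact IntermediateField.mem_bot.2 ⟨jBase K 1, rfl⟩
      rw [← h2, adjoin_jNC_eq_top 1 h1]
      exact IntermediateField.mem_top
    obtain ⟨b, hb⟩ := IntermediateField.mem_bot.1 htop
    obtain ⟨z, rfl⟩ := toBase_surjective K 1 b
    have hint := hreg.isIntegralElem_sig π₁ hπ₁ cst0
    rw [← hb, sig_algebraMap_base, baseHom_toBase_apply] at hint
    obtain ⟨T, rfl⟩ := exists_polynomial_of_isIntegral (N := 1) (z := z) hint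
    refine ⟨T, inclN_injective K 1 ?_⟩
    rw [← hb]
    show _ = Level.baseHom K 1 _
    rw [baseHom_toBase_apply, phiJ_algebraMap, ← sig_cst0 π₁ hπ₁, sig_evC]
  refine ⟨T, ?_, fun Z c hZ hc => ?_⟩
  · rw [← htr, ← hT, Level.coe_evC, qExpand_evq]
  obtain ⟨v₀, hv₀, huniq⟩ := exists_place_zero (K := K)
  have hjj : algebraMap (modularFunctionFieldFullC K 1) (modularFunctionFieldFullC K L)
      (jC K 1) = jC K L := levelIncl_jC K (one_dvd L)
  have hfib : ∀ w : Place K (modularFunctionFieldFullC K L), w ∈ v₀.fiber _ ↔ w ∈ Z := by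
    intro w
    have h2 := w.ord_restrict (F := modularFunctionFieldFullC K 1) (jC K 1)
    rw [hjj] at h2
    have hepos : (0 : ℤ) < w.ramificationIndex (modularFunctionFieldFullC K 1) := by
      exact_mod_cast w.ramificationIndex_pos
    rw [Place.mem_fiber, hZ]
    constructor
    · intro h
      rw [h, hv₀, mul_one] at h2
      rw [h2]; exact hepos
    · intro h
      rw [h2] at h
      exact huniq _ (pos_of_mul_pos_right h hepos.le)
  have hmem := trace_sub_mem v₀ f c fun w hw => hc w ((hfib w).1 hw)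
  have hsum : (∑ w ∈ v₀.fiber (modularFunctionFieldFullC K L),
      (w.ramificationIndex (modularFunctionFieldFullC K 1) : K) * c w) =
      ∑ w ∈ Z, (w.ord (jC K L) : K) * c w := by
    refine Finset.sum_congr (Finset.ext hfib) fun w hw => ?_
    have h2 := w.ord_restrict (F := modularFunctionFieldFullC K 1) (jC K 1)
    rw [hjj, Place.mem_fiber.1 ((hfib w).2 hw), hv₀, mul_one] at h2
    rw [h2, Int.cast_natCast]
  rw [hsum] at hmem
  change t - _ ∈ _ at hmem
  rw [← hT] at hmem
  obtain ⟨T', hT'⟩ : X ∣ T - C (T.eval 0) := by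
    rw [X_dvd_iff, coeff_sub, coeff_C_zero, ← coeff_zero_eq_eval_zero, sub_self]
  have h2 : Level.evC K 1 T - algebraMap K _ (T.eval 0) ∈ ordGE v₀ 1 := by
    rw [show Level.evC K 1 T - algebraMap K _ (T.eval 0) = Level.evC K 1 (T - C (T.eval 0)) by
      rw [map_sub]; simp [Level.evC_apply], hT', map_mul]
    have hX : Level.evC K 1 (X : K[X]) = jC K 1 := by simp [Level.evC_apply]
    rw [hX]
    have hj : jC K 1 ∈ ordGE v₀ 1 := mem_ordGE_of_le_ord v₀ hv₀.ge
    have hT0 : Level.evC K 1 T' ∈ ordGE v₀ 0 :=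
      (mem_toValuationSubring_iff v₀).1 ((regFin_evC T').mem_place v₀
        ((mem_toValuationSubring_iff v₀).2 (ordGE_antitone v₀ zero_le_one hj)))
    simpa using mul_mem_ordGE v₀ hj hT0
  have h3 := sub_mem hmem h2
  rw [sub_sub_sub_cancel_left, ← map_sub] at h3
  by_contra hne
  have h4 := (mem_ordGE_of_ne_zero v₀ ((_root_.map_ne_zero _).2 (sub_ne_zero.2 hne))).1 h3
  rw [FF.ord_algebraMap] at h4
  omega

/-- Values over `j = 0` of integral regular functions are integral. -/
theorem value_mem (A : ValuationSubring K) {f : modularFunctionFieldFullC K L} (hf : RegFin f)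
    (hA : ∀ i n, (sig π hπ i f).coeff n ∈ A) (P : Place K (modularFunctionFieldFullC K L))
    (hP : 0 < P.ord (jC K L)) {c : K} (hc : f - algebraMap K _ c ∈ ordGE P 1) : c ∈ A := by
  obtain ⟨m, hm, hmf, hmS⟩ := hf.exists_monic π hπ
  have hcoef : ∀ n, ∃ q : A[X], q.map A.subtype = m.coeff n := fun n => by
    refine exists_map_subtype_eq (N := L) fun i => ?_
    obtain ⟨z, hz⟩ := hmS (coeffMap A.subtype).range (fun i =>
      ⟨⟨fun n => ⟨(sig π hπ i f).coeff n, hA i n⟩, (sig π hπ i f).isPWO_support.mono fun n hn h0 =>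
        hn (Subtype.ext h0)⟩, rfl⟩) n
    rw [← hz, coeffMap_coeff]
    exact (z.coeff i).2
  choose q hq using hcoef
  have hj : jC K L ∈ P.toValuationSubring :=
    (mem_toValuationSubring_iff P).2 (mem_ordGE_of_le_ord P hP.le)
  have hfm : f ∈ P.toValuationSubring := hf.mem_place P hj
  set j' : P.toValuationSubring := ⟨_, hj⟩
  set f' : P.toValuationSubring := ⟨_, hfm⟩
  let ev : K[X] →+* P.toValuationSubring :=
    (Polynomial.aeval j' : K[X] →ₐ[K] P.toValuationSubring).toRingHom
  have hev : P.toValuationSubring.subtype.comp ev = Level.evC K L := by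
    refine Polynomial.ringHom_ext (fun a => ?_) ?_
    · simp [ev, Level.evC_apply, Place.coe_algebraMap]
    · simp [ev, Level.evC_apply, j']
  let res : P.toValuationSubring →+* P.ResidueField := IsLocalRing.residue P.toValuationSubring
  have hj0 : res j' = 0 :=
    (residue_eq_zero_iff P j').2 (mem_ordGE_of_le_ord P (by show (1 : ℤ) ≤ P.ord (jC K L); omega))
  have hfc : res f' = algebraMap K P.ResidueField c := by
    have h := (residue_eq_zero_iff P (f' - algebraMap K P.toValuationSubring c)).2 (by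
      rw [AddSubgroupClass.coe_sub, Place.coe_algebraMap]; exact hc)
    exact sub_eq_zero.1 ((map_sub res _ _).symm.trans h)
  have hres : res.comp ev = (algebraMap K P.ResidueField).comp (evalRingHom 0) := by
    refine Polynomial.ringHom_ext (fun a => ?_) ?_
    · simp only [RingHom.comp_apply, coe_evalRingHom, eval_C]
      show res (Polynomial.aeval j' (C a)) = _
      rw [aeval_C]
      rfl
    · simp only [RingHom.comp_apply, coe_evalRingHom, eval_X, map_zero]
      show res (Polynomial.aeval j' X) = _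
      rw [aeval_X, hj0]
  have h0 : m.eval₂ ev f' = 0 := by
    refine Subtype.val_injective ?_
    show P.toValuationSubring.subtype (m.eval₂ ev f') = 0
    rw [Polynomial.hom_eval₂, hev]
    exact hmf
  have h1 : (m.map (evalRingHom 0)).eval c = 0 := by
    refine (algebraMap K P.ResidueField).injective ?_
    rw [map_zero, ← map_zero res, ← h0, Polynomial.hom_eval₂, hres, hfc, Polynomial.eval_map,
      Polynomial.hom_eval₂]
  have hlift : m.map (evalRingHom 0) ∈ Polynomial.lifts A.subtype :=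
    (Polynomial.lifts_iff_coeff_lifts _).mpr fun n => ⟨(q n).eval 0, by
      rw [Polynomial.coeff_map, coe_evalRingHom, ← hq n, Polynomial.eval_zero_map]⟩
  obtain ⟨m', hm', -, hmm⟩ := Polynomial.lifts_and_natDegree_eq_and_monic hlift (hm.map _)
  have hint : IsIntegral A c := ⟨m', hmm, by
    rw [← Polynomial.eval_map, show algebraMap A K = A.subtype from rfl, hm', h1]⟩
  obtain ⟨z, rfl⟩ := IsIntegrallyClosed.isIntegral_iff.1 hint
  exact z.2

/-- `j(dτ)` is regular, `d ∣ L`. -/
theorem regFin_jdC {d : ℕ} [NeZero d] (hd : d ∣ L) :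
    RegFin (⟨qExpand K d (jqModC K), jqModCd_mem_full K L hd⟩ :
      modularFunctionFieldFullC K L) := by
  obtain ⟨P, hPm, -, hP⟩ := exists_charPoly_red π (jFam (N := L) hd) (equivariant_jFam hd)
  refine ⟨P, hPm, (sig π hπ cst0).injective ?_⟩
  rw [map_zero, Polynomial.hom_eval₂,
    show (sig π hπ cst0).comp (Level.evC K L) = (phiJ L K).comp (algebraMap K[X] (Kj K)) from
      RingHom.ext fun p => by rw [RingHom.comp_apply, RingHom.comp_apply, phiJ_algebraMap, sig_evC],
    sig_jdC π hπ hd, ← Polynomial.eval₂_map, ← Polynomial.eval_map, hP, Polynomial.eval_prod]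
  exact Finset.prod_eq_zero (Finset.mem_univ cst0) (by simp [Gk])

omit hπ in
/-- `f ↦ f(ℓτ)` keeps regular functions regular. -/
theorem regFin_scaleAlg {M ℓ : ℕ} [NeZero M] [Fact ℓ.Prime] (hN : ((M * ℓ : ℕ) : K) ≠ 0)
    {f : modularFunctionFieldFullC K M} (hf : RegFin f) : RegFin (scaleAlg K M ℓ f) := by
  refine regFin_of_forall_mem hN fun v hv => ?_
  obtain ⟨π', hπ'⟩ := exists_pi (k := K) (M * ℓ) hN
  have hjl : scaleAlg K M ℓ (jC K M) ∈ v.toValuationSubring := by
    have h := (regFin_jdC π' hπ' (dvd_mul_left ℓ M)).mem_place v hv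
    exact (show scaleAlg K M ℓ (jC K M) = ⟨qExpand K ℓ (jqModC K),
      jqModCd_mem_full K (M * ℓ) (dvd_mul_left ℓ M)⟩ from
      Subtype.ext (by rw [coe_scaleAlg]; rfl)) ▸ h
  obtain ⟨P, hP, hPf⟩ := hf
  set β : modularFunctionFieldFullC K M →+* modularFunctionFieldFullC K (M * ℓ) :=
    (scaleAlg K M ℓ).toRingHom
  have hev : ∀ q, β (Level.evC K M q) ∈ v.toValuationSubring := fun q => by
    show scaleAlg K M ℓ (aeval (jC K M) q) ∈ _
    rw [← Polynomial.aeval_algHom_apply]
    exact FF.aeval_mem_of_mem v.algebraMap_mem' hjl q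
  have h : IsIntegral v.toValuationSubring (β f) := by
    refine ⟨P.map ((β.comp (Level.evC K M)).codRestrict _ hev), hP.map _, ?_⟩
    rw [Polynomial.eval₂_map]
    have h' := congrArg β hPf
    rwa [map_zero, Polynomial.hom_eval₂] at h'
  obtain ⟨z, hz⟩ := IsIntegrallyClosed.isIntegral_iff.1 h
  show β f ∈ _
  rw [← hz]
  exact z.2

end Trace

variable {p : ℕ} [Fact p.Prime] {k : Type} [Field k] [CharP k p] [IsAlgClosed k]
  [Algebra (ZMod p) k] [Algebra.IsAlgebraic (ZMod p) k] {M ℓ : ℕ} [NeZero M] [Fact ℓ.Prime]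

variable (hpM : ¬ p ∣ M) (hpN : ¬ p ∣ M * ℓ) (h3 : p = 3)

include hpM hpN h3

omit hpM in
/-- The reduced weighted sum of values of `(y(ℓτ) - y(τ)) z` over `j = 0` vanishes. -/
theorem sum_ord_mul_values_eq_zero (y : ratChart p M) (z : ratChart p (M * ℓ))
    {yk : modularFunctionFieldFullC k M} (hyk : (yk : LaurentSeries k) = chartRed p M k y)
    {zk : modularFunctionFieldFullC k (M * ℓ)}
    (hzk : (zk : LaurentSeries k) = chartRed p (M * ℓ) k z)
    (Z : Finset (Place k (modularFunctionFieldFullC k (M * ℓ)))) (c : Place k _ → k)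
    (hZ : ∀ w, w ∈ Z ↔ 0 < w.ord (jC k (M * ℓ)))
    (hc : ∀ w ∈ Z, (scaleAlg k M ℓ yk - levelAlg k (dvd_mul_right M ℓ) yk) * zk -
      algebraMap k _ (c w) ∈ ordGE w 1) :
    ∑ w ∈ Z, (w.ord (jC k (M * ℓ)) : k) * c w = 0 := by
  classical
  obtain ⟨A, π, hA⟩ := exists_placeRed p k
  obtain ⟨πR, hK, hk⟩ := exists_piR_placeRed (π := π) hpN
  let ιQ := algebraMap ℚ (AlgebraicClosure ℚ)
  have hy₀ := coeffMap_mem_regSeries ιQ (mem_ratInt_iff.mp y.2)
  have hz₀ := coeffMap_mem_regSeries ιQ (mem_ratInt_iff.mp z.2)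
  set y₀ : modularFunctionFieldFullC (AlgebraicClosure ℚ) M := ⟨_, hy₀.1⟩
  set z₀ : modularFunctionFieldFullC (AlgebraicClosure ℚ) (M * ℓ) := ⟨_, hz₀.1⟩
  have hNK : ((M * ℓ : ℕ) : AlgebraicClosure ℚ) ≠ 0 := by
    exact_mod_cast NeZero.ne (M * ℓ)
  set g₀ := scaleAlg (AlgebraicClosure ℚ) M ℓ y₀ -
    levelAlg (AlgebraicClosure ℚ) (dvd_mul_right M ℓ) y₀ with hg₀
  set f₀ := g₀ * z₀
  set fk := (scaleAlg k M ℓ yk - levelAlg k (dvd_mul_right M ℓ) yk) * zk
  have hz₀reg : RegFin z₀ := regFin_iff.mpr hz₀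
  have hy₀reg : RegFin y₀ := regFin_iff.mpr hy₀
  have hlev : RegFin (levelAlg (AlgebraicClosure ℚ) (dvd_mul_right M ℓ) y₀) := by
    rw [show levelAlg (AlgebraicClosure ℚ) (dvd_mul_right M ℓ) y₀ =
      incl (dvd_mul_right M ℓ) y₀ from
      Subtype.ext (by rw [levelAlg_apply, coe_levelIncl, coe_incl])]
    exact (regFin_incl_iff _).2 hy₀reg
  have hf₀ : RegFin f₀ := ((regFin_scaleAlg hNK hy₀reg).sub hlev).mul hz₀reg
  have hyred : Red A π (y₀ : LaurentSeries (AlgebraicClosure ℚ)) (yk : LaurentSeries k) := by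
    rw [hyk, chartRed_apply]
    exact red_toQ hA (y : LaurentSeries (ZL p))
  have hzred : Red A π (z₀ : LaurentSeries (AlgebraicClosure ℚ)) (zk : LaurentSeries k) := by
    rw [hzk, chartRed_apply]
    exact red_toQ hA (z : LaurentSeries (ZL p))
  have hfred : Red A π (f₀ : LaurentSeries (AlgebraicClosure ℚ)) (fk : LaurentSeries k) := by
    show Red A π ((_ - _) * _) ((_ - _) * _)
    simp only [levelAlg_apply]
    erw [coe_scaleAlg, coe_scaleAlg, coe_levelIncl (dvd_mul_right M ℓ),
      coe_levelIncl (dvd_mul_right M ℓ)]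
    exact ((red_qExpand hyred).sub hyred).mul hzred
  have hfk : RegFin fk := by
    obtain ⟨w, hw, hwx, -⟩ := exists_red_all hA.surjective πR hK hk hf₀ hfred
    exact Subtype.ext hwx ▸ hw
  have hall := red_conj hA.surjective πR hK hk hf₀ hfred
  obtain ⟨T₀, hT₀, hT₀v⟩ := exists_trace_poly _ hK hf₀
  obtain ⟨Tk, hTk, hTkv⟩ := exists_trace_poly _ hk hfk
  have hTred : Red A π (evJ (AlgebraicClosure ℚ) (M * ℓ) T₀) (evJ k (M * ℓ) Tk) := by
    rw [hT₀, hTk]
    exact Red.sum _ fun i _ => hall i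
  obtain ⟨q, hq⟩ := exists_map_subtype_eq (N := M * ℓ) (fun n => hTred.coeff_mem n)
  have hqk : q.map π = Tk := evJ_injective (M * ℓ) (Red.unique (hq ▸ red_evJ q) hTred)
  rw [← hTkv Z c hZ hc, ← hqk, Polynomial.eval_zero_map]
  -- characteristic zero
  have := FF.isFunctionField_fullC (AlgebraicClosure ℚ) (M * ℓ) hNK
  set Z₀ := (FF.finite_setOf_ord_pos (K := AlgebraicClosure ℚ)
    (jC (AlgebraicClosure ℚ) (M * ℓ))).toFinset
  have hZ₀ : ∀ P, P ∈ Z₀ ↔ 0 < P.ord (jC (AlgebraicClosure ℚ) (M * ℓ)) := fun P => by simp [Z₀]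
  have hmem : ∀ P ∈ Z₀, f₀ ∈ ordGE P 0 := fun P hP =>
    (mem_toValuationSubring_iff P).1 (hf₀.mem_place P ((mem_toValuationSubring_iff P).2
      (mem_ordGE_of_le_ord P ((hZ₀ P).1 hP).le)))
  have hval : ∀ P ∈ Z₀, ∃ a, f₀ - algebraMap (AlgebraicClosure ℚ) _ a ∈ ordGE P 1 :=
    fun P hP => exists_value P (hmem P hP)
  choose! c₀ hc₀ using hval
  have hterm : ∀ P ∈ Z₀, ∃ a : A,
      (P.ord (jC (AlgebraicClosure ℚ) (M * ℓ)) : AlgebraicClosure ℚ) * c₀ P =
        3 * (a : AlgebraicClosure ℚ) := by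
    intro P hP
    have hca : c₀ P ∈ A := value_mem _ hK A hf₀ (fun i n => (hall i).coeff_mem n) P
      ((hZ₀ P).1 hP) (hc₀ P hP)
    rcases ord_scale_eq_ord_incl M ℓ P ((hZ₀ P).1 hP) with h | ⟨h, hsame⟩
    · exact ⟨⟨_, hca⟩, by rw [h]; norm_num⟩
    refine ⟨0, ?_⟩
    suffices hg : g₀ ∈ ordGE P 1 by
      have h1 : f₀ ∈ ordGE P 1 := by
        simpa using mul_mem_ordGE P hg
          ((mem_toValuationSubring_iff P).1 (hz₀reg.mem_place P ((mem_toValuationSubring_iff P).2
            (mem_ordGE_of_le_ord P ((hZ₀ P).1 hP).le))))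
      have h2 := sub_mem h1 (hc₀ P hP)
      rw [sub_sub_cancel] at h2
      rcases eq_or_ne (c₀ P) 0 with h0 | h0
      · rw [h0, mul_zero, ZeroMemClass.coe_zero, mul_zero]
      · have h4 := (mem_ordGE_of_ne_zero P ((_root_.map_ne_zero _).2 h0)).1 h2
        rw [FF.ord_algebraMap] at h4
        omega
    obtain ⟨a, ha⟩ := exists_value P ((mem_toValuationSubring_iff P).1
      (hlev.mem_place P ((mem_toValuationSubring_iff P).2
        (mem_ordGE_of_le_ord P ((hZ₀ P).1 hP).le))))
    set y₁ := y₀ - algebraMap (AlgebraicClosure ℚ) _ a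
    have hg : g₀ = scaleAlg (AlgebraicClosure ℚ) M ℓ y₁ -
        levelAlg (AlgebraicClosure ℚ) (dvd_mul_right M ℓ) y₁ := by
      simp only [y₁, g₀, map_sub, AlgHom.commutes]
      ring
    rw [hg]
    have hl : levelAlg (AlgebraicClosure ℚ) (dvd_mul_right M ℓ) y₁ ∈ ordGE P 1 := by
      rwa [map_sub, AlgHom.commutes]
    rcases eq_or_ne y₁ 0 with h0 | h0
    · rw [h0, map_zero, map_zero, sub_zero]
      exact zero_mem _
    refine sub_mem (mem_ordGE_of_le_ord P ?_) hl
    rw [hsame]
    exact (mem_ordGE_of_ne_zero P ((_root_.map_ne_zero _).2 h0)).1 hl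
  choose! a ha using hterm
  have hq0 : q.eval 0 = 3 * ∑ P ∈ Z₀, a P := by
    refine A.subtype_injective ?_
    rw [← Polynomial.eval_zero_map, hq, hT₀v Z₀ c₀ hZ₀ hc₀, map_mul, map_ofNat, map_sum,
      Finset.mul_sum]
    exact Finset.sum_congr rfl fun P hP => ha P hP
  rw [hq0, map_mul, map_ofNat, show (3 : k) = ((3 : ℕ) : k) by norm_num,
    (CharP.cast_eq_zero_iff k p 3).2 (by rw [h3]), zero_mul]

/-- **At these places the two maps to level `M` have the same restriction.** -/
theorem scale_sub_level_mem (w : Place k (modularFunctionFieldFullC k (M * ℓ)))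
    (hw : 0 < w.ord (jC k (M * ℓ))) (hw3 : ¬ (p : ℤ) ∣ w.ord (jC k (M * ℓ)))
    {y : modularFunctionFieldFullC k M} (hy : RegFin y) :
    scaleAlg k M ℓ y - levelAlg k (dvd_mul_right M ℓ) y ∈ ordGE w 1 := by
  classical
  have hN := natCast_ne_zero_of_not_dvd p (M * ℓ) k hpN
  have := FF.isFunctionField_fullC k (M * ℓ) hN
  set Z := (FF.finite_setOf_ord_pos (K := k) (jC k (M * ℓ))).toFinset
  have hZ : ∀ v, v ∈ Z ↔ 0 < v.ord (jC k (M * ℓ)) := fun v => by simp [Z]
  obtain ⟨u, hu, huZ, hu0, huw⟩ := exists_regular_unit (FF.transcendental_jC k (M * ℓ))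
    (fun v => FF.deg_eq_one v) (Z.erase w) (fun v hv => ((hZ v).1 (Finset.mem_of_mem_erase hv)).le)
    (Finset.notMem_erase w Z) hw.le 1
  have hu' : RegFin u := regFin_of_regRing (M * ℓ) hpN hu
  let ι := FF.qbarToComplex
  have hspan := mem_span_chartRed p M k hpM (fun A π hπ =>
    Reduction.Level.normalLift_of_ne_zero ι hπ (natCast_ne_zero_of_not_dvd p M k hpM)) y hy
  have hspanu := mem_span_chartRed p (M * ℓ) k hpN (fun A π hπ =>
    Reduction.Level.normalLift_of_ne_zero ι hπ hN) u hu'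
  obtain ⟨cy, hcy⟩ := Finsupp.mem_span_range_iff_exists_finsupp.1 hspan
  obtain ⟨cu, hcu⟩ := Finsupp.mem_span_range_iff_exists_finsupp.1 hspanu
  choose yk hykreg hyk using chartRed_regFin p M k hpM
  choose zk hzkreg hzk using chartRed_regFin p (M * ℓ) k hpN
  have hy' : y = ∑ i ∈ cy.support, algebraMap k _ (cy i) * yk i := by
    refine Subtype.ext ?_
    rw [← hcy, AddSubmonoidClass.coe_finsetSum, Finsupp.sum]
    exact Finset.sum_congr rfl fun i _ => by
      rw [MulMemClass.coe_mul, hyk, IntermediateField.coe_algebraMap_apply, smul_eq_algebraMap_mul]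
  have hu'' : u = ∑ i ∈ cu.support, algebraMap k _ (cu i) * zk i := by
    refine Subtype.ext ?_
    rw [← hcu, AddSubmonoidClass.coe_finsetSum, Finsupp.sum]
    exact Finset.sum_congr rfl fun i _ => by
      rw [MulMemClass.coe_mul, hzk, IntermediateField.coe_algebraMap_apply, smul_eq_algebraMap_mul]
  set D : modularFunctionFieldFullC k M → modularFunctionFieldFullC k (M * ℓ) :=
    fun f => scaleAlg k M ℓ f - levelAlg k (dvd_mul_right M ℓ) f
  have hD : ∀ f, RegFin f → ∀ v : Place k (modularFunctionFieldFullC k (M * ℓ)), v ∈ Z →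
      D f ∈ ordGE v 0 := fun f hf v hv =>
    (mem_toValuationSubring_iff v).1 (((regFin_scaleAlg hN hf).sub (by
      rw [show levelAlg k (dvd_mul_right M ℓ) f = incl (dvd_mul_right M ℓ) f from
        Subtype.ext (by rw [levelAlg_apply, coe_levelIncl, coe_incl])]
      exact (regFin_incl_iff _).2 hf)).mem_place v
      ((mem_toValuationSubring_iff v).2 (mem_ordGE_of_le_ord v ((hZ v).1 hv).le)))
  have hvals : ∀ i j, ∀ v ∈ Z, ∃ a, D (yk i) * zk j - algebraMap k _ a ∈ ordGE v 1 :=
    fun i j v hv => exists_value v (by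
      simpa using mul_mem_ordGE v (hD _ (hykreg i) v hv) ((mem_toValuationSubring_iff v).1
        ((hzkreg j).mem_place v ((mem_toValuationSubring_iff v).2
          (mem_ordGE_of_le_ord v ((hZ v).1 hv).le)))))
  choose! c hc using hvals
  have hzero : ∀ i j, ∑ v ∈ Z, (v.ord (jC k (M * ℓ)) : k) * c i j v = 0 := fun i j =>
    sum_ord_mul_values_eq_zero hpN h3 i j (hyk i) (hzk j) Z (c i j) hZ (hc i j)
  set C₀ : Place k (modularFunctionFieldFullC k (M * ℓ)) → k := fun v =>
    ∑ i ∈ cy.support, ∑ j ∈ cu.support, cy i * cu j * c i j v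
  have hC₀ : ∀ v ∈ Z, D y * u - algebraMap k _ (C₀ v) ∈ ordGE v 1 := by
    intro v hv
    have : D y * u - algebraMap k _ (C₀ v) = ∑ i ∈ cy.support, ∑ j ∈ cu.support,
        (cy i * cu j) • (D (yk i) * zk j - algebraMap k _ (c i j v)) := by
      simp only [D, C₀, hy', hu'', map_sum, map_mul, AlgHom.commutes, ← Finset.sum_sub_distrib,
        Finset.sum_mul_sum, Algebra.smul_def]
      exact Finset.sum_congr rfl fun i _ => Finset.sum_congr rfl fun j _ => by ring
    rw [this]
    exact Submodule.sum_mem _ fun i _ => Submodule.sum_mem _ fun j _ =>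
      Submodule.smul_mem _ _ (hc i j v hv)
  have hsum : ∑ v ∈ Z, (v.ord (jC k (M * ℓ)) : k) * C₀ v = 0 := by
    simp only [C₀, Finset.mul_sum]
    rw [Finset.sum_comm]
    refine Finset.sum_eq_zero fun i _ => ?_
    rw [Finset.sum_comm]
    refine Finset.sum_eq_zero fun j _ => ?_
    rw [Finset.sum_congr rfl fun v _ => (mul_left_comm (v.ord (jC k (M * ℓ)) : k)
      (cy i * cu j) (c i j v)), ← Finset.mul_sum, hzero i j, mul_zero]
  have hothers : ∀ v ∈ Z, v ≠ w → C₀ v = 0 := fun v hv hne => by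
    have h1 : D y * u ∈ ordGE v 1 := by
      simpa using mul_mem_ordGE v (hD y hy v hv) (huZ v (Finset.mem_erase.2 ⟨hne, hv⟩))
    have h2 := sub_mem h1 (hC₀ v hv)
    rw [sub_sub_cancel] at h2
    by_contra h0
    have h4 := (mem_ordGE_of_ne_zero v ((_root_.map_ne_zero _).2 h0)).1 h2
    rw [FF.ord_algebraMap] at h4
    omega
  rw [Finset.sum_eq_single_of_mem w ((hZ w).2 hw) fun v hv hne => by
    rw [hothers v hv hne, mul_zero]] at hsum
  have hC0 : C₀ w = 0 :=
    (mul_eq_zero.1 hsum).resolve_left fun h => hw3 ((CharP.intCast_eq_zero_iff k p _).1 h)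
  have h := hC₀ w ((hZ w).2 hw)
  rw [hC0, map_zero, sub_zero] at h
  rcases eq_or_ne (D y) 0 with h0 | h0
  · show D y ∈ _
    rw [h0]
    exact zero_mem _
  refine mem_ordGE_of_le_ord w ?_
  have h' := (mem_ordGE_of_ne_zero w (mul_ne_zero h0 hu0)).1 h
  rwa [w.ord_mul h0 hu0, huw, add_zero] at h'

end Fermat.Agent.LevelLowerP
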