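import Fermat.Agent.LevelLowerP.CharThree
import Fermat.Agent.LevelLowerP.SpecialValue
import Fermat.Agent.LevelLowerP.GeoModel
import Fermat.Agent.MazurPrinciple.EtaUnit

/-!
# Orders divisible by three descend from the level `M q` when the reduction is a Hecke eigenfunction

Only the points over `j = 0` where `3 ∤ ord j` can fail to descend. Over such a point the norm of
`u(ℓτ)` from level `M ℓ` has order `(ℓ + 1) ord u` modulo three, while the eigenvalue relation
says `a ord u`.
-/

set_option autoImplicit false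

noncomputable section

namespace Fermat.Agent.LevelLowerP

open ModularCurve AlgebraicCurve Fermat.Agent.Igusa Fermat.Agent.FF
open scoped LaurentSeries

/-- In characteristic three `j(ℓτ)/j(τ)` is a unit where `j` is finite. -/
theorem ord_scaleAlg_jC {k : Type} [Field k] [IsAlgClosed k] [CharP k 3] {M ℓ : ℕ} [NeZero M]
    [Fact ℓ.Prime] (hN : ((M * ℓ : ℕ) : k) ≠ 0)
    (w : Place k (modularFunctionFieldFullC k (M * ℓ)))
    (hw : 0 ≤ w.ord (jC k (M * ℓ))) :
    w.ord (scaleAlg k M ℓ (jC k M)) = w.ord (jC k (M * ℓ)) := by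
  classical
  obtain ⟨π, hπ⟩ := exists_pi (k := k) (M * ℓ) hN
  set n : ℕ → ℤ := fun m => if m = ℓ then -1 else 0
  obtain ⟨V, hV, -, -⟩ := MazurPrinciple.exists_etaUnit π hπ n
  obtain ⟨hV0, hVord⟩ := MazurPrinciple.ord_etaUnit_eq_zero π hπ n hV
  have hmem : ℓ ∈ (M * ℓ).divisors :=
    Nat.mem_divisors.2 ⟨dvd_mul_left ℓ M, NeZero.ne (M * ℓ)⟩
  have hser : MazurPrinciple.etaSer (M * ℓ) k n = deltaR k * qExpand k ℓ (deltaInvR k) := by
    rw [MazurPrinciple.etaSer, Finset.prod_eq_single_of_mem ⟨ℓ, hmem⟩ (Finset.mem_attach _ _)]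
    · simp [MazurPrinciple.etaFactor, n]
    · intro b _ hb
      have : (b : ℕ) ≠ ℓ := fun h => hb (Subtype.ext h)
      simp [MazurPrinciple.etaFactor, n, this]
  have hprod : scaleAlg k M ℓ (jC k M) = V * jC k (M * ℓ) := Subtype.ext (by
    rw [coe_scaleAlg, coe_jC', MulMemClass.coe_mul, hV, hser, coe_jC', jqModC_eq_deltaInvR,
      mul_comm (deltaR k), mul_assoc, deltaR_mul_deltaInvR, mul_one])
  have hj0 : jC k (M * ℓ) ≠ 0 := fun h => jqModC_ne_zero' (k := k) (congrArg Subtype.val h)
  rw [hprod, w.ord_mul hV0 hj0,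
    hVord w ((mem_toValuationSubring_iff w).2 (mem_ordGE_of_le_ord w hw)), zero_add]

variable {p : ℕ} [Fact p.Prime] {R k : Type} [CommRing R] [IsDomain R] [IsDiscreteValuationRing R]
  [Field k] [IsAlgClosed k] [CharP k p] [Algebra (ZMod p) k] [Algebra.IsAlgebraic (ZMod p) k]
  {S : Setup p R k} (U : Unram S) {M q : ℕ} [NeZero M] [NeZero q]

include U in
/-- A point where `p ∣ ord` upstairs but not downstairs lies over `j = 0`, with `p ∤ ord j`. -/
theorem ord_jC_of_not_dvd (hp3 : p = 3) (hpM : ¬ p ∣ M) (hpMq : ¬ p ∣ M * q) (hMq : M ∣ M * q)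
    {u : modularFunctionFieldFullC k M}
    (hup : ∀ w : Place k (modularFunctionFieldFullC k (M * q)),
      (p : ℤ) ∣ w.ord (levelIncl hMq u))
    (v : Place k (modularFunctionFieldFullC k M)) (hv : ¬ (p : ℤ) ∣ v.ord u) :
    0 < v.ord (jC k M) ∧ ¬ (p : ℤ) ∣ v.ord (jC k M) := by
  have hp : p.Prime := Fact.out
  have := S.charZero
  have : CharZero (FractionRing R) :=
    charZero_of_injective_ringHom (IsFractionRing.injective R (FractionRing R))
  have hNk := natCast_ne_zero_of_not_dvd p (M * q) k hpMq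
  have := FF.isFunctionField_fullC k M (natCast_ne_zero_of_not_dvd p M k hpM)
  have := FF.isFunctionField_fullC k (M * q) hNk
  let _ := algebraAlong (levelAlg k hMq)
  have := isScalarTower_along (levelAlg k hMq)
  have : Module.Finite (modularFunctionFieldFullC k M) (modularFunctionFieldFullC k (M * q)) :=
    FF.finiteAlong (levelAlg k hMq)
  obtain ⟨w, hw⟩ : (v.fiber (modularFunctionFieldFullC k (M * q))).Nonempty := by
    by_contra h
    rw [Finset.not_nonempty_iff_eq_empty] at h
    have hs := sum_ramificationIndex (F' := modularFunctionFieldFullC k (M * q)) v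
    rw [h, Finset.sum_empty] at hs
    exact (Module.finrank_pos (R := modularFunctionFieldFullC k M)
      (M := modularFunctionFieldFullC k (M * q))).ne hs
  set e := w.ramificationIndex (modularFunctionFieldFullC k M)
  have hord : ∀ y : modularFunctionFieldFullC k M, w.ord (levelIncl hMq y) = e * v.ord y :=
    fun y => by
      have h := w.ord_restrict (F := modularFunctionFieldFullC k M) y
      rw [Place.mem_fiber.1 hw] at h
      exact h
  have he : p ∣ e := by
    have h := hup w
    rw [hord] at h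
    exact Int.natCast_dvd_natCast.1 ((Int.Prime.dvd_mul' hp h).resolve_right hv)
  rcases lt_or_ge (v.ord (jC k M)) 0 with hneg | hnn
  · exfalso
    have hwj : w.ord (jC k (M * q)) = e * v.ord (jC k M) := by
      rw [← levelIncl_jC k hMq, hord]
    obtain ⟨C⟩ := exists_cuspPt S U (M * q) hpMq w (by
      rw [hwj]
      exact mul_neg_of_pos_of_neg (by exact_mod_cast w.ramificationIndex_pos) hneg)
    have h := C.ramif_mul_ord S (M * q) hpMq
    rw [hwj] at h
    refine C.not_dvd (Int.natCast_dvd_natCast.1 ?_)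
    rw [← dvd_neg, ← h]
    exact ((Int.natCast_dvd_natCast.2 he).mul_right _).mul_left _
  have h3 := not_dvd_ord_jC_of_dvd_ramification U M hpM v hnn hp3 hpMq hMq w
    w.ramificationIndex_pos he (fun y _ => hord y)
  exact ⟨lt_of_le_of_ne hnn fun h => h3 (by rw [← h]; exact dvd_zero _), h3⟩

include U in
/-- **Descent of divisibility at `p = 3`.** Only the elliptic supersingular points can fail to
descend, and there `T_ℓ` acts by `ℓ + 1`. -/
theorem dvd_ord_descend_three (hp3 : p = 3) (hpM : ¬ p ∣ M) (hq : q.Prime)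
    (hqN : ¬ q ∣ M * p) (hMq : M ∣ M * q) {u : modularFunctionFieldFullC k M} (hu : u ≠ 0)
    (hup : ∀ w : Place k (modularFunctionFieldFullC k (M * q)),
      (p : ℤ) ∣ w.ord (levelIncl hMq u))
    {ℓ : ℕ} [NeZero ℓ] (hℓ : ℓ.Prime) (hℓN : ¬ ℓ ∣ M * p) {a : ℤ}
    (hne : ¬ (p : ℤ) ∣ a - ((ℓ : ℤ) + 1)) {e : k} (he : e ≠ 0)
    {h : modularFunctionFieldFullC k M} (hh : h ≠ 0)
    (hT : qExpand k ℓ (u : LaurentSeries k) * seriesNorm ℓ (u : LaurentSeries k) =
      HahnSeries.C e * (u : LaurentSeries k) ^ a * (h : LaurentSeries k) ^ p)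
    (v : Place k (modularFunctionFieldFullC k M)) : (p : ℤ) ∣ v.ord u := by
  classical
  by_contra hb
  have hp : p.Prime := Fact.out
  have : Fact ℓ.Prime := ⟨hℓ⟩
  have hpMq : ¬ p ∣ M * q := fun hd => (hp.dvd_mul.1 hd).elim hpM fun hd' =>
    hqN ((Nat.prime_dvd_prime_iff_eq hp hq).1 hd' ▸ dvd_mul_left _ _)
  have hpN : ¬ p ∣ M * ℓ := fun hd => (hp.dvd_mul.1 hd).elim hpM fun hd' =>
    hℓN ((Nat.prime_dvd_prime_iff_eq hp hℓ).1 hd' ▸ dvd_mul_left _ _)
  have hℓM : ¬ ℓ ∣ M := fun hd => hℓN (hd.mul_right _)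
  have hN := natCast_ne_zero_of_not_dvd p (M * ℓ) k hpN
  have := FF.isFunctionField_fullC k M (natCast_ne_zero_of_not_dvd p M k hpM)
  have := FF.isFunctionField_fullC k (M * ℓ) hN
  have hspecial := ord_jC_of_not_dvd U hp3 hpM hpMq hMq hup
  obtain ⟨hvj, hvj3⟩ := hspecial v hb
  set φ := levelAlg k (dvd_mul_right M ℓ)
  set β := scaleAlg k M ℓ
  have hβ := FF.isIntegralAlong β
  let _ := algebraAlong φ
  have := isScalarTower_along φ
  have : Module.Finite (modularFunctionFieldFullC k M) (modularFunctionFieldFullC k (M * ℓ)) :=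
    FF.finiteAlong φ
  -- the norm
  have hnorm : Algebra.norm (modularFunctionFieldFullC k M) (β u) =
      algebraMap k _ e * u ^ a * h ^ p := Subtype.ext (by
    rw [norm_scaleAlg M ℓ hN hℓM u, hT]
    push_cast
    rw [algebraMap_laurentSeries_eq_single, HahnSeries.C_apply,
      show ((u ^ a : modularFunctionFieldFullC k M) : LaurentSeries k) =
        (u : LaurentSeries k) ^ a from
        map_zpow₀ (SubringClass.subtype (modularFunctionFieldFullC k M)) u a])
  have hordn := FF.ord_norm (F' := modularFunctionFieldFullC k (M * ℓ)) v (β u)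
  have hu0 : u ^ a ≠ 0 := zpow_ne_zero _ hu
  rw [hnorm, v.ord_mul (mul_ne_zero ((_root_.map_ne_zero _).2 he) hu0) (pow_ne_zero _ hh),
    v.ord_mul ((_root_.map_ne_zero _).2 he) hu0, FF.ord_algebraMap, zero_add, v.ord_zpow,
    FF.ord_pow] at hordn
  -- every point above contributes its ramification index
  have hterm : ∀ w ∈ v.fiber (modularFunctionFieldFullC k (M * ℓ)),
      (p : ℤ) ∣ w.ord (β u) * (w.inertiaDeg (modularFunctionFieldFullC k M) : ℤ) -
        (w.ramificationIndex (modularFunctionFieldFullC k M) : ℤ) * v.ord u := by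
    intro w hw
    rw [FF.inertiaDeg_eq_one, Nat.cast_one, mul_one]
    set ew := w.ramificationIndex (modularFunctionFieldFullC k M)
    have hepos : (0 : ℤ) < ew := by exact_mod_cast w.ramificationIndex_pos
    have hjL : w.ord (jC k (M * ℓ)) = ew * v.ord (jC k M) := by
      have h1 := w.ord_restrict (F := modularFunctionFieldFullC k M) (jC k M)
      rw [Place.mem_fiber.1 hw] at h1
      rw [← levelIncl_jC k (dvd_mul_right M ℓ)]
      exact h1
    have hjLpos : 0 < w.ord (jC k (M * ℓ)) := hjL ▸ mul_pos hepos hvj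
    have hβj : w.ord (β (jC k M)) = w.ord (jC k (M * ℓ)) := by
      subst hp3
      exact ord_scaleAlg_jC hN w hjLpos.le
    set v' := w.restrictAlong β hβ
    set e' := Place.ramificationIndexAlong β w
    have hv' : ∀ f, w.ord (β f) = e' * v'.ord f := fun f => w.ord_restrictAlong β hβ f
    by_cases hdiv : (p : ℤ) ∣ ew
    · refine dvd_sub ?_ (hdiv.mul_right _)
      rw [hv']
      by_contra hnd
      obtain ⟨-, hj'⟩ := hspecial v' fun hd => hnd (hd.mul_left _)
      have h1 : (p : ℤ) ∣ e' * v'.ord (jC k M) := by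
        rw [← hv', hβj, hjL]
        exact hdiv.mul_right _
      exact hnd (((Int.Prime.dvd_mul' hp h1).resolve_right hj').mul_right _)
    -- otherwise the two restrictions agree
    have hw3 : ¬ (p : ℤ) ∣ w.ord (jC k (M * ℓ)) := by
      rw [hjL]
      exact fun hd => (Int.Prime.dvd_mul' hp hd).elim hdiv hvj3
    have hv'j : 0 ≤ v'.ord (jC k M) := by
      have h1 : (0 : ℤ) < e' * v'.ord (jC k M) := by rw [← hv', hβj]; exact hjLpos
      by_contra hlt
      have := mul_nonpos_of_nonneg_of_nonpos (Int.natCast_nonneg e') (not_le.1 hlt).le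
      omega
    have heq : v' = v := by
      by_contra hne'
      obtain ⟨y, hy, hyZ, hy0, hyv⟩ := exists_regular_unit (FF.transcendental_jC k M)
        (fun x => FF.deg_eq_one x) {v'} (fun x hx => by rw [Finset.mem_singleton.1 hx]; exact hv'j)
        (fun hmem => hne' (Finset.mem_singleton.1 hmem).symm) hvj.le 1
      have hyreg : Reduction.Level.RegFin y := regFin_of_regRing M hpM hy
      have hD := scale_sub_level_mem hpM hpN hp3 w hjLpos hw3 hyreg
      have hv'y : 1 ≤ v'.ord y :=
        (mem_ordGE_of_ne_zero v' hy0).1 (by simpa using hyZ v' (Finset.mem_singleton_self v'))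
      have he' : (0 : ℤ) < e' := by
        rcases Nat.eq_zero_or_pos e' with h0 | h0
        · exfalso
          have h1 := hv' (jC k M)
          rw [hβj, h0, Nat.cast_zero, zero_mul] at h1
          omega
        · exact_mod_cast h0
      have hβy : β y ∈ ordGE w 1 := mem_ordGE_of_le_ord w (by
        rw [hv']
        nlinarith)
      have hαy : φ y ∈ ordGE w 1 := by
        have := sub_mem hβy hD
        rwa [sub_sub_cancel] at this
      have hαy0 : φ y ≠ 0 := (_root_.map_ne_zero _).2 hy0
      have h1 := w.ord_restrict (F := modularFunctionFieldFullC k M) y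
      rw [Place.mem_fiber.1 hw, hyv, mul_zero] at h1
      have h2 := (mem_ordGE_of_ne_zero w hαy0).1 hαy
      change 1 ≤ w.ord (algebraMap _ _ y) at h2
      rw [h1] at h2
      omega
    have he' : (e' : ℤ) = ew := by
      have h1 := hv' (jC k M)
      rw [hβj, hjL, heq] at h1
      exact (mul_right_cancel₀ hvj.ne' h1).symm
    rw [hv', heq, he', sub_self]
    exact dvd_zero _
  have hdeg : Module.finrank (modularFunctionFieldFullC k M)
      (modularFunctionFieldFullC k (M * ℓ)) = ℓ + 1 := by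
    have h1 := finrankAlong_levelAlg k hN (dvd_mul_right M ℓ)
    have h2 : dedekindPsi (M * ℓ) = (ℓ + 1) * dedekindPsi M := by
      rw [Cosets.dedekindPsi_mul ((hℓ.coprime_iff_not_dvd.mpr hℓM).symm), mul_comm]
      congr 1
      simpa using Cosets.dedekindPsi_prime_pow hℓ 0
    exact Nat.eq_of_mul_eq_mul_right (Cosets.dedekindPsi_pos (NeZero.ne M)) (h1.trans h2)
  have hsum := Finset.dvd_sum hterm
  rw [Finset.sum_sub_distrib, ← hordn, ← Finset.sum_mul, ← Nat.cast_sum, sum_ramificationIndex,
    hdeg] at hsum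
  have hd : (p : ℤ) ∣ (a - ((ℓ : ℤ) + 1)) * v.ord u := by
    have h2 : (p : ℤ) ∣ (p : ℤ) * v.ord h := dvd_mul_right _ _
    have h3 := dvd_sub hsum h2
    push_cast at h3
    rwa [show a * v.ord u + (p : ℤ) * v.ord h - ((ℓ : ℤ) + 1) * v.ord u - (p : ℤ) * v.ord h =
      (a - ((ℓ : ℤ) + 1)) * v.ord u by ring] at h3
  exact (Int.Prime.dvd_mul' hp hd).elim hne hb

end Fermat.Agent.LevelLowerP
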