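import Fermat.Agent.LevelLowerP.SeriesNorm
import Fermat.Agent.LevelLowerP.Theta

/-!
# Logarithmic derivatives of series norms

Logarithmic derivatives of the series norm, and series of dual numbers as dual numbers of series.

Main result: `theta_seriesNorm`.
-/

set_option autoImplicit false

noncomputable section

namespace Fermat.Agent.LevelLowerP

open ModularCurve DualNumber TrivSqZeroExt

section Dual

variable {k : Type*} [CommRing k]

/-- The constant series `ε`. -/
abbrev epsSeries (k : Type*) [CommRing k] : LaurentSeries (DualNumber k) :=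
  HahnSeries.C (DualNumber.eps : DualNumber k)

theorem epsSeries_mul_self : epsSeries k * epsSeries k = 0 := by
  rw [← map_mul, DualNumber.eps_mul_eps, map_zero]

/-- A dual number of series is a series of dual numbers. -/
def joinLaurent : DualNumber (LaurentSeries k) →+* LaurentSeries (DualNumber k) where
  toFun x := coeffMap (TrivSqZeroExt.inlHom k k) x.fst +
    epsSeries k * coeffMap (TrivSqZeroExt.inlHom k k) x.snd
  map_one' := by simp
  map_zero' := by simp
  map_add' x y := by simp only [fst_add, snd_add, map_add]; ring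
  map_mul' x y := by
    rw [fst_mul, DualNumber.snd_mul, map_mul, map_add, map_mul, map_mul]
    linear_combination -(coeffMap (TrivSqZeroExt.inlHom k k) x.snd *
      coeffMap (TrivSqZeroExt.inlHom k k) y.snd) * epsSeries_mul_self (k := k)

theorem joinLaurent_apply (x : DualNumber (LaurentSeries k)) :
    joinLaurent x = coeffMap (TrivSqZeroExt.inlHom k k) x.fst +
      epsSeries k * coeffMap (TrivSqZeroExt.inlHom k k) x.snd := rfl

theorem joinLaurent_coeff (x : DualNumber (LaurentSeries k)) (n : ℤ) :
    (joinLaurent x).coeff n = inl (x.fst.coeff n) + inr (x.snd.coeff n) := by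
  rw [joinLaurent_apply, HahnSeries.coeff_add, coeffMap_coeff, epsSeries, HahnSeries.C_apply,
    HahnSeries.coeff_single_zero_mul, coeffMap_coeff]
  ext <;> simp

theorem joinLaurent_injective : Function.Injective (joinLaurent (k := k)) := fun x y h => by
  have h' := fun n => (joinLaurent_coeff x n).symm.trans
    ((congrArg (fun s => HahnSeries.coeff s n) h).trans (joinLaurent_coeff y n))
  refine TrivSqZeroExt.ext (HahnSeries.ext (funext fun n => ?_))
    (HahnSeries.ext (funext fun n => ?_))
  · simpa using congrArg TrivSqZeroExt.fst (h' n)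
  · simpa using congrArg TrivSqZeroExt.snd (h' n)

theorem joinLaurent_inl (a : LaurentSeries k) :
    joinLaurent (inl a) = coeffMap (TrivSqZeroExt.inlHom k k) a := by simp [joinLaurent_apply]

theorem joinLaurent_one_add (c : k) :
    joinLaurent (1 + inr (HahnSeries.C c)) =
      HahnSeries.C (1 + inr c : DualNumber k) := by
  refine HahnSeries.ext (funext fun n => ?_)
  rw [joinLaurent_coeff]
  by_cases hn : n = 0
  · subst hn; ext <;> simp [HahnSeries.C_apply]
  · ext <;> simp [HahnSeries.C_apply, hn, HahnSeries.coeff_one]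

theorem one_add_inr_pow (c : k) (m : ℕ) :
    (1 + inr c : DualNumber k) ^ m = 1 + inr ((m : k) * c) := by
  induction m with
  | zero => simp
  | succ j ih =>
    rw [pow_succ, ih]
    ext <;> simp [add_mul, add_comm]

end Dual

section Theta

variable {k : Type*} [Field k] (ℓ : ℕ) [NeZero ℓ]

theorem seriesMat_theta (u : LaurentSeries k) :
    (ℓ : LaurentSeries k) • (seriesMat ℓ u).map (theta k) = seriesMat ℓ (theta k u) -
      (Matrix.diagonal (fun i : Fin ℓ => ((i : ℕ) : LaurentSeries k)) * seriesMat ℓ u -
        seriesMat ℓ u * Matrix.diagonal (fun i : Fin ℓ => ((i : ℕ) : LaurentSeries k))) := by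
  ext1 i j
  rw [Matrix.smul_apply, Matrix.sub_apply, Matrix.sub_apply, Matrix.diagonal_mul,
    Matrix.mul_diagonal, Matrix.map_apply, smul_eq_mul, mul_comm (seriesMat ℓ u i j), ← sub_mul]
  refine HahnSeries.ext (funext fun n => ?_)
  rw [show ((ℓ : ℕ) : LaurentSeries k) = HahnSeries.C (ℓ : k) from (map_natCast _ _).symm,
    show ((i : ℕ) : LaurentSeries k) - ((j : ℕ) : LaurentSeries k) =
      HahnSeries.C (((i : ℕ) : k) - ((j : ℕ) : k)) by rw [map_sub, map_natCast, map_natCast],
    HahnSeries.C_apply, HahnSeries.C_apply, HahnSeries.coeff_single_zero_mul, HahnSeries.coeff_sub,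
    HahnSeries.coeff_single_zero_mul]
  simp only [seriesMat, Matrix.of_apply, seriesSection_coeff, theta_coeff]
  push_cast
  ring

/-- The logarithmic derivative of the norm is a section of the logarithmic derivative. -/
theorem theta_seriesNorm (hℓ : (ℓ : k) ≠ 0) {u : LaurentSeries k} (hu : u ≠ 0) :
    theta k (seriesNorm ℓ u) = seriesSection ℓ 0 (theta k u * u⁻¹) * seriesNorm ℓ u := by
  set c : LaurentSeries k := (ℓ : LaurentSeries k)
  have hc : c ≠ 0 := by
    show (ℓ : LaurentSeries k) ≠ 0
    rw [← map_natCast (HahnSeries.C : k →+* LaurentSeries k)]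
    exact (map_ne_zero_iff _ HahnSeries.C_injective).2 hℓ
  let Θ : LaurentSeries k →+* DualNumber (LaurentSeries k) :=
    { toFun := fun x => inl x + inr (c * theta k x)
      map_one' := by ext <;> simp [theta_one]
      map_zero' := by ext <;> simp
      map_add' := fun x y => by ext <;> simp [mul_add]
      map_mul' := fun x y => by refine TrivSqZeroExt.ext ?_ ?_ <;> simp [theta_mul]; ring }
  set M := seriesMat ℓ u
  set Mi := seriesMat ℓ u⁻¹
  have hMi : Mi * M = 1 := by rw [← seriesMat_mul, inv_mul_cancel₀ hu, seriesMat_one]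
  have hMi' : M * Mi = 1 := by rw [← seriesMat_mul, mul_inv_cancel₀ hu, seriesMat_one]
  set X := c • M.map (theta k)
  set ι := (TrivSqZeroExt.inlHom (LaurentSeries k) (LaurentSeries k))
  set e : DualNumber (LaurentSeries k) := DualNumber.eps
  have hmap : Θ.mapMatrix M = ι.mapMatrix M * (1 + e • ι.mapMatrix (Mi * X)) := by
    rw [mul_add, mul_one, Matrix.mul_smul, ← map_mul ι.mapMatrix, ← mul_assoc, hMi', one_mul]
    ext1 i j
    refine TrivSqZeroExt.ext ?_ ?_ <;> simp [Θ, X, ι, e]
  have htr : Matrix.trace (Mi * X) = c * seriesSection ℓ 0 (theta k u * u⁻¹) := by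
    rw [show X = c • M.map (theta k) from rfl, seriesMat_theta, mul_sub, mul_sub,
      Matrix.trace_sub, Matrix.trace_sub, ← seriesMat_mul, trace_seriesMat, mul_comm u⁻¹,
      ← mul_assoc Mi, Matrix.trace_mul_comm Mi (M * _), mul_assoc M, Matrix.trace_mul_comm M,
      mul_assoc (Matrix.diagonal _), mul_assoc Mi (Matrix.diagonal _), Matrix.trace_mul_comm Mi,
      mul_assoc, hMi', mul_one, hMi, mul_one, sub_self, sub_zero]
  have hdet := congrArg TrivSqZeroExt.snd (congrArg Matrix.det hmap)
  rw [← RingHom.map_det, Matrix.det_mul, ← RingHom.map_det, Matrix.det_one_add_smul,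
    pow_two e, DualNumber.eps_mul_eps, mul_zero, add_zero,
    show Matrix.trace (ι.mapMatrix (Mi * X)) = ι (Matrix.trace (Mi * X)) from
      (AddMonoidHom.map_trace ι.toAddMonoidHom _).symm] at hdet
  simp [Θ, ι, e] at hdet
  refine mul_left_cancel₀ hc ?_
  rw [show seriesNorm ℓ u = M.det from rfl, hdet, htr]
  ring

end Theta

end Fermat.Agent.LevelLowerP
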