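import Fermat.Agent.MazurStep.Pairing

/-!
# A series killed by all regular functions is a combination of the reduced forms
-/

set_option autoImplicit false

noncomputable section

namespace Fermat.Agent.LevelLowerP

open HahnSeries AlgebraicCurve
open Fermat.Agent.Reduction Fermat.Agent.MazurStep
open Fermat.Agent.Reduction.CurveRed

variable {K k : Type*} [Field K] [Field k] {A : ValuationSubring K} {π : A →+* k}
  {S : CurveRed A π} {n₀ : ℕ}

/-- **The span of the reduced forms.** -/
theorem exists_eq_sum_coef (Φ : MazurStep.Forms S) (hgap : S.GapBound n₀) {G : LaurentSeries k}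
    (hG0 : ∀ i : ℤ, i ≤ 0 → G.coeff i = 0)
    (hG : ∀ N : ℕ, n₀ ≤ N → ∀ c ∈ S.regularSub (N : ℤ), (c * G).coeff 0 = 0) :
    ∃ α : Fin S.g → k, ∀ m : ℕ, G.coeff (m : ℤ) = ∑ i, α i * (Φ.coef i m : k) := by
  classical
  obtain ⟨N₁, hN₁⟩ := Φ.exists_regular_tail hgap
  obtain ⟨N₂, hN₂⟩ := Φ.exists_rank_tailMatrix
  set M := max N₁ (max N₂ n₀)
  let lam : ∀ N : ℕ, (Fin N → k) →ₗ[k] k := fun N =>
    ∑ j : Fin N, (G.coeff ((j : ℤ) + 1)) • LinearMap.proj j
  have hlam : ∀ N (w : Fin N → k), lam N w = ∑ j : Fin N, G.coeff ((j : ℤ) + 1) * w j :=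
    fun N w => by
    simp [lam]
  have hker : ∀ N, M ≤ N → ∀ w, (Φ.tailMatrix N).mulVecLin w = 0 → lam N w = 0 := by
    intro N hN w hw
    set x : LaurentSeries k := ∑ j : Fin N, HahnSeries.single (-((j : ℤ) + 1)) (w j) with hx
    have hxc : ∀ i : ℤ, x.coeff i =
        ∑ j : Fin N, if i = -((j : ℤ) + 1) then w j else 0 := fun i => by
      rw [hx, HahnSeries.coeff_sum]
      exact Finset.sum_congr rfl fun j _ => by rw [HahnSeries.coeff_single]; congr
    have hxN : PoleLE (N : ℤ) x := fun i hi => by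
      rw [hxc]
      refine Finset.sum_eq_zero fun j _ => if_neg ?_
      have : (j : ℤ) < N := by exact_mod_cast j.2
      omega
    have htail : tailMap N x = w := funext fun j => by
      show x.coeff _ = _
      rw [hxc, Finset.sum_eq_single j]
      · simp
      · intro b _ hb
        rw [if_neg]
        intro h
        exact hb (Fin.ext (by omega))
      · simp
    have hpair : Φ.pairBar x = 0 := by rw [← Φ.mulVec_tailMap hxN, htail, hw]
    have hMle : N₁ ≤ N ∧ n₀ ≤ N := by constructor <;> omega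
    obtain ⟨c, hc, hxc'⟩ := hN₁ N hMle.1 x hxN hpair
    have h1 : ((x - c) * G).coeff 0 = 0 := by
      rw [HahnSeries.coeff_mul]
      refine Finset.sum_eq_zero fun ab hab => ?_
      obtain ⟨-, -, hsum⟩ := Finset.mem_antidiagonal.1 hab
      rcases lt_or_ge ab.1 0 with ha | ha
      · rw [hxc' ab.1 (by simpa using ha), zero_mul]
      · rw [hG0 ab.2 (by omega), mul_zero]
    have h2 : (x * G).coeff 0 = 0 := by
      rw [show x = c + (x - c) by ring, add_mul, HahnSeries.coeff_add, hG N hMle.2 c hc, h1,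
        add_zero]
    rw [hlam, ← h2, hx, Finset.sum_mul, HahnSeries.coeff_sum]
    refine Finset.sum_congr rfl fun j _ => ?_
    rw [HahnSeries.coeff_single_mul, sub_neg_eq_add, zero_add, mul_comm]
  have hsurj : ∀ N, M ≤ N → Function.Surjective (Φ.tailMatrix N).mulVecLin := fun N hN => by
    rw [← LinearMap.range_eq_top]
    refine Submodule.eq_top_of_finrank_eq ?_
    rw [← Matrix.rank, hN₂ N (by omega), Module.finrank_fin_fun]
  have hα : ∀ N, M ≤ N → ∃ α : Fin S.g → k, ∀ j : Fin N,
      G.coeff ((j : ℤ) + 1) = ∑ i, α i * (Φ.coef i ((j : ℕ) + 1) : k) := by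
    intro N hN
    obtain ⟨s, hs⟩ := (Φ.tailMatrix N).mulVecLin.exists_rightInverse_of_surjective
      (LinearMap.range_eq_top.2 (hsurj N hN))
    refine ⟨fun i => lam N (s (Pi.single i 1)), fun j => ?_⟩
    set w : Fin N → k := Pi.single j 1
    have h1 : lam N w = G.coeff ((j : ℤ) + 1) := by
      rw [hlam, Finset.sum_eq_single j] <;> simp +contextual [w]
    have h2 : lam N w = lam N (s ((Φ.tailMatrix N).mulVecLin w)) := by
      rw [← sub_eq_zero, ← map_sub]
      refine hker N hN _ ?_
      rw [map_sub]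
      have := LinearMap.congr_fun hs ((Φ.tailMatrix N).mulVecLin w)
      rw [LinearMap.comp_apply, LinearMap.id_apply] at this
      rw [this, sub_self]
    rw [← h1, h2, pi_eq_sum_univ' ((Φ.tailMatrix N).mulVecLin w), map_sum, map_sum]
    refine Finset.sum_congr rfl fun i _ => ?_
    rw [map_smul, map_smul, smul_eq_mul, mul_comm]
    congr 1
    simp [w, Forms.tailMatrix, Matrix.mulVec_single]
  obtain ⟨α, hαM⟩ := hα M le_rfl
  refine ⟨α, fun m => ?_⟩
  rcases m with _ | m
  · rw [Nat.cast_zero, hG0 0 le_rfl]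
    simp [Φ.coef_zero]
  obtain ⟨β, hβ⟩ := hα (max M (m + 1)) (le_max_left _ _)
  have hab : α = β := by
    have hd : ∀ j : Fin M, ∑ i, (α i - β i) * (Φ.coef i ((j : ℕ) + 1) : k) = 0 := fun j => by
      simp only [sub_mul, Finset.sum_sub_distrib]
      rw [sub_eq_zero, ← hαM j]
      exact hβ ⟨j, lt_of_lt_of_le j.2 (le_max_left _ _)⟩
    funext i
    obtain ⟨w, hw⟩ := hsurj M le_rfl (Pi.single i 1)
    have h : ∑ l, (α l - β l) * (Φ.tailMatrix M).mulVecLin w l = 0 := by
      simp only [Matrix.mulVecLin_apply, Matrix.mulVec, dotProduct, Finset.mul_sum]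
      rw [Finset.sum_comm]
      refine Finset.sum_eq_zero fun j _ => ?_
      simp only [Forms.tailMatrix, Matrix.of_apply, ← mul_assoc, ← Finset.sum_mul, hd j, zero_mul]
    rw [hw, Finset.sum_eq_single i] at h <;> simp +contextual [Pi.single_apply] at h ⊢
    exact sub_eq_zero.1 h
  rw [hab]
  have := hβ ⟨m, lt_of_lt_of_le (Nat.lt_succ_self m) (le_max_right _ _)⟩
  simpa using this

end Fermat.Agent.LevelLowerP
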