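import Fermat.Agent.LevelLowerP.EndgameResidue
import Fermat.Agent.LevelLowerP.EndgameSpan
import Fermat.Agent.OrdinaryP.Forms
import Fermat.Agent.Reduction.Level.Normal
import Fermat.Agent.GalRep.Residual
import Fermat.Agent.Hecke.Lifting
import Fermat.Prelude.Def_FLTPrelim_ModularRep

/-!
# A holomorphic logarithmic differential in characteristic `p` lowers the level
-/

set_option autoImplicit false

noncomputable section

open ModularCurve AlgebraicCurve CongruenceSubgroup
open scoped MatrixGroups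

namespace Fermat.Agent.LevelLowerP

open Fermat.Agent.Reduction Fermat.Agent.Reduction.CurveRed Fermat.Agent.Reduction.Level
open Fermat.Agent.Igusa

local notation "Qb" => AlgebraicClosure ℚ

variable {k : Type*} [Field k] [IsAlgClosed k] {p : ℕ} [Fact p.Prime] [CharP k p]
  {A : ValuationSubring Qb}

omit [IsAlgClosed k] [CharP k p] in
theorem arch_of_surjective (hA : A.LiesOverPrime p) (π : A →+* k) (hπ : Function.Surjective π)
    (a : A) (ha : π a = 0) (b : Qb) (hb : b ≠ 0) :
    ∃ n : ℕ, A.valuation (a : Qb) ^ n ≤ A.valuation b := by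
  refine arch_qbar A hA a ?_ b hb
  have := RingHom.ker_isMaximal_of_surjective π hπ
  rw [IsLocalRing.residue_eq_zero_iff, ← IsLocalRing.eq_maximalIdeal
    (RingHom.ker_isMaximal_of_surjective π hπ), RingHom.mem_ker]
  exact ha

omit [IsAlgClosed k] [Fact (Nat.Prime p)] in
theorem natCast_ne_zero_of_not_dvd' {M : ℕ} (hpM : ¬ p ∣ M) : (M : k) ≠ 0 := fun h =>
  hpM ((CharP.cast_eq_zero_iff k p M).1 h)

variable {M : ℕ} [NeZero M]

/-- The place of the reduced field at `q = 0` and the reductions of regular functions. -/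
theorem exists_place_regularSub (π : A →+* k) (hπ : Function.Surjective π) (hN : (M : k) ≠ 0)
    (harch : ∀ a : A, π a = 0 → ∀ b : Qb, b ≠ 0 →
      ∃ n : ℕ, A.valuation (a : Qb) ^ n ≤ A.valuation b)
    {n₀ : ℕ} (hgap : (levelCurve π hπ hN harch).GapBound n₀) :
    ∃ P : Place k (modularFunctionFieldFullC k M),
      (∀ x : modularFunctionFieldFullC k M, P.ord x = (x : LaurentSeries k).order) ∧
      ∀ N : ℕ, n₀ ≤ N → ∀ c ∈ (levelCurve π hπ hN harch).regularSub (N : ℤ),
        ∃ w : modularFunctionFieldFullC k M, (w : LaurentSeries k) = c ∧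
          ∀ v : Place k (modularFunctionFieldFullC k M), v ≠ P → 0 ≤ v.ord w := by
  set S := levelCurve π hπ hN harch with hS
  have := isFunctionField_level (k := Qb) (N := M) (natCast_ne_zero_of_red hN π)
  have := isFunctionField_level (k := k) (N := M) hN
  obtain ⟨πR, hK, hk⟩ := exists_piR A π M hN
  set P := cuspPlace (π.comp πR) hk cst0 with hP
  have hmemP : ∀ x : modularFunctionFieldFullC k M,
      x ∈ P.toValuationSubring ↔ PoleLE 0 (x : LaurentSeries k) := by
    intro x
    rw [hP, mem_cuspPlace, sig_cst0_apply]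
    rcases eq_or_ne (x : LaurentSeries k) 0 with h0 | h0
    · simp [h0, PoleLE]
    · rw [poleLE_iff_order h0,
        poleLE_iff_order ((map_ne_zero_iff _ (qExpand k M).injective).mpr h0), order_qExpand]
      have := NeZero.pos M
      constructor <;> intro <;> nlinarith
  have hPK : cuspPlace (A.subtype.comp πR) hK cst0 = S.pt := by
    refine AlgebraicCurve.Place.ext (SetLike.ext fun x => ?_)
    rw [mem_cuspPlace]
    show _ ↔ x ∈ (ptPlace π hN).toValuationSubring
    rw [mem_ptPlace, sig_cst0_apply]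
    rcases eq_or_ne (x : LaurentSeries Qb) 0 with h0 | h0
    · simp [h0, PoleLE]
    · rw [poleLE_iff_order h0,
        poleLE_iff_order ((map_ne_zero_iff _ (qExpand Qb M).injective).mpr h0), order_qExpand]
      have := NeZero.pos M
      constructor <;> intro <;> nlinarith
  refine ⟨P, ord_eq_order_of_mem_iff P hmemP, fun N hN₀ x hx => ?_⟩
  rw [← hgap.redSub_eq (by exact_mod_cast hN₀)] at hx
  obtain ⟨y, hy, hyx⟩ := hx
  obtain ⟨u, rfl, hu⟩ := S.exists_regular_of_mem_space (S.offNonpos_atPt (N : ℤ)) hy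
  have humem : ∀ v' : Place Qb (modularFunctionFieldFullC Qb M), v' ≠ S.pt →
      (u : modularFunctionFieldFullC Qb M) ∈ v'.toValuationSubring := fun v' hv' => by
    rcases eq_or_ne u 0 with rfl | hu0
    · exact zero_mem _
    · exact (FF.mem_toValuationSubring_iff_ord v' hu0).mpr (hu v' hv')
  have hreg : RegFin (u : modularFunctionFieldFullC Qb M) :=
    regFin_of_forall_mem (natCast_ne_zero_of_red hN π) fun v' hv' => humem v' fun h =>
      jC_notMem_ptPlace (π := π) hN (by
        subst h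
        exact hv')
  obtain ⟨w, hw, hwx, hall⟩ := exists_red_all hπ πR hK hk hreg hyx
  refine ⟨w, hwx, fun v hv => FF.ord_nonneg_of_mem v ?_⟩
  by_cases hjv : jC k M ∈ v.toValuationSubring
  · exact hw.mem_place v hjv
  obtain ⟨i, rfl⟩ := exists_cuspPlace_eq (π.comp πR) hk v hjv
  have hi : i ≠ cst0 := fun h => hv (by rw [h, hP])
  have h1 := humem (cuspPlace (A.subtype.comp πR) hK i) fun h =>
    cuspPlace_ne (A.subtype.comp πR) hK hi (h.trans hPK.symm)
  exact (mem_cuspPlace _ hk).mpr ((hall i).poleLE ((mem_cuspPlace _ hK).mp h1))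

omit [Fact p.Prime] [CharP k p] in
/-- The residue identity on the curve reduced along `π`. -/
theorem residue_levelCurve (π : A →+* k) (hπ : Function.Surjective π) (hN : (M : k) ≠ 0)
    (harch : ∀ a : A, π a = 0 → ∀ b : Qb, b ≠ 0 →
      ∃ n : ℕ, A.valuation (a : Qb) ^ n ≤ A.valuation b)
    (n : ℤ) (y : LaurentSeries Qb)
    (hy : y ∈ (levelCurve π hπ hN harch).space ((levelCurve π hπ hN harch).atPt n))
    (f : CuspForm (Gamma0 M) 2) (a : ℕ → ℤ) (ha : ∀ n, OrdinaryP.coeffs M f n = (a n : ℂ)) :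
    (y * MazurStep.intSer Qb a).coeff 0 = 0 := by
  have key : ∀ (E : IntermediateField Qb (LaurentSeries Qb)), E = MFGenus.FL Qb M →
      ∀ (vp : Place Qb E), (∀ g : E, vp.ord g = (g : LaurentSeries Qb).order) → ∀ (u : E),
      (∀ v : Place Qb E, v ≠ vp → 0 ≤ v.ord u) →
      (coeffMap Kummer.ιbar (u : LaurentSeries Qb) *
        HahnSeries.ofPowerSeries ℤ ℂ (UpperHalfPlane.qExpansion 1 f)).coeff 0 = 0 := by
    rintro E rfl vp hvp u hu
    exact OrdinaryP.coeff_mul_qExpansion_eq_zero Kummer.ιbar hvp hu f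
  set S := levelCurve π hπ hN harch
  obtain ⟨u, rfl, hu⟩ := S.exists_regular_of_mem_space (S.offNonpos_atPt n) hy
  have h := key S.F (modularFunctionFieldBar_eq_fullC M).symm S.pt S.ord_pt u hu
  refine (map_eq_zero Kummer.ιbar).1 ?_
  rw [show Kummer.ιbar (((u : LaurentSeries Qb) * MazurStep.intSer Qb a).coeff 0) =
    (coeffMap Kummer.ιbar ((u : LaurentSeries Qb) * MazurStep.intSer Qb a)).coeff 0 from rfl,
    map_mul,
    show coeffMap Kummer.ιbar (MazurStep.intSer Qb a) =
      HahnSeries.ofPowerSeries ℤ ℂ (UpperHalfPlane.qExpansion 1 f) from ?_, h]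
  ext i
  rw [coeffMap_coeff]
  rcases lt_or_ge i 0 with hi | hi
  · rw [MazurStep.intSer_coeff_of_neg _ hi, map_zero, ofPowerSeries_coeff_of_neg _ hi]
  · lift i to ℕ using hi
    rw [MazurStep.intSer_coeff_natCast, map_intCast, HahnSeries.ofPowerSeries_apply_coeff]
    exact (ha i).symm

/-- The integral forms of level `M` on the curve reduced along `π`. -/
theorem exists_forms (hA : A.LiesOverPrime p) (π : A →+* k) (hπ : Function.Surjective π)
    (hpM : ¬ p ∣ M) (B : OrdinaryP.IntBasis M) :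
    ∃ (Φ : MazurStep.Forms (levelCurve π hπ (natCast_ne_zero_of_not_dvd' hpM)
        (arch_of_surjective hA π hπ))) (e : Fin (levelCurve π hπ
          (natCast_ne_zero_of_not_dvd' hpM) (arch_of_surjective hA π hπ)).g ≃ Fin B.rank),
      ∀ i, Φ.coef i = B.coef (e i) := by
  have hN := natCast_ne_zero_of_not_dvd' (k := k) hpM
  have := isFunctionField_level (k := Qb) (N := M) (natCast_ne_zero_of_red hN π)
  set S := levelCurve π hπ hN (arch_of_surjective hA π hπ)
  have hrank : B.rank = S.g := by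
    have key : ∀ E : IntermediateField Qb (LaurentSeries Qb), E = modularFunctionFieldBar M →
        ∀ [FF.IsFunctionField Qb E],
          FF.riemannGenus Qb E = Module.finrank ℂ (CuspForm (Gamma0 M) 2) := by
      rintro E rfl _
      exact OrdinaryP.riemannGenus_bar_eq_finrank
    rw [B.rank_eq, ← Int.natCast_inj]
    exact ((levelCurve_g (N := M) π hπ hN _).trans
      (key _ (modularFunctionFieldBar_eq_fullC M).symm)).symm
  refine ⟨⟨fun i => B.coef ((finCongr hrank.symm) i), fun i => ?_, ?_, fun n y hy i => ?_⟩,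
    finCongr hrank.symm, fun i => rfl⟩
  · refine Int.cast_injective (α := ℂ) ?_
    rw [Int.cast_zero, ← B.coeffs_form]
    exact OrdinaryP.coeffs_zero M _
  · exact (B.linearIndependent_mod p k).comp _ (finCongr _).injective
  · exact residue_levelCurve π hπ hN _ n y hy (B.form _) _ (B.coeffs_form _)

omit [IsAlgClosed k] in
theorem coeff_zero_le_of_theta_eq {f G : LaurentSeries k} (hf : f ≠ 0) (hG : theta k f = G * f)
    {i : ℤ} (hi : i < 0) : G.coeff i = 0 := by
  rcases eq_or_ne G 0 with rfl | hG0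
  · rfl
  refine HahnSeries.coeff_eq_zero_of_lt_order (lt_of_lt_of_le hi ?_)
  have h := HahnSeries.order_mul hG0 hf
  rw [← hG] at h
  have hne : theta k f ≠ 0 := by rw [hG]; exact mul_ne_zero hG0 hf
  have h1 : f.order ≤ (theta k f).order := by
    by_contra hlt
    push Not at hlt
    refine HahnSeries.coeff_order_eq_zero.not.2 hne ?_
    rw [theta_coeff, HahnSeries.coeff_eq_zero_of_lt_order hlt, mul_zero]
  omega

/-- **The residual endgame.** A non-zero holomorphic logarithmic differential of level `M` in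
characteristic `p` with the eigenvalues of `W` gives the modularity of level `M`. -/
theorem residuallyModular_of_dlog {W : WeierstrassCurve ℤ} (M : ℕ) [NeZero M]
    (hpM : ¬ p ∣ M) (hA : A.LiesOverPrime p) (π : A →+* k) (hπ : Function.Surjective π)
    (fbar : modularFunctionFieldFullC k M) (hfbar : fbar ≠ 0)
    (hord : ∀ v : Place k (modularFunctionFieldFullC k M), (p : ℤ) ∣ v.ord fbar)
    (G : LaurentSeries k)
    (hG : theta k (fbar : LaurentSeries k) = G * (fbar : LaurentSeries k)) (hG0 : G ≠ 0)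
    (hT : ∀ ℓ : ℕ, ℓ.Prime → W.IsGoodPrimeFor ℓ → ¬ ℓ ∣ M * p → ∀ n : ℤ,
      G.coeff (ℓ * n) + (if (ℓ : ℤ) ∣ n then (ℓ : k) * G.coeff (n / ℓ) else 0) =
        (W.apOfModel ℓ : k) * G.coeff n) :
    W.IsResiduallyModularOfLevel p M := by
  classical
  have hN := natCast_ne_zero_of_not_dvd' (k := k) hpM
  have := isFunctionField_level (k := k) (N := M) hN
  set harch := arch_of_surjective hA π hπ
  set S := levelCurve π hπ hN harch
  obtain ⟨n₀, hgap⟩ := gapBound_of_normalLift hπ hN harch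
    (normalLift_of_ne_zero FF.qbarToComplex hπ hN)
  obtain ⟨Pl, hPl, hreg⟩ := exists_place_regularSub π hπ hN harch hgap
  have hfb : (fbar : LaurentSeries k) ≠ 0 := fun h => hfbar (Subtype.ext h)
  have hGe : theta k (fbar : LaurentSeries k) * (fbar : LaurentSeries k)⁻¹ = G := by
    rw [hG, mul_inv_cancel_right₀ hfb]
  have hres : ∀ h : modularFunctionFieldFullC k M, (∀ v, v ≠ Pl → 0 ≤ v.ord h) →
      ((h : LaurentSeries k) * G).coeff 0 = 0 := fun h hh => by
    rw [← hGe]
    exact coeff_zero_mul_dlog _ hPl hh hfbar hord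
  have hlow : ∀ i : ℤ, i ≤ 0 → G.coeff i = 0 := fun i hi => by
    rcases hi.lt_or_eq with h | rfl
    · exact coeff_zero_le_of_theta_eq hfb hG h
    · simpa using hres 1 fun v _ => v.ord_one.ge
  obtain ⟨B⟩ := OrdinaryP.exists_intBasis M
  obtain ⟨Φ, e, he⟩ := exists_forms hA π hπ hpM B
  obtain ⟨α, hα⟩ := exists_eq_sum_coef Φ hgap hlow fun N hN₀ c hc => by
    obtain ⟨w, rfl, hw⟩ := hreg N hN₀ c hc
    exact hres w hw
  -- descent of the coefficients to `𝔽_p`
  obtain ⟨i₀, hi₀⟩ : ∃ i, α i ≠ 0 := by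
    by_contra h
    push Not at h
    refine hG0 (HahnSeries.ext (funext fun i => ?_))
    rcases lt_or_ge i 0 with hi | hi
    · exact hlow i hi.le
    · lift i to ℕ using hi
      rw [hα]
      simp [h]
  let _ := ZMod.algebra k p
  obtain ⟨φ, hφ⟩ := Module.Projective.exists_dual_ne_zero (ZMod p) hi₀
  have hφint : ∀ (m : ℤ) (x : k), φ ((m : k) * x) = (m : ZMod p) * φ x := fun m x => by
    rw [← zsmul_eq_mul, map_zsmul, zsmul_eq_mul]
  choose z hz using fun i => ZMod.intCast_surjective (φ (α i))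
  set a : ℕ → ℤ := fun n => ∑ i, z i * Φ.coef i n
  have ha : ∀ n : ℕ, (a n : ZMod p) = φ (G.coeff (n : ℤ)) := fun n => by
    rw [hα, map_sum]
    simp only [a, Int.cast_sum, Int.cast_mul, hz]
    refine Finset.sum_congr rfl fun i _ => ?_
    rw [mul_comm (α i), hφint, mul_comm]
  set F : CuspForm (Gamma0 M) 2 := ∑ i, z i • B.form (e i)
  have hFc : ∀ n, ModularFormClass.qCoeff ⇑F n = (a n : ℂ) := fun n => by
    rw [← OrdinaryP.coeffs_apply]
    rw [show F = ∑ i, z i • B.form (e i) from rfl, map_sum, Finset.sum_apply, Int.cast_sum]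
    refine Finset.sum_congr rfl fun i _ => ?_
    rw [map_zsmul, Pi.smul_apply, B.coeffs_form, he, zsmul_eq_mul, Int.cast_mul]
  have hFmem : F ∈ CuspForm.intLattice M 2 :=
    (Hecke.mem_intLattice_iff _).2 fun n => ⟨a n, hFc n⟩
  obtain ⟨n₁, hn₁⟩ : ∃ n, (a n : ZMod p) ≠ 0 := by
    by_contra h
    push Not at h
    have hli := Φ.indep
    have hzero : ∑ i, (algebraMap (ZMod p) k (φ (α i))) • (fun n => (Φ.coef i n : k)) = 0 := by
      funext n
      have h1 := congrArg (algebraMap (ZMod p) k) (h n)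
      rw [map_intCast, map_zero] at h1
      rw [Finset.sum_apply, Pi.zero_apply, ← h1]
      simp only [a, Pi.smul_apply, smul_eq_mul, Int.cast_sum, Int.cast_mul]
      refine Finset.sum_congr rfl fun i _ => ?_
      rw [← hz i, map_intCast]
    exact hφ ((map_eq_zero _).1 (Fintype.linearIndependent_iff.1 hli _ hzero i₀))
  -- the ideal of Hecke operators killing `F` modulo `p`
  let J : Ideal (CuspForm.heckeAlgebra M 2 ∅) :=
    { carrier := {t | ∃ H ∈ CuspForm.intLattice M 2,
        (t : Module.End ℂ (CuspForm (Gamma0 M) 2)) F = (p : ℂ) • H}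
      add_mem' := by
        rintro s t ⟨H, hH, hs⟩ ⟨H', hH', ht⟩
        exact ⟨H + H', add_mem hH hH', by
          rw [AddMemClass.coe_add, LinearMap.add_apply, hs, ht, smul_add]⟩
      zero_mem' := ⟨0, zero_mem _, by rw [ZeroMemClass.coe_zero, LinearMap.zero_apply, smul_zero]⟩
      smul_mem' := by
        rintro c t ⟨H, hH, ht⟩
        exact ⟨_, CuspForm.mem_intLattice_of_mem_heckeAlgebra one_le_two c.2 hH, by
          rw [smul_eq_mul, MulMemClass.coe_mul, Module.End.mul_apply, ht, map_smul]⟩ }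
  have hJ : J ≠ ⊤ := fun htop => hn₁ (by
    obtain ⟨H, hH, h1⟩ := (Ideal.eq_top_iff_one J).1 htop
    obtain ⟨m, hm⟩ := (Hecke.mem_intLattice_iff _).1 hH n₁
    have h2 := hFc n₁
    rw [OneMemClass.coe_one, Module.End.one_apply] at h1
    rw [h1, Hecke.qCoeff_smul, hm] at h2
    have h3 : a n₁ = (p : ℤ) * m := Int.cast_injective (α := ℂ) (by push_cast; exact h2.symm)
    simp [h3])
  obtain ⟨Q, hQmax, hle⟩ := Ideal.exists_le_maximal J hJ
  obtain ⟨g, hg, 𝔪, h𝔪, hc⟩ :=
    Hecke.exists_eigenform_lift (MFCore.hasIntegralStructure M 2) Q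
  have hchar : ∀ t, GalRep.eigenCharacterInt hg t ∈ 𝔪 ↔ t ∈ Q := fun t => by
    obtain ⟨c, hc1, hc2⟩ := hc t
    rwa [show GalRep.eigenCharacterInt hg t = c from Subtype.ext hc1.symm]
  refine ⟨g, 𝔪, hg, h𝔪, ?_, fun ℓ hℓ hgood hℓM hℓp =>
    ⟨GalRep.eigenCharacterInt hg (GalRep.heckeOp M ⟨ℓ, hℓ⟩),
      GalRep.eigenCharacterInt_heckeOp hg ⟨ℓ, hℓ⟩, ?_⟩⟩
  · have := (hchar (p : ℕ)).2 (hle ⟨F, hFmem, by
      rw [show (((p : ℕ) : CuspForm.heckeAlgebra M 2 ∅) : Module.End ℂ (CuspForm (Gamma0 M) 2)) =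
          (p : Module.End ℂ (CuspForm (Gamma0 M) 2)) from
          map_natCast (CuspForm.heckeAlgebra M 2 ∅).val _,
        Module.End.natCast_apply, Nat.cast_smul_eq_nsmul]⟩)
    rwa [map_natCast] at this
  have hℓMp : ¬ ℓ ∣ M * p := fun h =>
    ((hℓ.dvd_mul).1 h).elim hℓM fun h =>
      hℓp ((Nat.prime_dvd_prime_iff_eq hℓ (Fact.out : p.Prime)).1 h)
  have key : ∀ n : ℕ, (p : ℤ) ∣ a (n * ℓ) + (if ℓ ∣ n then (ℓ : ℤ) * a (n / ℓ) else 0) -
      W.apOfModel ℓ * a n := fun n => by
    rw [← ZMod.intCast_zmod_eq_zero_iff_dvd, Int.cast_sub, sub_eq_zero, Int.cast_add,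
      Int.cast_mul, ha, ha, ← hφint, ← hT ℓ hℓ hgood hℓMp, map_add, Nat.cast_mul, mul_comm (n : ℤ)]
    congr 1
    by_cases hd : ℓ ∣ n
    · rw [if_pos hd, if_pos (Int.natCast_dvd_natCast.2 hd), Int.cast_mul, ha, ← hφint,
        Int.cast_natCast, Int.natCast_div]
    · rw [if_neg hd, if_neg (mt Int.natCast_dvd_natCast.1 hd), map_zero, Int.cast_zero]
  choose v hv using key
  have h1 : GalRep.heckeOp M ⟨ℓ, hℓ⟩ - (W.apOfModel ℓ : ℤ) ∈ J := by
    obtain ⟨H, hH, he⟩ := Hecke.exists_eq_smul_add_smul p (W.apOfModel ℓ) (F := F)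
      (H := CuspForm.heckeTLin 2 hℓ hℓM F) fun n => ⟨v n, by
        simp only [Hecke.qCoeff_heckeTLin, hFc]
        have h2 := congrArg (fun x : ℤ => (x : ℂ)) (hv n)
        push_cast at h2
        split_ifs with hd
        · rw [if_pos hd] at h2
          norm_num
          linear_combination h2
        · rw [if_neg hd] at h2
          linear_combination h2⟩
    refine ⟨H, hH, ?_⟩
    rw [GalRep.heckeOp, dif_neg hℓM, AddSubgroupClass.coe_sub, LinearMap.sub_apply,
      show ((CuspForm.heckeAlgebra.T hℓ hℓM (Set.notMem_empty ℓ) : CuspForm.heckeAlgebra M 2 ∅) :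
        Module.End ℂ (CuspForm (Gamma0 M) 2)) F = CuspForm.heckeTLin 2 hℓ hℓM F from rfl, he]
    rw [sub_eq_iff_eq_add, add_comm]
    congr 1
    simp [Int.cast_smul_eq_zsmul]
  have := (hchar _).2 (hle h1)
  rwa [map_sub, map_intCast] at this

end Fermat.Agent.LevelLowerP
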