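import Fermat.Agent.LevelLowerP.EndgameSeries
import Fermat.Agent.LevelLowerP.DlogNorm
import Fermat.Agent.FF.Deriv
import Fermat.Agent.FF.Genus
import Fermat.Agent.FF.NormFormula

/-!
# The residue identity for logarithmic differentials in characteristic `p`

If all orders of `f` are divisible by `p` and `h` is regular off the point `q = 0`, then the
constant term of `h θf / f` vanishes: for `h` with pole order prime to `p` the norm of `f` to
`k(h)` is a constant times a `p`th power.
-/

set_option autoImplicit false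

noncomputable section

open ModularCurve AlgebraicCurve Polynomial IntermediateField

namespace Fermat.Agent.LevelLowerP

variable {k : Type*} [Field k] [IsAlgClosed k] {p : ℕ} [Fact p.Prime] [CharP k p]

omit [CharP k p] in
/-- A function on the line with all orders divisible by `p` is a constant times a `p`th power. -/
theorem exists_eq_const_mul_pow {F : Type*} [Field F] [Algebra k F] [FF.IsFunctionField k F]
    {g : F} (hg : Transcendental k g) (hgen : k⟮g⟯ = ⊤) {N : F}
    (hN : ∀ v : Place k F, (p : ℤ) ∣ v.ord N) :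
    ∃ (c : k) (S : F), N = algebraMap k F c * S ^ p := by
  classical
  have hp : p.Prime := Fact.out
  rcases eq_or_ne N 0 with rfl | hN0
  · exact ⟨0, 1, by simp⟩
  obtain ⟨P, Q, hPQ⟩ := (mem_adjoin_simple_iff k N).1 (by rw [hgen]; exact mem_top)
  have hQ : Q ≠ 0 := fun h => hN0 (by rw [hPQ, h, map_zero, div_zero])
  have hQ' : aeval g Q ≠ 0 := FF.transcendental_aeval_ne_zero hg hQ
  set w := P * Q ^ (p - 1) with hw
  have hwN : aeval g w = N * aeval g Q ^ p := by
    conv_rhs => rw [← Nat.sub_add_cancel hp.pos, pow_succ]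
    rw [hw, map_mul, map_pow, hPQ]
    field_simp
  have hw0 : w ≠ 0 := fun h => mul_ne_zero hN0 (pow_ne_zero p hQ') (by rw [← hwN, h, map_zero])
  -- the multiplicities of the roots
  have hmult : ∀ α : k, p ∣ w.rootMultiplicity α := by
    intro α
    have htr : Transcendental k (g - algebraMap k F α) := fun h => hg (by
      simpa using h.add (isAlgebraic_algebraMap α))
    obtain ⟨v, hv⟩ := FF.exists_place_ord_pos htr
    have hord : v.ord (g - algebraMap k F α) = 1 := by
      have hle := FF.sum_ord_mul_deg_le htr {v} (by simpa using hv)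
      have htop : k⟮g - algebraMap k F α⟯ = ⊤ := by
        rw [eq_top_iff, ← hgen, adjoin_simple_le_iff]
        have h := add_mem (mem_adjoin_simple_self k (g - algebraMap k F α))
          (IntermediateField.algebraMap_mem k⟮g - algebraMap k F α⟯ α)
        simpa using h
      rw [htop, IntermediateField.finrank_top] at hle
      simp [FF.deg_eq_one] at hle
      omega
    obtain ⟨w', hw', hdvd⟩ := exists_eq_pow_rootMultiplicity_mul_and_not_dvd w hw0 α
    have hev : w'.eval α ≠ 0 := fun h => hdvd (dvd_iff_isRoot.2 h)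
    have hw'0 : w' ≠ 0 := fun h => hev (by simp [h])
    obtain ⟨r, hr⟩ : X - C α ∣ w' - C (w'.eval α) := dvd_iff_isRoot.2 (by simp)
    have ha : algebraMap k F (w'.eval α) ≠ 0 := (_root_.map_ne_zero _).2 hev
    have hord' : v.ord (aeval g w') = 0 := by
      rw [← FF.ord_algebraMap v (w'.eval α)]
      refine (FF.ord_eq_of_sub_mem v ha ?_).2
      rw [FF.ord_algebraMap, zero_add, show aeval g w' - algebraMap k F (w'.eval α) =
        aeval g (X - C α) * aeval g r by rw [← map_mul, ← hr]; simp, map_sub, aeval_X, aeval_C,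
        ← add_zero (1 : ℤ)]
      refine FF.mul_mem_ordGE v (FF.mem_ordGE_of_le_ord v hord.ge) ?_
      refine FF.aeval_mem_ordGE_zero v ?_ r
      rw [← sub_add_cancel g (algebraMap k F α)]
      exact add_mem (FF.mem_ordGE_of_le_ord v (by omega)) (FF.algebraMap_mem_ordGE_zero v α)
    have h1 : v.ord (aeval g w) = (w.rootMultiplicity α : ℤ) := by
      conv_lhs => rw [hw']
      rw [map_mul, map_pow, map_sub, aeval_X, aeval_C,
        v.ord_mul (pow_ne_zero _ (fun h => by rw [h] at hord; simp at hord))
          (FF.transcendental_aeval_ne_zero hg hw'0), FF.ord_pow, hord, hord', mul_one, add_zero]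
    rw [← Int.natCast_dvd_natCast, ← h1, hwN, v.ord_mul hN0 (pow_ne_zero p hQ'), FF.ord_pow]
    exact dvd_add (hN v) (dvd_mul_right _ _)
  set S₀ : k[X] := ∏ α ∈ w.roots.toFinset, (X - C α) ^ (w.rootMultiplicity α / p)
  have hwS : w = C w.leadingCoeff * S₀ ^ p := by
    conv_lhs => rw [(IsAlgClosed.splits w).eq_prod_roots, Finset.prod_multiset_map_count]
    rw [← Finset.prod_pow]
    congr 1
    exact Finset.prod_congr rfl fun α _ => by
      rw [count_roots, ← pow_mul, Nat.div_mul_cancel (hmult α)]
  refine ⟨w.leadingCoeff, aeval g S₀ / aeval g Q, ?_⟩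
  rw [div_pow, mul_div_assoc', eq_div_iff (pow_ne_zero p hQ'), ← hwN]
  conv_lhs => rw [hwS]
  simp

variable (F : IntermediateField k (LaurentSeries k)) [FF.IsFunctionField k F]
  {P : Place k F} (hP : ∀ x : F, P.ord x = (x : LaurentSeries k).order)

/-- Functions with one pole, of large order prime to `p`. -/
theorem exists_regular_pole (b : ℤ) :
    ∃ (n : ℕ) (h : F), b < n ∧ (n : k) ≠ 0 ∧ h ≠ 0 ∧ P.ord h = -(n : ℤ) ∧
      ∀ v : Place k F, v ≠ P → 0 ≤ v.ord h := by
  obtain ⟨N, hN⟩ := FF.exists_ell_eq_of_degree_ge k F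
  obtain ⟨n, hn, hnp⟩ := Nat.exists_infinite_primes (max (max N b).toNat (ringChar k) + 2)
  have hell : ∀ m : ℤ, N ≤ m →
      (FF.ell (Finsupp.single P m) : ℤ) = m + 1 - FF.riemannGenus k F := fun m hm => by
    have h := hN (Finsupp.single P m) (by simp [FF.deg_eq_one]; omega)
    simpa [FF.deg_eq_one] using h
  have h1 := hell n (by omega)
  have h2 := hell (n - 1) (by omega)
  have hle : riemannRochSpace (Finsupp.single P ((n : ℤ) - 1)) ≤
      riemannRochSpace (Finsupp.single P (n : ℤ)) :=
    FF.riemannRochSpace_mono (Finsupp.single_le_single.2 (by omega))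
  obtain ⟨h, hh, hh'⟩ : ∃ h ∈ riemannRochSpace (Finsupp.single P (n : ℤ)),
      h ∉ riemannRochSpace (Finsupp.single P ((n : ℤ) - 1)) := by
    by_contra hcon
    push Not at hcon
    rw [FF.ell, show riemannRochSpace (Finsupp.single P (n : ℤ)) = _ from le_antisymm hcon hle,
      ← FF.ell] at h1
    omega
  have hh0 : h ≠ 0 := fun h0 => hh' (h0 ▸ zero_mem _)
  have hv : ∀ v : Place k F, -(Finsupp.single P (n : ℤ) v) ≤ v.ord h := fun v =>
    ((mem_riemannRochSpace_iff.1 hh) v).resolve_left hh0
  refine ⟨n, h, by omega, ?_, hh0, ?_, fun v hvne => ?_⟩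
  · rw [Ne, ringChar.spec]
    intro hd
    rcases hnp.eq_one_or_self_of_dvd _ hd with h1 | h1
    · exact CharP.char_ne_one k (ringChar k) h1
    · omega
  · refine le_antisymm ?_ (by simpa using hv P)
    by_contra hlt
    refine hh' (mem_riemannRochSpace_iff.2 fun v => Or.inr ?_)
    rcases eq_or_ne v P with rfl | hvne
    · rw [Finsupp.single_eq_same]; omega
    · simpa [Finsupp.single_eq_of_ne hvne] using hv v
  · simpa [Finsupp.single_eq_of_ne hvne] using hv v

include hP

theorem coeff_zero_mul_dlog_monic {h f : F} {n : ℕ} (hn0 : 0 < n) (hnk : (n : k) ≠ 0)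
    (hh : P.ord h = -(n : ℤ)) (hlead : (h : LaurentSeries k).coeff (-(n : ℤ)) = 1)
    (hreg : ∀ v : Place k F, v ≠ P → 0 ≤ v.ord h)
    (hf0 : f ≠ 0) (hf : ∀ v : Place k F, (p : ℤ) ∣ v.ord f) :
    ((h : LaurentSeries k) *
      (theta k (f : LaurentSeries k) * (f : LaurentSeries k)⁻¹)).coeff 0 = 0 := by
  classical
  have : NeZero n := ⟨hn0.ne'⟩
  have horder : (h : LaurentSeries k).order = -(n : ℤ) := by rw [← hP, hh]
  set a := (h : LaurentSeries k).powerSeriesPart with ha
  have ha0 : PowerSeries.constantCoeff a = 1 := by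
    rw [← PowerSeries.coeff_zero_eq_constantCoeff_apply, LaurentSeries.powerSeriesPart_coeff,
      horder, Nat.cast_zero, add_zero, hlead]
  obtain ⟨w, hw0, hw⟩ := exists_powerSeries_root (a := a⁻¹)
    (by rw [PowerSeries.constantCoeff_inv, ha0, inv_one]) hnk
  set Pv := PowerSeries.X * w with hPv
  have hP1 : IsUnit (Pv.coeff 1) := by
    rw [hPv, PowerSeries.coeff_succ_X_mul, PowerSeries.coeff_zero_eq_constantCoeff_apply, hw0]
    exact isUnit_one
  have hP0 : PowerSeries.constantCoeff Pv = 0 := by simp [hPv]
  set τ := changeVar Pv hP1 hP0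
  set T := HahnSeries.single (1 : ℤ) (1 : k) with hT
  have hTne : T ≠ 0 := HahnSeries.single_ne_zero one_ne_zero
  have hPh : HahnSeries.ofPowerSeries ℤ k Pv ^ n * (h : LaurentSeries k) = 1 := by
    rw [← LaurentSeries.single_order_mul_powerSeriesPart (h : LaurentSeries k), horder, ← ha,
      hPv, map_mul, mul_pow, ← map_pow _ w n, hw, ofPS_X, HahnSeries.single_pow, one_pow,
      mul_mul_mul_comm, HahnSeries.single_mul_single, mul_one, nsmul_eq_mul, mul_one,
      add_neg_cancel, HahnSeries.single_zero_one, one_mul, ← map_mul,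
      PowerSeries.inv_mul_cancel _ (by rw [ha0]; exact one_ne_zero), map_one]
  have hτh : τ (h : LaurentSeries k) = qExpand k n (HahnSeries.single (-1) 1) := by
    have h1 := congrArg τ hPh
    rw [map_mul, map_pow, map_one,
      show τ (HahnSeries.ofPowerSeries ℤ k Pv) = T from changeVar_param Pv hP1 hP0] at h1
    refine mul_left_cancel₀ (pow_ne_zero n hTne) (h1.trans ?_)
    rw [qExpand_single, hT, HahnSeries.single_pow, one_pow, HahnSeries.single_mul_single]
    simp
  -- the field `k(h)`
  have htr : Transcendental k h := FF.transcendental_of_ord_ne_zero P (by omega)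
  set B := k⟮h⟯
  have : Module.Finite B F := FF.finite_adjoin_simple htr
  have : FF.IsFunctionField k B := FF.isFunctionField_adjoin htr
  have hrank : Module.finrank B F = n := by
    have h1 := FF.degree_poleDiv htr
    have h2 : FF.poleDiv k h = Finsupp.single P (n : ℤ) := Finsupp.ext fun v => by
      rcases eq_or_ne v P with rfl | hv
      · simp [hh]
      · rw [FF.poleDiv_apply, Finsupp.single_eq_of_ne hv, max_eq_right]
        have := hreg v hv
        omega
    rw [h2] at h1
    simp [FF.deg_eq_one] at h1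
    exact_mod_cast h1.symm
  let e : F →+* LaurentSeries k := τ.comp (algebraMap F (LaurentSeries k))
  have heC : ∀ c : k, e (algebraMap k F c) = HahnSeries.C c := fun c => by
    show τ (algebraMap k (LaurentSeries k) c) = _
    rw [algebraMap_laurentSeries_eq_single, ← HahnSeries.C_apply]
    exact changeVar_C Pv hP1 hP0 c
  have hBle : ∀ b : B, ∃ u, qExpand k n u = e (b : F) := by
    let S : IntermediateField k F :=
      { ((qExpand k n).fieldRange.comap e) with
        algebraMap_mem' := fun c => ⟨HahnSeries.C c, by rw [qExpand_C, heC]⟩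
        inv_mem' := fun x hx => ((qExpand k n).fieldRange.comap e).inv_mem hx }
    have hS : B ≤ S := by
      rw [adjoin_simple_le_iff]
      exact ⟨_, hτh.symm⟩
    exact fun b => hS b.2
  choose u hu using hBle
  let ζ : B →+* LaurentSeries k :=
    { toFun := u
      map_one' := (qExpand k n).injective (by simp [hu])
      map_zero' := (qExpand k n).injective (by simp [hu])
      map_add' := fun x y => (qExpand k n).injective (by simp [hu])
      map_mul' := fun x y => (qExpand k n).injective (by simp [hu]) }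
  have hζ : ∀ b : B, qExpand k n (ζ b) = e (b : F) := hu
  -- a basis adapted to the point
  obtain ⟨π, hπ0, hπ⟩ := FF.exists_uniformizer P
  obtain ⟨t, ht0, ht⟩ : ∃ t : PowerSeries k, PowerSeries.constantCoeff t ≠ 0 ∧
      e π = T * HahnSeries.ofPowerSeries ℤ k t := by
    obtain ⟨s, hs⟩ : ∃ s, Pv.substInvOfIsUnit hP1 = PowerSeries.X * s :=
      PowerSeries.X_dvd_iff.2 (PowerSeries.constantCoeff_substInvOfIsUnit Pv hP1)
    have hs0 : PowerSeries.constantCoeff s ≠ 0 := by
      have h := PowerSeries.coeff_one_substInvOfIsUnit Pv hP1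
      rw [hs, PowerSeries.coeff_succ_X_mul, PowerSeries.coeff_zero_eq_constantCoeff] at h
      rw [h]
      exact Units.ne_zero _
    set c := (π : LaurentSeries k).powerSeriesPart
    have hc : PowerSeries.constantCoeff c ≠ 0 := by
      rw [← PowerSeries.coeff_zero_eq_constantCoeff_apply, LaurentSeries.powerSeriesPart_coeff,
        Nat.cast_zero, add_zero]
      exact HahnSeries.coeff_order_eq_zero.not.2 fun h0 => hπ0 (Subtype.ext h0)
    refine ⟨s * c.subst (Pv.substInvOfIsUnit hP1), ?_, ?_⟩
    · rw [map_mul]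
      refine mul_ne_zero hs0 ?_
      obtain ⟨c', hc'⟩ := PowerSeries.X_dvd_iff.2
        (show PowerSeries.constantCoeff (c - PowerSeries.C (PowerSeries.constantCoeff c)) = 0
          by simp)
      have hsub := PowerSeries.HasSubst.substInvOfIsUnit Pv hP1
      rw [← PowerSeries.coe_substAlgHom hsub, sub_eq_iff_eq_add.1 hc', map_add, map_mul,
        PowerSeries.substAlgHom_X, map_add, map_mul, PowerSeries.constantCoeff_substInvOfIsUnit,
        show (PowerSeries.substAlgHom hsub) (PowerSeries.C (PowerSeries.constantCoeff c)) =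
          PowerSeries.C (PowerSeries.constantCoeff c) from AlgHom.commutes _ _]
      simpa using hc
    · show τ (π : LaurentSeries k) = _
      conv_lhs => rw [← LaurentSeries.single_order_mul_powerSeriesPart (π : LaurentSeries k)]
      rw [map_mul, show (π : LaurentSeries k).order = 1 by rw [← hP, hπ],
        show τ (HahnSeries.single 1 1) = _ from changeVar_single_one Pv hP1 hP0,
        show τ (HahnSeries.ofPowerSeries ℤ k c) = _ from changeVar_ofPS Pv hP1 hP0 c, hs, map_mul,
        map_mul, ofPS_X, mul_assoc]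
  let x : Fin n → F := fun i => π ^ (i : ℕ)
  let C₀ : Matrix (Fin n) (Fin n) (LaurentSeries k) :=
    Matrix.of fun r i => seriesSection n (r : ℤ) (e (x i))
  have hsec : ∀ (g : LaurentSeries k) (i r : Fin n),
      seriesSection n (r : ℤ) (g * e (x i)) = (seriesMat n g * C₀) r i := by
    intro g i r
    have h1 := congrFun (congrFun (seriesMat_mul n g (e (x i))) r) ⟨0, hn0⟩
    simp only [seriesMat, Matrix.of_apply, Matrix.mul_apply, Nat.cast_zero, sub_zero] at h1
    rw [h1, Matrix.mul_apply]
    rfl
  have hC0 : C₀.det ≠ 0 := by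
    let C' : Matrix (Fin n) (Fin n) (PowerSeries k) := Matrix.of fun r i =>
      PowerSeries.mk fun j => (C₀ r i).coeff (j : ℤ)
    have hent : ∀ (r i : Fin n) (j : ℤ),
        (C₀ r i).coeff j =
          (HahnSeries.ofPowerSeries ℤ k (t ^ (i : ℕ))).coeff ((n : ℤ) * j + r - i) := by
      intro r i j
      simp only [C₀, x, Matrix.of_apply, seriesSection_coeff, map_pow, ht, mul_pow, hT,
        HahnSeries.single_pow, one_pow, nsmul_eq_mul, mul_one]
      rw [HahnSeries.coeff_single_mul, one_mul]
    have hmap : C₀ = C'.map (HahnSeries.ofPowerSeries ℤ k) := by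
      refine Matrix.ext fun r i => HahnSeries.ext (funext fun j => ?_)
      rw [Matrix.map_apply]
      rcases lt_or_ge j 0 with hj | hj
      · rw [ofPowerSeries_coeff_of_neg _ hj, hent, ofPowerSeries_coeff_of_neg]
        have h1 : (r : ℤ) < n := by exact_mod_cast r.2
        have h2 : (n : ℤ) * j ≤ (n : ℤ) * (-1) := by
          apply mul_le_mul_of_nonneg_left (by omega) (by omega)
        omega
      · lift j to ℕ using hj
        rw [HahnSeries.ofPowerSeries_apply_coeff]
        simp [C']
    have hdet : PowerSeries.constantCoeff C'.det ≠ 0 := by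
      rw [RingHom.map_det, Matrix.det_of_isLowerTriangular]
      · refine Finset.prod_ne_zero_iff.2 fun i _ => ?_
        rw [RingHom.mapMatrix_apply, Matrix.map_apply,
          ← PowerSeries.coeff_zero_eq_constantCoeff_apply]
        simp only [C', Matrix.of_apply, PowerSeries.coeff_mk]
        rw [hent, Nat.cast_zero, mul_zero, zero_add, sub_self, ← Nat.cast_zero,
          HahnSeries.ofPowerSeries_apply_coeff, PowerSeries.coeff_zero_eq_constantCoeff_apply,
          map_pow]
        exact pow_ne_zero _ ht0
      · intro r i hri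
        rw [RingHom.mapMatrix_apply, Matrix.map_apply,
          ← PowerSeries.coeff_zero_eq_constantCoeff_apply]
        simp only [C', Matrix.of_apply, PowerSeries.coeff_mk]
        rw [hent, Nat.cast_zero, mul_zero, zero_add, ofPowerSeries_coeff_of_neg]
        have : (r : ℤ) < i := by exact_mod_cast (show r < i from hri)
        omega
    rw [hmap, ← RingHom.mapMatrix_apply, ← RingHom.map_det]
    exact (map_ne_zero_iff _ HahnSeries.ofPowerSeries_injective).2 fun h0 =>
      hdet (by rw [h0, map_zero])
  have hcomb : ∀ (g : Fin n → B) (r : Fin n),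
      seriesSection n (r : ℤ) (e (∑ l, g l • x l)) = ∑ l, C₀ r l * ζ (g l) := by
    intro g r
    rw [map_sum, seriesSection_sum]
    refine Finset.sum_congr rfl fun l _ => ?_
    rw [IntermediateField.smul_def, smul_eq_mul, map_mul, ← hζ, seriesSection_qExpand_mul, mul_comm]
    rfl
  have hli : LinearIndependent B x := by
    rw [Fintype.linearIndependent_iff]
    intro g hg
    have h1 : Matrix.mulVec C₀ (fun l => ζ (g l)) = 0 := funext fun r => by
      rw [Matrix.mulVec, dotProduct, ← hcomb, hg, map_zero, seriesSection_zero]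
      rfl
    have h2 := Matrix.eq_zero_of_mulVec_eq_zero hC0 h1
    exact fun l => (map_eq_zero ζ).1 (congrFun h2 l)
  have : Nonempty (Fin n) := ⟨⟨0, hn0⟩⟩
  let b := basisOfLinearIndependentOfCardEqFinrank hli (by rw [Fintype.card_fin, hrank])
  have hb : ⇑b = x := coe_basisOfLinearIndependentOfCardEqFinrank _ _
  -- the norm
  set N := Algebra.norm B f with hNdef
  have hnorm : ζ N = seriesNorm n (e f) := by
    have hmat : seriesMat n (e f) * C₀ = C₀ * (Algebra.leftMulMatrix b f).map ζ := by
      refine Matrix.ext fun r i => ?_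
      rw [← hsec, Matrix.mul_apply, ← map_mul]
      have h1 : f * x i = ∑ l, Algebra.leftMulMatrix b f l i • x l := by
        conv_lhs => rw [← hb, ← b.sum_repr (f * b i), hb]
        exact Finset.sum_congr rfl fun l _ => by
          rw [Algebra.leftMulMatrix_eq_repr_mul, hb]
      rw [h1, hcomb]
      rfl
    have h2 := congrArg Matrix.det hmat
    rw [Matrix.det_mul, Matrix.det_mul, mul_comm C₀.det] at h2
    rw [hNdef, Algebra.norm_eq_matrix_det b, RingHom.map_det]
    exact (mul_right_cancel₀ hC0 h2).symm
  -- its logarithmic derivative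
  have hθ : theta k (ζ N) = 0 := by
    obtain ⟨c, S, hcS⟩ := exists_eq_const_mul_pow (p := p) (g := AdjoinSimple.gen k h)
      (fun halg => htr (halg.algHom (IntermediateField.val _)))
      (by
        refine IntermediateField.map_injective B.val ?_
        rw [adjoin_map, Set.image_singleton, ← AlgHom.fieldRange_eq_map,
          IntermediateField.fieldRange_val]
        rfl)
      (N := N) fun v => by
        rw [hNdef, FF.ord_norm v f]
        exact Finset.dvd_sum fun w _ => dvd_mul_of_dvd_left (hf w) _
    rw [hcS, map_mul, map_pow]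
    have : ζ (algebraMap k B c) = HahnSeries.C c := (qExpand k n).injective (by
      rw [hζ, qExpand_C]
      exact heC c)
    rw [this, theta_C_mul, theta_pow_char p, mul_zero]
  have hef : e f ≠ 0 := (_root_.map_ne_zero e).2 hf0
  rw [hnorm, theta_seriesNorm n hnk hef, mul_eq_zero,
    or_iff_left (seriesNorm_ne_zero n hef)] at hθ
  have hcoef := congrArg (fun s => HahnSeries.coeff s 1) hθ
  simp only [seriesSection_coeff, mul_one, add_zero, HahnSeries.coeff_zero] at hcoef
  -- back to the variable `q`
  rw [← coeff_zero_changeVar_mul Pv hP1 hP0, map_mul, map_mul, map_inv₀, hτh, qExpand_single,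
    mul_assoc, mul_right_comm (τ _), ← theta_changeVar, HahnSeries.coeff_single_mul, one_mul]
  have hefq : e f = changeVar Pv hP1 hP0 (f : LaurentSeries k) := rfl
  rw [hefq] at hcoef
  simpa [τ] using hcoef

theorem coeff_zero_mul_dlog_tame {h f : F} {n : ℕ} (hn0 : 0 < n) (hnk : (n : k) ≠ 0)
    (hh : P.ord h = -(n : ℤ)) (hreg : ∀ v : Place k F, v ≠ P → 0 ≤ v.ord h)
    (hf0 : f ≠ 0) (hf : ∀ v : Place k F, (p : ℤ) ∣ v.ord f) :
    ((h : LaurentSeries k) *
      (theta k (f : LaurentSeries k) * (f : LaurentSeries k)⁻¹)).coeff 0 = 0 := by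
  set c := (h : LaurentSeries k).coeff (-(n : ℤ)) with hc
  have hh0 : h ≠ 0 := fun h0 => by rw [h0] at hh; simp at hh; omega
  have hc0 : c ≠ 0 := by
    rw [hc, ← hh, hP]
    exact HahnSeries.coeff_order_eq_zero.not.2 fun h0 => hh0 (Subtype.ext h0)
  have hcF : algebraMap k F c⁻¹ ≠ 0 := (_root_.map_ne_zero _).2 (inv_ne_zero hc0)
  have hcoe : ((algebraMap k F c⁻¹ * h : F) : LaurentSeries k) =
      HahnSeries.C c⁻¹ * (h : LaurentSeries k) := by
    rw [MulMemClass.coe_mul]
    congr 1
    show algebraMap k (LaurentSeries k) c⁻¹ = _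
    rw [algebraMap_laurentSeries_eq_single, HahnSeries.C_apply]
  have h1 := coeff_zero_mul_dlog_monic F hP (h := algebraMap k F c⁻¹ * h) (f := f) hn0 hnk
    (by rw [P.ord_mul hcF hh0, FF.ord_algebraMap, hh, zero_add])
    (by rw [hcoe, HahnSeries.C_apply, HahnSeries.coeff_single_zero_mul, ← hc,
      inv_mul_cancel₀ hc0])
    (fun v hv => by rw [v.ord_mul hcF hh0, FF.ord_algebraMap, zero_add]; exact hreg v hv) hf0 hf
  rw [hcoe, mul_assoc, HahnSeries.C_apply, HahnSeries.coeff_single_zero_mul] at h1
  exact (mul_eq_zero.1 h1).resolve_left (inv_ne_zero hc0)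

/-- **The residue identity.** -/
theorem coeff_zero_mul_dlog {h f : F} (hreg : ∀ v : Place k F, v ≠ P → 0 ≤ v.ord h) (hf0 : f ≠ 0)
    (hf : ∀ v : Place k F, (p : ℤ) ∣ v.ord f) :
    ((h : LaurentSeries k) *
      (theta k (f : LaurentSeries k) * (f : LaurentSeries k)⁻¹)).coeff 0 = 0 := by
  obtain ⟨n, h', hn, hnk, hh'0, hh', hreg'⟩ := exists_regular_pole F (P := P)
    (max (-P.ord h) 0)
  have e := coeff_zero_mul_dlog_tame F hP (f := f) (by omega) hnk hh' hreg' hf0 hf
  rcases eq_or_ne h 0 with rfl | hh0
  · simp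
  have hlt : P.ord h' < P.ord h := by omega
  have hord : P.ord (h' + h) = -(n : ℤ) := by
    rw [FF.ord_add_eq_left P hh'0 (Or.inr hlt), hh']
  have e' := coeff_zero_mul_dlog_tame F hP (f := f) (h := h' + h) (by omega) hnk hord
    (fun v hv => by
      rcases eq_or_ne (h' + h) 0 with h0 | h0
      · simp [h0]
      · exact (le_min (hreg' v hv) (hreg v hv)).trans (FF.min_ord_le_ord_add v h0)) hf0 hf
  rwa [AddMemClass.coe_add, add_mul, HahnSeries.coeff_add, e, zero_add] at e'

end Fermat.Agent.LevelLowerP
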