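import Fermat.Agent.LevelLowerP.Theta
import Fermat.Prelude.Def_ModularCurve_LaurentCoeff
import Mathlib.RingTheory.PowerSeries.Substitution
import Mathlib.RingTheory.PowerSeries.Derivative

/-!
# Change of variable in Laurent series and the residue

`(v ^ m θ v)₀ = 0` in every characteristic, by lifting `v` to characteristic zero; hence the
residue does not depend on the variable.
-/

set_option autoImplicit false

noncomputable section

open ModularCurve

namespace Fermat.Agent.LevelLowerP

variable {k : Type*} [Field k]

local notation "L" => LaurentSeries k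
local notation "ofPS" => HahnSeries.ofPowerSeries ℤ k

/-- The residue of `v ^ m dv` vanishes. -/
theorem coeff_zero_pow_mul_theta (v : L) (m : ℕ) : (v ^ m * theta k v).coeff 0 = 0 := by
  classical
  let φ : MvPolynomial k ℤ →+* k := (MvPolynomial.aeval fun a : k => a).toRingHom
  let σ : k → MvPolynomial k ℤ := fun a => if a = 0 then 0 else MvPolynomial.X a
  have hσ : ∀ a, φ (σ a) = a := fun a => by
    by_cases ha : a = 0
    · subst ha; simp [σ]
    · simp [σ, φ, ha]
  let w : LaurentSeries (MvPolynomial k ℤ) :=
    { coeff := fun i => σ (v.coeff i)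
      isPWO_support' := v.isPWO_support.mono fun i hi h0 => hi (by simp [σ, h0]) }
  have hw : coeffMap φ w = v := HahnSeries.ext (funext fun i => by
    rw [coeffMap_coeff]; exact hσ _)
  have h : ((m + 1 : ℕ) : MvPolynomial k ℤ) * (w ^ m * theta _ w).coeff 0 = 0 := by
    have h1 : (theta _ (w ^ (m + 1))).coeff 0 = 0 := by simp
    rwa [theta_pow, Nat.add_sub_cancel, mul_assoc, ← map_natCast (HahnSeries.C),
      HahnSeries.C_apply, HahnSeries.coeff_single_zero_mul] at h1
  have h2 := (mul_eq_zero.1 h).resolve_left (Nat.cast_ne_zero.2 m.succ_ne_zero)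
  have h3 := congrArg φ h2
  rwa [← coeffMap_coeff, map_mul, map_pow, coeffMap_theta, hw, map_zero] at h3

/-- `n`th roots of series with constant term `1`. -/
theorem exists_powerSeries_root {a : PowerSeries k} (ha : PowerSeries.constantCoeff a = 1) {n : ℕ}
    (hn : (n : k) ≠ 0) : ∃ w : PowerSeries k, PowerSeries.constantCoeff w = 1 ∧ w ^ n = a := by
  set P : PowerSeries k := (1 + PowerSeries.X) ^ n - 1 with hP
  have h1 : IsUnit (P.coeff 1) := by
    rw [isUnit_iff_ne_zero]
    have : P.coeff 1 = (n : k) := by
      rw [hP, map_sub, PowerSeries.coeff_one_pow]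
      simp
    rwa [this]
  have h0 : PowerSeries.constantCoeff P = 0 := by simp [hP]
  set b := a - 1 with hb
  have hbs : PowerSeries.HasSubst b :=
    PowerSeries.HasSubst.of_constantCoeff_zero' (by simp [hb, ha])
  set R := P.substInvOfIsUnit h1
  have hRs : PowerSeries.HasSubst R := PowerSeries.HasSubst.substInvOfIsUnit P h1
  have h2 : (1 + R) ^ n - 1 = PowerSeries.X := by
    have h := PowerSeries.subst_substInvOfIsUnit_right P h0 h1
    rw [← PowerSeries.coe_substAlgHom hRs, hP, map_sub, map_pow, map_add, map_one,
      PowerSeries.substAlgHom_X] at h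
    exact h
  refine ⟨1 + R.subst b, ?_, ?_⟩
  · rw [map_add, map_one]
    have h := PowerSeries.constantCoeff_subst_eq_zero (a := b)
      (show PowerSeries.constantCoeff b = 0 by simp [hb, ha]) R
      (PowerSeries.constantCoeff_substInvOfIsUnit P h1)
    exact (congrArg (1 + ·) h).trans (add_zero 1)
  · have h := congrArg (PowerSeries.substAlgHom hbs) h2
    rw [map_sub, map_pow, map_add, map_one, PowerSeries.substAlgHom_X, PowerSeries.coe_substAlgHom,
      hb, sub_left_inj] at h
    exact h

theorem theta_ofPowerSeries (f : PowerSeries k) :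
    theta k (ofPS f) = ofPS (PowerSeries.X * PowerSeries.derivative k f) := by
  ext i
  rw [theta_coeff]
  rcases lt_or_ge i 0 with hi | hi
  · rw [ofPowerSeries_coeff_of_neg _ hi, ofPowerSeries_coeff_of_neg _ hi, mul_zero]
  lift i to ℕ using hi
  rw [HahnSeries.ofPowerSeries_apply_coeff, HahnSeries.ofPowerSeries_apply_coeff]
  rcases i with _ | i
  · simp
  · rw [PowerSeries.coeff_succ_X_mul, PowerSeries.coeff_derivative]
    push_cast
    ring

theorem ofPS_X : ofPS (PowerSeries.X : PowerSeries k) = HahnSeries.single 1 1 :=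
  HahnSeries.ofPowerSeries_X

section Change

variable (P : PowerSeries k) (hP : IsUnit (P.coeff 1)) (hP0 : PowerSeries.constantCoeff P = 0)

/-- Substitution of the inverse of `P`. -/
def varHom : PowerSeries k →+* L :=
  (ofPS).comp
    (PowerSeries.substAlgHom (PowerSeries.HasSubst.substInvOfIsUnit P hP)).toRingHom

theorem varHom_apply (f : PowerSeries k) :
    varHom P hP f = ofPS (f.subst (P.substInvOfIsUnit hP)) := by
  rw [← PowerSeries.coe_substAlgHom (PowerSeries.HasSubst.substInvOfIsUnit P hP)]
  rfl

include hP0 in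
theorem varHom_injective : Function.Injective (varHom P hP) := by
  intro f g h
  rw [varHom_apply, varHom_apply] at h
  have h1 := congrArg (PowerSeries.subst P) (HahnSeries.ofPowerSeries_injective h)
  have hPs : PowerSeries.HasSubst P := PowerSeries.HasSubst.of_constantCoeff_zero' hP0
  rwa [PowerSeries.subst_comp_subst_apply (PowerSeries.HasSubst.substInvOfIsUnit P hP) hPs,
    PowerSeries.subst_comp_subst_apply (PowerSeries.HasSubst.substInvOfIsUnit P hP) hPs,
    PowerSeries.subst_substInvOfIsUnit_left P hP0 hP, PowerSeries.X_subst,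
    PowerSeries.X_subst] at h1

/-- The change of variable. -/
def changeVar : L →+* L :=
  IsFractionRing.lift (A := PowerSeries k) (g := varHom P hP) (varHom_injective P hP hP0)

theorem changeVar_ofPS (f : PowerSeries k) :
    changeVar P hP hP0 (ofPS f) = ofPS (f.subst (P.substInvOfIsUnit hP)) := by
  rw [← varHom_apply]
  exact IsFractionRing.lift_algebraMap _ f

theorem changeVar_C (c : k) : changeVar P hP hP0 (HahnSeries.C c) = HahnSeries.C c := by
  rw [← HahnSeries.ofPowerSeries_C, changeVar_ofPS,
    ← PowerSeries.coe_substAlgHom (PowerSeries.HasSubst.substInvOfIsUnit P hP)]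
  congr 1
  exact AlgHom.commutes _ c

theorem changeVar_single_one :
    changeVar P hP hP0 (HahnSeries.single 1 1) = ofPS (P.substInvOfIsUnit hP) := by
  rw [← ofPS_X, changeVar_ofPS, PowerSeries.subst_X (PowerSeries.HasSubst.substInvOfIsUnit P hP)]

theorem changeVar_param : changeVar P hP hP0 (ofPS P) = HahnSeries.single 1 1 := by
  rw [changeVar_ofPS, PowerSeries.subst_substInvOfIsUnit_right P hP0 hP, ofPS_X]

/-- `θ S / S`, for `S` the image of the variable. -/
def dlogVar : L :=
  theta k (changeVar P hP hP0 (HahnSeries.single 1 1)) *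
    (changeVar P hP hP0 (HahnSeries.single 1 1))⁻¹

theorem changeVar_var_ne_zero : changeVar P hP hP0 (HahnSeries.single 1 1) ≠ 0 :=
  (map_ne_zero _).2 (HahnSeries.single_ne_zero one_ne_zero)

theorem exists_dlogVar : ∃ d : PowerSeries k, PowerSeries.constantCoeff d = 1 ∧
    dlogVar P hP hP0 = ofPS d := by
  obtain ⟨u, hu⟩ : ∃ u, P.substInvOfIsUnit hP = PowerSeries.X * u :=
    PowerSeries.X_dvd_iff.2 (PowerSeries.constantCoeff_substInvOfIsUnit P hP)
  have hu0 : PowerSeries.constantCoeff u ≠ 0 := by
    have h := PowerSeries.coeff_one_substInvOfIsUnit P hP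
    rw [hu, PowerSeries.coeff_succ_X_mul, PowerSeries.coeff_zero_eq_constantCoeff] at h
    rw [h]
    exact Units.ne_zero _
  refine ⟨PowerSeries.derivative k (PowerSeries.X * u) * u⁻¹, ?_, ?_⟩
  · rw [map_mul, PowerSeries.constantCoeff_inv, ← PowerSeries.coeff_zero_eq_constantCoeff,
      PowerSeries.coeff_derivative, PowerSeries.coeff_succ_X_mul]
    simp [PowerSeries.coeff_zero_eq_constantCoeff, hu0]
  · have hne : ofPS (PowerSeries.X * u) ≠ 0 := by
      rw [← hu, ← changeVar_single_one P hP hP0]
      exact changeVar_var_ne_zero P hP hP0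
    rw [dlogVar, changeVar_single_one P hP hP0, hu, theta_ofPowerSeries, mul_inv_eq_iff_eq_mul₀ hne,
      ← map_mul]
    congr 1
    calc _ = PowerSeries.derivative k (PowerSeries.X * u) * PowerSeries.X * (u⁻¹ * u) := by
          rw [PowerSeries.inv_mul_cancel _ hu0]; ring
      _ = _ := by ring

/-- Chain rule. -/
theorem theta_changeVar (g : L) :
    theta k (changeVar P hP hP0 g) =
      changeVar P hP hP0 (theta k g) * dlogVar P hP hP0 := by
  set τ := changeVar P hP hP0
  set D := dlogVar P hP hP0 with hD
  let E : L → L := fun g => theta k (τ g) - τ (theta k g) * D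
  have hmul : ∀ x y, E (x * y) = τ x * E y + E x * τ y := fun x y => by
    simp only [E, map_mul, map_add, theta_mul]; ring
  have hC : ∀ c, E (HahnSeries.C c) = 0 := fun c => by
    simp only [E, τ, changeVar_C, theta_C, map_zero, zero_mul, sub_zero]
  have hadd : ∀ x y, E (x + y) = E x + E y := fun x y => by simp only [E, map_add]; ring
  have hT : E (HahnSeries.single 1 1) = 0 := by
    have h1 : theta k (HahnSeries.single (1 : ℤ) (1 : k)) = HahnSeries.single 1 1 := by
      ext i; by_cases hi : i = 1 <;> simp [hi]
    simp only [E, h1, hD, dlogVar, τ]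
    rw [mul_comm (theta k _) _, ← mul_assoc, mul_inv_cancel₀ (changeVar_var_ne_zero P hP hP0),
      one_mul, sub_self]
  obtain ⟨d, -, hd⟩ := exists_dlogVar P hP hP0
  have hint : ∀ f : PowerSeries k, ∃ e : PowerSeries k, E (ofPS f) = ofPS e := fun f => by
    refine ⟨PowerSeries.X * PowerSeries.derivative k (f.subst (P.substInvOfIsUnit hP)) -
      (PowerSeries.X * PowerSeries.derivative k f).subst (P.substInvOfIsUnit hP) * d, ?_⟩
    have hs := PowerSeries.HasSubst.substInvOfIsUnit P hP
    simp only [E, τ, hD, hd, changeVar_ofPS, theta_ofPowerSeries, map_sub, map_mul,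
      PowerSeries.subst_mul hs]
  have hdvd : ∀ (N : ℕ) (f : PowerSeries k), ∀ e, E (ofPS f) = ofPS e → PowerSeries.X ^ N ∣ e := by
    intro N
    induction N with
    | zero => intro f e _; simp
    | succ N ih =>
      intro f e he
      obtain ⟨e', he'⟩ := hint (PowerSeries.mk fun i => PowerSeries.coeff (i + 1) f)
      have h1 : ofPS e = ofPS (P.substInvOfIsUnit hP * e') := by
        rw [← he, map_mul, ← he', ← changeVar_single_one P hP hP0]
        conv_lhs => rw [PowerSeries.eq_X_mul_shift_add_const f, map_add, map_mul,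
          HahnSeries.ofPowerSeries_C, ofPS_X, hadd, hC, add_zero, hmul, hT, zero_mul, add_zero]
      rw [HahnSeries.ofPowerSeries_injective h1, pow_succ']
      exact mul_dvd_mul (PowerSeries.X_dvd_iff.2 (PowerSeries.constantCoeff_substInvOfIsUnit P hP))
        (ih _ e' he')
  have hPS : ∀ f : PowerSeries k, E (ofPS f) = 0 := fun f => by
    obtain ⟨e, he⟩ := hint f
    have : e = 0 := PowerSeries.ext fun i => by
      rw [map_zero]
      exact PowerSeries.X_pow_dvd_iff.1 (hdvd (i + 1) f e he) i (Nat.lt_succ_self i)
    rw [he, this, map_zero]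
  suffices E g = 0 from sub_eq_zero.1 this
  obtain ⟨a, b, hb, rfl⟩ := IsFractionRing.div_surjective (A := PowerSeries k) g
  have hb0 : algebraMap (PowerSeries k) L b ≠ 0 :=
    IsFractionRing.to_map_ne_zero_of_mem_nonZeroDivisors hb
  have h1 := hmul (algebraMap (PowerSeries k) L a / algebraMap (PowerSeries k) L b)
    (algebraMap (PowerSeries k) L b)
  rw [div_mul_cancel₀ _ hb0, show E (algebraMap _ L a) = 0 from hPS a,
    show E (algebraMap _ L b) = 0 from hPS b, mul_zero, zero_add] at h1
  exact (mul_eq_zero.1 h1.symm).resolve_right ((map_ne_zero τ).2 hb0)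

/-- **The residue does not depend on the variable.** -/
theorem coeff_zero_changeVar_mul (g : L) :
    (changeVar P hP hP0 g * dlogVar P hP hP0).coeff 0 = g.coeff 0 := by
  set τ := changeVar P hP hP0
  set D := dlogVar P hP hP0 with hD
  obtain ⟨d, hd1, hd⟩ := exists_dlogVar P hP hP0
  set v := τ (HahnSeries.single (-1) 1) with hv
  have hinv : τ (HahnSeries.single 1 1) * v = 1 := by
    rw [hv, ← map_mul, HahnSeries.single_mul_single, add_neg_cancel, mul_one]
    exact map_one τ
  have hDv : D = -(theta k v * τ (HahnSeries.single 1 1)) := by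
    have h := congrArg (theta k) hinv
    rw [theta_mul, theta_one] at h
    rw [hD, dlogVar, inv_eq_of_mul_eq_one_right hinv]
    linear_combination h
  have hpole : ∀ m : ℕ, (τ (HahnSeries.single (-((m : ℤ) + 1)) 1) * D).coeff 0 = 0 := fun m => by
    have h1 : τ (HahnSeries.single (-((m : ℤ) + 1)) 1) = v ^ (m + 1) := by
      rw [hv, ← map_pow, HahnSeries.single_pow, one_pow, nsmul_eq_mul]
      push_cast
      ring_nf
    rw [h1, hDv, pow_succ, show v ^ m * v * -(theta k v * τ (HahnSeries.single 1 1)) =
      -(v ^ m * theta k v * (τ (HahnSeries.single 1 1) * v)) by ring, hinv, mul_one,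
      HahnSeries.coeff_neg, coeff_zero_pow_mul_theta, neg_zero]
  have key : ∀ (m : ℕ) (f : PowerSeries k),
      (τ (HahnSeries.single (-(m : ℤ)) 1 * ofPS f) * D).coeff 0 =
        (HahnSeries.single (-(m : ℤ)) 1 * ofPS f).coeff 0 := by
    intro m
    induction m with
    | zero =>
      intro f
      simp only [Nat.cast_zero, neg_zero, HahnSeries.single_zero_one, one_mul, τ, changeVar_ofPS,
        hd, ← map_mul, hD]
      rw [show (0 : ℤ) = ((0 : ℕ) : ℤ) from rfl, HahnSeries.ofPowerSeries_apply_coeff,
        HahnSeries.ofPowerSeries_apply_coeff, PowerSeries.coeff_zero_eq_constantCoeff, map_mul, hd1,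
        mul_one, PowerSeries.eq_X_mul_shift_add_const f,
        ← PowerSeries.coe_substAlgHom (PowerSeries.HasSubst.substInvOfIsUnit P hP), map_add,
        map_mul, PowerSeries.substAlgHom_X, map_add, map_mul,
        PowerSeries.constantCoeff_substInvOfIsUnit,
        show (PowerSeries.substAlgHom _) (PowerSeries.C (PowerSeries.constantCoeff f)) =
          PowerSeries.C (PowerSeries.constantCoeff f) from AlgHom.commutes _ _]
      simp
    | succ m ih =>
      intro f
      have hsplit : HahnSeries.single (-((m + 1 : ℕ) : ℤ)) (1 : k) * ofPS f =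
          HahnSeries.single (-(m : ℤ)) 1 *
              ofPS (PowerSeries.mk fun i => PowerSeries.coeff (i + 1) f) +
            HahnSeries.C (PowerSeries.constantCoeff f) * HahnSeries.single (-((m : ℤ) + 1)) 1 := by
        conv_lhs => rw [PowerSeries.eq_X_mul_shift_add_const f, map_add, map_mul,
          HahnSeries.ofPowerSeries_C, ofPS_X, mul_add, ← mul_assoc, HahnSeries.single_mul_single]
        push_cast
        rw [mul_comm (HahnSeries.single (-((m : ℤ) + 1)) (1 : k))]
        ring_nf
      rw [hsplit, map_add, add_mul, HahnSeries.coeff_add, HahnSeries.coeff_add, ih, map_mul,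
        mul_assoc, show τ (HahnSeries.C _) = _ from changeVar_C P hP hP0 _, HahnSeries.C_apply,
        HahnSeries.coeff_single_zero_mul, hpole, HahnSeries.coeff_single_zero_mul,
        HahnSeries.coeff_single_of_ne (by omega)]
  rcases le_or_gt 0 g.order with hg | hg
  · have h := key 0 (PowerSeries.X ^ g.order.toNat * g.powerSeriesPart)
    have e : ofPS (PowerSeries.X ^ g.order.toNat * g.powerSeriesPart) = g := by
      rw [map_mul, map_pow, ofPS_X, HahnSeries.single_pow, nsmul_eq_mul, mul_one, one_pow,
        Int.toNat_of_nonneg hg, LaurentSeries.single_order_mul_powerSeriesPart]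
    rw [e, Nat.cast_zero, neg_zero, HahnSeries.single_zero_one, one_mul] at h
    exact h
  · have h := key (-g.order).toNat g.powerSeriesPart
    rw [Int.toNat_of_nonneg (by omega), neg_neg,
      LaurentSeries.single_order_mul_powerSeriesPart] at h
    exact h

end Change

end Fermat.Agent.LevelLowerP
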