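import Mathlib.RingTheory.UniqueFactorizationDomain.Multiplicity
import Mathlib.RingTheory.UniqueFactorizationDomain.NormalizedFactors
import Mathlib.RingTheory.Valuation.ExtendToLocalization
import Mathlib.RingTheory.Localization.FractionRing
import Mathlib.Tactic
import Mathlib.Algebra.GroupWithZero.WithZero

/-!
# Factorisation with multiplicities divisible by `p`

In a factorial domain, an element of the fraction field all of whose (non-exceptional) prime
multiplicities are divisible by `p` is a unit times exceptional primes times a `p`-th power.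

Main result: `exists_unit_mul_exc_mul_pow`.
-/

set_option autoImplicit false

namespace Fermat.Agent.LevelLowerP

open UniqueFactorizationMonoid WithZero

variable {B : Type*} [CommRing B] [IsDomain B] [UniqueFactorizationMonoid B]

open Classical in
/-- The valuation `exp (-multiplicity)` attached to a prime element. -/
noncomputable def primeVal {π : B} (hπ : Prime π) : Valuation B ℤᵐ⁰ where
  toFun a := if a = 0 then 0 else exp (-(multiplicity π a : ℤ))
  map_zero' := if_pos rfl
  map_one' := by
    rw [if_neg one_ne_zero, multiplicity_of_one_right hπ.not_isUnit]; simp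
  map_mul' a b := by
    by_cases ha : a = 0
    · simp [ha]
    by_cases hb : b = 0
    · simp [hb]
    rw [if_neg (mul_ne_zero ha hb), if_neg ha, if_neg hb, ← exp_add,
      multiplicity_mul hπ (FiniteMultiplicity.of_prime_left hπ (mul_ne_zero ha hb))]
    push_cast; ring_nf
  map_add_le_max' a b := by
    by_cases ha : a = 0
    · simp [ha]
    by_cases hb : b = 0
    · simp [hb]
    by_cases hab : a + b = 0
    · simp [hab]
    rw [if_neg hab, if_neg ha, if_neg hb]
    have h : min (multiplicity π a) (multiplicity π b) ≤ multiplicity π (a + b) := by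
      refine (FiniteMultiplicity.of_prime_left hπ hab).le_multiplicity_of_pow_dvd (dvd_add ?_ ?_)
      · exact pow_dvd_of_le_multiplicity (min_le_left _ _)
      · exact pow_dvd_of_le_multiplicity (min_le_right _ _)
    rcases le_total (multiplicity π a) (multiplicity π b) with hle | hle
    · refine le_max_of_le_left (exp_le_exp.2 ?_)
      rw [min_eq_left hle] at h; omega
    · refine le_max_of_le_right (exp_le_exp.2 ?_)
      rw [min_eq_right hle] at h; omega

lemma primeVal_apply {π : B} (hπ : Prime π) {a : B} (ha : a ≠ 0) :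
    primeVal hπ a = exp (-(multiplicity π a : ℤ)) := by
  classical exact if_neg ha

lemma primeVal_eq_one {π : B} (hπ : Prime π) {a : B} (ha : ¬ π ∣ a) : primeVal hπ a = 1 := by
  have h0 : a ≠ 0 := fun h => ha (h ▸ dvd_zero π)
  rw [primeVal_apply hπ h0, multiplicity_eq_zero.2 ha]; simp

lemma supp_primeVal_le {π : B} (hπ : Prime π) :
    nonZeroDivisors B ≤ (primeVal hπ).supp.primeCompl := by
  intro a ha h
  have h0 : a ≠ 0 := nonZeroDivisors.ne_zero ha
  have h' : primeVal hπ a = 0 := (Valuation.mem_supp_iff _ _).1 h
  rw [primeVal_apply hπ h0] at h'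
  exact exp_ne_zero h'

variable (L : Type*) [Field L] [Algebra B L] [IsFractionRing B L]

/-- `primeVal` on the fraction field. -/
noncomputable def primeValFrac {π : B} (hπ : Prime π) : Valuation L ℤᵐ⁰ :=
  (primeVal hπ).extendToLocalization (supp_primeVal_le hπ) L

lemma primeValFrac_algebraMap {π : B} (hπ : Prime π) (a : B) :
    primeValFrac L hπ (algebraMap B L a) = primeVal hπ a :=
  Valuation.extendToLocalization_apply_map_apply _ (supp_primeVal_le hπ) L a

omit L
variable {L : Type*} [Field L] [Algebra B L] [IsFractionRing B L]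

open Classical in
/-- Factorisation with exceptional primes. -/
theorem exists_unit_mul_exc_mul_pow (Exc : B → Prop) {p : ℕ} (hp : p ≠ 0) {f : L} (hf : f ≠ 0)
    (h : ∀ (π : B) (hπ : Prime π), ¬ Exc π → (p : ℤ) ∣ log (primeValFrac L hπ f)) :
    ∃ (u : Bˣ) (S : Multiset B) (G : L), G ≠ 0 ∧ (∀ x ∈ S, Prime x ∧ Exc x) ∧
      f = algebraMap B L (u * S.prod) * G ^ p := by
  let sM : StrongNormalizationMonoid B := UniqueFactorizationMonoid.strongNormalizationMonoid
  obtain ⟨a, b, hb, rfl⟩ := IsFractionRing.div_surjective B f
  have hb0 : b ≠ 0 := nonZeroDivisors.ne_zero hb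
  have ha0 : a ≠ 0 := fun h0 => hf (by rw [h0, map_zero, zero_div])
  have hb' : algebraMap B L b ≠ 0 := fun e =>
    hb0 ((map_eq_zero_iff _ (IsFractionRing.injective B L)).1 e)
  set c := a * b ^ (p - 1) with hc
  have hc0 : c ≠ 0 := mul_ne_zero ha0 (pow_ne_zero _ hb0)
  have hfc : algebraMap B L a / algebraMap B L b = algebraMap B L c / algebraMap B L b ^ p := by
    rw [hc, map_mul, map_pow]
    obtain ⟨p', rfl⟩ : ∃ p', p = p' + 1 := ⟨p - 1, by omega⟩
    rw [Nat.add_sub_cancel, pow_succ]
    field_simp
  set m := normalizedFactors c with hm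
  have hcount : ∀ x ∈ m.filter (fun x => ¬ Exc x), p ∣ (m.filter (fun x => ¬ Exc x)).count x := by
    intro x hx
    obtain ⟨hxm, hxE⟩ := Multiset.mem_filter.1 hx
    have hxp : Prime x := prime_of_normalized_factor x hxm
    have hdvd : (p : ℤ) ∣ log (primeValFrac L hxp (algebraMap B L c)) := by
      have e : algebraMap B L c =
          (algebraMap B L a / algebraMap B L b) * algebraMap B L b ^ p := by
        rw [hfc, div_mul_cancel₀ _ (pow_ne_zero _ hb')]
      rw [e, map_mul, map_pow, log_mul ((map_ne_zero _).2 hf)
        (pow_ne_zero _ ((map_ne_zero _).2 hb')), log_pow]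
      exact dvd_add (h x hxp hxE) (by rw [nsmul_eq_mul]; exact Dvd.intro _ rfl)
    rw [primeValFrac_algebraMap, primeVal_apply hxp hc0, log_exp, dvd_neg,
      Int.natCast_dvd_natCast] at hdvd
    have hmult : multiplicity x c = (normalizedFactors c).count x := by
      refine multiplicity_eq_of_emultiplicity_eq_some ?_
      rw [emultiplicity_eq_count_normalizedFactors hxp.irreducible hc0,
        normalize_normalized_factor x hxm]
    rw [Multiset.count_filter_of_pos (p := fun x => ¬ Exc x) hxE, hm, ← hmult]
    exact hdvd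
  obtain ⟨s, hs⟩ := Multiset.exists_smul_of_dvd_count _ hcount
  obtain ⟨u, hu⟩ := (prod_normalizedFactors hc0)
  refine ⟨u, m.filter Exc, algebraMap B L s.prod / algebraMap B L b, ?_, ?_, ?_⟩
  · refine div_ne_zero (fun e => ?_) hb'
    rw [map_eq_zero_iff _ (IsFractionRing.injective B L), Multiset.prod_eq_zero_iff] at e
    have h0 : (0 : B) ∈ m.filter (fun x => ¬ Exc x) := by
      rw [hs]; exact Multiset.mem_nsmul.2 ⟨hp, e⟩
    exact (prime_of_normalized_factor _ (Multiset.mem_filter.1 h0).1).ne_zero rfl
  · intro x hx
    exact ⟨prime_of_normalized_factor x (Multiset.mem_filter.1 hx).1, (Multiset.mem_filter.1 hx).2⟩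
  · rw [hfc, div_pow, ← mul_div_assoc, ← map_pow (algebraMap B L) s.prod p, ← map_mul,
      ← Multiset.prod_nsmul, ← hs, ← hu]
    congr 2
    rw [mul_assoc, ← Multiset.prod_add, Multiset.filter_add_not, mul_comm]

end Fermat.Agent.LevelLowerP
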