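import Fermat.Agent.LevelLowerP.Main
import Fermat.Agent.LevelLowerP.ArithGeneral
import Fermat.Agent.Reduction.Specialisation
import Fermat.Agent.S05
import Fermat.Agent.Gal.Places
import Fermat.Agent.Gal.Frobenius
import Fermat.Prelude.Def_FreyPackage_IsConductorLevel

/-!
# Level lowering at `p` from a fixed point

Level lowering at `p` from a fixed torsion point, given the geometric model; the case of a Frey
package.

Main results: `exists_lower_of_root_point`, `exists_level_not_dvd`.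
-/

set_option autoImplicit false

noncomputable section

namespace Fermat.Agent.LevelLowerP

open ModularCurve Fermat.Agent.Carayol Fermat.Agent.Multiplicative
open scoped WeierstrassCurve.Affine

local notation "Qbar" => AlgebraicClosure ℚ

/-- The geometric model exists at every level without elliptic points. -/
def GeoInput : Prop :=
  ∀ (p : ℕ) [Fact p.Prime] (R k : Type) [CommRing R] [IsDomain R]
    [IsDiscreteValuationRing R] [CharZero R] [Field k] [CharP k p] [IsAlgClosed k]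
    [IsDomain (Node R p)] [Algebra (ZMod p) k] [Algebra.IsAlgebraic (ZMod p) k]
    (S : Setup p R k) (_ : Unram S), p ≠ 2 → ∀ (M : ℕ) [NeZero M] (hpM : ¬ p ∣ M),
    nuTwo M = 0 → nuThree M = 0 → Nonempty (GeoModel M S hpM)

/-- **A fixed point lowers the level at `p`**, given the geometric model. -/
theorem residuallyModular_of_root_point (hgeo : GeoInput) {W : WeierstrassCurve ℤ} (hΔ : W.Δ ≠ 0)
    {p : ℕ} [Fact p.Prime] (hp2 : p ≠ 2) (hirr : W.ModRepIsIrreducible p)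
    {M : ℕ} [NeZero M] (hpM : ¬ p ∣ M)
    {g : CuspForm (CongruenceSubgroup.Gamma0 (M * p)) 2} (hg : g.IsNewform)
    {𝔪 : Ideal (integralClosure ℤ ℂ)} (h𝔪 : 𝔪.IsMaximal) (hp𝔪 : (p : integralClosure ℤ ℂ) ∈ 𝔪)
    (hgc : ∀ ℓ : ℕ, ℓ.Prime → W.IsGoodPrimeFor ℓ → ¬ ℓ ∣ M * p →
      ∃ c : integralClosure ℤ ℂ, (c : ℂ) = ModularFormClass.qCoeff ⇑g ℓ ∧
        c - ((W.apOfModel ℓ : ℤ) : integralClosure ℤ ℂ) ∈ 𝔪)
    {A : ValuationSubring Qbar} (hA : A.LiesOverPrime p) {b : InertiaField.ring A} {T₁ : Qbar}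
    (hb : IsLocalRing.residue _ b ≠ 0) (hT₁ : T₁ ^ p = 1 + (p : Qbar) * toQbar A b)
    (Q : ((W.map (Int.castRingHom ℚ))⁄Qbar).Point) (hQ0 : Q ≠ 0) (hQp : p • Q = 0)
    (hQfix : ∀ σ ∈ stabInertia A T₁, σ • Q = Q) : W.IsResiduallyModularOfLevel p M := by
  have hp : p.Prime := Fact.out
  obtain ⟨B⟩ := nonempty_baseData hA hb hT₁
  have hchar := charP_kA (A := A) hp hA
  have hac := InertiaField.isAlgClosed_residueField hp A hA
  let _ : Algebra (ZMod p) (IsLocalRing.ResidueField (InertiaField.ring A)) := ZMod.algebra _ p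
  have halg := isAlgebraic_kA hp hA
  have : IsDomain (Node B.R p) := B.S.isDomain_node hp2
  rcases exists_pointData hΔ hp2 hirr hpM hg h𝔪 hp𝔪 hgc
    (fun N p _ _ => Reduction.torsionReduction N p) (stabInertia A T₁) Q hQ0 hQp hQfix
    with h | ⟨⟨D⟩⟩
  · exact h
  · exact residuallyModular_of_pointData hΔ hp2 hirr hpM hA B
      (fun M' _ hpM' h2 h3 => hgeo p _ _ B.S B.U hp2 M' hpM' h2 h3) D

/-- **A fixed point for every congruent form lowers the level at `p`.** -/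
theorem exists_lower_of_root_point (hgeo : GeoInput) {W : WeierstrassCurve ℤ} (hΔ : W.Δ ≠ 0)
    {p : ℕ} [Fact p.Prime] (hp2 : p ≠ 2) (hirr : W.ModRepIsIrreducible p)
    {N : ℕ} [NeZero N] (hN : ¬ p ^ 2 ∣ N)
    {A : ValuationSubring Qbar} (hA : A.LiesOverPrime p)
    (hpt : ∀ (M : ℕ) [NeZero M] (g : CuspForm (CongruenceSubgroup.Gamma0 (M * p)) 2)
      (𝔪 : Ideal (integralClosure ℤ ℂ)), ¬ p ∣ M → g.IsNewform → 𝔪.IsMaximal →
      (p : integralClosure ℤ ℂ) ∈ 𝔪 →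
      (∀ ℓ : ℕ, ℓ.Prime → W.IsGoodPrimeFor ℓ → ¬ ℓ ∣ M * p →
        ∃ c : integralClosure ℤ ℂ, (c : ℂ) = ModularFormClass.qCoeff ⇑g ℓ ∧
          c - ((W.apOfModel ℓ : ℤ) : integralClosure ℤ ℂ) ∈ 𝔪) →
      ∃ (b : InertiaField.ring A) (T₁ : Qbar)
        (P : ((W.map (Int.castRingHom ℚ))⁄Qbar).Point),
        IsLocalRing.residue _ b ≠ 0 ∧ T₁ ^ p = 1 + (p : Qbar) * toQbar A b ∧ P ≠ 0 ∧ p • P = 0 ∧
        ∀ σ ∈ stabInertia A T₁, σ • P = P)
    (hmod : W.IsResiduallyModularOfLevel p N) :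
    ∃ M : ℕ, M ∣ N ∧ ¬ p ∣ M ∧ W.IsResiduallyModularOfLevel p M := by
  rcases exists_isNewform_or_lower hΔ hN hmod with h | ⟨M, _, g, 𝔪, hMN, hpM, hg, h𝔪, hp𝔪, hgc⟩
  · exact h
  obtain ⟨b, T₁, Q, hb, hT₁, hQ0, hQp, hQfix⟩ := hpt M g 𝔪 hpM hg h𝔪 hp𝔪 hgc
  exact ⟨M, (dvd_mul_right M p).trans hMN, hpM,
    residuallyModular_of_root_point hgeo hΔ hp2 hirr hpM hg h𝔪 hp𝔪 hgc hA hb hT₁ Q hQ0 hQp hQfix⟩

/-- Two integral models have congruent traces at a prime where both are good. -/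
theorem dvd_apOfModel_sub_models {E : WeierstrassCurve ℚ} {W W' : WeierstrassCurve ℤ}
    (hΔ' : W'.Δ ≠ 0) (hE : E = W'.map (Int.castRingHom ℚ)) (hW : W.IsIntegralModelOf E)
    {p : ℕ} [Fact p.Prime] {q : ℕ} (hq : q.Prime) (hqp : q ≠ p) (hg : W.IsGoodPrimeFor q)
    (hg' : W'.IsGoodPrimeFor q) : (p : ℤ) ∣ W.apOfModel q - W'.apOfModel q := by
  subst hE
  have := EC.Frobenius.isElliptic_map_rat hΔ'
  have := EC.Frobenius.moduleFinite_torsion (W'.map (Int.castRingHom ℚ)) p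
  obtain ⟨A, hA⟩ := Gal.exists_liesOverPrime (L := Qbar) hq
  obtain ⟨σ, hσ⟩ := Gal.exists_isFrobeniusAt hq hA
  have h1 := (EC.Frobenius.trace_det_charpoly_of_isIntegralModelOf hW hq hg hqp.symm hA hσ).1
  have h2 := (EC.Frobenius.trace_det_charpoly_of_isIntegralModelOf
    (EC.Frobenius.isIntegralModelOf_map W') hq hg' hqp.symm hA hσ (ℓ := p)).1
  rw [h2] at h1
  rw [← ZMod.intCast_zmod_eq_zero_iff_dvd, Int.cast_sub, h1, sub_self]

/-- **Level lowering at `p`** for a Frey package, given the geometric model. -/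
theorem exists_level_not_dvd (hgeo : GeoInput) (P : FreyPackage) {N : ℕ}
    (hcond : P.IsConductorLevel N) (hpN : P.p ∣ N)
    (hirr : WeierstrassCurve.Affine.Point.GaloisRepIsIrreducible (K := Qbar) ℚ P.freyCurve P.p)
    (hmod : P.ModularRepOfLevel N) :
    ∃ M : ℕ, M ∣ N ∧ ¬ P.p ∣ M ∧ P.ModularRepOfLevel M := by
  classical
  have : Fact P.p.Prime := ⟨P.pp⟩
  have : NeZero N := ⟨hcond.pos.ne'⟩
  have hp2 : P.p ≠ 2 := by have := P.hp5; omega
  have hΔ := EC.Reducible.freyCurveInt_Δ_ne_zero P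
  have heq := EC.Reducible.freyCurve_eq_map P
  have hpΔ : (P.p : ℤ) ∣ P.freyCurveInt.Δ := by
    have h : (P.p : ℤ) ∣ P.freyCurveInt.Δ * 2 ^ 8 := by
      rw [EC.Reducible.freyCurveInt_Δ P]
      exact dvd_pow (hcond.p_dvd_abc hpN) (by have := P.hp5; omega)
    refine ((Nat.prime_iff_prime_int.mp P.pp).dvd_or_dvd h).resolve_right fun h2 => hp2 ?_
    have h3 := (Nat.prime_iff_prime_int.mp P.pp).dvd_of_dvd_pow h2
    exact (Nat.prime_dvd_prime_iff_eq P.pp Nat.prime_two).1 (Int.natCast_dvd_natCast.mp h3)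
  obtain ⟨A, hA⟩ := Gal.exists_liesOverPrime (L := Qbar) P.pp
  have hmult : MultAt P.freyCurveInt A P.p :=
    ⟨P.pp, hA, hpΔ, EC.Reducible.freyCurveInt_isSemistableModel P P.p P.pp hpΔ, hΔ⟩
  obtain ⟨f, W, 𝔪, hf, hW, h𝔪, hp𝔪, hcong⟩ := hmod
  have hW0 : W.Δ ≠ 0 := Δ_ne_zero_of_isIntegralModelOf
    (by rw [heq, WeierstrassCurve.map_Δ]; simpa using hΔ) hW
  have hmod' : P.freyCurveInt.IsResiduallyModularOfLevel P.p N := by
    refine ⟨f, 𝔪, hf, h𝔪, hp𝔪, fun r hr hgood hrN hrp =>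
      ResidualLevel.exists_congr_of_congr_outside _ hΔ P.p hf h𝔪 hp𝔪 W.Δ.natAbs.primeFactors
        (fun ℓ hℓ hℓS hgd hℓN hℓp => ?_) hr hgood hrN hrp⟩
    have hgW : W.IsGoodPrimeFor ℓ := fun h => hℓS
      (Nat.mem_primeFactors.mpr ⟨hℓ, Int.natCast_dvd.mp h, Int.natAbs_ne_zero.mpr hW0⟩)
    obtain ⟨a, ha, ham⟩ := hcong ℓ hℓ hgW hℓN hℓp
    obtain ⟨d, hd⟩ := dvd_apOfModel_sub_models hΔ heq hW hℓ hℓp hgW hgd (p := P.p)
    refine ⟨a, ha, ?_⟩
    have he : a - ((P.freyCurveInt.apOfModel ℓ : ℤ) : integralClosure ℤ ℂ) =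
        (a - ((W.apOfModel ℓ : ℤ) : integralClosure ℤ ℂ)) +
          (d : integralClosure ℤ ℂ) * (P.p : integralClosure ℤ ℂ) := by
      have := congrArg (fun x : ℤ => (x : integralClosure ℤ ℂ)) hd
      push_cast at this
      linear_combination this
    rw [he]
    exact add_mem ham (Ideal.mul_mem_left _ _ hp𝔪)
  have hirr0 : P.freyCurveInt.ModRepIsIrreducible P.p := by
    rw [heq] at hirr
    exact hirr
  obtain ⟨M, hMN, hpM, g, 𝔫, hg, h𝔫, hp𝔫, hgc⟩ := exists_lower_of_root_point hgeo hΔ hp2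
    hirr0 (hcond.sq_not_dvd P.pp) hA
    (fun _ _ _ _ _ _ _ _ _ => exists_root_point hmult (S05.dvd_padicValInt_Δ P P.pp hp2) hp2) hmod'
  refine ⟨M, hMN, hpM, g, P.freyCurveInt, 𝔫, hg, ?_, h𝔫, hp𝔫, hgc⟩
  rw [heq]
  exact EC.Frobenius.isIntegralModelOf_map _

end Fermat.Agent.LevelLowerP
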