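import Fermat.Agent.LevelLowerP.Defs
import Mathlib
import Fermat.Agent.LevelLowerP.BranchRing

/-!
# Two expansions agreeing on a subfield over which the generators are residually simple roots

Every element is then congruent, to any order and along both branches at once, to an element of
the subfield; in particular both expansions see the same order and the same reduction.
-/

set_option autoImplicit false

noncomputable section

namespace Fermat.Agent.LevelLowerP

open DualNumber TrivSqZeroExt Polynomial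

namespace Branch

variable {O κ : Type*} [CommRing O] [IsDomain O] [Field κ] (B : Branch O κ)
  {K : Type*} [Field K] [Algebra O K] [IsFractionRing O K]

/-- Divisibility by `ϖ ^ n` along the branch. -/
def BGe (n : ℤ) (x : K) : Prop := x = 0 ∨ n ≤ B.ord x

variable {B}

lemma bGe_zero (n : ℤ) : B.BGe n (0 : K) := Or.inl rfl

lemma ord_neg' {x : K} (hx : x ≠ 0) : B.ord (-x) = B.ord x := by
  have h1 : B.ord (-1 : K) = 0 := by
    have h := B.ord_mul (neg_ne_zero.2 (one_ne_zero (α := K))) (neg_ne_zero.2 one_ne_zero)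
    rw [neg_mul_neg, one_mul, B.ord_one] at h
    omega
  rw [← neg_one_mul, B.ord_mul (neg_ne_zero.2 one_ne_zero) hx, h1, zero_add]

lemma BGe.add {n : ℤ} {x y : K} (hx : B.BGe n x) (hy : B.BGe n y) : B.BGe n (x + y) := by
  rcases eq_or_ne x 0 with rfl | hx0
  · rwa [zero_add]
  rcases eq_or_ne y 0 with rfl | hy0
  · rwa [add_zero]
  rcases eq_or_ne (x + y) 0 with h | h
  · exact Or.inl h
  exact Or.inr ((le_min (hx.resolve_left hx0) (hy.resolve_left hy0)).trans
    (B.min_ord_le_ord_add hx0 hy0 h))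

lemma BGe.neg {n : ℤ} {x : K} (hx : B.BGe n x) : B.BGe n (-x) := by
  rcases eq_or_ne x 0 with rfl | hx0
  · rwa [neg_zero]
  exact Or.inr ((hx.resolve_left hx0).trans_eq (ord_neg' hx0).symm)

lemma BGe.sub {n : ℤ} {x y : K} (hx : B.BGe n x) (hy : B.BGe n y) : B.BGe n (x - y) := by
  rw [sub_eq_add_neg]; exact hx.add hy.neg

lemma BGe.mul {n m : ℤ} {x y : K} (hx : B.BGe n x) (hy : B.BGe m y) : B.BGe (n + m) (x * y) := by
  rcases eq_or_ne x 0 with rfl | hx0
  · rw [zero_mul]; exact bGe_zero _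
  rcases eq_or_ne y 0 with rfl | hy0
  · rw [mul_zero]; exact bGe_zero _
  exact Or.inr (by
    rw [B.ord_mul hx0 hy0]; exact add_le_add (hx.resolve_left hx0) (hy.resolve_left hy0))

lemma BGe.mono {n m : ℤ} {x : K} (h : B.BGe n x) (hmn : m ≤ n) : B.BGe m x :=
  h.imp_right hmn.trans

lemma bGe_ord (x : K) : B.BGe (B.ord x) x := Or.inr le_rfl

lemma mem_intRing_iff_bGe {x : K} : x ∈ B.intRing K ↔ B.BGe 0 x := B.isInt_iff

lemma bGe_zero_pow (n : ℕ) {x : K} (hx : B.BGe 0 x) : B.BGe 0 (x ^ n) :=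
  mem_intRing_iff_bGe.1 (pow_mem (mem_intRing_iff_bGe.2 hx) n)

lemma ord_eq_of_bGe_sub {x y : K} {n : ℤ} (hy : y ≠ 0) (hn : B.ord y < n)
    (h : B.BGe n (x - y)) : x ≠ 0 ∧ B.ord x = B.ord y := by
  have hx : x ≠ 0 := fun e => by
    rw [e, zero_sub] at h
    have := h.resolve_left (neg_ne_zero.2 hy)
    rw [ord_neg' hy] at this
    omega
  refine ⟨hx, ?_⟩
  rcases eq_or_ne (x - y) 0 with e | e
  · rw [sub_eq_zero.1 e]
  rcases lt_trichotomy (B.ord x) (B.ord y) with hlt | heq | hgt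
  · have h1 : B.BGe (min n (B.ord y)) ((x - y) + y) :=
      (h.mono (min_le_left _ _)).add ((bGe_ord y).mono (min_le_right _ _))
    rw [sub_add_cancel] at h1
    have := h1.resolve_left hx
    omega
  · exact heq
  · have h1 : B.BGe (min n (B.ord x)) (x - (x - y)) :=
      ((bGe_ord x).mono (min_le_right _ _)).sub (h.mono (min_le_left _ _))
    rw [sub_sub_cancel] at h1
    have := h1.resolve_left hy
    omega

/-- Elements congruent modulo two more powers of `ϖ` than their order have the same reduction and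
derivative. -/
lemma sp_eq_of_bGe_sub {x y : K} (hy : y ≠ 0) (h : B.BGe (B.ord y + 2) (x - y)) :
    B.sp x = B.sp y := by
  rcases eq_or_ne (x - y) 0 with e | e
  · rw [sub_eq_zero.1 e]
  obtain ⟨hx, -⟩ := ord_eq_of_bGe_sub hy (by omega) h
  set z := (x - y) * y⁻¹ with hz
  have hz0 : z ≠ 0 := mul_ne_zero e (inv_ne_zero hy)
  have hordz : 2 ≤ B.ord z := by
    have := h.resolve_left e
    rw [hz, B.ord_mul e (inv_ne_zero hy), B.ord_inv hy]
    omega
  obtain ⟨s, t, hs, ht, e'⟩ := B.isRepr_ord hz0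
  obtain ⟨m, hm⟩ := Int.eq_ofNat_of_zero_le (show 0 ≤ B.ord z - 2 by omega)
  have hr : B.IsRepr 0 (t + B.ϖ ^ (m + 2) * s) t (1 + z) := by
    refine ⟨?_, ht, ?_⟩
    · rw [map_add, map_mul, map_pow, B.res_ϖ, zero_pow (by omega), zero_mul, add_zero]
      exact ht
    · rw [zpow_zero, one_mul, map_add, map_mul, map_pow, e',
        show B.ord z = ((m + 2 : ℕ) : ℤ) by push_cast; omega, zpow_natCast]
      have := algebraMap_ne_zero (L := K) (B.ne_zero_of_res ht)
      field_simp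
      try ring
  have hone : B.sp (1 + z) = 1 := by
    rw [hr.sp_eq, map_add, map_mul, map_pow]
    have h2 : B.δ B.ϖ ^ 2 = 0 := by
      ext
      · simp [pow_two, B.fst_ϖ]
      · simp [pow_two, B.fst_ϖ]
    rw [pow_add, h2, mul_zero, zero_mul, add_zero]
    exact TrivSqZeroExt.mul_inv_cancel ht
  have hxy : x = y * (1 + z) := by rw [hz]; field_simp; ring
  rw [hxy, B.sp_mul hy (right_ne_zero_of_mul (hxy ▸ hx)), hone, mul_one]

end Branch

section Pair

variable {k F L κ : Type*} [Field k] [Field F] [Field L] [Field κ] [Algebra k κ]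

/-- An expansion of `L` whose restriction to `F` computes given order and reduction data. -/
structure Expn (incl : F →+* L) (ord₀ : F → ℤ) (sp₀ : F → DualNumber κ)
    (O : Type*) [CommRing O] [IsDomain O] (κ' : Type*) [Field κ'] where
  /-- the branch -/
  B : Branch O κ'
  /-- the expansion -/
  ι : L →+* FractionRing O
  /-- the expansion of the reduced curve -/
  e : κ →+* κ'
  ord_eq : ∀ y, y ≠ 0 → B.ord (ι (incl y)) = ord₀ y
  sp_eq : ∀ y, y ≠ 0 → B.sp (ι (incl y)) = dualMap e (sp₀ y)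

namespace Expn

variable {incl : F →+* L} {ord₀ : F → ℤ} {sp₀ : F → DualNumber κ}
  {O : Type*} [CommRing O] [IsDomain O] {κ' : Type*} [Field κ']
  {O₂ : Type*} [CommRing O₂] [IsDomain O₂] {κ₂ : Type*} [Field κ₂]
  (E : Expn incl ord₀ sp₀ O κ') (E₂ : Expn incl ord₀ sp₀ O₂ κ₂)

/-- Elements approximated by `F` along both expansions at once. -/
def Approx (x : L) : Prop :=
  ∀ n : ℕ, ∃ y : F, E.B.BGe n (E.ι x - E.ι (incl y)) ∧ E₂.B.BGe n (E₂.ι x - E₂.ι (incl y))

lemma approx_incl (y : F) : Approx E E₂ (incl y) :=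
  fun _ => ⟨y, by rw [sub_self]; exact Or.inl rfl, by rw [sub_self]; exact Or.inl rfl⟩

variable {E E₂}

lemma Approx.add {x x' : L} (h : Approx E E₂ x) (h' : Approx E E₂ x') : Approx E E₂ (x + x') := by
  intro n
  obtain ⟨y, hy, hy₂⟩ := h n
  obtain ⟨y', hy', hy₂'⟩ := h' n
  refine ⟨y + y', ?_, ?_⟩
  · simpa [map_add, add_sub_add_comm] using hy.add hy'
  · simpa [map_add, add_sub_add_comm] using hy₂.add hy₂'

lemma Approx.neg {x : L} (h : Approx E E₂ x) : Approx E E₂ (-x) := by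
  intro n
  obtain ⟨y, hy, hy₂⟩ := h n
  exact ⟨-y, by simpa [map_neg, sub_neg_eq_add, add_comm, sub_eq_add_neg] using hy.neg,
    by simpa [map_neg, sub_neg_eq_add, add_comm, sub_eq_add_neg] using hy₂.neg⟩

/-- A nonzero approximated element has, along both expansions, the order and reduction of one
element of `F`. -/
theorem Approx.exists_eq {x : L} (hx : x ≠ 0) (h : Approx E E₂ x) :
    ∃ y : F, y ≠ 0 ∧ E.B.ord (E.ι x) = ord₀ y ∧ E₂.B.ord (E₂.ι x) = ord₀ y ∧
      E.B.sp (E.ι x) = dualMap E.e (sp₀ y) ∧ E₂.B.sp (E₂.ι x) = dualMap E₂.e (sp₀ y) := by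
  have hx1 : E.ι x ≠ 0 := (_root_.map_ne_zero _).2 hx
  have hx2 : E₂.ι x ≠ 0 := (_root_.map_ne_zero _).2 hx
  set n := (max (E.B.ord (E.ι x)) (E₂.B.ord (E₂.ι x)) + 2).toNat with hn
  obtain ⟨y, hy, hy₂⟩ := h n
  have h1 := Int.self_le_toNat (max (E.B.ord (E.ι x)) (E₂.B.ord (E₂.ι x)) + 2)
  rw [← hn] at h1
  have hy0 : y ≠ 0 := fun e => by
    rw [e, map_zero, map_zero, sub_zero] at hy
    have := hy.resolve_left hx1
    omega
  have hy1 : E.ι (incl y) ≠ 0 := (_root_.map_ne_zero _).2 ((_root_.map_ne_zero _).2 hy0)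
  have hy2 : E₂.ι (incl y) ≠ 0 := (_root_.map_ne_zero _).2 ((_root_.map_ne_zero _).2 hy0)
  have hy' : E.B.BGe n (E.ι (incl y) - E.ι x) := by simpa using hy.neg
  have hy₂' : E₂.B.BGe n (E₂.ι (incl y) - E₂.ι x) := by simpa using hy₂.neg
  obtain ⟨-, o1⟩ := Branch.ord_eq_of_bGe_sub hx1 (by omega) hy'
  obtain ⟨-, o2⟩ := Branch.ord_eq_of_bGe_sub hx2 (by omega) hy₂'
  refine ⟨y, hy0, o1.symm.trans (E.ord_eq y hy0), o2.symm.trans (E₂.ord_eq y hy0), ?_, ?_⟩
  · rw [← E.sp_eq y hy0]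
    exact Branch.sp_eq_of_bGe_sub hy1 (hy.mono (by omega))
  · rw [← E₂.sp_eq y hy0]
    exact Branch.sp_eq_of_bGe_sub hy2 (hy₂.mono (by omega))

lemma Approx.mul {x x' : L} (h : Approx E E₂ x) (h' : Approx E E₂ x') :
    Approx E E₂ (x * x') := by
  rcases eq_or_ne x 0 with rfl | hx
  · rw [zero_mul]; simpa using approx_incl E E₂ 0
  rcases eq_or_ne x' 0 with rfl | hx'
  · rw [mul_zero]; simpa using approx_incl E E₂ 0
  obtain ⟨z, -, o1, o2, -, -⟩ := h.exists_eq hx
  obtain ⟨z', -, o1', o2', -, -⟩ := h'.exists_eq hx'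
  intro n
  obtain ⟨N, hN⟩ : ∃ N : ℕ, (n : ℤ) - ord₀ z ≤ N ∧ (n : ℤ) - ord₀ z' ≤ N ∧ ord₀ z' < N ∧
      ord₀ z < N :=
    ⟨(|ord₀ z| + |ord₀ z'| + n + 1).toNat, by
      have := Int.self_le_toNat (|ord₀ z| + |ord₀ z'| + n + 1)
      have := abs_nonneg (ord₀ z); have := abs_nonneg (ord₀ z')
      have := le_abs_self (ord₀ z); have := le_abs_self (ord₀ z')
      have := neg_abs_le (ord₀ z); have := neg_abs_le (ord₀ z')
      omega⟩
  obtain ⟨y, hy, hy₂⟩ := h N
  obtain ⟨y', hy', hy₂'⟩ := h' N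
  refine ⟨y * y', ?_, ?_⟩
  · obtain ⟨-, oy⟩ := Branch.ord_eq_of_bGe_sub (B := E.B) ((_root_.map_ne_zero E.ι).2 hx')
      (show E.B.ord (E.ι x') < N by omega) (show E.B.BGe N (E.ι (incl y') - E.ι x') by
        simpa using hy'.neg)
    rw [map_mul, map_mul, map_mul, show E.ι x * E.ι x' - E.ι (incl y) * E.ι (incl y') =
      E.ι x * (E.ι x' - E.ι (incl y')) + (E.ι x - E.ι (incl y)) * E.ι (incl y') by ring]
    exact (((Branch.bGe_ord _).mul hy').mono (by omega)).add
      ((hy.mul (Branch.bGe_ord _)).mono (by omega))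
  · obtain ⟨-, oy⟩ := Branch.ord_eq_of_bGe_sub (B := E₂.B) ((_root_.map_ne_zero E₂.ι).2 hx')
      (show E₂.B.ord (E₂.ι x') < N by omega) (show E₂.B.BGe N (E₂.ι (incl y') - E₂.ι x') by
        simpa using hy₂'.neg)
    rw [map_mul, map_mul, map_mul, show E₂.ι x * E₂.ι x' - E₂.ι (incl y) * E₂.ι (incl y') =
      E₂.ι x * (E₂.ι x' - E₂.ι (incl y')) + (E₂.ι x - E₂.ι (incl y)) * E₂.ι (incl y') by ring]
    exact (((Branch.bGe_ord _).mul hy₂').mono (by omega)).add
      ((hy₂.mul (Branch.bGe_ord _)).mono (by omega))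

lemma Approx.inv {x : L} (h : Approx E E₂ x) : Approx E E₂ x⁻¹ := by
  rcases eq_or_ne x 0 with rfl | hx
  · rw [inv_zero]; simpa using approx_incl E E₂ 0
  obtain ⟨z, -, o1, o2, -, -⟩ := h.exists_eq hx
  intro n
  obtain ⟨N, hN⟩ : ∃ N : ℕ, (n : ℤ) + 2 * ord₀ z ≤ N ∧ ord₀ z < N :=
    ⟨(2 * |ord₀ z| + n + 1).toNat, by
      have := Int.self_le_toNat (2 * |ord₀ z| + n + 1)
      have := abs_nonneg (ord₀ z); have := le_abs_self (ord₀ z)
      omega⟩
  obtain ⟨y, hy, hy₂⟩ := h N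
  refine ⟨y⁻¹, ?_, ?_⟩
  · have hx1 : E.ι x ≠ 0 := (_root_.map_ne_zero _).2 hx
    obtain ⟨hy1, oy⟩ := Branch.ord_eq_of_bGe_sub (B := E.B) hx1
      (show E.B.ord (E.ι x) < N by omega) (show E.B.BGe N (E.ι (incl y) - E.ι x) by
        simpa using hy.neg)
    rw [map_inv₀, map_inv₀, map_inv₀, inv_sub_inv hx1 hy1, div_eq_mul_inv]
    refine ((show E.B.BGe N (E.ι (incl y) - E.ι x) by simpa using hy.neg).mul
      (Branch.bGe_ord _)).mono ?_
    rw [E.B.ord_inv (mul_ne_zero hx1 hy1), E.B.ord_mul hx1 hy1]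
    omega
  · have hx1 : E₂.ι x ≠ 0 := (_root_.map_ne_zero _).2 hx
    obtain ⟨hy1, oy⟩ := Branch.ord_eq_of_bGe_sub (B := E₂.B) hx1
      (show E₂.B.ord (E₂.ι x) < N by omega) (show E₂.B.BGe N (E₂.ι (incl y) - E₂.ι x) by
        simpa using hy₂.neg)
    rw [map_inv₀, map_inv₀, map_inv₀, inv_sub_inv hx1 hy1, div_eq_mul_inv]
    refine ((show E₂.B.BGe N (E₂.ι (incl y) - E₂.ι x) by simpa using hy₂.neg).mul
      (Branch.bGe_ord _)).mono ?_
    rw [E₂.B.ord_inv (mul_ne_zero hx1 hy1), E₂.B.ord_mul hx1 hy1]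
    omega

variable (E E₂)

/-- The approximated elements. -/
def approxField : Subfield L where
  carrier := {x | Approx E E₂ x}
  zero_mem' := by simpa using approx_incl E E₂ 0
  one_mem' := by simpa using approx_incl E E₂ 1
  add_mem' := Approx.add
  neg_mem' := Approx.neg
  mul_mem' := Approx.mul
  inv_mem' _ := Approx.inv

/-- Data making an element a residually simple root over `F`, seen by an expansion. -/
structure RootAt (g : L) (P : F[X]) (y₀ : F) : Prop where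
  coeff_ge : ∀ i, E.B.BGe 0 (E.ι (incl (P.coeff i)))
  start_ge : E.B.BGe 0 (E.ι (incl y₀))
  near : E.B.BGe 1 (E.ι g - E.ι (incl y₀))
  deriv_ne : incl (P.derivative.eval y₀) ≠ 0
  deriv_ord : E.B.ord (E.ι (incl (P.derivative.eval y₀))) = 0

variable {E E₂}

lemma RootAt.exists_factor {g : L} {P : F[X]} {y₀ : F} (hg : P.eval₂ incl g = 0)
    (hR : RootAt E g P y₀) {y : F} (hy : E.B.BGe 1 (E.ι (incl y) - E.ι (incl y₀))) :
    ∃ Q, E.B.BGe 1 (Q - E.ι (incl (P.derivative.eval y₀))) ∧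
      E.ι (incl (P.eval y)) = (E.ι (incl y) - E.ι g) * Q := by
  have h0 : E.B.BGe 0 (E.ι (incl y)) := by
    have := (hy.mono (by omega : (0 : ℤ) ≤ 1)).add hR.start_ge
    rwa [sub_add_cancel] at this
  have hgi : E.B.BGe 0 (E.ι g) := by
    have := (hR.near.mono (by omega : (0 : ℤ) ≤ 1)).add hR.start_ge
    rwa [sub_add_cancel] at this
  set ψ := E.ι.comp incl
  let R := E.B.intRing (FractionRing O)
  have hlift : P.map ψ ∈ Polynomial.lifts R.subtype := by
    rw [Polynomial.lifts_iff_coeff_lifts]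
    intro i
    rw [coeff_map]
    exact ⟨⟨_, Branch.mem_intRing_iff_bGe.2 (hR.coeff_ge i)⟩, rfl⟩
  obtain ⟨Q', hQ'⟩ := (Polynomial.mem_lifts _).1 hlift
  let a : R := ⟨E.ι g, Branch.mem_intRing_iff_bGe.2 hgi⟩
  let b : R := ⟨E.ι (incl y), Branch.mem_intRing_iff_bGe.2 h0⟩
  let b₀ : R := ⟨E.ι (incl y₀), Branch.mem_intRing_iff_bGe.2 hR.start_ge⟩
  have eev : ∀ (z : F) (zR : R), (zR : FractionRing O) = ψ z → ∀ S : R[X],
      ∀ T : F[X], S.map R.subtype = T.map ψ →
      ((S.eval zR : R) : FractionRing O) = ψ (T.eval z) := by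
    intro z zR hz S T hST
    rw [← Polynomial.eval₂_at_apply, ← Polynomial.eval_map, ← hST, ← hz]
    exact (Polynomial.eval_map_apply R.subtype zR).symm
  obtain ⟨q, hq⟩ := Polynomial.binomExpansion Q' a (b - a)
  rw [add_sub_cancel] at hq
  have hga : ((Q'.eval a : R) : FractionRing O) = 0 := by
    have : ((Q'.eval a : R) : FractionRing O) = (P.map ψ).eval (E.ι g) := by
      rw [← hQ']
      exact (Polynomial.eval_map_apply R.subtype a).symm
    rw [this, Polynomial.eval_map, show ψ = E.ι.comp incl from rfl, ← Polynomial.hom_eval₂, hg,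
      map_zero]
  refine ⟨((Q'.derivative.eval a + q * (b - a) : R) : FractionRing O), ?_, ?_⟩
  · obtain ⟨d, hd⟩ := Polynomial.sub_dvd_eval_sub a b₀ Q'.derivative
    have hd' : ((Q'.derivative.eval a : R) : FractionRing O) - ψ (P.derivative.eval y₀) =
        (E.ι g - E.ι (incl y₀)) * (d : FractionRing O) := by
      rw [← eev y₀ b₀ rfl Q'.derivative P.derivative (by
        rw [← Polynomial.derivative_map, hQ', Polynomial.derivative_map])]
      have := congrArg (Subtype.val : R → FractionRing O) hd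
      simpa [a, b₀] using this
    have hnear : E.B.BGe 1 (E.ι (incl y) - E.ι g) := by
      have := hy.sub hR.near
      rwa [sub_sub_sub_cancel_right] at this
    have : ((Q'.derivative.eval a + q * (b - a) : R) : FractionRing O) -
        ψ (P.derivative.eval y₀) = (E.ι g - E.ι (incl y₀)) * (d : FractionRing O) +
          (q : FractionRing O) * (E.ι (incl y) - E.ι g) := by
      rw [← hd']; push_cast; ring
    rw [show E.ι (incl (P.derivative.eval y₀)) = ψ (P.derivative.eval y₀) from rfl, this]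
    exact ((hR.near.mul (Branch.mem_intRing_iff_bGe.1 d.2)).mono (by omega)).add
      (((Branch.mem_intRing_iff_bGe.1 q.2).mul hnear).mono (by omega))
  · rw [show E.ι (incl (P.eval y)) = ψ (P.eval y) from rfl,
      ← eev y b rfl Q' P hQ', hq]
    push_cast
    rw [hga]
    simp only [a, b]
    ring

lemma RootAt.near_of_eval_ge {g : L} {P : F[X]} {y₀ : F} (hg : P.eval₂ incl g = 0)
    (hR : RootAt E g P y₀) {y : F} (hy : E.B.BGe 1 (E.ι (incl y) - E.ι (incl y₀))) {n : ℤ}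
    (hn : E.B.BGe n (E.ι (incl (P.eval y)))) : E.B.BGe n (E.ι g - E.ι (incl y)) := by
  obtain ⟨Q, hQ, e⟩ := hR.exists_factor hg hy
  obtain ⟨hQ0, oQ⟩ := Branch.ord_eq_of_bGe_sub ((_root_.map_ne_zero _).2 hR.deriv_ne)
    (by rw [hR.deriv_ord]; omega) hQ
  rw [hR.deriv_ord] at oQ
  rw [e] at hn
  rcases eq_or_ne (E.ι (incl y) - E.ι g) 0 with h0 | h0
  · rw [← neg_sub, h0, neg_zero]; exact Or.inl rfl
  have := hn.resolve_left (mul_ne_zero h0 hQ0)
  rw [E.B.ord_mul h0 hQ0, oQ, add_zero] at this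
  rw [← neg_sub]
  exact Branch.BGe.neg (Or.inr this)

theorem newton_step {g : L} {P : F[X]} {y₀ : F} (hR : RootAt E g P y₀)
    (hg : P.eval₂ incl g = 0) {n : ℕ} {y : F}
    (h1 : E.B.BGe 1 (E.ι (incl y) - E.ι (incl y₀)))
    (h2 : E.B.BGe (n + 1) (E.ι (incl (P.eval y)))) :
    E.B.BGe 1 (E.ι (incl (y - P.eval y * (P.derivative.eval y₀)⁻¹)) - E.ι (incl y₀)) ∧
    E.B.BGe (n + 1 + 1 : ℕ) (E.ι (incl (P.eval (y - P.eval y * (P.derivative.eval y₀)⁻¹)))) := by
  set u := P.derivative.eval y₀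
  set U := E.ι (incl u)
  have hU : U ≠ 0 := (_root_.map_ne_zero _).2 hR.deriv_ne
  have hUi : E.B.BGe 0 U⁻¹ := Or.inr (by rw [E.B.ord_inv hU, hR.deriv_ord]; rfl)
  set y' := y - P.eval y * u⁻¹
  have e' : E.ι (incl y') = E.ι (incl y) - E.ι (incl (P.eval y)) * U⁻¹ := by
    simp [y', U]
  have h1' : E.B.BGe 1 (E.ι (incl y') - E.ι (incl y₀)) := by
    rw [e', sub_right_comm]
    exact h1.sub ((h2.mul hUi).mono (by omega))
  refine ⟨h1', ?_⟩
  obtain ⟨Q, hQ, e⟩ := hR.exists_factor hg h1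
  obtain ⟨Q', hQ', e''⟩ := hR.exists_factor hg h1'
  have hd : E.B.BGe (n + 1) (E.ι (incl y) - E.ι g) := by
    simpa using (hR.near_of_eval_ge hg h1 h2).neg
  have hQ'i : E.B.BGe 0 Q' := by
    have := (hQ'.mono (by omega : (0 : ℤ) ≤ 1)).add
      (show E.B.BGe 0 U from Or.inr (by rw [hR.deriv_ord]))
    rwa [sub_add_cancel] at this
  rw [e'', e', e, show E.ι (incl y) - (E.ι (incl y) - E.ι g) * Q * U⁻¹ - E.ι g =
    (E.ι (incl y) - E.ι g) * (-(Q - U)) * U⁻¹ by field_simp; ring]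
  exact (((hd.mul hQ.neg).mul hUi).mul hQ'i).mono (by push_cast; omega)


/-- A residually simple root is approximated by Newton iteration inside `F`. -/
theorem approx_of_root {g : L} {P : F[X]} {y₀ : F} (hg : P.eval₂ incl g = 0)
    (hR : RootAt E g P y₀) (hR₂ : RootAt E₂ g P y₀) : Approx E E₂ g := by
  have hstart : E.B.BGe 1 (E.ι (incl (P.eval y₀))) ∧ E₂.B.BGe 1 (E₂.ι (incl (P.eval y₀))) := by
    refine ⟨?_, ?_⟩
    · obtain ⟨Q, hQ, e⟩ := hR.exists_factor hg (y := y₀) (by rw [sub_self]; exact Or.inl rfl)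
      obtain ⟨-, oQ⟩ := Branch.ord_eq_of_bGe_sub ((_root_.map_ne_zero _).2 hR.deriv_ne)
        (by rw [hR.deriv_ord]; omega) hQ
      rw [e, ← neg_sub]
      exact (hR.near.neg.mul (Branch.bGe_ord Q)).mono (by rw [oQ, hR.deriv_ord]; omega)
    · obtain ⟨Q, hQ, e⟩ := hR₂.exists_factor hg (y := y₀) (by rw [sub_self]; exact Or.inl rfl)
      obtain ⟨-, oQ⟩ := Branch.ord_eq_of_bGe_sub ((_root_.map_ne_zero _).2 hR₂.deriv_ne)
        (by rw [hR₂.deriv_ord]; omega) hQ
      rw [e, ← neg_sub]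
      exact (hR₂.near.neg.mul (Branch.bGe_ord Q)).mono (by rw [oQ, hR₂.deriv_ord]; omega)
  suffices H : ∀ n : ℕ, ∃ y : F,
      (E.B.BGe 1 (E.ι (incl y) - E.ι (incl y₀)) ∧ E.B.BGe (n + 1) (E.ι (incl (P.eval y)))) ∧
      (E₂.B.BGe 1 (E₂.ι (incl y) - E₂.ι (incl y₀)) ∧
        E₂.B.BGe (n + 1) (E₂.ι (incl (P.eval y)))) by
    intro n
    obtain ⟨y, ⟨h1, h2⟩, h3, h4⟩ := H n
    exact ⟨y, (hR.near_of_eval_ge hg h1 h2).mono (by omega),
      (hR₂.near_of_eval_ge hg h3 h4).mono (by omega)⟩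
  intro n
  induction n with
  | zero =>
    exact ⟨y₀, ⟨by rw [sub_self]; exact Or.inl rfl, by simpa using hstart.1⟩,
      ⟨by rw [sub_self]; exact Or.inl rfl, by simpa using hstart.2⟩⟩
  | succ n ih =>
    obtain ⟨y, ⟨h1, h2⟩, h3, h4⟩ := ih
    set u := P.derivative.eval y₀
    refine ⟨y - P.eval y * u⁻¹, ?_, ?_⟩
    · exact newton_step hR hg h1 h2
    · exact newton_step hR₂ hg h3 h4
/-- **Comparison of two expansions**: if generators of `L` over `F` are residually simple roots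
seen by both expansions, every element has the order and reduction of an element of `F`. -/
theorem exists_eq_of_roots {gens : Set L} (hgen : Subfield.closure (Set.range incl ∪ gens) = ⊤)
    (hroot : ∀ g ∈ gens, ∃ P : F[X], ∃ y₀ : F,
      P.eval₂ incl g = 0 ∧ RootAt E g P y₀ ∧ RootAt E₂ g P y₀)
    {x : L} (hx : x ≠ 0) :
    ∃ y : F, y ≠ 0 ∧ E.B.ord (E.ι x) = ord₀ y ∧ E₂.B.ord (E₂.ι x) = ord₀ y ∧
      E.B.sp (E.ι x) = dualMap E.e (sp₀ y) ∧ E₂.B.sp (E₂.ι x) = dualMap E₂.e (sp₀ y) := by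
  have hle : Subfield.closure (Set.range incl ∪ gens) ≤ approxField E E₂ := by
    rw [Subfield.closure_le]
    rintro z (⟨y, rfl⟩ | hz)
    · exact approx_incl E E₂ y
    · obtain ⟨P, y₀, hP, h1, h2⟩ := hroot z hz
      exact approx_of_root hP h1 h2
  rw [hgen] at hle
  have hA : Approx E E₂ x := hle (Subfield.mem_top x)
  exact hA.exists_eq hx

end Expn

end Pair

end Fermat.Agent.LevelLowerP
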