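import Fermat.Agent.LevelLowerP.GeoPoints
import Fermat.Agent.LevelLowerP.GeoBase
import Fermat.Agent.Reduction.Level.Places

/-!
# Cuspidal points of the component at infinity

At level `M` the cusp `i` is seen by the parameter `T = q^(1/M)`: `j ↦ j(T^M)` and `j(Mτ)` goes to
its conjugate, with coefficients in the unramified subring. Over level `M`, level `Mp` is generated
by `j(pτ)`, and the root `j(T^(pM))` of Kronecker's equation lies on the component at infinity.
-/

set_option autoImplicit false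

noncomputable section

namespace Fermat.Agent.LevelLowerP

open Polynomial ModularCurve Fermat.Agent.Igusa AlgebraicCurve TrivSqZeroExt DualNumber
open scoped LaurentSeries

section DiscSeries

variable {p : ℕ} {R k : Type*} [CommRing R] [IsDomain R] [IsDiscreteValuationRing R] [Field k]
  (S : Setup p R k)

theorem res_X_pow_ne_zero (a : ℕ) : S.discBranch.res (PowerSeries.X ^ a) ≠ 0 := by
  rw [map_pow]
  refine pow_ne_zero a ?_
  show (S.δS PowerSeries.X).fst ≠ 0
  rw [S.δS_X, TrivSqZeroExt.fst_inl]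
  exact HahnSeries.single_ne_zero one_ne_zero

/-- Power series as integral functions on the disc. -/
def psInt : PowerSeries R →+* S.discBranch.intRing (FractionRing (PowerSeries R)) :=
  (algebraMap (PowerSeries R) (FractionRing (PowerSeries R))).codRestrict _
    fun o => S.discBranch.isInt_algebraMap o

theorem isUnit_psInt (y : Submonoid.powers (PowerSeries.X : PowerSeries R)) :
    IsUnit (psInt S y) := by
  obtain ⟨_, a, rfl⟩ := y
  have ht := res_X_pow_ne_zero S a
  have h0 : algebraMap (PowerSeries R) (FractionRing (PowerSeries R)) (PowerSeries.X ^ a) ≠ 0 :=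
    Branch.algebraMap_ne_zero (pow_ne_zero a PowerSeries.X_ne_zero)
  exact IsUnit.of_mul_eq_one ⟨(algebraMap _ _ (PowerSeries.X ^ a))⁻¹,
      ⟨1, PowerSeries.X ^ a, ht, by rw [inv_mul_cancel₀ h0, map_one]⟩⟩
    (Subtype.ext (mul_inv_cancel₀ h0))

/-- Laurent series with integral coefficients as functions on the disc. -/
def lsInt : LaurentSeries R →+* S.discBranch.intRing (FractionRing (PowerSeries R)) :=
  IsLocalization.lift (M := Submonoid.powers (PowerSeries.X : PowerSeries R)) (g := psInt S)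
    (isUnit_psInt S)

theorem lsInt_ofPowerSeries (P : PowerSeries R) :
    lsInt S (HahnSeries.ofPowerSeries ℤ R P) = psInt S P :=
  IsLocalization.lift_eq _ P

theorem toLS_lsInt (s : LaurentSeries R) :
    Setup.toLS R (lsInt S s : FractionRing (PowerSeries R)) =
      coeffMap (algebraMap R (FractionRing R)) s := by
  refine RingHom.congr_fun (f := ((Setup.toLS R).comp (Subring.subtype _)).comp (lsInt S))
    (IsLocalization.ringHom_ext (Submonoid.powers (PowerSeries.X : PowerSeries R))
      (RingHom.ext fun P => ?_)) s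
  show Setup.toLS R (lsInt S (HahnSeries.ofPowerSeries ℤ R P) : FractionRing (PowerSeries R)) =
    coeffMap (algebraMap R (FractionRing R)) (HahnSeries.ofPowerSeries ℤ R P)
  rw [lsInt_ofPowerSeries, coeffMap_ofPowerSeries]
  exact Setup.toLS_algebraMap P

/-- Series with coefficients killed by the derivation. -/
theorem intδ_lsInt {A : Type*} [CommRing A] (f : A →+* R) (g : A →+* k)
    (hf : ∀ a, S.δ (f a) = TrivSqZeroExt.inl (g a)) (s : LaurentSeries A) :
    S.discBranch.intδ (lsInt S (coeffMap f s)) = TrivSqZeroExt.inl (coeffMap g s) := by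
  refine RingHom.congr_fun (f := (S.discBranch.intδ.comp (lsInt S)).comp (coeffMap f))
    (g := (TrivSqZeroExt.inlHom (LaurentSeries k) (LaurentSeries k)).comp (coeffMap g))
    (IsLocalization.ringHom_ext (Submonoid.powers (PowerSeries.X : PowerSeries A))
      (RingHom.ext fun P => ?_)) s
  show S.discBranch.intδ (lsInt S (coeffMap f (HahnSeries.ofPowerSeries ℤ A P))) =
    TrivSqZeroExt.inl (coeffMap g (HahnSeries.ofPowerSeries ℤ A P))
  rw [coeffMap_ofPowerSeries, coeffMap_ofPowerSeries, lsInt_ofPowerSeries]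
  refine (S.discBranch.intδ_algebraMap (PowerSeries.map f P)).trans ?_
  refine TrivSqZeroExt.ext ?_ ?_
  · show (S.δS _).fst = _
    rw [S.fst_δS, TrivSqZeroExt.fst_inl]
    congr 1
    ext n
    simp [Setup.res_apply, hf]
  · show (S.δS _).snd = _
    rw [S.snd_δS, TrivSqZeroExt.snd_inl]
    convert map_zero (HahnSeries.ofPowerSeries ℤ k)
    ext n
    simp [hf]

/-- A series with unit leading coefficient is a unit times a power of the parameter. -/
theorem unitMulPow_lsInt {R' k' : Type} [CommRing R'] [IsDomain R'] [IsDiscreteValuationRing R']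
    [Field k'] (S' : Setup p R' k') {s : LaurentSeries R'} {n : ℤ} (hn : IsUnit (s.coeff n))
    (hlt : ∀ i < n, s.coeff i = 0) :
    UnitMulPow (lsInt S' s : FractionRing (PowerSeries R')) n := by
  set P : PowerSeries R' := PowerSeries.mk fun i => s.coeff (n + i)
  have hP : IsUnit P := PowerSeries.isUnit_iff_constantCoeff.2 (by
    rw [← PowerSeries.coeff_zero_eq_constantCoeff_apply, PowerSeries.coeff_mk, Nat.cast_zero,
      add_zero]
    exact hn)
  have hs : s = HahnSeries.single n (1 : R') * HahnSeries.ofPowerSeries ℤ R' P := by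
    ext i
    rw [HahnSeries.coeff_single_mul, one_mul]
    rcases lt_or_ge i n with hi | hi
    · rw [hlt i hi, ofPowerSeries_coeff_of_neg _ (by omega)]
    · obtain ⟨a, rfl⟩ : ∃ a : ℕ, i = n + a := ⟨(i - n).toNat, by omega⟩
      rw [add_sub_cancel_left, HahnSeries.ofPowerSeries_apply_coeff, PowerSeries.coeff_mk]
  refine ⟨hP.unit, (Setup.toLS R').injective ?_⟩
  rw [toLS_lsInt, hs, map_mul, coeffMap_single, map_one, coeffMap_ofPowerSeries, IsUnit.unit_spec,
    map_mul, map_zpow₀, Setup.toLS_algebraMap, Setup.toLS_algebraMap, PowerSeries.map_X,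
    HahnSeries.ofPowerSeries_X, mul_comm]
  congr 1
  obtain ⟨a, rfl | rfl⟩ := n.eq_nat_or_neg
  · rw [zpow_natCast, HahnSeries.single_pow]; simp
  · rw [zpow_neg, zpow_natCast, HahnSeries.single_pow]
    refine eq_inv_of_mul_eq_one_right ?_
    simp [HahnSeries.single_mul_single]

theorem UnitMulPow.mul {R' : Type} [CommRing R'] [IsDomain R'] [IsDiscreteValuationRing R']
    {x y : FractionRing (PowerSeries R')} {m n : ℤ} (hx : UnitMulPow x m) (hy : UnitMulPow y n) :
    UnitMulPow (x * y) (m + n) := by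
  obtain ⟨u, rfl⟩ := hx
  obtain ⟨v, rfl⟩ := hy
  refine ⟨u * v, ?_⟩
  rw [Units.val_mul, map_mul, zpow_add₀ (Branch.algebraMap_ne_zero PowerSeries.X_ne_zero)]
  ring

theorem coeff_qExpand_below {A : Type*} [CommRing A] (m : ℕ) [NeZero m] {s : LaurentSeries A}
    {n : ℤ} (hlt : ∀ i < n, s.coeff i = 0) : ∀ i < (m : ℤ) * n, (qExpand A m s).coeff i = 0 := by
  intro i hi
  by_cases hd : (m : ℤ) ∣ i
  · obtain ⟨l, rfl⟩ := hd
    rw [qExpand_coeff_mul, hlt l (lt_of_mul_lt_mul_left hi (Int.natCast_nonneg m))]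
  · exact qExpand_coeff_of_not_dvd m _ hd

theorem coeff_deltaR_below (A : Type*) [CommRing A] : ∀ i < (1 : ℤ), (deltaR A).coeff i = 0 :=
  fun i hi => by
    rw [deltaR, HahnSeries.coeff_single_mul, one_mul]
    exact ofPowerSeries_coeff_of_neg _ (by omega)

theorem coeff_deltaInvR_below (A : Type*) [CommRing A] :
    ∀ i < (-1 : ℤ), (deltaInvR A).coeff i = 0 := fun i hi => by
  rw [deltaInvR, HahnSeries.coeff_single_mul, one_mul]
  exact ofPowerSeries_coeff_of_neg _ (by omega)

theorem coeff_neg_one_deltaInvR (A : Type*) [CommRing A] : (deltaInvR A).coeff (-1) = 1 := by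
  rw [deltaInvR, HahnSeries.coeff_single_mul, one_mul, sub_self]
  show (HahnSeries.ofPowerSeries ℤ A _).coeff ((0 : ℕ) : ℤ) = 1
  rw [HahnSeries.ofPowerSeries_apply_coeff, PowerSeries.coeff_map]
  simp [constantCoeff_dedekindEtaUnitInv]

end DiscSeries

/-- A root of unity of exact order gives a map out of `ℤ[ζ_N]`, into any domain. -/
theorem exists_hom_Rz {A : Type*} [CommRing A] [IsDomain A] (N : ℕ) [NeZero N] {y : A}
    [NeZero (N : A)] (hy : IsPrimitiveRoot y N) : ∃ π : Rz N →+* A, π (zetaR N) = y := by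
  have hζ := zetaC_isPrimitiveRoot N
  have hint : IsIntegral ℤ (zetaC N) := hζ.isIntegral (NeZero.pos N)
  let pb := Algebra.adjoin.powerBasis' hint
  have hgen : pb.gen = zetaR N := Algebra.adjoin.powerBasis'_gen hint
  have hroot : aeval y (minpoly ℤ pb.gen) = 0 := by
    rw [hgen, ← minpoly.algHom_eq (Algebra.adjoin ℤ ({zetaC N} : Set ℂ)).val
      Subtype.val_injective (zetaR N)]
    show aeval y (minpoly ℤ (zetaC N)) = 0
    rw [← Polynomial.cyclotomic_eq_minpoly hζ (NeZero.pos N), aeval_def, ← eval_map,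
      Polynomial.map_cyclotomic]
    exact (Polynomial.isRoot_cyclotomic_iff.mpr hy)
  exact ⟨(pb.lift y hroot).toRingHom, by rw [← hgen]; exact pb.lift_gen y hroot⟩

/-- The modular equation of level `M` at the conjugates. -/
theorem jQ_conj (M : ℕ) [NeZero M] (i : Cst M) :
    (jQ M).eval₂ (eval₂RingHom (Int.castRingHom _) (jW (Rz M) M))
      (serHom (jFam (N := M) dvd_rfl i)) = 0 := by
  have hπ : IsPrimitiveRoot (iotaR M (zetaR M)) M := zetaC_isPrimitiveRoot M
  have h0 : (jQ M).eval₂ (eval₂RingHom (Int.castRingHom _) (jC ℂ M)) (jNC ℂ M) = 0 := by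
    apply (SubringClass.subtype (modularFunctionFieldFullC ℂ M)).injective
    have h := congrArg (coeffMap (Int.castRingHom ℂ)) (exists_jPoly M).choose_spec.2.2
    rw [map_zero, Polynomial.hom_eval₂, coeffMap_jqNModC] at h
    rw [map_zero, Polynomial.hom_eval₂, ← h]
    show (jQ M).eval₂ _ (jqNModC ℂ M) = _
    congr 1
    refine Polynomial.ringHom_ext (fun c => by simp) ?_
    simp [evq, coeffMap_jqModC, jC]
  have hinj : Function.Injective (coeffMap (iotaR M)) := fun u v huv => HahnSeries.ext
    (funext fun n => iotaR_injective M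
      (by simpa only [coeffMap_coeff] using congrArg (fun w => w.coeff n) huv))
  apply hinj
  have h := congrArg (Reduction.Level.sig (iotaR M) hπ i) h0
  rw [map_zero, Polynomial.hom_eval₂, Reduction.Level.sig_jNC] at h
  rw [map_zero, Polynomial.hom_eval₂, ← h]
  show _ = (jQ M).eval₂ _ (coeffMap (iotaR M) (serHom (jFam (N := M) dvd_rfl i)))
  congr 1
  refine Polynomial.ringHom_ext (fun c => by simp) ?_
  simp [Reduction.Level.sig_jC, coeffMap_jW]

/-- Over level `M`, `j(pτ)` generates level `Mp`, and expansions extend by any root of its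
equation. -/
theorem jp_generator (K : Type*) [Field K] [CharZero K] (M p : ℕ) [NeZero M] [Fact p.Prime]
    (hpM : ¬ p ∣ M) :
    Subfield.closure (Set.range (inclP (k := K) M p) ∪ {scaleP M p (jC K M)}) = ⊤ ∧
      ∀ {Ω : Type*} [Field Ω] (ι₀ : modularFunctionFieldFullC K M →+* Ω) (ρ : Ω),
        ((kQ p).map (eval₂RingHom (Int.castRingHom _) (jC K M))).eval₂ ι₀ ρ = 0 →
        ∃ f : modularFunctionFieldFullC K (M * p) →+* Ω,
          f.comp (inclP M p) = ι₀ ∧ f (scaleP M p (jC K M)) = ρ := by
  obtain ⟨η, σ, hη, hσ, hσn, hσs⟩ := exists_conjugates K M p hpM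
  set φ := algebraMap K (AlgebraicClosure K)
  set g := scaleP M p (jC K M)
  have hn : σ none g = qExpand _ (M * p * p) (jqModC (AlgebraicClosure K)) := by
    rw [hσn, coe_jpC, coeffMap_qExpand, coeffMap_jqModC, qExpand_qExpand]
  have hb : ∀ b, σ (some b) g =
      qExpand _ M (twist (η ^ (b : ℕ)) (jqModC (AlgebraicClosure K))) := fun b => by
    rw [hσs]
    exact congrArg (fun s => qExpand _ M (twist (η ^ (b : ℕ)) s)) (coeffMap_jqModC φ)
  have hlead : ∀ b : Fin p, (σ (some b) g).coeff ((M : ℤ) * (-1)) =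
      (((η ^ (b : ℕ)) ^ (-1 : ℤ) : (AlgebraicClosure K)ˣ) : AlgebraicClosure K) := fun b => by
    rw [hb, qExpand_coeff_mul, twist_coeff, coeff_jqModC_neg_one, mul_one]
  have hnone : (σ none g).coeff ((M : ℤ) * (-1)) = 0 := by
    rw [hn, qExpand_coeff_of_not_dvd]
    intro hd
    have h2 : M * p * p ∣ M := by
      rw [← Int.natCast_dvd_natCast]
      simpa using hd
    have h3 := Nat.le_of_dvd (NeZero.pos M) h2
    have h2p := (Fact.out : p.Prime).two_le
    have := NeZero.pos M
    nlinarith [Nat.mul_le_mul_left M (Nat.mul_le_mul h2p h2p)]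
  have hinj : Function.Injective fun o => σ o g := by
    rintro (_ | b) (_ | b') h
    all_goals
      have h1 := congrArg (fun s : LaurentSeries (AlgebraicClosure K) =>
        s.coeff ((M : ℤ) * (-1))) h
      simp only [hlead, hnone] at h1
    · rfl
    · exact absurd h1.symm (Units.ne_zero _)
    · exact absurd h1 (Units.ne_zero _)
    · have h2 : η ^ (b : ℕ) = η ^ (b' : ℕ) := by
        rw [← inv_inj, ← zpow_neg_one, ← zpow_neg_one]
        exact Units.ext h1
      exact congrArg some (Fin.ext (hη.pow_inj b.2 b'.2 (by simpa using congrArg Units.val h2)))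
  obtain ⟨h1, h2⟩ := generator_of_conj σ (((qExpand _ (M * p)).comp (coeffMap φ)).comp
    (SubringClass.subtype (modularFunctionFieldFullC K M))) hσ hinj (by simp)
  obtain ⟨hkm, hkd, -, -⟩ := (exists_kronecker p).choose_spec
  have hrel : ((kQ p).map (eval₂RingHom (Int.castRingHom _) (jC K M))).eval₂ (inclP M p) g = 0 := by
    rw [eval₂_map]
    refine Eq.trans ?_ (kQ_eval₂_eq_zero K M p)
    exact congrArg (fun f => (kQ p).eval₂ f g)
      (Polynomial.ringHom_ext (fun c => by simp) (by simp))
  exact ⟨h1, fun {Ω} _ ι₀ ρ hρ => (h2 ((kQ p).map (eval₂RingHom (Int.castRingHom _) (jC K M)))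
    (hkm.map _) (by rw [kQ, hkm.natDegree_map]; exact hkd) hrel).2 ι₀ ρ hρ⟩

/-- An expansion nonnegative exactly on the valuation ring of a place is a positive multiple of
its order. -/
theorem exists_order_eq_mul {k F : Type*} [Field k] [Field F] [Algebra k F] (v : Place k F)
    (e : F →+* LaurentSeries k)
    (h : ∀ y, y ≠ 0 → (y ∈ v.toValuationSubring ↔ 0 ≤ (e y).order)) :
    ∃ r : ℕ, 0 < r ∧ ∀ y, y ≠ 0 → (e y).order = r * v.ord y := by
  obtain ⟨t, ht, h1⟩ := FF.exists_uniformizer v
  have hmul : ∀ a b, a ≠ 0 → b ≠ 0 → (e (a * b)).order = (e a).order + (e b).order :=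
    fun a b ha hb => by
      rw [map_mul, HahnSeries.order_mul ((map_ne_zero e).2 ha) ((map_ne_zero e).2 hb)]
  have hzero : ∀ z, z ≠ 0 → v.ord z = 0 → (e z).order = 0 := fun z hz hz0 => by
    have h2 := (h z hz).1 ((FF.mem_toValuationSubring_iff_ord v hz).2 hz0.ge)
    have h3 := (h z⁻¹ (inv_ne_zero hz)).1
      ((FF.mem_toValuationSubring_iff_ord v (inv_ne_zero hz)).2 (by rw [v.ord_inv, hz0, neg_zero]))
    have h4 := hmul z z⁻¹ hz (inv_ne_zero hz)
    rw [mul_inv_cancel₀ hz, map_one, HahnSeries.order_one] at h4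
    omega
  have hinv : ∀ z, z ≠ 0 → (e z⁻¹).order = -(e z).order := fun z hz => by
    have h4 := hmul z z⁻¹ hz (inv_ne_zero hz)
    rw [mul_inv_cancel₀ hz, map_one, HahnSeries.order_one] at h4
    omega
  have hpow : ∀ n : ℤ, (e (t ^ n)).order = n * (e t).order := fun n => by
    obtain ⟨a, rfl | rfl⟩ := n.eq_nat_or_neg
    · rw [zpow_natCast, map_pow, order_natPow ((map_ne_zero e).2 ht)]
    · rw [zpow_neg, zpow_natCast, hinv _ (pow_ne_zero a ht), map_pow,
        order_natPow ((map_ne_zero e).2 ht)]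
      ring
  have hpos : 0 < (e t).order := by
    by_contra hc
    have h2 := (h t⁻¹ (inv_ne_zero ht)).2 (by rw [hinv t ht]; omega)
    rw [FF.mem_toValuationSubring_iff_ord v (inv_ne_zero ht), v.ord_inv, h1] at h2
    omega
  obtain ⟨r, hr⟩ := Int.eq_ofNat_of_zero_le hpos.le
  refine ⟨r, by omega, fun y hy => ?_⟩
  have htn := zpow_ne_zero (-v.ord y) ht
  have h2 := hzero (y * t ^ (-v.ord y)) (mul_ne_zero hy htn)
    (by rw [v.ord_mul hy htn, v.ord_zpow, h1]; ring)
  rw [hmul y _ hy htn, hpow, hr] at h2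
  linarith

/-- Every cusp of the reduction has expansions making it a `CuspPt`. -/
theorem exists_cuspPt {p : ℕ} {R k : Type} [CommRing R] [IsDomain R] [IsDiscreteValuationRing R]
    [Field k] [CharP k p] [Fact p.Prime] (S : Setup p R k) (U : Unram S) (M : ℕ) [NeZero M]
    (hpM : ¬ p ∣ M) [IsAlgClosed k] [CharZero (FractionRing R)] [Algebra (ZMod p) k]
    [Algebra.IsAlgebraic (ZMod p) k] (v : Place k (modularFunctionFieldFullC k M))
    (hv : v.ord (jC k M) < 0) : Nonempty (CuspPt S M hpM v) := by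
  have := S.charZero
  set K := FractionRing R
  -- the roots of unity and the cusp
  obtain ⟨ζ, hζ, hζ'⟩ := U.exists_primitiveRoot M hpM
  have : NeZero (M : U.R₀) := ⟨fun h => NeZero.ne (M : R) (by
    have h1 := congrArg U.R₀.subtype h
    rwa [map_natCast, map_zero] at h1)⟩
  obtain ⟨π₀, hπ₀⟩ := exists_hom_Rz M hζ
  set πk : Rz M →+* k := U.res₀.comp π₀ with hπk
  set f₀ : Rz M →+* R := U.R₀.subtype.comp π₀ with hf₀
  have hk : IsPrimitiveRoot (πk (zetaR M)) M := by
    rw [hπk, RingHom.comp_apply, hπ₀]; exact hζ'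
  have hvmem : jC k M ∉ v.toValuationSubring := fun h => by
    have := FF.ord_nonneg_of_mem v h
    omega
  obtain ⟨i, rfl⟩ := Reduction.Level.exists_cuspPlace_eq πk hk v hvmem
  set e := Reduction.Level.sig πk hk i with he
  obtain ⟨r, hr0, hr⟩ := exists_order_eq_mul (Reduction.Level.cuspPlace πk hk i) e fun y hy => by
    rw [Reduction.Level.mem_cuspPlace, Reduction.poleLE_iff_order ((map_ne_zero e).2 hy),
      neg_zero]
  have heC : ∀ c, e (algebraMap k (modularFunctionFieldFullC k M) c) = HahnSeries.C c := fun c => by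
    rw [he, Reduction.Level.sig_algebraMap, algebraMap_laurentSeries_eq_single,
      HahnSeries.C_apply]
  -- level `M`
  set h : LaurentSeries (Rz M) →+* S.discBranch.intRing (FractionRing (PowerSeries R)) :=
    (lsInt S).comp (coeffMap f₀) with hh
  have hδ : ∀ s, S.discBranch.intδ (h s) = TrivSqZeroExt.inl (coeffMap πk s) :=
    intδ_lsInt S f₀ πk fun a => U.δ_eq (π₀ a)
  let f : R →+* S.discBranch.intRing (FractionRing (PowerSeries R)) :=
    (psInt S).comp PowerSeries.C
  obtain ⟨ι₀, hι₀, hι₀c, hι₀j, -⟩ := exists_compat S M hpM S.discBranch e f rfl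
    (fun c => by
      refine (S.discBranch.intδ_algebraMap (PowerSeries.C c)).trans ?_
      show S.δS (PowerSeries.C c) = _
      rw [δS_C]
      exact TrivSqZeroExt.ext (by simp [heC]) (by simp [heC]))
    (h (jW (Rz M) M)) (h (serHom (jFam (N := M) dvd_rfl i)))
    (by rw [hδ, coeffMap_jW, he, Reduction.Level.sig_jC])
    (by rw [hδ, he, Reduction.Level.sig_jNC]; rfl)
    (by
      have h1 := congrArg h (jQ_conj M i)
      rw [map_zero, Polynomial.hom_eval₂] at h1
      refine (Eq.trans ?_ h1)
      exact congrArg (fun q => (jQ M).eval₂ q _)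
        (Polynomial.ringHom_ext (fun c => by simp) (by simp)))
  -- level `M p`
  have : NeZero (p * M) := ⟨Nat.mul_ne_zero (Fact.out : p.Prime).ne_zero (NeZero.ne M)⟩
  set hZ : LaurentSeries ℤ →+* S.discBranch.intRing (FractionRing (PowerSeries R)) :=
    (lsInt S).comp (coeffMap (Int.castRingHom R)) with hhZ
  have hδZ : ∀ s, S.discBranch.intδ (hZ s) =
      TrivSqZeroExt.inl (coeffMap (Int.castRingHom k) s) :=
    intδ_lsInt S (Int.castRingHom R) (Int.castRingHom k) fun a => by
      rw [eq_intCast, map_intCast]; rfl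
  have hJ : h (jW (Rz M) M) = hZ (qExpand ℤ M (jqModC ℤ)) := by
    simp only [hh, hhZ, RingHom.comp_apply, coeffMap_jW, coeffMap_qExpand, coeffMap_jqModC]
    rfl
  rw [hJ] at hι₀j
  set ρ := hZ (qExpand ℤ (p * M) (jqModC ℤ)) with hρ
  obtain ⟨hclos, hext⟩ := jp_generator K M p hpM
  obtain ⟨ι, hι, hιp⟩ := hext ι₀ (ρ : FractionRing (PowerSeries R)) (by
    have h1 := congrArg (((Subring.subtype _).comp hZ).comp (qExpand ℤ M))
      (exists_kronecker p).choose_spec.2.2.1
    rw [map_zero, Polynomial.hom_eval₂] at h1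
    rw [Polynomial.eval₂_map, ← h1]
    show (kQ p).eval₂ _ _ = _
    congr 1
    · refine Polynomial.ringHom_ext (fun c => by simp) ?_
      simp [evq]
      exact hι₀j
    · rw [RingHom.comp_apply, RingHom.comp_apply, jqNModC, qExpand_qExpand, hρ]
      exact congrArg (fun s => ((hZ s : FractionRing (PowerSeries R))))
        (qExpand_congr (mul_comm p M) _))
  have hcompat : Compat S M S.discBranch (ι.comp (inclP M p)) e := hι ▸ hι₀
  have hg : jdp K M p 1 (one_dvd M) = scaleP M p (jC K M) :=
    congrArg (scaleP M p) (Subtype.ext (by rw [coe_jGen, qExpand_one_apply]; rfl))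
  have hj : ι (inclP M p (jC K M)) =
      (hZ (qExpand ℤ M (jqModC ℤ)) : FractionRing (PowerSeries R)) := by
    rw [← hι₀j, ← hι]; rfl
  have hnear : S.discBranch.BGe 1 (ι (jdp K M p 1 (one_dvd M)) -
      ι (inclP M p (jGen K M 1 (one_dvd M))) ^ p) := by
    have hj1 : jGen K M 1 (one_dvd M) = jC K M :=
      Subtype.ext (by rw [coe_jGen, qExpand_one_apply]; rfl)
    rw [hg, hj1, hιp, hj]
    have hres : S.discBranch.intRes (ρ - hZ (qExpand ℤ M (jqModC ℤ)) ^ p) = 0 := by
      rw [← S.discBranch.fst_intδ, map_sub, map_pow, hρ, hδZ, hδZ, TrivSqZeroExt.fst_sub,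
        TrivSqZeroExt.fst_pow, TrivSqZeroExt.fst_inl, TrivSqZeroExt.fst_inl, sub_eq_zero,
        show Int.castRingHom k = (ZMod.castHom dvd_rfl k).comp (Int.castRingHom (ZMod p)) from
          RingHom.ext_int _ _, ← coeffMap_coeffMap, ← coeffMap_coeffMap, ← map_pow]
      refine congrArg _ ?_
      rw [coeffMap_qExpand, coeffMap_qExpand, coeffMap_jqModC,
        ← qExpand_qExpand, qExpand_eq_pow p (qExpand (ZMod p) M (jqModC (ZMod p)))]
    obtain ⟨z, hz⟩ := S.discBranch.intRes_eq_zero_iff.1 hres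
    have hz' := congrArg Subtype.val hz
    push_cast at hz'
    rw [hz']
    exact ((Branch.bGe_ord _).mono (le_of_eq S.discBranch.ord_ϖ.symm)).mul
      (Branch.mem_intRing_iff_bGe.1 z.2) |>.mono (by norm_num)
  have hroots : ∀ x : modularFunctionFieldFullC K (M * p), x ≠ 0 →
      S.discBranch.ord (ι x) = (infGB S M hpM).ord x ∧
      S.discBranch.sp (ι x) = dualMap e ((infGB S M hpM).sp x) := by
    refine infGB_eq_of_roots S M hpM hcompat
      (gens := {jdp K M p 1 (one_dvd M)}) (by rw [hg]; exact hclos) ?_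
    rintro g rfl
    exact ⟨_, _, kQ_relation K M p 1 (one_dvd M),
      rootAt_jdp S M hpM (compat_iInf_inclP S M) 1 _ (iInf_near S M 1 _),
      rootAt_jdp S M hpM hcompat 1 _ hnear⟩
  let P : LocalPoint (infGB S M hpM) :=
    { ι := ι
      e := e
      ι_algebraMap := fun c => by
        rw [algebraMap_eq_cF, ← cF_inclP, ← RingHom.comp_apply, hι, hι₀c]
        rfl
      e_algebraMap := heC
      ord_eq := fun x hx => (hroots x hx).1
      sp_eq := fun x hx => (hroots x hx).2 }
  -- the three functions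
  have hZR : ∀ s, (hZ s : FractionRing (PowerSeries R)) =
      (lsInt S (coeffMap (Int.castRingHom R) s) : FractionRing (PowerSeries R)) := fun s => rfl
  refine ⟨⟨P, M, NeZero.pos M, hpM, r, hr0, hr, ?_, ?_, ?_⟩⟩
  · show UnitMulPow (ι _) _
    rw [hj, hZR, coeffMap_qExpand, coeffMap_jqModC, show (-(M : ℤ)) = (M : ℤ) * (-1) by ring]
    refine unitMulPow_lsInt S ?_ (coeff_qExpand_below M (fun _ => coeff_jqModC_of_lt R))
    rw [qExpand_coeff_mul, coeff_jqModC_neg_one]
    exact isUnit_one
  · show UnitMulPow (ι _) _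
    rw [hιp, hρ, hZR, coeffMap_qExpand, coeffMap_jqModC,
      show (-((p * M : ℕ) : ℤ)) = ((p * M : ℕ) : ℤ) * (-1) by ring]
    refine unitMulPow_lsInt S ?_ (coeff_qExpand_below (p * M) (fun _ => coeff_jqModC_of_lt R))
    rw [qExpand_coeff_mul, coeff_jqModC_neg_one]
    exact isUnit_one
  · show UnitMulPow (ι _) _
    have hval : ι (vElt K M p) =
        (lsInt S (qExpand R M (deltaR R)) : FractionRing (PowerSeries R)) *
          (lsInt S (qExpand R (p * M) (deltaInvR R)) : FractionRing (PowerSeries R)) := by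
      apply (Setup.toLS R).injective
      refine (map_vElt K M p hpM ((Setup.toLS R).comp ι) M (p * M) 1 1 ?_ ?_).trans ?_
      · rw [RingHom.comp_apply, hj, hZR, toLS_lsInt, coeffMap_coeffMap, coeffMap_qExpand,
          coeffMap_jqModC, twist_one_apply]
      · rw [RingHom.comp_apply, hιp, hρ, hZR, toLS_lsInt, coeffMap_coeffMap, coeffMap_qExpand,
          coeffMap_jqModC, twist_one_apply]
      · rw [map_mul, toLS_lsInt, toLS_lsInt, coeffMap_qExpand, coeffMap_qExpand, coeffMap_deltaR,
          coeffMap_deltaInvR, twist_one_apply, twist_one_apply, Nat.cast_mul, mul_pow, div_self,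
          one_mul]
        exact mul_ne_zero (pow_ne_zero _ (natCast_laurent_ne_zero (Fact.out : p.Prime).ne_zero))
          (pow_ne_zero _ (natCast_laurent_ne_zero (NeZero.ne M)))
    rw [hval, show (-(((p - 1) * M : ℕ) : ℤ)) = (M : ℤ) * 1 + ((p * M : ℕ) : ℤ) * (-1) by
      rw [Nat.cast_mul, Nat.cast_mul, Nat.cast_sub (Fact.out : p.Prime).pos]; push_cast; ring]
    refine (unitMulPow_lsInt S ?_ (coeff_qExpand_below M (coeff_deltaR_below R))).mul
      (unitMulPow_lsInt S ?_ (coeff_qExpand_below (p * M) (coeff_deltaInvR_below R)))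
    · rw [qExpand_coeff_mul, coeff_one_deltaR]
      exact isUnit_one
    · rw [qExpand_coeff_mul, coeff_neg_one_deltaInvR]
      exact isUnit_one

end Fermat.Agent.LevelLowerP
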