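import Fermat.Agent.LevelLowerP.GeoDiscPt

/-!
# Expansions at the finite points
-/

set_option autoImplicit false

noncomputable section

namespace Fermat.Agent.LevelLowerP

open Polynomial ModularCurve Fermat.Agent.Igusa AlgebraicCurve Fermat.Agent.FF TrivSqZeroExt
open Fermat.Agent.Reduction Fermat.Agent.Reduction.Level
open scoped LaurentSeries PowerSeries

variable {p : ℕ} {R k : Type} [CommRing R] [IsDomain R] [IsDiscreteValuationRing R] [Field k]
  [CharP k p] [Fact p.Prime] [CharZero R] {S : Setup p R k} (U : Unram S) (M : ℕ) [NeZero M]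

theorem toF_algebraMap (r : U.R₀) :
    toF U M (algebraMap U.R₀ (chartA U M) r) = cF M (r : R) := by
  apply Subtype.val_injective
  rw [coe_toF, Subalgebra.coe_algebraMap, algebraMap_series, coe_cF]
  exact (coeffMap_single _ _ _).trans (by rw [HahnSeries.C_apply]; rfl)

omit [IsDomain R] [IsDiscreteValuationRing R] [CharP k p] [Fact (Nat.Prime p)] [CharZero R] in
/-- Series over the subring have reductions with vanishing derivative. -/
theorem δS_map_subtype (g : U.R₀⟦X⟧) :
    S.δS (PowerSeries.map U.R₀.subtype g) =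
      inl (((PowerSeries.map U.res₀ g : k⟦X⟧) : LaurentSeries k)) := by
  refine TrivSqZeroExt.ext ?_ ?_
  · rw [S.fst_δS, fst_inl]
    rfl
  · rw [S.snd_δS, snd_inl]
    convert map_zero (HahnSeries.ofPowerSeries ℤ k) using 2
    ext n
    simpa using U.snd_eq _ (PowerSeries.coeff n g).2

variable [IsAlgClosed k] [Algebra (ZMod p) k] [Algebra.IsAlgebraic (ZMod p) k] (hpM : ¬ p ∣ M)
  (v : Place k (modularFunctionFieldFullC k M)) (hv : 0 ≤ v.ord (jC k M))

include hpM hv

/-- The expansion of the chart at the point. -/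
def discA : chartA U M →+* U.R₀⟦X⟧ :=
  haveI := U.complete
  (smoothPt U M hpM v hv).disc (fun _ => U.res₀_eq_zero_iff) U.res₀_surjective

/-- The reduced expansion of the chart at the point. -/
def discK : chartA U M →+* k⟦X⟧ := (PowerSeries.map U.res₀).comp (discA U M hpM v hv)

/-- The expansion of the chart at the point, over the base. -/
def discR : chartA U M →+* R⟦X⟧ := (PowerSeries.map U.R₀.subtype).comp (discA U M hpM v hv)

theorem discA_hRat : discA U M hpM v hv (chartOf U M (hRat U M hpM v hv)) = PowerSeries.X :=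
  haveI := U.complete
  (smoothPt U M hpM v hv).disc_h (fun _ => U.res₀_eq_zero_iff) U.res₀_surjective

theorem discA_algebraMap (r : U.R₀) :
    discA U M hpM v hv (algebraMap U.R₀ _ r) = PowerSeries.C r :=
  haveI := U.complete
  (smoothPt U M hpM v hv).disc_algebraMap (fun _ => U.res₀_eq_zero_iff) U.res₀_surjective r

theorem discK_hRat : discK U M hpM v hv (chartOf U M (hRat U M hpM v hv)) = PowerSeries.X := by
  rw [discK, RingHom.comp_apply, discA_hRat, PowerSeries.map_X]

theorem discK_algebraMap (r : U.R₀) :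
    discK U M hpM v hv (algebraMap U.R₀ _ r) = PowerSeries.C (U.res₀ r) := by
  rw [discK, RingHom.comp_apply, discA_algebraMap, PowerSeries.map_C]

theorem constantCoeff_discK (a : chartA U M) :
    PowerSeries.constantCoeff (discK U M hpM v hv a) = evalPt U M hpM v hv a := by
  have := U.complete
  have h : PowerSeries.constantCoeff (discK U M hpM v hv a) =
      U.res₀ (PowerSeries.constantCoeff (discA U M hpM v hv a)) := by
    rw [discK, RingHom.comp_apply, ← PowerSeries.coeff_zero_eq_constantCoeff_apply,
      PowerSeries.coeff_map, PowerSeries.coeff_zero_eq_constantCoeff_apply]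
  rw [h]
  exact (smoothPt U M hpM v hv).res_constantCoeff_disc (fun _ => U.res₀_eq_zero_iff)
    U.res₀_surjective a

theorem discK_of_redA_eq_zero {a : chartA U M} (ha : redA U M hpM a = 0) :
    discK U M hpM v hv a = 0 := by
  obtain ⟨b, rfl⟩ := (redA_eq_zero_iff U M hpM).1 ha
  rw [map_mul, discK_algebraMap, map_natCast, CharP.cast_eq_zero, map_zero, zero_mul]

theorem discK_of_redA_eq {a b : chartA U M} (h : redA U M hpM a = redA U M hpM b) :
    discK U M hpM v hv a = discK U M hpM v hv b := by
  have h0 : redA U M hpM (a + algebraMap U.R₀ _ (-1) * b) = 0 := by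
    rw [map_add, map_mul, redA_algebraMap, map_neg, map_one, map_neg, map_one, h, neg_one_mul,
      add_neg_cancel]
  have h1 := discK_of_redA_eq_zero U M hpM v hv h0
  rwa [map_add, map_mul, discK_algebraMap, map_neg, map_one, map_neg, map_one, neg_one_mul,
    add_neg_eq_zero] at h1

/-- The reduced expansion has the order of the reduction at the point. -/
theorem discK_eq_pow_mul {a : chartA U M} (ha : redA U M hpM a ≠ 0) :
    ∃ u : k⟦X⟧, IsUnit u ∧
      discK U M hpM v hv a = PowerSeries.X ^ (v.ord (redA U M hpM a)).toNat * u := by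
  have h0 := (mem_ordGE_of_ne_zero v ha).1 (redA_mem_ordGE U M hpM v hv a)
  obtain ⟨s, c, d, hs, he, hc⟩ := exists_rep U M hpM v hv
    (m := (v.ord (redA U M hpM a)).toNat) (mem_ordGE_of_le_ord v (f := redA U M hpM a) (by omega))
  have hc0 := hc (by omega) ha
  have h := congrArg (discK U M hpM v hv) he
  rw [map_add, map_mul, map_mul, map_pow, discK_hRat, map_mul, discK_algebraMap, map_natCast,
    CharP.cast_eq_zero, map_zero, mul_zero, add_zero] at h
  have hsu : IsUnit (discK U M hpM v hv s) := by
    rw [PowerSeries.isUnit_iff_constantCoeff, constantCoeff_discK]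
    exact IsUnit.mk0 _ hs
  have hcu : IsUnit (discK U M hpM v hv c) := by
    rw [PowerSeries.isUnit_iff_constantCoeff, constantCoeff_discK]
    exact IsUnit.mk0 _ hc0
  obtain ⟨su, hsu'⟩ := hsu
  refine ⟨discK U M hpM v hv c * ↑su⁻¹, hcu.mul (Units.isUnit _), ?_⟩
  rw [← mul_assoc, mul_comm (PowerSeries.X ^ _), ← h, ← hsu', mul_right_comm, Units.mul_inv,
    one_mul]

theorem discK_ne_zero {a : chartA U M} (ha : redA U M hpM a ≠ 0) :
    discK U M hpM v hv a ≠ 0 := by
  obtain ⟨u, hu, h⟩ := discK_eq_pow_mul U M hpM v hv ha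
  rw [h]
  exact mul_ne_zero (pow_ne_zero _ PowerSeries.X_ne_zero) hu.ne_zero

omit hv [IsDiscreteValuationRing R] in
/-- Functions on the reduced curve are quotients of reductions. -/
theorem exists_frac (z : modularFunctionFieldFullC k M) :
    ∃ a b : chartA U M, redA U M hpM b ≠ 0 ∧ z * redA U M hpM b = redA U M hpM a := by
  have := isFunctionField_level (k := k) (natCast_ne_zero_level M hpM)
  have htr := transcendental_jC k M
  obtain ⟨q, hq, hmem⟩ := exists_aeval_mul_mem htr z
  obtain ⟨a, ha⟩ := redA_surj U M hpM (regFin_of_regRing M hpM (x := aeval (jC k M) q * z) hmem)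
  obtain ⟨b, hb⟩ := redA_surj U M hpM (regFin_of_regRing M hpM (x := aeval (jC k M) q)
    fun w hw => aeval_mem_ordGE_zero w (mem_ordGE_of_le_ord w hw) q)
  refine ⟨a, b, ?_, by rw [ha, hb, mul_comm]⟩
  rw [hb]
  exact fun h => hq (transcendental_iff.mp htr q h)

/-- The expansion of the reduced function field at the point, as a function. -/
def eFun (z : modularFunctionFieldFullC k M) : LaurentSeries k :=
  ((discK U M hpM v hv (exists_frac U M hpM z).choose : k⟦X⟧) : LaurentSeries k) /
    ((discK U M hpM v hv (exists_frac U M hpM z).choose_spec.choose : k⟦X⟧) : LaurentSeries k)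

theorem eFun_eq {z : modularFunctionFieldFullC k M} {a b : chartA U M}
    (hb : redA U M hpM b ≠ 0) (h : z * redA U M hpM b = redA U M hpM a) :
    eFun U M hpM v hv z = ((discK U M hpM v hv a : k⟦X⟧) : LaurentSeries k) /
      ((discK U M hpM v hv b : k⟦X⟧) : LaurentSeries k) := by
  obtain ⟨hb', h'⟩ := (exists_frac U M hpM z).choose_spec.choose_spec
  set a' := (exists_frac U M hpM z).choose
  set b' := (exists_frac U M hpM z).choose_spec.choose
  have key : discK U M hpM v hv (a' * b) = discK U M hpM v hv (a * b') :=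
    discK_of_redA_eq U M hpM v hv (by rw [map_mul, map_mul, ← h', ← h]; ring)
  rw [eFun, div_eq_div_iff]
  · rw [← map_mul, ← map_mul, ← map_mul, ← map_mul, key]
  all_goals
    exact (map_ne_zero_iff _ HahnSeries.ofPowerSeries_injective).2
      (discK_ne_zero U M hpM v hv (by assumption))

/-- The expansion of the reduced function field at the point. -/
def ePt : modularFunctionFieldFullC k M →+* LaurentSeries k where
  toFun := eFun U M hpM v hv
  map_one' := by
    rw [eFun_eq U M hpM v hv (a := 1) (b := 1) (by rw [map_one]; exact one_ne_zero) (by simp)]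
    simp
  map_zero' := by
    rw [eFun_eq U M hpM v hv (a := 0) (b := 1) (by rw [map_one]; exact one_ne_zero) (by simp)]
    simp
  map_mul' x y := by
    obtain ⟨a, b, hb, h⟩ := exists_frac U M hpM x
    obtain ⟨a', b', hb', h'⟩ := exists_frac U M hpM y
    rw [eFun_eq U M hpM v hv hb h, eFun_eq U M hpM v hv hb' h',
      eFun_eq U M hpM v hv (a := a * a') (b := b * b') (by rw [map_mul]; exact mul_ne_zero hb hb')
        (by rw [map_mul, map_mul, ← h, ← h']; ring), map_mul, map_mul, map_mul, map_mul,
      div_mul_div_comm]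
  map_add' x y := by
    obtain ⟨a, b, hb, h⟩ := exists_frac U M hpM x
    obtain ⟨a', b', hb', h'⟩ := exists_frac U M hpM y
    rw [eFun_eq U M hpM v hv hb h, eFun_eq U M hpM v hv hb' h',
      eFun_eq U M hpM v hv (a := a * b' + a' * b) (b := b * b')
        (by rw [map_mul]; exact mul_ne_zero hb hb')
        (by rw [map_add, map_mul, map_mul, map_mul, ← h, ← h']; ring),
      map_add, map_add, map_mul, map_mul, map_mul, map_mul, map_mul, map_mul,
      div_add_div _ _
        ((map_ne_zero_iff _ HahnSeries.ofPowerSeries_injective).2 (discK_ne_zero U M hpM v hv hb))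
        ((map_ne_zero_iff _ HahnSeries.ofPowerSeries_injective).2
          (discK_ne_zero U M hpM v hv hb'))]
    ring

theorem ePt_redA (a : chartA U M) :
    ePt U M hpM v hv (redA U M hpM a) = ((discK U M hpM v hv a : k⟦X⟧) : LaurentSeries k) := by
  refine (eFun_eq U M hpM v hv (a := a) (b := 1) (by rw [map_one]; exact one_ne_zero)
    (by rw [map_one, mul_one])).trans ?_
  rw [map_one, map_one, div_one]

theorem ePt_algebraMap (c : k) :
    ePt U M hpM v hv (algebraMap k _ c) = HahnSeries.C c := by
  obtain ⟨r, rfl⟩ := U.res₀_surjective c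
  rw [← redA_algebraMap U M hpM, ePt_redA, discK_algebraMap, HahnSeries.ofPowerSeries_C]

/-- The expansion at the point measures the order there. -/
theorem order_ePt {z : modularFunctionFieldFullC k M} (hz : z ≠ 0) :
    (ePt U M hpM v hv z).order = v.ord z := by
  obtain ⟨a, b, hb, h⟩ := exists_frac U M hpM z
  have ha : redA U M hpM a ≠ 0 := h ▸ mul_ne_zero hz hb
  have hord : ∀ c : chartA U M, redA U M hpM c ≠ 0 →
      (ePt U M hpM v hv (redA U M hpM c)).order = v.ord (redA U M hpM c) := by
    intro c hc
    obtain ⟨u, hu, he⟩ := discK_eq_pow_mul U M hpM v hv hc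
    have h0 := (mem_ordGE_of_ne_zero v hc).1 (redA_mem_ordGE U M hpM v hv c)
    have hu0 : PowerSeries.constantCoeff u ≠ 0 :=
      (PowerSeries.isUnit_iff_constantCoeff.1 hu).ne_zero
    rw [ePt_redA, he, map_mul, map_pow, HahnSeries.ofPowerSeries_X, HahnSeries.single_pow, one_pow]
    refine (order_eq_of_coeff ?_ fun n hn => ?_).trans (Int.toNat_of_nonneg h0)
    · rw [HahnSeries.coeff_single_mul, one_mul, nsmul_eq_mul, mul_one, sub_self]
      show ((HahnSeries.ofPowerSeries ℤ k) u).coeff ((0 : ℕ) : ℤ) ≠ 0
      rw [HahnSeries.ofPowerSeries_apply_coeff, PowerSeries.coeff_zero_eq_constantCoeff_apply]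
      exact hu0
    · rw [HahnSeries.coeff_single_mul, ofPowerSeries_coeff_of_neg _ (by simp at hn ⊢; omega),
        mul_zero]
  have h2 : (ePt U M hpM v hv (z * redA U M hpM b)).order =
      (ePt U M hpM v hv (redA U M hpM a)).order := by rw [h]
  rw [map_mul, HahnSeries.order_mul ((map_ne_zero_iff _ (ePt U M hpM v hv).injective).2 hz)
    ((map_ne_zero_iff _ (ePt U M hpM v hv).injective).2 hb), hord a ha, hord b hb] at h2
  have h3 := congrArg v.ord h
  rw [v.ord_mul hz hb] at h3
  omega

theorem isPow_ePt_redA (a : chartA U M) : IsPow (ePt U M hpM v hv (redA U M hpM a)) :=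
  ⟨_, ePt_redA U M hpM v hv a⟩

theorem ePt_hRat : ePt U M hpM v hv (redA U M hpM (chartOf U M (hRat U M hpM v hv))) =
    HahnSeries.single 1 1 := by
  rw [ePt_redA, discK_hRat, HahnSeries.ofPowerSeries_X]

omit [IsAlgClosed k] [Algebra (ZMod p) k] [Algebra.IsAlgebraic (ZMod p) k] hpM hv
    [Fact (Nat.Prime p)] in
theorem chartJN_relation :
    (jQ M).eval₂ (eval₂RingHom (Int.castRingHom (ratChart p M)) (chartJ p M)) (chartJN M) = 0 := by
  apply Subtype.val_injective
  show (ratChart p M).subtype _ = (ratChart p M).subtype 0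
  have h := congrArg (coeffMap (Int.castRingHom (ZL p))) (exists_jPoly M).choose_spec.2.2
  rw [map_zero, Polynomial.hom_eval₂, coeffMap_jqNModC] at h
  rw [map_zero, Polynomial.hom_eval₂, ← h]
  show (jQ M).eval₂ _ (jqNModC (ZL p) M) = _
  refine congrArg (fun f => (jQ M).eval₂ f (jqNModC (ZL p) M))
    (Polynomial.ringHom_ext (fun c => by simp) ?_)
  simp [chartJ, evq, coeffMap_jqModC]

/-- The level `M` expansion at the point. -/
theorem exists_ιPt : ∃ ι : modularFunctionFieldFullC (FractionRing R) M →+*
      FractionRing (PowerSeries R),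
    Compat S M S.discBranch ι (ePt U M hpM v hv) ∧
      (∀ r, ι (cF M r) = algebraMap (PowerSeries R) _ (PowerSeries.C r)) ∧
      ∀ a, ι (toF U M a) = algebraMap (PowerSeries R) _ (discR U M hpM v hv a) := by
  let g : PowerSeries R →+* S.discBranch.intRing (FractionRing (PowerSeries R)) :=
    (algebraMap (PowerSeries R) (FractionRing (PowerSeries R))).codRestrict _
      S.discBranch.isInt_algebraMap
  have hg : ∀ x, S.discBranch.intδ (g x) = S.δS x := fun x => by
    rw [S.discBranch.intδ_eq (s := x) (t := 1) (by rw [map_one]; exact one_ne_zero)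
      (by rw [map_one, mul_one]; rfl), map_one, TrivSqZeroExt.inv_one, mul_one]
    rfl
  have hval : ∀ a, S.discBranch.intδ (g (discR U M hpM v hv a)) =
      inl (ePt U M hpM v hv (redA U M hpM a)) := fun a => by
    rw [hg, discR, RingHom.comp_apply, δS_map_subtype, ePt_redA]
    rfl
  have hjr : redA U M hpM (chartOf U M (chartJ p M)) = jC k M := Subtype.val_injective (by
    rw [coe_redA_chartOf, chartRed_chartJ]; rfl)
  have hNr : redA U M hpM (chartOf U M (chartJN M)) = jNC k M := Subtype.val_injective (by
    rw [coe_redA_chartOf]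
    show coeffMap _ (jqNModC (ZL p) M) = jqNModC k M
    rw [coeffMap_jqNModC])
  let φ : ratChart p M →+* chartA U M := (chartEmb U M).codRestrict _ (chartEmb_mem U M)
  obtain ⟨ι, hC, hc, hJ, hG⟩ := exists_compat S M hpM S.discBranch (ePt U M hpM v hv)
    (g.comp PowerSeries.C) rfl (fun r => by
      rw [RingHom.comp_apply, hg, δS_C]
      refine TrivSqZeroExt.ext ?_ ?_ <;> simp [ePt_algebraMap])
    (g (discR U M hpM v hv (chartOf U M (chartJ p M))))
    (g (discR U M hpM v hv (chartOf U M (chartJN M))))
    (by rw [hval, hjr]) (by rw [hval, hNr]) (by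
      have h := congrArg (((g.comp (discR U M hpM v hv)).comp φ)) (chartJN_relation M)
      rw [map_zero, Polynomial.hom_eval₂] at h
      rw [← h]
      congr 1
      exact Polynomial.ringHom_ext (fun c => by simp) (by simp; rfl))
  refine ⟨ι, hC, hc, fun a => ?_⟩
  refine RingHom.congr_fun (chartA_hom_ext U M ι
    ((algebraMap (PowerSeries R) (FractionRing (PowerSeries R))).comp (discR U M hpM v hv))
    (fun r => ?_) ?_ ?_) a
  · rw [toF_algebraMap, hc, RingHom.comp_apply, RingHom.comp_apply, discR, RingHom.comp_apply,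
      discA_algebraMap, PowerSeries.map_C]
    rfl
  · rw [toF_chartJ, hJ]; rfl
  · rw [toF_chartJN, hG]; rfl

/-- The level `M` expansion at the point. -/
def ιPt : modularFunctionFieldFullC (FractionRing R) M →+* FractionRing (PowerSeries R) :=
  (exists_ιPt U M hpM v hv).choose

/-- The expansion at the point is compatible with the one of the reduction. -/
theorem compat_ιPt : Compat S M S.discBranch (ιPt U M hpM v hv) (ePt U M hpM v hv) :=
  (exists_ιPt U M hpM v hv).choose_spec.1

theorem ιPt_cF (r : R) :
    ιPt U M hpM v hv (cF M r) = algebraMap (PowerSeries R) _ (PowerSeries.C r) :=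
  (exists_ιPt U M hpM v hv).choose_spec.2.1 r

theorem ιPt_toF (a : chartA U M) :
    ιPt U M hpM v hv (toF U M a) = algebraMap (PowerSeries R) _ (discR U M hpM v hv a) :=
  (exists_ιPt U M hpM v hv).choose_spec.2.2 a

end Fermat.Agent.LevelLowerP
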