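import Fermat.Agent.LevelLowerP.CoeffDescent
import Fermat.Agent.LevelLowerP.GeoChart
import Fermat.Agent.Reduction.Level.Principle

/-!
# Series integral over `L[j]` in the function field: Galois action and descent to `ℚ`
-/

set_option autoImplicit false

noncomputable section

namespace Fermat.Agent.LevelLowerP

open Polynomial ModularCurve IntermediateField Fermat.Agent.Igusa
open Fermat.Agent.Reduction Fermat.Agent.Reduction.Level

section Basic

variable (K : Type*) [Field K] (M : ℕ) [NeZero M]

/-- The series in the function field over `K` integral over `K[j]`. -/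
def regSeries : Submodule K (LaurentSeries K) where
  carrier := {x | x ∈ modularFunctionFieldFullC K M ∧ (evq K).IsIntegralElem x}
  zero_mem' := ⟨zero_mem _, (evq K).isIntegralElem_zero⟩
  add_mem' hx hy := ⟨add_mem hx.1 hy.1, hx.2.add (evq K) hy.2⟩
  smul_mem' c x hx := by
    rw [Set.mem_ofPred_eq, smul_eq_algebraMap_mul]
    refine ⟨mul_mem (IntermediateField.algebraMap_mem _ c) hx.1, ?_⟩
    refine RingHom.IsIntegralElem.mul _ ?_ hx.2
    have : evq K (Polynomial.C c) = algebraMap K (LaurentSeries K) c := by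
      rw [algebraMap_laurentSeries_eq_single, ← HahnSeries.C_apply]
      exact Polynomial.eval₂_C _ _
    exact this ▸ (evq K).isIntegralElem_map

variable {K M}

omit [NeZero M] in
theorem mem_regSeries {x : LaurentSeries K} :
    x ∈ regSeries K M ↔ x ∈ modularFunctionFieldFullC K M ∧ (evq K).IsIntegralElem x := Iff.rfl

omit [NeZero M] in
theorem mul_mem_regSeries {x y : LaurentSeries K} (hx : x ∈ regSeries K M)
    (hy : y ∈ regSeries K M) : x * y ∈ regSeries K M :=
  ⟨mul_mem hx.1 hy.1, hx.2.mul (evq K) hy.2⟩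

omit [NeZero M] in
theorem mem_ratInt_iff {x : LaurentSeries ℚ} : x ∈ ratInt M ↔ x ∈ regSeries ℚ M := by
  rw [mem_ratInt, mem_regSeries, modularFunctionFieldFullC_rat]

omit [NeZero M] in
theorem regFin_iff {x : modularFunctionFieldFullC K M} :
    RegFin x ↔ (x : LaurentSeries K) ∈ regSeries K M := by
  have hev : (modularFunctionFieldFullC K M).val.toRingHom.comp (evC K M) = evq K :=
    RingHom.ext fun q => coe_evC K M q
  constructor
  · rintro ⟨P, hP, h⟩
    refine ⟨x.2, P, hP, ?_⟩
    have h' := congrArg (modularFunctionFieldFullC K M).val.toRingHom h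
    rwa [Polynomial.hom_eval₂, hev, map_zero] at h'
  · rintro ⟨-, P, hP, h⟩
    refine ⟨P, hP, Subtype.val_injective ?_⟩
    show (modularFunctionFieldFullC K M).val.toRingHom _ = _
    rw [Polynomial.hom_eval₂, hev]
    exact h

omit [NeZero M] in
theorem evq_monomial (m : ℕ) (a : K) :
    evq K (Polynomial.monomial m a) = a • jqModC K ^ m := by
  rw [evq, Polynomial.coe_eval₂RingHom, Polynomial.eval₂_monomial, smul_eq_algebraMap_mul,
    algebraMap_laurentSeries_eq_single, HahnSeries.C_apply]

variable {F : Type*} [Field F] (f : F →+* K)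

omit [NeZero M] in
theorem coeffMap_mem_fullC {x : LaurentSeries F} (hx : x ∈ modularFunctionFieldFullC F M) :
    coeffMap f x ∈ modularFunctionFieldFullC K M := by
  induction hx using IntermediateField.adjoin_induction with
  | mem y hy =>
    obtain ⟨d, hd0, hd, rfl⟩ := hy
    have := hd0
    rw [coeffMap_qExpand, coeffMap_jqModC]
    exact jqModCd_mem_full K M hd
  | algebraMap c =>
    rw [algebraMap_laurentSeries_eq_single, coeffMap_single, ← algebraMap_laurentSeries_eq_single]
    exact IntermediateField.algebraMap_mem _ _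
  | add a b _ _ ha hb => rw [map_add]; exact add_mem ha hb
  | inv a _ ha => rw [map_inv₀]; exact inv_mem ha
  | mul a b _ _ ha hb => rw [map_mul]; exact mul_mem ha hb

omit [NeZero M] in
theorem coeffMap_mem_regSeries {x : LaurentSeries F} (hx : x ∈ regSeries F M) :
    coeffMap f x ∈ regSeries K M := by
  obtain ⟨P, hP, h⟩ := hx.2
  refine ⟨coeffMap_mem_fullC f hx.1, P.map (Polynomial.mapRingHom f), hP.map _, ?_⟩
  have h' := congrArg (coeffMap f) h
  rw [Polynomial.hom_eval₂, map_zero] at h'
  rw [Polynomial.eval₂_map,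
    show (evq K).comp (Polynomial.mapRingHom f) = (coeffMap f).comp (evq F) from
      RingHom.ext fun q => (coeffMap_evq f q).symm]
  exact h'

end Basic

section Descent

variable {L : Type*} [Field L] [Algebra ℚ L] {M : ℕ} [NeZero M]

omit [NeZero M] in
theorem exists_sum_of_mem_adjoin {x : LaurentSeries L}
    (hx : x ∈ Algebra.adjoin L (divisorExpansionsC L M)) :
    x ∈ Submodule.span L
      (coeffMap (algebraMap ℚ L) '' (modularFunctionFieldFull M : Set (LaurentSeries ℚ))) := by
  let S : Submonoid (LaurentSeries L) :=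
    (modularFunctionFieldFull M).toSubalgebra.toSubmonoid.map
      (coeffMap (algebraMap ℚ L) : LaurentSeries ℚ →* LaurentSeries L)
  have hsub : divisorExpansionsC L M ⊆ (S : Set (LaurentSeries L)) := by
    rintro _ ⟨d, hd0, hd, rfl⟩
    have := hd0
    refine ⟨qExpand ℚ d (jqModC ℚ), ?_, by
      show coeffMap _ _ = _; rw [coeffMap_qExpand, coeffMap_jqModC]⟩
    show _ ∈ modularFunctionFieldFull M
    rw [← modularFunctionFieldFullC_rat]
    exact jqModCd_mem_full ℚ M hd
  induction hx using Algebra.adjoin_induction with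
  | mem y hy =>
    obtain ⟨z, hz, rfl⟩ := hsub hy
    exact Submodule.subset_span ⟨z, hz, rfl⟩
  | algebraMap c =>
    have : algebraMap L (LaurentSeries L) c = c • coeffMap (algebraMap ℚ L) 1 := by
      rw [map_one, smul_eq_algebraMap_mul, mul_one]
    rw [this]
    exact Submodule.smul_mem _ c (Submodule.subset_span ⟨1, one_mem _, rfl⟩)
  | add a b _ _ ha hb => exact add_mem ha hb
  | mul a b h₁ h₂ ha hb =>
    clear h₁ h₂
    induction ha using Submodule.span_induction with
    | mem a ha =>
      induction hb using Submodule.span_induction with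
      | mem b hb =>
        obtain ⟨a, ha, rfl⟩ := ha
        obtain ⟨b, hb, rfl⟩ := hb
        exact Submodule.subset_span ⟨a * b, mul_mem ha hb, map_mul _ _ _⟩
      | zero => rw [mul_zero]; exact zero_mem _
      | add u v _ _ hu hv => rw [mul_add]; exact add_mem hu hv
      | smul c u _ hu =>
        rw [smul_eq_algebraMap_mul, mul_left_comm, ← smul_eq_algebraMap_mul]
        exact Submodule.smul_mem _ c hu
    | zero => rw [zero_mul]; exact zero_mem _
    | add u v _ _ hu hv => rw [add_mul]; exact add_mem hu hv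
    | smul c u _ hu =>
      rw [smul_eq_algebraMap_mul, mul_assoc, ← smul_eq_algebraMap_mul]
      exact Submodule.smul_mem _ c hu

omit [NeZero M] in
/-- A rational series in the function field over `L` lies in the one over `ℚ`. -/
theorem mem_full_of_coeffMap_mem {x : LaurentSeries ℚ}
    (hx : coeffMap (algebraMap ℚ L) x ∈ modularFunctionFieldFullC L M) :
    x ∈ modularFunctionFieldFull M := by
  obtain ⟨A, hA, B, hB, hAB⟩ := IntermediateField.mem_adjoin_iff_div.mp hx
  rcases eq_or_ne B 0 with rfl | hB0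
  · rw [div_zero] at hAB
    have : x = 0 := by
      ext n
      have := congrArg (fun s : LaurentSeries L => s.coeff n) hAB
      exact (algebraMap ℚ L).injective (by simpa using this)
    exact this ▸ zero_mem _
  obtain ⟨n, hn⟩ : ∃ n, B.coeff n ≠ 0 := by
    by_contra h
    push Not at h
    exact hB0 (HahnSeries.ext (funext h))
  obtain ⟨φ, hφ⟩ := exists_functional_eq_one (F := ℚ) hn
  have key : ∀ C ∈ Submodule.span L
      (coeffMap (algebraMap ℚ L) '' (modularFunctionFieldFull M : Set (LaurentSeries ℚ))),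
      ∀ ψ : L →ₗ[ℚ] ℚ, applyC ψ C ∈ modularFunctionFieldFull M := by
    intro C hC
    induction hC using Submodule.span_induction with
    | mem a ha =>
      intro ψ
      obtain ⟨a, ha, rfl⟩ := ha
      have := applyC_smul_coeffMap ψ (1 : L) a
      rw [one_smul] at this
      rw [this, smul_eq_algebraMap_mul]
      exact mul_mem (IntermediateField.algebraMap_mem _ _) ha
    | zero => intro ψ; rw [map_zero]; exact zero_mem _
    | add u v _ _ hu hv => intro ψ; rw [map_add]; exact add_mem (hu ψ) (hv ψ)
    | smul c u _ hu =>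
      intro ψ
      have : applyC ψ (c • u) = applyC (ψ ∘ₗ LinearMap.mulLeft ℚ c) u := by
        ext m
        rw [applyC_coeff, applyC_coeff, coeff_smulC]
        rfl
      rw [this]
      exact hu _
  have hmul : applyC φ (B * coeffMap (algebraMap ℚ L) x) = applyC φ A := by
    rw [hAB, mul_div_cancel₀ _ hB0]
  rw [applyC_coeffMap_mul] at hmul
  have hne : applyC φ B ≠ 0 := fun h => by
    have := congrArg (fun s : LaurentSeries ℚ => s.coeff n) h
    simp [applyC_coeff, hφ] at this
  rw [eq_div_iff hne |>.mpr ((mul_comm _ _).trans hmul)]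
  exact div_mem (key A (exists_sum_of_mem_adjoin hA) φ) (key B (exists_sum_of_mem_adjoin hB) φ)

theorem exists_poly_applyC (φ : L →ₗ[ℚ] ℚ) (q : L[X]) :
    ∃ r : ℚ[X], applyC φ (evq L q) = evq ℚ r := by
  induction q using Polynomial.induction_on' with
  | add a b ha hb =>
    obtain ⟨r, hr⟩ := ha
    obtain ⟨s, hs⟩ := hb
    exact ⟨r + s, by rw [map_add, map_add, map_add, hr, hs]⟩
  | monomial m c =>
    refine ⟨Polynomial.monomial m (φ c), ?_⟩
    rw [evq_monomial, evq_monomial, ← coeffMap_jqModC (algebraMap ℚ L), ← map_pow,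
      applyC_smul_coeffMap]

omit [NeZero M] in
/-- A rational series regular over `L` is regular over `ℚ`. -/
theorem mem_regSeries_of_coeffMap_mem {x : LaurentSeries ℚ}
    (hx : coeffMap (algebraMap ℚ L) x ∈ regSeries L M) : x ∈ regSeries ℚ M := by
  refine ⟨(modularFunctionFieldFullC_rat M).symm ▸ mem_full_of_coeffMap_mem hx.1, ?_⟩
  obtain ⟨P, hP, h⟩ := hx.2
  obtain ⟨φ, hφ⟩ := exists_functional_eq_one (F := ℚ) (one_ne_zero (α := L))
  choose r hr using fun i : ℕ => exists_poly_applyC φ (P.coeff i)
  set n := P.natDegree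
  refine ⟨X ^ n + ∑ i : Fin n, Polynomial.C (r i) * X ^ (i : ℕ),
    Polynomial.monic_X_pow_add (Polynomial.degree_sum_fin_lt _), ?_⟩
  have h' := congrArg (applyC φ) h
  rw [map_zero, Polynomial.eval₂_eq_sum_range, map_sum, Finset.sum_range_succ] at h'
  simp only [← map_pow, applyC_coeffMap_mul] at h'
  rw [show P.coeff n = 1 from hP, map_one] at h'
  have h1 : applyC φ (1 : LaurentSeries L) = 1 := by
    rw [← map_one (coeffMap (algebraMap ℚ L)), applyC_coeffMap φ hφ]
  rw [h1, one_mul, Finset.sum_range] at h'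
  rw [Polynomial.eval₂_add, Polynomial.eval₂_X_pow, Polynomial.eval₂_finsetSum, add_comm, ← h']
  congr 1
  refine Finset.sum_congr rfl fun i _ => ?_
  rw [Polynomial.eval₂_mul, Polynomial.eval₂_C, Polynomial.eval₂_X_pow, hr]

variable [IsAlgClosed L] [Algebra.IsAlgebraic ℚ L]

omit [IsAlgClosed L] [NeZero M] in
/-- Elements of the function field have finitely many coefficientwise conjugates. -/
theorem finite_orbit_series {x : LaurentSeries L} (hx : x ∈ modularFunctionFieldFullC L M) :
    (Set.range fun σ : L ≃ₐ[ℚ] L => coeffMap (σ : L →+* L) x).Finite := by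
  induction hx using IntermediateField.adjoin_induction with
  | mem y hy =>
    obtain ⟨d, hd0, hd, rfl⟩ := hy
    have := hd0
    refine (Set.finite_singleton (qExpand L d (jqModC L))).subset ?_
    rintro _ ⟨σ, rfl⟩
    show coeffMap _ _ = _
    rw [coeffMap_qExpand, coeffMap_jqModC]
  | algebraMap c =>
    refine ((finite_orbit L c).image (algebraMap L (LaurentSeries L))).subset ?_
    rintro _ ⟨σ, rfl⟩
    refine ⟨σ c, ⟨σ, rfl⟩, ?_⟩
    show algebraMap L (LaurentSeries L) (σ c) =
      coeffMap (σ : L →+* L) (algebraMap L (LaurentSeries L) c)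
    rw [algebraMap_laurentSeries_eq_single, algebraMap_laurentSeries_eq_single, coeffMap_single]
    rfl
  | add a b _ _ ha hb =>
    refine (Set.Finite.image2 (· + ·) ha hb).subset ?_
    rintro _ ⟨σ, rfl⟩
    exact ⟨_, ⟨σ, rfl⟩, _, ⟨σ, rfl⟩, (map_add _ _ _).symm⟩
  | inv a _ ha =>
    refine (ha.image (·⁻¹)).subset ?_
    rintro _ ⟨σ, rfl⟩
    exact ⟨_, ⟨σ, rfl⟩, (map_inv₀ _ _).symm⟩
  | mul a b _ _ ha hb =>
    refine (Set.Finite.image2 (· * ·) ha hb).subset ?_
    rintro _ ⟨σ, rfl⟩
    exact ⟨_, ⟨σ, rfl⟩, _, ⟨σ, rfl⟩, (map_mul _ _ _).symm⟩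

omit [NeZero M] in
/-- An element of a Galois stable subspace of the function field is spanned by rational elements
of it. -/
theorem exists_rat_span {W : Submodule L (LaurentSeries L)}
    (hW : ∀ σ : L ≃ₐ[ℚ] L, ∀ x ∈ W, coeffMap (σ : L →+* L) x ∈ W)
    {x : LaurentSeries L} (hxF : x ∈ modularFunctionFieldFullC L M) (hx : x ∈ W) :
    ∃ (d : ℕ) (z : Fin d → LaurentSeries ℚ), LinearIndependent ℚ z ∧
      (∀ i, coeffMap (algebraMap ℚ L) (z i) ∈ W) ∧
      x ∈ Submodule.span L (Set.range fun i => coeffMap (algebraMap ℚ L) (z i)) := by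
  set O := Set.range fun σ : L ≃ₐ[ℚ] L => coeffMap (σ : L →+* L) x
  have : FiniteDimensional L (Submodule.span L O) :=
    FiniteDimensional.span_of_finite L (finite_orbit_series hxF)
  have hstable : ∀ τ : L ≃ₐ[ℚ] L, ∀ y ∈ Submodule.span L O,
      coeffMap (τ : L →+* L) y ∈ Submodule.span L O := by
    intro τ y hy
    induction hy using Submodule.span_induction with
    | mem y hy =>
      obtain ⟨σ, rfl⟩ := hy
      refine Submodule.subset_span ⟨τ * σ, ?_⟩
      show coeffMap _ x = coeffMap _ (coeffMap _ x)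
      rw [coeffMap_coeffMap]
      rfl
    | zero => rw [map_zero]; exact zero_mem _
    | add u v _ _ hu hv => rw [map_add]; exact add_mem hu hv
    | smul c u _ hu =>
      rw [smul_eq_algebraMap_mul, map_mul, algebraMap_laurentSeries_eq_single, coeffMap_single,
        ← algebraMap_laurentSeries_eq_single, ← smul_eq_algebraMap_mul]
      exact Submodule.smul_mem _ _ hu
  obtain ⟨z, hz, hspan⟩ := exists_rat_basis (Submodule.span L O) hstable
  refine ⟨_, z, hz, fun i => ?_, ?_⟩
  · have : coeffMap (algebraMap ℚ L) (z i) ∈ Submodule.span L O :=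
      hspan ▸ Submodule.subset_span ⟨i, rfl⟩
    refine Submodule.span_le.mpr ?_ this
    rintro _ ⟨σ, rfl⟩
    exact hW σ x hx
  · rw [hspan]
    refine Submodule.subset_span ⟨AlgEquiv.refl, ?_⟩
    ext n
    rfl

omit [NeZero M] in
/-- Regular series are spanned by rational regular series, inside any stable subspace. -/
theorem exists_ratInt_span {W : Submodule L (LaurentSeries L)} (hWreg : W ≤ regSeries L M)
    (hW : ∀ σ : L ≃ₐ[ℚ] L, ∀ x ∈ W, coeffMap (σ : L →+* L) x ∈ W)
    {x : LaurentSeries L} (hx : x ∈ W) :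
    ∃ (d : ℕ) (z : Fin d → ratInt M), LinearIndependent ℚ (fun i => (z i : LaurentSeries ℚ)) ∧
      (∀ i, coeffMap (algebraMap ℚ L) (z i : LaurentSeries ℚ) ∈ W) ∧
      x ∈ Submodule.span L
        (Set.range fun i => coeffMap (algebraMap ℚ L) (z i : LaurentSeries ℚ)) := by
  obtain ⟨d, z, hz, hzW, hxz⟩ := exists_rat_span hW (hWreg hx).1 hx
  exact ⟨d, fun i => ⟨z i, mem_ratInt_iff.mpr (mem_regSeries_of_coeffMap_mem (hWreg (hzW i)))⟩,
    hz, hzW, hxz⟩

end Descent

end Fermat.Agent.LevelLowerP
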