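import Fermat.Agent.LevelLowerP.FiniteRegular
import Fermat.Agent.LevelLowerP.RegSeries
import Fermat.Agent.MFGenus.Classify
import Fermat.Agent.Gal.Places

/-!
# Certificates that `j` is a cube and `j - 1728` a square up to units, when `ν₃ = 0`, `ν₂ = 0`
-/

set_option autoImplicit false

noncomputable section

namespace Fermat.Agent.LevelLowerP

open Polynomial ModularCurve AlgebraicCurve IntermediateField CongruenceSubgroup
open Fermat.Agent.Igusa Fermat.Agent.MFGenus
open scoped MatrixGroups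

local notation "Qb" => AlgebraicClosure ℚ

variable (M : ℕ) [NeZero M]

theorem exists_embedding_complex : Nonempty (Qb →+* ℂ) :=
  ⟨(IsAlgClosed.lift : Qb →ₐ[ℚ] ℂ).toRingHom⟩

omit [NeZero M] in
theorem FL_eq_fullC : FL Qb M = modularFunctionFieldFullC Qb M := by
  have key : ∀ x ∈ modularFunctionFieldFull M,
      coeffMap (algebraMap ℚ Qb) x ∈ modularFunctionFieldFullC Qb M := fun x hx =>
    coeffMap_mem_fullC (algebraMap ℚ Qb) ((modularFunctionFieldFullC_rat M).symm ▸ hx)
  refine le_antisymm ?_ ?_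
  · rw [FL, laurentBaseChange, IntermediateField.adjoin_le_iff]
    rintro _ ⟨x, hx, rfl⟩
    exact key x hx
  · rw [modularFunctionFieldFullC, IntermediateField.adjoin_le_iff]
    rintro _ ⟨d, hd0, hd, rfl⟩
    have := hd0
    have := coeffEmb_mem_laurentBaseChange Qb
      ((modularFunctionFieldFullC_rat M) ▸ jqModCd_mem_full ℚ M hd)
    rwa [coeffEmb, coeffMap_qExpand, coeffMap_jqModC] at this

omit [NeZero M] in
theorem coe_jElt : (jElt Qb M : LaurentSeries Qb) = jqModC Qb := by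
  show coeffEmb Qb (qExpand ℚ 1 jq) = _
  rw [qExpand_one_apply, ← jqModC_rat, coeffEmb, coeffMap_jqModC]

omit [NeZero M] in
theorem val_comp_aeval :
    (FL Qb M).val.toRingHom.comp (Polynomial.aeval (jElt Qb M)).toRingHom = evq Qb := by
  refine Polynomial.ringHom_ext (fun a => ?_) ?_
  · show ((Polynomial.aeval (jElt Qb M) (Polynomial.C a) : FL Qb M) : LaurentSeries Qb) = _
    rw [Polynomial.aeval_C, evq, Polynomial.coe_eval₂RingHom, Polynomial.eval₂_C,
      HahnSeries.C_apply, ← algebraMap_laurentSeries_eq_single]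
    rfl
  · show ((Polynomial.aeval (jElt Qb M) Polynomial.X : FL Qb M) : LaurentSeries Qb) = _
    rw [Polynomial.aeval_X, evq, Polynomial.coe_eval₂RingHom, Polynomial.eval₂_X, coe_jElt]

theorem mem_regRing_iff {x : FL Qb M} :
    x ∈ regRing Qb (jElt Qb M) ↔ (x : LaurentSeries Qb) ∈ regSeries Qb M := by
  obtain ⟨ι⟩ := exists_embedding_complex
  have := isFunctionField_FL (N := M) ι
  constructor
  · intro hx
    obtain ⟨P, hP, h⟩ := isIntegralElem_of_mem_regRing hx
    refine ⟨FL_eq_fullC M ▸ x.2, P, hP, ?_⟩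
    have h' := congrArg (FL Qb M).val.toRingHom h
    rwa [Polynomial.hom_eval₂, val_comp_aeval, map_zero] at h'
  · rintro ⟨-, P, hP, h⟩
    refine isIntegralElem_mem_regRing ⟨P, hP, Subtype.val_injective ?_⟩
    show (FL Qb M).val.toRingHom _ = _
    rw [Polynomial.hom_eval₂, val_comp_aeval]
    exact h

/-- All places over `j = x₀` have ramification index `e` when no coset is fixed. -/
theorem ord_eq_of_no_fixed {x₀ : Qb} {e : ℕ} (g₀ : SL(2, ℤ))
    (hg₀ : ∀ g : SL(2, ℤ), ∀ ι : Qb →+* ℂ,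
      ((ι x₀ = 0 ∧ g = ModularGroup.S * ModularGroup.T) ∨
        (ι x₀ = 1728 ∧ g = ModularGroup.S) ∨ (ι x₀ ≠ 0 ∧ ι x₀ ≠ 1728 ∧ g = 1)) → g = g₀)
    (hfix : ∀ q : SL(2, ℤ) ⧸ Gamma0 M, g₀ • q ≠ q)
    (hcard : e * Nat.card (PointOrbit M g₀) = dedekindPsi M)
    (v : Place Qb (FL Qb M)) (hv : 0 < v.ord (jElt Qb M - algebraMap Qb (FL Qb M) x₀)) :
    v.ord (jElt Qb M - algebraMap Qb (FL Qb M) x₀) = e := by
  classical
  obtain ⟨ι⟩ := exists_embedding_complex
  have := isFunctionField_FL (N := M) ι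
  have := ι.charZero
  obtain ⟨g, m, τ₀, hg, -, hm, eo, heo⟩ := exists_places_over (N := M) ι x₀
  obtain rfl : g = g₀ := hg₀ g ι hg
  have hord : ∀ w : {w : Place Qb (FL Qb M) // 0 < w.ord (jElt Qb M - algebraMap Qb _ x₀)},
      w.1.ord (jElt Qb M - algebraMap Qb _ x₀) = m := fun w => by
    obtain ⟨o, rfl⟩ := eo.surjective w
    induction o using Quotient.inductionOn' with
    | h q =>
      have h := (heo q).1
      rwa [pointStab, if_neg (hfix _), Nat.cast_one, one_mul] at h
  set f := jElt Qb M - algebraMap Qb (FL Qb M) x₀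
  set s := (FF.finite_setOf_ord_pos (K := Qb) f).toFinset
  have hs : ∀ w, w ∈ s ↔ 0 < w.ord f := fun w => by simp [s]
  have hsum := sum_ord_zeros (transcendental_jElt_sub (N := M) ι x₀) (deg_eq_one_FL ι) s hs
  rw [adjoin_sub_const, finrank_eq_dedekindPsi ι,
    Finset.sum_congr rfl fun w hw => hord ⟨w, (hs w).1 hw⟩, Finset.sum_const, nsmul_eq_mul] at hsum
  have hscard : s.card = Nat.card (PointOrbit M g) := by
    rw [Nat.card_congr eo, ← Nat.card_eq_finsetCard]
    exact Nat.card_congr (Equiv.subtypeEquivRight hs)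
  rw [hscard] at hsum
  have hpos : 0 < Nat.card (PointOrbit M g) := by
    rw [← hscard]; exact Finset.card_pos.mpr ⟨v, (hs v).2 hv⟩
  have hme : Nat.card (PointOrbit M g) * m = Nat.card (PointOrbit M g) * e := by
    rw [mul_comm _ e, hcard]; exact_mod_cast hsum
  rw [hord ⟨v, hv⟩, Nat.eq_of_mul_eq_mul_left hpos hme]

/-- The certificate, from the ramification indices. -/
theorem exists_certificate {e : ℕ} (he : 1 ≤ e) (q : ℚ)
    (hram : ∀ v : Place Qb (FL Qb M),
      0 < v.ord (jElt Qb M - algebraMap Qb (FL Qb M) (algebraMap ℚ Qb q)) →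
      v.ord (jElt Qb M - algebraMap Qb (FL Qb M) (algebraMap ℚ Qb q)) = e) :
    ∃ m : ℕ, ∃ y z c : Fin m → ratInt M,
      (∀ i, (y i : LaurentSeries ℚ) ^ e =
        (jqModC ℚ - algebraMap ℚ (LaurentSeries ℚ) q) * z i) ∧
      ∑ i, (c i : LaurentSeries ℚ) * (y i : LaurentSeries ℚ) ^ e =
        jqModC ℚ - algebraMap ℚ (LaurentSeries ℚ) q := by
  classical
  obtain ⟨ι⟩ := exists_embedding_complex
  have := isFunctionField_FL (N := M) ι
  set F := FL Qb M
  set J := jElt Qb M
  set x₀ := algebraMap ℚ Qb q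
  set t := J - algebraMap Qb F x₀
  set T : LaurentSeries ℚ := jqModC ℚ - algebraMap ℚ (LaurentSeries ℚ) q
  have ht0 : t ≠ 0 := fun h => transcendental_jElt_sub (N := M) ι x₀
    (show IsAlgebraic Qb t by rw [h]; exact isAlgebraic_zero)
  have htcoe : (t : LaurentSeries Qb) = coeffMap (algebraMap ℚ Qb) T := by
    simp only [t, T, map_sub, coeffMap_jqModC, algebraMap_laurentSeries_eq_single, coeffMap_single]
    rw [← algebraMap_laurentSeries_eq_single]
    show (J : LaurentSeries Qb) - _ = _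
    rw [coe_jElt]
    rfl
  have htreg : t ∈ regRing Qb J := sub_mem self_mem_regRing (algebraMap_mem_regRing x₀)
  set Z := (FF.finite_setOf_ord_pos (K := Qb) t).toFinset
  have hZ : ∀ w, w ∈ Z ↔ 0 < w.ord t := fun w => by simp [Z]
  have hZfin : ∀ w : Place Qb F, 0 < w.ord t → 0 ≤ w.ord J := fun w hw => by
    have h1 : J ∈ FF.ordGE w 0 := by
      rw [show J = t + algebraMap Qb F x₀ by simp [t]]
      exact add_mem (FF.mem_ordGE_of_le_ord w hw.le) (FF.algebraMap_mem_ordGE_zero w x₀)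
    rcases (FF.mem_ordGE w).mp h1 with h | h
    · rw [h]; simp
    · exact h
  -- a Galois stable space of functions vanishing over `x₀`
  let WF : Submodule Qb F :=
    { carrier := {x | x ∈ regRing Qb J ∧ ∀ w ∈ Z, x ∈ FF.ordGE w 1}
      zero_mem' := ⟨zero_mem _, fun w _ => zero_mem (FF.ordGE w 1)⟩
      add_mem' := fun hx hy => ⟨add_mem hx.1 hy.1, fun w hw => add_mem (hx.2 w hw) (hy.2 w hw)⟩
      smul_mem' := fun a x hx =>
        ⟨by rw [Algebra.smul_def]; exact mul_mem (algebraMap_mem_regRing a) hx.1,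
        fun w hw => Submodule.smul_mem (FF.ordGE w 1) a (hx.2 w hw)⟩ }
  have hWF : ∀ x : F, x ∈ WF ↔ x ∈ regRing Qb J ∧ x ^ e / t ∈ regRing Qb J := by
    intro x
    refine ⟨fun ⟨hx, hx1⟩ => ⟨hx, fun w hw => ?_⟩, fun ⟨hx, hxd⟩ => ⟨hx, fun w hw => ?_⟩⟩
    · rcases eq_or_ne x 0 with rfl | hx0
      · rw [zero_pow (by omega), zero_div]; exact zero_mem _
      refine FF.mem_ordGE_of_le_ord w ?_
      rw [FF.ord_div w (pow_ne_zero _ hx0) ht0, FF.ord_pow]
      have hnn := (FF.mem_ordGE_of_ne_zero w ht0).mp (htreg w hw)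
      have hxnn := (FF.mem_ordGE_of_ne_zero w hx0).mp (hx w hw)
      rcases hnn.lt_or_eq with hpos | heq
      · have := (FF.mem_ordGE_of_ne_zero w hx0).mp (hx1 w ((hZ w).2 hpos))
        rw [hram w hpos]
        nlinarith
      · rw [← heq, sub_zero]; positivity
    · rcases eq_or_ne x 0 with rfl | hx0
      · exact zero_mem _
      refine FF.mem_ordGE_of_le_ord w ?_
      have h := (FF.mem_ordGE_of_ne_zero w (div_ne_zero (pow_ne_zero _ hx0) ht0)).mp
        (hxd w (hZfin w ((hZ w).1 hw)))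
      rw [FF.ord_div w (pow_ne_zero _ hx0) ht0, FF.ord_pow, hram w ((hZ w).1 hw)] at h
      have hxnn := (FF.mem_ordGE_of_ne_zero w hx0).mp (hx w (hZfin w ((hZ w).1 hw)))
      by_contra hlt
      have : w.ord x = 0 := by omega
      rw [this, mul_zero] at h
      omega
  let W : Submodule Qb (LaurentSeries Qb) := WF.map (Reduction.inclLin F)
  have hWreg : W ≤ regSeries Qb M := by
    rintro _ ⟨x, hx, rfl⟩
    exact (mem_regRing_iff M).mp hx.1
  have hWσ : ∀ σ : Qb ≃ₐ[ℚ] Qb, ∀ s ∈ W, coeffMap (σ : Qb →+* Qb) s ∈ W := by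
    rintro σ _ ⟨x, hx, rfl⟩
    obtain ⟨hx1, hx2⟩ := (hWF x).mp hx
    set f := (σ : Qb →+* Qb)
    have h1 := coeffMap_mem_regSeries f ((mem_regRing_iff M).mp hx1)
    have h2 := coeffMap_mem_regSeries f ((mem_regRing_iff M).mp hx2)
    refine ⟨⟨coeffMap f (x : LaurentSeries Qb),
        show _ ∈ FL Qb M by rw [FL_eq_fullC]; exact h1.1⟩,
      (hWF _).mpr ⟨(mem_regRing_iff M).mpr h1, (mem_regRing_iff M).mpr ?_⟩, rfl⟩
    have hft : coeffMap f (t : LaurentSeries Qb) = t := by
      rw [htcoe, coeffMap_coeffMap]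
      exact coeffMap_congr (RingHom.ext fun a => σ.commutes a) T
    have he : ((x ^ e / t : F) : LaurentSeries Qb) =
        (x : LaurentSeries Qb) ^ e / (t : LaurentSeries Qb) := by push_cast; rfl
    rw [he, map_div₀, map_pow, hft] at h2
    push_cast
    exact h2
  -- rational functions with simple zeros
  have hsimple : ∀ v : Z, ∃ (y : ratInt M) (yF : F), (yF : LaurentSeries Qb) =
      coeffMap (algebraMap ℚ Qb) (y : LaurentSeries ℚ) ∧ yF ∈ WF ∧ yF ≠ 0 ∧ v.1.ord yF = 1 := by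
    rintro ⟨v, hv⟩
    obtain ⟨y, hy, hyZ, hy0, hyv⟩ := exists_regular_simple_zero (transcendental_jElt (N := M) ι)
      (deg_eq_one_FL ι) Z (fun w hw => hZfin w ((hZ w).1 hw)) hv
    obtain ⟨d, z, -, hzW, hyz⟩ := exists_ratInt_span hWreg hWσ
      (Submodule.mem_map_of_mem (f := Reduction.inclLin F) (⟨hy, hyZ⟩ : y ∈ WF))
    choose zF hzF hzFeq using fun i => Submodule.mem_map.mp (hzW i)
    obtain ⟨a, ha⟩ := (Submodule.mem_span_range_iff_exists_fun Qb).mp hyz
    have hyeq : y = ∑ i, a i • zF i := by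
      apply Reduction.inclLin_injective F
      rw [map_sum, ← ha]
      exact Finset.sum_congr rfl fun i _ => by rw [map_smul, hzFeq]
    by_contra hno
    push Not at hno
    have hall : ∀ i, zF i ∈ FF.ordGE v 2 := fun i => by
      rcases eq_or_ne (zF i) 0 with h0 | h0
      · rw [h0]; exact zero_mem _
      refine FF.mem_ordGE_of_le_ord v ?_
      have h1 := (FF.mem_ordGE_of_ne_zero v h0).mp ((hzF i).2 v hv)
      have h2 : v.ord (zF i) ≠ 1 := hno (z i) (zF i) (by rw [← Reduction.inclLin_apply, hzFeq])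
        (hzF i) h0
      omega
    have := (FF.mem_ordGE_of_ne_zero v hy0).mp
      (hyeq ▸ Submodule.sum_mem _ fun i _ => Submodule.smul_mem _ _ (hall i))
    omega
  choose y yF hyF hyW hy0 hyord using hsimple
  -- the unit ideal
  let Y : Option Z → F := fun o => o.elim t yF
  let Yq : Option Z → LaurentSeries ℚ := fun o => o.elim T fun v => (y v : LaurentSeries ℚ)
  let d : Option Z → F := fun o => Y o ^ e / t
  have hTrat : T ∈ ratInt M := mem_ratInt_iff.mpr (mem_regSeries_of_coeffMap_mem (L := Qb)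
    (by rw [← htcoe]; exact (mem_regRing_iff M).mp htreg))
  have hYq : ∀ o, (Y o : LaurentSeries Qb) = coeffMap (algebraMap ℚ Qb) (Yq o) := by
    rintro (_ | v)
    · exact htcoe
    · exact hyF v
  have hYqmem : ∀ o, Yq o ∈ ratInt M := by
    rintro (_ | v)
    · exact hTrat
    · exact (y v).2
  have hdreg : ∀ o, d o ∈ regRing Qb J := by
    rintro (_ | v)
    · show t ^ e / t ∈ _
      obtain ⟨e', rfl⟩ := Nat.exists_eq_add_of_le he
      rw [add_comm, pow_succ, mul_div_cancel_right₀ _ ht0]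
      exact pow_mem htreg e'
    · exact ((hWF _).mp (hyW v)).2
  obtain ⟨a, hareg, ha⟩ := exists_sum_eq_one (ι := Option Z) d hdreg
    ⟨none, div_ne_zero (pow_ne_zero _ ht0) ht0⟩ (by
      intro w hw
      have hnn := (FF.mem_ordGE_of_ne_zero w ht0).mp (htreg w hw)
      rcases hnn.lt_or_eq with hpos | heq
      · refine ⟨some ⟨w, (hZ w).2 hpos⟩, div_ne_zero (pow_ne_zero _ (hy0 _)) ht0, ?_⟩
        show w.ord (yF _ ^ e / t) = 0
        rw [FF.ord_div w (pow_ne_zero _ (hy0 _)) ht0, FF.ord_pow, hyord ⟨w, (hZ w).2 hpos⟩,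
          hram w hpos]
        ring
      · refine ⟨none, div_ne_zero (pow_ne_zero _ ht0) ht0, ?_⟩
        show w.ord (t ^ e / t) = 0
        rw [FF.ord_div w (pow_ne_zero _ ht0) ht0, FF.ord_pow, ← heq]
        ring)
  have hsum : ∑ o, (a o : LaurentSeries Qb) * coeffMap (algebraMap ℚ Qb) (Yq o ^ e) =
      coeffMap (algebraMap ℚ Qb) T := by
    have h1 : ∑ o, a o * Y o ^ e = t := by
      conv_rhs => rw [← one_mul t, ← ha, Finset.sum_mul]
      exact Finset.sum_congr rfl fun o _ => by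
        rw [mul_assoc, div_mul_cancel₀ _ ht0]
    have h2 := congrArg (F.val.toRingHom) h1
    rw [map_sum] at h2
    rw [← htcoe]
    refine Eq.trans (Finset.sum_congr rfl fun o _ => ?_) h2
    rw [map_mul, map_pow, map_pow, ← hYq o]
    rfl
  obtain ⟨φ, hφ⟩ := exists_functional_eq_one (F := ℚ) (one_ne_zero (α := Qb))
  have hc : ∀ o, applyC φ (a o : LaurentSeries Qb) ∈ ratInt M := by
    intro o
    have hr := (mem_regRing_iff M).mp (hareg o)
    obtain ⟨n, z, -, -, hz⟩ := exists_ratInt_span (W := regSeries Qb M) le_rfl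
      (fun σ x hx => coeffMap_mem_regSeries (σ : Qb →+* Qb) hx) hr
    obtain ⟨b, hb⟩ := (Submodule.mem_span_range_iff_exists_fun Qb).mp hz
    rw [← hb, map_sum, mem_ratInt_iff]
    refine Submodule.sum_mem _ fun i _ => ?_
    rw [applyC_smul_coeffMap]
    exact Submodule.smul_mem _ _ (mem_ratInt_iff.mp (z i).2)
  have hdrat : ∀ o, ∃ z : ratInt M, Yq o ^ e = T * (z : LaurentSeries ℚ) := by
    intro o
    have hT0 : T ≠ 0 := fun h => ht0 (Subtype.ext (by rw [htcoe, h, map_zero]; rfl))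
    refine ⟨⟨Yq o ^ e / T, mem_ratInt_iff.mpr (mem_regSeries_of_coeffMap_mem (L := Qb) ?_)⟩,
      (mul_div_cancel₀ _ hT0).symm⟩
    have := (mem_regRing_iff M).mp (hdreg o)
    rw [map_div₀, map_pow, ← hYq, ← htcoe]
    exact this
  choose zq hzq using hdrat
  let idx := (Fintype.equivFin (Option Z)).symm
  refine ⟨Fintype.card (Option Z), fun i => ⟨Yq (idx i), hYqmem _⟩, fun i => zq (idx i),
    fun i => ⟨_, hc (idx i)⟩, fun i => hzq (idx i), ?_⟩
  have h := congrArg (applyC φ) hsum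
  rw [map_sum, applyC_coeffMap φ hφ] at h
  simp only [applyC_coeffMap_mul] at h
  rw [← h]
  exact idx.sum_comp fun o => applyC φ (a o : LaurentSeries Qb) * Yq o ^ e

variable {M}

/-- **`j` is a cube up to units** when `ν₃ = 0`. -/
theorem exists_cube_certificate (hnu : nuThree M = 0) :
    ∃ m : ℕ, ∃ y z c : Fin m → ratInt M,
      (∀ i, y i ^ 3 = ⟨jqModC ℚ, jqModC_mem_ratInt M⟩ * z i) ∧
      ∑ i, c i * y i ^ 3 = ⟨jqModC ℚ, jqModC_mem_ratInt M⟩ := by
  have hfix : ∀ q : SL(2, ℤ) ⧸ Gamma0 M, (ModularGroup.S * ModularGroup.T) • q ≠ q := by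
    intro q hq
    have h0 := Cosets.card_fixed_ST M
    rw [hnu] at h0
    rcases Nat.card_eq_zero.mp h0 with h | h
    · exact h.false ⟨q, hq⟩
    · exact h.not_finite inferInstance
  obtain ⟨m, y, z, c, hy, hsum⟩ := exists_certificate M (e := 3) (by norm_num) 0 fun v hv =>
    ord_eq_of_no_fixed M (ModularGroup.S * ModularGroup.T) (by
      rintro g ι (⟨-, h⟩ | ⟨h, -⟩ | ⟨h, -, -⟩)
      · exact h
      · simp at h
      · simp at h) hfix (by
      have := Cosets.three_mul_card_ST_orbits M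
      rw [hnu, mul_zero, add_zero] at this
      exact this) v hv
  simp only [map_zero, sub_zero] at hy hsum
  exact ⟨m, y, z, c, fun i => Subtype.ext (by simpa using hy i), Subtype.ext (by simpa using hsum)⟩

/-- **`j - 1728` is a square up to units** when `ν₂ = 0`. -/
theorem exists_square_certificate (hnu : nuTwo M = 0) :
    ∃ m : ℕ, ∃ y z c : Fin m → ratInt M,
      (∀ i, y i ^ 2 = (⟨jqModC ℚ, jqModC_mem_ratInt M⟩ - 1728) * z i) ∧
      ∑ i, c i * y i ^ 2 = ⟨jqModC ℚ, jqModC_mem_ratInt M⟩ - 1728 := by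
  have hfix : ∀ q : SL(2, ℤ) ⧸ Gamma0 M, ModularGroup.S • q ≠ q := by
    intro q hq
    have h0 := Cosets.card_fixed_S M
    rw [hnu] at h0
    rcases Nat.card_eq_zero.mp h0 with h | h
    · exact h.false ⟨q, hq⟩
    · exact h.not_finite inferInstance
  obtain ⟨m, y, z, c, hy, hsum⟩ := exists_certificate M (e := 2) (by norm_num) 1728 fun v hv =>
    ord_eq_of_no_fixed M ModularGroup.S (by
      rintro g ι (⟨h, -⟩ | ⟨-, h⟩ | ⟨-, h, -⟩)
      · rw [map_ofNat, map_ofNat] at h; norm_num at h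
      · exact h
      · exact absurd (by rw [map_ofNat, map_ofNat]) h) hfix (by
      have := Cosets.two_mul_card_S_orbits M
      rw [hnu, add_zero] at this
      exact this) v hv
  rw [map_ofNat] at hy hsum
  refine ⟨m, y, z, c, fun i => Subtype.ext ?_, Subtype.ext ?_⟩
  · push_cast; exact hy i
  · push_cast; exact hsum

end Fermat.Agent.LevelLowerP
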