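import Fermat.Agent.LevelLowerP.GeoBase
import Fermat.Agent.LevelLowerP.GeoDescent
import Fermat.Agent.Reduction.Level.Normal

/-!
# The affine chart over the unramified subring and its reduction
-/

set_option autoImplicit false

noncomputable section

namespace Fermat.Agent.LevelLowerP

open Polynomial ModularCurve Fermat.Agent.Igusa
open Fermat.Agent.Reduction Fermat.Agent.Reduction.Level
open scoped LaurentSeries

variable {p : ℕ} {R k : Type} [CommRing R] [IsDomain R] [IsDiscreteValuationRing R] [Field k]
  [CharP k p] [Fact p.Prime] [CharZero R] {S : Setup p R k} (U : Unram S) (M : ℕ) [NeZero M]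

omit [IsDomain R] [IsDiscreteValuationRing R] [CharP k p] [Fact (Nat.Prime p)] [CharZero R] in
theorem algebraMap_series (r : U.R₀) :
    algebraMap U.R₀ (LaurentSeries U.R₀) r = HahnSeries.C r := by
  rw [HahnSeries.algebraMap_apply']
  simp

omit [IsDomain R] [IsDiscreteValuationRing R] [CharP k p] [Fact (Nat.Prime p)] [CharZero R] in
theorem smul_series (r : U.R₀) (x : LaurentSeries U.R₀) : r • x = HahnSeries.C r * x :=
  HahnSeries.C_mul_eq_smul.symm

/-- The rational chart inside series over the subring. -/
def chartEmb : ratChart p M →+* LaurentSeries U.R₀ :=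
  (coeffMap U.zl₀).comp (ratChart p M).subtype

/-- The chart over the subring. -/
def chartA : Subalgebra U.R₀ (LaurentSeries U.R₀) :=
  Algebra.adjoin U.R₀ (Set.range (chartEmb U M))

omit [IsDiscreteValuationRing R] [NeZero M] in
theorem chartEmb_mem (y : ratChart p M) : chartEmb U M y ∈ chartA U M :=
  Algebra.subset_adjoin ⟨y, rfl⟩

omit [NeZero M] [IsDiscreteValuationRing R] in
theorem mem_chartA_iff {a : LaurentSeries U.R₀} :
    a ∈ chartA U M ↔ ∃ c : ratChart p M →₀ U.R₀,
      (c.sum fun y r => r • chartEmb U M y) = a := by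
  rw [← Subalgebra.mem_toSubmodule, chartA, Algebra.adjoin_eq_span,
    show Submonoid.closure (Set.range (chartEmb U M)) =
      MonoidHom.mrange (chartEmb U M : ratChart p M →* LaurentSeries U.R₀) from
      (Submonoid.closure_eq (MonoidHom.mrange (chartEmb U M : ratChart p M →* LaurentSeries U.R₀)))]
  rw [MonoidHom.coe_mrange]
  refine Iff.trans (@Finsupp.mem_span_range_iff_exists_finsupp (ratChart p M) (LaurentSeries U.R₀)
    U.R₀ _ _ Algebra.toModule (chartEmb U M) _) (exists_congr fun c => ?_)
  refine Eq.congr (Finsupp.sum_congr fun y _ => ?_) rfl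
  let _ := (Algebra.toModule : Module U.R₀ (LaurentSeries U.R₀))
  exact (Algebra.smul_def _ _).trans (by rw [algebraMap_series, smul_series])

omit [NeZero M] in
/-- The chart in the function field over the fraction field. -/
theorem chartA_mem_full {a : LaurentSeries U.R₀} (ha : a ∈ chartA U M) :
    coeffMap ((algebraMap R (FractionRing R)).comp U.R₀.subtype) a ∈
      modularFunctionFieldFullC (FractionRing R) M := by
  induction ha using Algebra.adjoin_induction with
  | mem x hx =>
    obtain ⟨y, rfl⟩ := hx
    have h : toQ p (y : LaurentSeries (ZL p)) ∈ modularFunctionFieldFullC ℚ M := by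
      rw [modularFunctionFieldFullC_rat]
      exact y.2.1
    have h2 := coeffMap_mem_fullC (algebraMap ℚ (FractionRing R)) h
    rw [toQ, coeffMap_coeffMap] at h2
    show coeffMap _ (coeffMap U.zl₀ _) ∈ _
    rw [coeffMap_coeffMap]
    rw [show ((algebraMap R (FractionRing R)).comp U.R₀.subtype).comp U.zl₀ =
      (algebraMap ℚ (FractionRing R)).comp (GaloisRep.ratLocalizedAt p).subtype from
      RingHom.ext fun q => (U.algebraMap_zl q).trans (eq_ratCast (algebraMap ℚ _) _).symm]
    exact h2
  | algebraMap r =>
    rw [algebraMap_series, HahnSeries.C_apply, coeffMap_single,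
      ← algebraMap_laurentSeries_eq_single]
    exact IntermediateField.algebraMap_mem _ _
  | add x y _ _ hx hy => rw [map_add]; exact add_mem hx hy
  | mul x y _ _ hx hy => rw [map_mul]; exact mul_mem hx hy

/-- The chart inside the function field. -/
def toF : chartA U M →+* modularFunctionFieldFullC (FractionRing R) M where
  toFun a := ⟨coeffMap ((algebraMap R (FractionRing R)).comp U.R₀.subtype) a.1,
    chartA_mem_full U M a.2⟩
  map_one' := Subtype.ext (map_one _)
  map_zero' := Subtype.ext (map_zero _)
  map_add' _ _ := Subtype.ext (map_add _ _ _)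
  map_mul' _ _ := Subtype.ext (map_mul _ _ _)

omit [NeZero M] in
theorem coe_toF (a : chartA U M) : Subtype.val (toF U M a) =
    coeffMap ((algebraMap R (FractionRing R)).comp U.R₀.subtype) (a : LaurentSeries U.R₀) := rfl

omit [NeZero M] in
theorem toF_injective : Function.Injective (toF U M) := fun a b h => by
  apply Subtype.ext
  ext n
  have := congrArg (fun x => (Subtype.val x).coeff n) h
  simp only [coe_toF, coeffMap_coeff, RingHom.comp_apply] at this
  exact congrArg Subtype.val
    (Subtype.val_injective (IsFractionRing.injective R (FractionRing R) this))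

variable [IsAlgClosed k] [Algebra (ZMod p) k] [Algebra.IsAlgebraic (ZMod p) k]

omit [IsDiscreteValuationRing R] [NeZero M] [IsAlgClosed k] [Algebra (ZMod p) k]
    [Algebra.IsAlgebraic (ZMod p) k] in
theorem coeffMap_res₀_chartEmb (y : ratChart p M) :
    coeffMap U.res₀ (chartEmb U M y) = chartRed p M k y := by
  show coeffMap _ (coeffMap _ _) = coeffMap _ _
  rw [coeffMap_coeffMap]
  exact congrArg (fun f => coeffMap f _) (RingHom.ext fun q => U.res₀_zl₀ q)

variable (hpM : ¬ p ∣ M)
include hpM

omit [IsDiscreteValuationRing R] in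
theorem chartA_red_mem {a : LaurentSeries U.R₀} (ha : a ∈ chartA U M) :
    coeffMap U.res₀ a ∈ regSeries k M := by
  induction ha using Algebra.adjoin_induction with
  | mem x hx =>
    obtain ⟨y, rfl⟩ := hx
    rw [coeffMap_res₀_chartEmb]
    obtain ⟨w, hw, hwy⟩ := chartRed_regFin p M k hpM y
    exact hwy ▸ regFin_iff.1 hw
  | algebraMap r =>
    rw [algebraMap_series, HahnSeries.C_apply, coeffMap_single,
      ← algebraMap_laurentSeries_eq_single]
    refine ⟨IntermediateField.algebraMap_mem _ _, ?_⟩
    have : evq k (Polynomial.C (U.res₀ r)) = algebraMap k (LaurentSeries k) (U.res₀ r) := by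
      rw [algebraMap_laurentSeries_eq_single, ← HahnSeries.C_apply]
      exact Polynomial.eval₂_C _ _
    exact this ▸ (evq k).isIntegralElem_map
  | add x y _ _ hx hy => rw [map_add]; exact add_mem hx hy
  | mul x y _ _ hx hy => rw [map_mul]; exact mul_mem_regSeries hx hy

/-- Reduction of the chart. -/
def redA : chartA U M →+* modularFunctionFieldFullC k M where
  toFun a := ⟨coeffMap U.res₀ a.1, (chartA_red_mem U M hpM a.2).1⟩
  map_one' := Subtype.ext (map_one _)
  map_zero' := Subtype.ext (map_zero _)
  map_add' _ _ := Subtype.ext (map_add _ _ _)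
  map_mul' _ _ := Subtype.ext (map_mul _ _ _)

omit [IsDiscreteValuationRing R] in
theorem coe_redA (a : chartA U M) :
    Subtype.val (redA U M hpM a) = coeffMap U.res₀ (a : LaurentSeries U.R₀) := rfl

omit [IsDiscreteValuationRing R] in
theorem redA_regFin (a : chartA U M) : RegFin (redA U M hpM a) :=
  regFin_iff.2 (chartA_red_mem U M hpM a.2)

omit [IsDiscreteValuationRing R] in
theorem redA_algebraMap (r : U.R₀) :
    redA U M hpM (algebraMap U.R₀ (chartA U M) r) = algebraMap k _ (U.res₀ r) := by
  apply Subtype.ext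
  rw [coe_redA]
  refine Eq.trans ?_ (IntermediateField.coe_algebraMap_apply _ _).symm
  rw [Subalgebra.coe_algebraMap, algebraMap_series]
  rw [HahnSeries.C_apply, coeffMap_single, algebraMap_laurentSeries_eq_single]

/-- A rational element of the chart. -/
def chartOf (y : ratChart p M) : chartA U M := ⟨chartEmb U M y, chartEmb_mem U M y⟩

omit [IsDiscreteValuationRing R] in
theorem coe_redA_chartOf (y : ratChart p M) :
    Subtype.val (redA U M hpM (chartOf U M y)) = chartRed p M k y :=
  coeffMap_res₀_chartEmb U M y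

omit [IsDiscreteValuationRing R] in
/-- Every regular function on the reduced curve is a reduction. -/
theorem redA_surj {w : modularFunctionFieldFullC k M} (hw : RegFin w) :
    ∃ a, redA U M hpM a = w := by
  let ι := FF.qbarToComplex
  have h := mem_span_chartRed p M k hpM (fun A π hπ =>
    Reduction.Level.normalLift_of_ne_zero ι hπ (natCast_ne_zero_of_not_dvd p M k hpM)) w hw
  obtain ⟨c, hc⟩ := Finsupp.mem_span_range_iff_exists_finsupp.1 h
  choose r hr using fun y => U.res₀_surjective (c y)
  refine ⟨∑ y ∈ c.support, algebraMap U.R₀ _ (r y) * chartOf U M y, Subtype.ext ?_⟩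
  rw [← hc, map_sum, AddSubmonoidClass.coe_finsetSum, Finsupp.sum]
  refine Finset.sum_congr rfl fun y _ => ?_
  rw [map_mul, redA_algebraMap, hr, MulMemClass.coe_mul, coe_redA_chartOf,
    IntermediateField.coe_algebraMap_apply, smul_eq_algebraMap_mul]

omit [IsAlgClosed k] [Algebra.IsAlgebraic (ZMod p) k] hpM [NeZero M] in
theorem exists_div_p {y : LaurentSeries (ZL p)} (hy : redS p y = 0) (hr : toQ p y ∈ ratInt M) :
    ∃ z : ratChart p M, y = (p : LaurentSeries (ZL p)) * (z : LaurentSeries (ZL p)) := by
  have hc : ∀ n, (p : ZL p) ∣ y.coeff n := fun n => (red0_eq_zero_iff p).1 (by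
    simpa [redS] using congrArg (fun s => s.coeff n) hy)
  choose z hz using hc
  have hp : (p : ZL p) ≠ 0 := fun h => (Fact.out : p.Prime).ne_zero (by
    have := congrArg Subtype.val h
    push_cast at this
    exact_mod_cast this)
  let zs : LaurentSeries (ZL p) :=
    { coeff := z
      isPWO_support' := y.isPWO_support.mono fun n hn h0 => hn (by
        have h1 := hz n
        rw [h0] at h1
        exact (mul_eq_zero.1 h1.symm).resolve_left hp) }
  have hys : y = (p : LaurentSeries (ZL p)) * zs := by
    ext n
    rw [← map_natCast (HahnSeries.C : ZL p →+* LaurentSeries (ZL p)), HahnSeries.C_apply,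
      HahnSeries.coeff_single_zero_mul]
    exact congrArg Subtype.val (hz n)
  have hz' : toQ p zs = HahnSeries.C ((p : ℚ)⁻¹) * toQ p y := by
    rw [hys, map_mul, map_natCast, ← mul_assoc, ← map_natCast (HahnSeries.C : ℚ →+* _), ← map_mul,
      inv_mul_cancel₀ (by exact_mod_cast (Fact.out : p.Prime).ne_zero), map_one, one_mul]
  refine ⟨⟨zs, ?_⟩, hys⟩
  rw [mem_ratChart, hz']
  refine mul_mem ⟨?_, ?_⟩ hr
  · rw [← modularFunctionFieldFullC_rat, HahnSeries.C_apply,
      ← algebraMap_laurentSeries_eq_single]
    exact IntermediateField.algebraMap_mem _ _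
  · have : evq ℚ (Polynomial.C ((p : ℚ)⁻¹)) = HahnSeries.C ((p : ℚ)⁻¹) := Polynomial.eval₂_C _ _
    exact this ▸ (evq ℚ).isIntegralElem_map

omit hpM [IsDiscreteValuationRing R] [IsAlgClosed k] [Algebra.IsAlgebraic (ZMod p) k]
    [NeZero M] in
theorem dvd_of_coeffMap_sum_eq_zero (s : Finset (ratChart p M)) :
    ∀ r : ratChart p M → U.R₀, coeffMap U.res₀ (∑ y ∈ s, r y • chartEmb U M y) = 0 →
      ∃ a : chartA U M, ∑ y ∈ s, r y • chartEmb U M y =
        (p : LaurentSeries U.R₀) * (a : LaurentSeries U.R₀) := by
  classical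
  induction hn : s.card using Nat.strong_induction_on generalizing s with
  | _ n ih =>
  intro r hr
  by_cases hli : LinearIndependent (ZMod p)
      fun y : s => redS p (((y : ratChart p M) : LaurentSeries (ZL p)))
  · have h0 : ∀ y : s, U.res₀ (r y) = 0 := by
      have h1 := Fintype.linearIndependent_iff.1 (linearIndependent_coeffMap (E := k) hli)
        (fun y => U.res₀ (r y))
      refine h1 ?_
      rw [map_sum, ← Finset.sum_attach] at hr
      rw [← hr]
      refine Finset.sum_congr rfl fun y _ => ?_
      rw [smul_series, map_mul, coeffMap_res₀_chartEmb,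
        HahnSeries.C_apply, coeffMap_single, smul_eq_algebraMap_mul,
        algebraMap_laurentSeries_eq_single, chartRed_apply,
        Subsingleton.elim (ZMod.castHom dvd_rfl k) (algebraMap (ZMod p) k)]
    choose r' hr' using fun y : s => U.res₀_eq_zero_iff.1 (h0 y)
    refine ⟨∑ y : s, algebraMap U.R₀ _ (r' y) * chartOf U M y, ?_⟩
    rw [← Finset.sum_attach, AddSubmonoidClass.coe_finsetSum, Finset.mul_sum]
    refine Finset.sum_congr rfl fun y _ => ?_
    rw [hr' y, smul_series, map_mul, map_natCast, mul_assoc, MulMemClass.coe_mul,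
      Subalgebra.coe_algebraMap, algebraMap_series]
    rfl
  · rw [Fintype.linearIndependent_iff] at hli
    push Not at hli
    obtain ⟨g, hg, y₀, hy₀⟩ := hli
    let c : ratChart p M → ℤ := fun y =>
      if h : y ∈ s then (((g y₀)⁻¹ * g ⟨y, h⟩ : ZMod p)).val else 0
    have hc0 : red0 p (c y₀ : ZL p) = 1 := by
      rw [map_intCast]
      simp [c, hy₀]
    have hsum : redS p (∑ y ∈ s, (c y : LaurentSeries (ZL p)) *
        (y : LaurentSeries (ZL p))) = 0 := by
      rw [map_sum, ← Finset.sum_attach]
      have h2 := congrArg (fun x => (HahnSeries.C ((g y₀)⁻¹) : LaurentSeries (ZMod p)) * x) hg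
      simp only [mul_zero, Finset.mul_sum] at h2
      refine Eq.trans (Finset.sum_congr rfl fun y _ => ?_) h2
      rw [map_mul, map_intCast, smul_eq_algebraMap_mul, algebraMap_laurentSeries_eq_single,
        ← HahnSeries.C_apply, ← mul_assoc, ← map_mul]
      congr 1
      rw [← map_intCast (HahnSeries.C : ZMod p →+* LaurentSeries (ZMod p))]
      simp [c, y.2]
    obtain ⟨z, hz⟩ := exists_div_p M hsum (by
      rw [map_sum]
      refine sum_mem fun y _ => ?_
      rw [map_mul, map_intCast]
      exact mul_mem (intCast_mem _ _) y.2)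
    have hz' : ∑ y ∈ s, (c y : LaurentSeries U.R₀) * chartEmb U M y =
        (p : LaurentSeries U.R₀) * chartEmb U M z := by
      have h := congrArg (coeffMap U.zl₀) hz
      simp only [map_sum, map_mul, map_intCast, map_natCast] at h
      exact h
    have hu : U.res₀ (c y₀ : U.R₀) = 1 := by
      rw [← map_intCast U.zl₀, U.res₀_zl₀, hc0, map_one]
    let u := (U.isUnit_of_res₀ (r := (c y₀ : U.R₀)) (by rw [hu]; exact one_ne_zero)).unit
    set t : U.R₀ := r y₀ * ↑u⁻¹
    have ht : t * (c y₀ : U.R₀) = r y₀ := by
      rw [show (c y₀ : U.R₀) = ↑u from rfl, mul_assoc, Units.inv_mul, mul_one]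
    let r₁ : ratChart p M → U.R₀ := fun y => r y - t * (c y : U.R₀)
    have hsplit : ∑ y ∈ s, r y • chartEmb U M y =
        ∑ y ∈ s.erase y₀, r₁ y • chartEmb U M y +
          algebraMap U.R₀ _ t * ((p : LaurentSeries U.R₀) * chartEmb U M z) := by
      rw [← hz', Finset.mul_sum, Finset.sum_erase _ (by
        simp only [r₁, ht, sub_self, smul_series, map_zero, zero_mul]), ← Finset.sum_add_distrib]
      refine Finset.sum_congr rfl fun y _ => ?_
      simp only [r₁, smul_series, algebraMap_series, map_sub, map_mul, map_intCast]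
      ring
    have hlt : (s.erase (y₀ : ratChart p M)).card < n := hn ▸ Finset.card_erase_lt_of_mem y₀.2
    obtain ⟨a, ha⟩ := ih _ hlt _ rfl r₁ (by
      have : CharP (LaurentSeries k) p := charP_of_injective_ringHom HahnSeries.C_injective p
      have hp0 : coeffMap U.res₀ (p : LaurentSeries U.R₀) = 0 := by
        rw [map_natCast, CharP.cast_eq_zero]
      rwa [hsplit, map_add, map_mul (coeffMap U.res₀), map_mul (coeffMap U.res₀), hp0, zero_mul,
        mul_zero, add_zero] at hr)
    refine ⟨a + algebraMap U.R₀ _ t * chartOf U M z, ?_⟩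
    rw [hsplit, ha]
    push_cast
    show _ = (p : LaurentSeries U.R₀) * (_ + algebraMap U.R₀ _ t * chartEmb U M z)
    ring

omit [IsDiscreteValuationRing R] in
/-- The kernel of reduction is generated by `p`. -/
theorem redA_eq_zero_iff {a : chartA U M} :
    redA U M hpM a = 0 ↔ algebraMap U.R₀ (chartA U M) (p : U.R₀) ∣ a := by
  constructor
  · intro h
    obtain ⟨c, hc⟩ := (mem_chartA_iff U M).1 a.2
    have h' := congrArg Subtype.val h
    rw [coe_redA, ← hc] at h'
    obtain ⟨b, hb⟩ := dvd_of_coeffMap_sum_eq_zero U M c.support c h'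
    refine ⟨b, Subtype.ext (hc.symm.trans (hb.trans ?_))⟩
    rw [map_natCast, MulMemClass.coe_mul]
    rfl
  · rintro ⟨b, rfl⟩
    rw [map_mul, redA_algebraMap, map_natCast, CharP.cast_eq_zero, map_zero, zero_mul]

end Fermat.Agent.LevelLowerP
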