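import Fermat.Agent.LevelLowerP.Hasse
import Fermat.Agent.Igusa.FullField
import Fermat.Agent.Cosets.Psi

/-!
# Integral modular equations for `j` and Kronecker's congruence
-/

set_option autoImplicit false

noncomputable section

open scoped MatrixGroups
open Polynomial ModularCurve Fermat.Agent.Igusa

namespace Fermat.Agent.LevelLowerP

variable {N : ℕ} [NeZero N]

omit [NeZero N] in
/-- Coefficientwise retraction of an algebraic equation satisfied by an integral series. -/
theorem exists_int_descent (φ : Rz N →+ ℤ) (hφ : φ 1 = 1) {P : Polynomial (Polynomial (Rz N))}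
    (hPm : P.Monic) {s : LaurentSeries ℤ}
    (hroot : P.eval₂ (evq (Rz N)) (coeffMap (Int.castRingHom (Rz N)) s) = 0) :
    ∃ Q : ℤ[X][X], Q.Monic ∧ Q.natDegree = P.natDegree ∧ Q.eval₂ (evq ℤ) s = 0 ∧
      ∀ l i, (Q.coeff l).coeff i = φ ((P.coeff l).coeff i) := by
  classical
  set n := P.natDegree with hn
  let c : ℕ → ℤ[X] := fun l =>
    ∑ i ∈ (P.coeff l).support, Polynomial.monomial i (φ ((P.coeff l).coeff i))
  have hc : ∀ l i, (c l).coeff i = φ ((P.coeff l).coeff i) := fun l i => by
    simp only [c, Polynomial.finsetSum_coeff, Polynomial.coeff_monomial, Finset.sum_ite_eq',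
      Polynomial.mem_support_iff]
    split_ifs with h
    · rfl
    · rw [not_ne_iff.mp h, map_zero]
  let Q : ℤ[X][X] := ∑ l ∈ Finset.range (n + 1), Polynomial.monomial l (c l)
  have hQc : ∀ l, Q.coeff l = c l := fun l => by
    simp only [Q, Polynomial.finsetSum_coeff, Polynomial.coeff_monomial, Finset.sum_ite_eq',
      Finset.mem_range]
    split_ifs with h
    · rfl
    · ext i
      rw [hc, Polynomial.coeff_eq_zero_of_natDegree_lt (p := P) (by omega)]
      simp
  have hQd : Q.natDegree ≤ n := Polynomial.natDegree_sum_le_of_forall_le _ _ fun l hl =>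
    (Polynomial.natDegree_monomial_le _).trans (Nat.lt_succ_iff.mp (Finset.mem_range.mp hl))
  have hQn : Q.coeff n = 1 := by
    ext i
    rw [hQc, hc, hn, hPm.coeff_natDegree, Polynomial.coeff_one, Polynomial.coeff_one]
    split_ifs
    · exact hφ
    · exact map_zero φ
  refine ⟨Q, Polynomial.monic_of_natDegree_le_of_coeff_eq_one n hQd hQn,
    le_antisymm hQd (Polynomial.le_natDegree_of_ne_zero (by rw [hQn]; exact one_ne_zero)), ?_,
    fun l i => by rw [hQc, hc]⟩
  ext m
  let G : ℕ → ℕ → ℤ := fun l i => (jqModC ℤ ^ i * s ^ l).coeff m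
  have hterm : ∀ (R : Type) [CommRing R] (g : ℤ →+* R) (q : R[X]) (D : ℕ), q.natDegree < D →
      ∀ l, (evq R q * coeffMap g s ^ l).coeff m = ∑ i ∈ Finset.range D, q.coeff i * g (G l i) := by
    intro R _ g q D hD l
    rw [evq, Polynomial.coe_eval₂RingHom, Polynomial.eval₂_eq_sum_range' _ hD, Finset.sum_mul,
      HahnSeries.coeff_sum]
    refine Finset.sum_congr rfl fun i _ => ?_
    rw [mul_assoc, HahnSeries.C_apply, HahnSeries.coeff_single_zero_mul, ← coeffMap_jqModC g,
      ← map_pow, ← map_pow, ← map_mul, coeffMap_coeff]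
  set D := (Finset.range (n + 1)).sup (fun l => max (P.coeff l).natDegree (c l).natDegree) + 1
  have hD : ∀ l ∈ Finset.range (n + 1), (P.coeff l).natDegree < D ∧ (c l).natDegree < D := by
    intro l hl
    have := Finset.le_sup (f := fun l => max (P.coeff l).natDegree (c l).natDegree) hl
    constructor <;> (simp only [D]; omega)
  have h1 := congrArg (fun s : LaurentSeries (Rz N) => φ (s.coeff m)) hroot
  simp only [Polynomial.eval₂_eq_sum_range' _ (Nat.lt_succ_self P.natDegree),
    HahnSeries.coeff_sum, map_sum, HahnSeries.coeff_zero, map_zero] at h1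
  rw [Polynomial.eval₂_eq_sum_range' _ (Nat.lt_succ_of_le hQd), HahnSeries.coeff_sum,
    HahnSeries.coeff_zero, ← h1]
  refine Finset.sum_congr rfl fun l hl => ?_
  rw [hQc, ← coeffMap_id s, hterm ℤ (RingHom.id ℤ) _ D (hD l hl).2, coeffMap_id,
    hterm (Rz N) (Int.castRingHom (Rz N)) _ D (hD l hl).1, map_sum]
  refine Finset.sum_congr rfl fun i _ => ?_
  rw [hc, RingHom.id_apply, mul_comm (((P.coeff l).coeff i)), eq_intCast, ← zsmul_eq_mul,
    map_zsmul, smul_eq_mul, mul_comm]

theorem serHom_jFam_cst0 {m : ℕ} [NeZero m] (hm : m ∣ N) :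
    serHom (jFam hm (cst0 : Cst N)) =
      qExpand (Rz N) N (coeffMap (Int.castRingHom (Rz N)) (qExpand ℤ m (jqModC ℤ))) := by
  have := neZero_expo hm (repg (cst0 : Cst N))
  have h1 := cls_of_mem hm (repg_cst0_mem (N := N))
  have h2 : cod m (repg (cst0 : Cst N)) = 1 := by rw [cod, h1, Nat.div_self (NeZero.pos m)]
  have htw : tw N m (repg (cst0 : Cst N)) = 1 := by
    have hu : zetaU N ^ N = 1 := Units.ext (zetaR_pow_self N)
    rw [tw, h2, Nat.div_one, mul_comm, zpow_mul, zpow_natCast, hu, one_zpow]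
  rw [coeffMap_qExpand, coeffMap_jqModC, qExpand_qExpand]
  simp only [jFam, serHom_mk, conjSer, htw, twist_one_apply]
  exact qExpand_congr (by rw [expo, h1, h2, Nat.div_one, mul_comm]) _

variable (N)

/-- The modular equation of level `N`, with integral coefficients and of degree the index. -/
theorem exists_jPoly : ∃ Q : ℤ[X][X], Q.Monic ∧ Q.natDegree = idx N ∧
    Q.eval₂ (evq ℤ) (jqNModC ℤ N) = 0 := by
  have hint : IsIntegral ℤ (zetaC N) :=
    (zetaC_isPrimitiveRoot N).isIntegral (NeZero.pos N)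
  let pb := Algebra.adjoin.powerBasis' hint
  classical
  let φ : Rz N →ₗ[ℤ] ℤ := pb.basis.constr ℤ fun i => if i = ⟨0, pb.dim_pos⟩ then (1 : ℤ) else 0
  have h0 : pb.basis ⟨0, pb.dim_pos⟩ = 1 := by rw [pb.basis_eq_pow]; simp
  have hφ : φ.toAddMonoidHom 1 = 1 := by
    rw [← h0, LinearMap.toAddMonoidHom_coe, pb.basis.constr_basis]
    simp
  obtain ⟨P, hPm, hPd, hP⟩ := exists_charPoly (jFam (N := N) dvd_rfl) (equivariant_jFam _)
  have hroot : P.eval₂ (evq (Rz N)) (coeffMap (Int.castRingHom (Rz N)) (jqNModC ℤ N)) = 0 := by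
    refine qExpand_injective N ?_
    rw [map_zero, Polynomial.hom_eval₂, show (qExpand (Rz N) N).comp (evq (Rz N)) = evJ (Rz N) N
      from RingHom.ext fun q => qExpand_evq N q, jqNModC, ← serHom_jFam_cst0 dvd_rfl,
      ← Polynomial.eval_map, hP, Polynomial.eval_prod]
    exact Finset.prod_eq_zero (Finset.mem_univ cst0) (by simp)
  obtain ⟨Q, hm, hd, hQ, -⟩ := exists_int_descent φ.toAddMonoidHom hφ hPm hroot
  exact ⟨Q, hm, hd.trans hPd, hQ⟩

variable (p : ℕ) [Fact p.Prime]

theorem card_Cst_prime : Fintype.card (Cst p) = p + 1 := by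
  have hp : p.Prime := Fact.out
  rw [← Nat.card_eq_fintype_card, Cst, Cosets.card_coset p]
  have := Cosets.dedekindPsi_prime_pow hp 0
  simpa using this

theorem red_jFam_prime (π : Rz p →+* ZMod p) (hπ : π (zetaR p) = 1) (i : Cst p)
    [Decidable (i = cst0)] :
    red π (jFam (dvd_refl p) i) =
      if i = cst0 then qExpand (ZMod p) p (jqModC (ZMod p)) ^ p else jqModC (ZMod p) := by
  have := neZero_expo (dvd_refl p) (repg i)
  have htw : Units.map (π : Rz p →* ZMod p) (tw p p (repg i)) = 1 := by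
    have h : Units.map (π : Rz p →* ZMod p) (zetaU p) = 1 := Units.ext (by simpa [zetaU] using hπ)
    rw [tw, map_zpow, h, one_zpow]
  have hser : red π (jFam (dvd_refl p) i) =
      qExpand (ZMod p) (expo p p (repg i)) (jqModC (ZMod p)) := by
    simp only [red, RingHom.comp_apply, jFam, serHom_mk, conjSer, ModularCurve.coeffMap_qExpand,
      coeffMap_twist, coeffMap_jqModC, htw, twist_one_apply]
  split_ifs with hi
  · have hcls : cls p (repg i) = p := hi ▸ cls_of_mem (dvd_refl p) repg_cst0_mem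
    rw [hser, qExpand_congr (show expo p p (repg i) = p * p by rw [expo_self, hcls]),
      ← qExpand_qExpand, qExpand_eq_pow p (jqModC (ZMod p))]
    simp only [map_pow, qExpand_eq_pow p (jqModC (ZMod p))]
  · have hne : cls p (repg i) ≠ p := fun h => hi (eq_cst0_of_cls h)
    have h1 : cls p (repg i) = 1 :=
      ((Nat.dvd_prime (Fact.out : p.Prime)).mp (cls_dvd p _)).resolve_right hne
    rw [hser, qExpand_congr (show expo p p (repg i) = 1 by rw [expo_self, h1]),
      qExpand_one_apply]

/-- Kronecker's congruence: the modular equation of level `p` is `(Y - X^p)(Y^p - X)` mod `p`. -/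
theorem exists_kronecker : ∃ Q : ℤ[X][X], Q.Monic ∧ Q.natDegree = p + 1 ∧
    Q.eval₂ (evq ℤ) (jqNModC ℤ p) = 0 ∧
    Q.map (Polynomial.mapRingHom (Int.castRingHom (ZMod p))) =
      (X - C (X ^ p)) * (X ^ p - C X) := by
  classical
  obtain ⟨π, hπ⟩ := exists_hom_one p
  obtain ⟨φ, hφ1, hφπ⟩ := exists_retraction p π hπ
  obtain ⟨P, hPm, hPd, hP⟩ := exists_charPoly (jFam (N := p) (dvd_refl p)) (equivariant_jFam _)
  have hroot : P.eval₂ (evq (Rz p)) (coeffMap (Int.castRingHom (Rz p)) (jqNModC ℤ p)) = 0 := by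
    refine qExpand_injective p ?_
    rw [map_zero, Polynomial.hom_eval₂, show (qExpand (Rz p) p).comp (evq (Rz p)) = evJ (Rz p) p
      from RingHom.ext fun q => qExpand_evq p q, jqNModC, ← serHom_jFam_cst0 dvd_rfl,
      ← Polynomial.eval_map, hP, Polynomial.eval_prod]
    exact Finset.prod_eq_zero (Finset.mem_univ cst0) (by simp)
  obtain ⟨Q, hQm, hQd, hQ, hQc⟩ := exists_int_descent φ hφ1 hPm hroot
  refine ⟨Q, hQm, hQd.trans (hPd.trans (card_Cst_prime p)), hQ, ?_⟩
  have hmap : Q.map (Polynomial.mapRingHom (Int.castRingHom (ZMod p))) =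
      P.map (Polynomial.mapRingHom π) := by
    ext l i
    simp only [Polynomial.coeff_map, Polynomial.coe_mapRingHom, eq_intCast, hQc, hφπ]
  rw [hmap]
  apply Polynomial.map_injective _ (evJ_injective (k := ZMod p) p)
  rw [Polynomial.map_map, show (evJ (ZMod p) p).comp (Polynomial.mapRingHom π) =
    (coeffMap π).comp (evJ (Rz p) p) from RingHom.ext fun q => evJ_map π q,
    ← Polynomial.map_map, hP, Polynomial.map_prod]
  simp only [Polynomial.map_sub, Polynomial.map_X, Polynomial.map_C, Polynomial.map_mul,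
    Polynomial.map_pow]
  show ∏ i, (X - C (red π (jFam (dvd_refl p) i))) = _
  rw [← Finset.mul_prod_erase Finset.univ _ (Finset.mem_univ cst0), red_jFam_prime p π hπ,
    if_pos rfl, Finset.prod_congr rfl fun i hi => by
      rw [red_jFam_prime p π hπ, if_neg (Finset.ne_of_mem_erase hi)],
    Finset.prod_const, Finset.card_erase_of_mem (Finset.mem_univ _), Finset.card_univ,
    card_Cst_prime, Nat.add_sub_cancel]
  have hX : evJ (ZMod p) p X = qExpand (ZMod p) p (jqModC (ZMod p)) := by simp [evJ, jW]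
  have : CharP (LaurentSeries (ZMod p)) p :=
    charP_of_injective_ringHom (HahnSeries.C_injective) p
  rw [sub_pow_char, ← C_pow, map_pow (evJ (ZMod p) p), hX, qExpand_eq_pow p (jqModC (ZMod p))]

end Fermat.Agent.LevelLowerP
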