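import Fermat.Agent.LevelLowerP.GeoInt
import Fermat.Agent.LevelLowerP.GeoApprox
import Fermat.Agent.LevelLowerP.GeoRelations

/-!
# Gauss norms on the function field of level `M`

Every function is a power of `ϖ` times a quotient of two polynomials in `j`, `j(Mτ)` with nonzero
reduction; so order and reduction along the special fibre are seen by every compatible expansion.
-/

set_option autoImplicit false

noncomputable section

namespace Fermat.Agent.LevelLowerP

open Polynomial ModularCurve Fermat.Agent.Igusa TrivSqZeroExt DualNumber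
open scoped LaurentSeries

section Ev

variable (K : Type*) [Field K] (M : ℕ)

/-- Evaluation of two-variable polynomials, given by coefficient vectors. -/
def val2 {A B : Type*} [CommRing A] [CommRing B] {n : ℕ} (f : A →+* B) (y : B)
    (a : Fin n → A) : B :=
  ∑ l, f (a l) * y ^ (l : ℕ)

theorem map_val2 {A B C : Type*} [CommRing A] [CommRing B] [CommRing C] {n : ℕ} (g : B →+* C)
    (f : A →+* B) (y : B) (a : Fin n → A) : g (val2 f y a) = val2 (g.comp f) (g y) a := by
  simp [val2, map_sum]

/-- Polynomials in `j` inside the function field. -/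
def evC : K[X] →+* modularFunctionFieldFullC K M := eval₂RingHom (algebraMap K _) (jC K M)

theorem coe_evC (b : K[X]) : ((evC K M b : modularFunctionFieldFullC K M) : LaurentSeries K) =
    evq K b := by
  have h : (SubringClass.subtype (modularFunctionFieldFullC K M)).comp (evC K M) = evq K := by
    refine Polynomial.ringHom_ext (fun c => ?_) ?_
    · simp only [RingHom.comp_apply, evC, evq, coe_eval₂RingHom, eval₂_C]
      show algebraMap K (LaurentSeries K) c = _
      rw [algebraMap_laurentSeries_eq_single, ← HahnSeries.C_apply]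
    · simp only [RingHom.comp_apply, evC, evq, coe_eval₂RingHom, eval₂_X]
      rfl
  exact RingHom.congr_fun h b

theorem evC_injective : Function.Injective (evC K M) := fun a b h =>
  evq_injective K (by rw [← coe_evC K M, ← coe_evC K M, h])

theorem coe_toBasePoly_eq (b : K[X]) :
    ((toBasePoly K M b : baseC K M) : modularFunctionFieldFullC K M) = evC K M b := by
  have h : (algebraMap (baseC K M) (modularFunctionFieldFullC K M)).comp (toBasePoly K M) =
      evC K M := by
    refine Polynomial.ringHom_ext (fun c => ?_) ?_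
    · simp [toBasePoly, evC]
    · simp [toBasePoly, evC, jBase]
  exact RingHom.congr_fun h b

end Ev

section JRatio

variable (K : Type*) [Field K] [CharZero K] (M : ℕ) [NeZero M]

/-- Rational series into series over `K`. -/
abbrev ofRat : LaurentSeries ℚ →+* LaurentSeries K := coeffMap (algebraMap ℚ K)

omit [CharZero K] in
theorem exists_intQ_root :
    ∃ Q : ℤ[X][X], Q.Monic ∧ Q.natDegree = idx M ∧
      Q.eval₂ (Polynomial.eval₂RingHom (Int.castRingHom _) (jC K M)) (jNC K M) = 0 := by
  obtain ⟨Q, hm, hd, hQ⟩ := exists_jPoly M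
  refine ⟨Q, hm, hd, ?_⟩
  apply (SubringClass.subtype (modularFunctionFieldFullC K M)).injective
  rw [map_zero, Polynomial.hom_eval₂]
  have h := congrArg (coeffMap (Int.castRingHom K)) hQ
  rw [map_zero, Polynomial.hom_eval₂, coeffMap_jqNModC] at h
  rw [← h]
  show Q.eval₂ _ (jqNModC K M) = _
  congr 1
  refine Polynomial.ringHom_ext (fun c => ?_) ?_
  · simp
  · simp [jC, evq, coeffMap_jqModC]

theorem adjoin_jNC_eq_top' : IntermediateField.adjoin (baseC K M) {jNC K M} = ⊤ := by
  refine eq_top_iff.mpr fun x _ => ?_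
  obtain ⟨x, hx⟩ := x
  set E := IntermediateField.adjoin (baseC K M) {jNC K M}
  let T : Subfield (LaurentSeries K) :=
    E.toSubfield.map (SubringClass.subtype (modularFunctionFieldFullC K M))
  have hj : jqModC K ∈ T := ⟨jC K M,
    IntermediateField.algebraMap_mem _ (jBase K M), rfl⟩
  have hjN : jqNModC K M ∈ T := ⟨jNC K M, IntermediateField.mem_adjoin_simple_self _ _, rfl⟩
  have hc : ∀ c : K, (HahnSeries.C c : LaurentSeries K) ∈ T := fun c => ⟨algebraMap K _ c,
    IntermediateField.algebraMap_mem _ (algebraMap K (baseC K M) c), by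
      show algebraMap K (LaurentSeries K) c = _
      rw [algebraMap_laurentSeries_eq_single, HahnSeries.C_apply]⟩
  have hev : ∀ b : K[X], evq K b ∈ T := fun b => by
    rw [evq, Polynomial.coe_eval₂RingHom, Polynomial.eval₂_eq_sum_range]
    exact sum_mem fun i _ => mul_mem (hc _) (pow_mem hj i)
  have hT : (modularFunctionFieldFullC K M).toSubfield ≤ T := by
    rw [modularFunctionFieldFullC, IntermediateField.adjoin_toSubfield, Subfield.closure_le]
    rintro y (⟨c, rfl⟩ | ⟨d, hd0, hd, rfl⟩)
    · show algebraMap K (LaurentSeries K) c ∈ T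
      rw [algebraMap_laurentSeries_eq_single, ← HahnSeries.C_apply]
      exact hc c
    · have := hd0
      obtain ⟨b, hb, a, hab⟩ := exists_combination M
        (y := qExpand ℚ d jq) (IntermediateField.subset_adjoin ℚ _ ⟨d, hd0, hd, rfl⟩)
      have h := congrArg (ofRat K) hab
      simp only [map_mul, map_sum, map_pow, coeffMap_evq, ← jqNModC_rat, coeffMap_jqNModC,
        coeffMap_qExpand, ← jqModC_rat, coeffMap_jqModC] at h
      have hb0 : evq K (b.map (algebraMap ℚ K)) ≠ 0 := fun e => hb
        (Polynomial.map_injective _ (algebraMap ℚ K).injective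
          ((evq_injective K (e.trans (map_zero _).symm)).trans (Polynomial.map_zero _).symm))
      show qExpand K d (jqModC K) ∈ T
      rw [eq_div_of_mul_eq hb0 ((mul_comm _ _).trans h)]
      exact div_mem (sum_mem fun l _ => mul_mem (hev _) (pow_mem hjN _)) (hev _)
  obtain ⟨y, hy, hyx⟩ := hT hx
  rwa [show y = ⟨x, hx⟩ from Subtype.ext hyx] at hy

theorem exists_val2_eq (x : modularFunctionFieldFullC K M) :
    ∃ b : K[X], b ≠ 0 ∧ ∃ a : Fin (idx M) → K[X],
      x * evC K M b = val2 (evC K M) (jNC K M) a := by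
  classical
  obtain ⟨Q, hQm, hQd, hQ⟩ := exists_intQ_root K M
  let τ : ℤ[X] →+* baseC K M := eval₂RingHom (Int.castRingHom _) (jBase K M)
  set P := Q.map τ
  have hP : aeval (jNC K M) P = 0 := by
    rw [aeval_def, Polynomial.eval₂_map, ← hQ]
    congr 1
    refine Polynomial.ringHom_ext (fun c => by simp) (by simp [τ, jBase])
  have hint : IsIntegral (baseC K M) (jNC K M) := ⟨P, hQm.map _, hP⟩
  have hx : x ∈ IntermediateField.adjoin (baseC K M) {jNC K M} := by
    rw [adjoin_jNC_eq_top' K M]; trivial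
  rw [← IntermediateField.mem_toSubalgebra,
    IntermediateField.adjoin_simple_toSubalgebra_of_isAlgebraic hint.isAlgebraic,
    Algebra.adjoin_singleton_eq_range_aeval] at hx
  obtain ⟨H₀, rfl⟩ := hx
  set H := H₀ %ₘ P
  have hdeg : H.natDegree < idx M := by
    have hne : P ≠ 1 := fun h => by
      have h2 := congrArg Polynomial.natDegree h
      rw [hQm.natDegree_map, hQd, natDegree_one] at h2
      exact Fintype.card_ne_zero h2
    simpa [P, hQm.natDegree_map, hQd] using natDegree_modByMonic_lt H₀ (hQm.map τ) hne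
  have hev : aeval (jNC K M) H₀ = aeval (jNC K M) H :=
    (aeval_modByMonic_eq_self_of_root hP).symm
  choose c hc using fun l : Fin (idx M) => toBase_surjective K M (H.coeff l)
  obtain ⟨b, hb⟩ := IsLocalization.exist_integer_multiples (nonZeroDivisors K[X])
    (Finset.univ : Finset (Fin (idx M))) c
  choose a ha using fun l => hb l (Finset.mem_univ l)
  refine ⟨b, nonZeroDivisors.ne_zero b.2, a, ?_⟩
  show aeval (jNC K M) H₀ * _ = _
  rw [hev, aeval_eq_sum_range' hdeg, Finset.sum_mul, val2,
    ← Fin.sum_univ_eq_sum_range (fun i => H.coeff i • jNC K M ^ i * evC K M b)]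
  refine Finset.sum_congr rfl fun l _ => ?_
  have h := congrArg (fun z => ((toBase K M z : baseC K M) : modularFunctionFieldFullC K M))
    (ha l)
  simp only [Algebra.smul_def, map_mul, MulMemClass.coe_mul, toBase,
    IsFractionRing.lift_algebraMap, coe_toBasePoly_eq] at h
  rw [h, ← toBase, hc, Algebra.smul_def]
  show algebraMap (baseC K M) _ (H.coeff l) * _ * _ = _
  rw [show algebraMap (baseC K M) (modularFunctionFieldFullC K M) (H.coeff l) =
    ((H.coeff l : baseC K M) : modularFunctionFieldFullC K M) from rfl]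
  ring

end JRatio

variable {p : ℕ} {R k : Type*} [CommRing R] [IsDomain R] [IsDiscreteValuationRing R] [Field k]
  [CharP k p] [Fact p.Prime] (S : Setup p R k)

local notation "K" => FractionRing R

namespace Setup

include S in
omit [IsDiscreteValuationRing R] in
theorem charZero : CharZero R := by
  have hp : (p : R) ≠ 0 := by
    rw [S.natCast_eq]
    exact mul_ne_zero (pow_ne_zero _ S.irreducible_ϖ.ne_zero)
      fun h => S.fst_w_ne_zero (by rw [h, map_zero]; simp)
  obtain ⟨q, hq⟩ := CharP.exists R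
  rcases CharP.char_is_prime_or_zero R q with hqp | rfl
  · exfalso
    have h := congrArg S.res (CharP.cast_eq_zero R q)
    rw [map_natCast, map_zero, CharP.cast_eq_zero_iff k p] at h
    rw [(Nat.prime_dvd_prime_iff_eq Fact.out hqp).mp h] at hp
    exact hp (CharP.cast_eq_zero R q)
  · exact CharP.charP_to_charZero R

omit [CharP k p] [Fact (Nat.Prime p)] in
/-- A nonzero family of polynomials over the fraction field is a power of `ϖ` times one with
nonzero reduction. -/
theorem exists_primitive {ι : Type*} [Finite ι] (f : ι → Polynomial K) (hf : f ≠ 0) :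
    ∃ (n : ℤ) (a : ι → R[X]), (∃ l, (a l).map S.res ≠ 0) ∧
      ∀ l, f l = C (algebraMap R K S.ϖ ^ n) * (a l).map (algebraMap R K) := by
  classical
  cases nonempty_fintype ι
  have key : ∀ l, ∃ (d : R) (q : R[X]), d ≠ 0 ∧ q.map (algebraMap R K) =
      C (algebraMap R K d) * f l := fun l => by
    obtain ⟨d, hd, h⟩ := IsLocalization.integerNormalization_spec (nonZeroDivisors R) (f l)
    exact ⟨d, _, nonZeroDivisors.ne_zero hd,
      h.trans (by rw [Algebra.smul_def, Polynomial.algebraMap_apply])⟩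
  choose d q hd hq using key
  set D := ∏ l, d l with hD
  have hD0 : D ≠ 0 := Finset.prod_ne_zero_iff.mpr fun l _ => hd l
  obtain ⟨g, hg⟩ : ∃ g : ι → R[X], ∀ l, (g l).map (algebraMap R K) = C (algebraMap R K D) * f l :=
    ⟨fun l => C (∏ i ∈ Finset.univ.erase l, d i) * q l, fun l => by
    rw [Polynomial.map_mul, Polynomial.map_C, hq, hD, ← Finset.mul_prod_erase _ d
      (Finset.mem_univ l), map_mul, C_mul]
    ring⟩
  obtain ⟨l₀, hl₀⟩ := Function.ne_iff.mp hf
  have hD0' : algebraMap R K D ≠ 0 :=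
    (map_ne_zero_iff _ (IsFractionRing.injective R K)).2 hD0
  obtain ⟨i₀, hi₀⟩ : ∃ i, (g l₀).coeff i ≠ 0 := by
    by_contra h
    push Not at h
    have : g l₀ = 0 := Polynomial.ext fun i => by simpa using h i
    have h2 := hg l₀
    rw [this, Polynomial.map_zero, eq_comm, mul_eq_zero, C_eq_zero] at h2
    exact h2.elim hD0' hl₀
  have hex : ∃ m, ¬ ∀ l, C (S.ϖ ^ (m + 1)) ∣ g l := by
    obtain ⟨m, u, e⟩ := IsDiscreteValuationRing.eq_unit_mul_pow_irreducible hi₀ S.irreducible_ϖ
    refine ⟨m, fun h => ?_⟩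
    have h2 := (Polynomial.C_dvd_iff_dvd_coeff _ _).mp (h l₀) i₀
    rw [e, pow_succ, mul_comm (u : R),
      mul_dvd_mul_iff_left (pow_ne_zero _ S.irreducible_ϖ.ne_zero)] at h2
    exact S.irreducible_ϖ.not_isUnit (isUnit_of_dvd_unit h2 u.isUnit)
  obtain ⟨m, hdiv, hndiv⟩ : ∃ m, (∀ l, C (S.ϖ ^ m) ∣ g l) ∧ ∃ l, ¬ C (S.ϖ ^ (m + 1)) ∣ g l := by
    refine ⟨Nat.find hex, ?_, not_forall.mp (Nat.find_spec hex)⟩
    rcases Nat.eq_zero_or_pos (Nat.find hex) with h0 | h0
    · intro l; rw [h0, pow_zero, C_1]; exact one_dvd _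
    · obtain ⟨j, hj⟩ := Nat.exists_eq_add_of_le h0
      have := not_not.mp (Nat.find_min hex (show j < Nat.find hex by omega))
      rw [hj, add_comm, show j + Nat.succ 0 = j + 1 from rfl]
      exact this
  choose g' hg' using hdiv
  obtain ⟨e, u, hu⟩ := IsDiscreteValuationRing.eq_unit_mul_pow_irreducible hD0 S.irreducible_ϖ
  obtain ⟨l₁, hl₁⟩ := hndiv
  refine ⟨(m : ℤ) - e, fun l => C (↑u⁻¹ : R) * g' l, ⟨l₁, fun h => hl₁ ?_⟩, fun l => ?_⟩
  · rw [Polynomial.map_mul, Polynomial.map_C, mul_eq_zero, C_eq_zero] at h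
    have h' : (g' l₁).map S.res = 0 :=
      h.resolve_left fun h0 => (S.isUnit_iff_res_ne_zero.1 (u⁻¹).isUnit) h0
    have hd : C S.ϖ ∣ g' l₁ := (Polynomial.C_dvd_iff_dvd_coeff _ _).mpr fun i =>
      S.res_eq_zero_iff.1 (by rw [← Polynomial.coeff_map, h', coeff_zero])
    obtain ⟨w, hw⟩ := hd
    refine ⟨w, ?_⟩
    rw [hg' l₁, hw, pow_succ, C_mul, mul_assoc]
  · have hπ : algebraMap R K S.ϖ ≠ 0 :=
      (map_ne_zero_iff _ (IsFractionRing.injective R K)).2 S.irreducible_ϖ.ne_zero
    have h := hg l
    rw [hg' l, hu, Polynomial.map_mul, Polynomial.map_C, map_mul, map_pow (algebraMap R K) S.ϖ m,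
      map_pow (algebraMap R K) S.ϖ e] at h
    have hu' : algebraMap R K (u : R) * algebraMap R K (↑u⁻¹ : R) = 1 := by
      rw [← map_mul, ← Units.val_mul, mul_inv_cancel, Units.val_one, map_one]
    refine mul_left_cancel₀ (C_ne_zero.mpr (mul_ne_zero (left_ne_zero_of_mul_eq_one hu')
      (pow_ne_zero e hπ))) ?_
    rw [← h, Polynomial.map_mul, Polynomial.map_C, zpow_sub₀ hπ, zpow_natCast, zpow_natCast,
      ← mul_assoc, ← C_mul, ← mul_assoc, ← C_mul]
    congr 2
    field_simp
    exact hu'.symm

end Setup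

variable (M : ℕ) [NeZero M]

/-- The constants. -/
def cF : R →+* modularFunctionFieldFullC K M := (algebraMap K _).comp (algebraMap R K)

/-- Polynomials in `j` over `R`, in the function field. -/
def evR : R[X] →+* modularFunctionFieldFullC K M := eval₂RingHom (cF M) (jC K M)

omit [IsDiscreteValuationRing R] [NeZero M] in
theorem evC_map (a : R[X]) : evC K M (a.map (algebraMap R K)) = evR M a := by
  simp [evC, evR, cF, Polynomial.eval₂_map]

/-- Polynomials in `j` over `R`, reduced with derivative. -/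
def evδ : R[X] →+* DualNumber (modularFunctionFieldFullC k M) :=
  eval₂RingHom ((dualMap (algebraMap k _)).comp S.δ) (inl (jC k M))

omit [IsDomain R] [IsDiscreteValuationRing R] [CharP k p] [Fact (Nat.Prime p)] [NeZero M] in
theorem fst_evδ (a : R[X]) : (evδ S M a).fst = eval₂ (algebraMap k _) (jC k M) (a.map S.res) := by
  have h : (TrivSqZeroExt.fstHom (modularFunctionFieldFullC k M) (modularFunctionFieldFullC k M)
      (modularFunctionFieldFullC k M)).toRingHom.comp (evδ S M) =
      (eval₂RingHom (algebraMap k _) (jC k M)).comp (Polynomial.mapRingHom S.res) := by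
    refine Polynomial.ringHom_ext (fun c => ?_) ?_
    · simp [evδ, Setup.res_apply]
    · simp [evδ]
  exact RingHom.congr_fun h a

omit [IsDomain R] [IsDiscreteValuationRing R] [Fact (Nat.Prime p)] in
theorem fst_val2_evδ_ne_zero (hpM : ¬ p ∣ M) [IsAlgClosed k] {a : Fin (idx M) → R[X]}
    (ha : ∃ l, (a l).map S.res ≠ 0) :
    (val2 (evδ S M) (inl (jNC k M)) a).fst ≠ 0 := by
  obtain ⟨l₀, hl₀⟩ := ha
  intro h
  have : NeZero (M : k) := ⟨fun h0 => hpM ((CharP.cast_eq_zero_iff k p M).mp h0)⟩
  obtain ⟨y, hy⟩ := HasEnoughRootsOfUnity.exists_primitiveRoot k M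
  refine hl₀ (congrFun (q_independent M hy (fun l => (a l).map S.res) ?_) l₀)
  have h2 : (TrivSqZeroExt.fstHom (modularFunctionFieldFullC k M) (modularFunctionFieldFullC k M)
      (modularFunctionFieldFullC k M)).toRingHom (val2 (evδ S M) (inl (jNC k M)) a) = 0 := h
  rw [map_val2] at h2
  have h3 := congrArg (Subtype.val : _ → LaurentSeries k) h2
  simp only [val2, AddSubmonoidClass.coe_finsetSum, ZeroMemClass.coe_zero] at h3
  rw [← h3]
  refine Finset.sum_congr rfl fun l _ => ?_
  simp only [MulMemClass.coe_mul, SubmonoidClass.coe_pow, RingHom.comp_apply,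
    AlgHom.toRingHom_eq_coe, RingHom.coe_coe]
  rw [show (TrivSqZeroExt.fstHom _ _ _) (evδ S M (a l)) = (evδ S M (a l)).fst from rfl,
    fst_evδ, show eval₂ (algebraMap k (modularFunctionFieldFullC k M)) (jC k M)
      ((a l).map S.res) = evC k M ((a l).map S.res) from rfl]
  rw [show (((evC k M ((a l).map S.res)) : modularFunctionFieldFullC k M) : LaurentSeries k) =
    evq k ((a l).map S.res) from coe_evC k M _]
  rfl

omit [IsDomain R] [IsDiscreteValuationRing R] [CharP k p] [Fact (Nat.Prime p)] [NeZero M] in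
theorem fst_evδ_ne_zero {b : R[X]} (hb : b.map S.res ≠ 0) : (evδ S M b).fst ≠ 0 := by
  rw [fst_evδ]
  exact (map_ne_zero_iff (evC k M) (evC_injective k M)).2 hb

/-- A normalised representation of a nonzero function. -/
structure IsGaussRep (x : modularFunctionFieldFullC K M) (n : ℤ) (a : Fin (idx M) → R[X])
    (b : R[X]) : Prop where
  num : ∃ l, (a l).map S.res ≠ 0
  den : b.map S.res ≠ 0
  eq : x * evR M b = cF M S.ϖ ^ n * val2 (evR M) (jNC K M) a

/-- An expansion of the function field compatible with the reduction of `j` and `j(Mτ)`. -/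
structure Compat {O κ' : Type*} [CommRing O] [IsDomain O] [Field κ'] (B : Branch O κ')
    (ι : modularFunctionFieldFullC K M →+* FractionRing O)
    (e : modularFunctionFieldFullC k M →+* κ') : Prop where
  map_ϖ : ι (cF M S.ϖ) = algebraMap O _ B.ϖ
  int_const : ∀ r, B.IsInt (ι (cF M r))
  δ_const : ∀ r, B.intδ ⟨_, int_const r⟩ = dualMap e (dualMap (algebraMap k _) (S.δ r))
  int_j : B.IsInt (ι (jC K M))
  δ_j : B.intδ ⟨_, int_j⟩ = inl (e (jC k M))
  int_jN : B.IsInt (ι (jNC K M))
  δ_jN : B.intδ ⟨_, int_jN⟩ = inl (e (jNC k M))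

theorem exists_isGaussRep (_hpM : ¬ p ∣ M) [IsAlgClosed k] {x : modularFunctionFieldFullC K M}
    (hx : x ≠ 0) : ∃ n a b, IsGaussRep S M x n a b := by
  have := S.charZero
  obtain ⟨b, hb, a, hab⟩ := exists_val2_eq K M x
  obtain ⟨nb, b', ⟨_, hb'⟩, hbe⟩ := S.exists_primitive (fun _ : Unit => b)
    (fun h => hb (congrFun h ()))
  have ha : a ≠ 0 := by
    rintro rfl
    rw [show val2 (evC K M) (jNC K M) (0 : Fin (idx M) → Polynomial K) = 0 by simp [val2],
      mul_eq_zero] at hab
    exact hab.elim hx fun h => hb (evC_injective K M (h.trans (map_zero _).symm))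
  obtain ⟨na, a', ha', hae⟩ := S.exists_primitive a ha
  refine ⟨na - nb, a', b' (), ha', hb', ?_⟩
  have hπ : cF M S.ϖ ≠ 0 := (_root_.map_ne_zero (algebraMap K (modularFunctionFieldFullC K M))).2
    ((map_ne_zero_iff _ (IsFractionRing.injective R K)).2 S.irreducible_ϖ.ne_zero)
  have hC : ∀ n : ℤ, evC K M (Polynomial.C (algebraMap R K S.ϖ ^ n)) = cF M S.ϖ ^ n := fun n => by
    simp [evC, cF, map_zpow₀]
  rw [hbe (), map_mul, hC, evC_map] at hab
  have hv : val2 (evC K M) (jNC K M) a = cF M S.ϖ ^ na * val2 (evR M) (jNC K M) a' := by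
    rw [val2, val2, Finset.mul_sum]
    refine Finset.sum_congr rfl fun l _ => ?_
    rw [hae l, map_mul, hC, evC_map, mul_assoc]
  rw [hv] at hab
  rw [zpow_sub₀ hπ, div_mul_eq_mul_div, ← hab, eq_div_iff (zpow_ne_zero _ hπ)]
  ring

namespace Compat

variable {S M}

variable {O κ' : Type*} [CommRing O] [IsDomain O] [Field κ'] {B : Branch O κ'}
  {ι : modularFunctionFieldFullC (FractionRing R) M →+* FractionRing O}
  {e : modularFunctionFieldFullC k M →+* κ'} (h : Compat S M B ι e)

include h

omit [IsDiscreteValuationRing R] [CharP k p] [Fact (Nat.Prime p)] in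
theorem exists_evR (a : R[X]) : ∃ x : B.intRing (FractionRing O),
    (x : FractionRing O) = ι (evR M a) ∧ B.intδ x = dualMap e (evδ S M a) := by
  induction a using Polynomial.induction_on' with
  | add a b ha hb =>
    obtain ⟨x, hx, hx'⟩ := ha
    obtain ⟨y, hy, hy'⟩ := hb
    exact ⟨x + y, by simp [hx, hy], by simp [hx', hy']⟩
  | monomial i r =>
    refine ⟨⟨_, h.int_const r⟩ * ⟨_, h.int_j⟩ ^ i, ?_, ?_⟩
    · simp [evR]
    · rw [map_mul, map_pow, h.δ_const, h.δ_j, evδ, Polynomial.coe_eval₂RingHom,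
        Polynomial.eval₂_monomial, map_mul, map_pow, RingHom.comp_apply]
      congr 2
      refine TrivSqZeroExt.ext ?_ ?_ <;> simp

omit [IsDiscreteValuationRing R] [CharP k p] [Fact (Nat.Prime p)] in
theorem exists_val (a : Fin (idx M) → R[X]) : ∃ x : B.intRing (FractionRing O),
    (x : FractionRing O) = ι (val2 (evR M) (jNC K M) a) ∧
      B.intδ x = dualMap e (val2 (evδ S M) (inl (jNC k M)) a) := by
  choose x hx hx' using fun l => h.exists_evR (a l)
  refine ⟨∑ l, x l * ⟨_, h.int_jN⟩ ^ (l : ℕ), ?_, ?_⟩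
  · rw [map_val2, val2]
    simp [hx]
  · rw [map_val2, val2, map_sum]
    refine Finset.sum_congr rfl fun l _ => ?_
    rw [map_mul, map_pow, hx', h.δ_jN, RingHom.comp_apply]
    congr 2
    refine TrivSqZeroExt.ext ?_ ?_ <;> simp

omit [IsDiscreteValuationRing R] [Fact (Nat.Prime p)] in
theorem ord_sp_of_rep (hpM : ¬ p ∣ M) [IsAlgClosed k] {x : modularFunctionFieldFullC K M} {n : ℤ}
    {a : Fin (idx M) → R[X]} {b : R[X]} (hr : IsGaussRep S M x n a b) :
    B.ord (ι x) = n ∧ B.sp (ι x) = dualMap e
      (val2 (evδ S M) (inl (jNC k M)) a * (evδ S M b)⁻¹) := by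
  obtain ⟨u, hu, hu'⟩ := h.exists_val a
  obtain ⟨v, hv, hv'⟩ := h.exists_evR b
  have hu0 : (B.intδ u).fst ≠ 0 := by
    rw [hu', fst_dualMap]
    exact (_root_.map_ne_zero e).2 (fst_val2_evδ_ne_zero S M hpM hr.num)
  have hv0 : (B.intδ v).fst ≠ 0 := by
    rw [hv', fst_dualMap]
    exact (_root_.map_ne_zero e).2 (fst_evδ_ne_zero S M hr.den)
  have hd : evR M b ≠ 0 := fun h0 => B.ne_zero_of_intδ hv0 (by rw [hv, h0, map_zero])
  have hx : ι x = algebraMap O _ B.ϖ ^ n * ((u : FractionRing O) / (v : FractionRing O)) := by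
    rw [hu, hv, eq_div_iff_mul_eq hd |>.mpr hr.eq, map_div₀, map_mul, map_zpow₀, h.map_ϖ,
      mul_div_assoc]
  obtain ⟨h1, h2⟩ := B.ord_sp_zpow_ϖ_mul_div n hu0 hv0
  rw [← hx] at h1 h2
  refine ⟨h1, h2.trans ?_⟩
  rw [hu', hv', map_mul]
  congr 1
  refine TrivSqZeroExt.ext ?_ ?_ <;> simp [TrivSqZeroExt.snd_inv]

end Compat

variable (hpM : ¬ p ∣ M) [IsAlgClosed k]

open Classical in
/-- The order along the special fibre. -/
def ord₀ (x : modularFunctionFieldFullC K M) : ℤ :=
  if hx : x ≠ 0 then (exists_isGaussRep S M hpM hx).choose else 0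

open Classical in
/-- Reduction with derivative along the special fibre. -/
def sp₀ (x : modularFunctionFieldFullC K M) : DualNumber (modularFunctionFieldFullC k M) :=
  if hx : x ≠ 0 then
    val2 (evδ S M) (inl (jNC k M)) (exists_isGaussRep S M hpM hx).choose_spec.choose *
      (evδ S M (exists_isGaussRep S M hpM hx).choose_spec.choose_spec.choose)⁻¹
  else 0

variable {S M}

/-- Compatible expansions see the order and reduction along the special fibre. -/
theorem Compat.ord_sp_eq {O κ' : Type*} [CommRing O] [IsDomain O] [Field κ'] {B : Branch O κ'}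
    {ι : modularFunctionFieldFullC (FractionRing R) M →+* FractionRing O}
    {e : modularFunctionFieldFullC k M →+* κ'} (h : Compat S M B ι e)
    (x : modularFunctionFieldFullC K M) (hx : x ≠ 0) :
    B.ord (ι x) = ord₀ S M hpM x ∧ B.sp (ι x) = dualMap e (sp₀ S M hpM x) := by
  rw [ord₀, sp₀, dif_pos hx, dif_pos hx]
  exact h.ord_sp_of_rep hpM (exists_isGaussRep S M hpM hx).choose_spec.choose_spec.choose_spec

/-- Such an expansion as a comparison datum along an embedding into a larger field. -/
def Compat.expn {L O κ' : Type*} [Field L] [CommRing O] [IsDomain O] [Field κ'] {B : Branch O κ'}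
    {incl : modularFunctionFieldFullC K M →+* L} {ι : L →+* FractionRing O}
    {e : modularFunctionFieldFullC k M →+* κ'} (h : Compat S M B (ι.comp incl) e) :
    Expn incl (ord₀ S M hpM) (sp₀ S M hpM) O κ' where
  B := B
  ι := ι
  e := e
  ord_eq y hy := (h.ord_sp_eq hpM y hy).1
  sp_eq y hy := (h.ord_sp_eq hpM y hy).2

end Fermat.Agent.LevelLowerP
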