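import Fermat.Agent.LevelLowerP.GeoAtkin
import Fermat.Agent.LevelLowerP.GeoPoints

/-!
# Frobenius relative to the field of constants, bounds for lifts of pairs
-/

set_option autoImplicit false

noncomputable section

namespace Fermat.Agent.LevelLowerP

open ModularCurve Fermat.Agent.Igusa
open scoped LaurentSeries

variable (p : ℕ) [Fact p.Prime]

theorem qExpand_jq_eq_pow {k : Type*} [Field k] [CharP k p] (d : ℕ) [NeZero d] :
    qExpand k p (qExpand k d (jqModC k)) = qExpand k d (jqModC k) ^ p := by
  let _ := ZMod.algebra k p
  have h := congrArg (coeffMap (algebraMap (ZMod p) k))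
    (qExpand_eq_pow p (qExpand (ZMod p) d (jqModC (ZMod p))))
  simpa only [coeffMap_qExpand, map_pow, coeffMap_jqModC] using h

variable (k : Type*) [Field k] [CharP k p] (M : ℕ) [NeZero M]

omit [NeZero M] in
theorem qExpand_mem_full_charP (x : modularFunctionFieldFullC k M) :
    qExpand k p (x : LaurentSeries k) ∈ modularFunctionFieldFullC k M := by
  have hle : (modularFunctionFieldFullC k M).toSubfield ≤
      (modularFunctionFieldFullC k M).toSubfield.comap (qExpand k p) := by
    rw [modularFunctionFieldFullC, IntermediateField.adjoin_toSubfield, Subfield.closure_le]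
    rintro y (⟨c, rfl⟩ | ⟨d, hd0, hd, rfl⟩)
    · show qExpand k p (algebraMap k (LaurentSeries k) c) ∈ modularFunctionFieldFullC k M
      rw [algebraMap_laurentSeries_eq_single, ← HahnSeries.C_apply, qExpand_C, HahnSeries.C_apply,
        ← algebraMap_laurentSeries_eq_single]
      exact IntermediateField.algebraMap_mem _ _
    · have := hd0
      show qExpand k p (qExpand k d (jqModC k)) ∈ modularFunctionFieldFullC k M
      rw [qExpand_jq_eq_pow]
      exact pow_mem (jqModCd_mem_full k M hd) p
  exact hle x.2

/-- The Frobenius of the reduced curve relative to the constants. -/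
def phiK : modularFunctionFieldFullC k M →+* modularFunctionFieldFullC k M :=
  ((qExpand k p).comp (SubringClass.subtype (modularFunctionFieldFullC k M))).codRestrict
    (modularFunctionFieldFullC k M) (qExpand_mem_full_charP p k M)

omit [NeZero M] in
/-- On expansions `phiK` is `q ↦ q ^ p`. -/
theorem coe_phiK (x : modularFunctionFieldFullC k M) :
    Subtype.val (phiK p k M x) = qExpand k p (Subtype.val x) := rfl

variable (K : Type*) [Field K] [CharZero K]

/-- Poles at most those of `j ^ n` at the cusps of the component at infinity, none where `j` is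
finite. -/
def CuspBdd (n : ℕ) (x : modularFunctionFieldFullC K (M * p)) : Prop :=
  ∀ w : Valuation (modularFunctionFieldFullC K (M * p)) (WithZero (Multiplicative ℤ)),
    (∀ c, w (algebraMap K (modularFunctionFieldFullC K (M * p)) c) ≤ 1) →
    (w (inclP M p (jC K M)) ≤ 1 → w x ≤ 1) ∧
    (1 < w (inclP M p (jC K M)) →
      w (scaleP M p (jC K M)) = w (inclP M p (jC K M)) ^ p →
      w (vElt K M p) = w (inclP M p (jC K M)) ^ (p - 1) →
      w x ≤ w (inclP M p (jC K M)) ^ n)

/-- Admissible lifts of pairs. -/
def LattGood (hpM : ¬ p ∣ M) (n : ℕ) (x : modularFunctionFieldFullC K (M * p)) : Prop :=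
  CuspBdd p M K n x ∧ CuspBdd p M K n (wAL K M p hpM x)

end Fermat.Agent.LevelLowerP
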