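import Fermat.Agent.LevelLowerP.GeoPoints
import Fermat.Agent.LevelLowerP.GeoAtkin
import Fermat.Agent.LevelLowerP.Defs

/-!
# What the geometry provides
-/

set_option autoImplicit false

noncomputable section

namespace Fermat.Agent.LevelLowerP

open ModularCurve AlgebraicCurve Fermat.Agent.Igusa
open scoped LaurentSeries

variable (p : ℕ) [Fact p.Prime] (K : Type) [Field K] [CharZero K] (M : ℕ) [NeZero M]

/-- Rational functions of level `M` and roots of unity of order prime to `p`, as series. -/
def rootField : Subfield (LaurentSeries K) :=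
  Subfield.closure
    (coeffMap (algebraMap ℚ K) '' (modularFunctionFieldFull M : Set (LaurentSeries ℚ)) ∪
      HahnSeries.C '' {c : K | ∃ n : ℕ, 0 < n ∧ ¬ p ∣ n ∧ c ^ n = 1})

variable {p} {R k : Type} [CommRing R] [IsDomain R] [IsDiscreteValuationRing R] [Field k]
  [CharP k p] [CharZero R] (S : Setup p R k) (hpM : ¬ p ∣ M) [IsAlgClosed k]
  [IsDomain (Node R p)]

/-- The model of level `Mp` together with what is used of it. -/
structure GeoModel where
  /-- the model -/
  toModel : Model S (modularFunctionFieldFullC (FractionRing R) (M * p))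
    (modularFunctionFieldFullC k M)
  inf_eq : toModel.inf = infGB S M hpM
  zero_eq : toModel.zero = zeroGB S M hpM
  /-- the cusp infinity -/
  inftyPt : toModel.PtI
  ι_infty : (toModel.ptI inftyPt).ι = iInf (M * p)
  exists_rootLift : ∀ y : modularFunctionFieldFullC k M,
    ∃ x : modularFunctionFieldFullC (FractionRing R) (M * p),
      (x : LaurentSeries (FractionRing R)) ∈ rootField p (FractionRing R) M ∧
      (infGB S M hpM).res x = y
  coverage : ∀ v : Place k (modularFunctionFieldFullC k M), ∃ n : ℕ, 0 < n ∧ ¬ p ∣ n ∧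
    ((∃ Q, ∀ y, y ≠ 0 → ((toModel.ptI Q).e y).order = n * v.ord y) ∨
      ∃ N, ∀ y, y ≠ 0 → ((toModel.node N).eI y).order = n * v.ord y)
  regular_of_bdd : ∀ m : ℕ, ∃ n₁, ∀ n, n₁ ≤ n →
    ∀ f : modularFunctionFieldFullC (FractionRing R) (M * p),
      Bdd (FractionRing R) (M * p) m f → toModel.RegularUpTo n f

end Fermat.Agent.LevelLowerP
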