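import Fermat.Agent.LevelLowerP.GeoLift
import Fermat.Agent.LevelLowerP.GeoCusp
import Fermat.Agent.LevelLowerP.Defs

/-!
# Regularity along the discs and annuli, and the point at infinity
-/

set_option autoImplicit false

noncomputable section

namespace Fermat.Agent.LevelLowerP

open Polynomial ModularCurve Fermat.Agent.Igusa AlgebraicCurve
open scoped LaurentSeries PowerSeries

variable {p : ℕ} {R k : Type} [CommRing R] [IsDomain R] [IsDiscreteValuationRing R] [Field k]
  [CharP k p] [Fact p.Prime] [CharZero R] (S : Setup p R k) (M : ℕ) [NeZero M] [IsAlgClosed k]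

local notation "K" => FractionRing R
local notation "L" => modularFunctionFieldFullC (FractionRing R) (M * p)
local notation "F" => modularFunctionFieldFullC k M

omit [CharP k p] [CharZero R] [IsAlgClosed k] in
/-- Constants of `K` are units or zero at valuations of the local rings trivial on `ϖ`. -/
theorem val_const_le_one {O E : Type} [CommRing O] [Field E] [Algebra O E]
    (ι : L →+* E) (cst : R →+* O) (hι : ∀ r, ι (algebraMap R _ r) = algebraMap O E (cst r))
    (v : Valuation E (WithZero (Multiplicative ℤ))) (h1 : ∀ o, v (algebraMap O E o) ≤ 1)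
    (h2 : v (algebraMap O E (cst S.ϖ)) = 1) (c : K) : v (ι (algebraMap K L c)) ≤ 1 := by
  have key : ∀ r : R, r ≠ 0 → v (algebraMap O E (cst r)) = 1 := by
    intro r hr
    obtain ⟨n, u, rfl⟩ := IsDiscreteValuationRing.eq_unit_mul_pow_irreducible hr S.irreducible_ϖ
    have hu : v (algebraMap O E (cst u)) = 1 := by
      refine le_antisymm (h1 _) ?_
      have h : v (algebraMap O E (cst (u : R))) *
          v (algebraMap O E (cst ((u⁻¹ : Rˣ) : R))) = 1 := by
        rw [← map_mul, ← map_mul, ← map_mul, Units.mul_inv, map_one, map_one, map_one]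
      calc (1 : WithZero (Multiplicative ℤ)) = _ := h.symm
        _ ≤ v (algebraMap O E (cst (u : R))) * 1 := mul_le_mul_of_nonneg_left (h1 _) zero_le
        _ = _ := mul_one _
    rw [map_mul, map_pow, map_mul, map_pow, map_mul, map_pow, hu, h2, one_pow, one_mul]
  obtain ⟨a, b, hb, rfl⟩ := IsFractionRing.div_surjective R c
  rw [map_div₀, map_div₀, map_div₀,
    show algebraMap K L (algebraMap R K a) = algebraMap R L a from rfl,
    show algebraMap K L (algebraMap R K b) = algebraMap R L b from rfl, hι, hι,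
    key b (nonZeroDivisors.ne_zero hb), div_one]
  exact h1 _

omit [CharP k p] [CharZero R] [IsAlgClosed k] in
/-- Functions bounded at the cusps are regular along expansions where `j` is integral. -/
theorem noHorizPole_of_finite {O E : Type} [CommRing O] [Field E] [Algebra O E]
    (ι : L →+* E) (cst : R →+* O) (hι : ∀ r, ι (algebraMap R _ r) = algebraMap O E (cst r))
    {c : O} (hj : ι (inclP M p (jC K M)) = algebraMap O E c) {n : ℕ} {x : L}
    (hx : CuspBdd p M K n x) : NoHorizPole (cst S.ϖ) (ι x) := fun v h1 h2 => by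
  refine (hx (v.comap ι) fun a => val_const_le_one S M ι cst hι v h1 h2 a).1 ?_
  rw [Valuation.comap_apply, hj]
  exact h1 c

omit [CharP k p] [Fact p.Prime] [CharZero R] [IsDiscreteValuationRing R] [Field k] [IsAlgClosed k]
  [IsDomain R] in
theorem val_unitMulPow {E : Type} [Field E] [Algebra (PowerSeries R) E]
    (v : Valuation E (WithZero (Multiplicative ℤ)))
    (h1 : ∀ o, v (algebraMap (PowerSeries R) E o) ≤ 1) (u : (PowerSeries R)ˣ) :
    v (algebraMap (PowerSeries R) E u) = 1 := by
  refine le_antisymm (h1 _) ?_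
  have h : v (algebraMap (PowerSeries R) E (u : PowerSeries R)) *
      v (algebraMap (PowerSeries R) E ((u⁻¹ : (PowerSeries R)ˣ) : PowerSeries R)) = 1 := by
    rw [← map_mul, ← map_mul, Units.mul_inv, map_one, map_one]
  calc (1 : WithZero (Multiplicative ℤ)) = _ := h.symm
    _ ≤ v (algebraMap (PowerSeries R) E (u : PowerSeries R)) * 1 :=
      mul_le_mul_of_nonneg_left (h1 _) zero_le
    _ = _ := mul_one _

omit [CharP k p] [CharZero R] [IsAlgClosed k] in
/-- Functions bounded at the cusps have bounded poles at a cuspidal disc. -/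
theorem noHorizPole_of_cusp (ι : L →+* FractionRing (PowerSeries R))
    (hι : ∀ r, ι (algebraMap R _ r) =
      algebraMap (PowerSeries R) (FractionRing (PowerSeries R)) (PowerSeries.C r))
    {w : ℕ} (hw : 0 < w) (hj : UnitMulPow (ι (inclP M p (jC K M))) (-w))
    (hjp : UnitMulPow (ι (scaleP M p (jC K M))) (-((p * w : ℕ) : ℤ)))
    (hv : UnitMulPow (ι (vElt K M p)) (-(((p - 1) * w : ℕ) : ℤ)))
    {n : ℕ} {x : L} (hx : CuspBdd p M K n x) :
    NoHorizPole (PowerSeries.C S.ϖ)
      (ι x * algebraMap (PowerSeries R) (FractionRing (PowerSeries R)) PowerSeries.X ^ (n * w)) :=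
    fun v h1 h2 => by
  set t := v (algebraMap (PowerSeries R) (FractionRing (PowerSeries R)) PowerSeries.X) with ht
  have ht1 : t ≤ 1 := h1 _
  have ht0 : t ≠ 0 := (Valuation.ne_zero_iff v).2 (Branch.algebraMap_ne_zero PowerSeries.X_ne_zero)
  have hval : ∀ (y : L) (a : ℕ), UnitMulPow (ι y) (-(a : ℤ)) → v (ι y) = (t ^ a)⁻¹ := by
    rintro y a ⟨u, hu⟩
    rw [hu, map_mul, map_zpow₀, val_unitMulPow v h1, one_mul, zpow_neg, zpow_natCast]
  obtain ⟨hfin, hcusp⟩ :=
    hx (v.comap ι) fun a => val_const_le_one S M ι PowerSeries.C hι v h1 h2 a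
  simp only [Valuation.comap_apply, hval _ _ hj, hval _ _ hjp, hval _ _ hv] at hfin hcusp
  rw [map_mul, map_pow, ← ht]
  rcases ht1.eq_or_lt with h | h
  · rw [h, one_pow, mul_one]
    exact hfin (by rw [h, one_pow, inv_one])
  · have hpos : 0 < t ^ w := pow_pos (zero_lt_iff.2 ht0) w
    have hx' := hcusp ((one_lt_inv₀ hpos).2 (pow_lt_one₀ zero_le h hw.ne'))
      (by rw [mul_comm p, pow_mul, inv_pow]) (by rw [mul_comm (p - 1), pow_mul, inv_pow])
    calc v (ι x) * t ^ (n * w) ≤ ((t ^ w)⁻¹) ^ n * t ^ (n * w) :=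
          mul_le_mul_of_nonneg_right hx' zero_le
      _ = 1 := by
          rw [inv_pow, ← pow_mul, mul_comm w n, inv_mul_cancel₀ (pow_ne_zero _ ht0)]

variable (hpM : ¬ p ∣ M)

omit [IsDiscreteValuationRing R] in
theorem wAL_algebraMap (c : K) :
    wAL K M p hpM (algebraMap K L c) = algebraMap K L c := by
  conv_lhs => rw [← inclP_algebraMap c, wAL_inclP, scaleP_algebraMap]

omit [IsDiscreteValuationRing R] in
/-- Functions bounded by powers of `j` are bounded at the cusps, before and after the involution. -/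
theorem cuspBdd_of_bdd {m N : ℕ} (hN : p * m ≤ N) {f : L} (hf : Bdd K (M * p) m f) :
    CuspBdd p M K N f ∧ CuspBdd p M K N (wAL K M p hpM f) := by
  have hp1 : 1 ≤ p := (Fact.out : p.Prime).one_lt.le
  have hm : m ≤ N := le_trans (Nat.le_mul_of_pos_left m hp1) hN
  refine ⟨fun w hw => ?_, fun w hw => ?_⟩
  · have h := hf w hw
    rw [← inclP_jC] at h
    refine ⟨fun hj => by rwa [max_eq_left hj, one_pow] at h, fun hj _ _ => ?_⟩
    rw [max_eq_right hj.le] at h
    exact h.trans (pow_le_pow_right' hj.le hm)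
  · have h := hf (w.comap (wAL K M p hpM)) fun c => by
      rw [Valuation.comap_apply, wAL_algebraMap]
      exact hw c
    rw [Valuation.comap_apply, Valuation.comap_apply, ← inclP_jC, wAL_inclP] at h
    refine ⟨fun hj => ?_, fun hj hjp _ => ?_⟩
    · rwa [max_eq_left (val_le_one_of_j M hpM hj).1, one_pow] at h
    · rw [hjp, max_eq_right (one_le_pow₀ hj.le), ← pow_mul] at h
      exact h.trans (pow_le_pow_right' hj.le hN)

/-- The same disc on the other component. -/
def toZero (P : LocalPoint (infGB S M hpM)) : LocalPoint (zeroGB S M hpM) where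
  ι := P.ι.comp (wAL K M p hpM)
  e := P.e
  ι_algebraMap r := by rw [RingHom.comp_apply, algebraMap_eq_cF, wAL_cF, ← P.ι_algebraMap,
    algebraMap_eq_cF]
  e_algebraMap := P.e_algebraMap
  ord_eq _ hx := P.ord_eq _ ((_root_.map_ne_zero _).2 hx)
  sp_eq _ hx := P.sp_eq _ ((_root_.map_ne_zero _).2 hx)

/-- The cusp infinity. -/
def infPoint : LocalPoint (infGB S M hpM) where
  ι := iInf (M * p)
  e := eInf k M
  ι_algebraMap r := by rw [algebraMap_eq_cF, iInf_cF]
  e_algebraMap := eInf_algebraMap M
  ord_eq _ _ := rfl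
  sp_eq _ hx := (dualMap_spInf S M hpM hx).symm

omit [CharP k p] [IsAlgClosed k] in
include S hpM in
/-- Exact orders of `j`, `j(pτ)` and `vElt` at the standard cusp. -/
theorem unitMulPow_infty :
    UnitMulPow (iInf (M * p) (inclP M p (jC K M))) (-((1 : ℕ) : ℤ)) ∧
    UnitMulPow (iInf (M * p) (scaleP M p (jC K M))) (-((p * 1 : ℕ) : ℤ)) ∧
    UnitMulPow (iInf (M * p) (vElt K M p)) (-(((p - 1) * 1 : ℕ) : ℤ)) := by
  have e1 : iInf (M * p) (inclP M p (jC K M)) =
      (lsInt S (jqModC R) : FractionRing (PowerSeries R)) := (Setup.toLS R).injective (by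
    rw [toLS_iInf, toLS_lsInt, coeffMap_jqModC, coe_jC_M])
  have e2 : iInf (M * p) (scaleP M p (jC K M)) =
      (lsInt S (qExpand R p (jqModC R)) : FractionRing (PowerSeries R)) :=
    (Setup.toLS R).injective (by
      rw [toLS_iInf, toLS_lsInt, coeffMap_qExpand, coeffMap_jqModC, coe_jpC])
  have e3 : iInf (M * p) (vElt K M p) =
      (lsInt S (deltaR R) : FractionRing (PowerSeries R)) *
        (lsInt S (qExpand R p (deltaInvR R)) : FractionRing (PowerSeries R)) :=
    (Setup.toLS R).injective (by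
      rw [map_mul, toLS_iInf, toLS_lsInt, toLS_lsInt, ← map_mul, coe_vElt K M p hpM]
      exact (coeffMap_vSer p _).symm)
  refine ⟨?_, ?_, ?_⟩
  · rw [e1, Nat.cast_one]
    exact unitMulPow_lsInt S (by rw [ModularCurve.coeff_jqModC_neg_one]; exact isUnit_one)
      (fun _ => coeff_jqModC_of_lt R)
  · rw [e2, mul_one, show (-(p : ℤ)) = (p : ℤ) * (-1) by ring]
    refine unitMulPow_lsInt S ?_ (coeff_qExpand_below p (fun _ => coeff_jqModC_of_lt R))
    rw [ModularCurve.qExpand_coeff_mul, ModularCurve.coeff_jqModC_neg_one]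
    exact isUnit_one
  · rw [e3, mul_one, show (-((p - 1 : ℕ) : ℤ)) = 1 + (p : ℤ) * (-1) by
      have := (Fact.out : p.Prime).one_lt
      omega]
    refine UnitMulPow.mul (unitMulPow_lsInt S ?_ (coeff_deltaR_below R))
      (unitMulPow_lsInt S ?_ (coeff_qExpand_below p (coeff_deltaInvR_below R)))
    · rw [coeff_one_deltaR]
      exact isUnit_one
    · rw [ModularCurve.qExpand_coeff_mul, coeff_neg_one_deltaInvR]
      exact isUnit_one

end Fermat.Agent.LevelLowerP
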