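import Fermat.Agent.LevelLowerP.GeoPoints

/-!
# The pole of `(y^p - y(q^p))/p` at a supersingular point

In characteristic `p` write `θ = q d/dq`. Every function `x` satisfies `θ x = w θ j`, and the same
`w` computes the derivative in any other expansion. Since `θ d = h^(p-1) θ h - (θ h)^p` and
`(θ j)^6 = Δ j^4 (j - 1728)^3`, counting orders at a zero of `Δ^(1-p)` forces the pole.
-/

set_option autoImplicit false

noncomputable section

namespace Fermat.Agent.LevelLowerP

open Polynomial ModularCurve Fermat.Agent.Igusa AlgebraicCurve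
open scoped LaurentSeries

section Transport

variable {k : Type*} [Field k]

/-- Differentiating a vanishing linear combination of powers. -/
theorem theta_of_sum_eq_zero {F : Type*} [Field F] (f : F →+* LaurentSeries k)
    (t : LaurentSeries k) (n : ℕ) (c w : ℕ → F) (x : F)
    (hc : ∀ i, theta k (f (c i)) = f (w i) * t)
    (hzero : ∑ i ∈ Finset.range n, c i * x ^ i = 0) :
    f (∑ i ∈ Finset.range n, w i * x ^ i) * t +
      f (∑ i ∈ Finset.range n, c i * ((i : F) * x ^ (i - 1))) * theta k (f x) = 0 := by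
  have h1 := congrArg (fun z => theta k (f z)) hzero
  simp only [map_sum, map_mul, map_pow, map_zero, theta_mul, theta_pow, hc] at h1
  rw [← h1]
  simp only [map_sum, map_mul, map_pow, map_natCast, Finset.sum_mul, ← Finset.sum_add_distrib]
  exact Finset.sum_congr rfl fun i _ => by ring

variable {M : ℕ} [NeZero M]
  (e : modularFunctionFieldFullC k M →+* LaurentSeries k)
  (he : ∀ c, e (algebraMap k (modularFunctionFieldFullC k M) c) = HahnSeries.C c)

/-- `w` is `dx/dj`, both in the `q`-expansion and in the expansion `e`. -/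
def IsDj (x w : modularFunctionFieldFullC k M) : Prop :=
  theta k (x : LaurentSeries k) = (w : LaurentSeries k) * theta k (jqModC k) ∧
    theta k (e x) = e w * theta k (e (jC k M))

omit [NeZero M] in
theorem isDj_self : IsDj e (jC k M) 1 := by
  refine ⟨?_, by rw [map_one, one_mul]⟩
  show theta k (jqModC k) = _
  rw [OneMemClass.coe_one, one_mul]

omit [NeZero M] in
theorem IsDj.add {x y w w' : modularFunctionFieldFullC k M} (h : IsDj e x w) (h' : IsDj e y w') :
    IsDj e (x + y) (w + w') := by
  refine ⟨?_, ?_⟩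
  · rw [AddMemClass.coe_add, AddMemClass.coe_add, map_add, h.1, h'.1, add_mul]
  · rw [map_add, map_add, map_add, h.2, h'.2, add_mul]

omit [NeZero M] in
theorem IsDj.mul {x y w w' : modularFunctionFieldFullC k M} (h : IsDj e x w) (h' : IsDj e y w') :
    IsDj e (x * y) (w * y + x * w') := by
  refine ⟨?_, ?_⟩
  · rw [MulMemClass.coe_mul, theta_mul, h.1, h'.1, AddMemClass.coe_add, MulMemClass.coe_mul,
      MulMemClass.coe_mul]
    ring
  · rw [map_mul, theta_mul, h.2, h'.2, map_add, map_mul, map_mul]
    ring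

omit [NeZero M] in
theorem IsDj.inv {x w : modularFunctionFieldFullC k M} (h : IsDj e x w) (hx : x ≠ 0) :
    IsDj e x⁻¹ (-w * (x⁻¹) ^ 2) := by
  have hxc : (x : LaurentSeries k) ≠ 0 := fun h0 => hx (Subtype.ext h0)
  have hxe : e x ≠ 0 := (map_ne_zero e).2 hx
  have key : ∀ {s : LaurentSeries k}, s ≠ 0 → theta k s⁻¹ = -theta k s * (s⁻¹) ^ 2 := by
    intro s hs
    have h1 : theta k s * s⁻¹ + s * theta k s⁻¹ = 0 := by
      rw [← theta_mul, mul_inv_cancel₀ hs, theta_one]
    calc theta k s⁻¹ = s⁻¹ * (theta k s * s⁻¹ + s * theta k s⁻¹) - theta k s * (s⁻¹) ^ 2 := by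
          field_simp; ring
      _ = -theta k s * (s⁻¹) ^ 2 := by rw [h1]; ring
  refine ⟨?_, ?_⟩
  · push_cast
    rw [key hxc, h.1]
    ring
  · rw [map_inv₀, key hxe, h.2, map_mul, map_neg, map_pow, map_inv₀]
    ring

variable {e}

omit [NeZero M] in
include he in
theorem isDj_const (c : k) : IsDj e (algebraMap k _ c) 0 := by
  refine ⟨?_, by rw [he, theta_C, map_zero, zero_mul]⟩
  show theta k (algebraMap k (LaurentSeries k) c) = _
  rw [algebraMap_laurentSeries_eq_single, ← HahnSeries.C_apply, theta_C, ZeroMemClass.coe_zero,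
    zero_mul]

variable [IsAlgClosed k] (hM : (M : k) ≠ 0)

include he hM in
/-- Every function has a derivative with respect to `j`. -/
theorem exists_isDj (x : modularFunctionFieldFullC k M) : ∃ w, IsDj e x w := by
  have hbase : ∀ b : baseC k M, ∃ w, IsDj e (b : modularFunctionFieldFullC k M) w := by
    rintro ⟨b, hb⟩
    show ∃ w, IsDj e b w
    induction hb using IntermediateField.adjoin_induction with
    | mem b hb => rcases hb with rfl; exact ⟨1, isDj_self e⟩
    | algebraMap c => exact ⟨0, isDj_const he c⟩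
    | add a b _ _ ha hb =>
      obtain ⟨u, hu⟩ := ha; obtain ⟨v, hv⟩ := hb
      exact ⟨_, hu.add e hv⟩
    | inv a _ ha =>
      obtain ⟨u, hu⟩ := ha
      rcases eq_or_ne a 0 with rfl | h0
      · exact ⟨0, by rw [inv_zero]; simpa using isDj_const he 0⟩
      · exact ⟨_, hu.inv e h0⟩
    | mul a b _ _ ha hb =>
      obtain ⟨u, hu⟩ := ha; obtain ⟨v, hv⟩ := hb
      exact ⟨_, hu.mul e hv⟩
  choose D hD using hbase
  have := finiteDimensional_fullC (k := k) M hM
  have := isSeparable_fullC (k := k) M hM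
  obtain ⟨P, hPx, hden⟩ : ∃ P : (baseC k M)[X], aeval x P = 0 ∧ aeval x (derivative P) ≠ 0 :=
    ⟨minpoly (baseC k M) x, minpoly.aeval _ x,
      (Algebra.IsSeparable.isSeparable (baseC k M) x).aeval_derivative_ne_zero (minpoly.aeval _ x)⟩
  set n := P.natDegree + 1
  let c : ℕ → modularFunctionFieldFullC k M := fun i =>
    algebraMap (baseC k M) (modularFunctionFieldFullC k M) (P.coeff i)
  let N : modularFunctionFieldFullC k M := ∑ i ∈ Finset.range n, D (P.coeff i) * x ^ i
  let den : modularFunctionFieldFullC k M := aeval x (derivative P)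
  have hdeneq : den = ∑ i ∈ Finset.range n, c i * ((i : modularFunctionFieldFullC k M) *
      x ^ (i - 1)) := by
    have hd : derivative P =
        ∑ i ∈ Finset.range n, monomial (i - 1) (P.coeff i * (i : baseC k M)) := by
      conv_lhs => rw [P.as_sum_range]
      rw [derivative_sum]
      exact Finset.sum_congr rfl fun i _ => derivative_monomial _ _
    show aeval x (derivative P) = _
    rw [hd, map_sum]
    refine Finset.sum_congr rfl fun i _ => ?_
    rw [aeval_monomial, map_mul, map_natCast, mul_assoc]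
  have hzero : ∑ i ∈ Finset.range n, c i * x ^ i = 0 := by
    rw [aeval_eq_sum_range] at hPx
    simp only [Algebra.smul_def] at hPx
    exact hPx
  have key : ∀ (f : modularFunctionFieldFullC k M →+* LaurentSeries k) (t : LaurentSeries k),
      (∀ i, theta k (f (c i)) = f (D (P.coeff i)) * t) →
      theta k (f x) = f (-N / den) * t := by
    intro f t hc
    have h1 := theta_of_sum_eq_zero f t n c (fun i => D (P.coeff i)) x hc hzero
    rw [← hdeneq] at h1
    have hf : f den ≠ 0 := (map_ne_zero f).2 hden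
    rw [map_div₀, map_neg, div_mul_eq_mul_div, eq_div_iff hf]
    linear_combination h1
  refine ⟨-N / den, ?_, ?_⟩
  · exact key (SubringClass.subtype (modularFunctionFieldFullC k M)) _ fun i => (hD _).1
  · exact key e _ fun i => (hD _).2

end Transport

section Orders

variable {k : Type*} [Field k]

theorem le_order_of_coeff {x : LaurentSeries k} (hx : x ≠ 0) {a : ℤ}
    (h : ∀ n < a, x.coeff n = 0) : a ≤ x.order := by
  by_contra hlt
  exact mt HahnSeries.coeff_order_eq_zero.1 hx (h _ (not_le.1 hlt))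

theorem coeff_isPow_of_neg {x : LaurentSeries k} (hx : IsPow x) {n : ℤ} (hn : n < 0) :
    x.coeff n = 0 := by
  obtain ⟨a, rfl⟩ := hx
  rw [PowerSeries.coeff_coe, if_pos hn]

end Orders

/-- **The supersingular input**: at a zero of the Hasse invariant, `δ = (y ^ p - y(pτ)) / p`
reduced has a pole. -/
theorem delta_pole {p : ℕ} [Fact p.Prime] (M : ℕ) [NeZero M] (hpM : ¬ p ∣ M)
    {k : Type*} [Field k] [CharP k p] [IsAlgClosed k] [Algebra (ZMod p) k]
    [Algebra.IsAlgebraic (ZMod p) k]
    (e : modularFunctionFieldFullC k M →+* LaurentSeries k)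
    (he : ∀ c, e (algebraMap k (modularFunctionFieldFullC k M) c) = HahnSeries.C c)
    {H : (ZMod p)[X]} (hH : vSer p (ZMod p) = evq (ZMod p) H)
    {y : ratChart p M} {h d : modularFunctionFieldFullC k M}
    (hh : (h : LaurentSeries k) = chartRed p M k y) (heh : e h = HahnSeries.single 1 1)
    {D : LaurentSeries (ZL p)}
    (hD : (p : LaurentSeries (ZL p)) * D =
      (y : LaurentSeries (ZL p)) ^ p - qExpand (ZL p) p (y : LaurentSeries (ZL p)))
    (hd : (d : LaurentSeries k) = coeffMap (ZMod.castHom dvd_rfl k) (redS p D))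
    (hj : IsPow (e (jC k M)))
    (hss : (e (evC k M (H.map (ZMod.castHom dvd_rfl k)))).coeff 0 = 0)
    (hram : theta k (e (jC k M)) ≠ 0 →
      (e (jC k M) ^ 4 * (e (jC k M) - HahnSeries.C (1728 : k)) ^ 3).order + 6 ≤
        6 * (theta k (e (jC k M))).order)
    (hpole : IsPow (HahnSeries.single (1 : ℤ) (1 : k) * e d)) :
    (e d).coeff (-1) ≠ 0 := by
  intro hcon
  have hM : (M : k) ≠ 0 := fun hc => hpM ((CharP.cast_eq_zero_iff k p M).mp hc)
  have hp1 : 1 ≤ p := (Fact.out : p.Prime).one_le
  have hpne : (p : ZL p) ≠ 0 := (natCast_prime_ZL p).ne_zero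
  -- `θ d = h^(p-1) θ h - (θ h)^p`
  have hθD : theta (ZL p) D = (y : LaurentSeries (ZL p)) ^ (p - 1) * theta (ZL p) y
      - qExpand (ZL p) p (theta (ZL p) y) := by
    have h1 := congrArg (theta (ZL p)) hD
    rw [← map_natCast (HahnSeries.C : ZL p →+* LaurentSeries (ZL p)), theta_C_mul, map_sub,
      theta_pow, theta_qExpand] at h1
    refine mul_left_cancel₀
      ((map_ne_zero_iff _ HahnSeries.C_injective).2 hpne) (h1.trans ?_)
    rw [map_natCast]
    ring
  have hθd : theta k (d : LaurentSeries k) =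
      (h : LaurentSeries k) ^ (p - 1) * theta k (h : LaurentSeries k)
        - theta k (h : LaurentSeries k) ^ p := by
    have hq : redS p (qExpand (ZL p) p (theta (ZL p) y)) =
        (redS p (theta (ZL p) (y : LaurentSeries (ZL p)))) ^ p := by
      rw [redS, coeffMap_qExpand, qExpand_eq_pow]
    rw [hd, hh, chartRed_apply, ← coeffMap_theta, ← coeffMap_theta, redS, ← coeffMap_theta, hθD,
      map_sub, map_sub, ← redS, hq, map_mul, map_mul, map_pow, map_pow, map_pow, redS,
      coeffMap_theta]
  obtain ⟨wh, hwh⟩ := exists_isDj he hM h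
  obtain ⟨wd, hwd⟩ := exists_isDj he hM d
  set J := e (jC k M) with hJ
  set θJ := theta k J with hθJ
  set φ : k := (1728 : k) with hφ
  have hT : theta k (HahnSeries.single (1 : ℤ) (1 : k)) = HahnSeries.single 1 1 := by
    ext n
    rcases eq_or_ne n 1 with rfl | hn <;> simp [*]
  have hTJ : HahnSeries.single (1 : ℤ) (1 : k) = e wh * θJ := by
    rw [← hT, ← heh, hwh.2]
  have hT0 : HahnSeries.single (1 : ℤ) (1 : k) ≠ 0 := HahnSeries.single_ne_zero one_ne_zero
  have hewh : e wh ≠ 0 := fun hc => hT0 (by rw [hTJ, hc, zero_mul])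
  have hθJ0 : θJ ≠ 0 := fun hc => hT0 (by rw [hTJ, hc, mul_zero])
  have hwh0 : wh ≠ 0 := fun hc => hewh (by rw [hc, map_zero])
  have ht0 : theta k (jqModC k) ≠ 0 := fun hc => by
    simpa [hc] using theta_jqModC_coeff_neg_one k
  -- the identity in the function field
  set Hk := H.map (ZMod.castHom dvd_rfl k) with hHk
  have hvk : evq k Hk = deltaR k * (deltaInvR k) ^ p := by
    rw [hHk, ← coeffMap_evq, ← hH, vSer, qExpand_eq_pow, map_mul, map_pow, coeffMap_deltaR,
      coeffMap_deltaInvR]
  have hΔ : deltaR k ^ (p - 1) * evq k Hk = 1 := by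
    have : deltaR k ^ p * deltaInvR k ^ p = 1 := by
      rw [← mul_pow, deltaR_mul_deltaInvR, one_pow]
    rw [hvk, ← mul_assoc, ← pow_succ, Nat.sub_add_cancel hp1, this]
  have hF : ((h ^ (p - 1) * wh - wd) / wh ^ p) ^ 6 * evC k M Hk =
      (jC k M ^ 4 * (jC k M - algebraMap k _ φ) ^ 3) ^ (p - 1) := by
    apply Subtype.ext
    push_cast
    rw [coe_evC]
    have hG : ((h : LaurentSeries k) ^ (p - 1) * (wh : LaurentSeries k) - (wd : LaurentSeries k)) /
        (wh : LaurentSeries k) ^ p = theta k (jqModC k) ^ (p - 1) := by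
      have hwc : (wh : LaurentSeries k) ≠ 0 := fun hc => hwh0 (Subtype.ext hc)
      rw [div_eq_iff (pow_ne_zero _ hwc)]
      refine mul_right_cancel₀ ht0 ?_
      have h1 := hθd
      rw [hwd.1, hwh.1] at h1
      have h2 : theta k (jqModC k) ^ (p - 1) * theta k (jqModC k) = theta k (jqModC k) ^ p := by
        rw [← pow_succ, Nat.sub_add_cancel hp1]
      calc ((h : LaurentSeries k) ^ (p - 1) * wh - wd) * theta k (jqModC k)
          = ((wh : LaurentSeries k) * theta k (jqModC k)) ^ p := by linear_combination -h1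
        _ = theta k (jqModC k) ^ (p - 1) * wh ^ p * theta k (jqModC k) := by
          rw [mul_pow, ← h2]; ring
    have hR : algebraMap k (LaurentSeries k) φ = HahnSeries.C φ := by
      rw [algebraMap_laurentSeries_eq_single, ← HahnSeries.C_apply]
    rw [hG, hR, show ((jC k M : modularFunctionFieldFullC k M) : LaurentSeries k) = jqModC k
      from rfl, ← pow_mul, mul_comm (p - 1) 6, pow_mul, theta_jqModC_pow_six, hφ]
    generalize jqModC k ^ 4 = A
    generalize (jqModC k - HahnSeries.C (1728 : k)) ^ 3 = B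
    rw [mul_pow, mul_pow, mul_pow]
    linear_combination (A ^ (p - 1) * B ^ (p - 1)) * hΔ
  -- the identity in the expansion
  set T := HahnSeries.single (1 : ℤ) (1 : k) with hTdef
  set G := T ^ p - theta k (e d) with hG
  set eH := e (evC k M Hk) with heH
  set R := J ^ 4 * (J - HahnSeries.C φ) ^ 3 with hR
  have heq : θJ ^ (6 * (p - 1)) * G ^ 6 * eH = R ^ (p - 1) * T ^ (6 * p) := by
    have h1 := congrArg e hF
    simp only [map_mul, map_pow, map_div₀, map_sub, he, heh] at h1
    rw [← hR] at h1
    rw [← h1, hG, hwd.2, ← hJ, ← hθJ, hTJ]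
    have h2 : θJ ^ p = θJ ^ (p - 1) * θJ := by rw [← pow_succ, Nat.sub_add_cancel hp1]
    have h3 : e wh ^ p = e wh ^ (p - 1) * e wh := by rw [← pow_succ, Nat.sub_add_cancel hp1]
    rw [pow_mul' θJ 6 (p - 1), pow_mul' (e wh * θJ) 6 p, div_pow]
    field_simp
    rw [mul_pow (e wh) θJ, mul_pow (e wh) θJ, h2, h3]
    ring
  -- orders
  have hJt : ∀ c : k, J - HahnSeries.C c ≠ 0 := fun c hc => by
    rw [← he, hJ, ← map_sub, map_eq_zero] at hc
    have h1 : ((jC k M : modularFunctionFieldFullC k M) : LaurentSeries k).coeff (-1) =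
        (algebraMap k (LaurentSeries k) c).coeff (-1) :=
      congrArg (fun z : LaurentSeries k => z.coeff (-1))
        (congrArg Subtype.val (sub_eq_zero.1 hc))
    rw [algebraMap_laurentSeries_eq_single, HahnSeries.coeff_single_of_ne (by norm_num)] at h1
    have h2 := coeff_jqModC_pow_self k 1
    simp only [pow_one, Nat.cast_one] at h2
    exact one_ne_zero (h2.symm.trans h1)
  have hJ0 : J ≠ 0 := by simpa using hJt 0
  have hR0 : R ≠ 0 := mul_ne_zero (pow_ne_zero _ hJ0) (pow_ne_zero _ (hJt φ))
  have hRT : R ^ (p - 1) * T ^ (6 * p) ≠ 0 :=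
    mul_ne_zero (pow_ne_zero _ hR0) (pow_ne_zero _ hT0)
  have heH0 : eH ≠ 0 := fun hc => hRT (by rw [← heq, hc, mul_zero])
  have hG0 : G ≠ 0 := fun hc => hRT (by rw [← heq, hc, zero_pow (by norm_num), mul_zero, zero_mul])
  have heHord : 1 ≤ eH.order := by
    have hpow : IsPow eH := by
      obtain ⟨a, ha⟩ := hj
      refine ⟨Hk.eval₂ PowerSeries.C a, ?_⟩
      rw [heH, evC, coe_eval₂RingHom, Polynomial.hom_eval₂, Polynomial.hom_eval₂, ← hJ, ha]
      congr 1
      exact RingHom.ext fun c => (he c).trans (HahnSeries.ofPowerSeries_C c).symm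
    refine le_order_of_coeff heH0 fun n hn => ?_
    rcases eq_or_ne n 0 with rfl | hn0
    · exact hss
    · exact coeff_isPow_of_neg hpow (by omega)
  have hGord : 1 ≤ G.order := by
    refine le_order_of_coeff hG0 fun n hn => ?_
    have h1 : (theta k (e d)).coeff n = 0 := by
      rw [theta_coeff]
      rcases lt_trichotomy n (-1) with hn' | rfl | hn'
      · have h2 := coeff_isPow_of_neg hpole (show n + 1 < 0 by omega)
        rw [HahnSeries.coeff_single_mul, add_sub_cancel_right, one_mul] at h2
        rw [h2, mul_zero]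
      · rw [hcon, mul_zero]
      · rw [show n = 0 by omega, Int.cast_zero, zero_mul]
    rw [hG, HahnSeries.coeff_sub, h1, sub_zero, hTdef, HahnSeries.single_pow,
      HahnSeries.coeff_single_of_ne]
    rw [nsmul_eq_mul, mul_one]
    omega
  have hRord : R.order + 6 ≤ 6 * θJ.order := hram hθJ0
  have hord := congrArg HahnSeries.order heq
  rw [HahnSeries.order_mul (mul_ne_zero (pow_ne_zero _ hθJ0) (pow_ne_zero _ hG0)) heH0,
    HahnSeries.order_mul (pow_ne_zero _ hθJ0) (pow_ne_zero _ hG0),
    HahnSeries.order_mul (pow_ne_zero _ hR0) (pow_ne_zero _ hT0), order_natPow hθJ0,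
    order_natPow hG0, order_natPow hR0, order_natPow hT0, hTdef,
    HahnSeries.order_single one_ne_zero] at hord
  push_cast [Nat.cast_sub hp1] at hord
  have hq : (0 : ℤ) ≤ (p : ℤ) - 1 := by omega
  nlinarith [mul_le_mul_of_nonneg_left hRord hq]

end Fermat.Agent.LevelLowerP
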