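import Fermat.Agent.LevelLowerP.GeoNodeBase
import Fermat.Agent.LevelLowerP.GeoElliptic
import Fermat.Agent.LevelLowerP.GeoSuper
import Mathlib.RingTheory.PowerSeries.Ideal

/-!
# Inputs for the nodes: generation by `h(pτ)`, ramification of `j` on the reduced curve, the leading
coefficient of the node equation, and simple residual roots
-/

set_option autoImplicit false

noncomputable section

namespace Fermat.Agent.LevelLowerP

open Polynomial ModularCurve Fermat.Agent.Igusa AlgebraicCurve Fermat.Agent.FF TrivSqZeroExt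
open scoped LaurentSeries PowerSeries

section Laurent

variable {k : Type*} [Field k]

/-- Order of a power series with given leading coefficient. -/
theorem order_ofPowerSeries_eq {f : k⟦X⟧} {d : ℕ} (h1 : PowerSeries.coeff d f ≠ 0)
    (h2 : ∀ i < d, PowerSeries.coeff i f = 0) :
    (HahnSeries.ofPowerSeries ℤ k f).order = d := by
  refine order_eq_of_coeff (by rwa [HahnSeries.ofPowerSeries_apply_coeff]) fun m hm => ?_
  rcases m with m | m
  · rw [show Int.ofNat m = ((m : ℕ) : ℤ) from rfl] at hm ⊢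
    rw [HahnSeries.ofPowerSeries_apply_coeff]
    exact h2 m (by omega)
  · exact ofPowerSeries_coeff_of_neg f (Int.negSucc_lt_zero m)

theorem exists_X_pow_mul {f : k⟦X⟧} (hf : f ≠ 0) :
    ∃ (m : ℕ) (g : k⟦X⟧), PowerSeries.constantCoeff g ≠ 0 ∧ f = PowerSeries.X ^ m * g := by
  obtain ⟨n, u, hu⟩ := IsDiscreteValuationRing.eq_unit_mul_pow_irreducible hf
    PowerSeries.X_prime.irreducible
  exact ⟨n, u, (PowerSeries.isUnit_iff_constantCoeff.1 u.isUnit).ne_zero, by rw [hu, mul_comm]⟩

/-- Substitutions extend to Laurent series and multiply orders. -/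
theorem exists_laurentExt (σ : k⟦X⟧ →+* k⟦X⟧) {ξ : k⟦X⟧} (hX : σ PowerSeries.X = ξ) {d : ℕ}
    (h1 : PowerSeries.coeff d ξ ≠ 0) (h2 : ∀ i < d, PowerSeries.coeff i ξ = 0)
    (hcc : ∀ f, PowerSeries.constantCoeff (σ f) = PowerSeries.constantCoeff f) :
    ∃ τ : LaurentSeries k →+* LaurentSeries k,
      (∀ f, τ (HahnSeries.ofPowerSeries ℤ k f) = HahnSeries.ofPowerSeries ℤ k (σ f)) ∧
        ∀ z, z ≠ 0 → (τ z).order = d * z.order := by
  set P := HahnSeries.ofPowerSeries ℤ k
  have hξ : P ξ ≠ 0 :=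
    (map_ne_zero_iff P HahnSeries.ofPowerSeries_injective).2 fun h => h1 (by rw [h, map_zero])
  have hu : ∀ y : Submonoid.powers (PowerSeries.X : k⟦X⟧),
      IsUnit ((P.comp σ) (y : k⟦X⟧)) := by
    rintro ⟨_, n, rfl⟩
    simp only [map_pow, RingHom.comp_apply, hX]
    exact (IsUnit.mk0 _ hξ).pow n
  let τ : LaurentSeries k →+* LaurentSeries k := IsLocalization.lift hu
  have hτ : ∀ f, τ (P f) = P (σ f) := fun f => IsLocalization.lift_eq hu f
  have ho : ∀ f, f ≠ 0 → (P (σ f)).order = d * (P f).order := by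
    intro f hf
    obtain ⟨m, g, hg, rfl⟩ := exists_X_pow_mul hf
    have hg' : PowerSeries.coeff 0 (σ g) ≠ 0 := by
      rwa [PowerSeries.coeff_zero_eq_constantCoeff_apply, hcc]
    have hg'' : PowerSeries.coeff 0 g ≠ 0 := by
      rwa [PowerSeries.coeff_zero_eq_constantCoeff_apply]
    have hPg : P g ≠ 0 :=
      (map_ne_zero_iff P HahnSeries.ofPowerSeries_injective).2 fun h => hg (by rw [h, map_zero])
    have hPσg : P (σ g) ≠ 0 :=
      (map_ne_zero_iff P HahnSeries.ofPowerSeries_injective).2 fun h => hg' (by rw [h, map_zero])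
    have hXo : (P PowerSeries.X).order = ((1 : ℕ) : ℤ) := order_ofPowerSeries_eq (by simp)
      fun i hi => by rw [Nat.lt_one_iff] at hi; subst hi; simp
    have hX0 : P PowerSeries.X ≠ 0 :=
      (map_ne_zero_iff P HahnSeries.ofPowerSeries_injective).2 PowerSeries.X_ne_zero
    rw [map_mul σ, map_pow σ, hX, map_mul P, map_mul P, map_pow, map_pow,
      HahnSeries.order_mul (pow_ne_zero _ hξ) hPσg, HahnSeries.order_mul (pow_ne_zero _ hX0) hPg,
      order_natPow hξ, order_natPow hX0, order_ofPowerSeries_eq h1 h2, hXo,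
      order_ofPowerSeries_eq hg' (by simp), order_ofPowerSeries_eq hg'' (by simp)]
    push_cast
    ring
  refine ⟨τ, hτ, fun z hz => ?_⟩
  obtain ⟨⟨f, ⟨_, n, rfl⟩⟩, hfn⟩ :=
    IsLocalization.surj (Submonoid.powers (PowerSeries.X : k⟦X⟧)) z
  change z * P (PowerSeries.X ^ n) = P f at hfn
  have hXn : P (PowerSeries.X ^ n) ≠ 0 :=
    (map_ne_zero_iff P HahnSeries.ofPowerSeries_injective).2 (pow_ne_zero _ PowerSeries.X_ne_zero)
  have hf : f ≠ 0 := fun h => mul_ne_zero hz hXn (by rw [hfn, h, map_zero])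
  have h3 := congrArg τ hfn
  rw [map_mul, hτ, hτ] at h3
  have h4 := congrArg HahnSeries.order h3
  have hσXn : P (σ (PowerSeries.X ^ n)) ≠ 0 := by
    rw [map_pow, hX, map_pow]
    exact pow_ne_zero _ hξ
  rw [HahnSeries.order_mul ((_root_.map_ne_zero τ).2 hz) hσXn, ho f hf,
    ho _ (pow_ne_zero _ PowerSeries.X_ne_zero), ← hfn, HahnSeries.order_mul hz hXn] at h4
  linear_combination h4

end Laurent

section Certificate

variable {B A : Type*} [CommRing B] [CommRing A] [Algebra B A] [IsDomain A] [IsIntegrallyClosed A]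
  (d : Derivation B A A) {ξ : A} {c : B} {m : ℕ} (Y Z C : Fin m → A)

/-- A multiple of `ξ` generated by cubes forces `ξ ^ 4` to divide the sixth power of the
derivative. -/
theorem pow_four_dvd_deriv (h1 : ∀ i, Y i ^ 3 = ξ * Z i)
    (h2 : ∑ i, C i * Y i ^ 3 = algebraMap B A c * ξ) :
    ξ ^ 4 ∣ (algebraMap B A c * d ξ) ^ 6 := by
  set I : Ideal A := Ideal.span (Set.range fun i => Y i ^ 2)
  have hd : algebraMap B A c * d ξ ∈ I := by
    have h := congrArg d h2
    rw [map_sum, Derivation.leibniz, Derivation.map_algebraMap, smul_zero, add_zero,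
      smul_eq_mul] at h
    rw [← h]
    refine sum_mem fun i _ => ?_
    rw [Derivation.leibniz, Derivation.leibniz_pow, smul_eq_mul, smul_eq_mul, nsmul_eq_mul,
      smul_eq_mul]
    have hY : Y i ^ 2 ∈ I := Ideal.subset_span ⟨i, rfl⟩
    exact add_mem (I.mul_mem_left _ (I.mul_mem_left _ (I.mul_mem_right _ hY)))
      (I.mul_mem_right _ (by rw [pow_succ]; exact I.mul_mem_right _ hY))
  have hI : I * I * I ≤ Ideal.span {ξ ^ 2} := by
    rw [Ideal.span_mul_span', Ideal.span_mul_span', Ideal.span_le]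
    rintro _ ⟨_, ⟨_, ⟨i, rfl⟩, _, ⟨j, rfl⟩, rfl⟩, _, ⟨l, rfl⟩, rfl⟩
    rw [SetLike.mem_coe, Ideal.mem_span_singleton]
    show ξ ^ 2 ∣ Y i ^ 2 * Y j ^ 2 * Y l ^ 2
    rw [← mul_pow, ← mul_pow]
    refine pow_dvd_pow_of_dvd ((IsIntegrallyClosed.pow_dvd_pow_iff (n := 3) (by norm_num)).1
      ⟨Z i * Z j * Z l, ?_⟩) 2
    rw [mul_pow, mul_pow, h1, h1, h1]
    ring
  have h := Ideal.mem_span_singleton.1 (hI (Ideal.mul_mem_mul (Ideal.mul_mem_mul hd hd) hd))
  have h' := pow_dvd_pow_of_dvd h 2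
  rw [← pow_mul] at h'
  exact h'.trans (dvd_of_eq (by ring))

/-- A multiple of `ξ` generated by squares forces `ξ ^ 3` to divide the sixth power of the
derivative. -/
theorem pow_three_dvd_deriv (h1 : ∀ i, Y i ^ 2 = ξ * Z i)
    (h2 : ∑ i, C i * Y i ^ 2 = algebraMap B A c * ξ) :
    ξ ^ 3 ∣ (algebraMap B A c * d ξ) ^ 6 := by
  set I : Ideal A := Ideal.span (Set.range Y)
  have hd : algebraMap B A c * d ξ ∈ I := by
    have h := congrArg d h2
    rw [map_sum, Derivation.leibniz, Derivation.map_algebraMap, smul_zero, add_zero,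
      smul_eq_mul] at h
    rw [← h]
    refine sum_mem fun i _ => ?_
    rw [Derivation.leibniz, Derivation.leibniz_pow, smul_eq_mul, smul_eq_mul, nsmul_eq_mul,
      smul_eq_mul, pow_one]
    have hY : Y i ∈ I := Ideal.subset_span ⟨i, rfl⟩
    exact add_mem (I.mul_mem_left _ (I.mul_mem_left _ (I.mul_mem_right _ hY)))
      (I.mul_mem_right _ (by rw [pow_succ]; exact I.mul_mem_left _ hY))
  have hI : I * I ≤ Ideal.span {ξ} := by
    rw [Ideal.span_mul_span', Ideal.span_le]
    rintro _ ⟨_, ⟨i, rfl⟩, _, ⟨j, rfl⟩, rfl⟩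
    rw [SetLike.mem_coe, Ideal.mem_span_singleton]
    refine (IsIntegrallyClosed.pow_dvd_pow_iff (n := 2) (by norm_num)).1 ⟨Z i * Z j, ?_⟩
    rw [mul_pow, h1, h1]
    ring
  have h := Ideal.mem_span_singleton.1 (hI (Ideal.mul_mem_mul hd hd))
  exact (pow_dvd_pow_of_dvd h 3).trans (dvd_of_eq (by ring))

end Certificate

section Generator

variable {K : Type*} [Field K] [CharZero K] {M p : ℕ} [NeZero M] [Fact p.Prime] (hpM : ¬ p ∣ M)

include hpM in
/-- `H(pτ)` generates over level `M` as soon as `H` is not a series in `q ^ p`. -/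
theorem scale_generator {H : modularFunctionFieldFullC K M} {n : ℤ} (hn : ¬ (p : ℤ) ∣ n)
    (hc : (H : LaurentSeries K).coeff n ≠ 0) :
    Subfield.closure (Set.range (inclP (k := K) M p) ∪ {scaleP M p H}) = ⊤ ∧
      ∀ P : (modularFunctionFieldFullC K M)[X], P.Monic → P.natDegree = p + 1 →
        P.eval₂ (inclP M p) (scaleP M p H) = 0 →
        P.derivative.eval₂ (inclP M p) (scaleP M p H) ≠ 0 ∧
        ∀ {Ω' : Type*} [Field Ω'] (ι₀ : modularFunctionFieldFullC K M →+* Ω') (ρ : Ω'),
          P.eval₂ ι₀ ρ = 0 →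
          ∃ f : modularFunctionFieldFullC K (M * p) →+* Ω',
            f.comp (inclP M p) = ι₀ ∧ f (scaleP M p H) = ρ := by
  obtain ⟨η, σ, hη, hσ, hσn, hσs⟩ := exists_conjugates K M p hpM
  set Ω := AlgebraicClosure K
  set s := coeffMap (algebraMap K Ω) (H : LaurentSeries K) with hs_def
  have hs : s.coeff n ≠ 0 := by
    rw [hs_def, coeffMap_coeff]
    exact (_root_.map_ne_zero _).2 hc
  have hsome : ∀ b : Fin p, (σ (some b) (scaleP M p H)).coeff ((M : ℤ) * n) =
      (((η ^ (b : ℕ)) ^ n : Ωˣ) : Ω) * s.coeff n := fun b => by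
    rw [hσs, ModularCurve.qExpand_coeff_mul, twist_coeff]
  have hnone : (σ none (scaleP M p H)).coeff ((M : ℤ) * n) = 0 := by
    rw [hσn, coe_scaleP, coeffMap_qExpand, qExpand_qExpand, ModularCurve.qExpand_coeff_of_not_dvd]
    intro hd
    apply hn
    push_cast at hd
    rw [mul_assoc] at hd
    have := (mul_dvd_mul_iff_left (show (M : ℤ) ≠ 0 by exact_mod_cast NeZero.ne M)).1 hd
    exact (dvd_mul_right _ _).trans this
  refine generator_of_conj σ ((qExpand Ω (M * p)).comp ((coeffMap (algebraMap K Ω)).comp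
    (SubringClass.subtype (modularFunctionFieldFullC K M)))) (fun o x => hσ o x) ?_ (by simp)
  have hne : ∀ b : Fin p, σ (some b) (scaleP M p H) ≠ σ none (scaleP M p H) := fun b h => by
    have := congrArg (fun t : LaurentSeries Ω => t.coeff ((M : ℤ) * n)) h
    simp only [hsome, hnone] at this
    exact mul_ne_zero (Units.ne_zero _) hs this
  rintro (_ | b) (_ | c) h
  · rfl
  · exact absurd h.symm (hne c)
  · exact absurd h (hne b)
  · have h1 := congrArg (fun t : LaurentSeries Ω => t.coeff ((M : ℤ) * n)) h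
    simp only [hsome] at h1
    have h2 : (η ^ (b : ℕ)) ^ n = (η ^ (c : ℕ)) ^ n := Units.ext (mul_right_cancel₀ hs h1)
    rw [← zpow_natCast, ← zpow_natCast η (c : ℕ), ← zpow_mul, ← zpow_mul,
      ← mul_inv_eq_one, ← zpow_neg, ← zpow_add] at h2
    have hη' : IsPrimitiveRoot η p := IsPrimitiveRoot.coe_units_iff.1 hη
    rw [hη'.zpow_eq_one_iff_dvd, ← neg_mul, ← add_mul] at h2
    have h3 : (p : ℤ) ∣ ((b : ℕ) : ℤ) + -((c : ℕ) : ℤ) :=
      ((Nat.prime_iff_prime_int.1 (Fact.out : p.Prime)).dvd_or_dvd h2).resolve_right hn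
    have h4 : ((b : ℕ) : ℤ) + -((c : ℕ) : ℤ) = 0 := Int.eq_zero_of_abs_lt_dvd h3 (by
      rw [abs_lt]; have := b.isLt; have := c.isLt; omega)
    exact congrArg some (Fin.ext (by omega))

end Generator

variable {p : ℕ} {R k : Type} [CommRing R] [IsDomain R] [IsDiscreteValuationRing R] [Field k]
  [CharP k p] [Fact p.Prime] [CharZero R] {S : Setup p R k} (U : Unram S) (M : ℕ) [NeZero M]

/-- The rational chart inside the chart over the subring. -/
def chartHom : ratChart p M →+* chartA U M :=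
  (chartEmb U M).codRestrict _ (chartEmb_mem U M)

omit [IsDiscreteValuationRing R] [NeZero M] in
theorem chartHom_apply (y : ratChart p M) : chartHom U M y = chartOf U M y := rfl

omit [IsDiscreteValuationRing R] [NeZero M] in
theorem chartA_induction {P : chartA U M → Prop}
    (hc : ∀ r, P (algebraMap U.R₀ _ r)) (hy : ∀ y, P (chartHom U M y))
    (ha : ∀ a b, P a → P b → P (a + b)) (hm : ∀ a b, P a → P b → P (a * b)) (a : chartA U M) :
    P a := by
  classical
  obtain ⟨c, hc'⟩ := (mem_chartA_iff U M).1 a.2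
  have h : a = ∑ y ∈ c.support, algebraMap U.R₀ _ (c y) * chartHom U M y := by
    apply Subtype.ext
    rw [← hc', AddSubmonoidClass.coe_finsetSum, Finsupp.sum]
    refine Finset.sum_congr rfl fun y _ => ?_
    rw [MulMemClass.coe_mul, Subalgebra.coe_algebraMap, algebraMap_series, smul_series]
    rfl
  rw [h]
  refine Finset.sum_induction _ P ha ?_ fun y _ => hm _ _ (hc (c y)) (hy y)
  simpa using hc 0

variable [IsAlgClosed k] [Algebra (ZMod p) k] [Algebra.IsAlgebraic (ZMod p) k] (hpM : ¬ p ∣ M)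

omit [IsDiscreteValuationRing R] in
theorem redA_chartHom_chartJ : redA U M hpM (chartHom U M (chartJ p M)) = jC k M :=
  Subtype.val_injective (by rw [chartHom_apply, coe_redA_chartOf, chartRed_chartJ]; rfl)

variable (v : Place k (modularFunctionFieldFullC k M)) (hv : 0 ≤ v.ord (jC k M))

include hpM hv

omit [IsDiscreteValuationRing R] in
theorem evalPt_hRat :
    evalPt U M hpM v hv (chartHom U M (hRat U M hpM v hv)) = 0 := by
  rw [evalPt_eq_zero_iff, chartHom_apply]
  obtain ⟨h0, h1⟩ := ord_hRat U M hpM v hv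
  exact mem_ordGE_of_le_ord v (by rw [h1])

omit [IsDiscreteValuationRing R] in
/-- The parameter is not killed by `θ`. -/
theorem theta_hRat_ne_zero :
    theta k (redA U M hpM (chartOf U M (hRat U M hpM v hv)) : LaurentSeries k) ≠ 0 := by
  intro h
  obtain ⟨w, hw⟩ := exists_pow_of_theta_eq_zero (p := p) hpM h
  obtain ⟨h0, h1⟩ := ord_hRat U M hpM v hv
  rw [hw, ord_pow] at h1
  have hd : (p : ℤ) ∣ 1 := ⟨_, h1.symm⟩
  have := Int.le_of_dvd one_pos hd
  have := (Fact.out : p.Prime).two_le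
  omega

/-- A coefficient of the parameter in degree prime to `p`. -/
theorem exists_coeff_hRat : ∃ n : ℤ, ¬ (p : ℤ) ∣ n ∧
    (Subtype.val (toF U M (chartOf U M (hRat U M hpM v hv)) :
      modularFunctionFieldFullC (FractionRing R) M)).coeff n ≠ 0 := by
  obtain ⟨n, hn⟩ : ∃ n : ℤ, (theta k
      (redA U M hpM (chartOf U M (hRat U M hpM v hv)) : LaurentSeries k)).coeff n ≠ 0 := by
    by_contra h
    push Not at h
    exact theta_hRat_ne_zero U M hpM v hv (HahnSeries.ext (funext h))
  rw [theta_coeff, mul_ne_zero_iff, Ne, CharP.intCast_eq_zero_iff k p] at hn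
  refine ⟨n, hn.1, fun h => hn.2 ?_⟩
  rw [coe_toF, coeffMap_coeff, RingHom.comp_apply,
    map_eq_zero_iff _ (IsFractionRing.injective R (FractionRing R))] at h
  rw [coe_redA, coeffMap_coeff, Subtype.val_injective (h.trans (ZeroMemClass.coe_zero U.R₀).symm),
    map_zero]

omit U hpM v hv [CharP k p] [Fact p.Prime] [CharZero R] [NeZero M] [IsAlgClosed k]
  [Algebra (ZMod p) k] [Algebra.IsAlgebraic (ZMod p) k] in
/-- A divisor with nonzero reduction does not see constant factors. -/
theorem map_dvd_of_dvd_const_mul {B D : R⟦X⟧} (hB : PowerSeries.map S.res B ≠ 0) {c : R}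
    (hc : c ≠ 0) (h : B ∣ PowerSeries.C c * D) :
    PowerSeries.map S.res B ∣ PowerSeries.map S.res D := by
  obtain ⟨n, w, rfl⟩ := IsDiscreteValuationRing.eq_unit_mul_pow_irreducible hc S.irreducible_ϖ
  induction n generalizing D with
  | zero =>
    rw [pow_zero, mul_one, (w.isUnit.map PowerSeries.C).dvd_mul_left] at h
    exact map_dvd _ h
  | succ n ih =>
    refine ih (D := D) (mul_ne_zero w.ne_zero (pow_ne_zero _ S.irreducible_ϖ.ne_zero)) ?_
    obtain ⟨Q, hQ⟩ := h
    have hne : (PowerSeries.C S.ϖ : R⟦X⟧) ≠ 0 :=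
      (map_ne_zero_iff _ PowerSeries.C_injective).2 S.irreducible_ϖ.ne_zero
    rw [pow_succ', mul_left_comm, map_mul, mul_assoc] at hQ
    have h' := congrArg (PowerSeries.map S.res) hQ
    rw [map_mul, PowerSeries.map_C, S.res_ϖ, map_zero, zero_mul, map_mul, eq_comm,
      mul_eq_zero] at h'
    have hcQ : ∀ i, S.ϖ ∣ PowerSeries.coeff i Q := fun i => S.res_eq_zero_iff.1 (by
      simpa using congrArg (PowerSeries.coeff i) (h'.resolve_left hB))
    choose q hq using hcQ
    refine ⟨PowerSeries.mk q, mul_left_cancel₀ hne ?_⟩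
    have hQ' : Q = PowerSeries.C S.ϖ * PowerSeries.mk q := PowerSeries.ext fun i => by simp [hq]
    rw [hQ, hQ', mul_left_comm]

theorem map_discR (a : chartA U M) :
    PowerSeries.map S.res (discR U M hpM v hv a) = discK U M hpM v hv a := by
  ext n
  rfl

/-- The expansion of a certificate for `j - c`. -/
theorem exists_disc_certificate {e : ℕ} (he : 1 ≤ e) (c : ℕ) {m : ℕ}
    (y z w : Fin m → ratInt M)
    (h1 : ∀ i, y i ^ e = (⟨jqModC ℚ, jqModC_mem_ratInt M⟩ - (c : ratInt M)) * z i)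
    (h2 : ∑ i, w i * y i ^ e = ⟨jqModC ℚ, jqModC_mem_ratInt M⟩ - (c : ratInt M)) :
    ∃ (N : ℕ) (Y Z W : Fin m → R⟦X⟧),
      (∀ i, Y i ^ e = (discR U M hpM v hv (chartHom U M (chartJ p M)) - c) * Z i) ∧
      ∑ i, W i * Y i ^ e =
        algebraMap R R⟦X⟧ ((p : R) ^ N) * (discR U M hpM v hv (chartHom U M (chartJ p M)) - c) := by
  classical
  have key : ∀ x : ratInt M, ∃ s : ℕ, ∀ t, s ≤ t → ∃ u : ratChart p M,
      toQ p (u : LaurentSeries (ZL p)) = (p : LaurentSeries ℚ) ^ t * (x : LaurentSeries ℚ) := by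
    intro x
    obtain ⟨s, u, hu⟩ := exists_pow_mul_mem p M hpM x.2
    refine ⟨s, fun t ht => ⟨(p : ratChart p M) ^ (t - s) * u, ?_⟩⟩
    push_cast
    rw [map_mul, map_pow, map_natCast, hu, ← mul_assoc, ← pow_add, Nat.sub_add_cancel ht]
  choose sy hy using fun i => key (y i)
  choose sz hz using fun i => key (z i)
  choose sw hw using fun i => key (w i)
  set t := (Finset.univ.sup sy) + (Finset.univ.sup sz) + (Finset.univ.sup sw)
  have het : t ≤ e * t := Nat.le_mul_of_pos_left t he
  choose Y hY using fun i => hy i t (by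
    have := Finset.le_sup (f := sy) (Finset.mem_univ i); omega)
  choose Z hZ using fun i => hz i (e * t) (by
    have := Finset.le_sup (f := sz) (Finset.mem_univ i); omega)
  choose W hW using fun i => hw i t (by
    have := Finset.le_sup (f := sw) (Finset.mem_univ i); omega)
  set J : ratChart p M := chartJ p M - (c : ratChart p M)
  have hJ : toQ p (J : LaurentSeries (ZL p)) =
      ((⟨jqModC ℚ, jqModC_mem_ratInt M⟩ - (c : ratInt M) : ratInt M) : LaurentSeries ℚ) := by
    simp only [J]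
    push_cast
    rw [map_sub, map_natCast]
    show coeffMap _ (jqModC (ZL p)) - _ = _
    rw [coeffMap_jqModC]
  let f : ratChart p M →+* LaurentSeries ℚ := (toQ p).comp (ratChart p M).subtype
  have hf : Function.Injective f := fun a b h => Subtype.ext (toQ_injective p h)
  have e1 : ∀ i, Y i ^ e = J * Z i := fun i => hf (by
    show toQ p ((Y i ^ e : ratChart p M) : LaurentSeries (ZL p)) =
      toQ p ((J * Z i : ratChart p M) : LaurentSeries (ZL p))
    push_cast
    rw [map_pow, map_mul, hY, hZ, hJ, mul_pow, ← pow_mul, mul_comm t e, ← SubmonoidClass.coe_pow,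
      h1 i, MulMemClass.coe_mul]
    ring)
  have e2 : ∑ i, W i * Y i ^ e = (p : ratChart p M) ^ (t + e * t) * J := hf (by
    rw [map_sum, map_mul, map_pow, map_natCast]
    show ∑ i, toQ p ((W i * Y i ^ e : ratChart p M) : LaurentSeries (ZL p)) =
      _ * toQ p (J : LaurentSeries (ZL p))
    push_cast
    simp only [map_pow, map_mul, hY, hW]
    rw [hJ, ← h2, AddSubmonoidClass.coe_finsetSum, Finset.mul_sum]
    refine Finset.sum_congr rfl fun i _ => ?_
    push_cast
    rw [mul_pow, ← pow_mul, mul_comm t e, pow_add]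
    ring)
  let φ : ratChart p M →+* R⟦X⟧ := (discR U M hpM v hv).comp (chartHom U M)
  have hφJ : φ J = discR U M hpM v hv (chartHom U M (chartJ p M)) - c := by
    rw [map_sub φ, map_natCast φ]
    rfl
  refine ⟨t + e * t, fun i => φ (Y i), fun i => φ (Z i), fun i => φ (W i), fun i => ?_, ?_⟩
  · rw [← hφJ, ← map_pow, e1, map_mul]
  · rw [← hφJ, map_pow, map_natCast, ← map_natCast φ, ← map_pow, ← map_mul, ← e2, map_sum]
    exact Finset.sum_congr rfl fun i _ => by rw [map_mul, map_pow]

/-- `j ^ 4 (j - 1728) ^ 3` divides the sixth power of `dj/dt` at every finite point, when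
`ν₂ = ν₃ = 0`. -/
theorem order_jjm1728_le (h2 : nuTwo M = 0) (h3 : nuThree M = 0)
    (hθ : theta k (ePt U M hpM v hv (jC k M)) ≠ 0) :
    (ePt U M hpM v hv (jC k M) ^ 4 *
        (ePt U M hpM v hv (jC k M) - HahnSeries.C (1728 : k)) ^ 3).order + 6 ≤
      6 * (theta k (ePt U M hpM v hv (jC k M))).order := by
  set ξ := discR U M hpM v hv (chartHom U M (chartJ p M)) with hξ_def
  set D := PowerSeries.derivative R
  have hJ : ((PowerSeries.map S.res ξ : k⟦X⟧) : LaurentSeries k) = ePt U M hpM v hv (jC k M) := by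
    rw [hξ_def, map_discR, ← ePt_redA, redA_chartHom_chartJ]
  obtain ⟨m₃, y₃, z₃, w₃, hy₃, hs₃⟩ := exists_cube_certificate h3
  obtain ⟨N₃, Y₃, Z₃, W₃, a₁, a₂⟩ := exists_disc_certificate U M hpM v hv (e := 3) (by norm_num) 0
    y₃ z₃ w₃ (by simpa using hy₃) (by simpa using hs₃)
  rw [Nat.cast_zero, sub_zero, ← hξ_def] at a₁ a₂
  obtain ⟨m₂, y₂, z₂, w₂, hy₂, hs₂⟩ := exists_square_certificate h2
  obtain ⟨N₂, Y₂, Z₂, W₂, b₁, b₂⟩ := exists_disc_certificate U M hpM v hv (e := 2) (by norm_num)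
    1728 y₂ z₂ w₂ (by simpa using hy₂) (by simpa using hs₂)
  rw [← hξ_def] at b₁ b₂
  set η : R⟦X⟧ := ξ - ((1728 : ℕ) : R⟦X⟧) with hη_def
  have hDη : D η = D ξ := by
    rw [hη_def, map_sub, Derivation.map_natCast, sub_zero]
  set c : R := (p : R) ^ N₃ * (p : R) ^ N₂ with hc_def
  have hC : ∀ r : R, algebraMap R R⟦X⟧ r = PowerSeries.C r := fun _ => rfl
  have hξ4 : ξ ^ 4 ∣ PowerSeries.C (c ^ 6) * D ξ ^ 6 :=
    (pow_four_dvd_deriv D Y₃ Z₃ W₃ a₁ a₂).trans ⟨(algebraMap R R⟦X⟧ ((p : R) ^ N₂)) ^ 6, by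
      simp only [hC, hc_def, map_mul, map_pow]
      ring⟩
  have hη3 : η ^ 3 ∣ PowerSeries.C (c ^ 6) * D ξ ^ 6 :=
    (pow_three_dvd_deriv D Y₂ Z₂ W₂ b₁ b₂).trans ⟨(algebraMap R R⟦X⟧ ((p : R) ^ N₃)) ^ 6, by
      simp only [hC, hc_def, map_mul, map_pow, hDη]
      ring⟩
  have hprod : ξ ^ 4 * η ^ 3 ∣ PowerSeries.C ((1728 : R) ^ 6 * c ^ 6) * D ξ ^ 6 := by
    obtain ⟨u, hu⟩ := hξ4
    obtain ⟨w, hw⟩ := hη3
    have hxy : PowerSeries.C (1728 : R) = ξ - η := by
      rw [hη_def, sub_sub_cancel, map_ofNat]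
      rfl
    refine ⟨(ξ ^ 2 - 6 * ξ * η + 15 * η ^ 2) * w + (-20 * ξ ^ 3 + 15 * ξ ^ 2 * η
      - 6 * ξ * η ^ 2 + η ^ 3) * u, ?_⟩
    rw [map_mul, map_pow, mul_assoc, hxy]
    linear_combination (ξ ^ 6 - 6 * ξ ^ 5 * η + 15 * ξ ^ 4 * η ^ 2) * hw +
      (-20 * ξ ^ 3 * η ^ 3 + 15 * ξ ^ 2 * η ^ 4 - 6 * ξ * η ^ 5 + η ^ 6) * hu
  set J := PowerSeries.map S.res ξ with hJ_def
  have hJne : ∀ r : k, J - PowerSeries.C r ≠ 0 := fun r hr => hθ (by
    rw [← hJ, sub_eq_zero.1 hr, HahnSeries.ofPowerSeries_C, theta_C])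
  have hJη : PowerSeries.map S.res η = J - PowerSeries.C (1728 : k) := by
    rw [hη_def, map_sub, map_natCast, map_ofNat]
    rfl
  have hB : PowerSeries.map S.res (ξ ^ 4 * η ^ 3) ≠ 0 := by
    rw [map_mul, map_pow, map_pow, hJη]
    exact mul_ne_zero (pow_ne_zero _ (by simpa using hJne 0)) (pow_ne_zero _ (hJne _))
  have hc0 : (1728 : R) ^ 6 * c ^ 6 ≠ 0 := by
    have hp0 : (p : R) ≠ 0 := Nat.cast_ne_zero.2 (NeZero.ne p)
    exact mul_ne_zero (pow_ne_zero _ (by norm_num))
      (pow_ne_zero _ (mul_ne_zero (pow_ne_zero _ hp0) (pow_ne_zero _ hp0)))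
  have hdvd := map_dvd_of_dvd_const_mul hB hc0 hprod
  have hmapD : PowerSeries.map S.res (D ξ) = PowerSeries.derivative k J := by
    ext n
    simp [D, hJ_def, PowerSeries.coeff_derivative]
  rw [map_mul, map_pow, map_pow, hJη, map_pow, hmapD] at hdvd
  obtain ⟨Q, hQ⟩ := hdvd
  have hθJ : theta k (ePt U M hpM v hv (jC k M)) =
      ((PowerSeries.X * PowerSeries.derivative k J : k⟦X⟧) : LaurentSeries k) := by
    rw [← hJ]
    ext n
    rcases n with n | n
    · rw [show Int.ofNat n = ((n : ℕ) : ℤ) from rfl, theta_coeff,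
        HahnSeries.ofPowerSeries_apply_coeff, HahnSeries.ofPowerSeries_apply_coeff]
      rcases n with _ | n
      · simp
      · rw [PowerSeries.coeff_succ_X_mul, PowerSeries.coeff_derivative]
        push_cast
        ring
    · rw [theta_coeff, ofPowerSeries_coeff_of_neg _ (Int.negSucc_lt_zero n),
        ofPowerSeries_coeff_of_neg _ (Int.negSucc_lt_zero n), mul_zero]
  rw [hθJ] at hθ ⊢
  have h6 : PowerSeries.derivative k J ^ 6 ≠ 0 := pow_ne_zero _ fun h => hθ (by
    rw [h, mul_zero, map_zero])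
  rw [hQ, mul_ne_zero_iff] at h6
  have hinj := (HahnSeries.ofPowerSeries_injective :
    Function.Injective (HahnSeries.ofPowerSeries ℤ k))
  have eR : HahnSeries.ofPowerSeries ℤ k (J ^ 4 * (J - PowerSeries.C (1728 : k)) ^ 3) =
      ePt U M hpM v hv (jC k M) ^ 4 *
        (ePt U M hpM v hv (jC k M) - HahnSeries.C (1728 : k)) ^ 3 := by
    rw [map_mul, map_pow, map_pow, map_sub, hJ, HahnSeries.ofPowerSeries_C]
  have eθ : HahnSeries.ofPowerSeries ℤ k (PowerSeries.X * PowerSeries.derivative k J) ^ 6 =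
      HahnSeries.single (6 : ℤ) (1 : k) *
        (HahnSeries.ofPowerSeries ℤ k (J ^ 4 * (J - PowerSeries.C (1728 : k)) ^ 3) *
          HahnSeries.ofPowerSeries ℤ k Q) := by
    rw [← map_pow, mul_pow, hQ, map_mul, map_mul (HahnSeries.ofPowerSeries ℤ k) _ Q, map_pow,
      HahnSeries.ofPowerSeries_X, HahnSeries.single_pow, one_pow, nsmul_eq_mul, mul_one]
    rfl
  have hord := order_natPow hθ 6
  rw [eθ, HahnSeries.order_mul (HahnSeries.single_ne_zero one_ne_zero) (mul_ne_zero
      ((map_ne_zero_iff _ hinj).2 h6.1) ((map_ne_zero_iff _ hinj).2 h6.2)),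
    HahnSeries.order_mul ((map_ne_zero_iff _ hinj).2 h6.1) ((map_ne_zero_iff _ hinj).2 h6.2),
    HahnSeries.order_single one_ne_zero] at hord
  rw [← eR]
  have hQ0 : (0 : ℤ) ≤ (HahnSeries.ofPowerSeries ℤ k Q).order :=
    le_order_of_coeff ((map_ne_zero_iff _ HahnSeries.ofPowerSeries_injective).2 h6.2)
      fun n hn => ofPowerSeries_coeff_of_neg _ hn
  simp only [Nat.cast_ofNat] at hord
  rw [← hJ_def] at hord
  omega

/-- At a supersingular point the node equation starts with a unit. -/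
theorem evalPt_coeff_ne_zero (h2 : nuTwo M = 0) (h3 : nuThree M = 0)
    (hss : (ePt U M hpM v hv (hasseK p k M)).coeff 0 = 0) {P G : (ratChart p M)[X]}
    (hP : P.eval₂ (ratChart p M).subtype
      (qExpand (ZL p) p (hRat U M hpM v hv : LaurentSeries (ZL p))) = 0)
    (hPG : P = (X - C (hRat U M hpM v hv ^ p)) * (X ^ p - C (hRat U M hpM v hv)) +
      C (p : ratChart p M) * G) :
    evalPt U M hpM v hv (chartHom U M (G.coeff 0)) ≠ 0 := by
  set y := hRat U M hpM v hv with hy
  set Y : LaurentSeries (ZL p) := (y : LaurentSeries (ZL p))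
  let χ : LaurentSeries (ZL p) →+* LaurentSeries k :=
    (coeffMap (ZMod.castHom dvd_rfl k)).comp (redS p)
  have hχ : ∀ u : ratChart p M, χ (u : LaurentSeries (ZL p)) =
      Subtype.val (redA U M hpM (chartHom U M u)) := fun u => by
    rw [chartHom_apply, coe_redA_chartOf, chartRed_apply]
    rfl
  have hred : redS p (Y ^ p - qExpand (ZL p) p Y) = 0 := by
    rw [map_sub, map_pow, redS, coeffMap_qExpand, qExpand_eq_pow, sub_self]
  obtain ⟨D, hD⟩ : ∃ D : LaurentSeries (ZL p),
      (p : LaurentSeries (ZL p)) * D = Y ^ p - qExpand (ZL p) p Y := by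
    have hd : ∀ n, (p : ZL p) ∣ (Y ^ p - qExpand (ZL p) p Y).coeff n := fun n =>
      (red0_eq_zero_iff p).1 (by
        have h' := congrArg (fun s : LaurentSeries (ZMod p) => s.coeff n) hred
        simp only [redS, coeffMap_coeff, HahnSeries.coeff_zero] at h'
        exact h')
    choose a ha using hd
    refine ⟨⟨a, (Y ^ p - qExpand (ZL p) p Y).isPWO_support.mono fun n hn => ?_⟩, ?_⟩
    · simp only [Function.mem_support, ne_eq] at hn
      rw [HahnSeries.mem_support, ha]
      exact mul_ne_zero (natCast_prime_ZL p).ne_zero hn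
    · ext n
      rw [← map_natCast (HahnSeries.C : ZL p →+* LaurentSeries (ZL p)), HahnSeries.C_apply,
        HahnSeries.coeff_single_zero_mul, ha]
  set Q := qExpand (ZL p) p Y
  have hG : G.eval₂ (ratChart p M).subtype Q = D * (Q ^ p - Y) := by
    rw [hPG] at hP
    simp only [eval₂_add, eval₂_mul, eval₂_sub, eval₂_X, eval₂_C, eval₂_X_pow] at hP
    rw [map_natCast, map_pow] at hP
    refine toQ_injective p (mul_left_cancel₀ (Igusa.natCast_laurent_ne_zero p) ?_)
    rw [← map_natCast (toQ p), ← map_mul, ← map_mul]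
    congr 1
    change (Q - Y ^ p) * (Q ^ p - Y) + _ = 0 at hP
    linear_combination hP + (Q ^ p - Y) * hD.symm
  set hκ := redA U M hpM (chartHom U M y) with hhκ
  set N := redA U M hpM (chartHom U M (G.eval (y ^ p))) with hN
  have hQ : χ Q = Subtype.val (hκ ^ p) := by
    rw [SubmonoidClass.coe_pow, hhκ, ← hχ, ← map_pow]
    have := congrArg (coeffMap (ZMod.castHom (dvd_refl p) k)) hred
    rw [map_zero] at this
    exact (sub_eq_zero.1 ((map_sub χ _ _).symm.trans this)).symm
  have hG' : χ (G.eval₂ (ratChart p M).subtype Q) = Subtype.val N := by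
    have e1 : hκ ^ p = ((redA U M hpM).comp (chartHom U M)) (y ^ p) := by
      rw [map_pow]; rfl
    rw [hom_eval₂, hQ, e1, RingHom.comp_apply, ← hχ, hN, ← hχ]
    exact eval₂_at_apply (χ.comp (ratChart p M).subtype) (y ^ p)
  have hne : (hκ ^ p) ^ p - hκ ≠ 0 := by
    intro h
    obtain ⟨h0, h1⟩ := ord_hRat U M hpM v hv
    have h' := congrArg v.ord (sub_eq_zero.1 h)
    change _ = v.ord (redA U M hpM (chartOf U M (hRat U M hpM v hv))) at h'
    rw [← pow_mul, ord_pow] at h'
    change ((p * p : ℕ) : ℤ) * v.ord (redA U M hpM (chartOf U M (hRat U M hpM v hv))) = _ at h'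
    rw [h1] at h'
    have := (Fact.out : p.Prime).two_le
    push_cast at h'
    nlinarith
  set d := N / ((hκ ^ p) ^ p - hκ) with hd_def
  have hd : (d : LaurentSeries k) = χ D := by
    have h := congrArg χ hG
    rw [hG', map_mul, map_sub, map_pow, hQ, hχ, ← SubmonoidClass.coe_pow,
      ← AddSubgroupClass.coe_sub] at h
    change Subtype.val (N / _) = _
    refine (map_div₀ (SubringClass.subtype (modularFunctionFieldFullC k M)) N _).trans ?_
    rw [div_eq_iff ((_root_.map_ne_zero _).2 hne)]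
    exact h
  intro h0
  have heh : ePt U M hpM v hv hκ = HahnSeries.single 1 1 := ePt_hRat U M hpM v hv
  have hjr := isPow_ePt_redA U M hpM v hv (chartHom U M (chartJ p M))
  rw [redA_chartHom_chartJ] at hjr
  have hp2 : 1 < p * p := by
    have := (Fact.out : p.Prime).two_le
    nlinarith
  obtain ⟨W, hW⟩ : ∃ W : k⟦X⟧, W * (PowerSeries.X ^ (p * p - 1) - 1) = 1 :=
    IsUnit.exists_left_inv (by
      rw [PowerSeries.isUnit_iff_constantCoeff, map_sub, map_pow, PowerSeries.constantCoeff_X,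
        zero_pow (by omega), map_one, zero_sub]
      exact isUnit_one.neg)
  have hmul : HahnSeries.single (1 : ℤ) (1 : k) * ePt U M hpM v hv d =
      ((discK U M hpM v hv (chartHom U M (G.eval (y ^ p))) * W : k⟦X⟧) : LaurentSeries k) := by
    have hT : HahnSeries.single (1 : ℤ) (1 : k) = ((PowerSeries.X : k⟦X⟧) : LaurentSeries k) :=
      (HahnSeries.ofPowerSeries_X).symm
    rw [hd_def, map_div₀, ← mul_div_assoc, div_eq_iff ((_root_.map_ne_zero _).2 hne), map_sub,
      map_pow, map_pow, heh, hN, ePt_redA, hT, ← map_pow, ← map_pow, ← map_sub, ← map_mul,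
      ← map_mul]
    congr 1
    rw [← pow_mul, show p * p = (p * p - 1) + 1 by omega, pow_succ']
    linear_combination -(PowerSeries.X * discK U M hpM v hv (chartHom U M (G.eval (y ^ p)))) * hW
  refine delta_pole M hpM (ePt U M hpM v hv) (ePt_algebraMap U M hpM v hv) (vSer_eq_vH p)
    (y := y) (h := hκ) (d := d) (by rw [hhκ, chartHom_apply, coe_redA_chartOf]) heh hD
    hd hjr hss (order_jjm1728_le U M hpM v hv h2 h3) ⟨_, hmul⟩ ?_
  have h5 := congrArg (fun s : LaurentSeries k => s.coeff ((0 : ℕ) : ℤ)) hmul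
  simp only [HahnSeries.ofPowerSeries_apply_coeff,
    PowerSeries.coeff_zero_eq_constantCoeff_apply] at h5
  rw [map_mul, constantCoeff_discK] at h5
  rw [HahnSeries.coeff_single_mul, one_mul] at h5
  rw [show (-1 : ℤ) = ((0 : ℕ) : ℤ) - 1 by norm_num, h5]
  have h6 : evalPt U M hpM v hv (chartHom U M (G.eval (y ^ p))) = 0 := by
    rw [← RingHom.comp_apply, ← eval₂_at_apply, RingHom.comp_apply, map_pow, map_pow,
      evalPt_hRat, zero_pow (NeZero.ne p), eval₂_at_zero]
    exact h0
  rw [h6, zero_mul]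

section RootAt

omit v hv
variable {O : Type} [CommRing O] [IsDomain O] {B : Branch O (LaurentSeries k)}
  {ι : modularFunctionFieldFullC (FractionRing R) (M * p) →+* FractionRing O}
  {e : modularFunctionFieldFullC k M →+* LaurentSeries k}

omit hpM [IsAlgClosed k] [Algebra (ZMod p) k] [Algebra.IsAlgebraic (ZMod p) k] in
theorem eval₂_scale_eq_zero {y : ratChart p M} {P : (ratChart p M)[X]}
    (hP : P.eval₂ (ratChart p M).subtype (qExpand (ZL p) p (y : LaurentSeries (ZL p))) = 0) :
    (P.map ((toF U M).comp (chartHom U M))).eval₂ (inclP M p)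
      (scaleP M p (toF U M (chartHom U M y))) = 0 := by
  apply (SubringClass.subtype (modularFunctionFieldFullC (FractionRing R) (M * p))).injective
  have h := congrArg (coeffMap (((algebraMap R (FractionRing R)).comp U.R₀.subtype).comp U.zl₀)) hP
  rw [map_zero, hom_eval₂, coeffMap_qExpand] at h
  rw [map_zero, eval₂_map, hom_eval₂, ← h]
  congr 1

include v hv in
/-- Functions `h(pτ)` with `θ h ≠ 0` are residually the simple root `h ^ p` along every
compatible expansion. -/
theorem rootAt_scale (h : Compat S M B (ι.comp (inclP M p)) e) {y : ratChart p M}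
    {P G : (ratChart p M)[X]} (hPm : P.Monic)
    (hP : P.eval₂ (ratChart p M).subtype (qExpand (ZL p) p (y : LaurentSeries (ZL p))) = 0)
    (hPG : P = (X - C (y ^ p)) * (X ^ p - C y) + C (p : ratChart p M) * G)
    (hθ : theta k (e (redA U M hpM (chartHom U M y))) ≠ 0) :
    Expn.RootAt (h.expn hpM) (scaleP M p (toF U M (chartHom U M y)))
      (P.map ((toF U M).comp (chartHom U M))) (toF U M (chartHom U M y) ^ p) := by
  have : CharP (LaurentSeries k) p := charP_of_injective_ringHom HahnSeries.C_injective p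
  choose X' hX hX' using fun a : chartA U M => Compat.exists_chart U M hpM hv h a
  have hint : ∀ a, B.BGe 0 (ι (inclP M p (toF U M a))) := fun a => by
    rw [show ι (inclP M p (toF U M a)) = (X' a : FractionRing O) from (hX a).symm]
    exact Branch.mem_intRing_iff_bGe.1 (X' a).2
  let ψ : ratChart p M →+* B.intRing (FractionRing O) :=
    ((ι.comp (inclP M p)).comp ((toF U M).comp (chartHom U M))).codRestrict _ fun u => by
      rw [show ((ι.comp (inclP M p)).comp ((toF U M).comp (chartHom U M))) u =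
        (X' (chartHom U M u) : FractionRing O) from (hX _).symm]
      exact (X' (chartHom U M u)).2
  have hψ : ∀ u, (B.intδ (ψ u)).fst = e (redA U M hpM (chartHom U M u)) := fun u => by
    rw [show ψ u = X' (chartHom U M u) from Subtype.ext (hX _).symm, hX', fst_inl]
  set g := ι (scaleP M p (toF U M (chartHom U M y))) with hg_def
  have hroot : (P.map ((B.intRing (FractionRing O)).subtype.comp ψ)).eval g = 0 := by
    have := congrArg ι (eval₂_scale_eq_zero U M hP)
    rw [map_zero, eval₂_map, hom_eval₂] at this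
    rw [eval_map]
    exact this
  have hg : B.BGe 0 g := Branch.bGe_zero_of_root (hPm.map _)
    (fun i => by rw [coeff_map]; exact hint _) hroot
  let g' : B.intRing (FractionRing O) := ⟨g, Branch.mem_intRing_iff_bGe.2 hg⟩
  have hroot' : P.eval₂ ψ g' = 0 := Subtype.ext (by
    rw [eval_map] at hroot
    exact (hom_eval₂ P ψ (B.intRing (FractionRing O)).subtype g').trans hroot)
  set r := (B.intδ g').fst with hr_def
  set H := e (redA U M hpM (chartHom U M y)) with hH_def
  let ρ : B.intRing (FractionRing O) →+* LaurentSeries k :=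
    (TrivSqZeroExt.fstHom (LaurentSeries k) (LaurentSeries k) (LaurentSeries k)).toRingHom.comp
      B.intδ
  have hρψ : ∀ u, ρ (ψ u) = e (redA U M hpM (chartHom U M u)) := hψ
  have hfac : (r - H ^ p) * (r ^ p - H) = 0 := by
    have h' := congrArg ρ hroot'
    rw [map_zero, hom_eval₂, hPG] at h'
    simp only [eval₂_add, eval₂_mul, eval₂_sub, eval₂_X, eval₂_C, eval₂_X_pow] at h'
    rw [map_natCast, CharP.cast_eq_zero, zero_mul, add_zero, map_pow] at h'
    change (r - ρ (ψ y) ^ p) * (r ^ p - ρ (ψ y)) = 0 at h'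
    rw [hρψ] at h'
    exact h'
  have hr : r = H ^ p := by
    rcases mul_eq_zero.1 hfac with h' | h'
    · exact sub_eq_zero.1 h'
    · refine absurd ?_ hθ
      rw [← sub_eq_zero.1 h', theta_pow_char p]
  have hD : (P.map ((toF U M).comp (chartHom U M))).derivative.eval
      (toF U M (chartHom U M y) ^ p) =
      toF U M (chartHom U M (P.derivative.eval (y ^ p))) := by
    rw [derivative_map, ← map_pow, ← map_pow]
    exact (eval_map_apply ((toF U M).comp (chartHom U M)) (y ^ p))
  have hDne : (B.intδ (ψ (P.derivative.eval (y ^ p)))).fst ≠ 0 := by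
    rw [hψ]
    set q := e.comp ((redA U M hpM).comp (chartHom U M))
    show q (P.derivative.eval (y ^ p)) ≠ 0
    rw [hPG]
    simp only [derivative_add, derivative_mul, derivative_sub, derivative_X, derivative_C,
      sub_zero, one_mul, zero_mul, zero_add, eval_add, eval_mul, eval_sub, eval_pow, eval_X,
      eval_C, sub_self, add_zero]
    rw [map_add, map_mul, map_sub, map_pow, map_pow, map_natCast, CharP.cast_eq_zero, zero_mul,
      add_zero]
    intro h'
    apply hθ
    show theta k (q y) = 0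
    rw [← sub_eq_zero.1 h', theta_pow_char p]
  refine ⟨fun i => ?_, ?_, ?_, ?_, ?_⟩
  · show B.BGe 0 (ι (inclP M p _))
    rw [coeff_map]
    exact hint _
  · show B.BGe 0 (ι (inclP M p _))
    rw [← map_pow (toF U M)]
    exact hint _
  · show B.BGe 1 (g - ι (inclP M p (toF U M (chartHom U M y) ^ p)))
    have : g - ι (inclP M p (toF U M (chartHom U M y) ^ p)) =
        ((g' - ψ (y ^ p) : B.intRing (FractionRing O)) : FractionRing O) := by
      push_cast
      rw [map_pow ψ]
      push_cast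
      rw [map_pow (inclP M p), map_pow ι]
      rfl
    rw [this]
    refine Branch.bGe_one_of_fst_intδ ?_
    rw [map_sub, TrivSqZeroExt.fst_sub, hψ, map_pow, map_pow, map_pow, ← hr_def, hr, sub_self]
  · rw [hD]
    intro h0
    refine B.ne_zero_of_intδ hDne ?_
    show ι (inclP M p (toF U M (chartHom U M (P.derivative.eval (y ^ p))))) = 0
    rw [show inclP M p (toF U M (chartHom U M (P.derivative.eval (y ^ p)))) = 0 from h0, map_zero]
  · show B.ord (ι (inclP M p _)) = 0
    rw [hD]
    exact B.ord_eq_zero_of_intδ hDne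

end RootAt

end Fermat.Agent.LevelLowerP
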