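import Mathlib.LinearAlgebra.Trace
import Mathlib.LinearAlgebra.Matrix.ToLinearEquiv
import Mathlib.LinearAlgebra.Dimension.Finite
import Mathlib.FieldTheory.IntermediateField.Algebraic
import Mathlib.LinearAlgebra.LinearIndependent.Lemmas
import Mathlib.LinearAlgebra.FreeModule.Finite.Matrix
import Mathlib.LinearAlgebra.Determinant
import Mathlib.FieldTheory.Minpoly.Field
import Mathlib.RingTheory.IntegralDomain

/-!
# Two linear algebra inputs of the fixed point at a good prime

Hilbert 90 for a cocycle on an arbitrary group of automorphisms which is constant on the cosets of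
a finite level, and the frame of a two dimensional representation with `trace = det + 1`.
-/

set_option autoImplicit false

noncomputable section

open Module

namespace Fermat.Agent.LevelLowerP

/-- Hilbert 90 on a subgroup of automorphisms. -/
theorem exists_mul_eq_apply {K L : Type} [Field K] [Field L] [Algebra K L]
    (H : Subgroup (L ≃ₐ[K] L)) (u : (L ≃ₐ[K] L) → L) (hu0 : ∀ g ∈ H, u g ≠ 0)
    (hc : ∀ g ∈ H, ∀ h ∈ H, u (g * h) = u g * g (u h)) (E : IntermediateField K L)
    [FiniteDimensional K E]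
    (hE : ∀ g ∈ H, ∀ g' ∈ H, (∀ x ∈ E, g x = g' x) → u g = u g') :
    ∃ b : L, b ≠ 0 ∧ ∀ g ∈ H, g b = u g * b := by
  classical
  let r : H → (E →ₐ[K] L) := fun g => ((g : L ≃ₐ[K] L) : L →ₐ[K] L).comp E.val
  have := Fintype.ofFinite (Set.range r)
  let sec : Set.range r → H := fun s => s.2.choose
  have hsec : ∀ s : Set.range r, r (sec s) = (s : E →ₐ[K] L) := fun s => s.2.choose_spec
  let χ : Set.range r → (E →* L) := fun s => ((s : E →ₐ[K] L) : E →* L)
  have hχ : Function.Injective χ := fun s t hst =>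
    Subtype.ext (AlgHom.ext fun x => DFunLike.congr_fun hst x)
  obtain ⟨e, he⟩ : ∃ e : E, ∑ s : Set.range r, u (sec s) * χ s e ≠ 0 := by
    by_contra h
    simp only [not_exists, not_not] at h
    have hli := (linearIndependent_monoidHom E L).comp χ hχ
    rw [Fintype.linearIndependent_iff] at hli
    have h1 := hli (fun s => u (sec s))
      (funext fun e => by simpa [Finset.sum_apply] using h e) ⟨r 1, 1, rfl⟩
    exact hu0 _ (sec ⟨r 1, 1, rfl⟩).2 h1
  set β := ∑ s : Set.range r, u (sec s) * χ s e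
  refine ⟨β⁻¹, inv_ne_zero he, fun g hg => ?_⟩
  have key : u g * g β = β := by
    rw [map_sum, Finset.mul_sum]
    let perm : Set.range r → Set.range r := fun s => ⟨r (⟨g, hg⟩ * sec s), _, rfl⟩
    have hperm : Function.Bijective perm := by
      refine Finite.injective_iff_bijective.mp fun s t h => Subtype.ext (AlgHom.ext fun x => ?_)
      have h1 := DFunLike.congr_fun (congrArg Subtype.val h) x
      change g ((sec s : L ≃ₐ[K] L) x) = g ((sec t : L ≃ₐ[K] L) x) at h1
      rw [← hsec s, ← hsec t]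
      exact g.injective h1
    refine Fintype.sum_bijective perm hperm _ _ fun s => ?_
    rw [map_mul, ← mul_assoc, ← hc g hg _ (sec s).2]
    congr 1
    · exact hE _ (H.mul_mem hg (sec s).2) _ (sec (perm s)).2 fun x hx =>
        (DFunLike.congr_fun (hsec (perm s)) ⟨x, hx⟩).symm
    · show g ((s : E →ₐ[K] L) e) = ((perm s : Set.range r) : E →ₐ[K] L) e
      rw [← hsec s]
      rfl
  have hgβ : g β ≠ 0 := (map_ne_zero _).mpr he
  rw [map_inv₀, inv_eq_one_div, eq_comm, eq_div_iff hgβ, mul_assoc, ← div_eq_inv_mul,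
    mul_div_assoc', key, div_self he]

/-- **The frame.** If `trace = det + 1` on `H` and some determinant there is not `1` then `H` fixes
a vector, or has the shape `(det, c; 0, 1)` in a suitable basis. -/
theorem exists_frame {k : Type} [Field k] {V : Type} [AddCommGroup V] [Module k V]
    [Module.Finite k V] (hV : finrank k V = 2) {G : Type} [Group G] (ρ : G →* Module.End k V)
    (H : Subgroup G)
    (htr : ∀ g ∈ H, LinearMap.trace k V (ρ g) = LinearMap.det (ρ g) + 1)
    {σ₀ : G} (h0 : σ₀ ∈ H) (hw : LinearMap.det (ρ σ₀) ≠ 1) :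
    ∃ x y : V, (∀ a b : k, a • x + b • y = 0 → a = 0 ∧ b = 0) ∧
      ((∀ g ∈ H, ρ g y = y) ∨ ((∀ g ∈ H, ρ g x = LinearMap.det (ρ g) • x) ∧
        ∀ g ∈ H, ∃ c : k, ρ g y = y + c • x)) := by
  classical
  set w := LinearMap.det (ρ σ₀) with hwdef
  let B₀ := Module.finBasisOfFinrankEq k V hV
  have heig : ∀ l : k, l = 1 ∨ l = w → ∃ v : V, v ≠ 0 ∧ ρ σ₀ v = l • v := by
    intro l hl
    set m := LinearMap.toMatrix B₀ B₀ (ρ σ₀) with hm
    have hdetm : m.det = w := LinearMap.det_toMatrix B₀ _
    have htrm : m.trace = w + 1 :=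
      (LinearMap.trace_eq_matrix_trace k B₀ _).symm.trans (htr σ₀ h0)
    have hdet : (m - l • (1 : Matrix (Fin 2) (Fin 2) k)).det = 0 := by
      rw [Matrix.det_fin_two] at hdetm
      rw [Matrix.trace_fin_two] at htrm
      rw [Matrix.det_fin_two]
      simp only [Matrix.sub_apply, Matrix.smul_apply, Matrix.one_apply_eq, smul_eq_mul, mul_one,
        Matrix.one_apply_ne (show (0 : Fin 2) ≠ 1 by decide),
        Matrix.one_apply_ne (show (1 : Fin 2) ≠ 0 by decide), mul_zero, sub_zero]
      rcases hl with rfl | rfl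
      · linear_combination hdetm - htrm
      · linear_combination hdetm - w * htrm
    obtain ⟨v, hv0, hv⟩ := Matrix.exists_mulVec_eq_zero_iff.mpr hdet
    refine ⟨B₀.equivFun.symm v, fun h =>
      hv0 (B₀.equivFun.symm.injective (h.trans (map_zero _).symm)), ?_⟩
    rw [Matrix.sub_mulVec, Matrix.smul_mulVec, Matrix.one_mulVec, sub_eq_zero] at hv
    apply B₀.equivFun.injective
    rw [map_smul, LinearEquiv.apply_symm_apply, ← hv, hm]
    conv_rhs => rw [← B₀.equivFun.apply_symm_apply v]
    exact (LinearMap.toMatrix_mulVec_repr B₀ B₀ _ _).symm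
  obtain ⟨y, hy0, hy⟩ := heig 1 (Or.inl rfl)
  obtain ⟨x, hx0, hx⟩ := heig w (Or.inr rfl)
  rw [one_smul] at hy
  have hind : ∀ a b : k, a • x + b • y = 0 → a = 0 ∧ b = 0 := by
    intro a b h
    have h1 := congrArg (ρ σ₀) h
    rw [map_add, map_smul, map_smul, hx, hy, map_zero, smul_smul] at h1
    have h2 : (a * (w - 1)) • x = 0 := by
      rw [show a * (w - 1) = a * w - a by ring, sub_smul,
        ← add_sub_add_right_eq_sub ((a * w) • x) (a • x) (b • y), h1, h, sub_zero]
    have ha : a = 0 :=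
      (mul_eq_zero.mp ((smul_eq_zero.mp h2).resolve_right hx0)).resolve_right (sub_ne_zero.mpr hw)
    rw [ha, zero_smul, zero_add, smul_eq_zero] at h
    exact ⟨ha, h.resolve_right hy0⟩
  have hli : LinearIndependent k ![x, y] := LinearIndependent.pair_iff.mpr hind
  let B := basisOfLinearIndependentOfCardEqFinrank hli (by rw [Fintype.card_fin, hV])
  have hB : ⇑B = ![x, y] := coe_basisOfLinearIndependentOfCardEqFinrank hli _
  let M : G → Matrix (Fin 2) (Fin 2) k := fun g => LinearMap.toMatrix B B (ρ g)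
  have hMmul : ∀ g h, M (g * h) = M g * M h := fun g h => by
    simp only [M, map_mul, LinearMap.toMatrix_mul]
  have happ : ∀ g, ρ g x = M g 0 0 • x + M g 1 0 • y ∧ ρ g y = M g 0 1 • x + M g 1 1 • y :=
    fun g => by
      constructor
      · have h := B.sum_repr (ρ g (B 0))
        rw [Fin.sum_univ_two] at h
        simp only [hB, Matrix.cons_val_zero, Matrix.cons_val_one] at h
        simpa [M, LinearMap.toMatrix_apply, hB] using h.symm
      · have h := B.sum_repr (ρ g (B 1))
        rw [Fin.sum_univ_two] at h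
        simp only [hB, Matrix.cons_val_zero, Matrix.cons_val_one] at h
        simpa [M, LinearMap.toMatrix_apply, hB] using h.symm
  have htd : ∀ g ∈ H, M g 0 0 + M g 1 1 = M g 0 0 * M g 1 1 - M g 0 1 * M g 1 0 + 1 := by
    intro g hg
    have h1 := htr g hg
    rw [LinearMap.trace_eq_matrix_trace k B, ← LinearMap.det_toMatrix B, Matrix.trace_fin_two,
      Matrix.det_fin_two] at h1
    exact h1
  obtain ⟨e00, e10⟩ := hind (M σ₀ 0 0 - w) (M σ₀ 1 0) (by
    rw [sub_smul, sub_add_eq_add_sub, ← (happ σ₀).1, hx, sub_self])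
  obtain ⟨e01, e11⟩ := hind (M σ₀ 0 1) (M σ₀ 1 1 - 1) (by
    rw [sub_smul, one_smul, ← add_sub_assoc, ← (happ σ₀).2, hy, sub_self])
  rw [sub_eq_zero] at e00 e11
  have hkey : ∀ g ∈ H, M g 1 1 = 1 ∧ M g 0 1 * M g 1 0 = 0 := by
    intro g hg
    have h1 := htd g hg
    have h2 := htd (g * σ₀) (H.mul_mem hg h0)
    rw [hMmul] at h2
    simp only [Matrix.mul_apply, Fin.sum_univ_two, e00, e10, e01, e11, mul_zero, mul_one, add_zero,
      zero_add] at h2
    have h3 : (M g 1 1 - 1) * (1 - w) = 0 := by linear_combination h2 - w * h1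
    have h4 : M g 1 1 = 1 :=
      sub_eq_zero.mp ((mul_eq_zero.mp h3).resolve_right (sub_ne_zero.mpr (Ne.symm hw)))
    refine ⟨h4, ?_⟩
    rw [h4] at h1
    linear_combination h1
  refine ⟨x, y, hind, ?_⟩
  by_cases hlow : ∀ g ∈ H, M g 0 1 = 0
  · refine Or.inl fun g hg => ?_
    rw [(happ g).2, hlow g hg, (hkey g hg).1, zero_smul, zero_add, one_smul]
  push Not at hlow
  obtain ⟨g₁, hg₁, hb⟩ := hlow
  have hup : ∀ g ∈ H, M g 1 0 = 0 := by
    intro g hg
    by_contra hc
    have hb0 : M g 0 1 = 0 := (mul_eq_zero.mp (hkey g hg).2).resolve_right hc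
    have hc1 : M g₁ 1 0 = 0 := (mul_eq_zero.mp (hkey g₁ hg₁).2).resolve_left hb
    have h := (hkey (g₁ * g) (H.mul_mem hg₁ hg)).2
    simp only [hMmul, Matrix.mul_apply, Fin.sum_univ_two, hb0, hc1, (hkey g hg).1,
      (hkey g₁ hg₁).1, mul_zero, zero_mul, one_mul, mul_one, zero_add] at h
    exact hc ((mul_eq_zero.mp h).resolve_left hb)
  refine Or.inr ⟨fun g hg => ?_, fun g hg => ⟨M g 0 1, ?_⟩⟩
  · have h1 : LinearMap.det (ρ g) = M g 0 0 := by
      rw [← LinearMap.det_toMatrix B, Matrix.det_fin_two, show LinearMap.toMatrix B B (ρ g) = M g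
        from rfl, hup g hg, (hkey g hg).1, mul_one, mul_zero, sub_zero]
    rw [h1, (happ g).1, hup g hg, zero_smul, add_zero]
  · rw [(happ g).2, (hkey g hg).1, one_smul, add_comm]

end Fermat.Agent.LevelLowerP
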