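import Fermat.Agent.FlatBound.AtPlace
import Fermat.Agent.FlatModel.Elliptic.Main
import Fermat.Agent.EC.Frobenius.DetCyclotomic

/-!
# The radicand of a Kummer class split by the torsion of a curve with good reduction
-/

set_option autoImplicit false

noncomputable section

open WeierstrassCurve WeierstrassCurve.Affine.Point IntermediateField
open scoped WeierstrassCurve.Affine Pointwise

namespace Fermat.Agent.LevelLowerP

open Fermat.Agent.LocalModelP Fermat.Agent.FlatBound Fermat.Agent.Duality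

local notation "Qbar" => AlgebraicClosure ℚ
local notation "ΓQ" => (AlgebraicClosure ℚ ≃ₐ[ℚ] AlgebraicClosure ℚ)

/-- A radical fixed by the inertia elements acting trivially on `W[p]` has, at a good prime, a
radicand which is a unit times a `p`th power. -/
theorem exists_unit_pow_of_good {W : WeierstrassCurve ℤ} {p : ℕ} [Fact p.Prime] (hp2 : p ≠ 2)
    (hgood : W.IsGoodPrimeFor p) {A : ValuationSubring Qbar} (hA : A.LiesOverPrime p) {b : Qbar}
    (hb0 : b ≠ 0) (hfix : ∀ g ∈ A.inertiaSubgroupIn ℚ, g (b ^ p) = b ^ p)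
    (htriv : ∀ g ∈ A.inertiaSubgroupIn ℚ,
      galoisRepModuleEnd (K := Qbar) ℚ (W.map (Int.castRingHom ℚ)).toAffine p g = 1 → g b = b) :
    ∃ j : ℤ, A.valuation ((b / (p : Qbar) ^ j) ^ p) = 1 := by
  have hp : p.Prime := Fact.out
  have hΔ : W.Δ ≠ 0 := fun h => hgood (h ▸ dvd_zero _)
  have := EC.Frobenius.isElliptic_map_rat hΔ
  set G := Submodule.torsionBy ℤ ((W.map (Int.castRingHom ℚ))⁄Qbar).Point p
  have : Finite G := Nat.finite_of_card_ne_zero (by
    rw [Isogeny.card_torsionBy_baseChange (K := Qbar) _ (Nat.cast_ne_zero.mpr hp.ne_zero)]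
    exact pow_ne_zero 2 hp.ne_zero)
  let act : FlatModel.GalQ →* AddMonoid.End G := DistribMulAction.toAddMonoidEnd FlatModel.GalQ G
  obtain ⟨Mo⟩ := FlatModel.Elliptic.nonempty_model_points (ℓ := p) hgood act
    G.subtype.toAddMonoidHom Subtype.coe_injective (fun σ a => rfl)
  have hG : ∀ x : G, p • x = 0 := fun x => Subtype.ext ((natCast_zsmul x.1 p).symm.trans x.2)
  obtain ⟨T⟩ := exists_atPlace (p := p) hA
  set α := T.emb b with hα
  set F : IntermediateField ℚ_[p] (PadicAlgCl p) := ℚ_[p]⟮α ^ p⟯ with hF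
  have : FiniteDimensional ℚ_[p] F :=
    IntermediateField.adjoin.finiteDimensional (Algebra.IsIntegral.isIntegral _)
  have hI : ∀ g ∈ inertiaLoc p, ∀ z ∈ F, g z = z := by
    intro g hg
    have hle : F ≤ IntermediateField.fixedField (inertiaLoc p) :=
      IntermediateField.adjoin_simple_le_iff.mpr fun g => by
        show (g : GalLoc p) (α ^ p) = α ^ p
        rw [hα, ← map_pow, ← T.emb_hom, hfix _ ((T.hom_mem_inertia_iff _).mpr g.2)]
    exact fun z hz => hle hz ⟨g, hg⟩
  have hα0 : α ≠ 0 := (map_ne_zero _).mpr hb0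
  have hval : ∀ x ∈ F, x ≠ 0 → ∃ k : ℤ, ‖x‖ = ‖(p : PadicAlgCl p)‖ ^ k := fun x hx hx0 =>
    norm_eq_zpow_of_fixed hx0 fun g hg => hI g hg x hx
  have hαF : α ^ p ∈ F := IntermediateField.mem_adjoin_simple_self _ _
  obtain ⟨k, hk⟩ := hval _ hαF (pow_ne_zero _ hα0)
  have hfix' : ∀ σ : GalLoc p, FixesUnram σ →
      (∀ x : G, act (localGaloisToGlobal p σ) x = x) → (∀ z ∈ F, σ z = z) ∧ σ α = α := by
    intro σ hσ hact
    have hin : σ ∈ inertiaLoc p := mem_inertiaLoc_of_fix_roots fun m η hm hη => hσ m η hm hη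
    refine ⟨hI σ hin, ?_⟩
    have h1 : galoisRepModuleEnd (K := Qbar) ℚ (W.map (Int.castRingHom ℚ)).toAffine p
        (localGaloisToGlobal p σ) = 1 := LinearMap.ext hact
    rw [hα, ← T.emb_hom, htriv _ ((T.hom_mem_inertia_iff _).mpr hin)]
    rw [T.hom_apply, map_mul, map_mul, h1, mul_one, ← map_mul, mul_inv_cancel, map_one]
  obtain ⟨j, rfl⟩ : (p : ℤ) ∣ k := by
    by_contra hpk
    have h := kummer_valuation Mo hG F (IntermediateField.natCast_mem F p) (pow_one _) hval hαF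
      hfix' hk hpk
    have h3 : 3 ≤ p := lt_of_le_of_ne hp.two_le (Ne.symm hp2)
    rw [Nat.sub_self, mul_zero, mul_zero, zero_add, mul_one] at h
    obtain ⟨d, rfl⟩ : ∃ d, p = d + 3 := ⟨p - 3, by omega⟩
    rw [show d + 3 - 1 = d + 2 by omega] at h
    nlinarith
  refine ⟨j, ?_⟩
  have hmem : ∀ z : Qbar, ‖T.emb z‖ ≤ 1 → z ∈ A := fun z hz => by
    rw [← T.smul_eq, ValuationSubring.mem_pointwise_smul_iff_inv_smul_mem,
      Duality.Places.mem_padicPlace]
    exact hz
  have hnorm : ‖T.emb ((b / (p : Qbar) ^ j) ^ p)‖ = 1 := by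
    rw [map_pow, map_div₀, map_zpow₀, map_natCast, div_pow, norm_div, ← hα, hk, ← zpow_natCast,
      ← zpow_mul, norm_zpow, mul_comm j, div_self]
    exact zpow_ne_zero _ (norm_ne_zero_iff.mpr (Nat.cast_ne_zero.mpr hp.ne_zero))
  set z := (b / (p : Qbar) ^ j) ^ p
  have hz0 : z ≠ 0 := fun h => by simp [h] at hnorm
  refine le_antisymm ((A.valuation_le_one_iff _).mpr (hmem z hnorm.le)) ?_
  have h1 := (A.valuation_le_one_iff _).mpr (hmem z⁻¹ (by rw [map_inv₀, norm_inv, hnorm, inv_one]))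
  rw [map_inv₀] at h1
  exact (inv_le_one₀ (zero_lt_iff.mpr ((Valuation.ne_zero_iff _).mpr hz0))).mp h1

end Fermat.Agent.LevelLowerP
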