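import Fermat.Agent.Newform.MultOne
import Fermat.Agent.Root.Patched.TowerDescent
import Fermat.Agent.OrdinaryP.Shape

/-!
# Trace and determinant on inertia at `p` of a torsion module congruent to a form with `p ∥` level
-/

set_option autoImplicit false

noncomputable section

open Polynomial IsLocalRing WeierstrassCurve WeierstrassCurve.Affine.Point
open scoped WeierstrassCurve.Affine

namespace Fermat.Agent.LevelLowerP

local notation "Qbar" => AlgebraicClosure ℚ
local notation "ΓQ" => (AlgebraicClosure ℚ ≃ₐ[ℚ] AlgebraicClosure ℚ)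

/-- **The trace on inertia**: `trace = det + 1`. -/
theorem trace_eq_det_add_one_of_congr {W : WeierstrassCurve ℤ} (hΔ : W.Δ ≠ 0) {p : ℕ}
    [Fact p.Prime] {M : ℕ} [NeZero M] (hpM : ¬ p ∣ M)
    {g : CuspForm (CongruenceSubgroup.Gamma0 (M * p)) 2} (hg : g.IsNewform)
    {𝔪 : Ideal (integralClosure ℤ ℂ)} (h𝔪 : 𝔪.IsMaximal) (hp𝔪 : (p : integralClosure ℤ ℂ) ∈ 𝔪)
    (hcong : ∀ ℓ : ℕ, ℓ.Prime → W.IsGoodPrimeFor ℓ → ¬ ℓ ∣ M * p →
      ∃ a : integralClosure ℤ ℂ, (a : ℂ) = ModularFormClass.qCoeff ⇑g ℓ ∧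
        a - ((W.apOfModel ℓ : ℤ) : integralClosure ℤ ℂ) ∈ 𝔪)
    {A : ValuationSubring Qbar} (hA : A.LiesOverPrime p) {σ : ΓQ}
    (hσ : σ ∈ A.inertiaSubgroupIn ℚ) :
    LinearMap.trace (ZMod p) _
        (galoisRepModuleEnd (K := Qbar) ℚ (W.map (Int.castRingHom ℚ)).toAffine p σ) =
      LinearMap.det
        (galoisRepModuleEnd (K := Qbar) ℚ (W.map (Int.castRingHom ℚ)).toAffine p σ) + 1 := by
  have hp : p.Prime := Fact.out
  have := EC.Frobenius.isElliptic_map_rat hΔ
  have : NeZero p := ⟨hp.ne_zero⟩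
  have : NeZero (M * p) := ⟨mul_ne_zero (NeZero.ne M) hp.ne_zero⟩
  have := Fermat.Agent.S22.result (M * p) 2 ∅
  have hge := hg.isNormalizedEigenform
  let κ := GalRep.eigenCharacterInt hge
  let a : ℕ → integralClosure ℤ ℂ := fun n => κ (Hecke.heckeTn (M * p) n)
  have ha : ∀ n, (a n : ℂ) = ModularFormClass.qCoeff ⇑g n :=
    fun n => Hecke.eigenCharacter_heckeTn hge n
  have : Module.Finite ℤ κ.range :=
    Module.Finite.of_surjective κ.rangeRestrict.toIntAlgHom.toLinearMap κ.rangeRestrict_surjective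
  let R₀ := Subring.closure (Set.range a)
  have hR : R₀ ≤ κ.range := Subring.closure_le.mpr (by rintro _ ⟨n, rfl⟩; exact ⟨_, rfl⟩)
  have : IsNoetherian ℤ κ.range := isNoetherian_of_isNoetherianRing_of_finite ℤ κ.range
  have : Module.Finite ℤ R₀ :=
    Module.Finite.of_injective (Subring.inclusion hR).toIntAlgHom.toLinearMap
      (Subring.inclusion_injective hR)
  let P : Ideal R₀ := 𝔪.comap R₀.subtype
  have := h𝔪
  have : P.IsPrime := Ideal.IsPrime.comap _
  have hpP : (p : R₀) ∈ P := by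
    show R₀.subtype (p : R₀) ∈ 𝔪
    rwa [map_natCast]
  obtain ⟨O₀, _, _, _, _, _, _, ι, hpO₀, hι⟩ := GalRep.exists_coeff_ring p R₀ P hpP
  obtain ⟨O, _, _, _, _, _, _, j, -, hj, ρ, -, hρ, hloc⟩ :=
    Root.exists_attached (M * p) g hge a ha p O₀ hpO₀ ι
  have := hj
  have hmem : ∀ x : O₀, x ∈ maximalIdeal O₀ → j x ∈ maximalIdeal O := fun x hx =>
    map_nonunit j x hx
  have hpO : (p : O) ∈ maximalIdeal O := by simpa using hmem _ hpO₀
  set k := ResidueField O
  have : CharP k p := (CharP.charP_iff_prime_eq_zero hp).mpr (by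
    rw [← map_natCast (residue O), residue_eq_zero_iff]; exact hpO)
  let φ : ZMod p →+* k := ZMod.castHom (dvd_refl p) k
  set E := W.map (Int.castRingHom ℚ)
  have hcard := Isogeny.card_torsionBy_baseChange (K := Qbar) E (n := p)
    (Nat.cast_ne_zero.mpr hp.ne_zero)
  have hker := EC.Frobenius.galoisFactorsThroughFiniteLevel_torsion E hp.ne_zero
  set R := E.residualGaloisRepOf p hcard hker with hRdef
  let _ : Algebra (ZMod p) k := φ.toAlgebra
  have heq : ∀ ℓ : ℕ, ℓ.Prime →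
      ℓ ∉ (↑(W.Δ.natAbs.primeFactors ∪ (M * p).primeFactors) : Set ℕ) →
      ∀ B : ValuationSubring Qbar, B.LiesOverPrime ℓ → ∀ τ : ΓQ, B.IsFrobeniusAt τ ℓ →
        LinearMap.charpoly ((R.baseChangeAlong φ).ρ τ) =
          LinearMap.charpoly (ρ.residual.ρ τ) := by
    intro ℓ hℓ hℓS B hB τ hτ
    simp only [Finset.coe_union, Set.mem_union, Finset.mem_coe, Nat.mem_primeFactors,
      not_or] at hℓS
    have hgood : W.IsGoodPrimeFor ℓ := fun hd =>
      hℓS.1 ⟨hℓ, Int.natCast_dvd.mp hd, Int.natAbs_ne_zero.mpr hΔ⟩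
    have hℓN : ¬ ℓ ∣ M * p := fun hd => hℓS.2 ⟨hℓ, hd, NeZero.ne _⟩
    have hℓp : ℓ ≠ p := fun h => hℓN (h ▸ dvd_mul_left p M)
    have hℓNp : ¬ ℓ ∣ M * p * p := fun hd => (hℓ.dvd_mul.mp hd).elim hℓN
      fun h => hℓp ((Nat.prime_dvd_prime_iff_eq hℓ hp).mp h)
    have hE : LinearMap.charpoly (R.ρ τ) =
        X ^ 2 - C (W.apOfModel ℓ : ZMod p) * X + C (ℓ : ZMod p) := by
      have := EC.Frobenius.moduleFinite_torsion E p
      exact (EC.Frobenius.trace_det_charpoly_of_isIntegralModelOf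
        (EC.Frobenius.isIntegralModelOf_map W) hℓ hgood (Ne.symm hℓp) hB hτ).2.2
    obtain ⟨b, hb, hbc⟩ := hcong ℓ hℓ hgood hℓN
    obtain rfl : b = a ℓ := Subtype.ext (hb.trans (ha ℓ).symm)
    set t := j (ι ⟨a ℓ, Subring.subset_closure ⟨ℓ, rfl⟩⟩)
    have htk : algebraMap O k t = ((W.apOfModel ℓ : ℤ) : k) := by
      rw [← map_intCast (algebraMap O k), ← sub_eq_zero, ← map_sub]
      refine (residue_eq_zero_iff _).mpr ?_
      have hx : (⟨a ℓ, Subring.subset_closure ⟨ℓ, rfl⟩⟩ : R₀) - ((W.apOfModel ℓ : ℤ) : R₀) ∈ P := by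
        show R₀.subtype _ ∈ 𝔪
        rw [map_sub, map_intCast]
        exact hbc
      have h := hmem _ ((hι _).mpr hx)
      rwa [map_sub, map_sub, map_intCast, map_intCast] at h
    change LinearMap.charpoly ((R.ρ τ).baseChange k) = LinearMap.charpoly ((ρ.ρ τ).baseChange k)
    rw [LinearMap.charpoly_baseChange, LinearMap.charpoly_baseChange, hE,
      (hρ ℓ hℓ hℓNp B hB).2 τ hτ]
    simp [Polynomial.map_sub, Polynomial.map_add, Polynomial.map_mul, Polynomial.map_pow, htk, t]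
    exact (map_intCast (Polynomial.C : k →+* k[X]) _).symm
  have hchar := Density.residual_charpoly_eq_of_forall_frobenius (R.baseChangeAlong φ) ρ.residual
    _ (Finset.finite_toSet _) heq σ
  change LinearMap.charpoly ((R.ρ σ).baseChange k) = LinearMap.charpoly ((ρ.ρ σ).baseChange k)
    at hchar
  rw [LinearMap.charpoly_baseChange, LinearMap.charpoly_baseChange,
    Density.charpoly_eq_of_finrank_two R.finrank_eq,
    Density.charpoly_eq_of_finrank_two ρ.finrank_eq] at hchar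
  have hc1 := congrArg (fun P => Polynomial.coeff P 1) hchar
  have hc0 := congrArg (fun P => Polynomial.coeff P 0) hchar
  simp [Polynomial.coeff_X_pow] at hc0 hc1
  -- the local shape
  have hpp : ¬ p ^ 2 ∣ M * p := fun h => hpM (Nat.dvd_of_mul_dvd_mul_right hp.pos (by rwa [← sq]))
  have hap : a p ^ 2 = 1 := Subtype.ext (by
    push_cast
    rw [ha]
    exact Newform.qCoeff_sq_eq_one_of_not_sq_dvd hg hp (dvd_mul_left p M) hpp)
  obtain ⟨s, hs2, hs1, -, hshape⟩ := hloc p hp (dvd_mul_left p M) hpp hap A hA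
  let d : A.decompositionSubgroup ℚ := ⟨σ, ((Gal.mem_inertia_iff _ _).mp hσ).1⟩
  have htr := Root.Patched.trace_eq_add_of_shape ρ.finrank_eq (ρ.ρ σ)
    (a := LinearMap.det (ρ.ρ σ) * s d) (b := s d) (Root.Patched.det_ne_zero_of_rep ρ σ)
    (by rw [mul_assoc, hs2, mul_one]) (hshape d d)
  rw [hs1 d hσ, mul_one] at htr
  refine φ.injective ?_
  rw [map_add, map_one]
  change φ (LinearMap.trace (ZMod p) R.V (R.ρ σ)) = φ (LinearMap.det (R.ρ σ)) + 1
  rw [show φ = algebraMap (ZMod p) k from rfl, neg_inj.mp hc1, hc0, htr, map_add, map_one]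

end Fermat.Agent.LevelLowerP
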