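import Fermat.Agent.LevelLowerP.BaseField
import Fermat.Agent.LevelLowerP.GoodFrame
import Fermat.Agent.LevelLowerP.GoodTrace
import Fermat.Agent.LevelLowerP.GoodKummer
import Fermat.Prelude.Def_FLTPrelim_ModularRep

/-!
# A fixed torsion point at a prime of good reduction, from a congruent form with `p` in the level
-/

set_option autoImplicit false

noncomputable section

namespace Fermat.Agent.LevelLowerP

open Fermat.Agent.Carayol
open WeierstrassCurve WeierstrassCurve.Affine.Point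
open scoped WeierstrassCurve.Affine

local notation "Qbar" => AlgebraicClosure ℚ

local notation "ΓQ" => (AlgebraicClosure ℚ ≃ₐ[ℚ] AlgebraicClosure ℚ)

/-- The determinant of `W[p]` gives the action on `p`th roots of unity. -/
theorem apply_eq_pow_det {W : WeierstrassCurve ℤ} (hΔ : W.Δ ≠ 0) {p : ℕ} [Fact p.Prime] (σ : ΓQ)
    {ζ : Qbar} (hζ : ζ ^ p = 1) :
    σ ζ = ζ ^ (LinearMap.det
      (galoisRepModuleEnd (K := Qbar) ℚ (W.map (Int.castRingHom ℚ)).toAffine p σ)).val := by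
  have : NeZero p := ⟨(Fact.out : p.Prime).ne_zero⟩
  have := EC.Frobenius.isElliptic_map_rat hΔ
  have := EC.Frobenius.moduleFinite_torsion (W.map (Int.castRingHom ℚ)) p
  have hn := IsAlgClosed.card_rootsOfUnity_eq Qbar p
  have hv := congrArg (fun u : (ZMod p)ˣ => (u : ZMod p))
    (EC.Frobenius.galoisRepDetEqCyclotomic_intModel W hΔ p hn σ)
  simp only [EC.Frobenius.coe_galoisRepDet] at hv
  rw [hv]
  obtain ⟨t, rfl⟩ := (IsUnit.of_pow_eq_one hζ (NeZero.ne p))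
  rw [← Units.val_pow_eq_pow_val]
  refine (modularCyclotomicCharacter.spec Qbar hn (σ : Qbar ≃+* Qbar) (t := t) ?_).trans ?_
  · rw [mem_rootsOfUnity]; exact Units.ext (by simpa using hζ)
  · rw [Units.val_pow_eq_pow_val]

/-- **Good reduction and `p ∥` level**: a point of `E[p]` fixed by the inertia elements which fix
a `p`th root of `1 + p b`. -/
theorem exists_good_root_point {W : WeierstrassCurve ℤ} (hΔ : W.Δ ≠ 0) {p : ℕ} [Fact p.Prime]
    (hp2 : p ≠ 2) (hgood : W.IsGoodPrimeFor p) (_hirr : W.ModRepIsIrreducible p)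
    {M : ℕ} [NeZero M] (hpM : ¬ p ∣ M)
    {g : CuspForm (CongruenceSubgroup.Gamma0 (M * p)) 2} (hg : g.IsNewform)
    {𝔪 : Ideal (integralClosure ℤ ℂ)} (h𝔪 : 𝔪.IsMaximal) (hp𝔪 : (p : integralClosure ℤ ℂ) ∈ 𝔪)
    (hcong : ∀ ℓ : ℕ, ℓ.Prime → W.IsGoodPrimeFor ℓ → ¬ ℓ ∣ M * p →
      ∃ a : integralClosure ℤ ℂ, (a : ℂ) = ModularFormClass.qCoeff ⇑g ℓ ∧
        a - ((W.apOfModel ℓ : ℤ) : integralClosure ℤ ℂ) ∈ 𝔪)
    {A : ValuationSubring Qbar} (hA : A.LiesOverPrime p) :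
    ∃ (b : InertiaField.ring A) (T₁ : Qbar)
      (P : ((WeierstrassCurve.map W (Int.castRingHom ℚ))⁄(AlgebraicClosure ℚ)).Point),
      IsLocalRing.residue _ b ≠ 0 ∧ T₁ ^ p = 1 + (p : Qbar) * toQbar A b ∧ P ≠ 0 ∧ p • P = 0 ∧
      ∀ σ ∈ stabInertia A T₁, σ • P = P := by
  have hp : p.Prime := Fact.out
  have : NeZero p := ⟨hp.ne_zero⟩
  set E := W.map (Int.castRingHom ℚ) with hE
  have := EC.Frobenius.isElliptic_map_rat hΔ
  have := EC.Frobenius.moduleFinite_torsion E p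
  have hker := EC.Frobenius.galoisFactorsThroughFiniteLevel_torsion E hp.ne_zero
  have hcard := Isogeny.card_torsionBy_baseChange (K := Qbar) E (n := p)
    (Nat.cast_ne_zero.mpr hp.ne_zero)
  set ρ := galoisRepModuleEnd (K := Qbar) ℚ E.toAffine p with hρ
  have hV : Module.finrank (ZMod p) (Submodule.torsionBy ℤ (E.toAffine⁄Qbar).Point p) = 2 :=
    (E.residualGaloisRepOf p hcard hker).finrank_eq
  set H := A.inertiaSubgroupIn ℚ with hH
  set ζ := Root.ClassField.rootQ p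
  have hζ : IsPrimitiveRoot ζ p := Root.ClassField.rootQ_spec p
  have hdet : ∀ σ : ΓQ, σ ζ = ζ ^ (LinearMap.det (ρ σ)).val := fun σ =>
    apply_eq_pow_det hΔ σ hζ.pow_eq_one
  obtain ⟨σ₀, h0, hσ₀⟩ := OrdinaryP.exists_inertia_neg_one (p := p) hA
  have h3 : 3 ≤ p := lt_of_le_of_ne hp.two_le (Ne.symm hp2)
  have hw : LinearMap.det (ρ σ₀) ≠ 1 := by
    intro h1
    have e := (hdet σ₀).symm.trans (hσ₀ ζ hζ.pow_eq_one)
    have : Fact (1 < p) := ⟨hp.one_lt⟩
    rw [h1, ZMod.val_one] at e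
    have := hζ.pow_inj hp.one_lt (by omega) e
    omega
  obtain ⟨x, y, hind, hshape⟩ := exists_frame hV ρ H
    (fun σ hσ => trace_eq_det_add_one_of_congr hΔ hpM hg h𝔪 hp𝔪 hcong hA hσ) h0 hw
  -- a fixed vector gives the point
  have hout : ∀ (Q : Submodule.torsionBy ℤ ((E)⁄Qbar).Point p) (H' : Subgroup ΓQ), Q ≠ 0 →
      (∀ σ ∈ H', ρ σ Q = Q) →
      ∃ P : (E⁄Qbar).Point, P ≠ 0 ∧ p • P = 0 ∧ ∀ σ ∈ H', σ • P = P := fun Q H' hQ hfix =>
    ⟨Q.1, fun h => hQ (Subtype.ext h), (natCast_zsmul Q.1 p).symm.trans Q.2,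
      fun σ hσ => congrArg Subtype.val (hfix σ hσ)⟩
  have hy0 : y ≠ 0 := fun h => one_ne_zero (hind 0 1 (by rw [h, smul_zero, zero_smul, add_zero])).2
  rcases hshape with hy | ⟨hx, hyc⟩
  · obtain ⟨T₁, hT₁⟩ := IsAlgClosed.exists_pow_nat_eq (1 + (p : Qbar) * toQbar A 1) hp.pos
    obtain ⟨P, hP⟩ := hout y (stabInertia A T₁) hy0 fun σ hσ => hy σ hσ.1
    exact ⟨1, T₁, P, by simp, hT₁, hP⟩
  choose! c hc using hyc
  have hcocycle : ∀ g ∈ H, ∀ h ∈ H, c (g * h) = c g + LinearMap.det (ρ g) * c h := by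
    intro g hg h hh
    have e : (c (g * h) - (c g + LinearMap.det (ρ g) * c h)) • x + (0 : ZMod p) • y = 0 := by
      have e1 := hc _ (H.mul_mem hg hh)
      rw [map_mul, Module.End.mul_apply, hc h hh, map_add, map_smul, hx g hg, hc g hg, smul_smul,
        add_assoc, ← add_smul, mul_comm (c h)] at e1
      rw [zero_smul, add_zero, sub_smul, sub_eq_zero]
      exact (add_left_cancel e1).symm
    exact sub_eq_zero.mp (hind _ _ e).1
  set u : ΓQ → Qbar := fun g => ζ ^ (c g).val with hu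
  have hzp : ∀ m : ℕ, ζ ^ m = ζ ^ ((m : ZMod p)).val := fun m => by
    rw [ZMod.val_natCast, ← pow_mod_orderOf, hζ.eq_orderOf]
  obtain ⟨L, hL, hLρ⟩ := hker
  have := hL
  have hρeq : ∀ g g' : ΓQ, (∀ z ∈ L, g z = g' z) → ρ g = ρ g' := by
    intro g g' h
    have e : ρ (g'⁻¹ * g) = 1 := hLρ _ fun z hz => by
      rw [AlgEquiv.mul_apply, h z hz, AlgEquiv.aut_inv, AlgEquiv.symm_apply_apply]
    rw [← mul_inv_cancel_left g' g, map_mul, e, mul_one]
  have hceq : ∀ g ∈ H, ∀ g' ∈ H, ρ g = ρ g' → c g = c g' := by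
    intro g hg g' hg' h
    refine sub_eq_zero.mp (hind _ 0 ?_).1
    rw [zero_smul, add_zero, sub_smul, sub_eq_zero]
    exact add_left_cancel ((hc g hg).symm.trans ((congrArg (fun f => f y) h).trans (hc g' hg')))
  obtain ⟨b, hb0, hb⟩ := exists_mul_eq_apply H u (fun g _ => pow_ne_zero _ (hζ.ne_zero hp.ne_zero))
    (fun g hg h hh => by
      simp only [hu]
      rw [map_pow, hdet g, ← pow_mul, ← pow_add, hzp ((c g).val + _), hcocycle g hg h hh]
      simp) L fun g hg g' hg' h => by simp only [hu]; rw [hceq g hg g' hg' (hρeq g g' h)]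
  have hup : ∀ g, u g ^ p = 1 := fun g => by
    simp only [hu]; rw [← pow_mul, mul_comm, pow_mul, hζ.pow_eq_one, one_pow]
  obtain ⟨j, hj⟩ := exists_unit_pow_of_good hp2 hgood hA hb0
    (fun g hg => by rw [map_pow, hb g hg, mul_pow, hup, one_mul]) fun g hg h1 => by
      have : c g = 0 := by
        rw [hceq g hg 1 H.one_mem (h1.trans (map_one ρ).symm)]
        have := hcocycle 1 H.one_mem 1 H.one_mem
        simpa using this
      rw [hb g hg, hu]
      simp [this]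
  set b' := b / (p : Qbar) ^ j with hb'
  have hb'0 : b' ≠ 0 := div_ne_zero hb0 (zpow_ne_zero _ (Nat.cast_ne_zero.mpr hp.ne_zero))
  have hb'u : ∀ g ∈ H, g b' = u g * b' := fun g hg => by
    rw [hb', map_div₀, map_zpow₀, map_natCast, hb g hg, mul_div_assoc]
  obtain ⟨b₁, hb₁, hT⟩ := exists_root_reduction hp hA hj fun g hg => by
    rw [map_pow, hb'u g hg, mul_pow, hup, one_mul]
  obtain ⟨T₁, hT₁⟩ := IsAlgClosed.exists_pow_nat_eq (1 + (p : Qbar) * toQbar A b₁) hp.pos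
  obtain ⟨T, hTp, hTfix⟩ := hT T₁ hT₁
  obtain ⟨i, -, hi⟩ := hζ.eq_pow_of_pow_eq_one (ξ := T / b')
    (by rw [div_pow, hTp, div_self (pow_ne_zero _ hb'0)])
  rw [eq_div_iff hb'0] at hi
  have hQ0 : y + (i : ZMod p) • x ≠ 0 := fun h => one_ne_zero
    (hind (i : ZMod p) 1 (by rw [one_smul, add_comm]; exact h)).2
  obtain ⟨P, hP⟩ := hout (y + (i : ZMod p) • x) (stabInertia A T₁) hQ0 fun σ hσ => by
    have hσH : σ ∈ H := (mem_stabInertia.1 hσ).1
    have e := hTfix σ hσ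
    rw [← hi, map_mul, map_pow, hb'u σ hσH, hdet σ, ← mul_assoc] at e
    simp only [hu] at e
    rw [← pow_mul, ← pow_add, hzp ((LinearMap.det (ρ σ)).val * i + _), hzp i] at e
    have e' := hζ.pow_inj (ZMod.val_lt _) (ZMod.val_lt _) (mul_right_cancel₀ hb'0 e)
    have e'' := ZMod.val_injective p e'
    push_cast [ZMod.natCast_val, ZMod.cast_id', id_eq] at e''
    rw [map_add, map_smul, hc σ hσH, hx σ hσH, smul_smul, add_assoc, ← add_smul]
    congr 2
    linear_combination e''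
  exact ⟨b₁, T₁, P, hb₁, hT₁, hP⟩

end Fermat.Agent.LevelLowerP
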