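import Fermat.Agent.Igusa.QLevel

/-!
# The reduction of `Δ(τ)/Δ(pτ)` modulo `p` is a polynomial in `j`
-/

set_option autoImplicit false

noncomputable section

open scoped MatrixGroups
open Polynomial

namespace Fermat.Agent.LevelLowerP

open Fermat.Agent.Igusa ModularCurve

variable (p : ℕ) [Fact p.Prime]

theorem powerSeries_pow_char (f : PowerSeries (ZMod p)) :
    f ^ p = PowerSeries.expand p (NeZero.ne p) f := by
  have h : frobenius (ZMod p) p = RingHom.id (ZMod p) := by
    ext x; exact ZMod.pow_card x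
  have h2 := MvPowerSeries.map_frobenius_expand (σ := Unit) (R := ZMod p) p (NeZero.ne p) (f := f)
  rw [h, MvPowerSeries.map_id] at h2
  exact h2.symm

theorem qExpand_eq_pow (s : LaurentSeries (ZMod p)) : qExpand (ZMod p) p s = s ^ p := by
  have hps : ∀ f : PowerSeries (ZMod p),
      qExpand (ZMod p) p (HahnSeries.ofPowerSeries ℤ (ZMod p) f) =
        HahnSeries.ofPowerSeries ℤ (ZMod p) f ^ p := by
    intro f
    rw [← map_pow, powerSeries_pow_char]
    ext n
    rcases lt_or_ge n 0 with hn | hn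
    · rw [ofPowerSeries_coeff_of_neg _ hn]
      by_cases hd : (p : ℤ) ∣ n
      · obtain ⟨m, rfl⟩ := hd
        rw [qExpand_coeff_mul, ofPowerSeries_coeff_of_neg]
        have := hn
        nlinarith [show (0 : ℤ) ≤ p from Int.natCast_nonneg p]
      · exact qExpand_coeff_of_not_dvd p _ hd
    lift n to ℕ using hn
    rw [HahnSeries.ofPowerSeries_apply_coeff, PowerSeries.coeff_expand]
    by_cases hd : p ∣ n
    · obtain ⟨m, rfl⟩ := hd
      rw [if_pos (dvd_mul_right _ _), Nat.mul_div_cancel_left _ (NeZero.pos p), Nat.cast_mul,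
        qExpand_coeff_mul, HahnSeries.ofPowerSeries_apply_coeff]
    · rw [if_neg hd, qExpand_coeff_of_not_dvd p _ (by rwa [Int.natCast_dvd_natCast])]
  obtain ⟨m, f, rfl⟩ : ∃ (m : ℤ) (f : PowerSeries (ZMod p)),
      HahnSeries.single m (1 : ZMod p) * HahnSeries.ofPowerSeries ℤ (ZMod p) f = s :=
    ⟨s.order, s.powerSeriesPart, s.single_order_mul_powerSeriesPart⟩
  rw [map_mul, qExpand_single, hps, mul_pow, HahnSeries.single_pow, one_pow, nsmul_eq_mul]

theorem exists_hom_one : ∃ π : Rz p →+* ZMod p, π (zetaR p) = 1 := by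
  have hζ := zetaC_isPrimitiveRoot p
  have hint : IsIntegral ℤ (zetaC p) := hζ.isIntegral (NeZero.pos p)
  let pb := Algebra.adjoin.powerBasis' hint
  have hgen : pb.gen = zetaR p := Algebra.adjoin.powerBasis'_gen hint
  have hroot : aeval (1 : ZMod p) (minpoly ℤ pb.gen) = 0 := by
    rw [hgen, ← minpoly.algHom_eq (Algebra.adjoin ℤ ({zetaC p} : Set ℂ)).val
      Subtype.val_injective (zetaR p)]
    show aeval (1 : ZMod p) (minpoly ℤ (zetaC p)) = 0
    rw [← Polynomial.cyclotomic_eq_minpoly hζ (NeZero.pos p), aeval_def, ← eval_map,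
      Polynomial.map_cyclotomic, eval_one_cyclotomic_prime]
    exact CharP.cast_eq_zero (ZMod p) p
  refine ⟨(pb.lift 1 hroot).toRingHom, ?_⟩
  rw [← hgen]
  exact pb.lift_gen 1 hroot

open Classical in
theorem red_wFam (π : Rz p →+* ZMod p) (hπ : π (zetaR p) = 1) (i : Cst p) :
    red π (wFam (dvd_refl p) i) =
      if i = cst0 then qExpand (ZMod p) p (deltaInvR (ZMod p) ^ (p - 1)) else 0 := by
  have := neZero_expo (dvd_refl p) (repg i)
  have htw : Units.map (π : Rz p →* ZMod p) (tw p p (repg i)) = 1 := by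
    have h : Units.map (π : Rz p →* ZMod p) (zetaU p) = 1 := Units.ext (by simpa [zetaU] using hπ)
    rw [tw, map_zpow, h, one_zpow]
  have hser : red π (wFam (dvd_refl p) i) =
      HahnSeries.C ((cod p (repg i) : ZMod p) ^ 12) * qExpand (ZMod p) p (deltaR (ZMod p)) *
        qExpand (ZMod p) (expo p p (repg i)) (deltaInvR (ZMod p)) := by
    simp only [red, RingHom.comp_apply, wFam, serHom_mk, conjSer, map_mul,
      ModularCurve.coeffMap_qExpand, coeffMap_twist, coeffMap_deltaR, coeffMap_deltaInvR,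
      map_pow, map_natCast, htw, twist_one_apply]
  split_ifs with hi
  · have hcls : cls p (repg i) = p := hi ▸ cls_of_mem (dvd_refl p) repg_cst0_mem
    have hcod : cod p (repg i) = 1 := by rw [cod, hcls, Nat.div_self (NeZero.pos p)]
    have he : expo p p (repg i) = p * p := by rw [expo_self, hcls]
    rw [hser, hcod, qExpand_congr he, ← qExpand_qExpand,
      qExpand_eq_pow p (deltaInvR (ZMod p))]
    simp only [Nat.cast_one, one_pow, map_one, one_mul]
    rw [← map_mul]
    congr 1
    have hp : p = p - 1 + 1 := by have := NeZero.pos p; omega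
    have h2 : deltaInvR (ZMod p) ^ p = deltaInvR (ZMod p) * deltaInvR (ZMod p) ^ (p - 1) := by
      rw [← pow_succ', ← hp]
    rw [h2, ← mul_assoc, deltaR_mul_deltaInvR, one_mul]
  · have hne : cls p (repg i) ≠ p := fun h => hi (eq_cst0_of_cls h)
    have h1 : cls p (repg i) = 1 :=
      ((Nat.dvd_prime (Fact.out : p.Prime)).mp (cls_dvd p _)).resolve_right hne
    rw [hser, cod, h1, Nat.div_one, CharP.cast_eq_zero, zero_pow (by norm_num), map_zero,
      zero_mul, zero_mul]

/-- `Δ^(1-p)` is a polynomial in `j` modulo `p`. -/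
theorem exists_evq_eq_deltaInvR_pow :
    ∃ H : (ZMod p)[X], evq (ZMod p) H = deltaInvR (ZMod p) ^ (p - 1) := by
  classical
  obtain ⟨π, hπ⟩ := exists_hom_one p
  have hl := mem_lifts_of_invariant (C (∑ i, wFam (N := p) (dvd_refl p) i)) fun γ => by
    simp only [Polynomial.map_C]
    congr 1
    simp only [map_sum, RingHom.comp_apply]
    exact Fintype.sum_equiv (MulAction.toPerm γ⁻¹) _ _ fun i =>
      by rw [show compL γ (fnHom (wFam (dvd_refl p) i)) = _ from equivariant_wFam (dvd_refl p) γ i]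
         rfl
  rw [Polynomial.map_C, Polynomial.lifts_iff_coeff_lifts] at hl
  obtain ⟨P, hP⟩ := hl 0
  rw [coeff_C_zero, map_sum] at hP
  refine ⟨P.map π, qExpand_injective p ?_⟩
  rw [qExpand_evq, evJ_map, hP, map_sum]
  show ∑ i, red π (wFam (dvd_refl p) i) = _
  simp [red_wFam p π hπ]

theorem order_evq {k : Type*} [Field k] {P : k[X]} (hP : P ≠ 0) :
    (evq k P).order = -(P.natDegree : ℤ) := by
  have hc : (evq k P).coeff (-(P.natDegree : ℤ)) = P.leadingCoeff := by
    have := coeff_evJ_natDegree (k := k) 1 P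
    rwa [← qExpand_evq, qExpand_one_apply, Nat.cast_one, one_mul] at this
  have hlow : ∀ n < -(P.natDegree : ℤ), (evq k P).coeff n = 0 := by
    intro n hn
    rw [evq, Polynomial.coe_eval₂RingHom, Polynomial.eval₂_eq_sum_range, HahnSeries.coeff_sum]
    refine Finset.sum_eq_zero fun b hb => ?_
    rw [Finset.mem_range] at hb
    rw [HahnSeries.C_apply, HahnSeries.coeff_single_mul, sub_zero,
      coeff_jqModC_pow_of_lt k (by omega), mul_zero]
  exact order_eq_of_coeff (by rw [hc]; exact leadingCoeff_ne_zero.mpr hP) hlow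

end Fermat.Agent.LevelLowerP

section VPoly

open Fermat.Agent.Igusa ModularCurve

variable (p : ℕ) [Fact p.Prime]

namespace Fermat.Agent.LevelLowerP

/-- A linear retraction `ℤ[ζ_p] → ℤ` lifting `ζ ↦ 1` modulo `p`. -/
theorem exists_retraction (π : Rz p →+* ZMod p) (hπ : π (zetaR p) = 1) :
    ∃ φ : Rz p →+ ℤ, φ 1 = 1 ∧ ∀ r, π r = (φ r : ZMod p) := by
  have hint : IsIntegral ℤ (zetaC p) := (zetaC_isPrimitiveRoot p).isIntegral (NeZero.pos p)
  let pb := Algebra.adjoin.powerBasis' hint
  have hgen : pb.gen = zetaR p := Algebra.adjoin.powerBasis'_gen hint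
  let φ : Rz p →ₗ[ℤ] ℤ := pb.basis.constr ℤ fun _ => (1 : ℤ)
  have hφ : ∀ i, φ (pb.basis i) = 1 := fun i => pb.basis.constr_basis ℤ _ i
  have h0 : pb.basis ⟨0, pb.dim_pos⟩ = 1 := by rw [pb.basis_eq_pow]; simp
  refine ⟨φ.toAddMonoidHom, by simpa [h0] using hφ ⟨0, pb.dim_pos⟩, fun r => ?_⟩
  have h : (π.toAddMonoidHom.toIntLinearMap : Rz p →ₗ[ℤ] ZMod p) =
      (Int.castAddHom (ZMod p)).toIntLinearMap.comp φ := pb.basis.ext fun i => by
    simp only [LinearMap.coe_comp, Function.comp_apply, AddMonoidHom.coe_toIntLinearMap, hφ]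
    simp [pb.basis_eq_pow, hgen, hπ]
  exact LinearMap.congr_fun h r

/-- `Δ(τ)/Δ(pτ)`. -/
def vSer (R : Type*) [CommRing R] : LaurentSeries R :=
  deltaR R * qExpand R p (deltaInvR R)

theorem coeffMap_vSer {R S : Type*} [CommRing R] [CommRing S] (f : R →+* S) :
    coeffMap f (vSer p R) = vSer p S := by
  rw [vSer, vSer, map_mul, coeffMap_qExpand, coeffMap_deltaR, coeffMap_deltaInvR]

theorem serHom_wFam_cst0 :
    serHom (wFam (N := p) (dvd_refl p) cst0) = qExpand (Rz p) p (vSer p (Rz p)) := by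
  have := neZero_expo (dvd_refl p) (repg (cst0 : Cst p))
  have hcls : cls p (repg (cst0 : Cst p)) = p := cls_of_mem (dvd_refl p) repg_cst0_mem
  have hcod : cod p (repg (cst0 : Cst p)) = 1 := by rw [cod, hcls, Nat.div_self (NeZero.pos p)]
  have he : expo p p (repg (cst0 : Cst p)) = p * p := by rw [expo_self, hcls]
  have htw : tw p p (repg (cst0 : Cst p)) = 1 := by
    have hu : zetaU p ^ p = 1 := Units.ext (zetaR_pow_self p)
    rw [tw, hcod, Nat.div_one, mul_comm, zpow_mul, zpow_natCast, hu, one_zpow]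
  simp only [wFam, serHom_mk, conjSer, htw, twist_one_apply, hcod, Nat.cast_one, one_pow, map_one,
    one_mul, qExpand_congr he, vSer, map_mul, ← qExpand_qExpand]

/-- The modular equation of `Δ(τ)/Δ(pτ)` and its reduction modulo `p`. -/
theorem exists_vPoly :
    ∃ Q : ℤ[X][X], ∃ H : (ZMod p)[X], Q.Monic ∧ Q.natDegree = Fintype.card (Cst p) ∧
      Q.eval₂ (evq ℤ) (vSer p ℤ) = 0 ∧
      evq (ZMod p) H = deltaInvR (ZMod p) ^ (p - 1) ∧
      Q.map (Polynomial.mapRingHom (Int.castRingHom (ZMod p))) =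
        X ^ (Fintype.card (Cst p) - 1) * (X - C H) := by
  classical
  obtain ⟨π, hπ⟩ := exists_hom_one p
  obtain ⟨φ, hφ1, hφπ⟩ := exists_retraction p π hπ
  obtain ⟨H, hH⟩ := exists_evq_eq_deltaInvR_pow p
  obtain ⟨P, hPm, hPd, hP⟩ := exists_charPoly (wFam (N := p) (dvd_refl p)) (equivariant_wFam _)
  set n := P.natDegree with hn
  let c : ℕ → ℤ[X] := fun l =>
    ∑ i ∈ (P.coeff l).support, Polynomial.monomial i (φ ((P.coeff l).coeff i))
  have hc : ∀ l i, (c l).coeff i = φ ((P.coeff l).coeff i) := fun l i => by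
    simp only [c, Polynomial.finsetSum_coeff, Polynomial.coeff_monomial, Finset.sum_ite_eq',
      Polynomial.mem_support_iff]
    split_ifs with h
    · rfl
    · rw [not_ne_iff.mp h, map_zero]
  let Q : ℤ[X][X] := ∑ l ∈ Finset.range (n + 1), Polynomial.monomial l (c l)
  have hQc : ∀ l ≤ n, Q.coeff l = c l := fun l hl => by
    simp [Q, Polynomial.finsetSum_coeff, Polynomial.coeff_monomial, Nat.lt_succ_of_le hl]
  have hQd : Q.natDegree ≤ n := Polynomial.natDegree_sum_le_of_forall_le _ _ fun l hl =>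
    (Polynomial.natDegree_monomial_le _).trans (Nat.lt_succ_iff.mp (Finset.mem_range.mp hl))
  have hctop : c n = 1 := by
    ext i
    rw [hc, hn, hPm.coeff_natDegree, Polynomial.coeff_one, Polynomial.coeff_one]
    split_ifs
    · exact hφ1
    · exact map_zero φ
  have hQn : Q.coeff n = 1 := (hQc n le_rfl).trans hctop
  have hQm : Q.Monic := Polynomial.monic_of_natDegree_le_of_coeff_eq_one n hQd hQn
  have hQd' : Q.natDegree = n :=
    le_antisymm hQd (Polynomial.le_natDegree_of_ne_zero (by rw [hQn]; exact one_ne_zero))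
  refine ⟨Q, H, hQm, hQd'.trans hPd, ?_, hH, ?_⟩
  · have hroot : P.eval₂ (evq (Rz p)) (vSer p (Rz p)) = 0 := by
      refine qExpand_injective p ?_
      rw [map_zero, Polynomial.hom_eval₂, show (qExpand (Rz p) p).comp (evq (Rz p)) = evJ (Rz p) p
        from RingHom.ext fun q => qExpand_evq p q, ← serHom_wFam_cst0, ← Polynomial.eval_map, hP,
        Polynomial.eval_prod]
      exact Finset.prod_eq_zero (Finset.mem_univ cst0) (by simp)
    ext m
    let G : ℕ → ℕ → ℤ := fun l i => (jqModC ℤ ^ i * vSer p ℤ ^ l).coeff m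
    have hterm : ∀ (R : Type) [CommRing R] (g : ℤ →+* R) (q : R[X]) (D : ℕ), q.natDegree < D →
        ∀ l, (evq R q * vSer p R ^ l).coeff m = ∑ i ∈ Finset.range D, q.coeff i * g (G l i) := by
      intro R _ g q D hD l
      rw [evq, Polynomial.coe_eval₂RingHom, Polynomial.eval₂_eq_sum_range' _ hD, Finset.sum_mul,
        HahnSeries.coeff_sum]
      refine Finset.sum_congr rfl fun i _ => ?_
      rw [mul_assoc, HahnSeries.C_apply, HahnSeries.coeff_single_zero_mul, ← coeffMap_jqModC g,
        ← coeffMap_vSer p g, ← map_pow, ← map_pow, ← map_mul, coeffMap_coeff]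
    set D := (Finset.range (n + 1)).sup (fun l => max (P.coeff l).natDegree (c l).natDegree) + 1
    have hD : ∀ l ∈ Finset.range (n + 1), (P.coeff l).natDegree < D ∧ (c l).natDegree < D := by
      intro l hl
      have := Finset.le_sup (f := fun l => max (P.coeff l).natDegree (c l).natDegree) hl
      constructor <;> (simp only [D]; omega)
    have h1 := congrArg (fun s : LaurentSeries (Rz p) => φ (s.coeff m)) hroot
    simp only [Polynomial.eval₂_eq_sum_range' _ (Nat.lt_succ_self P.natDegree),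
      HahnSeries.coeff_sum, map_sum, HahnSeries.coeff_zero, map_zero] at h1
    rw [Polynomial.eval₂_eq_sum_range' _ (Nat.lt_succ_of_le hQd), HahnSeries.coeff_sum,
      HahnSeries.coeff_zero, ← h1]
    refine Finset.sum_congr rfl fun l hl => ?_
    rw [hQc l (Nat.lt_succ_iff.mp (Finset.mem_range.mp hl)),
      hterm ℤ (RingHom.id ℤ) _ D (hD l hl).2,
      hterm (Rz p) (Int.castRingHom (Rz p)) _ D (hD l hl).1, map_sum]
    refine Finset.sum_congr rfl fun i _ => ?_
    rw [hc, RingHom.id_apply, mul_comm (((P.coeff l).coeff i)), eq_intCast, ← zsmul_eq_mul,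
      map_zsmul, smul_eq_mul, mul_comm]
  · have hinj : Function.Injective (Polynomial.map (evJ (ZMod p) p)) :=
      Polynomial.map_injective _ (evJ_injective p)
    have hmap : Q.map (Polynomial.mapRingHom (Int.castRingHom (ZMod p))) =
        P.map (Polynomial.mapRingHom π) := by
      ext l i
      simp only [Polynomial.coeff_map, Polynomial.coe_mapRingHom, eq_intCast]
      rcases le_or_gt l n with hl | hl
      · rw [hQc l hl, hc, hφπ]
      · rw [Polynomial.coeff_eq_zero_of_natDegree_lt (hQd.trans_lt hl),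
          Polynomial.coeff_eq_zero_of_natDegree_lt (p := P) (by omega)]
        simp
    rw [hmap]
    apply hinj
    rw [Polynomial.map_map, show (evJ (ZMod p) p).comp (Polynomial.mapRingHom π) =
      (coeffMap π).comp (evJ (Rz p) p) from RingHom.ext fun q => evJ_map π q,
      ← Polynomial.map_map, hP, Polynomial.map_prod]
    simp only [Polynomial.map_sub, Polynomial.map_X, Polynomial.map_C, Polynomial.map_mul,
      Polynomial.map_pow]
    show ∏ i, (X - C (red π (wFam (dvd_refl p) i))) = _
    simp only [red_wFam p π hπ]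
    rw [← Finset.mul_prod_erase Finset.univ _ (Finset.mem_univ cst0), if_pos rfl,
      Finset.prod_congr rfl fun i hi => by rw [if_neg (Finset.ne_of_mem_erase hi), C_0, sub_zero],
      Finset.prod_const, Finset.card_erase_of_mem (Finset.mem_univ _), Finset.card_univ,
      ← qExpand_evq, hH, mul_comm]

end Fermat.Agent.LevelLowerP

end VPoly
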