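import Fermat.Agent.LevelLowerP.LevelDescend
import Fermat.Agent.LevelLowerP.SeriesNormC
import Fermat.Agent.Reduction.Level.DescendNorm

/-!
# The norm of `u(ℓτ)` from level `M ℓ` to level `M` is `u(ℓτ) · ∏ u((τ + b)/ℓ)`

The formula holds in any characteristic.
-/

set_option autoImplicit false

noncomputable section

namespace Fermat.Agent.LevelLowerP

open ModularCurve AlgebraicCurve Fermat.Agent.Igusa
open scoped LaurentSeries

variable (k : Type) [Field k] (M ℓ : ℕ) [NeZero M] [Fact ℓ.Prime]

/-- `f(τ) ↦ f(ℓτ)`, over the constants. -/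
def scaleAlg : modularFunctionFieldFullC k M →ₐ[k] modularFunctionFieldFullC k (M * ℓ) :=
  { scaleP M ℓ with
    commutes' := fun c => Subtype.ext (by
      show qExpand k ℓ (algebraMap k (LaurentSeries k) c) = algebraMap k (LaurentSeries k) c
      rw [algebraMap_laurentSeries_eq_single, ← HahnSeries.C_apply, qExpand_C]) }

omit [NeZero M] in
theorem coe_scaleAlg (x : modularFunctionFieldFullC k M) :
    Subtype.val (scaleAlg k M ℓ x) = qExpand k ℓ (x : LaurentSeries k) := coe_scaleP M ℓ x

variable {k} [IsAlgClosed k]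

theorem isSeparable_levelAlg {N N' : ℕ} [NeZero N] [NeZero N'] (h : N ∣ N')
    (hN' : (N' : k) ≠ 0) :
    letI := algebraAlong (levelAlg k h)
    Algebra.IsSeparable (modularFunctionFieldFullC k N) (modularFunctionFieldFullC k N') := by
  have he : Reduction.Level.incl (k := k) h = levelIncl h :=
    RingHom.ext fun x => Subtype.ext (by rw [Reduction.Level.coe_incl, coe_levelIncl])
  have h' := (Reduction.Level.finite_separable_incl h hN').2
  rw [he] at h'
  exact h'

/-- **The norm.** -/
theorem norm_scaleAlg (hN : ((M * ℓ : ℕ) : k) ≠ 0) (hℓM : ¬ ℓ ∣ M)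
    (u : modularFunctionFieldFullC k M) :
    letI := algebraAlong (levelAlg k (dvd_mul_right M ℓ))
    ((Algebra.norm (modularFunctionFieldFullC k M) (scaleAlg k M ℓ u) :
        modularFunctionFieldFullC k M) : LaurentSeries k) =
      qExpand k ℓ (u : LaurentSeries k) * seriesNorm ℓ (u : LaurentSeries k) := by
  classical
  have hM0 : (M : k) ≠ 0 := fun e => hN (by rw [Nat.cast_mul, e, zero_mul])
  have := FF.isFunctionField_fullC k M hM0
  have := FF.isFunctionField_fullC k (M * ℓ) hN
  let _ := algebraAlong (levelAlg k (dvd_mul_right M ℓ))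
  have := isScalarTower_along (levelAlg k (dvd_mul_right M ℓ))
  have : Module.Finite (modularFunctionFieldFullC k M) (modularFunctionFieldFullC k (M * ℓ)) :=
    FF.finiteAlong (levelAlg k (dvd_mul_right M ℓ))
  have := isSeparable_levelAlg (dvd_mul_right M ℓ) hN
  obtain ⟨η, hη, hσ⟩ := exists_heckeHom M ℓ hN hℓM
  choose σ hσi hσs using hσ
  let Ω := AlgebraicClosure (LaurentSeries k)
  let ι : LaurentSeries k →+* Ω := algebraMap _ _
  let : Algebra (modularFunctionFieldFullC k M) Ω :=
    ((ι.comp (qExpand k (M * ℓ))).comp (SubringClass.subtype _)).toAlgebra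
  let τ : Option (Fin ℓ) → (modularFunctionFieldFullC k (M * ℓ) →+* LaurentSeries k) := fun o =>
    o.elim ((qExpand k (M * ℓ)).comp (SubringClass.subtype _)) fun b => σ b
  have hτi : ∀ o x, τ o (levelIncl (dvd_mul_right M ℓ) x) =
      qExpand k (M * ℓ) (x : LaurentSeries k) := by
    intro o x
    have he : levelIncl (dvd_mul_right M ℓ) x = inclP M ℓ x :=
      Subtype.ext (by rw [coe_levelIncl, coe_inclP])
    cases o with
    | none =>
      show qExpand k (M * ℓ) (Subtype.val (levelIncl (dvd_mul_right M ℓ) x)) = _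
      rw [coe_levelIncl]
    | some b => rw [he]; exact hσi b x
  let f : Option (Fin ℓ) →
      (modularFunctionFieldFullC k (M * ℓ) →ₐ[modularFunctionFieldFullC k M] Ω) :=
    fun o => { ι.comp (τ o) with commutes' := fun x => congrArg ι (hτi o x) }
  have hord : ∀ b : ℕ, (qExpand k M (twist (η ^ b) (jqModC k))).coeff (-(M : ℤ)) =
      ((η ^ b : kˣ) : k)⁻¹ := fun b => by
    rw [show -(M : ℤ) = (M : ℤ) * (-1) by ring, qExpand_coeff_mul, twist_coeff,
      ModularCurve.coeff_jqModC_neg_one, mul_one, zpow_neg_one, Units.val_inv_eq_inv_val]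
  have hinj : Function.Injective f := by
    intro o o' h
    have h1 : τ o (scaleP M ℓ (jC k M)) = τ o' (scaleP M ℓ (jC k M)) :=
      ι.injective (AlgHom.congr_fun h _)
    have hb : ∀ b : Fin ℓ, τ (some b) (scaleP M ℓ (jC k M)) =
        qExpand k M (twist (η ^ (b : ℕ)) (jqModC k)) := fun b => hσs b (jC k M)
    have h0 : τ none (scaleP M ℓ (jC k M)) = qExpand k (M * ℓ * ℓ) (jqModC k) := by
      show qExpand k (M * ℓ) (Subtype.val (scaleP M ℓ (jC k M))) = _
      rw [coe_scaleP, qExpand_qExpand]
      rfl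
    have hc := congrArg (fun s : LaurentSeries k => s.coeff (-(M : ℤ))) h1
    have hno : ∀ b : Fin ℓ, τ none (scaleP M ℓ (jC k M)) ≠ τ (some b) (scaleP M ℓ (jC k M)) := by
      intro b e
      have e' := congrArg (fun s : LaurentSeries k => s.coeff (-(M : ℤ))) e
      simp only [h0, hb, hord] at e'
      rw [qExpand_coeff_of_not_dvd] at e'
      · exact inv_ne_zero (Units.ne_zero _) e'.symm
      · rintro ⟨c, hc'⟩
        have hM : (0 : ℤ) < M := by exact_mod_cast NeZero.pos M
        have hℓ2 : (2 : ℤ) ≤ ℓ := by exact_mod_cast (Fact.out : ℓ.Prime).two_le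
        push_cast at hc'
        have h4 : 4 * (M : ℤ) ≤ (M : ℤ) * ℓ * ℓ := by
          nlinarith [mul_le_mul hℓ2 hℓ2 (by norm_num) (by omega)]
        rcases lt_or_ge c 0 with h2 | h2 <;> nlinarith
    cases o with
    | none => cases o' with
      | none => rfl
      | some b => exact absurd h1 (hno b)
    | some a => cases o' with
      | none => exact absurd h1.symm (hno a)
      | some b =>
        simp only [hb, hord, inv_inj, Units.val_pow_eq_pow_val] at hc
        exact congrArg some (Fin.ext (hη.pow_inj a.2 b.2 hc))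
  have hcard : Fintype.card (Option (Fin ℓ)) =
      Fintype.card (modularFunctionFieldFullC k (M * ℓ) →ₐ[modularFunctionFieldFullC k M] Ω) := by
    rw [AlgHom.card]
    have h1 := finrankAlong_levelAlg k hN (dvd_mul_right M ℓ)
    have h2 : dedekindPsi (M * ℓ) = (ℓ + 1) * dedekindPsi M := by
      rw [Cosets.dedekindPsi_mul (((Fact.out : ℓ.Prime).coprime_iff_not_dvd.mpr hℓM).symm),
        mul_comm]
      congr 1
      simpa using Cosets.dedekindPsi_prime_pow (Fact.out : ℓ.Prime) 0
    rw [Fintype.card_option, Fintype.card_fin]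
    exact (Nat.eq_of_mul_eq_mul_right (Cosets.dedekindPsi_pos (NeZero.ne M))
      (h1.trans h2)).symm
  have hf : Function.Bijective f :=
    (Fintype.bijective_iff_injective_and_card f).2 ⟨hinj, hcard⟩
  refine qExpand_injective (M * ℓ) (ι.injective ?_)
  refine (Algebra.norm_eq_prod_embeddings (modularFunctionFieldFullC k M) Ω
    (scaleAlg k M ℓ u)).trans ?_
  rw [← Fintype.prod_bijective f hf (fun o => ι (τ o (scaleAlg k M ℓ u))) _ (fun o => rfl),
    ← map_prod, Fintype.prod_option]
  rw [map_mul (qExpand k (M * ℓ))]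
  congr 2
  · rw [show qExpand k (M * ℓ) (seriesNorm ℓ (u : LaurentSeries k)) =
      qExpand k M (qExpand k ℓ (seriesNorm ℓ (u : LaurentSeries k))) from
      (qExpand_qExpand _ _ _).symm, qExpand_seriesNorm hη, map_prod]
    refine Finset.prod_congr rfl fun b _ => (hσs b u).trans (congrArg _ ?_)
    ext n
    rw [twist_coeff, rotate_coeff, Units.val_zpow_eq_zpow_val, Units.val_pow_eq_pow_val]

end Fermat.Agent.LevelLowerP
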