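import Fermat.Agent.LevelLowerP.Defs
import Fermat.Agent.LevelLowerP.BranchRing

/-!
# Local integrality

Functions without horizontal poles which are integral along the branches lie in the local ring.

Main results: `Setup.disc_integral`, `Setup.node_integral`.
-/

set_option autoImplicit false

namespace Fermat.Agent.LevelLowerP

open DualNumber TrivSqZeroExt
open scoped LaurentSeries PowerSeries

/-- A fraction integral at every prime of a factorial domain lies in it. -/
theorem mem_range_of_primeVal_le_one {B L : Type*} [CommRing B] [IsDomain B]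
    [UniqueFactorizationMonoid B] [Field L] [Algebra B L] [IsFractionRing B L] {x : L}
    (h : ∀ (π : B) (hπ : Prime π), primeValFrac L hπ x ≤ 1) : ∃ b : B, x = algebraMap B L b := by
  obtain ⟨a, d, hd, hrel, rfl⟩ : ∃ (a d : B), d ≠ 0 ∧ (∀ π : B, Prime π → π ∣ d → ¬ π ∣ a) ∧
      x = algebraMap B L a / algebraMap B L d := by
    obtain ⟨a', d', hrp, hmk⟩ := IsFractionRing.exists_reduced_fraction (A := B) (K := L) x
    refine ⟨a', (d' : B), nonZeroDivisors.ne_zero d'.2, fun π hπ h1 h2 => ?_, ?_⟩
    · exact hπ.not_isUnit (hrp h2 h1)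
    · rw [← hmk, IsFractionRing.mk'_eq_div]
  suffices hu : IsUnit d by
    obtain ⟨u, rfl⟩ := hu
    refine ⟨a * ↑u⁻¹, ?_⟩
    have h1 : algebraMap B L (u : B) ≠ 0 :=
      (map_ne_zero_iff _ (IsFractionRing.injective B L)).2 u.ne_zero
    have h2 : algebraMap B L ↑u⁻¹ * algebraMap B L ↑u = 1 := by
      rw [← map_mul, Units.inv_mul, map_one]
    rw [map_mul, div_eq_iff h1, mul_assoc, h2, mul_one]
  by_contra hnu
  obtain ⟨π, hirr, hdvd⟩ := WfDvdMonoid.exists_irreducible_factor hnu hd
  have hπ : Prime π := UniqueFactorizationMonoid.irreducible_iff_prime.1 hirr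
  have hv := h π hπ
  rw [map_div₀, primeValFrac_algebraMap, primeValFrac_algebraMap,
    primeVal_eq_one hπ (hrel π hπ hdvd)] at hv
  have hlt : primeVal hπ d < 1 := by
    rw [primeVal_apply hπ hd, ← WithZero.exp_zero, WithZero.exp_lt_exp]
    have : multiplicity π d ≠ 0 := fun e => (multiplicity_eq_zero.1 e) hdvd
    omega
  have hpos : primeVal hπ d ≠ 0 := by rw [primeVal_apply hπ hd]; exact WithZero.exp_ne_zero
  rw [div_le_one₀ (zero_lt_iff.2 hpos)] at hv
  exact absurd hv (not_le.2 hlt)

namespace Setup

variable {p : ℕ} {R k : Type*} [CommRing R] [IsDomain R] [IsDiscreteValuationRing R] [Field k]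
  [CharP k p] [Fact p.Prime] (S : Setup p R k)

omit [CharP k p] [Fact p.Prime] in
/-- **Integrality in the disc**: no horizontal poles and integral along the branch. -/
theorem disc_integral {L : Type*} [Field L] [Algebra (PowerSeries R) L]
    [IsFractionRing (PowerSeries R) L] {x : L}
    (h : NoHorizPole (PowerSeries.C S.ϖ) x) (h0 : S.discBranch.IsInt x) :
    ∃ o : PowerSeries R, x = algebraMap (PowerSeries R) L o := by
  refine mem_range_of_primeVal_le_one fun π hπ => ?_
  by_cases hπϖ : Associated π (PowerSeries.C S.ϖ)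
  · obtain ⟨s, t, ht, e⟩ := h0
    have htπ : ¬ π ∣ t := fun hd => ht (by
      rw [Branch.res_apply]
      exact S.fst_δS_eq_zero_iff.2 (S.map_res_eq_zero_iff.2 (hπϖ.symm.dvd.trans hd)))
    have := congrArg (primeValFrac L hπ) e
    rw [map_mul, primeValFrac_algebraMap, primeValFrac_algebraMap, primeVal_eq_one hπ htπ,
      mul_one] at this
    rw [this]
    exact primeVal_le_one hπ s
  · refine h _ (fun o => ?_) ?_
    · rw [primeValFrac_algebraMap]; exact primeVal_le_one hπ o
    · rw [primeValFrac_algebraMap,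
        primeVal_eq_one hπ fun hd => hπϖ (hπ.associated_of_dvd S.prime_C_ϖ hd)]

variable [IsDomain (Node R p)]

omit [IsDomain (Node R p)] [Fact (Nat.Prime p)] in
lemma nodeϖ_dvd_of_branches {g : Node R p} (h1 : (S.δinf g).fst = 0) (h0 : (S.δzero g).fst = 0) :
    S.nodeϖ ∣ g := by
  obtain ⟨A, B, rfl⟩ := exists_eq_add g
  rw [map_add, map_mul, S.δzero_of, S.δzero_of, S.δzero_nodeX, mul_zero, add_zero,
    S.fst_δS_eq_zero_iff] at h0
  rw [map_add, map_mul, S.δinf_of, S.δinf_of, S.δinf_nodeX, ← map_mul, ← map_add,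
    S.fst_δS_eq_zero_iff, map_add, h0, zero_add, map_mul, PowerSeries.map_X, mul_eq_zero,
    or_iff_left PowerSeries.X_ne_zero] at h1
  obtain ⟨A', rfl⟩ := S.map_res_eq_zero_iff.1 h0
  obtain ⟨B', rfl⟩ := S.map_res_eq_zero_iff.1 h1
  exact ⟨AdjoinRoot.of _ A' + AdjoinRoot.of _ B' * nodeX, by rw [map_mul, map_mul]; ring⟩

variable {L : Type*} [Field L] [Algebra (Node R p) L] [IsFractionRing (Node R p) L]

/-- **Integrality at a node**: no horizontal poles and integral along both branches. -/
theorem node_integral {x : L} (h : NoHorizPole S.nodeϖ x) (hI : S.infBranch.IsInt x)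
    (h0 : S.zeroBranch.IsInt x) : ∃ o : Node R p, x = algebraMap (Node R p) L o := by
  classical
  have hϖ0 : algebraMap (Node R p) L S.nodeϖ ≠ 0 :=
    (map_ne_zero_iff _ (IsFractionRing.injective _ L)).2 S.of_C_ϖ_ne_zero
  have hle : Submonoid.powers S.nodeϖ ≤ nonZeroDivisors (Node R p) :=
    powers_le_nonZeroDivisors_of_noZeroDivisors S.of_C_ϖ_ne_zero
  have : IsDomain (Localization.Away S.nodeϖ) := IsLocalization.isDomain_localization hle
  have : IsPrincipalIdealRing (Localization.Away S.nodeϖ) :=
    S.isPrincipalIdealRing_away (B := Localization.Away S.nodeϖ)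
  let φ : Localization.Away S.nodeϖ →+* L :=
    IsLocalization.Away.lift S.nodeϖ (g := algebraMap (Node R p) L) hϖ0.isUnit
  let _ : Algebra (Localization.Away S.nodeϖ) L := φ.toAlgebra
  have : IsScalarTower (Node R p) (Localization.Away S.nodeϖ) L :=
    IsScalarTower.of_algebraMap_eq fun o => (IsLocalization.Away.lift_eq S.nodeϖ _ o).symm
  have : IsFractionRing (Localization.Away S.nodeϖ) L :=
    IsFractionRing.isFractionRing_of_isDomain_of_isLocalization (Submonoid.powers S.nodeϖ) _ L
  obtain ⟨b, rfl⟩ := mem_range_of_primeVal_le_one (B := Localization.Away S.nodeϖ) (x := x)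
    fun π hπ => by
      refine h (primeValFrac L hπ) (fun o => ?_) ?_
      · rw [IsScalarTower.algebraMap_apply (Node R p) (Localization.Away S.nodeϖ) L,
          primeValFrac_algebraMap]
        exact primeVal_le_one hπ _
      · rw [IsScalarTower.algebraMap_apply (Node R p) (Localization.Away S.nodeϖ) L,
          primeValFrac_algebraMap]
        exact primeVal_eq_one hπ fun hd => hπ.not_isUnit
          (isUnit_of_dvd_unit hd (IsLocalization.Away.algebraMap_isUnit _))
  obtain ⟨n, g, hg⟩ := IsLocalization.Away.surj S.nodeϖ b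
  set y := algebraMap (Localization.Away S.nodeϖ) L b
  have key : ∀ (n : ℕ) (g : Node R p), y * algebraMap (Node R p) L S.nodeϖ ^ n = algebraMap _ L g →
      ∃ o : Node R p, y = algebraMap (Node R p) L o := by
    intro n
    induction n with
    | zero => intro g hg; exact ⟨g, by simpa using hg⟩
    | succ m ih =>
      intro g hg
      have hz : ∀ B : Branch (Node R p) (LaurentSeries k), B.ϖ = S.nodeϖ → B.IsInt y →
          (B.δ g).fst = 0 := by
        intro B hB hy
        obtain ⟨s, t, ht, e⟩ := hy
        have e2 : g * t = S.nodeϖ ^ (m + 1) * s := by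
          apply IsFractionRing.injective (Node R p) L
          rw [map_mul, map_mul, map_pow, ← hg, ← e]; ring
        have e3 := congrArg B.res e2
        rw [map_mul, map_mul, map_pow, ← hB, B.res_ϖ, zero_pow (by omega), zero_mul,
          mul_eq_zero] at e3
        rw [← Branch.res_apply]
        exact e3.resolve_right ht
      obtain ⟨g', rfl⟩ := S.nodeϖ_dvd_of_branches (hz S.infBranch rfl hI) (hz S.zeroBranch rfl h0)
      refine ih g' (mul_left_cancel₀ hϖ0 ?_)
      rw [map_mul, pow_succ] at hg
      linear_combination hg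
  have hgL := congrArg (algebraMap (Localization.Away S.nodeϖ) L) hg
  rw [map_mul, map_pow, ← IsScalarTower.algebraMap_apply, ← IsScalarTower.algebraMap_apply] at hgL
  exact key n g hgL

end Setup

end Fermat.Agent.LevelLowerP
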