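import Fermat.Agent.MazurPrinciple.Stabilise
import Fermat.Prelude.Def_FLTPrelim_ModularRep

/-!
# Residual modularity at a multiple of the level
-/

set_option autoImplicit false

noncomputable section

namespace Fermat.Agent.LevelLowerP

open ModularFormClass CongruenceSubgroup

/-- An eigenform seen at every multiple of its level. -/
theorem exists_eigenform_multiple {M : ℕ} {f : CuspForm (Gamma0 M) 2}
    (hf : f.IsNormalizedEigenform) :
    ∀ L : ℕ, L ≠ 0 → M ∣ L → ∃ g : CuspForm (Gamma0 L) 2, g.IsNormalizedEigenform ∧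
      ∀ l : ℕ, l.Prime → ¬ l ∣ L → qCoeff ⇑g l = qCoeff ⇑f l := by
  intro L
  induction L using Nat.strong_induction_on with
  | _ L ih =>
    intro hL hML
    by_cases hne : M = L
    · subst hne
      exact ⟨f, hf, fun _ _ _ => rfl⟩
    obtain ⟨c, hc⟩ := hML
    have hc1 : c ≠ 1 := fun h => hne (by rw [hc, h, mul_one])
    obtain ⟨r, hr, c', hc'⟩ := Nat.exists_prime_and_dvd hc1
    obtain ⟨L₁, rfl⟩ : ∃ L₁, L = L₁ * r := ⟨M * c', by rw [hc, hc']; ring⟩
    have : NeZero (L₁ * r) := ⟨hL⟩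
    have : NeZero L₁ := ⟨left_ne_zero_of_mul hL⟩
    have hML₁ : M ∣ L₁ := ⟨c', Nat.eq_of_mul_eq_mul_right hr.pos (by rw [hc, hc']; ring)⟩
    obtain ⟨g, hg, hgf⟩ := ih L₁ (lt_mul_of_one_lt_right (Nat.pos_of_ne_zero (NeZero.ne L₁))
      hr.one_lt) (NeZero.ne L₁) hML₁
    by_cases hrL : r ∣ L₁
    · have h1 : L₁ * 1 ∣ L₁ * r := by simp
      refine ⟨Newform.degen (L₁ * r) L₁ 1 2 h1 g,
        ⟨?_, fun m n hmn => ?_, fun q k hq hqL => ?_, fun q k hq hqL => ?_⟩, fun l hl hlL => ?_⟩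
      · rw [Newform.qCoeff_degen_one]; exact hg.qCoeff_one
      · simp only [Newform.qCoeff_degen_one]; exact hg.qCoeff_mul_of_coprime m n hmn
      · simp only [Newform.qCoeff_degen_one]
        exact hg.qCoeff_prime_pow_of_not_dvd q k hq fun h => hqL (h.mul_right r)
      · simp only [Newform.qCoeff_degen_one]
        exact hg.qCoeff_prime_pow_of_dvd q k hq ((hq.dvd_mul.mp hqL).elim id fun h =>
          ((Nat.prime_dvd_prime_iff_eq hq hr).mp h).symm ▸ hrL)
      · rw [Newform.qCoeff_degen_one, hgf l hl fun h => hlL (h.mul_right r)]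
    · obtain ⟨g', hg', hg'g⟩ := MazurPrinciple.exists_eigenform_raise hr hrL hg
      refine ⟨g', hg', fun l hl hlL => ?_⟩
      rw [hg'g l hl fun e => hlL (e ▸ dvd_mul_left r L₁), hgf l hl fun h => hlL (h.mul_right r)]

/-- Residual modularity rises to every multiple of the level. -/
theorem isResiduallyModularOfLevel_of_dvd {W : WeierstrassCurve ℤ} {p M L : ℕ} (hL : 0 < L)
    (hML : M ∣ L) (h : W.IsResiduallyModularOfLevel p M) : W.IsResiduallyModularOfLevel p L := by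
  obtain ⟨f, 𝔪, hf, h𝔪, hp, hcong⟩ := h
  obtain ⟨g, hg, hgf⟩ := exists_eigenform_multiple hf L hL.ne' hML
  refine ⟨g, 𝔪, hg, h𝔪, hp, fun ℓ hℓ hgood hℓL hℓp => ?_⟩
  rw [hgf ℓ hℓ hℓL]
  exact hcong ℓ hℓ hgood (fun h => hℓL (h.trans hML)) hℓp

end Fermat.Agent.LevelLowerP
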