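import Fermat.Agent.LevelLowerP.Final
import Fermat.Agent.LevelLowerP.GeoModel
import Fermat.Agent.LevelLowerP.GoodPoint
import Fermat.Agent.LevelLowerP.Raise

/-!
# Level lowering at `p`

Level lowering at `p` for residually modular curves: good reduction, or multiplicative reduction
with `p ∣ v_p(Δ)`.

Main result: `isResiduallyModularOfLevel_div_self`.
-/

set_option autoImplicit false

noncomputable section

namespace Fermat.Agent.LevelLowerP

open Fermat.Agent.Multiplicative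
open scoped WeierstrassCurve.Affine

/-- The geometric model exists. -/
theorem geoInput : GeoInput :=
  fun _ _ _ _ _ _ _ _ _ _ _ _ _ _ S U hp M _ hpM h2 h3 => exists_geoModel S M U hp hpM h2 h3

theorem le_div_of_dvd_of_not_dvd {p M N : ℕ} (hp : p.Prime) (hpN : p ∣ N) (hM : M ∣ N)
    (hpM : ¬ p ∣ M) : M ∣ N / p := by
  obtain ⟨K, rfl⟩ := hpN
  rw [Nat.mul_div_cancel_left _ hp.pos]
  exact ((hp.coprime_iff_not_dvd.mpr hpM).symm).dvd_of_dvd_mul_left hM

/-- **Level lowering at `p`** when the reduction at `p` is good, or multiplicative with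
`p ∣ v_p(Δ)`. -/
theorem isResiduallyModularOfLevel_div_self {W : WeierstrassCurve ℤ} (hΔ : W.Δ ≠ 0)
    {p : ℕ} (hp : p.Prime) (hp2 : p ≠ 2) (hirr : W.ModRepIsIrreducible p)
    (hred : W.IsGoodPrimeFor p ∨
      ((p : ℤ) ∣ W.Δ ∧ ¬ (p : ℤ) ∣ W.c₄ ∧ p ∣ padicValInt p W.Δ))
    {N : ℕ} (hN : 0 < N) (hpN : p ∣ N) (hp2N : ¬ p ^ 2 ∣ N)
    (hmod : W.IsResiduallyModularOfLevel p N) : W.IsResiduallyModularOfLevel p (N / p) := by
  have : Fact p.Prime := ⟨hp⟩
  have : NeZero N := ⟨hN.ne'⟩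
  obtain ⟨A, hA⟩ := Gal.exists_liesOverPrime (L := AlgebraicClosure ℚ) hp
  obtain ⟨M, hMN, hpM, hM⟩ := exists_lower_of_root_point geoInput hΔ hp2 hirr hp2N hA
    (fun M _ g 𝔪 hpM hg h𝔪 hp𝔪 hgc => by
      rcases hred with hgood | ⟨h1, h2, h3⟩
      · exact exists_good_root_point hΔ hp2 hgood hirr hpM hg h𝔪 hp𝔪 hgc hA
      · exact exists_root_point ⟨hp, hA, h1, h2, hΔ⟩ h3 hp2) hmod
  exact isResiduallyModularOfLevel_of_dvd (Nat.div_pos (Nat.le_of_dvd hN hpN) hp.pos)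
    (le_div_of_dvd_of_not_dvd hp hpN hMN hpM) hM

end Fermat.Agent.LevelLowerP
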