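import Fermat.Agent.LevelLowerP.Transfer
import Fermat.Agent.LevelLowerP.GeoModelDef
import Fermat.Agent.LevelLowerP.Analysis

/-!
# Inputs to the model

Divisibility along the model from divisibility at all valuations; the component at infinity in a
higher level.

Main results: `horizDiv_of_divAll`, `inf_levelIncl`.
-/

set_option autoImplicit false

noncomputable section

namespace Fermat.Agent.LevelLowerP

open ModularCurve Fermat.Agent.Igusa
open scoped LaurentSeries

variable {p : ℕ} {R k : Type} [CommRing R] [IsDomain R] [IsDiscreteValuationRing R] [Field k]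
  [CharP k p] [Fact p.Prime] [CharZero R] (S : Setup p R k)

omit [CharP k p] [Fact (Nat.Prime p)] [CharZero R] in
/-- A valuation integral on the constants and trivial on `ϖ` is trivial on constants. -/
theorem val_const_eq_one {F : Type} [Field F] (v : Valuation F (WithZero (Multiplicative ℤ)))
    (cst : R →+* F) (h1 : ∀ r, v (cst r) ≤ 1) (h2 : v (cst S.ϖ) = 1) {r : R} (hr : r ≠ 0) :
    v (cst r) = 1 := by
  obtain ⟨n, u, rfl⟩ := IsDiscreteValuationRing.eq_unit_mul_pow_irreducible hr S.irreducible_ϖ
  have hu : v (cst u) = 1 := by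
    refine le_antisymm (h1 _) ?_
    have h : v (cst (u : R)) * v (cst ((u⁻¹ : Rˣ) : R)) = 1 := by
      rw [← map_mul, ← map_mul, Units.mul_inv, map_one, map_one]
    calc (1 : WithZero (Multiplicative ℤ)) = _ := h.symm
      _ ≤ v (cst (u : R)) * 1 := mul_le_mul_of_nonneg_left (h1 _) zero_le
      _ = _ := mul_one _
  rw [map_mul, map_pow, map_mul, map_pow, hu, h2, one_pow, one_mul]

variable {M : ℕ} [NeZero M] {F : Type} [Field F] {O : Type} [CommRing O] [Algebra O F]

omit [CharP k p] [CharZero R] in
/-- Divisibility at all valuations gives it along an expansion. -/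
theorem horizDiv_of_divAll {f : modularFunctionFieldFullC (FractionRing R) (M * p)}
    (hf : DivAll (FractionRing R) (M * p) p f)
    (ι : modularFunctionFieldFullC (FractionRing R) (M * p) →+* F) (cst : R →+* O)
    (hι : ∀ r, ι (algebraMap R _ r) = algebraMap O F (cst r)) :
    HorizDiv p (cst S.ϖ) (ι f) := fun v h1 h2 => by
  refine hf (v.comap ι) fun c => ?_
  obtain ⟨a, b, hb, rfl⟩ := IsFractionRing.div_surjective R c
  show v (ι _) ≤ 1
  have hb1 : v (algebraMap O F (cst b)) = 1 :=
    val_const_eq_one S v ((algebraMap O F).comp cst) (fun r => h1 _) h2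
      (nonZeroDivisors.ne_zero hb)
  rw [algebraMap_K_div, map_div₀ ι, hι, hι, map_div₀ v, hb1, div_one]
  exact h1 _

variable [IsAlgClosed k] [IsDomain (Node R p)]

theorem multDiv_of_divAll {hpM : ¬ p ∣ M} (G : GeoModel M S hpM)
    {f : modularFunctionFieldFullC (FractionRing R) (M * p)}
    (hf : DivAll (FractionRing R) (M * p) p f) : G.toModel.MultDiv f := by
  refine ⟨fun Q => ?_, fun Q => ?_, fun v => ?_⟩
  · exact horizDiv_of_divAll S hf (G.toModel.ptI Q).ι PowerSeries.C (G.toModel.ptI Q).ι_algebraMap
  · exact horizDiv_of_divAll S hf (G.toModel.pt₀ Q).ι PowerSeries.C (G.toModel.pt₀ Q).ι_algebraMap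
  · exact horizDiv_of_divAll S hf (G.toModel.node v).ι
      ((AdjoinRoot.of (nodePoly R p)).comp PowerSeries.C) (G.toModel.node v).ι_algebraMap

omit [CharZero R] [IsDomain (Node R p)] in
/-- The component at infinity in a higher level. -/
theorem inf_levelIncl {M' : ℕ} [NeZero M'] (hM : M ∣ M') (hpM : ¬ p ∣ M) (hpM' : ¬ p ∣ M')
    {x : modularFunctionFieldFullC (FractionRing R) (M * p)} (hx : x ≠ 0) :
    eInf k M' ((infGB S M' hpM').resUnit (levelIncl (Nat.mul_dvd_mul_right hM p) x)) =
        eInf k M ((infGB S M hpM).resUnit x) ∧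
      eInf k M' ((infGB S M' hpM').psi (levelIncl (Nat.mul_dvd_mul_right hM p) x)) =
        eInf k M ((infGB S M hpM).psi x) := by
  set y := levelIncl (Nat.mul_dvd_mul_right hM p) x
  have hy : y ≠ 0 := (_root_.map_ne_zero _).2 hx
  have hi : iInf (M' * p) y = iInf (M * p) x := (Setup.toLS R).injective (by
    rw [toLS_iInf, toLS_iInf]; exact coe_levelIncl _ x)
  constructor
  · refine ((infEmb S M' hpM').resUnit_eq hy).symm.trans
      (Eq.trans ?_ ((infEmb S M hpM).resUnit_eq hx))
    exact congrArg _ hi
  · refine ((infEmb S M' hpM').psi_eq hy).symm.trans (Eq.trans ?_ ((infEmb S M hpM).psi_eq hx))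
    exact congrArg _ hi

end Fermat.Agent.LevelLowerP
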