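import Fermat.Agent.LevelLowerP.Analysis

/-!
# The second step: approximate `p`th powers

The relations under `U_p` and `w_p` turn a function whose reduction is a `p`th power
into a `p`th power modulo every power of `ϖ` on both components.

Main results: `powApprox_inf`, `powApprox_zero`.
-/

set_option autoImplicit false

noncomputable section

namespace Fermat.Agent.LevelLowerP

open ModularCurve DualNumber TrivSqZeroExt
open scoped LaurentSeries

variable {p : ℕ} {R k : Type*} [CommRing R] [IsDomain R] [IsDiscreteValuationRing R] [Field k]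
  [CharP k p] [Fact p.Prime] (S : Setup p R k) (M : ℕ) [NeZero M] (hpM : ¬ p ∣ M) [IsAlgClosed k]

local notation "K" => FractionRing R

theorem cong_zpow {n : ℕ} (hn : 1 ≤ n) {y : modularFunctionFieldFullC K (M * p)}
    (h : (infGB S M hpM).Cong n y) {η : ℤ} (hη : η = 1 ∨ η = -1) :
    (infGB S M hpM).Cong n (y ^ η) := by
  rcases hη with rfl | rfl
  · rwa [zpow_one]
  · set E := infEmb S M hpM
    refine E.cong_of_close ?_
    rw [map_zpow₀, zpow_neg_one]
    exact (E.close_of_cong h).inv hn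

/-- One step of the iteration: `U_p` raises the precision. -/
theorem cong_step {f g h N : modularFunctionFieldFullC K (M * p)} (hf : f ≠ 0) (hg : g ≠ 0)
    (hh : h ≠ 0) (hN : (N : LaurentSeries K) = seriesNorm p (g : LaurentSeries K))
    {η : ℤ} (hη : η = 1 ∨ η = -1) {c₀ : K} (hc₀ : c₀ ≠ 0)
    (hU : seriesNorm p (f : LaurentSeries K) =
      HahnSeries.C c₀ * (f : LaurentSeries K) ^ η * (h : LaurentSeries K) ^ p)
    {i : ℕ} (hi : 1 ≤ i) {c : K} (hc : c ≠ 0)
    (hfg : (infGB S M hpM).Cong i (f / (algebraMap K _ c * g ^ p))) :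
    (infGB S M hpM).Cong (i + 1) (f / (algebraMap K _ ((c ^ p / c₀) ^ η) * ((N / h) ^ η) ^ p)) := by
  have hp := (Fact.out : p.Prime)
  set E := infEmb S M hpM
  have hc₀L : algebraMap K (modularFunctionFieldFullC K (M * p)) c₀ ≠ 0 :=
    (_root_.map_ne_zero _).2 hc₀
  have hgs : (g : LaurentSeries K) ≠ 0 := fun e => hg (Subtype.ext e)
  set z : (modularFunctionFieldFullC K (M * p)) :=
    algebraMap K (modularFunctionFieldFullC K (M * p)) c₀ * f ^ η * h ^ p /
      (algebraMap K (modularFunctionFieldFullC K (M * p)) (c ^ p) * N ^ p) with hz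
  have hden : (HahnSeries.C c * (g : LaurentSeries K) ^ p : LaurentSeries K) ≠ 0 :=
    mul_ne_zero ((map_ne_zero_iff _ HahnSeries.C_injective).2 hc) (pow_ne_zero _ hgs)
  have hzs : (z : LaurentSeries K) = seriesNorm p
      ((f / (algebraMap K (modularFunctionFieldFullC K (M * p)) c * g ^ p) :
        (modularFunctionFieldFullC K (M * p))) : LaurentSeries K) := by
    have hd : seriesNorm p (HahnSeries.C c * (g : LaurentSeries K) ^ p) ≠ 0 :=
      seriesNorm_ne_zero p hden
    set j := SubringClass.subtype (modularFunctionFieldFullC K (M * p))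
    have hj : ∀ x, j x = (x : LaurentSeries K) := fun _ => rfl
    rw [← hj, ← hj, hz]
    simp only [map_div₀, map_mul, map_pow, map_zpow₀]
    simp only [hj, coe_algebraMap_K]
    rw [← hU]
    refine (eq_comm.trans (eq_div_iff (by
      rw [hN, ← map_pow, ← seriesNorm_C, ← seriesNorm_pow, ← seriesNorm_mul]; exact hd))).2 ?_
    rw [hN, ← map_pow, ← seriesNorm_C, ← seriesNorm_pow, ← seriesNorm_mul, ← seriesNorm_mul,
      div_mul_cancel₀ _ hden]
  have hcl : (infGB S M hpM).Cong (i + 1) z := by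
    refine E.cong_of_close (S.disc_norm_close hi (by omega) (by have := hp.pos; omega) ?_
      (E.close_of_cong hfg))
    show Setup.toLS R (iInf _ z) = seriesNorm p (Setup.toLS R (iInf _ _))
    rw [toLS_iInf, toLS_iInf, hzs]
  have key : f / (algebraMap K (modularFunctionFieldFullC K (M * p)) ((c ^ p / c₀) ^ η) *
      ((N / h) ^ η) ^ p) = z ^ η := by
    rw [hz, map_zpow₀, map_div₀]
    rcases hη with rfl | rfl
    · simp only [zpow_one, div_pow]; field_simp
    · simp only [zpow_neg_one, inv_pow, div_pow]; field_simp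
  rw [key]
  exact cong_zpow S M hpM (by omega) hcl hη

/-- Iteration from a lift of the `p`th root of the reduction, inside a subfield closed under the
norm. -/
theorem exists_cong_of_reduction {f : modularFunctionFieldFullC K (M * p)} (hf : f ≠ 0)
    (Lr : Subfield (modularFunctionFieldFullC K (M * p)))
    (hnorm : ∀ g ∈ Lr, ∃ N ∈ Lr, (N : LaurentSeries K) = seriesNorm p (g : LaurentSeries K))
    {g₁ : modularFunctionFieldFullC K (M * p)} (hg₁ : g₁ ∈ Lr) (hg₁0 : g₁ ≠ 0)
    (hres : (infGB S M hpM).resUnit f = (infGB S M hpM).resUnit g₁ ^ p)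
    {h : modularFunctionFieldFullC K (M * p)} (hh : h ≠ 0) (hhr : h ∈ Lr)
    {η : ℤ} (hη : η = 1 ∨ η = -1) {c₀ : K} (hc₀ : c₀ ≠ 0)
    (hU : seriesNorm p (f : LaurentSeries K) =
      HahnSeries.C c₀ * (f : LaurentSeries K) ^ η * (h : LaurentSeries K) ^ p) (n : ℕ) :
    ∃ (c : K) (g : modularFunctionFieldFullC K (M * p)), c ≠ 0 ∧ g ≠ 0 ∧ g ∈ Lr ∧
      (infGB S M hpM).Cong (n + 1) (f / (algebraMap K _ c * g ^ p)) := by
  set G := infGB S M hpM
  set E := infEmb S M hpM
  induction n with
  | zero =>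
    set m := G.ord f - p * G.ord g₁ with hm
    have hπK : algebraMap R K S.ϖ ≠ 0 :=
      (map_ne_zero_iff _ (IsFractionRing.injective R K)).2 S.irreducible_ϖ.ne_zero
    refine ⟨algebraMap R K S.ϖ ^ m, g₁, zpow_ne_zero _ hπK, hg₁0, hg₁, ?_⟩
    have hπ := E.algebraMap_ϖ_ne_zero
    have e : algebraMap K (modularFunctionFieldFullC K (M * p)) (algebraMap R K S.ϖ ^ m) =
        algebraMap R (modularFunctionFieldFullC K (M * p)) S.ϖ ^ m := by
      rw [map_zpow₀, algebraMap_eq_cF]; rfl
    rw [e]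
    set d := algebraMap R (modularFunctionFieldFullC K (M * p)) S.ϖ ^ m * g₁ ^ p with hd'
    have hd : d ≠ 0 := mul_ne_zero (zpow_ne_zero _ hπ) (pow_ne_zero _ hg₁0)
    have hπu : G.resUnit (algebraMap R (modularFunctionFieldFullC K (M * p)) S.ϖ) = 1 := by
      rw [GBranch.resUnit, G.sp_ϖ]; simp
    have hdo : G.ord d = G.ord f := by
      rw [hd', G.ord_mul _ _ (zpow_ne_zero _ hπ) (pow_ne_zero _ hg₁0), E.ord_zpow_ϖ,
        E.ord_pow hg₁0, hm]
      ring
    have hdu : G.resUnit d = G.resUnit f := by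
      rw [hd', G.resUnit_mul (zpow_ne_zero _ hπ) (pow_ne_zero _ hg₁0), G.resUnit_zpow hπ, hπu,
        one_zpow, one_mul, G.resUnit_pow hg₁0, hres]
    have ho : G.ord (f / d) = 0 := by
      rw [div_eq_mul_inv, G.ord_mul _ _ hf (inv_ne_zero hd), E.ord_inv hd, hdo, add_neg_cancel]
    have hge : G.Ge 0 (f / d) := Or.inr ho.ge
    have hge' := E.ge_sub hge E.ge_one
    refine (GBranch.res_eq_zero_iff _ hge').1 ?_
    have hr : G.res (f / d) = 1 := by
      have h1 := G.resUnit_mul (div_ne_zero hf hd) hd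
      rw [div_mul_cancel₀ _ hd, hdu] at h1
      rw [G.res_of_ord_eq_zero (div_ne_zero hf hd) ho]
      exact (mul_eq_right₀ (G.resUnit_ne_zero hf)).1 h1.symm
    have h2 := E.res_add hge' E.ge_one
    rwa [sub_add_cancel, hr, E.res_one, right_eq_add] at h2
  | succ j ih =>
    obtain ⟨c, g, hc, hg, hgr, hfg⟩ := ih
    obtain ⟨N, hNr, hN⟩ := hnorm g hgr
    have hN0 : N ≠ 0 := fun e => seriesNorm_ne_zero p
      (g := (g : LaurentSeries K)) (fun e' => hg (Subtype.ext e'))
      (by rw [← hN, e, ZeroMemClass.coe_zero])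
    exact ⟨_, _, zpow_ne_zero _ (div_ne_zero (pow_ne_zero _ hc) hc₀),
      zpow_ne_zero _ (div_ne_zero hN0 hh), zpow_mem (div_mem hNr hhr) η,
      cong_step S M hpM hf hg hh hN hη hc₀ hU (by omega) hc hfg⟩

omit [CharP k p] [IsAlgClosed k] in
/-- From congruences with constants in the fraction field to `PowApprox`. -/
theorem powApprox_of_cong {G : GBranch S (modularFunctionFieldFullC K (M * p))
      (modularFunctionFieldFullC k M)} {f : modularFunctionFieldFullC K (M * p)}
    (h : ∀ n : ℕ, ∃ (c : K) (g : modularFunctionFieldFullC K (M * p)), c ≠ 0 ∧ g ≠ 0 ∧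
      G.Cong n (f / (algebraMap K _ c * g ^ p))) : G.PowApprox f := by
  intro n
  obtain ⟨c, g, hc, hg, hcg⟩ := h n
  obtain ⟨a, b, -, rfl⟩ := IsFractionRing.div_surjective R c
  rw [div_ne_zero_iff] at hc
  refine ⟨a, b, g, fun e => hc.1 (by rw [e, map_zero]), fun e => hc.2 (by rw [e, map_zero]), hg, ?_⟩
  rw [algebraMap_K_div, div_mul_eq_mul_div, div_div_eq_mul_div] at hcg
  exact hcg

/-- `PowApprox` on the component at infinity. -/
theorem powApprox_inf {f : modularFunctionFieldFullC K (M * p)} (hf : f ≠ 0)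
    (Lr : Subfield (modularFunctionFieldFullC K (M * p)))
    (hnorm : ∀ g ∈ Lr, ∃ N ∈ Lr, (N : LaurentSeries K) = seriesNorm p (g : LaurentSeries K))
    {g₁ : modularFunctionFieldFullC K (M * p)} (hg₁ : g₁ ∈ Lr) (hg₁0 : g₁ ≠ 0)
    (hres : (infGB S M hpM).resUnit f = (infGB S M hpM).resUnit g₁ ^ p)
    {h : modularFunctionFieldFullC K (M * p)} (hh : h ≠ 0) (hhr : h ∈ Lr)
    {η : ℤ} (hη : η = 1 ∨ η = -1) {c₀ : K} (hc₀ : c₀ ≠ 0)
    (hU : seriesNorm p (f : LaurentSeries K) =
      HahnSeries.C c₀ * (f : LaurentSeries K) ^ η * (h : LaurentSeries K) ^ p) :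
    (infGB S M hpM).PowApprox f :=
  powApprox_of_cong S M fun n => by
    obtain ⟨c, g, hc, hg, -, hcg⟩ :=
      exists_cong_of_reduction S M hpM hf Lr hnorm hg₁ hg₁0 hres hh hhr hη hc₀ hU n
    exact ⟨c, g, hc, hg, GBranch.cong_mono (Nat.le_succ n) hcg⟩

variable [CharZero R]

theorem wAL_algebraMap_K (c : K) :
    wAL K M p hpM (algebraMap K (modularFunctionFieldFullC K (M * p)) c) = algebraMap K _ c := by
  obtain ⟨a, b, -, rfl⟩ := IsFractionRing.div_surjective R c
  rw [algebraMap_K_div, map_div₀, algebraMap_eq_cF, algebraMap_eq_cF, wAL_cF M hpM,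
    wAL_cF M hpM]

/-- `PowApprox` on the other component, through the relation under `w_p`. -/
theorem powApprox_zero {f hw : modularFunctionFieldFullC K (M * p)} (hf : f ≠ 0) (hw0 : hw ≠ 0)
    {η : ℤ} (hη : η = 1 ∨ η = -1) {cw : K} (hcw : cw ≠ 0)
    (hW : wAL K M p hpM f = algebraMap K _ cw * f ^ (-η) * hw ^ p)
    (hI : (infGB S M hpM).PowApprox f) : (zeroGB S M hpM).PowApprox f := by
  set w := wAL K M p hpM
  refine powApprox_of_cong S M fun n => ?_
  obtain ⟨r, s, g, hr, hs, hg, hcg⟩ := hI (n + 1)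
  have hrK : algebraMap R K r ≠ 0 := (map_ne_zero_iff _ (IsFractionRing.injective R K)).2 hr
  have hsK : algebraMap R K s ≠ 0 := (map_ne_zero_iff _ (IsFractionRing.injective R K)).2 hs
  set c : K := algebraMap R K r / algebraMap R K s with hc
  have hc0 : c ≠ 0 := div_ne_zero hrK hsK
  have hcwL : algebraMap K (modularFunctionFieldFullC K (M * p)) cw ≠ 0 :=
    (_root_.map_ne_zero _).2 hcw
  set y := f / (algebraMap K (modularFunctionFieldFullC K (M * p)) c * g ^ p) with hy
  have hycong : (infGB S M hpM).Cong (n + 1) y := by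
    rw [hy, hc, algebraMap_K_div, div_mul_eq_mul_div, div_div_eq_mul_div]
    exact hcg
  have hy' := cong_zpow S M hpM (η := -η) (by omega) hycong (by omega)
  refine ⟨cw * c ^ (-η), w (g ^ (-η) * hw), mul_ne_zero hcw (zpow_ne_zero _ hc0),
    (_root_.map_ne_zero w).2 (mul_ne_zero (zpow_ne_zero _ hg) hw0), ?_⟩
  have key : w (f / (algebraMap K (modularFunctionFieldFullC K (M * p)) (cw * c ^ (-η)) *
      w (g ^ (-η) * hw) ^ p)) = y ^ (-η) := by
    rw [map_div₀, map_mul w (algebraMap K (modularFunctionFieldFullC K (M * p)) _), map_pow,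
      wAL_algebraMap_K M hpM, wAL_wAL, hW, hy, map_mul, map_zpow₀]
    rcases hη with rfl | rfl
    · simp only [zpow_neg_one, inv_pow, mul_pow]; field_simp
    · simp only [neg_neg, zpow_one, mul_pow]; field_simp
  have hge := GBranch.cong_mono (Nat.le_succ n) hy'
  rw [← key, GBranch.Cong, ← map_one w, ← map_sub] at hge
  exact hge.imp (fun e => (map_eq_zero w).1 e) id

end Fermat.Agent.LevelLowerP
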