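import Fermat.Agent.LevelLowerP.GBranch

/-!
# The first step: logarithmic derivatives

The logarithmic derivative is a constant on each component, and the two constants differ
at a node by the residue times `∂ (p / ϖ ^ p)`.

Main results: `Model.exists_const_psi`, `Model.orders_of_psi_eq`.
-/

set_option autoImplicit false

namespace Fermat.Agent.LevelLowerP

open DualNumber TrivSqZeroExt
open scoped LaurentSeries

variable {p : ℕ} {R k : Type*} [CommRing R] [IsDomain R] [IsDiscreteValuationRing R] [Field k]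
  [CharP k p] [Fact p.Prime] {S : Setup p R k} {L κ : Type*} [Field L] [Field κ] [Algebra R L]
  [Algebra k κ] [IsDomain (Node R p)] (M : Model S L κ)

lemma eq_of_coe_eq_C {a : PowerSeries k} {c : k}
    (h : (a : LaurentSeries k) = HahnSeries.C c) : PowerSeries.constantCoeff a = c := by
  rw [← HahnSeries.ofPowerSeries_C] at h
  rw [HahnSeries.ofPowerSeries_injective h, PowerSeries.constantCoeff_C]

namespace Model

/-- Logarithmic derivatives are constant on components; their jump at a node. -/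
theorem exists_const_psi {f : L} (hf : f ≠ 0) (h : M.MultDiv f) :
    ∃ cI c₀ : k, M.inf.psi f = algebraMap k κ cI ∧ M.zero.psi f = algebraMap k κ c₀ ∧
      (∀ v, ∃ b : ℤ, c₀ - cI = (b : k) * S.psiW ∧
        (p : ℤ) ∣ ((M.node v).eI (M.inf.resUnit f)).order - b ∧
        (p : ℤ) ∣ ((M.node v).e₀ (M.zero.resUnit f)).order + b) ∧
      (∀ Q, (p : ℤ) ∣ ((M.ptI Q).e (M.inf.resUnit f)).order) ∧
      (∀ Q, (p : ℤ) ∣ ((M.pt₀ Q).e (M.zero.resUnit f)).order) := by
  obtain ⟨hI, h₀, hN⟩ := h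
  have dI := fun Q => S.disc_regular ((map_ne_zero (M.ptI Q).ι).2 hf) (S.discDiv_of_horizDiv (hI Q))
  have d₀ := fun Q => S.disc_regular ((map_ne_zero (M.pt₀ Q).ι).2 hf) (S.discDiv_of_horizDiv (h₀ Q))
  have dN := fun v => S.node_jump ((map_ne_zero (M.node v).ι).2 hf) (hN v)
  obtain ⟨cI, hcI⟩ := M.const_inf (M.inf.psi f)
    (fun Q => (M.ptI Q).emb.psi_eq hf ▸ (dI Q).1)
    (fun v => by
      obtain ⟨b, aI, a₀, h1, -⟩ := dN v
      exact ⟨aI, by rw [← h1]; exact ((M.node v).embI.psi_eq hf).symm⟩)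
  obtain ⟨c₀, hc₀⟩ := M.const_zero (M.zero.psi f)
    (fun Q => (M.pt₀ Q).emb.psi_eq hf ▸ (d₀ Q).1)
    (fun v => by
      obtain ⟨b, aI, a₀, -, h2, -⟩ := dN v
      exact ⟨a₀, by rw [← h2]; exact ((M.node v).emb₀.psi_eq hf).symm⟩)
  refine ⟨cI, c₀, hcI, hc₀, fun v => ?_, fun Q => ?_, fun Q => ?_⟩
  · obtain ⟨b, aI, a₀, h1, h2, hj, ho1, ho2⟩ := dN v
    refine ⟨b, ?_, ?_, ?_⟩
    · have e1 := (M.node v).embI.psi_eq hf
      have e2 := (M.node v).emb₀.psi_eq hf
      rw [hcI, (M.node v).embI.e_algebraMap] at e1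
      rw [hc₀, (M.node v).emb₀.e_algebraMap] at e2
      rw [← hj, eq_of_coe_eq_C (h1.symm.trans e1), eq_of_coe_eq_C (h2.symm.trans e2)]
    · have := (M.node v).embI.resUnit_eq hf
      exact this ▸ ho1
    · have := (M.node v).emb₀.resUnit_eq hf
      exact this ▸ ho2
  · have := (M.ptI Q).emb.resUnit_eq hf
    exact this ▸ (dI Q).2
  · have := (M.pt₀ Q).emb.resUnit_eq hf
    exact this ▸ (d₀ Q).2

/-- If both constants agree, all orders of the reductions are divisible by `p`. -/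
theorem orders_of_psi_eq {f : L} (hf : f ≠ 0) (h : M.MultDiv f)
    (hpsi : M.inf.psi f = M.zero.psi f) :
    (∀ Q, (p : ℤ) ∣ ((M.ptI Q).e (M.inf.resUnit f)).order) ∧
      (∀ v, (p : ℤ) ∣ ((M.node v).eI (M.inf.resUnit f)).order) ∧
      (∀ Q, (p : ℤ) ∣ ((M.pt₀ Q).e (M.zero.resUnit f)).order) ∧
      (∀ v, (p : ℤ) ∣ ((M.node v).e₀ (M.zero.resUnit f)).order) := by
  obtain ⟨cI, c₀, hcI, hc₀, hN, hPI, hP₀⟩ := M.exists_const_psi hf h
  have hc : cI = c₀ := (algebraMap k κ).injective (hcI.symm.trans (hpsi.trans hc₀))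
  have hb : ∀ v, (p : ℤ) ∣ ((M.node v).eI (M.inf.resUnit f)).order ∧
      (p : ℤ) ∣ ((M.node v).e₀ (M.zero.resUnit f)).order := fun v => by
    obtain ⟨b, hb, h1, h2⟩ := hN v
    rw [hc, sub_self, eq_comm, mul_eq_zero, or_iff_left S.psiW_ne_zero,
      CharP.intCast_eq_zero_iff k p] at hb
    exact ⟨by simpa using dvd_add h1 hb, by simpa using dvd_sub h2 hb⟩
  exact ⟨hPI, fun v => (hb v).1, hP₀, fun v => (hb v).2⟩

end Model

end Fermat.Agent.LevelLowerP
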