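import Fermat.Agent.LevelLowerP.StepThree
import Fermat.Prelude.Thm_IsAdicComplete_of_module_finite

/-!
# The third step, assembled

Local roots, the normalised function and the limit: a function with divisor divisible by `p`
which is a `p`th power modulo every power of `ϖ` on both components is a constant times a `p`th
power.

Main result: `exists_eq_const_mul_pow`.
-/

set_option autoImplicit false

namespace Fermat.Agent.LevelLowerP

open DualNumber TrivSqZeroExt
open scoped LaurentSeries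

variable {p : ℕ} {R k : Type*} [CommRing R] [IsDomain R] [IsDiscreteValuationRing R] [Field k]
  [CharP k p] [Fact p.Prime] [PerfectRing k p] {S : Setup p R k} {L κ : Type*} [Field L] [Field κ]
  [Algebra R L] [Algebra k κ]

namespace Emb

variable {G : GBranch S L κ} {O : Type*} [CommRing O] [IsDomain O]
  {B : Branch O (LaurentSeries k)} {F : Type*} [Field F] [Algebra O F] [IsFractionRing O F]
  (E : Emb G B F)

omit [CharP k p] [Fact (Nat.Prime p)] [PerfectRing k p] in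
include E in
/-- Constants are invisible to valuations trivial on `ϖ`. -/
lemma val_algebraMap (v : Valuation F (WithZero (Multiplicative ℤ)))
    (h1 : ∀ o, v (algebraMap O F o) ≤ 1) (h2 : v (algebraMap O F B.ϖ) = 1) {r : R} (hr : r ≠ 0) :
    v (E.ι (algebraMap R L r)) = 1 := by
  obtain ⟨n, u, rfl⟩ := IsDiscreteValuationRing.eq_unit_mul_pow_irreducible hr S.irreducible_ϖ
  rw [map_mul, map_mul, map_mul, map_pow, map_pow, map_pow, E.ι_ϖ, h2, one_pow, mul_one,
    E.ι_algebraMap]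
  refine le_antisymm (h1 _) ?_
  have e : v (algebraMap O F (E.cst u)) * v (algebraMap O F (E.cst (↑u⁻¹ : R))) = 1 := by
    rw [← map_mul, ← map_mul, ← map_mul, Units.mul_inv, map_one, map_one, map_one]
  calc (1 : WithZero (Multiplicative ℤ)) = _ := e.symm
    _ ≤ v (algebraMap O F (E.cst u)) * 1 := mul_le_mul' le_rfl (h1 _)
    _ = _ := mul_one _

omit [CharP k p] [Fact (Nat.Prime p)] [PerfectRing k p] in
include E in
lemma horizDiv_mul_const {f : L} (h : HorizDiv p B.ϖ (E.ι f)) {a b : R} (ha : a ≠ 0) (hb : b ≠ 0) :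
    HorizDiv p B.ϖ (E.ι (f * algebraMap R L a / algebraMap R L b)) := fun v h1 h2 => by
  rw [map_div₀, map_mul, map_div₀, map_mul, E.val_algebraMap v h1 h2 ha,
    E.val_algebraMap v h1 h2 hb, mul_one, div_one]
  exact h v h1 h2

omit [CharP k p] [Fact (Nat.Prime p)] [PerfectRing k p] in
include E in
lemma noHorizPole_mul_const {f : L} {y : F} (h : NoHorizPole B.ϖ (E.ι f * y)) {a b : R}
    (ha : a ≠ 0) (hb : b ≠ 0) :
    NoHorizPole B.ϖ (E.ι (f * algebraMap R L a / algebraMap R L b) * y) := fun v h1 h2 => by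
  rw [map_mul, map_div₀ E.ι, map_mul E.ι, map_div₀, map_mul, E.val_algebraMap v h1 h2 ha,
    E.val_algebraMap v h1 h2 hb, mul_one, div_one]
  simpa using h v h1 h2

omit [IsDomain R] [IsDiscreteValuationRing R] [CharP k p] [Fact (Nat.Prime p)]
    [PerfectRing k p] in
include E in
/-- Local form of an approximation. -/
lemma close_div_pow {f g : L} {N : ℕ} (h : G.Cong N (f / g ^ p)) :
    B.Close N (E.ι f / E.ι g ^ p) := by
  simpa using E.close_of_cong h

end Emb

namespace Model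

variable [IsDomain (Node R p)] {M : Model S L κ}

omit [PerfectRing k p] in
lemma MultDiv.mul_const {f : L} (h : M.MultDiv f) {a b : R} (ha : a ≠ 0) (hb : b ≠ 0) :
    M.MultDiv (f * algebraMap R L a / algebraMap R L b) :=
  ⟨fun Q => (M.ptI Q).emb.horizDiv_mul_const (h.1 Q) ha hb,
    fun Q => (M.pt₀ Q).emb.horizDiv_mul_const (h.2.1 Q) ha hb,
    fun v => (M.node v).embI.horizDiv_mul_const (h.2.2 v) ha hb⟩

omit [PerfectRing k p] in
lemma RegularUpTo.mul_const {n : ℕ} {f : L} (h : M.RegularUpTo n f) {a b : R} (ha : a ≠ 0)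
    (hb : b ≠ 0) : M.RegularUpTo n (f * algebraMap R L a / algebraMap R L b) :=
  ⟨fun Q => (M.ptI Q).emb.noHorizPole_mul_const (h.1 Q) ha hb,
    fun Q => (M.pt₀ Q).emb.noHorizPole_mul_const (h.2.1 Q) ha hb,
    fun v => by
      have := (M.node v).embI.noHorizPole_mul_const (y := 1) (f := f)
        (by rw [mul_one]; exact h.2.2 v) ha hb
      rwa [mul_one] at this⟩

omit [PerfectRing k p] in
lemma RegularUpTo.mono {m n : ℕ} {f : L} (hmn : m ≤ n) (h : M.RegularUpTo m f) :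
    M.RegularUpTo n f := by
  have key : ∀ {a b : ℕ}, a ≤ b → ∀ {x : FractionRing (PowerSeries R)},
      NoHorizPole (PowerSeries.C S.ϖ) (x * algebraMap (PowerSeries R) _ PowerSeries.X ^ a) →
      NoHorizPole (PowerSeries.C S.ϖ) (x * algebraMap (PowerSeries R) _ PowerSeries.X ^ b) := by
    intro a b hab x hx v h1 h2
    obtain ⟨c, rfl⟩ := Nat.exists_eq_add_of_le hab
    rw [pow_add, ← mul_assoc, map_mul, map_pow v]
    exact mul_le_one' (hx v h1 h2) (pow_le_one' (h1 _) _)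
  exact ⟨fun Q => key (Nat.mul_le_mul_left _ (M.poleI_mono Q hmn)) (h.1 Q),
    fun Q => key (Nat.mul_le_mul_left _ (M.pole₀_mono Q hmn)) (h.2.1 Q), h.2.2⟩

/-- On the component at infinity no constant is needed; the order on the other component is then a
multiple of `p`, and no constant is needed there either. -/
theorem exists_roots (hp2 : p ≠ 2) {f : L} (hf : f ≠ 0) (hdiv : M.MultDiv f)
    (hI : ∀ N : ℕ, ∃ g : L, g ≠ 0 ∧ M.inf.Cong N (f / g ^ p)) (h₀ : M.zero.PowApprox f) :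
    (p : ℤ) ∣ M.zero.ord f ∧ (∀ N : ℕ, ∃ g : L, g ≠ 0 ∧ M.zero.Cong N (f / g ^ p)) ∧
      (∀ Q, ∃ G, G ^ p = (M.ptI Q).ι f) ∧ (∀ Q, ∃ G, G ^ p = (M.pt₀ Q).ι f) ∧
      ∀ v, ∃ G, G ^ p = (M.node v).ι f := by
  have hp := (Fact.out : p.Prime)
  obtain ⟨g1, hg1, hc1⟩ := hI 1
  obtain ⟨v₀⟩ := M.nonempty_nd
  obtain ⟨hne, hord⟩ := (M.node v₀).embI.ord_of_cong le_rfl hc1
  rw [div_eq_mul_inv, M.inf.ord_mul _ _ hf (inv_ne_zero (pow_ne_zero _ hg1)),
    (M.node v₀).embI.ord_inv (pow_ne_zero _ hg1), (M.node v₀).embI.ord_pow hg1] at hord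
  have hunit : ∀ v, ∃ (U : Node R p) (H : FractionRing (Node R p)), IsUnit U ∧ H ≠ 0 ∧
      (M.node v).ι f = algebraMap _ _ U * H ^ p := fun v => by
    set E := (M.node v).embI
    have hx := (map_ne_zero E.ι).2 hf
    have hy := (map_ne_zero E.ι).2 hg1
    refine S.exists_unit_pow_form hx (hdiv.2.2 v) ?_ ?_
    · exact ⟨M.inf.ord g1, by rw [(M.node v).ordI_eq f hf]; linarith⟩
    · obtain ⟨-, -, hr⟩ := S.infBranch.ord_of_close le_rfl (E.close_div_pow hc1)
      rw [div_eq_mul_inv, S.infBranch.resUnit_mul hx (inv_ne_zero (pow_ne_zero _ hy)),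
        ← zpow_natCast, ← zpow_neg, S.infBranch.resUnit_zpow hy, zpow_neg, zpow_natCast,
        ← div_eq_mul_inv, div_eq_one_iff_eq (pow_ne_zero _ (S.infBranch.resUnit_ne_zero hy))] at hr
      change (p : ℤ) ∣ (S.infBranch.resUnit (E.ι f)).order
      rw [hr, order_natPow (S.infBranch.resUnit_ne_zero hy)]
      exact dvd_mul_right _ _
  have hord₀ : (p : ℤ) ∣ M.zero.ord f := by
    obtain ⟨U, H, hU, hH, e⟩ := hunit v₀
    have h1 := (M.node v₀).emb₀.ord_eq f hf
    change S.zeroBranch.ord ((M.node v₀).ι f) = _ at h1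
    have hU' : S.zeroBranch.res U ≠ 0 := (hU.map S.zeroBranch.res).ne_zero
    rw [e, S.zeroBranch.ord_mul (Branch.algebraMap_ne_zero (S.zeroBranch.ne_zero_of_res hU'))
      (pow_ne_zero _ hH), S.zeroBranch.ord_algebraMap hU', ← zpow_natCast,
      S.zeroBranch.ord_zpow hH, zero_add] at h1
    exact ⟨_, h1.symm⟩
  obtain ⟨m, hm⟩ := hord₀
  -- approximations on the other component with constants
  have happ : ∀ N, 1 ≤ N → ∃ (u : Rˣ) (g : L), g ≠ 0 ∧
      M.zero.Cong N (f * algebraMap R L u / g ^ p) := by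
    intro N hN
    obtain ⟨u, g, hg, hc⟩ := (M.node v₀).emb₀.unit_approx hf h₀ N hN
    have hπ := (M.node v₀).emb₀.algebraMap_ϖ_ne_zero
    refine ⟨u, g * algebraMap R L S.ϖ ^ m, mul_ne_zero hg (zpow_ne_zero _ hπ), ?_⟩
    convert hc using 1
    rw [hm, mul_pow, ← zpow_natCast (algebraMap R L S.ϖ ^ m) p, ← zpow_mul, zpow_neg,
      mul_comm (p : ℤ) m]
    field_simp
  have hroot : ∀ v, ∃ G, G ^ p = (M.node v).ι f := fun v => by
    refine S.node_root hp2 ((map_ne_zero (M.node v).ι).2 hf) (hdiv.2.2 v) (fun N => ?_)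
      (fun N => ?_)
    · obtain ⟨g, hg, hc⟩ := hI N
      exact ⟨_, (map_ne_zero _).2 hg, (M.node v).embI.close_div_pow hc⟩
    · obtain ⟨u, g, hg, hc⟩ := happ (N + 1) (by omega)
      refine ⟨u, _, S.isUnit_iff_res_ne_zero.1 u.isUnit,
        (map_ne_zero (M.node v).ι).2 hg, ?_⟩
      have h1 := (M.node v).emb₀.close_div_pow (GBranch.cong_mono (Nat.le_succ N) hc)
      change S.zeroBranch.Close N ((M.node v).ι _ / _) at h1
      rw [map_mul, (M.node v).ι_algebraMap, mul_comm] at h1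
      exact h1
  have hzero : ∀ N : ℕ, ∃ g : L, g ≠ 0 ∧ M.zero.Cong N (f / g ^ p) := by
    intro N
    obtain ⟨u, g, hg, hc⟩ := happ (N + 1) (by omega)
    set E := (M.node v₀).emb₀
    obtain ⟨G, hG⟩ := hroot v₀
    have hιg := (map_ne_zero E.ι).2 hg
    have hG0 : G ≠ 0 := by
      rintro rfl
      rw [zero_pow hp.ne_zero] at hG
      exact (map_ne_zero (M.node v₀).ι).2 hf hG.symm
    obtain ⟨c, hc'⟩ := S.exists_const_of_close hp2 S.isConst_zero (N := N + 1) (by omega)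
      (S.isUnit_iff_res_ne_zero.1 u.isUnit) (z := G / E.ι g) (div_ne_zero hG0 hιg) (by
        have h1 := E.close_div_pow hc
        rw [map_mul, E.ι_algebraMap] at h1
        convert h1 using 1
        rw [div_pow, hG]
        change _ = (M.node v₀).ι f *
          algebraMap _ _ (((AdjoinRoot.of (nodePoly R p)).comp PowerSeries.C) (u : R)) / _
        ring)
    have hcL : algebraMap R L (c : R) ≠ 0 := (c.isUnit.map _).ne_zero
    refine ⟨g * algebraMap R L c, mul_ne_zero hg hcL, ?_⟩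
    have huc : IsUnit ((u : R) * (c : R) ^ p) := u.isUnit.mul (c.isUnit.pow p)
    obtain ⟨d, hd⟩ := hc'
    have hinv : S.ϖ ^ N ∣ (↑huc.unit⁻¹ : R) - 1 := by
      refine ⟨-(↑huc.unit⁻¹ : R) * S.ϖ * d, ?_⟩
      have e : (↑huc.unit⁻¹ : R) * ((u : R) * (c : R) ^ p) = 1 := huc.val_inv_mul
      rw [pow_succ] at hd
      linear_combination e - (↑huc.unit⁻¹ : R) * hd
    convert E.cong_mul (GBranch.cong_mono (Nat.le_succ N) hc) (E.cong_algebraMap hinv) using 1
    have e : algebraMap R L (↑huc.unit⁻¹ : R) *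
        (algebraMap R L (u : R) * algebraMap R L (c : R) ^ p) = 1 := by
      rw [← map_pow, ← map_mul, ← map_mul, huc.val_inv_mul, map_one]
    rw [mul_pow]
    field_simp
    linear_combination -e
  refine ⟨⟨m, hm⟩, hzero, fun Q => ?_, fun Q => ?_, hroot⟩
  · refine S.disc_root hp2 ((map_ne_zero _).2 hf) (S.discDiv_of_horizDiv (hdiv.1 Q)) fun N => ?_
    obtain ⟨g, hg, hc⟩ := hI N
    exact ⟨_, (map_ne_zero _).2 hg, (M.ptI Q).emb.close_div_pow hc⟩
  · refine S.disc_root hp2 ((map_ne_zero _).2 hf) (S.discDiv_of_horizDiv (hdiv.2.1 Q)) fun N => ?_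
    obtain ⟨g, hg, hc⟩ := hzero N
    exact ⟨_, (map_ne_zero _).2 hg, (M.pt₀ Q).emb.close_div_pow hc⟩

omit [PerfectRing k p] in
/-- The limit of the successive approximations. -/
theorem Normal.exists_eq_pow {n : ℕ} {f : L} (D : M.Normal n f) (hp2 : p ≠ 2)
    (hlift : ∀ a b : κ, (∀ Q, PolesLE (M.poleI Q n) ((M.ptI Q).e a)) →
      (∀ Q, PolesLE (M.pole₀ Q n) ((M.pt₀ Q).e b)) →
      (∀ v, ∃ α β : PowerSeries k, (M.node v).eI a = (α : LaurentSeries k) ∧
        (M.node v).e₀ b = (β : LaurentSeries k) ∧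
        PowerSeries.constantCoeff α = PowerSeries.constantCoeff β) →
      ∃ γ ∈ M.latt n, M.inf.res γ = a ∧ M.zero.res γ = b) :
    ∃ γ : L, f = γ ^ p := by
  classical
  let P : ℕ → M.latt n → Prop := fun m γ =>
    M.inf.Ge m (D.gI (p + m + 1) - γ.1) ∧ M.zero.Ge m (D.g₀ (p + m + 1) - γ.1)
  obtain ⟨v₀⟩ := M.nonempty_nd
  have hstep : ∀ m γ, P m γ → ∃ δ : M.latt n, P (m + 1) (γ + S.ϖ ^ m • δ) := by
    intro m γ hγ
    obtain ⟨δ, hδ, h1, h2⟩ := D.exists_step hp2 hlift m γ.2 hγ.1 hγ.2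
    exact ⟨⟨δ, hδ⟩, h1, h2⟩
  choose! nxt hnxt using hstep
  let seq : ℕ → M.latt n := fun m => Nat.rec 0 (fun j γ => γ + S.ϖ ^ j • nxt j γ) m
  have h0 : P 0 0 := by
    have hI := (M.node v₀).embI.ge_of_cong (D.gI_ne_zero _) D.geI (by omega) (D.congI (p + 0 + 1))
    have h₀ := (M.node v₀).emb₀.ge_of_cong (D.g₀_ne_zero _) D.ge₀ (by omega) (D.cong₀ (p + 0 + 1))
    exact ⟨by simpa using hI, by simpa using h₀⟩
  have hseq : ∀ m, P m (seq m) := fun m => by
    induction m with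
    | zero => exact h0
    | succ j ih => exact hnxt j _ ih
  have : Module.Finite R (M.latt n) := Module.Finite.iff_fg.2 (M.latt_fg n)
  have : IsAdicComplete (Ideal.span {S.ϖ}) R := S.complete
  have : IsAdicComplete (Ideal.span {S.ϖ}) (M.latt n) :=
    IsAdicComplete.of_module_finite (Ideal.span {S.ϖ}) (M.latt n)
  have hmem : ∀ (m : ℕ) (z : M.latt n),
      z ∈ (Ideal.span {S.ϖ} ^ m • ⊤ : Submodule R (M.latt n)) → ∃ x, z = S.ϖ ^ m • x := by
    intro m z hz
    rw [Ideal.span_singleton_pow, Submodule.ideal_span_singleton_smul] at hz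
    obtain ⟨x, -, rfl⟩ := (Submodule.mem_smul_pointwise_iff_exists _ _ _).1 hz
    exact ⟨x, rfl⟩
  have hdiff : ∀ a l : ℕ, seq (a + l) - seq a ∈
      (Ideal.span {S.ϖ} ^ a • ⊤ : Submodule R (M.latt n)) := fun a l => by
    induction l with
    | zero => simp
    | succ j ih =>
      have e : seq (a + (j + 1)) - seq a =
          (seq (a + j) - seq a) + S.ϖ ^ (a + j) • nxt (a + j) (seq (a + j)) := by
        rw [← add_assoc]
        change seq (a + j) + _ - seq a = _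
        abel
      rw [e]
      refine add_mem ih (Submodule.smul_mem_smul ?_ Submodule.mem_top)
      exact Ideal.pow_le_pow_right (Nat.le_add_right a j)
        (Ideal.pow_mem_pow (Ideal.mem_span_singleton_self _) _)
  obtain ⟨γ, hγ⟩ := IsPrecomplete.prec' (I := Ideal.span {S.ϖ}) seq fun {a b} hab => by
    obtain ⟨l, rfl⟩ := Nat.exists_eq_add_of_le hab
    rw [SModEq.sub_mem, ← neg_sub]
    exact neg_mem (hdiff a l)
  refine ⟨γ.1, ?_⟩
  set E := (M.node v₀).embI
  by_contra hne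
  have hx : f - γ.1 ^ p ≠ 0 := sub_ne_zero.2 hne
  obtain ⟨m, hm⟩ : ∃ m : ℕ, M.inf.ord (f - γ.1 ^ p) < m :=
    ⟨(M.inf.ord (f - γ.1 ^ p)).toNat + 1, by omega⟩
  have hgi := E.ge_of_cong (D.gI_ne_zero _) D.geI (by omega) (D.congI (p + m + 1))
  have hgγ : M.inf.Ge m (D.gI (p + m + 1) - γ.1) := by
    have h1 := hγ m
    rw [SModEq.sub_mem] at h1
    obtain ⟨x, hx'⟩ := hmem m _ h1
    have e : D.gI (p + m + 1) - γ.1 =
        (D.gI (p + m + 1) - (seq m).1) + algebraMap R L (S.ϖ ^ m) * x.1 := by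
      have := congrArg Subtype.val hx'
      rw [AddSubgroupClass.coe_sub, SetLike.val_smul, Algebra.smul_def] at this
      linear_combination this
    rw [e, map_pow]
    refine E.ge_add (hseq m).1 ?_
    simpa using M.inf.ge_mul (E.ge_ϖ_pow m) (M.latt_inf n _ x.2)
  have hfg : M.inf.Ge m (f - D.gI (p + m + 1) ^ p) := by
    have e : f - D.gI (p + m + 1) ^ p =
        D.gI (p + m + 1) ^ p * (f / D.gI (p + m + 1) ^ p - 1) := by
      have := pow_ne_zero p (D.gI_ne_zero (p + m + 1))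
      field_simp
    rw [e]
    have h1 := M.inf.ge_mono (by omega : (m : ℤ) ≤ ((p + m + 1 : ℕ) : ℤ)) (D.congI (p + m + 1))
    simpa using M.inf.ge_mul (E.ge_pow hgi p) h1
  have hpow : M.inf.Ge m (D.gI (p + m + 1) ^ p - γ.1 ^ p) := by
    rw [E.divPow_iff] at hgγ ⊢
    obtain ⟨d, hd⟩ := hgγ
    have hγi : S.infBranch.IsInt (E.ι γ.1) := E.isInt_iff.2 (M.latt_inf n _ γ.2)
    obtain ⟨c, hc⟩ := sub_dvd_pow_sub_pow
      (⟨E.ι (D.gI (p + m + 1)), E.isInt_iff.2 hgi⟩ : S.infBranch.intRing (FractionRing (Node R p)))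
      ⟨E.ι γ.1, hγi⟩ p
    refine ⟨d * c, ?_⟩
    have hc' := congrArg Subtype.val hc
    simp only [AddSubgroupClass.coe_sub, SubmonoidClass.coe_pow, Subring.coe_mul] at hc'
    rw [map_sub, map_pow, map_pow, hc', Subring.coe_mul, ← mul_assoc, ← hd, map_sub]
  have htot := (E.ge_add hfg hpow).resolve_left (by rwa [sub_add_sub_cancel])
  rw [sub_add_sub_cancel] at htot
  omega

/-- **Third step.** -/
theorem exists_eq_const_mul_pow (hp2 : p ≠ 2) {n : ℕ} {f : L} (hf : f ≠ 0)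
    (hI : M.inf.PowApprox f) (h₀ : M.zero.PowApprox f) (hdiv : M.MultDiv f)
    (hreg : M.RegularUpTo n f) :
    ∃ (r s : R) (γ : L), r ≠ 0 ∧ s ≠ 0 ∧ γ ≠ 0 ∧
      f * algebraMap R L s = algebraMap R L r * γ ^ p := by
  have hp := (Fact.out : p.Prime)
  obtain ⟨v₀⟩ := M.nonempty_nd
  set E := (M.node v₀).embI
  have hπ := E.algebraMap_ϖ_ne_zero
  obtain ⟨t, ht⟩ := E.exists_normalised hp2 S.isConst_inf hf hI
  obtain ⟨n₀, hn₀⟩ := M.exists_lift
  -- clearing the order on the component at infinity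
  obtain ⟨a, b, hab⟩ : ∃ a b : ℕ, -M.inf.ord f = (a : ℤ) - b :=
    ⟨(-M.inf.ord f).toNat, (M.inf.ord f).toNat, by omega⟩
  set f' := f * algebraMap R L (S.ϖ ^ a * (t : R)) / algebraMap R L (S.ϖ ^ b) with hf'
  have hA : S.ϖ ^ a * (t : R) ≠ 0 :=
    mul_ne_zero (pow_ne_zero _ S.irreducible_ϖ.ne_zero) t.ne_zero
  have hB : S.ϖ ^ b ≠ 0 := pow_ne_zero _ S.irreducible_ϖ.ne_zero
  have hAL := E.algebraMap_ne_zero hA
  have hBL := E.algebraMap_ne_zero hB
  have hf'0 : f' ≠ 0 := div_ne_zero (mul_ne_zero hf hAL) hBL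
  have hI' : ∀ N : ℕ, ∃ g : L, g ≠ 0 ∧ M.inf.Cong N (f' / g ^ p) := fun N => by
    obtain ⟨g, hg, hc⟩ := ht N
    refine ⟨g, hg, ?_⟩
    convert hc using 2
    rw [hf', hab, zpow_sub₀ hπ, zpow_natCast, zpow_natCast, map_mul, map_pow, map_pow]
    ring
  obtain ⟨⟨m, hm⟩, hg₀, rI, r₀, rN⟩ := exists_roots hp2 hf'0 (hdiv.mul_const hA hB) hI'
    (h₀.mul_div hA hB hAL hBL)
  choose gI hgI hcI using hI'
  choose g₀ hg₀' hc₀ using hg₀
  -- making both orders nonnegative
  obtain ⟨e, he⟩ : ∃ e : ℕ, 0 ≤ (e : ℤ) + m := ⟨(-m).toNat, by omega⟩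
  have hep : S.ϖ ^ (p * e) ≠ 0 := pow_ne_zero _ S.irreducible_ϖ.ne_zero
  set f3 := f' * algebraMap R L (S.ϖ ^ (p * e)) / algebraMap R L 1 with hf3
  have hf3' : f3 = f' * (algebraMap R L S.ϖ ^ e) ^ p := by
    rw [hf3, map_one, div_one, map_pow, mul_comm p e, pow_mul]
  have hpe : (algebraMap R L S.ϖ ^ e) ^ p ≠ 0 := pow_ne_zero _ (pow_ne_zero _ hπ)
  have hcg : ∀ g : L, f3 / (g * algebraMap R L S.ϖ ^ e) ^ p = f' / g ^ p := fun g => by
    rw [hf3', mul_pow, mul_div_mul_right _ _ hpe]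
  have hordI : M.inf.ord f' = 0 ∨ (p : ℤ) ∣ M.inf.ord f' ∧ 0 ≤ M.inf.ord f' := by
    left
    rw [hf', div_eq_mul_inv, M.inf.ord_mul _ _ (mul_ne_zero hf hAL) (inv_ne_zero hBL),
      M.inf.ord_mul _ _ hf hAL, E.ord_inv hBL, map_mul,
      M.inf.ord_mul _ _ (by rw [map_pow]; exact pow_ne_zero _ hπ) (t.isUnit.map _).ne_zero,
      M.inf.ord_const _ (S.isUnit_iff_res_ne_zero.1 t.isUnit), map_pow, map_pow, E.ord_pow hπ,
      E.ord_pow hπ, M.inf.ord_ϖ]
    omega
  let D : M.Normal (max n n₀) f3 :=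
    { f_ne_zero := by rw [hf3']; exact mul_ne_zero hf'0 hpe
      geI := Or.inr (by
        rw [hf3', M.inf.ord_mul _ _ hf'0 hpe, E.ord_pow (pow_ne_zero _ hπ), E.ord_pow hπ,
          M.inf.ord_ϖ]
        have : 0 ≤ M.inf.ord f' := by rcases hordI with h | h <;> omega
        positivity)
      ge₀ := Or.inr (by
        rw [hf3', M.zero.ord_mul _ _ hf'0 hpe, (M.node v₀).emb₀.ord_pow (pow_ne_zero _ hπ),
          (M.node v₀).emb₀.ord_pow hπ, M.zero.ord_ϖ, hm]
        have h : 0 ≤ (p : ℤ) * ((e : ℤ) + m) := mul_nonneg (by positivity) he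
        linarith)
      gI := fun N => gI N * algebraMap R L S.ϖ ^ e
      g₀ := fun N => g₀ N * algebraMap R L S.ϖ ^ e
      gI_ne_zero := fun N => mul_ne_zero (hgI N) (pow_ne_zero _ hπ)
      g₀_ne_zero := fun N => mul_ne_zero (hg₀' N) (pow_ne_zero _ hπ)
      congI := fun N => by rw [hcg]; exact hcI N
      cong₀ := fun N => by rw [hcg]; exact hc₀ N
      rootI := fun Q => by
        obtain ⟨G, hG⟩ := rI Q
        exact ⟨G * (M.ptI Q).ι (algebraMap R L S.ϖ ^ e),
          by rw [hf3', map_mul, map_pow _ _ p, mul_pow, hG]⟩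
      root₀ := fun Q => by
        obtain ⟨G, hG⟩ := r₀ Q
        exact ⟨G * (M.pt₀ Q).ι (algebraMap R L S.ϖ ^ e),
          by rw [hf3', map_mul, map_pow _ _ p, mul_pow, hG]⟩
      rootN := fun v => by
        obtain ⟨G, hG⟩ := rN v
        exact ⟨G * (M.node v).ι (algebraMap R L S.ϖ ^ e),
          by rw [hf3', map_mul, map_pow _ _ p, mul_pow, hG]⟩
      regular := ((hreg.mul_const hA hB).mul_const hep one_ne_zero).mono (le_max_left _ _) }
  obtain ⟨γ, hγ⟩ := D.exists_eq_pow hp2 (hn₀ _ (le_max_right _ _))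
  refine ⟨S.ϖ ^ b, S.ϖ ^ a * (t : R) * S.ϖ ^ (p * e), γ, hB, mul_ne_zero hA hep, fun h => ?_, ?_⟩
  · exact D.f_ne_zero (by rw [hγ, h, zero_pow hp.ne_zero])
  · rw [← hγ, hf3, hf', map_one, div_one, map_mul _ (S.ϖ ^ a * (t : R))]
    field_simp

end Model

end Fermat.Agent.LevelLowerP
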