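import Fermat.Agent.LevelLowerP.MainInputs
import Fermat.Agent.LevelLowerP.ModelInputs
import Fermat.Agent.LevelLowerP.PowApprox
import Fermat.Agent.LevelLowerP.StepOne
import Fermat.Agent.LevelLowerP.StepThreeMain
import Fermat.Agent.LevelLowerP.KappaPow
import Fermat.Agent.LevelLowerP.AuxPrime
import Fermat.Agent.LevelLowerP.Endgame
import Fermat.Agent.LevelLowerP.ArithGood
import Fermat.Agent.LevelLowerP.DescendThree

/-!
# The main argument of level lowering at `p`

A torsion point over the base forces modularity of the lower level.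

Main result: `residuallyModular_of_pointData`.
-/

set_option autoImplicit false

noncomputable section

namespace Fermat.Agent.LevelLowerP

open ModularCurve AlgebraicCurve Fermat.Agent.Igusa Fermat.Agent.Semistable Fermat.Agent.Carayol
open IntermediateField
open scoped LaurentSeries WeierstrassCurve.Affine

local notation "Qbar" => AlgebraicClosure ℚ

/-- **A fixed torsion point lowers the level at `p`.** -/
theorem residuallyModular_of_pointData {W : WeierstrassCurve ℤ} (hΔ : W.Δ ≠ 0) {p : ℕ}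
    [Fact p.Prime] (hp2 : p ≠ 2) (hirr : W.ModRepIsIrreducible p)
    {M : ℕ} [NeZero M] (hpM : ¬ p ∣ M) {A : ValuationSubring Qbar} (hA : A.LiesOverPrime p)
    {T₁ : Qbar} (B : BaseData p A T₁)
    [CharP (IsLocalRing.ResidueField (InertiaField.ring A)) p]
    [IsAlgClosed (IsLocalRing.ResidueField (InertiaField.ring A))]
    [Algebra (ZMod p) (IsLocalRing.ResidueField (InertiaField.ring A))]
    [Algebra.IsAlgebraic (ZMod p) (IsLocalRing.ResidueField (InertiaField.ring A))]
    [IsDomain (Node B.R p)]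
    (hgeo : ∀ (M' : ℕ) [NeZero M'] (hpM' : ¬ p ∣ M'), nuTwo M' = 0 → nuThree M' = 0 →
      Nonempty (GeoModel M' B.S hpM'))
    (D : PointData W p M (stabInertia A T₁)) : W.IsResiduallyModularOfLevel p M := by
  classical
  have hp : p.Prime := Fact.out
  have : NeZero p := ⟨hp.ne_zero⟩
  obtain ⟨q, hq, hqN, hpq, hcase, h2, h3⟩ := exists_aux_prime hp hp2 M
  have : NeZero q := ⟨hq.ne_zero⟩
  have hpM' : ¬ p ∣ M * q := fun h => ((hp.dvd_mul).1 h).elim hpM fun h =>
    hpq ((Nat.prime_dvd_prime_iff_eq hp hq).1 h)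
  obtain ⟨G⟩ := hgeo (M * q) hpM' h2 h3
  set K := FractionRing B.R
  -- shortcut for instance search
  let _ (N : ℕ) [NeZero N] : Algebra (IsLocalRing.ResidueField (InertiaField.ring A))
      (modularFunctionFieldFullC (IsLocalRing.ResidueField (InertiaField.ring A)) N) :=
    inferInstance
  set k := IsLocalRing.ResidueField (InertiaField.ring A)
  have hMq : M ∣ M * q := dvd_mul_right M q
  have hdvd : M * p ∣ M * q * p := Nat.mul_dvd_mul_right hMq _
  have : CharP (modularFunctionFieldFullC k M) p :=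
    charP_of_injective_algebraMap (algebraMap k _).injective p
  have : CharP (modularFunctionFieldFullC k (M * q)) p :=
    charP_of_injective_algebraMap (algebraMap k _).injective p
  -- the Kummer function over the base
  obtain ⟨f₁, hf₁⟩ := exists_upBar_eq D.f_fixed
  set f₀ := baseHom B.φ (M * p) f₁ with hf₀def
  have hf₀ : f₀ ≠ 0 := baseHom_f₁_ne_zero D hf₁ B
  set f := levelIncl hdvd f₀ with hfdef
  have hf : f ≠ 0 := (_root_.map_ne_zero _).2 hf₀
  have hfs : (f : LaurentSeries K) = (f₀ : LaurentSeries K) := coe_levelIncl hdvd f₀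
  obtain ⟨hdivAll, m, hbdd⟩ := exists_divAll_bdd D hf₁ B
  have hdiv : G.toModel.MultDiv f := multDiv_of_divAll B.S G (hdivAll.levelIncl hdvd)
  obtain ⟨n₁, hn₁⟩ := G.regular_of_bdd m
  have hreg : G.toModel.RegularUpTo n₁ f := hn₁ n₁ le_rfl f (hbdd.levelIncl hdvd)
  -- the constants of the logarithmic derivative agree
  obtain ⟨cI, c₀, hcI, hc₀, -, -, -⟩ := G.toModel.exists_const_psi hf hdiv
  rw [G.inf_eq] at hcI
  rw [G.zero_eq] at hc₀
  obtain ⟨ℓ₀, hℓ₀, hgood₀, hℓ₀N, hne₀⟩ := exists_good_ne_succ hΔ hp hp2 hirr M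
  have hwf : ∀ y : modularFunctionFieldFullC K (M * p),
      (wAL K (M * q) p hpM' (levelIncl hdvd y) : LaurentSeries K) =
        (wAL K M p hpM y : LaurentSeries K) := fun y => by
    rw [← levelIncl_wAL hpM hMq hpM', coe_levelIncl]
  have hpsi : G.toModel.inf.psi f = G.toModel.zero.psi f := by
    have : NeZero ℓ₀ := ⟨hℓ₀.ne_zero⟩
    obtain ⟨c, h, h', hc, hh, hh', e, e'⟩ := exists_T_rel D hf₁ B hpM ℓ₀ hℓ₀ hgood₀ hℓ₀N
    rw [G.inf_eq, G.zero_eq]
    refine psi_eq_of_hecke B.S (M * q) hpM' ℓ₀ (a := W.apOfModel ℓ₀) (h := levelIncl hdvd h)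
      (h' := levelIncl hdvd h') hf
      ((_root_.map_ne_zero _).2 hh) ((_root_.map_ne_zero _).2 hh') hc ?_ ?_ (fun h0 => hne₀ ?_)
      hcI hc₀
    · rw [hfs, coe_levelIncl]; exact e
    · rw [hfdef, hwf, coe_levelIncl]; exact e'
    · rw [← CharP.intCast_eq_zero_iff k p]
      push_cast at h0 ⊢
      linear_combination -h0
  -- the reduction at level `M` and at level `M q`
  set u := (infGB B.S M hpM).resUnit f₀ with hudef
  have hu0 : u ≠ 0 := (infGB B.S M hpM).resUnit_ne_zero hf₀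
  set u' := (infGB B.S (M * q) hpM').resUnit f with hu'def
  obtain ⟨huu', hψψ'⟩ := inf_levelIncl B.S hMq hpM hpM' hf₀
  have huu : levelIncl hMq u = u' := Subtype.ext ((coe_levelIncl hMq u).trans huu'.symm)
  have hψ : (infGB B.S M hpM).psi f₀ = algebraMap k _ cI := by
    refine (eInf k M).injective (hψψ'.symm.trans ?_)
    rw [← hfdef, hcI, eInf_algebraMap, eInf_algebraMap]
  obtain ⟨hoI, hoN, -, -⟩ := G.toModel.orders_of_psi_eq hf hdiv hpsi
  have hinf : G.toModel.inf.resUnit f = u' := by rw [G.inf_eq]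
  rw [hinf] at hoI hoN
  have hNk : ∀ N : ℕ, ¬ p ∣ N → (N : k) ≠ 0 := fun N hN h =>
    hN ((CharP.cast_eq_zero_iff k p N).1 h)
  have := FF.isFunctionField_fullC k M (hNk _ hpM)
  have := FF.isFunctionField_fullC k (M * q) (hNk _ hpM')
  have hup : ∀ w : Place k (modularFunctionFieldFullC k (M * q)),
      (p : ℤ) ∣ w.ord (levelIncl hMq u) := fun w => by
    rw [huu]
    obtain ⟨n, -, hpn, hQ⟩ := G.coverage w
    have hu'0 : u' ≠ 0 := (infGB B.S (M * q) hpM').resUnit_ne_zero hf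
    have h1 : (p : ℤ) ∣ (n : ℤ) * w.ord u' := by
      rcases hQ with ⟨Q, hQ⟩ | ⟨N, hN⟩
      · rw [← hQ u' hu'0]; exact hoI Q
      · rw [← hN u' hu'0]; exact hoN N
    exact (Int.Prime.dvd_mul' hp h1).resolve_left fun e => hpn (by exact_mod_cast e)
  have hord : ∀ v : Place k (modularFunctionFieldFullC k M), (p : ℤ) ∣ v.ord u := fun v => by
    rcases hcase with hp3 | hpq1
    · have : NeZero ℓ₀ := ⟨hℓ₀.ne_zero⟩
      obtain ⟨c, h, h', hc, hh, -, e, -⟩ := exists_T_rel D hf₁ B hpM ℓ₀ hℓ₀ hgood₀ hℓ₀N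
      obtain ⟨e₀, hr, he₀, hhr, hrel⟩ := exists_red_hecke B.S M hpM ℓ₀ hf₀ hh hc e hψ
      exact dvd_ord_descend_three B.U hp3 hpM hq hqN hMq hu0 hup hℓ₀ hℓ₀N hne₀ he₀ hhr hrel v
    · exact dvd_ord_descend (levelAlg k hMq) hp
        (not_dvd_finrankAlong k (hNk _ hpM') hq (fun h => hqN (h.mul_right _)) rfl hpq1 hMq) hup v
  -- its logarithmic derivative
  set Gs : LaurentSeries k := theta k (u : LaurentSeries k) * (u : LaurentSeries k)⁻¹ with hGsdef
  have hus : (u : LaurentSeries k) ≠ 0 := fun h => hu0 (Subtype.ext h)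
  have hGs : theta k (u : LaurentSeries k) = Gs * (u : LaurentSeries k) := by
    rw [hGsdef, inv_mul_cancel_right₀ hus]
  by_cases hG0 : Gs = 0
  swap
  · obtain ⟨π, hπ, -⟩ := exists_residue_hom hp hA
    refine residuallyModular_of_dlog M hpM hA π hπ u hu0 hord Gs hGs hG0 fun ℓ hℓ hgood hℓN n => ?_
    have : NeZero ℓ := ⟨hℓ.ne_zero⟩
    obtain ⟨c, h, h', hc, hh, -, e, -⟩ := exists_T_rel D hf₁ B hpM ℓ hℓ hgood hℓN
    exact dlog_coeff_of_hecke B.S M hpM ℓ hf₀ hh hc
      (hNk _ fun h => hℓN ((Nat.prime_dvd_prime_iff_eq hp hℓ).1 h ▸ dvd_mul_left _ _)) e hψ hGs n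
  -- otherwise the reduction is a `p`th power and so is the function
  exfalso
  have hθ : theta k (u' : LaurentSeries k) = 0 := by
    rw [← huu, coe_levelIncl, hGs, hG0, zero_mul]
  obtain ⟨v, hv⟩ := exists_pow_of_theta_eq_zero hpM' hθ
  have hv0 : v ≠ 0 := fun h => (infGB B.S (M * q) hpM').resUnit_ne_zero hf (by
    rw [← hu'def, hv, h, zero_pow hp.ne_zero])
  obtain ⟨x, hxr, hxres⟩ := G.exists_rootLift v
  have hx0 : x ≠ 0 := fun h => hv0 (by rw [← hxres, h, GBranch.res_zero])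
  have hxord : (infGB B.S (M * q) hpM').ord x = 0 := by
    by_contra h
    exact hv0 (by rw [← hxres, GBranch.res_of_ord_ne_zero _ h])
  rw [GBranch.res_of_ord_eq_zero _ hx0 hxord] at hxres
  obtain ⟨cU, hU₁, hcU, hhU, eU⟩ := exists_U_rel D hf₁ B
  have hI : (infGB B.S (M * q) hpM').PowApprox f := by
    refine powApprox_inf B.S (M * q) hpM' hf (ratField B (M * q * p))
      (fun g hg => exists_norm_mem B _ (dvd_mul_left _ _) hg)
      (mem_ratField_of_rootField B _ hA (dvd_mul_right _ _) hxr) hx0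
      (by rw [hxres]; exact hv) (h := levelIncl hdvd (baseHom B.φ (M * p) hU₁))
      ((_root_.map_ne_zero _).2 ((_root_.map_ne_zero _).2 hhU))
      ⟨levelIncl hdvd hU₁, ?_⟩ D.ε_eq hcU ?_
    · exact Subtype.ext (by rw [coe_baseHom, coe_levelIncl, coe_levelIncl, coe_baseHom])
    · rw [hfs, coe_levelIncl]; exact eU
  obtain ⟨cw, hw₁, hcw, hhw, ew⟩ := exists_w_rel D hf₁ B hpM
  have h₀ : (zeroGB B.S (M * q) hpM').PowApprox f := by
    refine powApprox_zero B.S (M * q) hpM' hf (hw := levelIncl hdvd hw₁)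
      ((_root_.map_ne_zero _).2 hhw) D.ε_eq hcw ?_ hI
    rw [hfdef, ← levelIncl_wAL hpM hMq hpM', ew, map_mul, map_mul, map_pow, map_zpow₀,
      levelIncl_algebraMap]
  obtain ⟨r, s, γ, hr, hs, -, e⟩ := G.toModel.exists_eq_const_mul_pow hp2 hf
    (G.inf_eq ▸ hI) (G.zero_eq ▸ h₀) hdiv hreg
  refine not_root D hf₁ B hq hqN (r := algebraMap B.R K r) (s := algebraMap B.R K s)
    ((map_ne_zero_iff _ (IsFractionRing.injective B.R K)).2 hr)
    ((map_ne_zero_iff _ (IsFractionRing.injective B.R K)).2 hs) (γ := γ) ?_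
  rw [algebraMap_eq_cF, algebraMap_eq_cF] at e
  exact (mul_comm _ _).trans e

end Fermat.Agent.LevelLowerP
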