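import Fermat.Agent.LevelLowerP.Transfer
import Fermat.Agent.LevelLowerP.EndgameSeries
import Fermat.Agent.LevelLowerP.SeriesStep

/-!
# Descent of `p`th roots

A `p`th root up to constants of a function with coefficients in a subfield has, after normalising,
coefficients in that subfield.

Main result: `exists_root_baseHom`.
-/

set_option autoImplicit false

noncomputable section

namespace Fermat.Agent.LevelLowerP

open ModularCurve Fermat.Agent.Igusa

section Series

variable {F : Type*} [Field F]

/-- A `p`th root of unity among series is a constant. -/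
theorem eq_one_of_pow_eq_one {p : ℕ} (hp : (p : F) ≠ 0) {z : LaurentSeries F} (hz : z ^ p = 1)
    (h0 : z.coeff 0 = 1) : z = 1 := by
  have hp0 : p ≠ 0 := fun e => hp (by rw [e, Nat.cast_zero])
  have ho : z.order = 0 := by
    have h := congrArg HahnSeries.order hz
    rw [HahnSeries.order_pow, HahnSeries.order_one, nsmul_eq_mul] at h
    rcases mul_eq_zero.1 h with h | h
    · exact absurd (Nat.cast_eq_zero.1 h) hp0
    · exact h
  obtain ⟨s, hs⟩ := exists_eq_ofPowerSeries (g := z) fun n hn =>
    HahnSeries.coeff_eq_zero_of_lt_order (ho.symm ▸ hn)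
  have hs0 : PowerSeries.constantCoeff s = 1 := by
    rw [← h0, hs, ← Nat.cast_zero, HahnSeries.ofPowerSeries_apply_coeff,
      PowerSeries.coeff_zero_eq_constantCoeff]
  have hsp : s ^ p = 1 := HahnSeries.ofPowerSeries_injective (Γ := ℤ) (by
    rw [map_pow, ← hs, hz, map_one])
  have h := geom_sum_mul s p
  rw [hsp, sub_self, mul_eq_zero] at h
  refine h.elim (fun h1 => ?_) fun h1 => by rw [hs, sub_eq_zero.1 h1, map_one]
  have h2 := congrArg PowerSeries.constantCoeff h1
  rw [map_sum, map_zero] at h2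
  simp [hs0] at h2
  exact (hp h2).elim

/-- Normalised roots. -/
theorem exists_series_root {p : ℕ} (hp : (p : F) ≠ 0) {X : LaurentSeries F} (hX : X ≠ 0) {n₀ : ℤ}
    (hn : X.order = p * n₀) :
    ∃ W : LaurentSeries F,
      W.order = n₀ ∧ W.coeff n₀ = 1 ∧ X = HahnSeries.C X.leadingCoeff * W ^ p := by
  set a := X.leadingCoeff with ha
  have ha0 : a ≠ 0 := HahnSeries.leadingCoeff_ne_zero.2 hX
  obtain ⟨s, hs⟩ := exists_eq_ofPowerSeries (g := HahnSeries.single (-X.order) a⁻¹ * X)
    fun n hlt => by
      rw [show n = (n + X.order) + -X.order by ring, HahnSeries.coeff_single_mul_add,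
        HahnSeries.coeff_eq_zero_of_lt_order (by omega), mul_zero]
  have hs0 : PowerSeries.constantCoeff s = 1 := by
    have h := congrArg (fun t : LaurentSeries F => t.coeff 0) hs
    rw [show (0 : ℤ) = X.order + -X.order by ring, HahnSeries.coeff_single_mul_add,
      HahnSeries.leadingCoeff_eq.symm, ← ha, inv_mul_cancel₀ ha0, add_neg_cancel, ← Nat.cast_zero,
      HahnSeries.ofPowerSeries_apply_coeff, PowerSeries.coeff_zero_eq_constantCoeff] at h
    exact h.symm
  obtain ⟨w, hw0, hw⟩ := exists_powerSeries_root hs0 hp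
  have hwc : (HahnSeries.ofPowerSeries ℤ F w).coeff 0 = 1 := by
    rw [← Nat.cast_zero, HahnSeries.ofPowerSeries_apply_coeff,
      PowerSeries.coeff_zero_eq_constantCoeff, hw0]
  have hW0 : (HahnSeries.single n₀ (1 : F) * HahnSeries.ofPowerSeries ℤ F w).coeff n₀ = 1 := by
    have h := HahnSeries.coeff_single_mul_add (r := (1 : F)) (x := HahnSeries.ofPowerSeries ℤ F w)
      (a := 0) (b := n₀)
    rw [zero_add] at h
    rw [h, hwc, one_mul]
  refine ⟨HahnSeries.single n₀ 1 * HahnSeries.ofPowerSeries ℤ F w, ?_, hW0, ?_⟩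
  · refine le_antisymm (HahnSeries.order_le_of_coeff_ne_zero (by rw [hW0]; exact one_ne_zero)) ?_
    by_contra hlt
    push Not at hlt
    have hne : HahnSeries.single n₀ (1 : F) * HahnSeries.ofPowerSeries ℤ F w ≠ 0 := fun e => by
      simp [e] at hW0
    refine HahnSeries.coeff_order_eq_zero.not.2 hne ?_
    set o := (HahnSeries.single n₀ (1 : F) * HahnSeries.ofPowerSeries ℤ F w).order
    rw [show o = (o - n₀) + n₀ by ring, HahnSeries.coeff_single_mul_add,
      ofPowerSeries_coeff_of_neg _ (by omega), mul_zero]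
  · rw [mul_pow, HahnSeries.single_pow, one_pow, ← map_pow, hw, ← hs, nsmul_eq_mul, ← hn,
      HahnSeries.C_apply, ← mul_assoc, ← mul_assoc, HahnSeries.single_mul_single,
      HahnSeries.single_mul_single, zero_add, add_neg_cancel, mul_one, mul_inv_cancel₀ ha0]
    exact (one_mul X).symm

end Series

/-- **Descent of the root.** -/
theorem exists_root_baseHom {F E : Type*} [Field F] [Field E] [Algebra F E] [Algebra ℚ F]
    [Algebra ℚ E] [IsScalarTower ℚ F E] [CharZero F] [CharZero E] {N : ℕ} [NeZero N] {p : ℕ}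
    (hp : p ≠ 0) {x : modularFunctionFieldFullC F N} (hx : x ≠ 0)
    {γ : modularFunctionFieldFullC E N} {s r : E} (hs : s ≠ 0) (hr : r ≠ 0)
    (e : algebraMap E _ s * baseHom (algebraMap F E) N x = algebraMap E _ r * γ ^ p) :
    ∃ (a : F) (w : modularFunctionFieldFullC F N), x = algebraMap F _ a * w ^ p := by
  have hX : (x : LaurentSeries F) ≠ 0 := fun h => hx (Subtype.ext h)
  have hpF : (p : F) ≠ 0 := Nat.cast_ne_zero.2 hp
  have hpE : (p : E) ≠ 0 := Nat.cast_ne_zero.2 hp
  have e' : HahnSeries.C s * coeffMap (algebraMap F E) (x : LaurentSeries F) =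
      HahnSeries.C r * (γ : LaurentSeries E) ^ p := by
    have h := congrArg Subtype.val e
    rwa [MulMemClass.coe_mul, MulMemClass.coe_mul, SubmonoidClass.coe_pow, coe_baseHom,
      coe_algebraMap', coe_algebraMap', algebraMap_laurentSeries_eq_single,
      algebraMap_laurentSeries_eq_single, ← HahnSeries.C_apply, ← HahnSeries.C_apply] at h
  have hcm : coeffMap (algebraMap F E) (x : LaurentSeries F) ≠ 0 := fun h =>
    hX (coeffMap_inj _ (h.trans (map_zero _).symm))
  have hg : (γ : LaurentSeries E) ≠ 0 := fun h => by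
    rw [h, zero_pow hp, mul_zero, mul_eq_zero] at e'
    exact e'.elim (fun h' => hs (HahnSeries.C_injective (h'.trans (map_zero _).symm))) hcm
  have hord : (x : LaurentSeries F).order = p * (γ : LaurentSeries E).order := by
    have h := congrArg HahnSeries.order e'
    have hC : ∀ c : E, c ≠ 0 → (HahnSeries.C c : LaurentSeries E) ≠ 0 ∧
        (HahnSeries.C c : LaurentSeries E).order = 0 := fun c hc =>
      ⟨fun h => hc (HahnSeries.C_injective (h.trans (map_zero _).symm)), by
        rw [HahnSeries.C_apply, HahnSeries.order_single hc]⟩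
    rw [HahnSeries.order_mul (hC s hs).1 hcm, HahnSeries.order_mul (hC r hr).1 (pow_ne_zero _ hg),
      (hC s hs).2, (hC r hr).2, zero_add, zero_add, HahnSeries.order_pow, nsmul_eq_mul] at h
    rw [← h]
    refine le_antisymm ?_ (HahnSeries.order_le_of_coeff_ne_zero ?_)
    · refine HahnSeries.order_le_of_coeff_ne_zero fun h0 => ?_
      exact HahnSeries.coeff_order_eq_zero.not.2 hcm (by rw [coeffMap_coeff, h0, map_zero])
    · rw [coeffMap_coeff]
      exact (_root_.map_ne_zero _).2 (HahnSeries.coeff_order_eq_zero.not.2 hX)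
  set n₀ := (γ : LaurentSeries E).order
  obtain ⟨W, hWo, hW1, hW⟩ := exists_series_root hpF hX hord
  set W' := coeffMap (algebraMap F E) W with hW'
  have hW'1 : W'.coeff n₀ = 1 := by rw [coeffMap_coeff, hW1, map_one]
  have hW'0 : W' ≠ 0 := fun h => by simp [h] at hW'1
  have hW'o : W'.order = n₀ := le_antisymm
    (HahnSeries.order_le_of_coeff_ne_zero (by rw [hW'1]; exact one_ne_zero))
    (by
      by_contra hlt
      push Not at hlt
      refine HahnSeries.coeff_order_eq_zero.not.2 hW'0 ?_
      rw [coeffMap_coeff, HahnSeries.coeff_eq_zero_of_lt_order (by omega), map_zero])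
  set z := (γ : LaurentSeries E) / W' with hz
  have hzne : z ≠ 0 := div_ne_zero hg hW'0
  have hzo : z.order = 0 := by
    have h := HahnSeries.order_mul hzne hW'0
    rw [hz, div_mul_cancel₀ _ hW'0, hW'o] at h
    rw [← hz] at h
    omega
  set z0 := z.coeff 0
  have hz0 : z0 ≠ 0 := by
    show z.coeff 0 ≠ 0
    rw [← hzo]
    exact HahnSeries.coeff_order_eq_zero.not.2 hzne
  set d := s * algebraMap F E (x : LaurentSeries F).leadingCoeff / r with hd
  have hzp : z ^ p = HahnSeries.C d := by
    rw [hz, div_pow, div_eq_iff (pow_ne_zero _ hW'0), hd, map_div₀, map_mul, div_mul_eq_mul_div,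
      eq_div_iff ((map_ne_zero_iff _ HahnSeries.C_injective).2 hr), hW', ← map_pow, mul_assoc,
      mul_comm _ (HahnSeries.C r : LaurentSeries E), ← e', ← coeffMap_C', ← map_mul, ← hW]
  have hz1 : z * HahnSeries.C z0⁻¹ = 1 := by
    have hc : (z * HahnSeries.C z0⁻¹).coeff 0 = 1 := by
      rw [mul_comm, HahnSeries.C_apply, HahnSeries.coeff_single_zero_mul, inv_mul_cancel₀ hz0]
    have hpow : (z * HahnSeries.C z0⁻¹) ^ p = HahnSeries.C (d * z0⁻¹ ^ p) := by
      rw [mul_pow, hzp, ← map_pow, ← map_mul]
    refine eq_one_of_pow_eq_one hpE ?_ hc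
    have ho : (z * HahnSeries.C z0⁻¹).order = 0 := by
      rw [HahnSeries.order_mul hzne ((map_ne_zero_iff _ HahnSeries.C_injective).2
          (inv_ne_zero hz0)), hzo, HahnSeries.C_apply,
        HahnSeries.order_single (inv_ne_zero hz0), add_zero]
    obtain ⟨t, ht⟩ := exists_eq_ofPowerSeries (g := z * HahnSeries.C z0⁻¹) fun n hn =>
      HahnSeries.coeff_eq_zero_of_lt_order (ho.symm ▸ hn)
    have ht0 : PowerSeries.constantCoeff t = 1 := by
      rw [← hc, ht, ← Nat.cast_zero, HahnSeries.ofPowerSeries_apply_coeff,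
        PowerSeries.coeff_zero_eq_constantCoeff]
    have h1 : (d * z0⁻¹ ^ p) = 1 := by
      rw [ht, ← map_pow, ← HahnSeries.ofPowerSeries_C] at hpow
      have h2 := congrArg PowerSeries.constantCoeff (HahnSeries.ofPowerSeries_injective hpow)
      rwa [map_pow, ht0, one_pow, PowerSeries.constantCoeff_C, eq_comm] at h2
    rw [hpow, h1, map_one]
  have hgW : W' = (γ : LaurentSeries E) * HahnSeries.C z0⁻¹ := by
    rw [hz, div_mul_eq_mul_div, div_eq_iff hW'0, one_mul] at hz1
    exact hz1.symm
  have hWmem : W ∈ modularFunctionFieldFullC F N := mem_fullC_of_coeffMap_mem (E := E) (by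
    rw [← hW', hgW, HahnSeries.C_apply, ← algebraMap_laurentSeries_eq_single]
    exact mul_mem γ.2 (IntermediateField.algebraMap_mem _ _))
  refine ⟨(x : LaurentSeries F).leadingCoeff, ⟨W, hWmem⟩, Subtype.ext ?_⟩
  rw [MulMemClass.coe_mul, SubmonoidClass.coe_pow, coe_algebraMap',
    algebraMap_laurentSeries_eq_single, ← HahnSeries.C_apply]
  exact hW

end Fermat.Agent.LevelLowerP
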