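import Fermat.Agent.LevelLowerP.Rational
import Fermat.Agent.LevelLowerP.RootDescend
import Fermat.Agent.LevelLowerP.Analysis

/-!
# The Kummer function over the base

Divisibility, bound and relations of the Kummer function over the base, and what a `p`th root
there would contradict.

Main results: `exists_divAll_bdd`, `exists_U_rel`, `exists_w_rel`, `exists_T_rel`, `not_root`.
-/

set_option autoImplicit false

noncomputable section

namespace Fermat.Agent.LevelLowerP

open ModularCurve AlgebraicCurve Fermat.Agent.Igusa Fermat.Agent.Semistable Fermat.Agent.Carayol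
open IntermediateField
open scoped LaurentSeries

local notation "Qbar" => AlgebraicClosure ℚ

variable {p : ℕ} [Fact p.Prime] {A : ValuationSubring (AlgebraicClosure ℚ)}
  {T₁ : AlgebraicClosure ℚ} {W : WeierstrassCurve ℤ} {M : ℕ} [NeZero M]
  (D : PointData W p M (stabInertia A T₁))
  {f₁ : modularFunctionFieldFullC (fixedField (stabInertia A T₁)) (M * p)}
  (hf₁ : upBar (stabInertia A T₁) (M * p) f₁ = D.f)
  (B : BaseData p A T₁)

include hf₁

theorem f₁_ne_zero : f₁ ≠ 0 := fun h => D.f_ne_zero (by rw [← hf₁, h, map_zero])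

theorem baseHom_f₁_ne_zero : baseHom B.φ (M * p) f₁ ≠ 0 :=
  (_root_.map_ne_zero _).2 (f₁_ne_zero D hf₁)

/-- Divisibility and bound at all valuations. -/
theorem exists_divAll_bdd :
    DivAll (FractionRing B.R) (M * p) p (baseHom B.φ (M * p) f₁) ∧
      ∃ m, Bdd (FractionRing B.R) (M * p) m (baseHom B.φ (M * p) f₁) := by
  have h := divAll_and_bdd (K := FractionRing B.R) B.φ (p := p)
    (m := (-(D.f : LaurentSeries Qbar).order).toNat) (f₁_ne_zero D hf₁)
    (fun v => hf₁ ▸ D.ord_dvd v) (fun v => ?_)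
  · exact ⟨h.1, _, h.2⟩
  rw [hf₁]
  by_cases hv : ∃ g : modularFunctionFieldBar (M * p), g ≠ 0 ∧
      v.ord g ≠ (g : LaurentSeries Qbar).order
  · exact Or.inl (D.regular v hv)
  push Not at hv
  have hj : upBar (stabInertia A T₁) (M * p) (jC _ (M * p)) ≠ 0 :=
    (_root_.map_ne_zero _).2 fun h => jqModC_ne_zero_of_nontrivial _ (congrArg Subtype.val h)
  refine Or.inr ?_
  rw [hv _ hj, hv _ D.f_ne_zero, coe_upBar, coe_jC', coeffMap_jqModC, order_jqModC]
  omega

/-- The relation under `U_p`. -/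
theorem exists_U_rel :
    ∃ (c : FractionRing B.R)
      (h₁ : modularFunctionFieldFullC (fixedField (stabInertia A T₁)) (M * p)),
      c ≠ 0 ∧ h₁ ≠ 0 ∧
      seriesNorm p (baseHom B.φ (M * p) f₁ : LaurentSeries (FractionRing B.R)) =
        HahnSeries.C c * (baseHom B.φ (M * p) f₁ : LaurentSeries (FractionRing B.R)) ^ D.ε *
          (baseHom B.φ (M * p) h₁ : LaurentSeries (FractionRing B.R)) ^ p := by
  obtain ⟨c, h, hc, hh, hcH, hhH, e⟩ := D.U_rel
  obtain ⟨c₁, h₁, -, -, hc₁, hh₁, e₁⟩ := descend_rel f₁ hc hh hcH hhH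
    (S := seriesNorm p (f₁ : LaurentSeries (fixedField (stabInertia A T₁))))
    (by rw [coeffMap_seriesNorm, ← coe_upBar, hf₁]; exact e)
  have e₂ := push_rel B.φ e₁
  rw [coeffMap_seriesNorm, ← coe_baseHom] at e₂
  exact ⟨_, h₁, (_root_.map_ne_zero _).2 hc₁, hh₁, e₂⟩

variable (hpM : ¬ p ∣ M)

/-- The relation under `w_p`. -/
theorem exists_w_rel :
    ∃ (c : FractionRing B.R) (h : modularFunctionFieldFullC (FractionRing B.R) (M * p)),
      c ≠ 0 ∧ h ≠ 0 ∧ wAL (FractionRing B.R) M p hpM (baseHom B.φ (M * p) f₁) =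
        algebraMap (FractionRing B.R) _ c * baseHom B.φ (M * p) f₁ ^ (-D.ε) * h ^ p := by
  obtain ⟨c, h, hc, hh, hcH, hhH, e⟩ := D.w_rel
  obtain ⟨c₁, h₁, -, -, hc₁, hh₁, e₁⟩ := descend_rel f₁ hc hh hcH hhH
    (S := (wAL _ M p hpM f₁ : LaurentSeries (fixedField (stabInertia A T₁))))
    (by rw [← coe_upBar, upBar_wAL hpM _ D.w, hf₁]; exact e)
  have e₂ := push_rel B.φ e₁
  rw [← coe_baseHom, baseHom_wAL] at e₂
  refine ⟨B.φ c₁, baseHom B.φ (M * p) h₁, (_root_.map_ne_zero _).2 hc₁,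
    (_root_.map_ne_zero _).2 hh₁, Subtype.ext (e₂.trans ?_)⟩
  rw [← coe_algebraMap_K (M * p)]
  push_cast
  rfl

/-- The relations under `T_ℓ`. -/
theorem exists_T_rel (ℓ : ℕ) [NeZero ℓ] (hℓ : ℓ.Prime) (hgood : W.IsGoodPrimeFor ℓ)
    (hℓN : ¬ ℓ ∣ M * p) :
    ∃ (c : FractionRing B.R) (h h' : modularFunctionFieldFullC (FractionRing B.R) (M * p)),
      c ≠ 0 ∧ h ≠ 0 ∧ h' ≠ 0 ∧
      qExpand (FractionRing B.R) ℓ (baseHom B.φ (M * p) f₁ : LaurentSeries (FractionRing B.R)) *
          seriesNorm ℓ (baseHom B.φ (M * p) f₁ : LaurentSeries (FractionRing B.R)) =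
        HahnSeries.C c * (baseHom B.φ (M * p) f₁ : LaurentSeries (FractionRing B.R)) ^
            W.apOfModel ℓ *
          (h : LaurentSeries (FractionRing B.R)) ^ p ∧
      qExpand (FractionRing B.R) ℓ (wAL (FractionRing B.R) M p hpM (baseHom B.φ (M * p) f₁) :
            LaurentSeries (FractionRing B.R)) *
          seriesNorm ℓ (wAL (FractionRing B.R) M p hpM (baseHom B.φ (M * p) f₁) :
            LaurentSeries (FractionRing B.R)) =
        HahnSeries.C c * (wAL (FractionRing B.R) M p hpM (baseHom B.φ (M * p) f₁) :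
            LaurentSeries (FractionRing B.R)) ^ W.apOfModel ℓ *
          (h' : LaurentSeries (FractionRing B.R)) ^ p := by
  obtain ⟨c, h, h', hc, hh, hh', hcH, hhH, hh'H, e, e'⟩ := D.T_rel ℓ hℓ hgood hℓN
  obtain ⟨c₁, h₁, hcc, -, hc₁, hh₁, e₁⟩ := descend_rel f₁ hc hh hcH hhH
    (S := qExpand _ ℓ (f₁ : LaurentSeries (fixedField (stabInertia A T₁))) *
      seriesNorm ℓ (f₁ : LaurentSeries (fixedField (stabInertia A T₁))))
    (by rw [map_mul, coeffMap_qExpand, coeffMap_seriesNorm, ← coe_upBar, hf₁]; exact e)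
  set g₁ := wAL _ M p hpM f₁ with hg₁
  obtain ⟨c₂, h₂, hcc', -, -, hh₂, e₂⟩ := descend_rel g₁ hc hh' hcH hh'H
    (S := qExpand _ ℓ (g₁ : LaurentSeries (fixedField (stabInertia A T₁))) *
      seriesNorm ℓ (g₁ : LaurentSeries (fixedField (stabInertia A T₁))))
    (by rw [map_mul, coeffMap_qExpand, coeffMap_seriesNorm, ← coe_upBar, hg₁,
          upBar_wAL hpM _ D.w, hf₁]; exact e')
  obtain rfl : c₂ = c₁ := Subtype.ext (hcc'.trans hcc.symm)
  refine ⟨B.φ c₂, baseHom B.φ (M * p) h₁, baseHom B.φ (M * p) h₂, (_root_.map_ne_zero _).2 hc₁,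
    (_root_.map_ne_zero _).2 hh₁, (_root_.map_ne_zero _).2 hh₂, ?_, ?_⟩
  · have h3 := push_rel B.φ e₁
    rwa [map_mul, coeffMap_qExpand, coeffMap_seriesNorm, ← coe_baseHom] at h3
  · have h3 := push_rel B.φ e₂
    rw [map_mul, coeffMap_qExpand, coeffMap_seriesNorm, ← coe_baseHom, hg₁, baseHom_wAL] at h3
    exact h3

/-- No `p`th root up to constants in level `M q p`. -/
theorem not_root {q : ℕ} [NeZero q] (hq : q.Prime) (_hqN : ¬ q ∣ M * p)
    {r s : FractionRing B.R} (hr : r ≠ 0) (hs : s ≠ 0)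
    {γ : modularFunctionFieldFullC (FractionRing B.R) (M * q * p)}
    (e : algebraMap (FractionRing B.R) _ s *
        levelIncl (Nat.mul_dvd_mul_right (dvd_mul_right M q) p) (baseHom B.φ (M * p) f₁) =
      algebraMap (FractionRing B.R) _ r * γ ^ p) : False := by
  have hdvd : M * p ∣ M * q * p := Nat.mul_dvd_mul_right (dvd_mul_right M q) p
  let _ : Algebra (fixedField (stabInertia A T₁)) (FractionRing B.R) := B.φ.toAlgebra
  have : IsScalarTower ℚ (fixedField (stabInertia A T₁)) (FractionRing B.R) :=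
    IsScalarTower.of_algebraMap_eq' (Subsingleton.elim _ _)
  obtain ⟨a, w, hw⟩ := exists_root_baseHom (F := fixedField (stabInertia A T₁))
    (E := FractionRing B.R) (Fact.out : p.Prime).ne_zero
    (x := levelIncl hdvd f₁) ((_root_.map_ne_zero _).2 (f₁_ne_zero D hf₁)) hs hr (γ := γ) (by
      rw [← e]
      exact congrArg _ (Subtype.ext
        (by rw [coe_baseHom, coe_levelIncl, coe_levelIncl, coe_baseHom]; rfl)))
  set ι := algebraMap (fixedField (stabInertia A T₁)) Qbar
  have e2 : levelIncl hdvd (baseHom ι (M * p) f₁) =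
      algebraMap Qbar _ (ι a) * baseHom ι (M * q * p) w ^ p := by
    rw [← baseHom_algebraMap', ← map_pow, ← map_mul, ← hw]
    exact Subtype.ext (by rw [coe_levelIncl, coe_baseHom, coe_baseHom, coe_levelIncl])
  have hmem : ((baseHom ι (M * q * p) w : modularFunctionFieldFullC Qbar (M * q * p)) :
      LaurentSeries Qbar) ∈ modularFunctionFieldBar (M * p * q) := by
    rw [show M * p * q = M * q * p by ring, Reduction.Level.modularFunctionFieldBar_eq_fullC]
    exact (baseHom ι (M * q * p) w).2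
  refine D.not_pow q hq (ι a) ⟨_, hmem⟩ ?_
  have e3 := congrArg Subtype.val e2
  rw [coe_levelIncl, MulMemClass.coe_mul, SubmonoidClass.coe_pow, coe_algebraMap'] at e3
  rw [← hf₁, coe_upBar, ← coe_baseHom, e3, algebraMap_laurentSeries_eq_single,
    HahnSeries.C_apply]

end Fermat.Agent.LevelLowerP
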