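import Fermat.Agent.LevelLowerP.NodePrimes
import Fermat.Agent.LevelLowerP.Disc

/-!
# The jump at a node

The jump of the logarithmic derivative at a node for functions whose multiplicities are divisible
by `p`: this is where `∂ (p / ϖ ^ p) ≠ 0` enters.

Main result: `Setup.node_jump`.
-/

set_option autoImplicit false

namespace Fermat.Agent.LevelLowerP

open DualNumber TrivSqZeroExt
open scoped LaurentSeries PowerSeries

/-- All horizontal multiplicities of `x` are divisible by `p`: for valuations integral on `O`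
which are trivial on `ϖ`. -/
def HorizDiv (p : ℕ) {O L : Type*} [CommRing O] [Field L] [Algebra O L] (ϖ : O) (x : L) : Prop :=
  ∀ v : Valuation L (WithZero (Multiplicative ℤ)), (∀ o, v (algebraMap O L o) ≤ 1) →
    v (algebraMap O L ϖ) = 1 → (p : ℤ) ∣ WithZero.log (v x)

lemma primeVal_le_one {B : Type*} [CommRing B] [IsDomain B] [UniqueFactorizationMonoid B] {π : B}
    (hπ : Prime π) (a : B) : primeVal hπ a ≤ 1 := by
  by_cases ha : a = 0
  · simp [ha]
  · rw [primeVal_apply hπ ha, ← WithZero.exp_zero, WithZero.exp_le_exp]; simp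

namespace Setup

variable {p : ℕ} {R k : Type*} [CommRing R] [IsDomain R] [IsDiscreteValuationRing R] [Field k]
  [CharP k p] [Fact p.Prime] (S : Setup p R k)

section Disc

variable {L : Type*} [Field L] [Algebra (PowerSeries R) L] [IsFractionRing (PowerSeries R) L]

omit [CharP k p] [Fact p.Prime] in
theorem discDiv_of_horizDiv {x : L} (h : HorizDiv p (PowerSeries.C S.ϖ) x) : S.DiscDiv x := by
  intro π hπ hne
  refine h (primeValFrac L hπ) (fun o => ?_) ?_
  · rw [primeValFrac_algebraMap]; exact primeVal_le_one hπ o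
  · rw [primeValFrac_algebraMap, primeVal_eq_one hπ fun hd =>
      hne (hπ.associated_of_dvd S.prime_C_ϖ hd)]

end Disc

variable [IsDomain (Node R p)] {L : Type*} [Field L] [Algebra (Node R p) L]
  [IsFractionRing (Node R p) L]

/-- A monomial times a unit times a `p`th power. -/
theorem exists_node_form {x : L} (hx : x ≠ 0) (h : HorizDiv p S.nodeϖ x) :
    ∃ (a : ℤ) (i j : ℕ) (u : Node R p) (G : L), IsUnit u ∧ G ≠ 0 ∧
      x = algebraMap (Node R p) L S.nodeϖ ^ a * algebraMap (Node R p) L nodeX ^ i *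
        algebraMap (Node R p) L nodeY ^ j * algebraMap (Node R p) L u * G ^ p := by
  classical
  have hϖ0 : algebraMap (Node R p) L S.nodeϖ ≠ 0 :=
    (map_ne_zero_iff _ (IsFractionRing.injective _ L)).2 S.of_C_ϖ_ne_zero
  have hle : Submonoid.powers S.nodeϖ ≤ nonZeroDivisors (Node R p) :=
    powers_le_nonZeroDivisors_of_noZeroDivisors S.of_C_ϖ_ne_zero
  have : IsDomain (Localization.Away S.nodeϖ) := IsLocalization.isDomain_localization hle
  have : IsPrincipalIdealRing (Localization.Away S.nodeϖ) :=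
    S.isPrincipalIdealRing_away (B := Localization.Away S.nodeϖ)
  let φ : Localization.Away S.nodeϖ →+* L :=
    IsLocalization.Away.lift S.nodeϖ (g := algebraMap (Node R p) L) hϖ0.isUnit
  let _ : Algebra (Localization.Away S.nodeϖ) L := φ.toAlgebra
  have : IsScalarTower (Node R p) (Localization.Away S.nodeϖ) L :=
    IsScalarTower.of_algebraMap_eq fun o => (IsLocalization.Away.lift_eq S.nodeϖ _ o).symm
  have : IsFractionRing (Localization.Away S.nodeϖ) L :=
    IsFractionRing.isFractionRing_of_isDomain_of_isLocalization (Submonoid.powers S.nodeϖ) _ L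
  obtain ⟨u, M, G, hG, hM, hx'⟩ := exists_unit_mul_exc_mul_pow (L := L)
    (B := Localization.Away S.nodeϖ) (fun _ => False) (Fact.out : p.Prime).ne_zero hx
    fun π hπ _ => by
      refine h (primeValFrac L hπ) (fun o => ?_) ?_
      · rw [IsScalarTower.algebraMap_apply (Node R p) (Localization.Away S.nodeϖ) L,
          primeValFrac_algebraMap]
        exact primeVal_le_one hπ _
      · rw [IsScalarTower.algebraMap_apply (Node R p) (Localization.Away S.nodeϖ) L,
          primeValFrac_algebraMap]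
        exact primeVal_eq_one hπ fun hd => hπ.not_isUnit
          (isUnit_of_dvd_unit hd (IsLocalization.Away.algebraMap_isUnit _))
  have hM0 : M = 0 := Multiset.eq_zero_of_forall_notMem fun a ha => (hM a ha).2
  subst hM0
  rw [Multiset.prod_zero, mul_one] at hx'
  obtain ⟨n, g, hg⟩ := IsLocalization.Away.surj S.nodeϖ (u : Localization.Away S.nodeϖ)
  obtain ⟨n', g', hg'⟩ := IsLocalization.Away.surj S.nodeϖ ((u⁻¹ : _ˣ) : Localization.Away S.nodeϖ)
  have hgg : g ∣ S.nodeϖ ^ (n + n') := by
    refine ⟨g', IsLocalization.injective (Localization.Away S.nodeϖ) hle ?_⟩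
    rw [map_mul, ← hg, ← hg', map_pow, pow_add]
    have : ((u : Localization.Away S.nodeϖ) * ↑u⁻¹) = 1 := u.mul_inv
    linear_combination -(algebraMap (Node R p) _ S.nodeϖ ^ n *
      algebraMap (Node R p) _ S.nodeϖ ^ n') * this
  obtain ⟨a, i, j, w, hw, rfl⟩ := S.exists_monomial_of_dvd hgg
  refine ⟨(a : ℤ) - n, i, j, w, G, hw, hG, ?_⟩
  have hgL := congrArg (algebraMap (Localization.Away S.nodeϖ) L) hg
  simp only [map_mul, map_pow, ← IsScalarTower.algebraMap_apply] at hgL
  rw [hx', zpow_sub₀ hϖ0, zpow_natCast, zpow_natCast]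
  field_simp
  linear_combination hgL

lemma infBranch_res_nodeX_ne_zero : S.infBranch.res (nodeX : Node R p) ≠ 0 := by
  rw [Branch.res_apply]
  show (S.δinf nodeX).fst ≠ 0
  rw [S.δinf_nodeX]
  exact S.fst_δS_X_ne_zero

lemma zeroBranch_res_nodeY_ne_zero : S.zeroBranch.res (nodeY : Node R p) ≠ 0 := by
  rw [Branch.res_apply]
  show (S.δzero nodeY).fst ≠ 0
  rw [S.δzero_nodeY]
  exact S.fst_δS_X_ne_zero

/-- The logarithmic derivative of the unit `p / ϖ ^ p`. -/
def psiW : k := (S.δ S.w).snd / (S.δ S.w).fst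

omit [IsDomain R] [IsDiscreteValuationRing R] [CharP k p] [Fact p.Prime] [IsDomain (Node R p)] in
lemma psiW_ne_zero : S.psiW ≠ 0 := div_ne_zero S.snd_w_ne_zero S.fst_w_ne_zero

omit [IsDomain R] [IsDiscreteValuationRing R] [CharP k p] [Fact p.Prime] [IsDomain (Node R p)] in
lemma δS_C (r : R) : S.δS (PowerSeries.C r) =
    inl (HahnSeries.C (S.δ r).fst) + inr (HahnSeries.C (S.δ r).snd) := by
  ext1
  · rw [S.fst_δS, PowerSeries.map_C, HahnSeries.ofPowerSeries_C]; simp [res_apply]
  · rw [S.snd_δS, show (PowerSeries.mk fun n => (S.δ (PowerSeries.coeff n (PowerSeries.C r))).snd) =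
      PowerSeries.C (S.δ r).snd from PowerSeries.ext fun n => by
        simp [PowerSeries.coeff_C, apply_ite S.δ, apply_ite TrivSqZeroExt.snd],
      HahnSeries.ofPowerSeries_C]
    simp

omit [IsDomain R] [IsDiscreteValuationRing R] [CharP k p] [Fact p.Prime] [IsDomain (Node R p)] in
lemma snd_δS_X : (S.δS PowerSeries.X).snd = 0 := by
  rw [S.snd_δS,
    show (PowerSeries.mk fun n => (S.δ (PowerSeries.coeff n PowerSeries.X)).snd) = 0 from
    PowerSeries.ext fun n => by
      simp [PowerSeries.coeff_X, apply_ite S.δ, apply_ite TrivSqZeroExt.snd],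
    map_zero]

omit [IsDomain R] [IsDiscreteValuationRing R] [CharP k p] [Fact (Nat.Prime p)] in
/-- Invariants of the coordinates along a branch where `z` is the coordinate and `z' = p / z`. -/
theorem coord_invariants (B : Branch (Node R p) (LaurentSeries k)) [CharP (LaurentSeries k) p]
    (hϖ : B.ϖ = S.nodeϖ) (hδ : ∀ A, B.δ (AdjoinRoot.of _ A) = S.δS A) (z z' : Node R p)
    (hz : B.δ z = S.δS PowerSeries.X) (hzz : z * z' = (p : Node R p)) :
    B.psi (algebraMap (Node R p) L z) = 0 ∧
      B.resUnit (algebraMap (Node R p) L z) = ((PowerSeries.X : PowerSeries k) : LaurentSeries k) ∧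
      B.psi (algebraMap (Node R p) L z') = HahnSeries.C S.psiW ∧
      B.resUnit (algebraMap (Node R p) L z') * ((PowerSeries.X : PowerSeries k) : LaurentSeries k) =
        HahnSeries.C (S.res S.w) := by
  have hz0 : B.res z ≠ 0 := by rw [Branch.res_apply, hz]; exact S.fst_δS_X_ne_zero
  have hw0 : B.res (AdjoinRoot.of _ (PowerSeries.C S.w)) ≠ 0 := by
    rw [Branch.res_apply, hδ, S.δS_C]; simpa using S.fst_w_ne_zero
  have hzL : algebraMap (Node R p) L z ≠ 0 := Branch.algebraMap_ne_zero (B.ne_zero_of_res hz0)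
  have hwL : algebraMap (Node R p) L (AdjoinRoot.of _ (PowerSeries.C S.w)) ≠ 0 :=
    Branch.algebraMap_ne_zero (B.ne_zero_of_res hw0)
  have hϖL : algebraMap (Node R p) L B.ϖ ≠ 0 := Branch.algebraMap_ne_zero B.ϖ_ne_zero
  have he : algebraMap (Node R p) L z * algebraMap (Node R p) L z' =
      algebraMap (Node R p) L B.ϖ ^ (p : ℤ) *
        algebraMap (Node R p) L (AdjoinRoot.of _ (PowerSeries.C S.w)) := by
    rw [zpow_natCast, ← map_mul, hzz, S.natCast_node_eq, map_mul, map_pow, hϖ]
  have hz'L : algebraMap (Node R p) L z' ≠ 0 :=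
    right_ne_zero_of_mul (he ▸ mul_ne_zero (zpow_ne_zero _ hϖL) hwL)
  have h1 : B.psi (algebraMap (Node R p) L z) = 0 := by
    rw [B.psi_algebraMap hz0, hz, S.snd_δS_X, zero_div]
  have h2 : B.resUnit (algebraMap (Node R p) L z) =
      ((PowerSeries.X : PowerSeries k) : LaurentSeries k) := by
    rw [B.resUnit_algebraMap hz0, Branch.res_apply, hz, S.fst_δS_X]
  refine ⟨h1, h2, ?_, ?_⟩
  · have := congrArg B.psi he
    rw [B.psi_mul hzL hz'L, h1, zero_add, B.psi_mul (zpow_ne_zero _ hϖL) hwL, B.psi_zpow hϖL,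
      B.psi_ϖ, mul_zero, zero_add, B.psi_algebraMap hw0, hδ, S.δS_C] at this
    rw [this, psiW, map_div₀]
    simp
  · have := congrArg B.resUnit he
    rw [B.resUnit_mul hzL hz'L, h2, B.resUnit_mul (zpow_ne_zero _ hϖL) hwL, B.resUnit_zpow hϖL,
      B.resUnit_ϖ, one_zpow, one_mul, B.resUnit_algebraMap hw0, Branch.res_apply, hδ,
      S.δS_C] at this
    rw [mul_comm, this]
    simp [res_apply]

omit [IsDomain R] [IsDiscreteValuationRing R] [CharP k p] [Fact (Nat.Prime p)] in
lemma psi_isPow_of_isUnit (B : Branch (Node R p) (LaurentSeries k)) (u : Node R p) (hu : IsUnit u)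
    (e : Node R p →+* DualNumber (PowerSeries k))
    (he : ∀ g, B.δ g = dualMap (HahnSeries.ofPowerSeries ℤ k) (e g)) :
    B.res u ≠ 0 ∧ (B.res u).order = 0 ∧ ∃ a : PowerSeries k,
      B.psi (algebraMap (Node R p) L u) = (a : LaurentSeries k) ∧
      PowerSeries.constantCoeff a =
        PowerSeries.constantCoeff (e u).snd / PowerSeries.constantCoeff (e u).fst := by
  have hfu : IsUnit (e u).fst := (TrivSqZeroExt.isUnit_iff_isUnit_fst.1 (hu.map e))
  have hres : B.res u = ((e u).fst : LaurentSeries k) := by rw [Branch.res_apply, he, fst_dualMap]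
  have hne : B.res u ≠ 0 := by
    rw [hres]; exact (map_ne_zero_iff _ HahnSeries.ofPowerSeries_injective).2 hfu.ne_zero
  refine ⟨hne, by rw [hres]; exact order_coe_unit hfu, (e u).snd * ↑hfu.unit⁻¹, ?_, ?_⟩
  · rw [B.psi_algebraMap hne, he, fst_dualMap, snd_dualMap, div_eq_iff
      ((map_ne_zero_iff _ HahnSeries.ofPowerSeries_injective).2 hfu.ne_zero), ← map_mul, mul_assoc,
      IsUnit.val_inv_mul, mul_one]
  · have h1 := congrArg PowerSeries.constantCoeff (IsUnit.val_inv_mul hfu)
    rw [map_mul, map_one] at h1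
    rw [map_mul, eq_div_iff (hfu.map PowerSeries.constantCoeff).ne_zero, mul_assoc, h1, mul_one]

/-- Coefficientwise reduction and derivation, before passing to Laurent series. -/
noncomputable def δP : PowerSeries R →+* DualNumber (PowerSeries k) :=
  (splitDual k).comp (PowerSeries.map S.δ)

omit [IsDomain (Node R p)] [IsDomain R] [IsDiscreteValuationRing R] [Fact (Nat.Prime p)] in
lemma δP_natCast_prime : S.δP (p : PowerSeries R) = 0 := by
  rw [δP, RingHom.comp_apply, ← map_natCast (PowerSeries.C (R := R)), PowerSeries.map_C,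
    S.δ_natCast_prime, map_zero, map_zero]

/-- The branch at infinity, with power series values. -/
noncomputable def δinfP : Node R p →+* DualNumber (PowerSeries k) :=
  AdjoinRoot.lift S.δP (S.δP PowerSeries.X) (by
    rw [eval₂_nodePoly, ← map_natCast S.δP, S.δP_natCast_prime]; ring)

/-- The other branch, with power series values. -/
noncomputable def δzeroP : Node R p →+* DualNumber (PowerSeries k) :=
  AdjoinRoot.lift S.δP 0 (by
    rw [eval₂_nodePoly, ← map_natCast S.δP, S.δP_natCast_prime]; ring)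

omit [IsDomain (Node R p)] [IsDomain R] [IsDiscreteValuationRing R] [Fact (Nat.Prime p)] in
lemma δinfP_apply (A B : PowerSeries R) :
    S.δinfP (AdjoinRoot.of _ A + AdjoinRoot.of _ B * nodeX) =
      S.δP A + S.δP B * S.δP PowerSeries.X := by
  unfold δinfP nodeX
  rw [map_add, map_mul, AdjoinRoot.lift_of, AdjoinRoot.lift_of, AdjoinRoot.lift_root]

omit [IsDomain (Node R p)] [IsDomain R] [IsDiscreteValuationRing R] [Fact (Nat.Prime p)] in
lemma δzeroP_apply (A B : PowerSeries R) :
    S.δzeroP (AdjoinRoot.of _ A + AdjoinRoot.of _ B * nodeX) = S.δP A := by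
  unfold δzeroP nodeX
  rw [map_add, map_mul, AdjoinRoot.lift_of, AdjoinRoot.lift_of, AdjoinRoot.lift_root, mul_zero,
    add_zero]

omit [IsDomain (Node R p)] [Fact (Nat.Prime p)] in
lemma δinf_eq (g : Node R p) :
    S.δinf g = dualMap (HahnSeries.ofPowerSeries ℤ k) (S.δinfP g) := by
  obtain ⟨A, B, rfl⟩ := exists_eq_add g
  rw [map_add, map_mul, S.δinf_of, S.δinf_of, S.δinf_nodeX, S.δinfP_apply, map_add, map_mul]
  rfl

omit [IsDomain (Node R p)] [Fact (Nat.Prime p)] in
lemma δzero_eq (g : Node R p) :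
    S.δzero g = dualMap (HahnSeries.ofPowerSeries ℤ k) (S.δzeroP g) := by
  obtain ⟨A, B, rfl⟩ := exists_eq_add g
  rw [map_add, map_mul, S.δzero_of, S.δzero_of, S.δzero_nodeX, S.δzeroP_apply, mul_zero, add_zero]
  rfl

omit [IsDomain (Node R p)] [Fact (Nat.Prime p)] in
lemma constantCoeff_branches (g : Node R p) :
    PowerSeries.constantCoeff (S.δinfP g).fst = PowerSeries.constantCoeff (S.δzeroP g).fst ∧
      PowerSeries.constantCoeff (S.δinfP g).snd = PowerSeries.constantCoeff (S.δzeroP g).snd := by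
  obtain ⟨A, B, rfl⟩ := exists_eq_add g
  rw [S.δinfP_apply, S.δzeroP_apply]
  have h1 : PowerSeries.constantCoeff (S.δP PowerSeries.X).fst = 0 := by
    simp [δP, ← PowerSeries.coeff_zero_eq_constantCoeff_apply]
  have h2 : PowerSeries.constantCoeff (S.δP PowerSeries.X).snd = 0 := by
    simp [δP, ← PowerSeries.coeff_zero_eq_constantCoeff_apply]
  simp [h1, h2]

/-- **The jump at a node.** -/
theorem node_jump {x : L} (hx : x ≠ 0) (h : HorizDiv p S.nodeϖ x) :
    ∃ (b : ℤ) (aI a₀ : PowerSeries k),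
      S.infBranch.psi x = (aI : LaurentSeries k) ∧ S.zeroBranch.psi x = (a₀ : LaurentSeries k) ∧
      PowerSeries.constantCoeff a₀ - PowerSeries.constantCoeff aI = (b : k) * S.psiW ∧
      (p : ℤ) ∣ (S.infBranch.resUnit x).order - b ∧
        (p : ℤ) ∣ (S.zeroBranch.resUnit x).order + b := by
  have : CharP (LaurentSeries k) p := charP_of_injective_ringHom HahnSeries.C_injective p
  obtain ⟨a, i, j, u, G, hu, hG, rfl⟩ := S.exists_node_form hx h
  obtain ⟨hu1, ho1, a1, ha1, hc1⟩ := psi_isPow_of_isUnit S.infBranch u hu S.δinfP S.δinf_eq (L := L)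
  obtain ⟨hu0, ho0, a0, ha0, hc0⟩ :=
    psi_isPow_of_isUnit S.zeroBranch u hu S.δzeroP S.δzero_eq (L := L)
  obtain ⟨hX1, hX1', hY1, hY1'⟩ := S.coord_invariants (L := L) S.infBranch rfl S.δinf_of nodeX nodeY
    S.δinf_nodeX nodeX_mul_nodeY
  obtain ⟨hY0, hY0', hX0, hX0'⟩ :=
    S.coord_invariants (L := L) S.zeroBranch rfl S.δzero_of nodeY nodeX
    S.δzero_nodeY (by rw [mul_comm, nodeX_mul_nodeY])
  have hT : ((PowerSeries.X : PowerSeries k) : LaurentSeries k) = HahnSeries.single 1 1 :=
    HahnSeries.ofPowerSeries_X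
  have hTord : ((PowerSeries.X : PowerSeries k) : LaurentSeries k).order = 1 := by
    rw [hT, HahnSeries.order_single one_ne_zero]
  have hT0 : ((PowerSeries.X : PowerSeries k) : LaurentSeries k) ≠ 0 :=
    (map_ne_zero_iff _ HahnSeries.ofPowerSeries_injective).2 PowerSeries.X_ne_zero
  have hϖ0 : algebraMap (Node R p) L S.nodeϖ ≠ 0 := Branch.algebraMap_ne_zero S.of_C_ϖ_ne_zero
  have hXne : algebraMap (Node R p) L nodeX ≠ 0 :=
    Branch.algebraMap_ne_zero (S.infBranch.ne_zero_of_res S.infBranch_res_nodeX_ne_zero)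
  have hYne : algebraMap (Node R p) L nodeY ≠ 0 :=
    Branch.algebraMap_ne_zero (S.zeroBranch.ne_zero_of_res S.zeroBranch_res_nodeY_ne_zero)
  have huL : algebraMap (Node R p) L u ≠ 0 := Branch.algebraMap_ne_zero hu.ne_zero
  -- invariants of the product
  have key : ∀ B : Branch (Node R p) (LaurentSeries k), B.ϖ = S.nodeϖ →
      B.psi (algebraMap (Node R p) L S.nodeϖ ^ a * algebraMap (Node R p) L nodeX ^ i *
          algebraMap (Node R p) L nodeY ^ j * algebraMap (Node R p) L u * G ^ p) =
        i * B.psi (algebraMap (Node R p) L nodeX) + j * B.psi (algebraMap (Node R p) L nodeY) +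
          B.psi (algebraMap (Node R p) L u) ∧
      B.resUnit (algebraMap (Node R p) L S.nodeϖ ^ a * algebraMap (Node R p) L nodeX ^ i *
          algebraMap (Node R p) L nodeY ^ j * algebraMap (Node R p) L u * G ^ p) =
        B.resUnit (algebraMap (Node R p) L nodeX) ^ i *
            B.resUnit (algebraMap (Node R p) L nodeY) ^ j *
          B.resUnit (algebraMap (Node R p) L u) * B.resUnit G ^ p := by
    intro B hB
    have h1 := mul_ne_zero (zpow_ne_zero a hϖ0) (pow_ne_zero i hXne)
    have h2 := mul_ne_zero h1 (pow_ne_zero j hYne)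
    have h3 := mul_ne_zero h2 huL
    rw [B.psi_mul h3 (pow_ne_zero _ hG), B.psi_mul h2 huL, B.psi_mul h1 (pow_ne_zero _ hYne),
      B.psi_mul (zpow_ne_zero a hϖ0) (pow_ne_zero _ hXne), B.resUnit_mul h3 (pow_ne_zero _ hG),
      B.resUnit_mul h2 huL, B.resUnit_mul h1 (pow_ne_zero _ hYne),
      B.resUnit_mul (zpow_ne_zero a hϖ0) (pow_ne_zero _ hXne), B.resUnit_pow hXne,
      B.resUnit_pow hYne, B.resUnit_pow hG, B.psi_pow_eq_zero hG, B.psi_zpow hϖ0,
      B.resUnit_zpow hϖ0, ← hB, B.psi_ϖ,
      B.resUnit_ϖ, one_zpow, ← zpow_natCast (algebraMap (Node R p) L nodeX) i,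
      ← zpow_natCast (algebraMap (Node R p) L nodeY) j, B.psi_zpow hXne, B.psi_zpow hYne]
    push_cast
    exact ⟨by ring, by ring⟩
  obtain ⟨k1, k1'⟩ := key S.infBranch rfl
  obtain ⟨k0, k0'⟩ := key S.zeroBranch rfl
  refine ⟨(i : ℤ) - j, PowerSeries.C ((j : k) * S.psiW) + a1, PowerSeries.C ((i : k) * S.psiW) + a0,
    ?_, ?_, ?_, ?_, ?_⟩
  · rw [k1, hX1, hY1, ha1, map_add, HahnSeries.ofPowerSeries_C, map_mul, map_natCast]; ring
  · rw [k0, hX0, hY0, ha0, map_add, HahnSeries.ofPowerSeries_C, map_mul, map_natCast]; ring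
  · rw [map_add, map_add, PowerSeries.constantCoeff_C, PowerSeries.constantCoeff_C, hc1, hc0,
      (S.constantCoeff_branches u).1, (S.constantCoeff_branches u).2]
    push_cast
    ring
  · have hYr : S.infBranch.resUnit (algebraMap (Node R p) L nodeY) ≠ 0 :=
      S.infBranch.resUnit_ne_zero hYne
    have hord := congrArg HahnSeries.order hY1'
    rw [HahnSeries.order_mul hYr hT0, hTord, HahnSeries.order_C] at hord
    have hGr := S.infBranch.resUnit_ne_zero hG
    rw [k1', S.infBranch.resUnit_algebraMap hu1, HahnSeries.order_mul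
      (mul_ne_zero (mul_ne_zero (pow_ne_zero _ (by rw [hX1']; exact hT0)) (pow_ne_zero _ hYr)) hu1)
      (pow_ne_zero _ hGr), HahnSeries.order_mul
      (mul_ne_zero (pow_ne_zero _ (by rw [hX1']; exact hT0)) (pow_ne_zero _ hYr)) hu1,
      HahnSeries.order_mul (pow_ne_zero _ (by rw [hX1']; exact hT0)) (pow_ne_zero _ hYr),
      order_natPow (by rw [hX1']; exact hT0), order_natPow hYr, order_natPow hGr, ho1, hX1', hTord,
      show (S.infBranch.resUnit (algebraMap (Node R p) L nodeY)).order = -1 by omega]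
    exact ⟨(S.infBranch.resUnit G).order, by ring⟩
  · have hXr : S.zeroBranch.resUnit (algebraMap (Node R p) L nodeX) ≠ 0 :=
      S.zeroBranch.resUnit_ne_zero hXne
    have hord := congrArg HahnSeries.order hX0'
    rw [HahnSeries.order_mul hXr hT0, hTord, HahnSeries.order_C] at hord
    have hGr := S.zeroBranch.resUnit_ne_zero hG
    rw [k0', S.zeroBranch.resUnit_algebraMap hu0, HahnSeries.order_mul
      (mul_ne_zero (mul_ne_zero (pow_ne_zero _ hXr) (pow_ne_zero _ (by rw [hY0']; exact hT0))) hu0)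
      (pow_ne_zero _ hGr), HahnSeries.order_mul
      (mul_ne_zero (pow_ne_zero _ hXr) (pow_ne_zero _ (by rw [hY0']; exact hT0))) hu0,
      HahnSeries.order_mul (pow_ne_zero _ hXr) (pow_ne_zero _ (by rw [hY0']; exact hT0)),
      order_natPow hXr, order_natPow (by rw [hY0']; exact hT0), order_natPow hGr, ho0, hY0', hTord,
      show (S.zeroBranch.resUnit (algebraMap (Node R p) L nodeX)).order = -1 by omega]
    exact ⟨(S.zeroBranch.resUnit G).order, by ring⟩

end Setup

end Fermat.Agent.LevelLowerP
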