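import Mathlib.RingTheory.PowerSeries.WeierstrassPreparation
import Mathlib.RingTheory.Localization.Away.Basic
import Mathlib.RingTheory.Localization.LocalizationLocalization
import Fermat.Agent.LevelLowerP.Node

/-!
# The node ring with `ϖ` inverted

The node ring with `ϖ` inverted is a principal ideal domain, and its units are monomials times
units; consequences for functions whose multiplicities are divisible by `p`.

Main results: `Setup.exists_monomial_of_dvd`, `Setup.isPrincipalIdealRing_away`.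
-/

set_option autoImplicit false

namespace Fermat.Agent.LevelLowerP

open DualNumber TrivSqZeroExt Polynomial
open scoped LaurentSeries PowerSeries

namespace Setup

variable {p : ℕ} {R k : Type*} [CommRing R] [IsDomain R] [IsDiscreteValuationRing R] [Field k]
  (S : Setup p R k)

/-- `ϖ` in the node ring. -/
noncomputable abbrev nodeϖ : Node R p := AdjoinRoot.of _ (PowerSeries.C S.ϖ)

lemma isUnit_series_iff {A : PowerSeries R} :
    IsUnit A ↔ S.res (PowerSeries.constantCoeff A) ≠ 0 := by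
  rw [PowerSeries.isUnit_iff_constantCoeff, S.isUnit_iff_res_ne_zero]

omit [IsDomain R] [IsDiscreteValuationRing R] in
lemma res_natCast_p [CharP k p] : S.res (p : R) = 0 := by rw [map_natCast, CharP.cast_eq_zero]

lemma pow_mul_inj {a b : ℕ} {x y : PowerSeries R} (hx : ¬ PowerSeries.C S.ϖ ∣ x)
    (hy : ¬ PowerSeries.C S.ϖ ∣ y) (h : PowerSeries.C S.ϖ ^ a * x = PowerSeries.C S.ϖ ^ b * y) :
    a = b ∧ x = y := by
  have hab : a = b := by
    have e := congrArg (emultiplicity (PowerSeries.C S.ϖ)) h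
    rw [emultiplicity_mul S.prime_C_ϖ, emultiplicity_mul S.prime_C_ϖ,
      emultiplicity_eq_zero.2 hx, emultiplicity_eq_zero.2 hy, add_zero, add_zero,
      emultiplicity_pow_self S.prime_C_ϖ.ne_zero S.prime_C_ϖ.not_isUnit,
      emultiplicity_pow_self S.prime_C_ϖ.ne_zero S.prime_C_ϖ.not_isUnit] at e
    exact_mod_cast e
  exact ⟨hab, mul_left_cancel₀ (pow_ne_zero a S.prime_C_ϖ.ne_zero) (hab ▸ h)⟩

lemma C_ϖ_not_dvd_unit {s : PowerSeries R} (hs : IsUnit s) : ¬ PowerSeries.C S.ϖ ∣ s := fun h =>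
  S.prime_C_ϖ.not_isUnit (isUnit_of_dvd_unit h hs)

omit [IsDomain R] [IsDiscreteValuationRing R] in
lemma natCast_series_eq :
    (p : PowerSeries R) = PowerSeries.C S.ϖ ^ p * PowerSeries.C S.w := by
  rw [← map_natCast (PowerSeries.C (R := R)), S.natCast_eq, map_mul, map_pow]

/-- If one branch does not vanish, the other vanishes to order at least `p`. -/
lemma p_dvd_of_norm [CharP k p] [Fact p.Prime] {C C' B s : PowerSeries R} {M : ℕ}
    (hC' : ¬ PowerSeries.C S.ϖ ∣ C') (h0 : S.res (PowerSeries.constantCoeff C') = 0)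
    (hs : IsUnit s) (e : C * C' + B ^ 2 * (p : PowerSeries R) = PowerSeries.C S.ϖ ^ M * s) :
    (p : PowerSeries R) ∣ C ∧ p ≤ M := by
  have hdvd : (p : PowerSeries R) ∣ C := by
    by_contra hC
    have hC0 : C ≠ 0 := fun h => hC (h ▸ dvd_zero _)
    obtain ⟨c, C1, hC1, hCe⟩ := WfDvdMonoid.max_power_factor hC0 S.prime_C_ϖ.irreducible
    have hcp : c < p := by
      by_contra hle
      obtain ⟨d, hd⟩ := Nat.exists_eq_add_of_le (not_lt.1 hle)
      refine hC ⟨PowerSeries.C (↑S.isUnit_w.unit⁻¹ : R) * PowerSeries.C S.ϖ ^ d * C1, ?_⟩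
      have hw1 : PowerSeries.C S.w * PowerSeries.C (↑S.isUnit_w.unit⁻¹ : R) = 1 := by
        rw [← map_mul, IsUnit.mul_val_inv, map_one]
      have hpow : PowerSeries.C S.ϖ ^ c = PowerSeries.C S.ϖ ^ p * PowerSeries.C S.ϖ ^ d := by
        exact (congrArg (fun i => PowerSeries.C S.ϖ ^ i) hd).trans (pow_add _ _ _)
      rw [hCe, S.natCast_series_eq]
      linear_combination C1 * hpow -
        (PowerSeries.C S.ϖ ^ p * PowerSeries.C S.ϖ ^ d * C1) * hw1
    obtain ⟨d, hd⟩ := Nat.exists_eq_add_of_lt hcp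
    have hpow : PowerSeries.C S.ϖ ^ p =
        PowerSeries.C S.ϖ ^ c * (PowerSeries.C S.ϖ ^ d * PowerSeries.C S.ϖ) := by
      exact (congrArg (fun i => PowerSeries.C S.ϖ ^ i) hd).trans (by ring)
    obtain ⟨-, hbr⟩ := S.pow_mul_inj (a := c) (b := M)
      (x := C1 * C' + PowerSeries.C S.ϖ * (PowerSeries.C S.ϖ ^ d * PowerSeries.C S.w * B ^ 2))
      (fun h => (S.prime_C_ϖ.dvd_or_dvd ((dvd_add_left (dvd_mul_right _ _)).1 h)).elim hC1 hC')
      (S.C_ϖ_not_dvd_unit hs) (by
        rw [hCe, S.natCast_series_eq] at e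
        linear_combination e - B ^ 2 * PowerSeries.C S.w * hpow)
    apply S.isUnit_series_iff.1 hs
    rw [← hbr]
    simp [h0, S.res_ϖ]
  refine ⟨hdvd, ?_⟩
  by_contra hlt
  obtain ⟨C1, rfl⟩ := hdvd
  obtain ⟨d, hd⟩ := Nat.exists_eq_add_of_lt (not_le.1 hlt)
  have hpow : PowerSeries.C S.ϖ ^ p =
      PowerSeries.C S.ϖ ^ M * (PowerSeries.C S.ϖ ^ d * PowerSeries.C S.ϖ) := by
    exact (congrArg (fun i => PowerSeries.C S.ϖ ^ i) hd).trans (by ring)
  have e2 : PowerSeries.C S.ϖ *
      (PowerSeries.C S.ϖ ^ d * PowerSeries.C S.w * (C1 * C' + B ^ 2)) = s := by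
    refine mul_left_cancel₀ (pow_ne_zero M S.prime_C_ϖ.ne_zero) ?_
    rw [S.natCast_series_eq] at e
    linear_combination e - PowerSeries.C S.w * (C1 * C' + B ^ 2) * hpow
  exact S.C_ϖ_not_dvd_unit hs ⟨_, e2.symm⟩

variable [CharP k p] [Fact p.Prime] [IsDomain (Node R p)]

omit [IsDomain (Node R p)] in
/-- Elements with norm a unit times a power of `ϖ` are monomials times units. -/
theorem exists_monomial_of_norm (M : ℕ) : ∀ (A B s : PowerSeries R), IsUnit s →
    A ^ 2 + A * B * PowerSeries.X + B ^ 2 * (p : PowerSeries R) = PowerSeries.C S.ϖ ^ M * s →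
    ∃ (a i j : ℕ) (u : Node R p), IsUnit u ∧
      AdjoinRoot.of _ A + AdjoinRoot.of _ B * nodeX = S.nodeϖ ^ a * nodeX ^ i * nodeY ^ j * u := by
  induction M using Nat.strong_induction_on with
  | _ M ih =>
  intro A B s hs e
  have hϖ : (PowerSeries.C S.ϖ : PowerSeries R) ≠ 0 := S.prime_C_ϖ.ne_zero
  have hp0 : 0 < p := (Fact.out : p.Prime).pos
  by_cases hA : IsUnit A
  · refine ⟨0, 0, 0, AdjoinRoot.of _ A + AdjoinRoot.of _ B * nodeX, ?_, by simp⟩
    refine isUnit_of_constantCoeff (S.isUnit_iff_res_ne_zero.2 ?_)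
    rw [map_add, map_mul, S.res_natCast_p, mul_zero, add_zero, map_pow]
    exact pow_ne_zero _ (S.isUnit_series_iff.1 hA)
  have hA0 : S.res (PowerSeries.constantCoeff A) = 0 := not_not.1 fun h =>
    hA (S.isUnit_series_iff.2 h)
  obtain ⟨C', hC'⟩ : ∃ C', C' = A + B * PowerSeries.X := ⟨_, rfl⟩
  have hC0 : S.res (PowerSeries.constantCoeff C') = 0 := by rw [hC']; simp [hA0]
  have e' : A * C' + B ^ 2 * (p : PowerSeries R) = PowerSeries.C S.ϖ ^ M * s := by
    rw [hC']; linear_combination e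
  have hp2 : PowerSeries.C S.ϖ ^ p * PowerSeries.C S.w = (p : PowerSeries R) :=
    S.natCast_series_eq.symm
  have hwinv : PowerSeries.C S.w * PowerSeries.C (↑S.isUnit_w.unit⁻¹ : R) = 1 := by
    rw [← map_mul, IsUnit.mul_val_inv, map_one]
  have hs' : IsUnit (s * PowerSeries.C (↑S.isUnit_w.unit⁻¹ : R)) := hs.mul ((Units.isUnit _).map _)
  have hxy := nodeX_mul_nodeY (R := R) (p := p)
  rw [nodeY, nodeT] at hxy
  by_cases hCϖ : PowerSeries.C S.ϖ ∣ C'
  · by_cases hAϖ : PowerSeries.C S.ϖ ∣ A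
    · -- both branches vanish
      obtain ⟨A', rfl⟩ := hAϖ
      have hB : PowerSeries.C S.ϖ ∣ B := by
        refine (S.prime_C_ϖ.dvd_or_dvd (b := PowerSeries.X) ?_).resolve_right fun h => ?_
        · rw [hC'] at hCϖ
          exact (dvd_add_right (dvd_mul_right _ _)).1 hCϖ
        · rw [← S.map_res_eq_zero_iff, PowerSeries.map_X] at h
          exact PowerSeries.X_ne_zero h
      obtain ⟨B', rfl⟩ := hB
      obtain ⟨m, rfl⟩ : ∃ m, M = m + 2 := by
        rcases Nat.lt_or_ge M 2 with h | h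
        · exfalso
          apply S.C_ϖ_not_dvd_unit hs
          refine ⟨PowerSeries.C S.ϖ ^ (1 - M) *
            (A' ^ 2 + A' * B' * PowerSeries.X + B' ^ 2 * (p : PowerSeries R)), ?_⟩
          refine mul_left_cancel₀ (pow_ne_zero M hϖ) ?_
          rw [← mul_assoc, ← mul_assoc, ← pow_succ, ← pow_add, show M + 1 + (1 - M) = 2 by omega]
          linear_combination -e
        · exact ⟨M - 2, by omega⟩
      obtain ⟨a, i, j, u, hu, h⟩ := ih m (by omega) A' B' s hs
        (mul_left_cancel₀ (pow_ne_zero 2 hϖ) (by linear_combination e))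
      refine ⟨a + 1, i, j, u, hu, ?_⟩
      rw [map_mul, map_mul]
      linear_combination S.nodeϖ * h
    · -- `Y` divides
      obtain ⟨⟨A'', hA''⟩, hle⟩ := S.p_dvd_of_norm (C := C') (C' := A) (B := B) hAϖ hA0 hs
        (by linear_combination e')
      obtain ⟨m, rfl⟩ := Nat.exists_eq_add_of_le hle
      have hAeq : A = (p : PowerSeries R) * A'' - B * PowerSeries.X := by
        rw [← hA'', hC']; ring
      obtain ⟨a, i, j, u, hu, h⟩ := ih m (by omega) (-B) A'' _ hs' (by
        refine mul_left_cancel₀ (pow_ne_zero p hϖ) ?_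
        rw [hAeq] at e
        linear_combination (PowerSeries.C (↑S.isUnit_w.unit⁻¹ : R)) * e -
          (B ^ 2 - A'' * B * PowerSeries.X + A'' ^ 2 * (p : PowerSeries R)) *
            PowerSeries.C S.ϖ ^ p * hwinv +
          (B ^ 2 - A'' * B * PowerSeries.X + A'' ^ 2 * (p : PowerSeries R)) *
            PowerSeries.C (↑S.isUnit_w.unit⁻¹ : R) * hp2)
      refine ⟨a, i, j + 1, u, hu, ?_⟩
      rw [hAeq]
      rw [nodeY, nodeT] at h ⊢
      simp only [map_sub, map_mul, map_neg, map_natCast] at h ⊢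
      linear_combination (AdjoinRoot.of (nodePoly R p) PowerSeries.X - nodeX) * h -
        AdjoinRoot.of (nodePoly R p) A'' * hxy
  · -- `X` divides
    obtain ⟨⟨A'', hA''⟩, hle⟩ := S.p_dvd_of_norm (C := A) (C' := C') (B := B) hCϖ hC0 hs e'
    obtain ⟨m, rfl⟩ := Nat.exists_eq_add_of_le hle
    obtain ⟨a, i, j, u, hu, h⟩ := ih m (by omega) (A'' * PowerSeries.X + B) (-A'') _ hs' (by
      refine mul_left_cancel₀ (pow_ne_zero p hϖ) ?_
      rw [hA''] at e
      linear_combination (PowerSeries.C (↑S.isUnit_w.unit⁻¹ : R)) * e -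
        (B ^ 2 + A'' * B * PowerSeries.X + A'' ^ 2 * (p : PowerSeries R)) *
          PowerSeries.C S.ϖ ^ p * hwinv +
        (B ^ 2 + A'' * B * PowerSeries.X + A'' ^ 2 * (p : PowerSeries R)) *
          PowerSeries.C (↑S.isUnit_w.unit⁻¹ : R) * hp2)
    refine ⟨a, i + 1, j, u, hu, ?_⟩
    rw [hA'']
    simp only [map_add, map_mul, map_neg, map_natCast] at h ⊢
    linear_combination nodeX * h - AdjoinRoot.of (nodePoly R p) A'' * hxy

omit [IsDomain (Node R p)] in
/-- Units of the node ring with `ϖ` inverted. -/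
theorem exists_monomial_of_dvd {g : Node R p} {m : ℕ} (h : g ∣ S.nodeϖ ^ m) :
    ∃ (a i j : ℕ) (u : Node R p), IsUnit u ∧ g = S.nodeϖ ^ a * nodeX ^ i * nodeY ^ j * u := by
  obtain ⟨h', hh⟩ := h
  obtain ⟨A, B, rfl⟩ := exists_eq_add g
  obtain ⟨A', B', rfl⟩ := exists_eq_add h'
  set N := A ^ 2 + A * B * PowerSeries.X + B ^ 2 * (p : PowerSeries R) with hN
  set N' := A' ^ 2 + A' * B' * PowerSeries.X + B' ^ 2 * (p : PowerSeries R) with hN'
  have hmul : (PowerSeries.C S.ϖ : PowerSeries R) ^ (2 * m) = N * N' := by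
    have h1 := mul_nodeConj (p := p) A B
    have h2 := mul_nodeConj (p := p) A' B'
    have h3 := congrArg nodeConj hh
    rw [map_pow, map_mul, nodeConj_of] at h3
    have e : AdjoinRoot.of (nodePoly R p) (PowerSeries.C S.ϖ ^ (2 * m)) =
        AdjoinRoot.of _ (N * N') := by
      rw [hN, hN', map_mul, ← h1, ← h2, map_pow, two_mul, pow_add]
      nth_rewrite 2 [h3]
      rw [hh]
      ring
    obtain ⟨h0, -⟩ := eq_zero_of_add_eq_zero (A := PowerSeries.C S.ϖ ^ (2 * m) - N * N') (B := 0)
      (p := p) (by simp [e])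
    exact sub_eq_zero.1 h0
  obtain ⟨M, -, hM⟩ := (dvd_prime_pow S.prime_C_ϖ (2 * m)).1 (Dvd.intro N' hmul.symm)
  obtain ⟨v, hv⟩ := hM.symm
  exact S.exists_monomial_of_norm M A B v v.isUnit hv.symm

/-- Inclusion of polynomials in `X`. -/
noncomputable def polyX : R[X] →+* Node R p :=
  eval₂RingHom ((AdjoinRoot.of _).comp PowerSeries.C) nodeX

omit [IsDomain R] [IsDiscreteValuationRing R] [CharP k p] [Fact p.Prime] [IsDomain (Node R p)] in
lemma polyX_C (r : R) : (polyX (p := p)) (C r) = AdjoinRoot.of _ (PowerSeries.C r) := by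
  simp [polyX]

omit [IsDomain R] [IsDiscreteValuationRing R] [CharP k p] [Fact p.Prime] [IsDomain (Node R p)] in
lemma polyX_X : (polyX (R := R) (p := p)) X = nodeX := by simp [polyX]

omit [IsDomain R] [IsDiscreteValuationRing R] [CharP k p] [Fact p.Prime] [IsDomain (Node R p)] in
/-- After multiplying by a power of `X`, polynomials in `T` and `X` are polynomials in `X`. -/
lemma exists_mul_pow_eq_polyX (q q' : R[X]) : ∃ (n : ℕ) (F : R[X]),
    (AdjoinRoot.of (nodePoly R p) (q : PowerSeries R) +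
      AdjoinRoot.of _ (q' : PowerSeries R) * nodeX)
      * nodeX ^ n = polyX F := by
  have h : ∀ q : R[X], ∃ (n : ℕ) (F : R[X]),
      AdjoinRoot.of (nodePoly R p) (q : PowerSeries R) * nodeX ^ n = polyX F := by
    intro q
    induction q using Polynomial.induction_on' with
    | add a b ha hb =>
      obtain ⟨n, F, hF⟩ := ha
      obtain ⟨n', F', hF'⟩ := hb
      refine ⟨n + n', F * X ^ n' + F' * X ^ n, ?_⟩
      simp only [map_add, Polynomial.coe_add, map_mul, map_pow, polyX_X, ← hF, ← hF']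
      ring
    | monomial j r =>
      refine ⟨j, C r * (X ^ 2 + C (p : R)) ^ j, ?_⟩
      have hxy := nodeX_mul_nodeY (R := R) (p := p)
      rw [nodeY, nodeT] at hxy
      rw [← C_mul_X_pow_eq_monomial]
      simp only [map_mul, map_pow, map_add, polyX_X, polyX_C, map_natCast, Polynomial.coe_mul,
        Polynomial.coe_pow, Polynomial.coe_C, Polynomial.coe_X]
      rw [mul_assoc, ← mul_pow]
      congr 2
      linear_combination hxy
  obtain ⟨n, F, hF⟩ := h q
  obtain ⟨n', F', hF'⟩ := h q'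
  refine ⟨n + n', F * X ^ n' + F' * X ^ (n + 1), ?_⟩
  simp only [map_add, map_mul, map_pow, polyX_X, ← hF, ← hF']
  ring

variable {B : Type*} [CommRing B] [Algebra (Node R p) B] [IsLocalization.Away S.nodeϖ B]

include S in
omit [CharP k p] [Fact p.Prime] [IsDomain (Node R p)] in
lemma isUnit_algebraMap_nodeX : IsUnit (algebraMap (Node R p) B nodeX) := by
  refine isUnit_of_mul_isUnit_left (y := algebraMap (Node R p) B nodeY) ?_
  rw [← map_mul, nodeX_mul_nodeY, S.natCast_node_eq, map_mul, map_pow]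
  exact ((IsLocalization.Away.algebraMap_isUnit _).pow p).mul
    (((S.isUnit_w.map _).map _).map _)

include S in
omit [CharP k p] [Fact p.Prime] [IsDomain (Node R p)] in
lemma isUnit_algebraMap_const {c : R} (hc : c ≠ 0) :
    IsUnit (algebraMap (Node R p) B (AdjoinRoot.of _ (PowerSeries.C c))) := by
  obtain ⟨n, u, rfl⟩ := IsDiscreteValuationRing.eq_unit_mul_pow_irreducible hc S.irreducible_ϖ
  rw [map_mul, map_pow, map_mul, map_pow, map_mul, map_pow]
  exact (((u.isUnit.map _).map _).map _).mul ((IsLocalization.Away.algebraMap_isUnit _).pow n)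

omit [CharP k p] [Fact p.Prime] [IsDomain (Node R p)] in
/-- Pseudo-division by an element of least degree. -/
lemma exists_generator (J : Ideal R[X]) : ∃ P ∈ J, ∀ F ∈ J, ∃ (c : R) (G : R[X]),
    c ≠ 0 ∧ C c * F = P * G := by
  classical
  by_cases hJ : ∀ F ∈ J, F = 0
  · exact ⟨0, J.zero_mem, fun F hF => ⟨1, 0, one_ne_zero, by rw [hJ F hF]; simp⟩⟩
  push Not at hJ
  obtain ⟨F0, hF0, hF0'⟩ := hJ
  have hex : ∃ n, ∃ F ∈ J, F ≠ 0 ∧ F.natDegree = n := ⟨_, F0, hF0, hF0', rfl⟩
  obtain ⟨P, hP, hP0, hPn⟩ := Nat.find_spec hex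
  refine ⟨P, hP, fun F hF => ?_⟩
  induction hn : F.natDegree using Nat.strong_induction_on generalizing F with
  | _ n ih =>
    by_cases hF0 : F = 0
    · exact ⟨1, 0, one_ne_zero, by simp [hF0]⟩
    have hle : P.natDegree ≤ n := hn ▸ hPn ▸ Nat.find_min' hex ⟨F, hF, hF0, rfl⟩
    set F' := C P.leadingCoeff * F - C F.leadingCoeff * X ^ (n - P.natDegree) * P with hF'
    have hF'J : F' ∈ J := J.sub_mem (J.mul_mem_left _ hF) (J.mul_mem_left _ hP)
    have hlc : P.leadingCoeff ≠ 0 := leadingCoeff_ne_zero.2 hP0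
    by_cases h0 : F' = 0
    · exact ⟨_, C F.leadingCoeff * X ^ (n - P.natDegree), hlc, by
        rw [hF', sub_eq_zero] at h0; linear_combination h0⟩
    have hdeg : F'.natDegree < n := by
      have hle' : F'.natDegree ≤ n := by
        rw [hF']
        refine (natDegree_sub_le _ _).trans (max_le ?_ ?_)
        · exact (natDegree_C_mul_le _ _).trans hn.le
        · refine natDegree_mul_le.trans ?_
          have := natDegree_C_mul_X_pow_le F.leadingCoeff (n - P.natDegree)
          omega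
      refine lt_of_le_of_ne hle' fun he => h0 ?_
      refine leadingCoeff_eq_zero.1 ?_
      rw [leadingCoeff, he, hF', coeff_sub, coeff_C_mul, mul_assoc, coeff_C_mul,
        coeff_X_pow_mul', if_pos (Nat.sub_le _ _), Nat.sub_sub_self hle]
      simp only [leadingCoeff, hn]
      ring
    obtain ⟨c, G, hc, hG⟩ := ih F'.natDegree hdeg F' hF'J rfl
    refine ⟨c * P.leadingCoeff, G + C c * C F.leadingCoeff * X ^ (n - P.natDegree),
      mul_ne_zero hc hlc, ?_⟩
    rw [hF'] at hG
    rw [map_mul]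
    linear_combination hG

omit [CharP k p] [Fact (Nat.Prime p)] in
include S in
/-- The node ring with `ϖ` inverted is a principal ideal domain. -/
theorem isPrincipalIdealRing_away [IsDomain B] : IsPrincipalIdealRing B := by
  have : IsAdicComplete (IsLocalRing.maximalIdeal R) R := by
    rw [S.irreducible_ϖ.maximalIdeal_eq]; exact S.complete
  refine IsPrincipalIdealRing.of_prime fun P hP => ?_
  by_cases hbot : P = ⊥
  · exact hbot ▸ inferInstance
  set P' := P.comap (algebraMap (Node R p) B)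
  have hP' : P'.IsPrime := Ideal.IsPrime.comap _
  have hϖ : S.nodeϖ ∉ P' := fun h => hP.ne_top (P.eq_top_of_isUnit_mem h
    (IsLocalization.Away.algebraMap_isUnit _))
  -- a monic polynomial in `T` inside the prime
  obtain ⟨q, hqm, hq⟩ : ∃ q : R[X],
      q.Monic ∧ AdjoinRoot.of (nodePoly R p) (q : PowerSeries R) ∈ P' := by
    obtain ⟨b, hb, hb0⟩ := Submodule.exists_mem_ne_zero_of_ne_bot hbot
    obtain ⟨⟨g, ⟨_, n, rfl⟩⟩, hg⟩ := IsLocalization.surj (Submonoid.powers S.nodeϖ) b
    simp only at hg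
    have hgP : g ∈ P' := by
      show algebraMap _ B g ∈ P
      rw [← hg]; exact P.mul_mem_right _ hb
    have hg0 : g ≠ 0 := fun h => by
      rw [h, map_zero] at hg
      rcases mul_eq_zero.1 hg with h' | h'
      · exact hb0 h'
      · exact ((IsLocalization.map_units B (⟨S.nodeϖ ^ n, n, rfl⟩ :
          Submonoid.powers S.nodeϖ)).ne_zero) h'
    obtain ⟨A, B', rfl⟩ := exists_eq_add g
    have hN := P'.mul_mem_right (nodeConj (AdjoinRoot.of _ A + AdjoinRoot.of _ B' * nodeX)) hgP
    rw [mul_nodeConj] at hN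
    set N := A ^ 2 + A * B' * PowerSeries.X + B' ^ 2 * (p : PowerSeries R)
    have hN0 : N ≠ 0 := fun h0 => by
      have h := mul_nodeConj (p := p) A B'
      rw [show A ^ 2 + A * B' * PowerSeries.X + B' ^ 2 * (p : PowerSeries R) = 0 from h0,
        map_zero] at h
      rcases mul_eq_zero.1 h with h | h
      · exact hg0 h
      · rw [map_add, map_mul, nodeConj_of, nodeConj_of, nodeConj_nodeX, nodeY, nodeT] at h
        obtain ⟨hA, hB⟩ := eq_zero_of_add_eq_zero (A := A + B' * PowerSeries.X) (B := -B') (p := p)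
          (by rw [map_add, map_mul, map_neg]; linear_combination h)
        rw [neg_eq_zero] at hB
        rw [hB, zero_mul, add_zero] at hA
        exact hg0 (by rw [hA, hB]; simp)
    obtain ⟨m, s, hs, hs'⟩ := S.exists_eq_pow_mul hN0
    rw [hs', map_mul, map_pow] at hN
    have hsP : AdjoinRoot.of (nodePoly R p) s ∈ P' :=
      (hP'.mem_or_mem hN).resolve_left fun h => hϖ (hP'.mem_of_pow_mem m h)
    have hres : s.map (IsLocalRing.residue R) ≠ 0 := fun h => hs (S.fst_δS_eq_zero_iff.2 (by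
      ext i
      have h' := PowerSeries.ext_iff.1 h i
      rw [PowerSeries.coeff_map, map_zero, IsLocalRing.residue_eq_zero_iff,
        S.irreducible_ϖ.maximalIdeal_eq, Ideal.mem_span_singleton] at h'
      simpa [S.res_eq_zero_iff] using h'))
    obtain ⟨f, u, hfu⟩ := PowerSeries.exists_isWeierstrassFactorization hres
    refine ⟨f, hfu.isDistinguishedAt.monic, ?_⟩
    rw [hfu.eq_mul, map_mul] at hsP
    exact (hP'.mem_or_mem hsP).resolve_right fun h =>
      hP'.ne_top (P'.eq_top_of_isUnit_mem h (hfu.isUnit.map _))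
  obtain ⟨P0, hP0, hgen⟩ := exists_generator (P'.comap polyX)
  refine ⟨⟨algebraMap (Node R p) B (polyX P0), le_antisymm (fun b hb => ?_) ?_⟩⟩
  · -- reduce modulo `q` to a polynomial in `X`
    obtain ⟨⟨g, ⟨_, n, rfl⟩⟩, hg⟩ := IsLocalization.surj (Submonoid.powers S.nodeϖ) b
    simp only at hg
    have hgP : g ∈ P' := by
      show algebraMap _ B g ∈ P
      rw [← hg]; exact P.mul_mem_right _ hb
    rw [Ideal.submodule_span_eq, Ideal.mem_span_singleton]
    refine ((IsLocalization.map_units B (⟨S.nodeϖ ^ n, n, rfl⟩ :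
      Submonoid.powers S.nodeϖ)).dvd_mul_right).1 ?_
    rw [hg]
    -- the set of multiples
    have hmem : ∀ F : R[X], polyX F ∈ P' →
        algebraMap (Node R p) B (polyX P0) ∣ algebraMap (Node R p) B (polyX F) := by
      intro F hF
      obtain ⟨c, G, hc, hG⟩ := hgen F hF
      refine ((S.isUnit_algebraMap_const (B := B) hc).dvd_mul_left).1 ?_
      rw [← map_mul, ← polyX_C, ← map_mul polyX, hG, map_mul, map_mul]
      exact dvd_mul_right _ _
    have hqdvd : algebraMap (Node R p) B (polyX P0) ∣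
        algebraMap (Node R p) B (AdjoinRoot.of _ (q : PowerSeries R)) := by
      obtain ⟨m, F, hF⟩ := exists_mul_pow_eq_polyX (p := p) q 0
      rw [Polynomial.coe_zero, map_zero, zero_mul, add_zero] at hF
      have := hmem F (hF ▸ P'.mul_mem_right _ hq)
      rw [← hF, map_mul, map_pow] at this
      exact ((S.isUnit_algebraMap_nodeX.pow m).dvd_mul_right).1 this
    obtain ⟨A, B', rfl⟩ := exists_eq_add g
    have hqres : (q : PowerSeries R).map (IsLocalRing.residue R) ≠ 0 := fun h => by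
      have h' := PowerSeries.ext_iff.1 h q.natDegree
      rw [PowerSeries.coeff_map, Polynomial.coeff_coe, hqm.coeff_natDegree, map_one, map_zero] at h'
      exact one_ne_zero h'
    obtain ⟨a, rA, -, hA⟩ := PowerSeries.exists_isWeierstrassDivision (f := A) hqres
    obtain ⟨a', rB, -, hB⟩ := PowerSeries.exists_isWeierstrassDivision (f := B') hqres
    obtain ⟨m, F, hF⟩ := exists_mul_pow_eq_polyX (p := p) rA rB
    have hsplit : AdjoinRoot.of (nodePoly R p) A + AdjoinRoot.of _ B' * nodeX =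
        AdjoinRoot.of _ (q : PowerSeries R) * (AdjoinRoot.of _ a + AdjoinRoot.of _ a' * nodeX) +
        (AdjoinRoot.of _ (rA : PowerSeries R) + AdjoinRoot.of _ (rB : PowerSeries R) * nodeX) := by
      rw [hA, hB, map_add, map_mul, map_add, map_mul]; ring
    rw [hsplit, map_add]
    refine dvd_add (by rw [map_mul]; exact hqdvd.mul_right _) ?_
    refine ((S.isUnit_algebraMap_nodeX.pow m).dvd_mul_right).1 ?_
    rw [← map_pow, ← map_mul, hF]
    refine hmem F (hF ▸ P'.mul_mem_right _ ?_)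
    rw [hsplit] at hgP
    exact (P'.add_mem_iff_right (P'.mul_mem_right _ hq)).1 hgP
  · rw [Ideal.submodule_span_eq, Ideal.span_le, Set.singleton_subset_iff]
    exact hP0

end Setup

end Fermat.Agent.LevelLowerP
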