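import Fermat.Agent.LevelLowerP.Roots

/-!
# Normalisation of an approximate `p`th power

One constant makes a function congruent to `p`th powers modulo every power of `ϖ`.

Main result: `Emb.exists_normalised`.
-/

set_option autoImplicit false

namespace Fermat.Agent.LevelLowerP

open DualNumber TrivSqZeroExt
open scoped LaurentSeries

variable {p : ℕ} {R k : Type*} [CommRing R] [IsDomain R] [IsDiscreteValuationRing R] [Field k]
  [CharP k p] [Fact p.Prime] [PerfectRing k p] {S : Setup p R k} {L κ : Type*} [Field L] [Field κ]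
  [Algebra R L] [Algebra k κ]

namespace GBranch

variable (G : GBranch S L κ)

/-- `y ≡ 1` modulo `ϖ ^ n` on the component. -/
def Cong (n : ℕ) (y : L) : Prop := G.Ge n (y - 1)

end GBranch

namespace Emb

variable {G : GBranch S L κ} {O : Type*} [CommRing O] [IsDomain O]
  {B : Branch O (LaurentSeries k)} {F : Type*} [Field F] [Algebra O F] [IsFractionRing O F]
  (E : Emb G B F)

omit [IsDomain R] [IsDiscreteValuationRing R] [CharP k p] [Fact (Nat.Prime p)]
    [PerfectRing k p] in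
lemma ι_ϖ : E.ι (algebraMap R L S.ϖ) = algebraMap O F B.ϖ := by rw [E.ι_algebraMap, E.cst_ϖ]

omit [IsDomain R] [IsDiscreteValuationRing R] [CharP k p] [Fact (Nat.Prime p)]
    [PerfectRing k p] in
lemma close_of_cong {n : ℕ} {y : L} (h : G.Cong n y) : B.Close n (E.ι y) := by
  obtain ⟨d, hd, e⟩ := E.exists_eq_mul_of_ge (n := n) h
  refine ⟨⟨E.ι d, E.isInt_iff.2 hd⟩, ?_⟩
  have := congrArg E.ι e
  rw [map_mul, map_pow, E.ι_ϖ, map_sub, map_one] at this
  linear_combination this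

omit [IsDomain R] [IsDiscreteValuationRing R] [CharP k p] [Fact (Nat.Prime p)]
    [PerfectRing k p] in
lemma cong_of_close {n : ℕ} {y : L} (h : B.Close n (E.ι y)) : G.Cong n y := by
  obtain ⟨d, hd⟩ := h
  have hπ := pow_ne_zero n E.algebraMap_ϖ_ne_zero
  have e : y - 1 = algebraMap R L S.ϖ ^ n * ((y - 1) * (algebraMap R L S.ϖ ^ n)⁻¹) := by field_simp
  have hge : G.Ge 0 ((y - 1) * (algebraMap R L S.ϖ ^ n)⁻¹) := by
    rw [← E.isInt_iff]
    have hπF : algebraMap O F B.ϖ ^ n ≠ 0 := pow_ne_zero _ (Branch.algebraMap_ne_zero B.ϖ_ne_zero)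
    have : E.ι ((y - 1) * (algebraMap R L S.ϖ ^ n)⁻¹) = d := by
      rw [map_mul, map_inv₀, map_pow, E.ι_ϖ, map_sub, map_one, hd]
      field_simp
      ring
    rw [this]
    exact d.2
  rw [GBranch.Cong, e]
  simpa using G.ge_mul (E.ge_ϖ_pow n) hge

omit [PerfectRing k p] [IsDomain R] [IsDiscreteValuationRing R] [CharP k p]
    [Fact (Nat.Prime p)] in
include E in
lemma cong_mul {n : ℕ} {x y : L} (hx : G.Cong n x) (hy : G.Cong n y) : G.Cong n (x * y) := by
  have hy0 : G.Ge 0 y := by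
    have := E.ge_add (G.ge_mono (Int.natCast_nonneg n) hy) E.ge_one
    rwa [sub_add_cancel] at this
  have : x * y - 1 = (x - 1) * y + (y - 1) := by ring
  rw [GBranch.Cong, this]
  refine E.ge_add ?_ hy
  simpa using G.ge_mul hx hy0

omit [PerfectRing k p] [IsDomain R] [IsDiscreteValuationRing R] [CharP k p]
    [Fact (Nat.Prime p)] in
lemma _root_.Fermat.Agent.LevelLowerP.GBranch.cong_mono {m n : ℕ} (h : m ≤ n) {x : L}
    (hx : G.Cong n x) : G.Cong m x :=
  G.ge_mono (by exact_mod_cast h) hx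

omit [PerfectRing k p] [IsDomain R] [IsDiscreteValuationRing R] [CharP k p]
    [Fact (Nat.Prime p)] in
include E in
lemma cong_algebraMap {n : ℕ} {r : R} (h : S.ϖ ^ n ∣ r - 1) : G.Cong n (algebraMap R L r) := by
  obtain ⟨d, hd⟩ := h
  rw [GBranch.Cong, ← map_one (algebraMap R L), ← map_sub, hd, map_mul, map_pow]
  simpa using G.ge_mul (E.ge_ϖ_pow n) (E.ge_algebraMap d)

omit [PerfectRing k p] [IsDomain R] [IsDiscreteValuationRing R] [CharP k p]
    [Fact (Nat.Prime p)] in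
include E in
lemma ord_zpow_ϖ (i : ℤ) : G.ord (algebraMap R L S.ϖ ^ i) = i := by
  rcases Int.eq_nat_or_neg i with ⟨m, rfl | rfl⟩
  · rw [zpow_natCast, E.ord_pow E.algebraMap_ϖ_ne_zero, G.ord_ϖ, mul_one]
  · rw [zpow_neg, zpow_natCast, E.ord_inv (pow_ne_zero _ E.algebraMap_ϖ_ne_zero),
      E.ord_pow E.algebraMap_ϖ_ne_zero, G.ord_ϖ, mul_one]

omit [IsDomain R] [IsDiscreteValuationRing R] [CharP k p] [Fact (Nat.Prime p)]
    [PerfectRing k p] in
include E in
lemma ord_of_cong {n : ℕ} (hn : 1 ≤ n) {y : L} (h : G.Cong n y) : y ≠ 0 ∧ G.ord y = 0 := by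
  obtain ⟨h1, h2, -⟩ := B.ord_of_close hn (E.close_of_cong h)
  have hy : y ≠ 0 := fun e => h1 (by rw [e, map_zero])
  exact ⟨hy, by rw [← E.ord_eq y hy, h2]⟩

omit [CharP k p] [Fact (Nat.Prime p)] [PerfectRing k p] in
include E in
/-- Approximations by a unit constant times a `p`th power, after removing `ϖ ^ ord f`. -/
lemma unit_approx {f : L} (hf : f ≠ 0) (h : G.PowApprox f) (N : ℕ) (hN : 1 ≤ N) :
    ∃ (u : Rˣ) (g : L), g ≠ 0 ∧
      G.Cong N (f * algebraMap R L S.ϖ ^ (-G.ord f) * algebraMap R L u / g ^ p) := by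
  obtain ⟨r, s, g, hr, hs, hg, hc⟩ := h N
  have hπ := E.algebraMap_ϖ_ne_zero
  obtain ⟨a, u, rfl⟩ := IsDiscreteValuationRing.eq_unit_mul_pow_irreducible hr S.irreducible_ϖ
  obtain ⟨b, v, rfl⟩ := IsDiscreteValuationRing.eq_unit_mul_pow_irreducible hs S.irreducible_ϖ
  have hu : G.ord (algebraMap R L u) = 0 := G.ord_const _ (S.isUnit_iff_res_ne_zero.1 u.isUnit)
  have hv : G.ord (algebraMap R L v) = 0 := G.ord_const _ (S.isUnit_iff_res_ne_zero.1 v.isUnit)
  have huL := (u.isUnit.map (algebraMap R L)).ne_zero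
  have hvL := (v.isUnit.map (algebraMap R L)).ne_zero
  rw [map_mul, map_mul, map_pow, map_pow] at hc
  obtain ⟨hne, h0⟩ := E.ord_of_cong hN hc
  have h1 : f * (algebraMap R L v * algebraMap R L S.ϖ ^ b) ≠ 0 :=
    mul_ne_zero hf (mul_ne_zero hvL (pow_ne_zero _ hπ))
  have h2 : algebraMap R L u * algebraMap R L S.ϖ ^ a * g ^ p ≠ 0 :=
    mul_ne_zero (mul_ne_zero huL (pow_ne_zero _ hπ)) (pow_ne_zero _ hg)
  rw [div_eq_mul_inv, G.ord_mul _ _ h1 (inv_ne_zero h2), E.ord_inv h2,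
    G.ord_mul _ _ hf (mul_ne_zero hvL (pow_ne_zero _ hπ)), G.ord_mul _ _ hvL (pow_ne_zero _ hπ),
    G.ord_mul _ _ (mul_ne_zero huL (pow_ne_zero _ hπ)) (pow_ne_zero _ hg),
    G.ord_mul _ _ huL (pow_ne_zero _ hπ), hu, hv, E.ord_pow hπ, E.ord_pow hπ, E.ord_pow hg, G.ord_ϖ]
    at h0
  obtain ⟨inv, hinv⟩ : ∃ i : Rˣ, i = v * u⁻¹ := ⟨_, rfl⟩
  refine ⟨inv, g * algebraMap R L S.ϖ ^ (-G.ord g), mul_ne_zero hg (zpow_ne_zero _ hπ), ?_⟩
  have huinv : algebraMap R L (↑u⁻¹ : R) = (algebraMap R L (u : R))⁻¹ :=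
    eq_inv_of_mul_eq_one_left (by rw [← map_mul, Units.inv_mul, map_one])
  have e : -G.ord f = (b : ℤ) - a - p * G.ord g := by linarith
  suffices h3 : f * algebraMap R L S.ϖ ^ (-G.ord f) * algebraMap R L (inv : R) /
      (g * algebraMap R L S.ϖ ^ (-G.ord g)) ^ p =
      f * (algebraMap R L v * algebraMap R L S.ϖ ^ b) /
        (algebraMap R L u * algebraMap R L S.ϖ ^ a * g ^ p) by
    rw [h3]; exact hc
  rw [hinv, Units.val_mul, map_mul, huinv, e, zpow_sub₀ hπ, zpow_sub₀ hπ, mul_pow,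
    ← zpow_natCast (algebraMap R L S.ϖ ^ (-G.ord g)) p, ← zpow_mul,
    show (-G.ord g) * (p : ℤ) = -((p : ℤ) * G.ord g) by ring, zpow_neg]
  simp only [zpow_natCast]
  field_simp

include E in
/-- A constant congruent to a `p`th power times one is congruent to a `p`th power. -/
lemma const_of_cong (hp2 : p ≠ 2) (hB : Setup.IsConst S B E.cst) {N : ℕ} (hN : 1 ≤ N) {r : R}
    (hr : S.res r ≠ 0) {g : L} (hg : g ≠ 0) (h : G.Cong N (algebraMap R L r * g ^ p)) :
    ∃ c : Rˣ, S.ϖ ^ N ∣ r * (c : R) ^ p - 1 := by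
  have hp := (Fact.out : p.Prime)
  obtain ⟨j, rfl⟩ := Nat.exists_eq_add_of_le hN
  have hr0 : r ≠ 0 := fun e => hr (by rw [e, map_zero])
  have h0 := (E.ord_of_cong hN h).2
  rw [G.ord_mul _ _ (E.algebraMap_ne_zero hr0) (pow_ne_zero _ hg), G.ord_const r hr, zero_add,
    E.ord_pow hg, mul_eq_zero, or_iff_right (by exact_mod_cast hp.ne_zero)] at h0
  obtain ⟨d, hd⟩ := E.close_of_cong h
  have hgV : B.IsInt (E.ι g) := E.isInt_iff.2 (Or.inr h0.ge)
  have hV : B.toIntRing F (E.cst r) * (⟨E.ι g, hgV⟩ : B.intRing F) ^ p =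
      1 + B.toIntRing F (E.cst S.ϖ) ^ (1 + j) * d := by
    apply Subtype.ext
    simp only [Subring.coe_mul, SubmonoidClass.coe_pow, Subring.coe_add, Subring.coe_one,
      Branch.coe_toIntRing]
    rw [E.cst_ϖ, ← hd, map_mul, map_pow, E.ι_algebraMap]
  have hϖ : B.toIntRing F (E.cst S.ϖ) = B.intϖ := by rw [hB.map_ϖ]; rfl
  obtain ⟨c, hc⟩ := S.const_pow hp2 B.intRes ((B.toIntRing F).comp E.cst)
    (fun v => by rw [RingHom.comp_apply, hϖ]; exact B.intRes_eq_zero_iff)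
    (by rw [RingHom.comp_apply, hϖ]; exact B.intϖ_ne_zero)
    (fun s => by rw [RingHom.comp_apply, Branch.intRes_toIntRing, hB.res_map]) (r := r)
    (z := ⟨E.ι g, hgV⟩) j ⟨d, by
      rw [RingHom.comp_apply, RingHom.comp_apply, add_comm j 1, hV]; ring⟩
  rw [add_comm j 1] at hc
  have hcu : IsUnit c := by
    refine (isUnit_pow_iff hp.ne_zero).1 (isUnit_of_mul_isUnit_right (x := r) ?_)
    rw [S.isUnit_iff_res_ne_zero]
    intro hz
    have := S.res_eq_zero_iff.2 ((dvd_pow_self S.ϖ (by omega : 1 + j ≠ 0)).trans hc)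
    rw [map_sub, hz, map_one, zero_sub, neg_eq_zero] at this
    exact one_ne_zero this
  exact ⟨hcu.unit, hc⟩

include E in
/-- One constant serves for all levels. -/
theorem exists_normalised (hp2 : p ≠ 2) (hB : Setup.IsConst S B E.cst) {f : L} (hf : f ≠ 0)
    (h : G.PowApprox f) :
    ∃ t : Rˣ, ∀ N : ℕ, ∃ g : L, g ≠ 0 ∧
      G.Cong N (f * algebraMap R L S.ϖ ^ (-G.ord f) * algebraMap R L t / g ^ p) := by
  classical
  obtain ⟨f', hf'def⟩ : ∃ y, y = f * algebraMap R L S.ϖ ^ (-G.ord f) := ⟨_, rfl⟩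
  rw [← hf'def]
  choose u g hg hc using fun N => E.unit_approx hf h (N + 1) (by omega)
  simp only [← hf'def] at hc
  let P : ℕ → Rˣ → Prop := fun N t =>
    ∃ g : L, g ≠ 0 ∧ G.Cong (N + 1) (f' * algebraMap R L t / g ^ p)
  have step : ∀ N t, P N t → ∃ t', P (N + 1) t' ∧ S.ϖ ^ (N + 1) ∣ (t' : R) - t := by
    rintro N t ⟨g0, hg0, hc0⟩
    have hc1 := hc (N + 1)
    obtain ⟨hy1, ho1⟩ := E.ord_of_cong (by omega) hc1
    set r : R := (t : R) * ((u (N + 1))⁻¹ : Rˣ)
    have hr : S.res r ≠ 0 := S.isUnit_iff_res_ne_zero.1 (t.isUnit.mul (Units.isUnit _))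
    -- the quotient of the two approximations
    have hq : G.Cong (N + 1) (algebraMap R L r * (g (N + 1) / g0) ^ p) := by
      have hinv : G.Cong (N + 1) (f' * algebraMap R L (u (N + 1)) / g (N + 1) ^ p)⁻¹ := by
        have hy0 : G.Ge 0 (f' * algebraMap R L (u (N + 1)) / g (N + 1) ^ p)⁻¹ :=
          Or.inr (by rw [E.ord_inv hy1, ho1]; rfl)
        have e : (f' * algebraMap R L (u (N + 1)) / g (N + 1) ^ p)⁻¹ - 1 =
            -((f' * algebraMap R L (u (N + 1)) / g (N + 1) ^ p - 1) *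
              (f' * algebraMap R L (u (N + 1)) / g (N + 1) ^ p)⁻¹) := by
          rw [sub_mul, mul_inv_cancel₀ hy1]; ring
        rw [GBranch.Cong, e]
        refine E.ge_neg ?_
        simpa using G.ge_mul (GBranch.cong_mono (m := N + 1) (by omega) hc1) hy0
      have hf' : f' ≠ 0 := hf'def ▸ mul_ne_zero hf (zpow_ne_zero _ E.algebraMap_ϖ_ne_zero)
      convert E.cong_mul hc0 hinv using 1
      have hgN := pow_ne_zero p (hg (N + 1))
      have hui : algebraMap R L (↑(u (N + 1))⁻¹ : R) = (algebraMap R L (u (N + 1) : R))⁻¹ :=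
        eq_inv_of_mul_eq_one_left (by rw [← map_mul, Units.inv_mul, map_one])
      rw [map_mul, hui, div_pow]
      field_simp
    obtain ⟨c, hc'⟩ := E.const_of_cong hp2 hB (by omega) hr (div_ne_zero (hg (N + 1)) hg0) hq
    refine ⟨u (N + 1) * (c ^ p)⁻¹, ⟨g (N + 1) * algebraMap R L ((c⁻¹ : Rˣ) : R),
      mul_ne_zero (hg _) ((Units.isUnit _).map _).ne_zero, ?_⟩, ?_⟩
    · convert hc (N + 1) using 1
      have hcp : algebraMap R L ((c⁻¹ : Rˣ) : R) ^ p ≠ 0 :=
        pow_ne_zero _ ((Units.isUnit _).map _).ne_zero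
      rw [Units.val_mul, ← inv_pow, Units.val_pow_eq_pow_val, map_mul, map_pow, mul_pow]
      field_simp
    · obtain ⟨d, hd⟩ := hc'
      refine ⟨-((u (N + 1) : R) * (((c ^ p)⁻¹ : Rˣ) : R) * d), ?_⟩
      have e1 : (c : R) ^ p * (((c ^ p)⁻¹ : Rˣ) : R) = 1 := by
        rw [← Units.val_pow_eq_pow_val, Units.mul_inv]
      have e2 : ((u (N + 1))⁻¹ : Rˣ) * (u (N + 1) : R) = (1 : R) := Units.inv_mul _
      rw [Units.val_mul]
      linear_combination -((u (N + 1) : R) * (((c ^ p)⁻¹ : Rˣ) : R)) * hd +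
        ((t : R) * (c : R) ^ p * (((c ^ p)⁻¹ : Rˣ) : R)) * e2 + (t : R) * e1
  have h0 : P 0 (u 0) := ⟨g 0, hg 0, hc 0⟩
  choose! nxt hnxtP hnxtd using step
  let seq : ℕ → Rˣ := fun N => Nat.rec (u 0) (fun m t => nxt m t) N
  have hseq : ∀ N, P N (seq N) := fun N => by
    induction N with
    | zero => exact h0
    | succ m ih => exact hnxtP m (seq m) ih
  have hd : ∀ m l : ℕ, S.ϖ ^ (m + 1) ∣ Units.val (seq (m + l)) - Units.val (seq m) := fun m l => by
    induction l with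
    | zero => simp
    | succ i ih =>
      have e : (seq (m + (i + 1)) : R) - seq m =
          ((seq (m + i + 1) : R) - seq (m + i)) + ((seq (m + i) : R) - seq m) := by
        rw [← add_assoc]; ring
      rw [e]
      exact dvd_add ((pow_dvd_pow _ (by omega)).trans (hnxtd _ _ (hseq _))) ih
  have hcomp : IsAdicComplete (Ideal.span {S.ϖ}) R := S.complete
  obtain ⟨t, ht⟩ := IsPrecomplete.prec' (I := Ideal.span {S.ϖ}) (fun m => Units.val (seq m))
    fun {m n} hmn => by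
      rw [SModEq.sub_mem, smul_eq_mul, Ideal.mul_top, Ideal.span_singleton_pow,
        Ideal.mem_span_singleton, ← dvd_neg, neg_sub]
      obtain ⟨l, rfl⟩ := Nat.exists_eq_add_of_le hmn
      exact (pow_dvd_pow _ (by omega : m ≤ m + 1)).trans (hd m l)
  have ht' : ∀ m, S.ϖ ^ m ∣ Units.val (seq m) - t := fun m => by
    have := ht m
    rwa [SModEq.sub_mem, smul_eq_mul, Ideal.mul_top, Ideal.span_singleton_pow,
      Ideal.mem_span_singleton] at this
  have htu : IsUnit t := by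
    rw [S.isUnit_iff_res_ne_zero]
    intro hz
    have := S.res_eq_zero_iff.2 (by simpa using ht' 1)
    rw [map_sub, hz, sub_zero] at this
    exact S.isUnit_iff_res_ne_zero.1 (seq 1).isUnit this
  refine ⟨htu.unit, fun N => ?_⟩
  obtain ⟨g', hg', hc'⟩ := hseq N
  refine ⟨g', hg', ?_⟩
  obtain ⟨d, hd'⟩ := ht' N
  have hfac : G.Cong N (algebraMap R L (((seq N)⁻¹ : Rˣ) * t)) := by
    refine E.cong_algebraMap ⟨-((((seq N)⁻¹ : Rˣ) : R) * d), ?_⟩
    have : (((seq N)⁻¹ : Rˣ) : R) * Units.val (seq N) = 1 := Units.inv_mul _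
    linear_combination this - (((seq N)⁻¹ : Rˣ) : R) * hd'
  convert E.cong_mul (GBranch.cong_mono (by omega) hc') hfac using 1
  rw [map_mul, IsUnit.unit_spec]
  have hs : algebraMap R L (Units.val (seq N)) * algebraMap R L (((seq N)⁻¹ : Rˣ) : R) = 1 := by
    rw [← map_mul, Units.mul_inv, map_one]
  linear_combination -(f' * algebraMap R L t / g' ^ p) * hs

end Emb

end Fermat.Agent.LevelLowerP
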