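import Fermat.Agent.LevelLowerP.Transfer
import Fermat.Agent.LevelLowerP.BaseField
import Fermat.Agent.LevelLowerP.GeoModelDef
import Fermat.Agent.LevelLowerP.SeriesNormC
import Fermat.Agent.Gal.Residue
import Fermat.Agent.Gal.Frobenius

/-!
# Functions from the fixed field

The functions of level `N` over the base which come from the fixed field of the stabiliser: roots
of unity of order prime to `p`, norms, and the relations of the Kummer function.

Main results: `exists_φ_eq_root`, `exists_norm_mem`, and the transport of relations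
`descend_rel`, `push_rel`.
-/

set_option autoImplicit false

noncomputable section

namespace Fermat.Agent.LevelLowerP

open ModularCurve IntermediateField Fermat.Agent.Igusa Fermat.Agent.Carayol
open scoped LaurentSeries

local notation "Qbar" => AlgebraicClosure ℚ
local notation "ΓQ" => (AlgebraicClosure ℚ ≃ₐ[ℚ] AlgebraicClosure ℚ)

section Inertia

variable {p : ℕ} {A : ValuationSubring (AlgebraicClosure ℚ)}

/-- Inertia fixes the roots of unity of order prime to `p`. -/
theorem apply_root_of_mem_inertia (hp : p.Prime) (hA : A.LiesOverPrime p) {n : ℕ} (hn : ¬ p ∣ n)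
    {ζ : Qbar} (hζ : ζ ^ n = 1) {σ : ΓQ} (hσ : σ ∈ A.inertiaSubgroupIn ℚ) : σ ζ = ζ := by
  have hn0 : n ≠ 0 := fun h => hn (h ▸ dvd_zero p)
  have hζA : ζ ∈ A := Gal.mem_of_isIntegral A
    ⟨Polynomial.X ^ n - 1, Polynomial.monic_X_pow_sub_C 1 hn0, by simp [hζ]⟩
  refine Gal.apply_eq_of_simple_root hσ (p := Polynomial.X ^ n - 1) (fun i => ?_) (fun i => ?_) hζA
    (by simp [hζ]) ?_
  · rw [Polynomial.coeff_sub, Polynomial.coeff_X_pow, Polynomial.coeff_one]
    split_ifs <;> simp [one_mem, zero_mem]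
  · rw [Polynomial.coeff_sub, Polynomial.coeff_X_pow, Polynomial.coeff_one]
    split_ifs <;> simp
  · intro h
    have e : (n : Qbar) = ζ * Polynomial.eval ζ (Polynomial.derivative (Polynomial.X ^ n - 1)) := by
      rw [Polynomial.derivative_sub, Polynomial.derivative_X_pow, Polynomial.derivative_one,
        sub_zero, Polynomial.eval_mul, Polynomial.eval_C, Polynomial.eval_pow, Polynomial.eval_X,
        mul_left_comm, ← pow_succ', Nat.sub_add_cancel (Nat.pos_of_ne_zero hn0), hζ, mul_one]
    exact hn ((Gal.natCast_mem_nonunits_iff A hp hA n).1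
      (e ▸ Gal.mul_mem_nonunits_right A hζA h))

theorem root_mem_fixedField (hp : p.Prime) (hA : A.LiesOverPrime p) (T : Qbar) {n : ℕ}
    (hn : ¬ p ∣ n) {ζ : Qbar} (hζ : ζ ^ n = 1) : ζ ∈ fixedField (stabInertia A T) :=
  (mem_fixedField_iff _ _).2 fun _ hσ => apply_root_of_mem_inertia hp hA hn hζ hσ.1

end Inertia

section Relations

variable {H : Subgroup ΓQ} {N : ℕ} [NeZero N] {p : ℕ}

theorem coeffMap_zpow {A B : Type*} [Field A] [Field B] (f : A →+* B) (x : LaurentSeries A)
    (n : ℤ) :
    coeffMap f (x ^ n) = coeffMap f x ^ n := map_zpow₀ _ x n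

/-- A relation between fixed functions, descended. -/
theorem descend_rel (f₁ : modularFunctionFieldFullC (fixedField H) N)
    {c : Qbar} {h : modularFunctionFieldBar N} {n : ℤ} {S : LaurentSeries (fixedField H)}
    (hc : c ≠ 0) (hh : h ≠ 0) (hcH : ∀ σ ∈ H, σ c = c) (hhH : FixedBy N H h)
    (e : coeffMap (algebraMap (fixedField H) Qbar) S = HahnSeries.C c *
      (upBar H N f₁ : LaurentSeries Qbar) ^ n * (h : LaurentSeries Qbar) ^ p) :
    ∃ (c₁ : fixedField H) (h₁ : modularFunctionFieldFullC (fixedField H) N),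
      (c₁ : Qbar) = c ∧ upBar H N h₁ = h ∧ c₁ ≠ 0 ∧ h₁ ≠ 0 ∧
      S = HahnSeries.C c₁ * (f₁ : LaurentSeries (fixedField H)) ^ n *
        (h₁ : LaurentSeries (fixedField H)) ^ p := by
  obtain ⟨h₁, rfl⟩ := exists_upBar_eq hhH
  set c₁ : fixedField H := ⟨c, (mem_fixedField_iff _ _).2 hcH⟩
  refine ⟨c₁, h₁, rfl, rfl, fun h0 => hc (congrArg Subtype.val h0),
    fun h0 => hh (by rw [h0, map_zero]), coeffMap_inj (algebraMap (fixedField H) Qbar) ?_⟩
  rw [e, map_mul, map_mul, map_pow, coeffMap_zpow, coeffMap_C']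
  rfl

/-- A relation pushed along an embedding. -/
theorem push_rel {K : Type*} [Field K] (φ : fixedField H →+* K)
    {f₁ h₁ : modularFunctionFieldFullC (fixedField H) N} {c₁ : fixedField H} {n : ℤ}
    {S : LaurentSeries (fixedField H)}
    (e : S = HahnSeries.C c₁ * (f₁ : LaurentSeries (fixedField H)) ^ n *
      (h₁ : LaurentSeries (fixedField H)) ^ p) :
    coeffMap φ S = HahnSeries.C (φ c₁) * (baseHom φ N f₁ : LaurentSeries K) ^ n *
      (baseHom φ N h₁ : LaurentSeries K) ^ p := by
  rw [e, map_mul, map_mul, map_pow, coeffMap_zpow, coeffMap_C', coe_baseHom, coe_baseHom]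

end Relations

section Base

variable {p : ℕ} [Fact p.Prime] {A : ValuationSubring (AlgebraicClosure ℚ)}
  {T₁ : AlgebraicClosure ℚ} (B : BaseData p A T₁)

/-- Roots of unity of order prime to `p` come from the fixed field. -/
theorem exists_φ_eq_root (hA : A.LiesOverPrime p) {n : ℕ} (hn : ¬ p ∣ n) {c : FractionRing B.R}
    (hc : c ^ n = 1) : ∃ z, B.φ z = c := by
  have hn0 : 0 < n := Nat.pos_of_ne_zero fun h => hn (h ▸ dvd_zero p)
  have : NeZero ((n : ℕ) : Qbar) := ⟨Nat.cast_ne_zero.2 hn0.ne'⟩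
  obtain ⟨ζ, hζ⟩ := HasEnoughRootsOfUnity.exists_primitiveRoot Qbar n
  set z : fixedField (stabInertia A T₁) :=
    ⟨ζ, root_mem_fixedField Fact.out hA T₁ hn hζ.pow_eq_one⟩
  have hz : IsPrimitiveRoot z n :=
    IsPrimitiveRoot.of_map_of_injective (f := algebraMap (fixedField (stabInertia A T₁)) Qbar) hζ
      (algebraMap (fixedField (stabInertia A T₁)) Qbar).injective
  have : NeZero n := ⟨hn0.ne'⟩
  obtain ⟨i, -, hi⟩ := (hz.map_of_injective B.φ.injective).eq_pow_of_pow_eq_one hc
  exact ⟨z ^ i, by rw [map_pow]; exact hi⟩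

variable (N : ℕ) [NeZero N]

/-- The functions from the fixed field. -/
def ratField : Subfield (modularFunctionFieldFullC (FractionRing B.R) N) :=
  (baseHom B.φ N).fieldRange

theorem baseHom_mem_ratField (x : modularFunctionFieldFullC (fixedField (stabInertia A T₁)) N) :
    baseHom B.φ N x ∈ ratField B N := ⟨x, rfl⟩

theorem mem_ratField_of_rootField (hA : A.LiesOverPrime p) {M : ℕ} [NeZero M] (hM : M ∣ N)
    {x : modularFunctionFieldFullC (FractionRing B.R) N}
    (hx : (x : LaurentSeries (FractionRing B.R)) ∈ rootField p (FractionRing B.R) M) :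
    x ∈ ratField B N := by
  have hle : rootField p (FractionRing B.R) M ≤
      ((SubringClass.subtype (modularFunctionFieldFullC (FractionRing B.R) N)).comp
        (baseHom B.φ N)).fieldRange := by
    rw [rootField, Subfield.closure_le]
    rintro _ (⟨z, hz, rfl⟩ | ⟨c, ⟨n, -, hn, hc⟩, rfl⟩)
    · change z ∈ modularFunctionFieldFull M at hz
      rw [← modularFunctionFieldFullC_rat] at hz
      refine ⟨baseHom (algebraMap ℚ _) N ⟨z, full_degeneracyC_le ℚ hM hz⟩, ?_⟩
      show Subtype.val (baseHom B.φ N _) = _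
      rw [coe_baseHom, coe_baseHom, coeffMap_coeffMap]
      exact congrArg (fun f => coeffMap f z) (Subsingleton.elim _ _)
    · obtain ⟨c', rfl⟩ := exists_φ_eq_root B hA hn hc
      refine ⟨algebraMap _ _ c', ?_⟩
      show Subtype.val (baseHom B.φ N _) = _
      rw [baseHom_algebraMap', coe_algebraMap', algebraMap_laurentSeries_eq_single,
        HahnSeries.C_apply]
  obtain ⟨y, hy⟩ := hle hx
  exact ⟨y, Subtype.ext hy⟩

/-- Norms of functions from the fixed field come from it. -/
theorem exists_norm_mem (hpN : p ∣ N) {g : modularFunctionFieldFullC (FractionRing B.R) N}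
    (hg : g ∈ ratField B N) :
    ∃ G ∈ ratField B N, (G : LaurentSeries (FractionRing B.R)) =
      seriesNorm p (g : LaurentSeries (FractionRing B.R)) := by
  have : NeZero p := ⟨(Fact.out : p.Prime).ne_zero⟩
  obtain ⟨g₁, rfl⟩ := hg
  obtain ⟨y, hy⟩ :=
    exists_coe_eq_seriesNorm (Fact.out : p.Prime) hpN (upBar (stabInertia A T₁) N g₁)
  obtain ⟨y₁, rfl⟩ := exists_upBar_eq (H := stabInertia A T₁) (x := y) fun σ hσ => by
    rw [hy, coeffMap_seriesNorm, fixedBy_upBar g₁ σ hσ]
  refine ⟨baseHom B.φ N y₁, baseHom_mem_ratField B N y₁, ?_⟩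
  have e : (y₁ : LaurentSeries (fixedField (stabInertia A T₁))) =
      seriesNorm p (g₁ : LaurentSeries (fixedField (stabInertia A T₁))) :=
    coeffMap_inj (algebraMap (fixedField (stabInertia A T₁)) Qbar) (by
      rw [coeffMap_seriesNorm, ← coe_upBar, ← coe_upBar]; exact hy)
  rw [coe_baseHom, e, coeffMap_seriesNorm]
  rfl

end Base

end Fermat.Agent.LevelLowerP
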