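import Mathlib.Algebra.CharP.Lemmas
import Mathlib.RingTheory.AdicCompletion.Basic
import Mathlib.Tactic

/-!
# Rigidity of `p`th roots

When the absolute ramification index is `p`, congruences modulo all powers
of the uniformizer give an exact root.

Main result: `exists_root_of_digits`.
-/

set_option autoImplicit false

namespace Fermat.Agent.LevelLowerP

variable {V : Type*} [CommRing V] {p : ℕ}

theorem exists_one_add_pow_eq (hp : p.Prime) (z : V) :
    ∃ r, (1 + z) ^ p = 1 + (p : V) * z + z ^ p + (p : V) * z ^ 2 * r := by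
  classical
  rw [add_comm (1 : V) z, add_pow_prime_eq hp z 1]
  have h1 : (1 : ℕ) ∈ Finset.Ioo 0 p := Finset.mem_Ioo.2 ⟨one_pos, hp.one_lt⟩
  rw [← Finset.add_sum_erase _ _ h1]
  refine ⟨∑ k ∈ (Finset.Ioo 0 p).erase 1, z ^ (k - 2) * (p.choose k / p : ℕ), ?_⟩
  have hs : ∀ k ∈ (Finset.Ioo 0 p).erase 1,
      z ^ (k - 1) * 1 ^ (p - k - 1) * ((p.choose k / p : ℕ) : V) =
        z * (z ^ (k - 2) * ((p.choose k / p : ℕ) : V)) := by
    intro k hk
    obtain ⟨hk1, hk2⟩ := Finset.mem_erase.1 hk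
    have : 0 < k := (Finset.mem_Ioo.1 hk2).1
    rw [one_pow, mul_one, ← mul_assoc, ← pow_succ']
    congr 2
    omega
  rw [Finset.sum_congr rfl hs, ← Finset.mul_sum, Nat.choose_one_right, Nat.div_self hp.pos]
  push_cast
  ring

variable {π w : V}

/-- What a root congruence says about the next digit. -/
theorem digit_of_pow {κ : Type*} [Field κ] [CharP κ p] [IsDomain V] (hp : p.Prime) (hp2 : p ≠ 2)
    (red : V →+* κ) (hker : ∀ v, red v = 0 ↔ π ∣ v) (hπ : π ≠ 0) (hw : (p : V) = π ^ p * w)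
    {γ a : V} {n : ℕ} (hn : 1 ≤ n) (h : π ^ (n + 1) ∣ γ ^ p - (1 + π ^ n * a)) :
    ((n < p ∨ n = p + 1) → red a = 0) ∧ (n = p → ∃ β, red a = β ^ p) := by
  have : Fact p.Prime := ⟨hp⟩
  have hp3 : 3 ≤ p := by have := hp.two_le; omega
  obtain ⟨c, hc⟩ := h
  have hγ : red γ = 1 := by
    have e := congrArg red hc
    rw [map_sub, map_add, map_mul, map_mul, map_pow, map_pow, map_pow, (hker π).2 dvd_rfl,
      zero_pow (by omega), zero_pow (by omega), zero_mul, zero_mul, map_one, add_zero,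
      sub_eq_zero] at e
    exact frobenius_inj κ p (by rw [frobenius_def, frobenius_def, e, one_pow])
  obtain ⟨β, hβ⟩ := (hker (γ - 1)).1 (by rw [map_sub, hγ, map_one, sub_self])
  obtain ⟨r, hr⟩ := exists_one_add_pow_eq hp (π * β)
  have hγ' : γ = 1 + π * β := by linear_combination hβ
  rw [hγ', hr, hw] at hc
  have cancel : ∀ x : V, π ^ n * a = π ^ (n + 1) * x → red a = 0 := by
    intro x hx
    rw [pow_succ, mul_assoc] at hx
    rw [mul_left_cancel₀ (pow_ne_zero n hπ) hx, map_mul, (hker π).2 dvd_rfl, zero_mul]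
  refine ⟨?_, ?_⟩
  · rintro (hn' | rfl)
    · obtain ⟨e, rfl⟩ := Nat.exists_eq_add_of_lt hn'
      refine cancel ((π * β * w + β ^ (n + e + 1)
        + π ^ 2 * w * β ^ 2 * r) * π ^ e - c) ?_
      linear_combination -hc
    · have hβ0 : red β = 0 := by
        have e : π ^ p * β ^ p = π ^ (p + 1) * (a + π * c - β * w - π * β ^ 2 * w * r) := by
          linear_combination hc
        rw [pow_succ, mul_assoc] at e
        have e' := congrArg red (mul_left_cancel₀ (pow_ne_zero p hπ) e)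
        rw [map_pow, map_mul, (hker π).2 dvd_rfl, zero_mul] at e'
        exact (pow_eq_zero_iff hp.ne_zero).1 e'
      obtain ⟨β', rfl⟩ := (hker β).1 hβ0
      obtain ⟨e, he⟩ : ∃ e, p = e + 2 := ⟨p - 2, by omega⟩
      refine cancel (β' * w + π ^ e * β' ^ p + π ^ 2 * β' ^ 2 * w * r - c) ?_
      have hpp : π ^ p * π ^ p = π ^ (p + 1 + 1) * π ^ e := by
        rw [← pow_add, ← pow_add, he]; ring_nf
      linear_combination -hc + β' ^ p * hpp
  · rintro rfl
    refine ⟨red β, ?_⟩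
    have e : π ^ n * a = π ^ n * (β ^ n + π * (β * w + π * β ^ 2 * w * r - c)) := by
      linear_combination -hc
    rw [mul_left_cancel₀ (pow_ne_zero n hπ) e, map_add, map_mul, (hker π).2 dvd_rfl, zero_mul,
      add_zero, map_pow]

/-- The exact root, given the digit conditions. -/
theorem exists_root_of_digits (hp : p.Prime) (hp2 : p ≠ 2)
    [IsAdicComplete (Ideal.span {π}) V] (hw : (p : V) = π ^ p * w) (hwu : IsUnit w) {x : V}
    (hx : IsUnit x) (h0 : ∃ G, π ∣ x - G ^ p)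
    (hdigit : ∀ (n : ℕ) (G a : V), 1 ≤ n → x = G ^ p * (1 + π ^ n * a) →
      ((n < p ∨ n = p + 1) → π ∣ a) ∧ (n = p → ∃ β, π ∣ a - β ^ p)) :
    ∃ G, IsUnit G ∧ G ^ p = x := by
  classical
  have hp3 : 3 ≤ p := by have := hp.two_le; omega
  have hπJ : ∀ c : V, IsUnit (1 + π * c) := fun c => by
    have h := IsAdicComplete.le_jacobson_bot (Ideal.span {π}) (Ideal.mem_span_singleton_self π)
    rw [Ideal.mem_jacobson_bot] at h
    simpa [add_comm] using h c
  -- one step
  have step : ∀ (n : ℕ) (G : V), 1 ≤ n → (∃ a, x = G ^ p * (1 + π ^ n * a)) →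
      ∃ G', (∃ a, x = G' ^ p * (1 + π ^ (n + 1) * a)) ∧ π ^ (n - p) ∣ G' - G := by
    rintro n G hn ⟨a, ha⟩
    obtain ⟨hz, hβ⟩ := hdigit n G a hn ha
    -- it suffices to match the next digit
    suffices H : ∃ v, π ^ (n - p) ∣ v ∧ π ∣ v ∧ π ^ (n + 1) ∣ (1 + v) ^ p - (1 + π ^ n * a) by
      obtain ⟨v, hv1, hv0, c, hc⟩ := H
      obtain ⟨v', rfl⟩ := hv0
      obtain ⟨u, hu⟩ : IsUnit ((1 + π * v') ^ p) := (hπJ v').pow _
      refine ⟨G * (1 + π * v'), ⟨-(c * ↑u⁻¹), ?_⟩, ?_⟩
      · rw [ha, mul_pow, mul_assoc]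
        congr 1
        have : ((u : V) * ↑u⁻¹ : V) = 1 := u.mul_inv
        rw [hu] at this
        linear_combination -hc + π ^ (n + 1) * c * this
      · simpa [mul_add] using dvd_mul_of_dvd_right hv1 G
    rcases lt_trichotomy n p with hlt | rfl | hgt
    · obtain ⟨a', rfl⟩ := hz (Or.inl hlt)
      exact ⟨0, dvd_zero _, dvd_zero _, -a', by rw [add_zero, one_pow]; ring⟩
    · obtain ⟨β, e', he'⟩ := hβ rfl
      obtain ⟨r, hr⟩ := exists_one_add_pow_eq hp (π * β)
      refine ⟨π * β, by rw [Nat.sub_self, pow_zero]; exact one_dvd _, dvd_mul_right _ _,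
        β * w + π * β ^ 2 * w * r - e', ?_⟩
      rw [hr, hw]
      linear_combination -π ^ n * he'
    · by_cases hn1 : n = p + 1
      · obtain ⟨a', rfl⟩ := hz (Or.inr hn1)
        exact ⟨0, dvd_zero _, dvd_zero _, -a', by rw [add_zero, one_pow]; ring⟩
      · obtain ⟨j, rfl⟩ : ∃ j, n = p + (j + 2) := ⟨n - p - 2, by omega⟩
        obtain ⟨r, hr⟩ := exists_one_add_pow_eq hp (π ^ (j + 2) * (a * ↑hwu.unit⁻¹))
        set v := a * ↑hwu.unit⁻¹
        have hwv : w * v = a := by
          simp only [v]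
          rw [mul_left_comm, IsUnit.mul_val_inv hwu, mul_one]
        refine ⟨π ^ (j + 2) * v, ?_, dvd_mul_of_dvd_left (dvd_pow_self _ (by omega)) _, ?_⟩
        · rw [Nat.add_sub_cancel_left]; exact dvd_mul_right _ _
        · obtain ⟨e, he⟩ : ∃ e, (j + 2) * p = p + (j + 2) + 1 + e := by
            refine Nat.exists_eq_add_of_le ?_
            nlinarith
          refine ⟨π ^ e * v ^ p + π ^ (j + 1) * w * v ^ 2 * r, ?_⟩
          rw [hr, hw, mul_pow (π ^ (j + 2)) v p, ← pow_mul, he]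
          linear_combination π ^ (p + (j + 2)) * hwv
  -- iterate
  obtain ⟨G0, hG0⟩ := h0
  have hG0u : IsUnit G0 := by
    obtain ⟨c, hc⟩ := hG0
    obtain ⟨u, hu⟩ := hx
    have e : G0 ^ p = (u : V) * (1 + π * (-(↑u⁻¹ * c))) := by
      have : ((u : V) * ↑u⁻¹ : V) = 1 := u.mul_inv
      rw [← hu] at hc
      linear_combination -hc + π * c * this
    exact (isUnit_pow_iff hp.ne_zero).1 (e ▸ u.isUnit.mul (hπJ _))
  have hbase : ∃ a, x = G0 ^ p * (1 + π ^ 1 * a) := by
    obtain ⟨c, hc⟩ := hG0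
    refine ⟨↑(hG0u.pow p).unit⁻¹ * c, ?_⟩
    have : G0 ^ p * ↑(hG0u.pow p).unit⁻¹ = 1 := IsUnit.mul_val_inv _
    linear_combination hc - π * c * this
  choose! next hnext hnextd using step
  let seq : ℕ → V := fun n => Nat.rec G0 (fun m G => next (m + 1) G) n
  have hseq : ∀ m, ∃ a, x = seq m ^ p * (1 + π ^ (m + 1) * a) := by
    intro m
    induction m with
    | zero => exact hbase
    | succ j ih => exact hnext (j + 1) (seq j) (by omega) ih
  have hstep : ∀ m, π ^ (m + 1 - p) ∣ seq (m + 1) - seq m := fun m =>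
    hnextd (m + 1) (seq m) (by omega) (hseq m)
  have hcauchy : ∀ m l, π ^ m ∣ seq (m + p + l) - seq (m + p) := by
    intro m l
    induction l with
    | zero => simp
    | succ i ih =>
      have e : seq (m + p + (i + 1)) - seq (m + p) =
          (seq (m + p + i + 1) - seq (m + p + i)) + (seq (m + p + i) - seq (m + p)) := by
        rw [← add_assoc]; ring
      rw [e]
      exact dvd_add ((pow_dvd_pow π (by omega)).trans (hstep _)) ih
  obtain ⟨G, hG⟩ := IsPrecomplete.prec' (I := Ideal.span {π}) (fun m => seq (m + p))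
    (fun {m n} hmn => by
    rw [SModEq.sub_mem, smul_eq_mul, Ideal.mul_top, Ideal.span_singleton_pow,
      Ideal.mem_span_singleton, ← dvd_neg, neg_sub]
    obtain ⟨l, rfl⟩ := Nat.exists_eq_add_of_le hmn
    have := hcauchy m l
    rwa [show m + p + l = m + l + p by omega] at this)
  have hroot : ∀ m, π ^ m ∣ G ^ p - x := by
    intro m
    have h1 := hG m
    rw [SModEq.sub_mem, smul_eq_mul, Ideal.mul_top, Ideal.span_singleton_pow,
      Ideal.mem_span_singleton] at h1
    obtain ⟨a, ha⟩ := hseq (m + p)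
    have h2 : π ^ m ∣ seq (m + p) ^ p - G ^ p := h1.trans (sub_dvd_pow_sub_pow _ _ _)
    have h3 : π ^ m ∣ seq (m + p) ^ p - x := by
      refine ⟨-(π ^ (p + 1) * seq (m + p) ^ p * a), ?_⟩
      rw [ha]; ring
    simpa using dvd_sub h3 h2
  refine ⟨G, ?_, ?_⟩
  · obtain ⟨c, hc⟩ := hroot 1
    obtain ⟨u, hu⟩ := hx
    have e : G ^ p = (u : V) * (1 + π * (↑u⁻¹ * c)) := by
      have : ((u : V) * ↑u⁻¹ : V) = 1 := u.mul_inv
      rw [← hu] at hc
      linear_combination hc - π * c * this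
    exact (isUnit_pow_iff hp.ne_zero).1 (e ▸ u.isUnit.mul (hπJ _))
  · refine sub_eq_zero.1 (IsHausdorff.haus (I := Ideal.span {π}) inferInstance _ fun m => ?_)
    rw [SModEq.zero, smul_eq_mul, Ideal.mul_top, Ideal.span_singleton_pow, Ideal.mem_span_singleton]
    exact hroot m

end Fermat.Agent.LevelLowerP
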