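import Mathlib.FieldTheory.Perfect
import Fermat.Agent.LevelLowerP.Rigid
import Fermat.Agent.LevelLowerP.GBranch

/-!
# Lemmas on roots modulo powers of `ϖ`

Uniqueness of roots modulo powers of `ϖ`, constants which are `p`th powers, and completeness for
the principal ideal `(ϖ)`.

Main results: `pow_congr`, `Setup.const_pow`.
-/

set_option autoImplicit false

namespace Fermat.Agent.LevelLowerP

open scoped LaurentSeries

section Generic

variable {V : Type*} [CommRing V] [IsDomain V] {κ : Type*} [Field κ] {p : ℕ} [CharP κ p]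
  {π w : V}

/-- `p`th powers congruent to one have roots congruent to one, `p` levels lower. -/
theorem pow_congr (hp : p.Prime) (hp2 : p ≠ 2) (red : V →+* κ) (hker : ∀ v, red v = 0 ↔ π ∣ v)
    (hπ : π ≠ 0) (hw : (p : V) = π ^ p * w) (hw0 : red w ≠ 0) {z : V} {j : ℕ}
    (h : π ^ (p + j + 1) ∣ z ^ p - 1) : π ^ (j + 1) ∣ z - 1 := by
  have hp3 : 3 ≤ p := by have := hp.two_le; omega
  have hred : red π = 0 := (hker π).2 dvd_rfl
  have hz1 : π ∣ z - 1 := by
    have : Fact p.Prime := ⟨hp⟩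
    have e : red (z ^ p - 1) = 0 :=
      (hker _).2 ((dvd_pow_self π (by omega)).trans h)
    rw [map_sub, map_pow, map_one, sub_eq_zero] at e
    refine (hker _).1 ?_
    rw [map_sub, map_one, sub_eq_zero]
    exact frobenius_inj κ p (by rw [frobenius_def, frobenius_def, e, one_pow])
  induction j with
  | zero => simpa using hz1
  | succ i ih =>
    obtain ⟨v, hv⟩ := ih ((pow_dvd_pow π (by omega)).trans h)
    obtain ⟨r, hr⟩ := exists_one_add_pow_eq hp (π ^ (i + 1) * v)
    have hz : z = 1 + π ^ (i + 1) * v := by linear_combination hv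
    obtain ⟨c, hc⟩ := h
    rw [hz, hr, hw] at hc
    suffices hv0 : π ∣ v by
      obtain ⟨v', rfl⟩ := hv0
      exact ⟨v', by rw [hv]; ring⟩
    rcases Nat.eq_zero_or_pos i with rfl | hi
    · -- the lowest level is `v ^ p`
      refine (hker v).1 ((pow_eq_zero_iff hp.ne_zero).1 ?_)
      have e : π ^ p * v ^ p = π ^ p * (π * (π * c - w * v - π * v ^ 2 * w * r)) := by
        linear_combination hc
      rw [← map_pow, mul_left_cancel₀ (pow_ne_zero p hπ) e, map_mul, hred, zero_mul]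
    · obtain ⟨d, hd⟩ : ∃ d, (i + 1) * p = p + (i + 1) + 1 + d :=
        Nat.exists_eq_add_of_le (by nlinarith)
      refine (hker v).1 ?_
      have e : π ^ (p + (i + 1)) * (w * v) =
          π ^ (p + (i + 1)) * (π * (c - π ^ d * v ^ p - π ^ i * v ^ 2 * w * r)) := by
        rw [mul_pow (π ^ (i + 1)) v p, ← pow_mul, hd] at hc
        linear_combination hc
      have e' := congrArg red (mul_left_cancel₀ (pow_ne_zero _ hπ) e)
      rw [map_mul, map_mul, hred, zero_mul, mul_eq_zero] at e'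
      exact e'.resolve_left hw0

/-- Completeness for a principal ideal inside an ideal of completeness. -/
theorem isAdicComplete_span_singleton {J : Ideal V} [IsAdicComplete J V] (hJ : π ∈ J) (hπ : π ≠ 0) :
    IsAdicComplete (Ideal.span {π}) V := by
  have hle : ∀ n, Ideal.span {π} ^ n ≤ J ^ n :=
    fun n => Ideal.pow_right_mono ((Ideal.span_singleton_le_iff_mem _).2 hJ) n
  have hh : IsHausdorff (Ideal.span {π}) V := ⟨fun x hx => IsHausdorff.haus (I := J) inferInstance x
    fun n => by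
      have := hx n
      rw [SModEq.zero, smul_eq_mul, Ideal.mul_top] at this ⊢
      exact hle n this⟩
  have hp : IsPrecomplete (Ideal.span {π}) V := ⟨fun f hf => by
    have hdiv : ∀ {m n}, m ≤ n → π ^ m ∣ f m - f n := fun {m n} hmn => by
      have := hf hmn
      rwa [SModEq.sub_mem, smul_eq_mul, Ideal.mul_top, Ideal.span_singleton_pow,
        Ideal.mem_span_singleton] at this
    choose q hq using fun n m => hdiv (m := n) (n := n + m) (by omega)
    have hc : ∀ n {i j}, i ≤ j → π ^ i ∣ q n i - q n j := fun n {i j} hij => by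
      obtain ⟨e, he⟩ := hdiv (m := n + i) (n := n + j) (by omega)
      refine ⟨-e, mul_left_cancel₀ (pow_ne_zero n hπ) ?_⟩
      rw [pow_add] at he
      linear_combination -(hq n i) + hq n j - he
    obtain ⟨L, hL⟩ := IsPrecomplete.prec' (I := J) f fun {m n} hmn => by
      rw [SModEq.sub_mem, smul_eq_mul, Ideal.mul_top]
      obtain ⟨e, he⟩ := hdiv hmn
      rw [he]
      exact Ideal.mul_mem_right _ _ (Ideal.pow_mem_pow hJ m)
    refine ⟨L, fun n => ?_⟩
    obtain ⟨y, hy⟩ := IsPrecomplete.prec' (I := J) (fun i => q n i) fun {i j} hij => by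
      rw [SModEq.sub_mem, smul_eq_mul, Ideal.mul_top]
      obtain ⟨e, he⟩ := hc n hij
      rw [he]
      exact Ideal.mul_mem_right _ _ (Ideal.pow_mem_pow hJ i)
    rw [SModEq.sub_mem, smul_eq_mul, Ideal.mul_top, Ideal.span_singleton_pow,
      Ideal.mem_span_singleton]
    refine ⟨y, sub_eq_zero.1 (IsHausdorff.haus (I := J) inferInstance _ fun i => ?_)⟩
    rw [SModEq.zero, smul_eq_mul, Ideal.mul_top]
    have h1 := hL (n + i)
    have h2 := hy i
    rw [SModEq.sub_mem, smul_eq_mul, Ideal.mul_top] at h1 h2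
    have h3 : f n - L - π ^ n * y = (f (n + i) - L) + π ^ n * (q n i - y) := by
      linear_combination hq n i
    rw [h3]
    exact add_mem (Ideal.pow_le_pow_right (by omega) h1) (Ideal.mul_mem_left _ _ h2)⟩
  exact ⟨⟩

end Generic

namespace Setup

variable {p : ℕ} {R k : Type*} [CommRing R] [IsDomain R] [IsDiscreteValuationRing R] [Field k]
  [CharP k p] [Fact p.Prime] [PerfectRing k p] (S : Setup p R k)
variable {V : Type*} [CommRing V] [IsDomain V]

lemma exists_pow_eq (c : k) : ∃ d : k, d ^ p = c := by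
  obtain ⟨d, hd⟩ := (bijective_frobenius k p).2 c
  exact ⟨d, by rw [← hd, frobenius_def]⟩

/-- A constant which is a `p`th power modulo `ϖ ^ n` upstairs is one downstairs. -/
theorem const_pow (hp2 : p ≠ 2) (red : V →+* LaurentSeries k) (cst : R →+* V)
    (hker : ∀ v, red v = 0 ↔ cst S.ϖ ∣ v) (hπ : cst S.ϖ ≠ 0)
    (hred : ∀ r, red (cst r) = HahnSeries.C (S.res r)) {r : R} {z : V} (n : ℕ)
    (h : cst S.ϖ ^ (n + 1) ∣ cst r * z ^ p - 1) :
    ∃ c : R, S.ϖ ^ (n + 1) ∣ r * c ^ p - 1 := by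
  have : CharP (LaurentSeries k) p := charP_of_injective_ringHom HahnSeries.C_injective p
  have hp := (Fact.out : p.Prime)
  induction n with
  | zero =>
    have e : red (cst r * z ^ p - 1) = 0 := (hker _).2 ((dvd_pow_self _ one_ne_zero).trans h)
    rw [map_sub, map_mul, map_pow, hred, map_one, sub_eq_zero] at e
    have hr : S.res r ≠ 0 := fun h0 => by rw [h0, map_zero, zero_mul] at e; exact zero_ne_one e
    obtain ⟨d, hd⟩ := exists_pow_eq (p := p) (S.res r)⁻¹
    obtain ⟨c, hc⟩ := S.res_surjective d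
    refine ⟨c, ?_⟩
    rw [pow_one, ← S.res_eq_zero_iff, map_sub, map_mul, map_pow, hc, hd, mul_inv_cancel₀ hr,
      map_one, sub_self]
  | succ m ih =>
    obtain ⟨c, e, hc⟩ := ih ((pow_dvd_pow _ (by omega)).trans h)
    have hcu : IsUnit c := by
      refine (isUnit_pow_iff hp.ne_zero).1 (isUnit_of_mul_isUnit_right (x := r) ?_)
      rw [S.isUnit_iff_res_ne_zero, show r * c ^ p = 1 + S.ϖ ^ (m + 1) * e by linear_combination hc]
      simp [S.res_ϖ]
    obtain ⟨u, rfl⟩ := hcu
    obtain ⟨d, hd⟩ := h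
    have hzc : cst (r * (u : R) ^ p) * (z * cst ↑u⁻¹) ^ p = cst r * z ^ p := by
      rw [map_mul, map_pow, mul_pow]
      have : cst (u : R) ^ p * cst ↑u⁻¹ ^ p = 1 := by
        rw [← mul_pow, ← map_mul, Units.mul_inv, map_one, one_pow]
      linear_combination (cst r * z ^ p) * this
    have hru : r * (u : R) ^ p = 1 + S.ϖ ^ (m + 1) * e := by linear_combination hc
    rw [hru] at hzc
    have hdig := digit_of_pow (n := m + 1) (γ := z * cst ↑u⁻¹) (a := - cst e) (π := cst S.ϖ)
      (w := cst S.w) hp hp2 red hker hπ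
      (by rw [← map_pow, ← map_mul, ← S.natCast_eq, map_natCast]) (by omega) (by
        obtain ⟨q, hq⟩ : cst S.ϖ ^ (m + 1) ∣ (z * cst ↑u⁻¹) ^ p - 1 := by
          refine ⟨cst S.ϖ * d - cst e * (z * cst ↑u⁻¹) ^ p, ?_⟩
          rw [map_add, map_one, map_mul, map_pow] at hzc
          rw [pow_succ _ (m + 1)] at hd
          linear_combination hzc + hd
        refine ⟨d - cst e * q * cst S.ϖ ^ m, ?_⟩
        rw [map_add, map_one, map_mul, map_pow] at hzc
        rw [pow_succ _ (m + 1)] at hd ⊢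
        linear_combination hzc + hd - cst S.ϖ ^ (m + 1) * cst e * hq)
    by_cases hcase : m + 1 < p ∨ m + 1 = p + 1
    · have h0 := hdig.1 hcase
      rw [map_neg, neg_eq_zero, hred, map_eq_zero_iff _ HahnSeries.C_injective,
        S.res_eq_zero_iff] at h0
      obtain ⟨e', rfl⟩ := h0
      exact ⟨u, e', by linear_combination hru⟩
    by_cases heq : m + 1 = p
    · obtain ⟨β, hβ⟩ := hdig.2 heq
      obtain ⟨d', hd'⟩ := exists_pow_eq (p := p) (-S.res e)
      obtain ⟨v, hv⟩ := S.res_surjective d'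
      obtain ⟨r', hr'⟩ := exists_one_add_pow_eq hp (S.ϖ * v)
      refine ⟨u * (1 + S.ϖ * v), ?_⟩
      obtain ⟨e2, he2⟩ : S.ϖ ∣ e + v ^ p := by
        rw [← S.res_eq_zero_iff, map_add, map_pow, hv, hd', add_neg_cancel]
      refine ⟨e2 + v * S.w + S.ϖ * v ^ 2 * S.w * r' +
        S.ϖ ^ m * e * (v ^ p + S.ϖ * v * S.w + S.ϖ * S.ϖ * v ^ 2 * S.w * r'), ?_⟩
      have hpm : S.ϖ ^ p = S.ϖ ^ (m + 1) := (congrArg (fun i => S.ϖ ^ i) heq).symm
      rw [mul_pow, ← mul_assoc, hru, hr', S.natCast_eq, mul_pow, hpm]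
      linear_combination S.ϖ ^ (m + 1) * he2
    obtain ⟨j, hj⟩ : ∃ j, m + 1 = p + (j + 2) := ⟨m + 1 - p - 2, by omega⟩
    obtain ⟨v, hv⟩ : ∃ v, S.w * v = -e := ⟨↑S.isUnit_w.unit⁻¹ * -e, by
      rw [← mul_assoc, IsUnit.mul_val_inv, one_mul]⟩
    obtain ⟨r', hr'⟩ := exists_one_add_pow_eq hp (S.ϖ ^ (j + 2) * v)
    refine ⟨u * (1 + S.ϖ ^ (j + 2) * v), ?_⟩
    obtain ⟨q, hq⟩ : ∃ q, (j + 2) * p = p + (j + 2) + 1 + q :=
      Nat.exists_eq_add_of_le (by have : 3 ≤ p := (by have := hp.two_le; omega); nlinarith)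
    have hpj : S.ϖ ^ (m + 1) = S.ϖ ^ (p + (j + 2)) := congrArg (fun i => S.ϖ ^ i) hj
    have hpj' : S.ϖ ^ (m + 1 + 1) = S.ϖ ^ (p + (j + 2) + 1) := congrArg (fun i => S.ϖ ^ (i + 1)) hj
    refine ⟨(1 + S.ϖ ^ (p + (j + 2)) * e) * (S.ϖ ^ q * v ^ p + S.ϖ ^ (j + 1) * v ^ 2 * S.w * r') +
      S.ϖ ^ (p + j + 1) * e * (S.w * v), ?_⟩
    rw [mul_pow, ← mul_assoc, hru, hr', S.natCast_eq, mul_pow (S.ϖ ^ (j + 2)) v p, ← pow_mul, hq,
      hpj, hpj']
    linear_combination S.ϖ ^ (p + (j + 2)) * hv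

end Setup

end Fermat.Agent.LevelLowerP
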