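import Fermat.Agent.LevelLowerP.RootLemmas
import Fermat.Agent.LevelLowerP.NodeComplete

/-!
# Exact `p`th roots at smooth points and nodes

At smooth points and at nodes there are exact `p`th roots of a function which is congruent to `p`th
powers modulo all powers of `ϖ` along the branches.

Main results: `Setup.disc_root`, `Setup.node_root`.
-/

set_option autoImplicit false

namespace Fermat.Agent.LevelLowerP

open DualNumber TrivSqZeroExt
open scoped LaurentSeries

lemma isPow_of_pow {k : Type*} [Field k] {n : ℕ} (hn : n ≠ 0) {β : LaurentSeries k}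
    (h : IsPow (β ^ n)) : IsPow β := by
  by_cases hβ : β = 0
  · exact ⟨0, by simp [hβ]⟩
  obtain ⟨a, ha⟩ := h
  have hord : 0 ≤ β.order := by
    by_contra hlt
    have hne : β ^ n ≠ 0 := pow_ne_zero _ hβ
    have h1 := mt HahnSeries.coeff_order_eq_zero.1 hne
    have h2 : (β ^ n).order < 0 := by
      rw [order_natPow hβ]
      exact mul_neg_of_pos_of_neg (by positivity) (not_le.1 hlt)
    rw [ha] at h1 h2
    rw [PowerSeries.coeff_coe, if_pos h2] at h1
    exact h1 rfl
  refine ⟨PowerSeries.mk fun i => β.coeff i, ?_⟩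
  ext i
  rw [PowerSeries.coeff_coe]
  rcases lt_or_ge i 0 with hi | hi
  · rw [if_pos hi]
    exact HahnSeries.coeff_eq_zero_of_lt_order (lt_of_lt_of_le hi hord)
  · obtain ⟨m, rfl⟩ := Int.eq_ofNat_of_zero_le hi
    rw [if_neg (not_lt.2 hi)]
    simp

namespace Branch

variable {O κ : Type*} [CommRing O] [IsDomain O] [Field κ] (B : Branch O κ)
variable {F : Type*} [Field F] [Algebra O F] [IsFractionRing O F]

/-- `y` is congruent to one modulo `ϖ ^ n` along the branch. -/
def Close (n : ℕ) (y : F) : Prop :=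
  ∃ d : B.intRing F, y = 1 + algebraMap O F B.ϖ ^ n * d

variable (F) in
/-- The local ring inside the branch. -/
noncomputable def toIntRing : O →+* B.intRing F :=
  (algebraMap O F).codRestrict (B.intRing F) fun o => B.isInt_algebraMap o

omit [IsDomain O] [IsFractionRing O F] in
lemma coe_toIntRing (o : O) : (B.toIntRing F o : F) = algebraMap O F o := rfl

omit [IsDomain O] in
lemma intRes_toIntRing (o : O) : B.intRes (B.toIntRing F o) = B.res o := B.intRes_algebraMap o

omit [IsDomain O] [IsFractionRing O F] in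
lemma toIntRing_ϖ : B.toIntRing F B.ϖ = B.intϖ := rfl

omit [IsDomain O] in
lemma intϖ_ne_zero : (B.intϖ : B.intRing F) ≠ 0 := fun h =>
  Branch.algebraMap_ne_zero B.ϖ_ne_zero (congrArg Subtype.val h)

lemma ord_of_close {n : ℕ} (hn : 1 ≤ n) {y : F} (h : B.Close n y) :
    y ≠ 0 ∧ B.ord y = 0 ∧ B.resUnit y = 1 := by
  obtain ⟨d, rfl⟩ := h
  set D : B.intRing F := 1 + B.intϖ ^ n * d
  have hres : B.intRes D = 1 := by simp [D, B.intRes_ϖ, zero_pow (by omega : n ≠ 0)]
  have hne : (D : F) ≠ 0 := fun h0 => by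
    have : D = 0 := Subtype.ext h0
    rw [this, map_zero] at hres
    exact zero_ne_one hres
  have hord : B.ord (D : F) = 0 := by
    rcases ((B.isInt_iff.1 D.2).resolve_left hne).lt_or_eq with h | h
    · have h1 : B.intRes D = 0 := by
        rw [B.intRes_eq_zero_iff]
        have hπ := algebraMap_ne_zero (L := F) B.ϖ_ne_zero
        refine ⟨⟨(D : F) * (algebraMap O F B.ϖ)⁻¹, B.isInt_iff.2 (Or.inr ?_)⟩, Subtype.ext ?_⟩
        · rw [B.ord_mul hne (inv_ne_zero hπ), B.ord_inv hπ, B.ord_ϖ]; omega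
        · rw [Subring.coe_mul, intϖ]; field_simp
      rw [h1] at hres
      exact absurd hres zero_ne_one
    · exact h.symm
  exact ⟨hne, hord, (B.intRes_of_ord_eq_zero hne hord).symm.trans hres⟩

end Branch

/-- The digit conditions for `z ^ p * (1 + π ^ n * a) ≡ 1`. -/
theorem digit_of_mul {V κ : Type*} [CommRing V] [IsDomain V] [Field κ] {p : ℕ} [CharP κ p]
    (hp : p.Prime) (hp2 : p ≠ 2) (red : V →+* κ) {π w : V} (hker : ∀ v, red v = 0 ↔ π ∣ v)
    (hπ : π ≠ 0) (hw : (p : V) = π ^ p * w) {z a : V} {n : ℕ} (hn : 1 ≤ n)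
    (h : π ^ (n + 1) ∣ z ^ p * (1 + π ^ n * a) - 1) :
    ((n < p ∨ n = p + 1) → red a = 0) ∧ (n = p → ∃ β, red a = β ^ p) := by
  obtain ⟨d, hd⟩ := h
  rw [pow_succ] at hd
  have h1 : π ^ (n + 1) ∣ z ^ p - (1 + π ^ n * (-a)) := by
    obtain ⟨q, hq⟩ : π ^ n ∣ z ^ p - 1 := ⟨π * d - z ^ p * a, by linear_combination hd⟩
    obtain ⟨i, rfl⟩ := Nat.exists_eq_add_of_le hn
    refine ⟨d - π ^ i * a * q, ?_⟩
    rw [pow_succ]
    linear_combination hd - π ^ (1 + i) * a * hq
  obtain ⟨hA, hB⟩ := digit_of_pow hp hp2 red hker hπ hw hn h1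
  refine ⟨fun hc => by simpa using hA hc, fun hc => ?_⟩
  obtain ⟨β, hβ⟩ := hB hc
  refine ⟨-β, ?_⟩
  rw [(hp.odd_of_ne_two hp2).neg_pow, ← hβ, map_neg, neg_neg]

namespace Setup

variable {p : ℕ} {R k : Type*} [CommRing R] [IsDomain R] [IsDiscreteValuationRing R] [Field k]
  [CharP k p] [Fact p.Prime] [PerfectRing k p] (S : Setup p R k)

variable {O : Type*} [CommRing O] [IsDomain O] (B : Branch O (LaurentSeries k))
variable {F : Type*} [Field F] [Algebra O F] [IsFractionRing O F]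

/-- Constants of the base in a branch, compatible with reduction. -/
structure IsConst (cst : R →+* O) : Prop where
  map_ϖ : cst S.ϖ = B.ϖ
  res_map : ∀ r, B.res (cst r) = HahnSeries.C (S.res r)

/-- What congruences along one branch say about the next digit of a root of `U`. -/
theorem branch_digit (hp2 : p ≠ 2) {cst : R →+* O} (hc : IsConst S B cst) {U G a : O} {n : ℕ}
    (hn : 1 ≤ n) (hU : U = G ^ p * (1 + B.ϖ ^ n * a)) {r : R} {z : F}
    (hz : B.IsInt z) (h : B.Close (n + 1) (algebraMap O F (cst r * U) * z ^ p)) :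
    ∃ (c e : R), r * c ^ p = 1 + S.ϖ ^ n * e ∧
      ((n < p ∨ n = p + 1) → B.res a + HahnSeries.C (S.res e) = 0) ∧
      (n = p → ∃ β, B.res a + HahnSeries.C (S.res e) = β ^ p) := by
  have hp := (Fact.out : p.Prime)
  have : CharP (LaurentSeries k) p := charP_of_injective_ringHom HahnSeries.C_injective p
  set φ := B.toIntRing F
  set zV : B.intRing F := ⟨z, hz⟩
  obtain ⟨d, hd⟩ := h
  have hV : φ (cst r) * φ U * zV ^ p = 1 + φ B.ϖ ^ (n + 1) * d := by
    apply Subtype.ext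
    simp only [φ, zV, Subring.coe_mul, SubmonoidClass.coe_pow, Subring.coe_add, Subring.coe_one,
      Branch.coe_toIntRing]
    rw [← hd, map_mul]
  have hϖ : φ (cst S.ϖ) = B.intϖ := by rw [hc.map_ϖ]; rfl
  have hπ : φ (cst S.ϖ) ≠ 0 := by rw [hϖ]; exact B.intϖ_ne_zero
  have hker : ∀ v, B.intRes v = 0 ↔ φ (cst S.ϖ) ∣ v := fun v => by
    rw [hϖ]; exact B.intRes_eq_zero_iff
  have hred : ∀ s, B.intRes (φ.comp cst s) = HahnSeries.C (S.res s) := fun s => by
    rw [RingHom.comp_apply, Branch.intRes_toIntRing, hc.res_map]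
  rw [hU, map_mul, map_pow, map_add, map_one, map_mul, map_pow, ← hc.map_ϖ] at hV
  obtain ⟨j, rfl⟩ := Nat.exists_eq_add_of_le hn
  -- the constant is a `p`th power up to this level
  obtain ⟨c, e, hce⟩ := S.const_pow hp2 B.intRes (φ.comp cst) hker hπ hred (r := r)
    (z := φ G * zV) j (by
      refine ⟨φ (cst S.ϖ) * d - φ (cst r) * φ G ^ p * φ a * zV ^ p, ?_⟩
      rw [RingHom.comp_apply, RingHom.comp_apply, add_comm j 1]
      rw [pow_succ _ (1 + j)] at hV
      linear_combination hV)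
  rw [add_comm j 1] at hce
  have hcu : IsUnit c := by
    refine (isUnit_pow_iff hp.ne_zero).1 (isUnit_of_mul_isUnit_right (x := r) ?_)
    rw [S.isUnit_iff_res_ne_zero, show r * c ^ p = 1 + S.ϖ ^ (1 + j) * e by linear_combination hce]
    simp [S.res_ϖ]
  obtain ⟨u, rfl⟩ := hcu
  have hru : r * (u : R) ^ p = 1 + S.ϖ ^ (1 + j) * e := by linear_combination hce
  refine ⟨u, e, hru, ?_⟩
  set y : B.intRing F := φ G * zV * φ (cst ↑u⁻¹)
  have hy : φ (cst (r * (u : R) ^ p)) * y ^ p = φ (cst r) * φ G ^ p * zV ^ p := by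
    have h1 : φ (cst (u : R)) ^ p * φ (cst ↑u⁻¹) ^ p = 1 := by
      rw [← mul_pow, ← map_mul, ← map_mul, Units.mul_inv, map_one, map_one, one_pow]
    rw [map_mul, map_mul, map_pow, map_pow, mul_pow, mul_pow]
    linear_combination (φ (cst r) * φ G ^ p * zV ^ p) * h1
  rw [hru, map_add, map_add, map_one, map_one, map_mul, map_mul, map_pow, map_pow] at hy
  have hdig := digit_of_mul (n := 1 + j) (z := y)
    (a := φ a + φ (cst e) + φ (cst S.ϖ) ^ (1 + j) * φ a * φ (cst e))
    (π := φ (cst S.ϖ)) (w := φ (cst S.w)) hp hp2 B.intRes hker hπ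
    (by rw [← map_pow, ← map_pow, ← map_mul, ← map_mul, ← S.natCast_eq, map_natCast, map_natCast])
    (by omega) ⟨d, by linear_combination hV + (1 + φ (cst S.ϖ) ^ (1 + j) * φ a) * hy⟩
  have hres : B.intRes (φ a + φ (cst e) + φ (cst S.ϖ) ^ (1 + j) * φ a * φ (cst e)) =
      B.res a + HahnSeries.C (S.res e) := by
    rw [map_add, map_add, map_mul, map_mul, map_pow, (hker _).2 dvd_rfl, zero_pow (by omega),
      zero_mul, zero_mul, add_zero]
    simp only [φ, Branch.intRes_toIntRing, hc.res_map]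
  rw [hres] at hdig
  exact hdig

omit [IsDomain R] [IsDiscreteValuationRing R] [CharP k p] [Fact (Nat.Prime p)]
    [PerfectRing k p] in
omit [IsDomain O] in
/-- The first digit. -/
theorem branch_res {cst : R →+* O} (hc : IsConst S B cst) {U : O} {r : R} {z : F} (hz : B.IsInt z)
    (h : B.Close 1 (algebraMap O F (cst r * U) * z ^ p)) :
    ∃ (c : k) (β : LaurentSeries k), c ≠ 0 ∧ HahnSeries.C c * B.res U * β ^ p = 1 ∧
      c = S.res r := by
  obtain ⟨d, hd⟩ := h
  have hV : B.toIntRing F (cst r) * B.toIntRing F U * (⟨z, hz⟩ : B.intRing F) ^ p =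
      1 + B.intϖ ^ 1 * d := by
    apply Subtype.ext
    simp only [Subring.coe_mul, SubmonoidClass.coe_pow, Subring.coe_add, Subring.coe_one,
      Branch.coe_toIntRing, Branch.intϖ]
    rw [← map_mul, hd]
  have e := congrArg B.intRes hV
  simp only [map_mul, map_pow, map_add, map_one, Branch.intRes_toIntRing, hc.res_map,
    B.intRes_ϖ, pow_one, zero_mul, add_zero] at e
  exact ⟨S.res r, _, fun h0 => by rw [h0, map_zero, zero_mul, zero_mul] at e; exact zero_ne_one e,
    e, rfl⟩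

theorem sub_C_pow [CharP (LaurentSeries k) p] (β : LaurentSeries k) (c : k) :
    ∃ d : k, β ^ p - HahnSeries.C c = (β - HahnSeries.C d) ^ p := by
  obtain ⟨d, hd⟩ := exists_pow_eq (p := p) c
  exact ⟨d, by rw [sub_pow_char, ← map_pow, hd]⟩

/-- The case without constant. -/
theorem branch_digit_one (hp2 : p ≠ 2) {cst : R →+* O} (hc : IsConst S B cst) {U G a : O} {n : ℕ}
    (hn : 1 ≤ n) (hU : U = G ^ p * (1 + B.ϖ ^ n * a)) {z : F} (hz : B.IsInt z)
    (h : B.Close (n + 1) (algebraMap O F U * z ^ p)) :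
    ((n < p ∨ n = p + 1) → B.res a = 0) ∧ (n = p → ∃ β, B.res a = β ^ p) := by
  have : CharP (LaurentSeries k) p := charP_of_injective_ringHom HahnSeries.C_injective p
  obtain ⟨c, e, hce, h1, h2⟩ := branch_digit S B hp2 hc hn hU (r := 1) hz
    (by rwa [map_one, one_mul])
  obtain ⟨hA, -⟩ := digit_of_pow (n := n) (γ := c) (a := e) (Fact.out : p.Prime) hp2 S.res
    (fun v => S.res_eq_zero_iff) S.irreducible_ϖ.ne_zero S.natCast_eq hn
    ⟨0, by rw [one_mul] at hce; rw [hce]; ring⟩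
  refine ⟨fun hc' => by simpa [hA hc'] using h1 hc', fun hc' => ?_⟩
  obtain ⟨β, hβ⟩ := h2 hc'
  obtain ⟨d, hd⟩ := sub_C_pow (p := p) β (S.res e)
  exact ⟨_, (eq_sub_of_add_eq hβ).trans hd⟩

omit [CharP k p] [Fact (Nat.Prime p)] [PerfectRing k p] in
lemma isConst_disc : IsConst S S.discBranch (PowerSeries.C : R →+* PowerSeries R) where
  map_ϖ := rfl
  res_map r := by
    rw [Branch.res_apply]
    show (S.δS (PowerSeries.C r)).fst = _
    rw [S.δS_C]; simp [res_apply]

omit [PerfectRing k p] in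
lemma isConst_inf [IsDomain (Node R p)] :
    IsConst S S.infBranch ((AdjoinRoot.of (nodePoly R p)).comp PowerSeries.C) where
  map_ϖ := rfl
  res_map r := by
    rw [Branch.res_apply]
    show (S.δinf (AdjoinRoot.of _ (PowerSeries.C r))).fst = _
    rw [S.δinf_of, S.δS_C]; simp [res_apply]

omit [PerfectRing k p] in
lemma isConst_zero [IsDomain (Node R p)] :
    IsConst S S.zeroBranch ((AdjoinRoot.of (nodePoly R p)).comp PowerSeries.C) where
  map_ϖ := rfl
  res_map r := by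
    rw [Branch.res_apply]
    show (S.δzero (AdjoinRoot.of _ (PowerSeries.C r))).fst = _
    rw [S.δzero_of, S.δS_C]; simp [res_apply]

omit [CharP k p] [PerfectRing k p] in
/-- Invariants of `U * H ^ p` against a congruence with a `p`th power. -/
lemma cofactor_isInt {U : O} (hU : B.res U ≠ 0) {H γ : F} (hH : H ≠ 0) (hγ : γ ≠ 0) {r : O}
    (hr : B.res r ≠ 0) {N : ℕ} (hN : 1 ≤ N)
    (h : B.Close N (algebraMap O F r * (algebraMap O F U * H ^ p) / γ ^ p)) :
    B.IsInt (H / γ) ∧ B.Close N (algebraMap O F (r * U) * (H / γ) ^ p) := by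
  have e : algebraMap O F r * (algebraMap O F U * H ^ p) / γ ^ p =
      algebraMap O F (r * U) * (H / γ) ^ p := by rw [map_mul, div_pow]; ring
  rw [e] at h
  refine ⟨B.isInt_iff.2 (Or.inr ?_), h⟩
  have hz : H / γ ≠ 0 := div_ne_zero hH hγ
  have hrU : B.res (r * U) ≠ 0 := by rw [map_mul]; exact mul_ne_zero hr hU
  obtain ⟨-, h0, -⟩ := B.ord_of_close hN h
  rw [B.ord_mul (Branch.algebraMap_ne_zero (B.ne_zero_of_res hrU)) (pow_ne_zero _ hz),
    B.ord_algebraMap hrU, zero_add, ← zpow_natCast, B.ord_zpow hz, mul_eq_zero] at h0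
  rcases h0 with h0 | h0
  · exact absurd h0 (by exact_mod_cast (Fact.out : p.Prime).ne_zero)
  · omega

section Disc

variable {F : Type*} [Field F] [Algebra (PowerSeries R) F] [IsFractionRing (PowerSeries R) F]

/-- **Roots at a smooth point.** -/
theorem disc_root (hp2 : p ≠ 2) {x : F} (hx : x ≠ 0) (h : S.DiscDiv x)
    (happ : ∀ N : ℕ, ∃ γ : F, γ ≠ 0 ∧ S.discBranch.Close N (x / γ ^ p)) :
    ∃ G : F, G ^ p = x := by
  have hp := (Fact.out : p.Prime)
  have : CharP (LaurentSeries k) p := charP_of_injective_ringHom HahnSeries.C_injective p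
  have : IsAdicComplete (Ideal.span {S.ϖ}) R := S.complete
  have := isAdicComplete_series (R := R) S.ϖ
  have hcomp : IsAdicComplete (Ideal.span {(PowerSeries.C S.ϖ : PowerSeries R)}) (PowerSeries R) :=
    isAdicComplete_span_singleton (J := seriesIdeal S.ϖ) (Ideal.subset_span (by simp))
      S.prime_C_ϖ.ne_zero
  obtain ⟨u, n, G, hG, rfl⟩ := S.exists_disc_form hx h
  set B := S.discBranch
  have hu : B.res (u : PowerSeries R) ≠ 0 := by
    rw [Branch.res_apply]
    exact fun e => (u.isUnit.map (PowerSeries.map S.res)).ne_zero (S.fst_δS_eq_zero_iff.1 e)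
  have hn : (p : ℤ) ∣ n := by
    obtain ⟨γ, hγ, hc⟩ := happ 1
    obtain ⟨-, h0, -⟩ := B.ord_of_close le_rfl hc
    rw [div_eq_mul_inv, B.ord_mul hx (inv_ne_zero (pow_ne_zero _ hγ)), B.ord_inv (pow_ne_zero _ hγ),
      ← zpow_natCast γ p, B.ord_zpow hγ] at h0
    obtain ⟨-, -, e⟩ := B.psi_resUnit_unit_mul (p := p) hu n hG
    erw [e] at h0
    exact ⟨B.ord γ - B.ord G, by linarith⟩
  obtain ⟨l, rfl⟩ := Int.natCast_dvd_natCast.1 hn
  set H : F := algebraMap (PowerSeries R) F (PowerSeries.C S.ϖ) ^ l * G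
  have hH : H ≠ 0 := mul_ne_zero (pow_ne_zero _ (Branch.algebraMap_ne_zero S.prime_C_ϖ.ne_zero)) hG
  have hform : algebraMap (PowerSeries R) F (↑u * PowerSeries.C S.ϖ ^ (p * l)) * G ^ p =
      algebraMap (PowerSeries R) F u * H ^ p := by
    rw [map_mul, map_pow, mul_pow, ← pow_mul, mul_comm l p]; ring
  rw [hform] at happ ⊢
  have hcl : ∀ N, 1 ≤ N → ∃ z, B.IsInt z ∧ B.Close N (algebraMap (PowerSeries R) F u * z ^ p) :=
    fun N hN => by
      obtain ⟨γ, hγ, hc⟩ := happ N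
      obtain ⟨h1, h2⟩ := cofactor_isInt B hu hH hγ (r := 1) (by rw [map_one]; exact one_ne_zero) hN
        (by rwa [map_one, one_mul])
      exact ⟨_, h1, by rwa [one_mul] at h2⟩
  have hlift : ∀ (a : PowerSeries R) (β : LaurentSeries k), B.res a = β ^ p →
      ∃ v, (PowerSeries.C S.ϖ : PowerSeries R) ∣ a - v ^ p := by
    intro a β hβ
    obtain ⟨b, hb⟩ := isPow_of_pow hp.ne_zero (β := β) ⟨PowerSeries.map S.res a, by
      rw [← hβ, Branch.res_apply]; exact S.fst_δS a⟩
    obtain ⟨v, hv⟩ := PowerSeries.map_surjective S.res S.res_surjective b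
    refine ⟨v, S.map_res_eq_zero_iff.1 ?_⟩
    rw [map_sub, map_pow, hv, sub_eq_zero]
    apply HahnSeries.ofPowerSeries_injective (Γ := ℤ)
    rw [map_pow, ← hb, ← hβ, Branch.res_apply]
    exact (S.fst_δS a).symm
  obtain ⟨r, hr⟩ : ∃ G : PowerSeries R, IsUnit G ∧ G ^ p = (u : PowerSeries R) := by
    refine exists_root_of_digits (w := PowerSeries.C S.w) hp hp2 S.natCast_series_eq
      (S.isUnit_w.map _) u.isUnit ?_ ?_
    · obtain ⟨z, hz, hc⟩ := hcl 1 le_rfl
      obtain ⟨c, β, hc0, e, hcr⟩ := branch_res S B S.isConst_disc (r := 1) hz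
        (by rwa [map_one, one_mul])
      rw [map_one] at hcr
      subst hcr
      rw [map_one, one_mul] at e
      refine hlift _ β⁻¹ ?_
      rw [inv_pow, eq_inv_of_mul_eq_one_left e]
    · intro n G' a hn hU
      obtain ⟨z, hz, hc⟩ := hcl (n + 1) (by omega)
      obtain ⟨hA, hB⟩ := branch_digit_one S B hp2 S.isConst_disc hn hU hz hc
      refine ⟨fun hc' => S.map_res_eq_zero_iff.1 (S.fst_δS_eq_zero_iff.1 ?_), fun hc' => ?_⟩
      · have := hA hc'
        rwa [Branch.res_apply] at this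
      · obtain ⟨β, hβ⟩ := hB hc'
        exact hlift a β hβ
  exact ⟨algebraMap (PowerSeries R) F r * H, by rw [mul_pow, ← map_pow, hr.2]⟩

end Disc

section Node

variable [IsDomain (Node R p)] {F : Type*} [Field F] [Algebra (Node R p) F]
  [IsFractionRing (Node R p) F]

omit [PerfectRing k p] in
/-- Lifting a compatible pair of series to the node ring. -/
lemma exists_node_lift {α β : PowerSeries k}
    (h : PowerSeries.constantCoeff α = PowerSeries.constantCoeff β) :
    ∃ v : Node R p, S.infBranch.res v = (α : LaurentSeries k) ∧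
      S.zeroBranch.res v = (β : LaurentSeries k) := by
  obtain ⟨A, hA⟩ := PowerSeries.map_surjective S.res S.res_surjective β
  obtain ⟨γ, hγ⟩ : PowerSeries.X ∣ α - β := by
    rw [PowerSeries.X_dvd_iff, map_sub, h, sub_self]
  obtain ⟨B', hB⟩ := PowerSeries.map_surjective S.res S.res_surjective γ
  refine ⟨AdjoinRoot.of _ A + AdjoinRoot.of _ B' * nodeX, ?_, ?_⟩
  · rw [Branch.res_apply]
    show (S.δinf _).fst = _
    rw [map_add, map_mul, S.δinf_of, S.δinf_of, S.δinf_nodeX, ← map_mul, ← map_add, S.fst_δS,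
      map_add, map_mul, hA, hB, PowerSeries.map_X, mul_comm γ, ← hγ, add_sub_cancel]
  · rw [Branch.res_apply]
    show (S.δzero _).fst = _
    rw [map_add, map_mul, S.δzero_of, S.δzero_of, S.δzero_nodeX, mul_zero, add_zero, S.fst_δS, hA]

omit [PerfectRing k p] in
lemma node_res_series (g : Node R p) : ∃ α β : PowerSeries k,
    S.infBranch.res g = (α : LaurentSeries k) ∧ S.zeroBranch.res g = (β : LaurentSeries k) ∧
      PowerSeries.constantCoeff α = PowerSeries.constantCoeff β := by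
  refine ⟨(S.δinfP g).fst, (S.δzeroP g).fst, ?_, ?_, (S.constantCoeff_branches g).1⟩
  · rw [Branch.res_apply]
    show (S.δinf g).fst = _
    rw [S.δinf_eq, fst_dualMap]
  · rw [Branch.res_apply]
    show (S.δzero g).fst = _
    rw [S.δzero_eq, fst_dualMap]

omit [PerfectRing k p] in
lemma node_lift_root {a : Node R p} {α β : LaurentSeries k} (hI : S.infBranch.res a = α ^ p)
    (h₀ : S.zeroBranch.res a = β ^ p) : ∃ v, S.nodeϖ ∣ a - v ^ p := by
  have hp := (Fact.out : p.Prime)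
  obtain ⟨a1, a0, h1, h0, hcc⟩ := S.node_res_series a
  obtain ⟨b1, rfl⟩ := isPow_of_pow hp.ne_zero (β := α) ⟨a1, hI.symm.trans h1⟩
  obtain ⟨b0, rfl⟩ := isPow_of_pow hp.ne_zero (β := β) ⟨a0, h₀.symm.trans h0⟩
  have e1 : a1 = b1 ^ p := HahnSeries.ofPowerSeries_injective (Γ := ℤ) (by rw [map_pow, ← h1, hI])
  have e0 : a0 = b0 ^ p := HahnSeries.ofPowerSeries_injective (Γ := ℤ) (by rw [map_pow, ← h0, h₀])
  obtain ⟨v, hv1, hv0⟩ := S.exists_node_lift (α := b1) (β := b0) (frobenius_inj k p (by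
    rw [frobenius_def, frobenius_def, ← map_pow, ← map_pow, ← e1, ← e0, hcc]))
  have k1 : S.infBranch.res (a - v ^ p) = 0 := by rw [map_sub, map_pow, hv1, hI, sub_self]
  have k0 : S.zeroBranch.res (a - v ^ p) = 0 := by rw [map_sub, map_pow, hv0, h₀, sub_self]
  rw [Branch.res_apply] at k1 k0
  exact ⟨v, S.nodeϖ_dvd_of_branches k1 k0⟩

omit [PerfectRing k p] in
/-- `X ^ i * Y ^ j * ϖ ^ a` is a `p`th power times a unit when the exponents allow. -/
lemma exists_unit_pow_form {x : F} (hx : x ≠ 0) (h : HorizDiv p S.nodeϖ x)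
    (hord : (p : ℤ) ∣ S.infBranch.ord x) (hres : (p : ℤ) ∣ (S.infBranch.resUnit x).order) :
    ∃ (U : Node R p) (H : F), IsUnit U ∧ H ≠ 0 ∧ x = algebraMap (Node R p) F U * H ^ p := by
  obtain ⟨a, i, j, u, G, hu, hG, rfl⟩ := S.exists_node_form hx h
  set B := S.infBranch
  set w' : Node R p := AdjoinRoot.of _ (PowerSeries.C S.w)
  have hw' : IsUnit w' := (S.isUnit_w.map _).map _
  have hϖ0 : algebraMap (Node R p) F S.nodeϖ ≠ 0 := Branch.algebraMap_ne_zero S.of_C_ϖ_ne_zero
  have hXne : algebraMap (Node R p) F nodeX ≠ 0 :=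
    Branch.algebraMap_ne_zero (B.ne_zero_of_res S.infBranch_res_nodeX_ne_zero)
  have hY : algebraMap (Node R p) F nodeY =
      algebraMap (Node R p) F S.nodeϖ ^ p * algebraMap (Node R p) F w' *
        (algebraMap (Node R p) F nodeX)⁻¹ := by
    rw [eq_mul_inv_iff_mul_eq₀ hXne, ← map_mul, mul_comm nodeY, nodeX_mul_nodeY, S.natCast_node_eq,
      map_mul, map_pow]
  have hform : algebraMap (Node R p) F S.nodeϖ ^ a * algebraMap (Node R p) F nodeX ^ i *
      algebraMap (Node R p) F nodeY ^ j * algebraMap (Node R p) F u * G ^ p =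
      algebraMap (Node R p) F S.nodeϖ ^ (a + p * j) *
          algebraMap (Node R p) F nodeX ^ ((i : ℤ) - j) *
        algebraMap (Node R p) F (w' ^ j * u) * G ^ p := by
    rw [hY, mul_pow, mul_pow, inv_pow, zpow_add₀ hϖ0, zpow_sub₀ hXne, map_mul, map_pow]
    simp only [zpow_natCast, ← Nat.cast_mul, ← pow_mul, div_eq_mul_inv]
    ring
  rw [hform] at hord hres ⊢
  have hU : IsUnit (w' ^ j * u) := (hw'.pow j).mul hu
  obtain ⟨hU0, hUord, -⟩ := psi_isPow_of_isUnit (L := F) B (w' ^ j * u) hU S.δinfP S.δinf_eq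
  have hUL : algebraMap (Node R p) F (w' ^ j * u) ≠ 0 := Branch.algebraMap_ne_zero hU.ne_zero
  have hX0 := S.infBranch_res_nodeX_ne_zero
  have h1 := zpow_ne_zero (a + p * j) hϖ0
  have h2 := mul_ne_zero h1 (zpow_ne_zero ((i : ℤ) - j) hXne)
  have h3 := mul_ne_zero h2 hUL
  rw [B.ord_mul h3 (pow_ne_zero _ hG), B.ord_mul h2 hUL, B.ord_mul h1 (zpow_ne_zero _ hXne),
    B.ord_zpow hϖ0, B.ord_zpow hXne, B.ord_algebraMap hX0, B.ord_algebraMap hU0, mul_zero, add_zero,
    add_zero, ← zpow_natCast G, B.ord_zpow hG] at hord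
  erw [B.ord_ϖ] at hord
  rw [mul_one] at hord
  have hTord : (B.resUnit (algebraMap (Node R p) F nodeX)).order = 1 := by
    rw [B.resUnit_algebraMap hX0, Branch.res_apply]
    show (S.δinf nodeX).fst.order = 1
    rw [S.δinf_nodeX, S.fst_δS_X, HahnSeries.ofPowerSeries_X, HahnSeries.order_single one_ne_zero]
  rw [B.resUnit_mul h3 (pow_ne_zero _ hG), B.resUnit_mul h2 hUL,
    B.resUnit_mul h1 (zpow_ne_zero _ hXne), B.resUnit_zpow hϖ0, B.resUnit_zpow hXne,
    B.resUnit_pow hG, B.resUnit_algebraMap hU0] at hres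
  erw [B.resUnit_ϖ] at hres
  rw [one_zpow, one_mul] at hres
  have hXr := B.resUnit_ne_zero hXne
  have hGr := B.resUnit_ne_zero hG
  have hzord : ∀ (n : ℤ), (B.resUnit (algebraMap (Node R p) F nodeX) ^ n).order = n := by
    intro n
    rcases Int.eq_nat_or_neg n with ⟨m, rfl | rfl⟩
    · rw [zpow_natCast, order_natPow hXr, hTord, mul_one]
    · have hm : B.resUnit (algebraMap (Node R p) F nodeX) ^ m ≠ 0 := pow_ne_zero m hXr
      have e := congrArg HahnSeries.order (inv_mul_cancel₀ hm)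
      rw [HahnSeries.order_mul (inv_ne_zero hm) hm, HahnSeries.order_one, order_natPow hXr, hTord]
        at e
      rw [zpow_neg, zpow_natCast]
      omega
  rw [HahnSeries.order_mul (mul_ne_zero (zpow_ne_zero _ hXr) hU0) (pow_ne_zero _ hGr),
    HahnSeries.order_mul (zpow_ne_zero _ hXr) hU0, hzord, hUord, order_natPow hGr, add_zero] at hres
  obtain ⟨s, hs⟩ : (p : ℤ) ∣ a + p * j := (Int.dvd_add_left (dvd_mul_right _ _)).1 hord
  obtain ⟨t, ht⟩ : (p : ℤ) ∣ (i : ℤ) - j := (Int.dvd_add_left (dvd_mul_right _ _)).1 hres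
  refine ⟨w' ^ j * u, algebraMap (Node R p) F S.nodeϖ ^ s * algebraMap (Node R p) F nodeX ^ t * G,
    hU, mul_ne_zero (mul_ne_zero (zpow_ne_zero _ hϖ0) (zpow_ne_zero _ hXne)) hG, ?_⟩
  rw [hs, ht, mul_pow, mul_pow, mul_comm (p : ℤ) s, mul_comm (p : ℤ) t, zpow_mul, zpow_mul,
    zpow_natCast, zpow_natCast]
  ring

/-- **Roots at a node.** -/
theorem node_root (hp2 : p ≠ 2) {x : F} (hx : x ≠ 0) (h : HorizDiv p S.nodeϖ x)
    (hI : ∀ N : ℕ, ∃ γ : F, γ ≠ 0 ∧ S.infBranch.Close N (x / γ ^ p))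
    (h₀ : ∀ N : ℕ, ∃ (r : R) (γ : F), S.res r ≠ 0 ∧ γ ≠ 0 ∧
      S.zeroBranch.Close N
        (algebraMap (Node R p) F (AdjoinRoot.of _ (PowerSeries.C r)) * x / γ ^ p)) :
    ∃ G : F, G ^ p = x := by
  have hp := (Fact.out : p.Prime)
  have : CharP (LaurentSeries k) p := charP_of_injective_ringHom HahnSeries.C_injective p
  have : IsAdicComplete (Ideal.span {S.ϖ}) R := S.complete
  have := isAdicComplete_nodeMax (p := p) S.ϖ ⟨S.ϖ ^ (p - 1) * S.w, by
    rw [← mul_assoc, ← pow_succ', Nat.sub_add_cancel hp.one_le]; exact S.natCast_eq⟩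
  have hcomp : IsAdicComplete (Ideal.span {S.nodeϖ}) (Node R p) :=
    isAdicComplete_span_singleton (J := nodeMax S.ϖ p)
      (Ideal.mem_sup_left (Ideal.mem_map_of_mem _ (Ideal.subset_span (by simp)))) S.of_C_ϖ_ne_zero
  set BI := S.infBranch
  set B₀ := S.zeroBranch
  obtain ⟨γ, hγ, hc1⟩ := hI 1
  obtain ⟨-, ho, hr⟩ := BI.ord_of_close le_rfl hc1
  have hγp : γ ^ p ≠ 0 := pow_ne_zero _ hγ
  obtain ⟨U, H, hU, hH, rfl⟩ := S.exists_unit_pow_form hx h
    ⟨BI.ord γ, by
      rw [div_eq_mul_inv, BI.ord_mul hx (inv_ne_zero hγp), BI.ord_inv hγp, ← zpow_natCast γ p,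
        BI.ord_zpow hγ] at ho
      linarith⟩
    ⟨(BI.resUnit γ).order, by
      have e := BI.resUnit_mul (div_ne_zero hx hγp) hγp
      rw [div_mul_cancel₀ _ hγp, hr, one_mul, BI.resUnit_pow hγ] at e
      rw [e, order_natPow (BI.resUnit_ne_zero hγ)]⟩
  have hU1 : BI.res U ≠ 0 := (psi_isPow_of_isUnit (L := F) BI U hU S.δinfP S.δinf_eq).1
  have hU0 : B₀.res U ≠ 0 := (psi_isPow_of_isUnit (L := F) B₀ U hU S.δzeroP S.δzero_eq).1
  set cst := (AdjoinRoot.of (nodePoly R p)).comp PowerSeries.C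
  have hcI : ∀ N, 1 ≤ N → ∃ z, BI.IsInt z ∧ BI.Close N (algebraMap (Node R p) F U * z ^ p) :=
    fun N hN => by
      obtain ⟨γ, hγ, hc⟩ := hI N
      obtain ⟨h1, h2⟩ := cofactor_isInt BI hU1 hH hγ (r := 1) (by rw [map_one]; exact one_ne_zero)
        hN (by rwa [map_one, one_mul])
      exact ⟨_, h1, by rwa [one_mul] at h2⟩
  have hc₀ : ∀ N, 1 ≤ N → ∃ (r : R) (z : F), B₀.IsInt z ∧
      B₀.Close N (algebraMap (Node R p) F (cst r * U) * z ^ p) := fun N hN => by
    obtain ⟨r, γ, hr, hγ, hc⟩ := h₀ N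
    have hrr : B₀.res (cst r) ≠ 0 := by
      rw [S.isConst_zero.res_map]; exact (map_ne_zero_iff _ HahnSeries.C_injective).2 hr
    obtain ⟨h1, h2⟩ := cofactor_isInt B₀ hU0 hH hγ hrr hN (by exact hc)
    exact ⟨r, _, h1, h2⟩
  obtain ⟨r, hr⟩ : ∃ G : Node R p, IsUnit G ∧ G ^ p = U := by
    refine exists_root_of_digits (w := AdjoinRoot.of _ (PowerSeries.C S.w)) hp hp2 S.natCast_node_eq
      ((S.isUnit_w.map _).map _) hU ?_ ?_
    · obtain ⟨z, hz, hc⟩ := hcI 1 le_rfl
      obtain ⟨c, α, -, eI, hcr⟩ := branch_res S BI S.isConst_inf (r := 1) hz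
        (by rwa [map_one, one_mul])
      rw [map_one] at hcr
      subst hcr
      rw [map_one, one_mul] at eI
      obtain ⟨r', z', hz', hc'⟩ := hc₀ 1 le_rfl
      obtain ⟨c, β, hc0, e₀, -⟩ := branch_res S B₀ S.isConst_zero hz' hc'
      obtain ⟨d, hd⟩ := exists_pow_eq (p := p) c
      refine S.node_lift_root (α := α⁻¹) (β := (HahnSeries.C d * β)⁻¹) ?_ ?_
      · rw [inv_pow, eq_inv_of_mul_eq_one_left eI]
      · rw [inv_pow, mul_pow, ← map_pow, hd]
        refine eq_inv_of_mul_eq_one_left ?_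
        linear_combination e₀
    · intro n G a hn hU'
      obtain ⟨z, hz, hc⟩ := hcI (n + 1) (by omega)
      obtain ⟨hA, hB⟩ := branch_digit_one S BI hp2 S.isConst_inf hn hU' hz hc
      obtain ⟨r', z', hz', hc'⟩ := hc₀ (n + 1) (by omega)
      obtain ⟨c, e, -, hA', hB'⟩ := branch_digit S B₀ hp2 S.isConst_zero hn hU' hz' hc'
      obtain ⟨a1, a0, e1, e0, hcc⟩ := S.node_res_series a
      refine ⟨fun hc => ?_, fun hc => ?_⟩
      · have ha1 := hA hc
        have ha0 := hA' hc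
        have hz1 : a1 = 0 := HahnSeries.ofPowerSeries_injective (Γ := ℤ)
          (by rw [← e1, ha1, map_zero])
        have hz0 : a0 = - PowerSeries.C (S.res e) := HahnSeries.ofPowerSeries_injective (Γ := ℤ) (by
          rw [← e0, map_neg, HahnSeries.ofPowerSeries_C]; exact eq_neg_of_add_eq_zero_left ha0)
        rw [hz1, hz0, map_zero, map_neg, PowerSeries.constantCoeff_C, eq_comm, neg_eq_zero] at hcc
        rw [hcc, map_zero, add_zero] at ha0
        rw [Branch.res_apply] at ha1 ha0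
        exact S.nodeϖ_dvd_of_branches ha1 ha0
      · obtain ⟨α, hα⟩ := hB hc
        obtain ⟨β, hβ⟩ := hB' hc
        obtain ⟨d, hd⟩ := sub_C_pow (p := p) β (S.res e)
        exact S.node_lift_root hα ((eq_sub_of_add_eq hβ).trans hd)
  exact ⟨algebraMap (Node R p) F r * H, by rw [mul_pow, ← map_pow, hr.2]⟩

end Node

end Setup

end Fermat.Agent.LevelLowerP
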