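import Fermat.Agent.LevelLowerP.HeckeNorm
import Fermat.Agent.LevelLowerP.GeoElliptic

/-!
# At an elliptic point of order three of level `M ℓ` the two maps to level `M` agree

Over `ℚ̄`: at a place over `j = 0` where `j` has order one, `f` and `f(ℓτ)` have the same order
for every `f` of level `M`.
-/

set_option autoImplicit false

noncomputable section

namespace Fermat.Agent.LevelLowerP

open ModularCurve AlgebraicCurve CongruenceSubgroup Fermat.Agent.MFGenus Fermat.Agent.Igusa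
open Fermat.Agent.Kummer Fermat.Agent.Kummer.MeroH
open scoped MatrixGroups UpperHalfPlane

local notation "Qb" => AlgebraicClosure ℚ
local notation "ρ" => Fermat.Agent.LevelOne.rho

/-- An integral combination of `ρ` and `1` vanishes only trivially. -/
theorem rho_coords {a b : ℤ} (h : (a : ℂ) * (ρ : ℂ) + b = 0) : a = 0 ∧ b = 0 :=
  LevelOne.int_coords_eq _ (c := 0) (d := 0) (by push_cast; linear_combination h)

theorem smul_eq_iff_linear (g : SL(2, ℤ)) (τ : ℍ) (z : ℂ) :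
    ((g • τ : ℍ) : ℂ) = z ↔ (g 0 0 : ℂ) * τ + g 0 1 = z * ((g 1 0 : ℂ) * τ + g 1 1) := by
  have hne : (g 1 0 : ℂ) * τ + g 1 1 ≠ 0 := by
    simpa [UpperHalfPlane.denom] using
      UpperHalfPlane.denom_ne_zero (g : GL (Fin 2) ℝ) τ
  rw [UpperHalfPlane.coe_specialLinearGroup_apply]
  simp only [algebraMap_int_eq, eq_intCast, Complex.ofReal_intCast]
  rw [div_eq_iff hne]

/-- The second row of `S T` in the eigenvector equation at `ρ`. -/
theorem row_ST {γ g : SL(2, ℤ)} (h : γ * g = g * (ModularGroup.S * ModularGroup.T)) :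
    γ 1 0 * g 0 0 + γ 1 1 * g 1 0 = g 1 1 ∧ γ 1 0 * g 0 1 + γ 1 1 * g 1 1 = g 1 1 - g 1 0 := by
  have e := fun j => congrArg (fun m : SL(2, ℤ) => m 1 j) h
  have e0 := e 0
  have e1 := e 1
  simp [Matrix.SpecialLinearGroup.coe_mul, Matrix.mul_apply, Fin.sum_univ_two,
    ModularGroup.coe_S, ModularGroup.coe_T] at e0 e1
  exact ⟨e0, by linear_combination e1⟩

/-- A point fixed by an element of `Γ₀(Mℓ)` of order three is carried by `τ ↦ ℓτ` to a point of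
the same `Γ₀(M)` orbit. -/
theorem exists_gamma_scale (M ℓ : ℕ) [NeZero ℓ] (g : SL(2, ℤ))
    (hγ : g * (ModularGroup.S * ModularGroup.T) * g⁻¹ ∈ Gamma0 (M * ℓ)) :
    ∃ δ ∈ Gamma0 M, ((δ • (g • ρ) : ℍ) : ℂ) = (ℓ : ℂ) * ((g • ρ : ℍ) : ℂ) := by
  set X := ModularGroup.S * ModularGroup.T with hX
  set γ := g * X * g⁻¹
  have hγg : γ * g = g * X := by simp [γ]
  obtain ⟨hg10, hg11⟩ := row_ST hγg
  set τ := g • ρ
  have hden : (g 1 0 : ℂ) * (ρ : ℂ) + g 1 1 ≠ 0 := by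
    simpa [UpperHalfPlane.denom] using
      UpperHalfPlane.denom_ne_zero (g : GL (Fin 2) ℝ) ρ
  have hτ := (smul_eq_iff_linear g ρ τ).1 rfl
  have hfix : γ • τ = τ := by
    show γ • g • ρ = g • ρ
    rw [← mul_smul, hγg, mul_smul, ST_smul_rho]
  -- the multiplier is `ρ + 1`
  have hμ : (γ 1 0 : ℂ) * τ + γ 1 1 = (ρ : ℂ) + 1 := by
    refine mul_right_cancel₀ hden ?_
    have e0 : (γ 1 0 : ℂ) * g 0 0 + γ 1 1 * g 1 0 = g 1 1 := by exact_mod_cast hg10
    have e1 : (γ 1 0 : ℂ) * g 0 1 + γ 1 1 * g 1 1 = g 1 1 - g 1 0 := by exact_mod_cast hg11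
    linear_combination (ρ : ℂ) * e0 + e1 - (γ 1 0 : ℂ) * hτ - (g 1 0 : ℂ) * LevelOne.rho_sq_add
  have hfix' := (smul_eq_iff_linear γ τ τ).1 (congrArg UpperHalfPlane.coe hfix)
  rw [hμ] at hfix'
  obtain ⟨c, hc⟩ : ((M * ℓ : ℕ) : ℤ) ∣ γ 1 0 :=
    (ZMod.intCast_zmod_eq_zero_iff_dvd _ _).1 (Gamma0_mem.1 hγ)
  push_cast at hc
  -- the image under `τ ↦ ℓτ`
  have hdetγ := γ.det_coe
  rw [Matrix.det_fin_two] at hdetγ
  let γ' : SL(2, ℤ) := ⟨!![γ 0 0, ℓ * γ 0 1; (M : ℤ) * c, γ 1 1], by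
    rw [Matrix.det_fin_two_of]
    linear_combination hdetγ + (γ 0 1) * hc⟩
  have hℓpos : (0 : ℝ) < ℓ := by exact_mod_cast NeZero.pos ℓ
  let z : ℍ := ⟨(ℓ : ℂ) * τ, by
    rw [Complex.mul_im, Complex.natCast_re, Complex.natCast_im, zero_mul, add_zero]
    exact mul_pos hℓpos τ.im_pos⟩
  have hcc : (γ 1 0 : ℂ) = (M : ℂ) * ℓ * c := by exact_mod_cast hc
  have hμ' : (γ' 1 0 : ℂ) * z + γ' 1 1 = (ρ : ℂ) + 1 := by
    show (((M : ℤ) * c : ℤ) : ℂ) * ((ℓ : ℂ) * τ) + ((γ 1 1 : ℤ) : ℂ) = _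
    push_cast
    linear_combination hμ - (τ : ℂ) * hcc
  have hz : γ' • z = z := by
    refine UpperHalfPlane.ext ((smul_eq_iff_linear γ' z z).2 ?_)
    rw [hμ']
    show ((γ 0 0 : ℤ) : ℂ) * ((ℓ : ℂ) * τ) + (((ℓ : ℤ) * γ 0 1 : ℤ) : ℂ) = (ℓ : ℂ) * τ * _
    push_cast
    linear_combination (ℓ : ℂ) * hfix'
  -- `E₄` vanishes there
  have hE : ModularForm.E₄ z = 0 := by
    have h4 : ModularForm.E₄ (γ' • z) =
        UpperHalfPlane.denom γ' z ^ 4 * ModularForm.E₄ z := by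
      exact_mod_cast SlashInvariantForm.slash_action_eqn'' (k := 4) ModularForm.E₄
        (MonoidHom.mem_range.mpr ⟨γ', rfl⟩ : (γ' : GL (Fin 2) ℝ) ∈ 𝒮ℒ) z
    have hden' : UpperHalfPlane.denom γ' z = (ρ : ℂ) + 1 := by
      rw [← hμ']
      simp [UpperHalfPlane.denom]
    rw [hz, hden'] at h4
    have h5 : ((ρ : ℂ) + 2) * ModularForm.E₄ z = 0 := by
      linear_combination h4 + ModularForm.E₄ z *
        ((ρ : ℂ) ^ 2 + 3 * ρ + 2) * LevelOne.rho_sq_add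
    refine (mul_eq_zero.1 h5).resolve_left fun h => ?_
    have := rho_coords (a := 1) (b := 2) (by push_cast; linear_combination h)
    exact one_ne_zero this.1
  obtain ⟨h, hh⟩ := LevelOne.E₄_eq_zero_iff.1 hE
  -- so `γ' h = h (S T)`
  have hh' := (smul_eq_iff_linear h ρ z).1 (congrArg UpperHalfPlane.coe hh)
  obtain ⟨ha, hb⟩ := rho_coords
    (a := γ' 1 0 * h 0 0 + γ' 1 1 * h 1 0 - h 1 1)
    (b := γ' 1 0 * h 0 1 + γ' 1 1 * h 1 1 - (h 1 1 - h 1 0)) (by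
      push_cast
      linear_combination (γ' 1 0 : ℂ) * hh' + ((h 1 0 : ℂ) * ρ + h 1 1) * hμ' +
        (h 1 0 : ℂ) * LevelOne.rho_sq_add)
  refine ⟨h * g⁻¹, ?_, ?_⟩
  · rw [Gamma0_mem, ZMod.intCast_zmod_eq_zero_iff_dvd]
    have hh11 : h 1 1 = (M : ℤ) * c * h 0 0 + γ 1 1 * h 1 0 := by
      have : γ' 1 0 * h 0 0 + γ' 1 1 * h 1 0 = h 1 1 := by linear_combination ha
      exact this.symm
    have hg11' : g 1 1 = (M : ℤ) * ℓ * c * g 0 0 + γ 1 1 * g 1 0 := by rw [← hc, hg10]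
    have hval : (h * g⁻¹ : SL(2, ℤ)) 1 0 = h 1 0 * g 1 1 - h 1 1 * g 1 0 := by
      simp [Matrix.SpecialLinearGroup.coe_mul, Matrix.SpecialLinearGroup.coe_inv,
        Matrix.adjugate_fin_two, Matrix.mul_apply, Fin.sum_univ_two]
      ring
    exact ⟨h 1 0 * ℓ * c * g 0 0 - c * h 0 0 * g 1 0, by
      rw [hval, hh11, hg11']; ring⟩
  · show (((h * g⁻¹) • g • ρ : ℍ) : ℂ) = _
    rw [mul_smul, inv_smul_smul, hh]

variable (M ℓ : ℕ) [NeZero M] [Fact ℓ.Prime]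

theorem embed_of_coe_eq {L N : ℕ} (ι : Qb →+* ℂ) (x : FL Qb L) (y : FL Qb N)
    (h : (x : LaurentSeries Qb) = y) : embed ι L x = embed ι N y := by
  rw [embed_eq_iff, h]
  exact isExp_embed ι y

omit [NeZero M] in
theorem embed_scale {L : ℕ} (ι : Qb →+* ℂ) (x : FL Qb L) (y : FL Qb M)
    (h : (x : LaurentSeries Qb) = qExpand Qb ℓ (y : LaurentSeries Qb)) :
    embed ι L x = intComp !![(ℓ : ℤ), 0; 0, 1]
      (det_upper_pos (Int.natCast_pos.2 (NeZero.pos ℓ)) one_pos) (embed ι M y) := by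
  obtain ⟨t, ht, htc, htz⟩ := (isExp_embed ι y).intComp_upper
    (a := (ℓ : ℤ)) (b := 0) (d := 1) (by exact_mod_cast NeZero.pos ℓ) one_pos
    (h := 1) (e := ℓ) one_pos (by simp)
  rw [Nat.cast_one] at ht
  rw [embed_eq_iff, h, coeffMap_qExpand]
  convert ht using 1
  ext k
  by_cases hk : (ℓ : ℤ) ∣ k
  · obtain ⟨m, rfl⟩ := hk
    rw [qExpand_coeff_mul, htc]
    simp [Function.Periodic.qParam]
  · rw [qExpand_coeff_of_not_dvd ℓ _ hk, htz k hk]

/-- **Orders over `j = 0` over `ℚ̄`.** -/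
theorem ord_scale_eq_ord_incl (P : Place Qb (modularFunctionFieldFullC Qb (M * ℓ)))
    (hP : 0 < P.ord (jC Qb (M * ℓ))) :
    P.ord (jC Qb (M * ℓ)) = 3 ∨ P.ord (jC Qb (M * ℓ)) = 1 ∧
      ∀ f : modularFunctionFieldFullC Qb M,
        P.ord (scaleAlg Qb M ℓ f) = P.ord (levelAlg Qb (dvd_mul_right M ℓ) f) := by
  classical
  obtain ⟨ι⟩ := exists_embedding_complex
  have := ι.charZero
  let φ : FL Qb (M * ℓ) →ₐ[Qb] modularFunctionFieldFullC Qb (M * ℓ) :=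
    (IntermediateField.equivOfEq (FL_eq_fullC (M * ℓ))).toAlgHom
  have hsurj : Function.Surjective φ :=
    (IntermediateField.equivOfEq (FL_eq_fullC (M * ℓ))).surjective
  have hint : φ.toRingHom.IsIntegral := RingHom.isIntegral_of_surjective _ hsurj
  set v := P.restrictAlong φ hint
  have hord : ∀ x, P.ord (φ x) = v.ord x := fun x => by
    obtain ⟨t, -, ht⟩ := exists_ord_eq_one P
    obtain ⟨t', rfl⟩ := hsurj t
    rw [P.ord_restrictAlong φ hint] at ht ⊢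
    have h1 : (Place.ramificationIndexAlong φ P : ℤ) = 1 :=
      Int.eq_one_of_mul_eq_one_right (Int.natCast_nonneg _) ht
    rw [h1, one_mul]
  have hj : φ (jElt Qb (M * ℓ)) = jC Qb (M * ℓ) := Subtype.ext (by
    show (jElt Qb (M * ℓ) : LaurentSeries Qb) = _
    rw [coe_jElt, coe_jC'])
  rw [← hj, hord] at hP ⊢
  have hvj : 0 < v.ord (jElt Qb (M * ℓ) - algebraMap Qb (FL Qb (M * ℓ)) 0) := by
    rwa [map_zero, sub_zero]
  have hι0 : ι 0 = LevelOne.jFun LevelOne.rho := by rw [map_zero, LevelOne.jFun_rho]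
  obtain ⟨e, he⟩ := exists_point_equiv (N := M * ℓ) ι (x₀ := (0 : Qb)) hι0 ST_smul_rho
    (LevelOne.analyticOrderAt_jFun_of_E₄_eq_zero LevelOne.E₄_rho)
    (Or.inr ⟨Nat.prime_three, by rw [rot_ST_inv]; exact rho_ne_one,
      by rw [rot_ST_inv]; exact rho_cube⟩) Cosets.ST_pow_three_smul
  obtain ⟨o, ho⟩ := e.surjective ⟨v, hvj⟩
  set q := o.out
  have hq : (Quotient.mk'' q : PointOrbit (M * ℓ) (ModularGroup.S * ModularGroup.T)) = o :=
    Quotient.out_eq' o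
  have hord0 := (he q).1
  rw [hq, ho] at hord0
  simp only [map_zero, sub_zero] at hord0
  rcases eq_or_ne ((ModularGroup.S * ModularGroup.T) • o.out) o.out with hfix | hfix
  swap
  · left
    rw [pointStab, if_neg hfix, Nat.cast_one, one_mul] at hord0
    exact_mod_cast hord0
  right
  rw [pointStab, if_pos hfix] at hord0
  refine ⟨by push_cast at hord0; omega, fun f => ?_⟩
  rcases eq_or_ne f 0 with rfl | hf
  · rw [map_zero, map_zero]
  set g : SL(2, ℤ) := q.out⁻¹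
  have hγ : g * (ModularGroup.S * ModularGroup.T) * g⁻¹ ∈ Gamma0 (M * ℓ) := by
    rw [show g⁻¹ = q.out from inv_inv _, show g * (ModularGroup.S * ModularGroup.T) * q.out =
      q.out⁻¹ * ((ModularGroup.S * ModularGroup.T) * q.out) from mul_assoc _ _ _,
      ← QuotientGroup.eq]
    refine (QuotientGroup.out_eq' q).trans (hfix.symm.trans ?_)
    show (ModularGroup.S * ModularGroup.T) • q = _
    conv_lhs => rw [← QuotientGroup.out_eq' q]
    rfl
  obtain ⟨δ, hδ, hδτ⟩ := exists_gamma_scale M ℓ g hγ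
  set τ : ℍ := g • LevelOne.rho
  have key : ∀ x : FL Qb (M * ℓ), x ≠ 0 →
      MFGenus.ordPoint τ (embed ι (M * ℓ) x) = 3 * v.ord x := fun x hx => by
    have h := (he q).2 x hx
    rw [hq, ho, pointStab, if_pos hfix, conjEmbed, RingHom.comp_apply,
      MFGenus.ordPoint_slComp] at h
    rw [h, mul_comm]
    rfl
  let f₀ : FL Qb M := ⟨f.1, (FL_eq_fullC M).symm ▸ f.2⟩
  obtain ⟨a, ha⟩ := hsurj (levelAlg Qb (dvd_mul_right M ℓ) f)
  obtain ⟨b, hb⟩ := hsurj (scaleAlg Qb M ℓ f)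
  have hac : (a : LaurentSeries Qb) = (f₀ : LaurentSeries Qb) :=
    (congrArg Subtype.val ha).trans (coe_levelIncl (dvd_mul_right M ℓ) f)
  have hbc : (b : LaurentSeries Qb) = qExpand Qb ℓ (f₀ : LaurentSeries Qb) :=
    (congrArg Subtype.val hb).trans (coe_scaleAlg Qb M ℓ f)
  have ha0 : a ≠ 0 := fun h => (_root_.map_ne_zero _).2 hf
    (ha.symm.trans (by rw [h, map_zero]) : levelAlg Qb (dvd_mul_right M ℓ) f = 0)
  have hb0 : b ≠ 0 := fun h => (_root_.map_ne_zero _).2 hf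
    (hb.symm.trans (by rw [h, map_zero]) : scaleAlg Qb M ℓ f = 0)
  rw [← ha, ← hb, hord, hord]
  have h1 := key a ha0
  have h2 := key b hb0
  rw [embed_of_coe_eq ι a f₀ hac] at h1
  rw [embed_scale M ℓ ι b f₀ hbc] at h2
  have h3 : MFGenus.ordPoint τ (intComp !![(ℓ : ℤ), 0; 0, 1]
      (det_upper_pos (Int.natCast_pos.2 (NeZero.pos ℓ)) one_pos) (embed ι M f₀)) =
      MFGenus.ordPoint τ (embed ι M f₀) := by
    conv_rhs => rw [← slComp_embed ι f₀ hδ, MFGenus.ordPoint_slComp]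
    rw [MFGenus.ordPoint, MFGenus.ordPoint, intComp, ordAt_comp _ _ _ (coe_mem_uhp τ),
      moeb_intGL _ (coe_mem_uhp τ), hδτ]
    simp
  rw [h3, h1] at h2
  omega

end Fermat.Agent.LevelLowerP
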