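import Fermat.Agent.LevelLowerP.Approx

/-!
# The third step: normalised functions

Functions with exact local `p`th roots and approximate ones on both components, normalised
(`Model.Normal`): the successive approximation of their root by elements of a lattice, one power of
`ϖ` at a time.

Main result: `Model.Normal.exists_step`.
-/

set_option autoImplicit false

namespace Fermat.Agent.LevelLowerP

open DualNumber TrivSqZeroExt
open scoped LaurentSeries

variable {p : ℕ} {R k : Type*} [CommRing R] [IsDomain R] [IsDiscreteValuationRing R] [Field k]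
  [CharP k p] [Fact p.Prime] [PerfectRing k p] {S : Setup p R k} {L κ : Type*} [Field L] [Field κ]
  [Algebra R L] [Algebra k κ]

namespace GBranch

variable {G : GBranch S L κ}

omit [IsDiscreteValuationRing R] [CharP k p] [Fact (Nat.Prime p)] [PerfectRing k p] in
/-- Constants do not affect the property. -/
lemma PowApprox.mul_div {f : L} (h : G.PowApprox f) {a b : R} (ha : a ≠ 0) (hb : b ≠ 0)
    (haL : algebraMap R L a ≠ 0) (hbL : algebraMap R L b ≠ 0) :
    G.PowApprox (f * algebraMap R L a / algebraMap R L b) := by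
  intro n
  obtain ⟨r, s, g, hr, hs, hg, hc⟩ := h n
  refine ⟨r * a, s * b, g, mul_ne_zero hr ha, mul_ne_zero hs hb, hg, ?_⟩
  convert hc using 2
  rw [map_mul, map_mul]
  field_simp

end GBranch

namespace Emb

variable {G : GBranch S L κ} {O : Type*} [CommRing O] [IsDomain O]
  {B : Branch O (LaurentSeries k)} {F : Type*} [Field F] [Algebra O F] [IsFractionRing O F]
  (E : Emb G B F)

omit [IsDomain R] [IsDiscreteValuationRing R] [CharP k p] [Fact (Nat.Prime p)]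
    [PerfectRing k p] in
lemma divPow_iff {n : ℕ} {x : L} : G.Ge n x ↔ B.DivPow n (E.ι x) := by
  constructor
  · intro h
    obtain ⟨y, hy, rfl⟩ := E.exists_eq_mul_of_ge h
    exact ⟨⟨E.ι y, E.isInt_iff.2 hy⟩, by rw [map_mul, map_pow, E.ι_ϖ]⟩
  · rintro ⟨d, hd⟩
    have hπ := pow_ne_zero n E.algebraMap_ϖ_ne_zero
    have hπ' : algebraMap O F B.ϖ ≠ 0 := Branch.algebraMap_ne_zero B.ϖ_ne_zero
    have hy : G.Ge 0 (x * (algebraMap R L S.ϖ ^ n)⁻¹) := by
      rw [← E.isInt_iff, map_mul, map_inv₀, map_pow, E.ι_ϖ, hd]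
      have e1 : algebraMap O F B.ϖ ^ n * (d : F) * (algebraMap O F B.ϖ ^ n)⁻¹ = d := by field_simp
      rw [e1]; exact d.2
    have e : x = algebraMap R L S.ϖ ^ n * (x * (algebraMap R L S.ϖ ^ n)⁻¹) := by field_simp
    rw [e]
    simpa using G.ge_mul (E.ge_ϖ_pow n) hy

omit [PerfectRing k p] [IsDomain R] [IsDiscreteValuationRing R] [CharP k p]
    [Fact (Nat.Prime p)] in
include E in
lemma res_sub {x y : L} (hx : G.Ge 0 x) (hy : G.Ge 0 y) : G.res (x - y) = G.res x - G.res y := by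
  rw [eq_sub_iff_add_eq, ← E.res_add (E.ge_sub hx hy) hy, sub_add_cancel]

omit [PerfectRing k p] [IsDomain R] [IsDiscreteValuationRing R] [CharP k p]
    [Fact (Nat.Prime p)] in
include E in
/-- The residue upstairs of an element congruent to the image of `y`. -/
lemma intRes_eq_of_divPow {y : L} (hy : G.Ge 0 y) {z : F} (hz : B.DivPow 1 (z - E.ι y)) :
    ∃ hzi : B.IsInt z, B.intRes ⟨z, hzi⟩ = E.e (G.res y) := by
  obtain ⟨d, hd⟩ := hz
  have e : z = E.ι y + ((B.intϖ * d : B.intRing F) : F) := by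
    rw [Subring.coe_mul, Branch.intϖ]; linear_combination hd
  have hzi : B.IsInt z := e ▸ (E.isInt_iff.2 hy).add (B.intϖ * d).2
  refine ⟨hzi, ?_⟩
  have : (⟨z, hzi⟩ : B.intRing F) = ⟨E.ι y, E.isInt_iff.2 hy⟩ + B.intϖ * d := Subtype.ext e
  rw [this, map_add, map_mul, B.intRes_ϖ, zero_mul, add_zero, E.intRes_eq hy]

omit [IsDomain R] [IsDiscreteValuationRing R] [PerfectRing k p] in
include E in
/-- Two approximations of a root agree. -/
lemma approx_congr (hp2 : p ≠ 2) (hB : Setup.IsConst S B E.cst) {f g g' : L} (hg' : g' ≠ 0)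
    (hgi : G.Ge 0 g') {N N' j : ℕ} (hN : p + j + 1 ≤ N) (hN' : p + j + 1 ≤ N')
    (h : G.Cong N (f / g ^ p)) (h' : G.Cong N' (f / g' ^ p)) :
    G.Ge ((j + 1 : ℕ) : ℤ) (g - g') := by
  have h1 := (E.ord_of_cong (by omega) h).1
  have hf : f ≠ 0 := (div_ne_zero_iff.1 h1).1
  rw [E.divPow_iff, map_sub]
  refine S.root_congr hp2 hB ((map_ne_zero E.ι).2 hg') (E.isInt_iff.2 hgi) rfl le_rfl ?_
  have k1 := (Branch.Close.inv (by omega) (E.close_of_cong h)).mono hN
  have k2 := (E.close_of_cong h').mono hN'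
  convert k1.mul k2 using 1
  rw [map_div₀, map_div₀, map_pow, map_pow]
  have := (map_ne_zero E.ι).2 hf
  field_simp

omit [IsDomain R] [IsDiscreteValuationRing R] [PerfectRing k p] in
include E in
/-- A global approximation of a local root. -/
lemma root_sub_approx (hp2 : p ≠ 2) (hB : Setup.IsConst S B E.cst) {f g : L} {G' : F} (hg : g ≠ 0)
    (hgi : G.Ge 0 g) (hG : G' ^ p = E.ι f) {N j : ℕ} (hN : p + j + 1 ≤ N)
    (h : G.Cong N (f / g ^ p)) : B.DivPow (j + 1) (G' - E.ι g) := by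
  refine S.root_congr hp2 hB ((map_ne_zero E.ι).2 hg) (E.isInt_iff.2 hgi) hG hN ?_
  simpa using E.close_of_cong h

omit [IsDomain R] [IsDiscreteValuationRing R] [CharP k p] [PerfectRing k p] in
include E in
/-- An approximation which is integral. -/
lemma ge_of_cong {f g : L} (hg : g ≠ 0) (hf0 : G.Ge 0 f) {N : ℕ} (hN : 1 ≤ N)
    (h : G.Cong N (f / g ^ p)) : G.Ge 0 g := by
  obtain ⟨h1, h2⟩ := E.ord_of_cong hN h
  have hf : f ≠ 0 := (div_ne_zero_iff.1 h1).1
  rw [div_eq_mul_inv, G.ord_mul _ _ hf (inv_ne_zero (pow_ne_zero _ hg)),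
    E.ord_inv (pow_ne_zero _ hg), E.ord_pow hg] at h2
  refine Or.inr ?_
  have h3 := hf0.resolve_left hf
  have hp : (0 : ℤ) < p := by exact_mod_cast (Fact.out : p.Prime).pos
  nlinarith

end Emb

section Valuations

variable {O F : Type*} [CommRing O] [Field F] [Algebra O F]

end Valuations

namespace Model

variable [IsDomain (Node R p)] (M : Model S L κ)

/-- A function normalised for the descent, with its approximations and local roots. -/
structure Normal (n : ℕ) (f : L) where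
  f_ne_zero : f ≠ 0
  geI : M.inf.Ge 0 f
  ge₀ : M.zero.Ge 0 f
  /-- approximate roots -/
  gI : ℕ → L
  /-- approximate roots -/
  g₀ : ℕ → L
  gI_ne_zero : ∀ N, gI N ≠ 0
  g₀_ne_zero : ∀ N, g₀ N ≠ 0
  congI : ∀ N, M.inf.Cong N (f / gI N ^ p)
  cong₀ : ∀ N, M.zero.Cong N (f / g₀ N ^ p)
  rootI : ∀ Q, ∃ G, G ^ p = (M.ptI Q).ι f
  root₀ : ∀ Q, ∃ G, G ^ p = (M.pt₀ Q).ι f
  rootN : ∀ v, ∃ G, G ^ p = (M.node v).ι f
  regular : M.RegularUpTo n f

variable {M}

omit [IsDomain (Node R p)] [PerfectRing k p] in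
/-- Residue data at a smooth point. -/
theorem polesLE_of_point {G : GBranch S L κ} (Q : LocalPoint G) (hp2 : p ≠ 2) {f g γ : L}
    {T : ℕ} {G' : FractionRing (PowerSeries R)} (hg : g ≠ 0) (hgi : G.Ge 0 g) (hG : G' ^ p = Q.ι f)
    {m N : ℕ} (hN : p + m + 1 ≤ N) (h : G.Cong N (f / g ^ p)) (hγ : G.Ge m (g - γ))
    (hf : NoHorizPole (PowerSeries.C S.ϖ) (Q.ι f *
      algebraMap (PowerSeries R) (FractionRing (PowerSeries R)) PowerSeries.X ^ (p * T)))
    (hγT : NoHorizPole (PowerSeries.C S.ϖ) (Q.ι γ *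
      algebraMap (PowerSeries R) (FractionRing (PowerSeries R)) PowerSeries.X ^ T)) :
    PolesLE T (Q.e (G.res ((g - γ) / algebraMap R L S.ϖ ^ m))) := by
  set B := S.discBranch
  set φ := algebraMap (PowerSeries R) (FractionRing (PowerSeries R))
  set E := Q.emb
  have hπ := pow_ne_zero m E.algebraMap_ϖ_ne_zero
  have hπ' : φ (PowerSeries.C S.ϖ) ^ m ≠ 0 := pow_ne_zero _ (Branch.algebraMap_ne_zero B.ϖ_ne_zero)
  have hιπ : Q.ι (algebraMap R L S.ϖ) = φ (PowerSeries.C S.ϖ) := Q.ι_algebraMap _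
  obtain ⟨y, hy, hye⟩ := E.exists_eq_mul_of_ge hγ
  have hyeq : (g - γ) / algebraMap R L S.ϖ ^ m = y := by rw [hye]; field_simp
  rw [hyeq]
  set z := (G' - Q.ι γ) / φ (PowerSeries.C S.ϖ) ^ m with hz
  have hdiv : B.DivPow 1 (z - Q.ι y) := by
    obtain ⟨d, hd⟩ := E.root_sub_approx hp2 S.isConst_disc hg hgi hG hN h
    refine ⟨d, ?_⟩
    have hy' := congrArg Q.ι hye
    rw [map_sub, map_mul, map_pow, hιπ] at hy'
    change _ = φ (PowerSeries.C S.ϖ) ^ 1 * (d : FractionRing (PowerSeries R))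
    change G' - Q.ι g = φ (PowerSeries.C S.ϖ) ^ (m + 1) * (d : FractionRing (PowerSeries R)) at hd
    rw [hz, pow_one, sub_eq_iff_eq_add, div_eq_iff hπ']
    linear_combination hd + hy'
  obtain ⟨hzi, hzres⟩ := E.intRes_eq_of_divPow hy hdiv
  have hX : B.IsInt (φ PowerSeries.X ^ T) := Branch.isInt_pow (B.isInt_algebraMap _) T
  have hnp : NoHorizPole (PowerSeries.C S.ϖ) (z * φ PowerSeries.X ^ T) := by
    intro v h1 h2
    have hGT : v (G' * φ PowerSeries.X ^ T) ≤ 1 := by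
      have := hf v h1 h2
      rw [← hG, pow_mul', ← mul_pow, map_pow] at this
      exact pow_le_one_iff (Fact.out : p.Prime).ne_zero |>.1 this
    have e : z * φ PowerSeries.X ^ T =
        (G' * φ PowerSeries.X ^ T - Q.ι γ * φ PowerSeries.X ^ T) / φ (PowerSeries.C S.ϖ) ^ m := by
      rw [hz]; ring
    rw [e, map_div₀, map_pow, h2, one_pow, div_one]
    exact le_trans (v.map_sub _ _) (max_le hGT (hγT v h1 h2))
  obtain ⟨o, ho⟩ := S.disc_integral hnp (hzi.mul hX)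
  refine ⟨PowerSeries.map S.res o, ?_⟩
  have e1 : B.intRes (B.toIntRing _ o) =
      B.intRes ((⟨z, hzi⟩ : B.intRing (FractionRing (PowerSeries R))) *
        B.toIntRing _ PowerSeries.X ^ T) :=
    congrArg _ (Subtype.ext (by
      simp only [Branch.coe_toIntRing, Subring.coe_mul, SubmonoidClass.coe_pow]
      exact ho.symm))
  rw [map_mul, map_pow, hzres, Branch.intRes_toIntRing, Branch.intRes_toIntRing, Branch.res_apply,
    Branch.res_apply] at e1
  change (S.δS o).fst = _ * (S.δS PowerSeries.X).fst ^ T at e1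
  rw [S.fst_δS, S.fst_δS, PowerSeries.map_X, mul_comm] at e1
  exact e1.symm

omit [PerfectRing k p] in
/-- Residue data at a node. -/
theorem compatible_of_node {GI G₀ : GBranch S L κ} (v : LocalNode GI G₀) (hp2 : p ≠ 2)
    {f gI g₀ γ : L} {G' : FractionRing (Node R p)} (hgI : gI ≠ 0) (hg₀ : g₀ ≠ 0)
    (hgIi : GI.Ge 0 gI) (hg₀i : G₀.Ge 0 g₀) (hG : G' ^ p = v.ι f) {m N : ℕ} (hN : p + m + 1 ≤ N)
    (hI : GI.Cong N (f / gI ^ p)) (h₀ : G₀.Cong N (f / g₀ ^ p))
    (hγI : GI.Ge m (gI - γ)) (hγ₀ : G₀.Ge m (g₀ - γ))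
    (hf : NoHorizPole S.nodeϖ (v.ι f)) (hγ : NoHorizPole S.nodeϖ (v.ι γ)) :
    ∃ α β : PowerSeries k,
      v.eI (GI.res ((gI - γ) / algebraMap R L S.ϖ ^ m)) = (α : LaurentSeries k) ∧
      v.e₀ (G₀.res ((g₀ - γ) / algebraMap R L S.ϖ ^ m)) = (β : LaurentSeries k) ∧
      PowerSeries.constantCoeff α = PowerSeries.constantCoeff β := by
  set φ := algebraMap (Node R p) (FractionRing (Node R p))
  have hπ' : φ S.nodeϖ ^ m ≠ 0 := pow_ne_zero _ (Branch.algebraMap_ne_zero S.infBranch.ϖ_ne_zero)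
  have hιπ : v.ι (algebraMap R L S.ϖ) = φ S.nodeϖ := v.ι_algebraMap _
  set z := (G' - v.ι γ) / φ S.nodeϖ ^ m with hz
  have side : ∀ {G : GBranch S L κ} {B : Branch (Node R p) (LaurentSeries k)}
      (E : Emb G B (FractionRing (Node R p))), E.ι = v.ι → B.ϖ = S.nodeϖ →
      Setup.IsConst S B E.cst → ∀ g : L, g ≠ 0 → G.Ge 0 g → G.Cong N (f / g ^ p) →
      G.Ge m (g - γ) → ∃ hzi : B.IsInt z,
        B.intRes ⟨z, hzi⟩ = E.e (G.res ((g - γ) / algebraMap R L S.ϖ ^ m)) := by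
    intro G B E hEι hBϖ hB g hg hgi hc hgγ
    have hπ := pow_ne_zero m E.algebraMap_ϖ_ne_zero
    obtain ⟨y, hy, hye⟩ := E.exists_eq_mul_of_ge hgγ
    have hyeq : (g - γ) / algebraMap R L S.ϖ ^ m = y := by rw [hye]; field_simp
    rw [hyeq]
    refine E.intRes_eq_of_divPow hy ?_
    obtain ⟨d, hd⟩ := E.root_sub_approx hp2 hB hg hgi (hEι ▸ hG) hN hc
    refine ⟨d, ?_⟩
    have hy' := congrArg v.ι hye
    rw [map_sub, map_mul, map_pow, hιπ] at hy'
    rw [hEι, hBϖ] at hd ⊢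
    change G' - v.ι g = φ S.nodeϖ ^ (m + 1) * _ at hd
    change z - v.ι y = φ S.nodeϖ ^ 1 * _
    rw [hz, pow_one, sub_eq_iff_eq_add, div_eq_iff hπ']
    linear_combination hd + hy'
  obtain ⟨hzI, hrI⟩ := side v.embI rfl rfl S.isConst_inf gI hgI hgIi hI hγI
  obtain ⟨hz₀, hr₀⟩ := side v.emb₀ rfl rfl S.isConst_zero g₀ hg₀ hg₀i h₀ hγ₀
  have hnp : NoHorizPole S.nodeϖ z := by
    intro w h1 h2
    have hG1 : w G' ≤ 1 := by
      have := hf w h1 h2
      rw [← hG, map_pow] at this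
      exact pow_le_one_iff (Fact.out : p.Prime).ne_zero |>.1 this
    rw [hz, map_div₀, map_pow, h2, one_pow, div_one]
    exact le_trans (w.map_sub _ _) (max_le hG1 (hγ w h1 h2))
  obtain ⟨o, ho⟩ := S.node_integral hnp hzI hz₀
  obtain ⟨α, β, hα, hβ, hcc⟩ := S.node_res_series o
  refine ⟨α, β, ?_, ?_, hcc⟩
  · rw [← hα, ← S.infBranch.intRes_algebraMap (L := FractionRing (Node R p)) o]
    exact hrI.symm.trans (congrArg _ (Subtype.ext ho))
  · rw [← hβ, ← S.zeroBranch.intRes_algebraMap (L := FractionRing (Node R p)) o]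
    exact hr₀.symm.trans (congrArg _ (Subtype.ext ho))

omit [PerfectRing k p] in
/-- The successive approximation. -/
theorem Normal.exists_step {n : ℕ} {f : L} (D : M.Normal n f) (hp2 : p ≠ 2)
    (hlift : ∀ a b : κ, (∀ Q, PolesLE (M.poleI Q n) ((M.ptI Q).e a)) →
      (∀ Q, PolesLE (M.pole₀ Q n) ((M.pt₀ Q).e b)) →
      (∀ v, ∃ α β : PowerSeries k, (M.node v).eI a = (α : LaurentSeries k) ∧
        (M.node v).e₀ b = (β : LaurentSeries k) ∧
        PowerSeries.constantCoeff α = PowerSeries.constantCoeff β) →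
      ∃ γ ∈ M.latt n, M.inf.res γ = a ∧ M.zero.res γ = b)
    (m : ℕ) {γ : L} (hγ : γ ∈ M.latt n) (hI : M.inf.Ge m (D.gI (p + m + 1) - γ))
    (h₀ : M.zero.Ge m (D.g₀ (p + m + 1) - γ)) :
    ∃ δ ∈ M.latt n, M.inf.Ge (m + 1 : ℕ) (D.gI (p + m + 2) - (γ + S.ϖ ^ m • δ)) ∧
      M.zero.Ge (m + 1 : ℕ) (D.g₀ (p + m + 2) - (γ + S.ϖ ^ m • δ)) := by
  obtain ⟨v₀⟩ := M.nonempty_nd
  obtain ⟨hregI, hreg₀, hregN⟩ := D.regular
  obtain ⟨hlatI, hlat₀, hlatN⟩ := M.latt_regular n γ hγ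
  have hgIi := fun N (hN : 1 ≤ N) =>
    (M.node v₀).embI.ge_of_cong (D.gI_ne_zero N) D.geI hN (D.congI N)
  have hg₀i := fun N (hN : 1 ≤ N) =>
    (M.node v₀).emb₀.ge_of_cong (D.g₀_ne_zero N) D.ge₀ hN (D.cong₀ N)
  have hI' : M.inf.Ge m (D.gI (p + m + 2) - γ) := by
    have := (M.node v₀).embI.approx_congr hp2 S.isConst_inf (g := D.gI (p + m + 2))
      (D.gI_ne_zero (p + m + 1)) (hgIi _ (by omega)) (j := m) (by omega) le_rfl (D.congI _)
      (D.congI _)
    have h2 := (M.node v₀).embI.ge_add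
      (M.inf.ge_mono (by omega : (m : ℤ) ≤ ((m + 1 : ℕ) : ℤ)) this) hI
    rwa [sub_add_sub_cancel] at h2
  have h₀' : M.zero.Ge m (D.g₀ (p + m + 2) - γ) := by
    have := (M.node v₀).emb₀.approx_congr hp2 S.isConst_zero (g := D.g₀ (p + m + 2))
      (D.g₀_ne_zero (p + m + 1)) (hg₀i _ (by omega)) (j := m) (by omega) le_rfl (D.cong₀ _)
      (D.cong₀ _)
    have h2 := (M.node v₀).emb₀.ge_add
      (M.zero.ge_mono (by omega : (m : ℤ) ≤ ((m + 1 : ℕ) : ℤ)) this) h₀
    rwa [sub_add_sub_cancel] at h2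
  obtain ⟨δ, hδ, hδI, hδ₀⟩ := hlift (M.inf.res ((D.gI (p + m + 2) - γ) / algebraMap R L S.ϖ ^ m))
    (M.zero.res ((D.g₀ (p + m + 2) - γ) / algebraMap R L S.ϖ ^ m))
    (fun Q => by
      obtain ⟨G', hG'⟩ := D.rootI Q
      exact polesLE_of_point (M.ptI Q) hp2 (D.gI_ne_zero _) (hgIi _ (by omega)) hG' (by omega)
        (D.congI _) hI' (hregI Q) (hlatI Q))
    (fun Q => by
      obtain ⟨G', hG'⟩ := D.root₀ Q
      exact polesLE_of_point (M.pt₀ Q) hp2 (D.g₀_ne_zero _) (hg₀i _ (by omega)) hG' (by omega)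
        (D.cong₀ _) h₀' (hreg₀ Q) (hlat₀ Q))
    (fun v => by
      obtain ⟨G', hG'⟩ := D.rootN v
      exact compatible_of_node (M.node v) hp2 (D.gI_ne_zero _) (D.g₀_ne_zero _)
        (hgIi _ (by omega)) (hg₀i _ (by omega)) hG' (by omega) (D.congI _) (D.cong₀ _) hI' h₀'
        (hregN v) (hlatN v))
  refine ⟨δ, hδ, ?_, ?_⟩
  · refine ge_succ (M.node v₀).embI hI' (M.latt_inf n δ hδ) hδI.symm
  · refine ge_succ (M.node v₀).emb₀ h₀' (M.latt_zero n δ hδ) hδ₀.symm
where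
  /-- one more digit -/
  ge_succ {G : GBranch S L κ} {O : Type _} [CommRing O] [IsDomain O]
      {B : Branch O (LaurentSeries k)} {F : Type _} [Field F] [Algebra O F] [IsFractionRing O F]
      (E : Emb G B F) {m : ℕ} {g γ δ : L} (hg : G.Ge m (g - γ)) (hδ : G.Ge 0 δ)
      (hres : G.res ((g - γ) / algebraMap R L S.ϖ ^ m) = G.res δ) :
      G.Ge (m + 1 : ℕ) (g - (γ + S.ϖ ^ m • δ)) := by
    have hπ := pow_ne_zero m E.algebraMap_ϖ_ne_zero
    obtain ⟨y, hy, hye⟩ := E.exists_eq_mul_of_ge hg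
    rw [hye, mul_div_cancel_left₀ _ hπ] at hres
    have h1 : G.Ge 1 (y - δ) := (GBranch.res_eq_zero_iff _ (E.ge_sub hy hδ)).1 (by
      rw [E.res_sub hy hδ, hres, sub_self])
    have e : g - (γ + S.ϖ ^ m • δ) = algebraMap R L S.ϖ ^ m * (y - δ) := by
      rw [Algebra.smul_def, map_pow]; linear_combination hye
    rw [e]
    exact G.ge_mono (by push_cast; rfl) (G.ge_mul (E.ge_ϖ_pow m) h1)

end Model

end Fermat.Agent.LevelLowerP
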