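import Fermat.Agent.LevelLowerP.ValTransfer
import Fermat.Agent.LevelLowerP.GeoPoints
import Fermat.Agent.LevelLowerP.GeoAtkin
import Fermat.Agent.LevelLowerP.PointData
import Fermat.Agent.LevelLowerP.RegSeries
import Fermat.Agent.Reduction.Level.Setup
import Fermat.Agent.FF.ModularField

/-!
# Transfer to other constant fields

Functions of level `N` with coefficients fixed by `H`, moved to the function field over another
field along an embedding of the fixed field: the valuations, the involution at `p`, the relations.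

Main results: `isForm_upBar`, `divAll_and_bdd`.
-/

set_option autoImplicit false

noncomputable section

namespace Fermat.Agent.LevelLowerP

open ModularCurve AlgebraicCurve IntermediateField
open Fermat.Agent.Semistable Fermat.Agent.Igusa
open Fermat.Agent.FF Fermat.Agent.Reduction
open scoped LaurentSeries

local notation "Qb" => AlgebraicClosure ℚ
local notation "ΓQ" => (AlgebraicClosure ℚ ≃ₐ[ℚ] AlgebraicClosure ℚ)

section General

theorem coeffMap_inj {A B : Type*} [Field A] [Field B] (f : A →+* B) :
    Function.Injective (coeffMap f) := fun x y h => HahnSeries.ext (funext fun n =>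
  f.injective (by rw [← coeffMap_coeff, h, coeffMap_coeff]))

theorem coeffMap_C' {A B : Type*} [Field A] [Field B] (f : A →+* B) (c : A) :
    coeffMap f (HahnSeries.C c) = HahnSeries.C (f c) := by
  rw [HahnSeries.C_apply, HahnSeries.C_apply, coeffMap_single]

variable {F E : Type*} [Field F] [Field E] [Algebra F E] [Algebra ℚ F] [Algebra ℚ E]
  [IsScalarTower ℚ F E] {N : ℕ} [NeZero N]

omit [NeZero N] in
/-- The function field over `E` meets the series over `F` in the function field over `F`. -/
theorem mem_fullC_of_coeffMap_mem {x : LaurentSeries F}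
    (hx : coeffMap (algebraMap F E) x ∈ modularFunctionFieldFullC E N) :
    x ∈ modularFunctionFieldFullC F N := by
  obtain ⟨A, hA, B, hB, hAB⟩ := IntermediateField.mem_adjoin_iff_div.mp hx
  rcases eq_or_ne B 0 with rfl | hB0
  · rw [div_zero] at hAB
    have : x = 0 := coeffMap_inj _ (hAB.trans (map_zero _).symm)
    exact this ▸ zero_mem _
  obtain ⟨n, hn⟩ : ∃ n, B.coeff n ≠ 0 := by
    by_contra h
    push Not at h
    exact hB0 (HahnSeries.ext (funext h))
  obtain ⟨φ, hφ⟩ := exists_functional_eq_one (F := F) hn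
  have key : ∀ C ∈ Submodule.span E
      (coeffMap (algebraMap ℚ E) '' (modularFunctionFieldFull N : Set (LaurentSeries ℚ))),
      ∀ ψ : E →ₗ[F] F, applyC ψ C ∈ modularFunctionFieldFullC F N := by
    intro C hC
    induction hC using Submodule.span_induction with
    | mem a ha =>
      intro ψ
      obtain ⟨a, ha, rfl⟩ := ha
      rw [IsScalarTower.algebraMap_eq ℚ F E, ← coeffMap_coeffMap]
      have := applyC_smul_coeffMap ψ (1 : E) (coeffMap (algebraMap ℚ F) a)
      rw [one_smul] at this
      rw [this, smul_eq_algebraMap_mul]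
      rw [← modularFunctionFieldFullC_rat] at ha
      exact mul_mem (IntermediateField.algebraMap_mem _ _) (coeffMap_mem_fullC _ ha)
    | zero => intro ψ; rw [map_zero]; exact zero_mem _
    | add u v _ _ hu hv => intro ψ; rw [map_add]; exact add_mem (hu ψ) (hv ψ)
    | smul c u _ hu =>
      intro ψ
      have : applyC ψ (c • u) = applyC (ψ ∘ₗ LinearMap.mulLeft F c) u := by
        ext m
        rw [applyC_coeff, applyC_coeff, coeff_smulC]
        rfl
      rw [this]
      exact hu _
  have hmul : applyC φ (B * coeffMap (algebraMap F E) x) = applyC φ A := by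
    rw [hAB, mul_div_cancel₀ _ hB0]
  rw [applyC_coeffMap_mul] at hmul
  have hne : applyC φ B ≠ 0 := fun h => by
    have := congrArg (fun s : LaurentSeries F => s.coeff n) h
    simp [applyC_coeff, hφ] at this
  rw [eq_div_iff hne |>.mpr ((mul_comm _ _).trans hmul)]
  exact div_mem (key A (exists_sum_of_mem_adjoin hA) φ) (key B (exists_sum_of_mem_adjoin hB) φ)

end General

section Up

variable (H : Subgroup ΓQ) (N : ℕ) [NeZero N]

/-- Extension of scalars from the fixed field to `ℚ̄`. -/
def upBar : modularFunctionFieldFullC (fixedField H) N →+* modularFunctionFieldBar N :=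
  ((coeffMap (algebraMap (fixedField H) Qb)).comp
    (SubringClass.subtype (modularFunctionFieldFullC (fixedField H) N))).codRestrict
    (modularFunctionFieldBar N) fun x => by
      rw [Reduction.Level.modularFunctionFieldBar_eq_fullC]
      exact coeffMap_mem_full _ N x

theorem coe_upBar (x : modularFunctionFieldFullC (fixedField H) N) :
    (upBar H N x : LaurentSeries Qb) =
      coeffMap (algebraMap (fixedField H) Qb) (x : LaurentSeries (fixedField H)) := rfl

theorem upBar_algebraMap (c : fixedField H) :
    upBar H N (algebraMap _ _ c) = algebraMap Qb (modularFunctionFieldBar N) c := by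
  refine Subtype.ext ?_
  rw [coe_upBar]
  show coeffMap _ (algebraMap _ (LaurentSeries (fixedField H)) c) =
    algebraMap Qb (LaurentSeries Qb) c
  rw [algebraMap_laurentSeries_eq_single, coeffMap_single, algebraMap_laurentSeries_eq_single]
  rfl

variable {H N}

theorem exists_upBar_eq {x : modularFunctionFieldBar N} (hx : FixedBy N H x) :
    ∃ y, upBar H N y = x := by
  have hc : ∀ n, (x : LaurentSeries Qb).coeff n ∈ fixedField H := fun n =>
    (IntermediateField.mem_fixedField_iff _ _).2 fun σ hσ => by
      have h1 := congrArg (fun s : LaurentSeries Qb => s.coeff n) (hx σ hσ)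
      rwa [coeffMap_coeff] at h1
  let x₁ : LaurentSeries (fixedField H) := ⟨fun n => ⟨_, hc n⟩,
    (x : LaurentSeries Qb).isPWO_support.mono fun n hn h0 => hn (Subtype.ext h0)⟩
  have hx₁ : coeffMap (algebraMap (fixedField H) Qb) x₁ = x := rfl
  have hmem : x₁ ∈ modularFunctionFieldFullC (fixedField H) N :=
    mem_fullC_of_coeffMap_mem (E := Qb) (by
      rw [hx₁, ← Reduction.Level.modularFunctionFieldBar_eq_fullC]; exact x.2)
  exact ⟨⟨x₁, hmem⟩, Subtype.ext hx₁⟩

theorem fixedBy_upBar (y : modularFunctionFieldFullC (fixedField H) N) :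
    FixedBy N H (upBar H N y) := fun σ hσ => by
  rw [coe_upBar]
  ext n
  rw [coeffMap_coeff, coeffMap_coeff]
  exact (IntermediateField.mem_fixedField_iff _ _).1
    ((y : LaurentSeries (fixedField H)).coeff n).2 σ hσ

variable (H N)

theorem isForm_upBar :
    IsForm (fixedField H).toSubfield (upBar H N).fieldRange := by
  refine ⟨fun c => ?_, fun c hc => ⟨algebraMap _ _ (⟨c, hc⟩ : fixedField H),
    upBar_algebraMap H N _⟩, fun y => ?_⟩
  · exact (Algebra.IsAlgebraic.isAlgebraic (R := ℚ) c).extendScalars
      (algebraMap ℚ (fixedField H).toSubfield).injective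
  · have hy : (y : LaurentSeries Qb) ∈ modularFunctionFieldFullC Qb N := by
      rw [← Reduction.Level.modularFunctionFieldBar_eq_fullC]; exact y.2
    obtain ⟨A, hA, B, hB, hAB⟩ := IntermediateField.mem_adjoin_iff_div.mp hy
    have key : ∀ C ∈ Submodule.span Qb
        (coeffMap (algebraMap ℚ Qb) '' (modularFunctionFieldFull N : Set (LaurentSeries ℚ))),
        ∃ C' ∈ Submodule.span Qb ((upBar H N).fieldRange : Set (modularFunctionFieldBar N)),
          (C' : LaurentSeries Qb) = C := by
      intro C hC
      induction hC using Submodule.span_induction with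
      | mem a ha =>
        obtain ⟨a, ha, rfl⟩ := ha
        rw [← modularFunctionFieldFullC_rat] at ha
        refine ⟨_, Submodule.subset_span ⟨baseHom (algebraMap ℚ (fixedField H)) N ⟨a, ha⟩, rfl⟩, ?_⟩
        rw [coe_upBar, coe_baseHom, coeffMap_coeffMap, ← IsScalarTower.algebraMap_eq]
      | zero => exact ⟨0, zero_mem _, rfl⟩
      | add u v _ _ hu hv =>
        obtain ⟨u', hu, rfl⟩ := hu
        obtain ⟨v', hv, rfl⟩ := hv
        exact ⟨u' + v', add_mem hu hv, rfl⟩
      | smul c u _ hu =>
        obtain ⟨u', hu, rfl⟩ := hu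
        exact ⟨c • u', Submodule.smul_mem _ c hu, by
          rw [Algebra.smul_def, MulMemClass.coe_mul, smul_eq_algebraMap_mul]
          rfl⟩
    obtain ⟨A', hA', rfl⟩ := key A (exists_sum_of_mem_adjoin hA)
    obtain ⟨B', hB', rfl⟩ := key B (exists_sum_of_mem_adjoin hB)
    rcases eq_or_ne B' 0 with rfl | hB0
    · refine ⟨0, zero_mem _, 1, Submodule.subset_span (one_mem _), one_ne_zero, Subtype.ext ?_⟩
      simpa using hAB
    · exact ⟨A', hA', B', hB', hB0, Subtype.ext (hAB.trans rfl)⟩

end Up

section Valuations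

/-- All valuations trivial on constants take values divisible by `p` at `x`. -/
def DivAll (K : Type*) [Field K] (N : ℕ) [NeZero N] (p : ℕ)
    (x : modularFunctionFieldFullC K N) : Prop :=
  ∀ v : Valuation (modularFunctionFieldFullC K N) (WithZero (Multiplicative ℤ)),
    (∀ c, v (algebraMap K (modularFunctionFieldFullC K N) c) ≤ 1) → (p : ℤ) ∣ WithZero.log (v x)

variable {H : Subgroup ΓQ} {N : ℕ} [NeZero N] {K : Type*} [Field K] (φ : fixedField H →+* K)

theorem baseHom_jC' {K' K'' : Type*} [Field K'] [Field K''] (ψ : K' →+* K'') :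
    baseHom ψ N (jC K' N) = jC K'' N :=
  Subtype.ext (by rw [coe_baseHom]; exact coeffMap_jqModC ψ)

theorem baseHom_algebraMap' {K' K'' : Type*} [Field K'] [Field K''] (ψ : K' →+* K'') (c : K') :
    baseHom ψ N (algebraMap K' _ c) = algebraMap K'' _ (ψ c) := by
  refine Subtype.ext ?_
  rw [coe_baseHom]
  show coeffMap ψ (algebraMap K' (LaurentSeries K') c) = algebraMap K'' (LaurentSeries K'') (ψ c)
  rw [algebraMap_laurentSeries_eq_single, coeffMap_single, algebraMap_laurentSeries_eq_single]

/-- **Transfer** of divisibility and bounds from the places over `ℚ̄`. -/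
theorem divAll_and_bdd {p m : ℕ} {y : modularFunctionFieldFullC (fixedField H) N} (hy : y ≠ 0)
    (hdiv : ∀ v : Place Qb (modularFunctionFieldBar N), (p : ℤ) ∣ v.ord (upBar H N y))
    (hbd : ∀ v : Place Qb (modularFunctionFieldBar N), 0 ≤ v.ord (upBar H N y) ∨
      (v.ord (upBar H N (jC (fixedField H) N)) < 0 ∧
        (m : ℤ) * v.ord (upBar H N (jC (fixedField H) N)) ≤ v.ord (upBar H N y))) :
    DivAll K N p (baseHom φ N y) ∧ Bdd K N m (baseHom φ N y) := by
  set u := upBar H N
  let e : modularFunctionFieldFullC (fixedField H) N ≃+* u.fieldRange :=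
    RingEquiv.ofBijective u.rangeRestrictField
      ⟨u.rangeRestrictField.injective, fun z => by
        obtain ⟨x, hx⟩ := z.2
        exact ⟨x, Subtype.ext hx⟩⟩
  have he : ∀ x, e.symm ⟨u x, ⟨x, rfl⟩⟩ = x := fun x => e.symm_apply_eq.2 rfl
  have key : ∀ v : Valuation (modularFunctionFieldFullC K N) (WithZero (Multiplicative ℤ)),
      (∀ c, v (algebraMap K (modularFunctionFieldFullC K N) c) ≤ 1) →
      (p : ℤ) ∣ WithZero.log (v (baseHom φ N y)) ∧
        v (baseHom φ N y) ≤ max 1 (v (jC K N)) ^ m := fun v hv => by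
    obtain ⟨h1, h2⟩ := (isForm_upBar H N).exists_pow_and_bound
      (v.comap ((baseHom φ N).comp e.symm.toRingHom))
      (fun c hc => by
        show v (baseHom φ N (e.symm _)) ≤ 1
        rw [show (⟨_, _⟩ : u.fieldRange) = ⟨u (algebraMap _ _ (⟨c, hc⟩ : fixedField H)), _, rfl⟩
          from Subtype.ext (upBar_algebraMap H N ⟨c, hc⟩).symm, he, baseHom_algebraMap']
        exact hv _)
      (f := ⟨u y, y, rfl⟩) (fun h0 =>
        hy (u.injective (by rw [map_zero]; exact congrArg Subtype.val h0)))
      hdiv (j := ⟨u (jC _ N), _, rfl⟩) (N := m) hbd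
    have hf : v.comap ((baseHom φ N).comp e.symm.toRingHom) ⟨u y, y, rfl⟩ = v (baseHom φ N y) := by
      show v (baseHom φ N (e.symm _)) = _; rw [he]
    have hj : v.comap ((baseHom φ N).comp e.symm.toRingHom) ⟨u (jC _ N), _, rfl⟩ = v (jC K N) := by
      show v (baseHom φ N (e.symm _)) = _; rw [he, baseHom_jC']
    rw [hf] at h1
    rw [hf, hj] at h2
    exact ⟨h1, h2⟩
  exact ⟨fun v hv => (key v hv).1, fun v hv => (key v hv).2⟩

end Valuations

section Maps

theorem coe_algebraMap' {K : Type*} [Field K] (N : ℕ) [NeZero N] (c : K) :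
    Subtype.val (algebraMap K (modularFunctionFieldFullC K N) c) =
      algebraMap K (LaurentSeries K) c := rfl

theorem coe_jC' (K : Type*) [Field K] (N : ℕ) [NeZero N] :
    Subtype.val (jC K N) = jqModC K := rfl

/-- The inclusion in a higher level. -/
def levelIncl {K : Type*} [Field K] {N N' : ℕ} [NeZero N] [NeZero N'] (h : N ∣ N') :
    modularFunctionFieldFullC K N →+* modularFunctionFieldFullC K N' :=
  subIncl (full_degeneracyC_le K h)

theorem coe_levelIncl {K : Type*} [Field K] {N N' : ℕ} [NeZero N] [NeZero N'] (h : N ∣ N')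
    (x : modularFunctionFieldFullC K N) :
    Subtype.val (levelIncl h x) = Subtype.val x := coe_subIncl _ x

theorem levelIncl_algebraMap {K : Type*} [Field K] {N N' : ℕ} [NeZero N] [NeZero N'] (h : N ∣ N')
    (c : K) : levelIncl h (algebraMap K (modularFunctionFieldFullC K N) c) = algebraMap K _ c :=
  Subtype.ext (by rw [coe_levelIncl, coe_algebraMap', coe_algebraMap'])

variable {p M : ℕ} [Fact p.Prime] [NeZero M] (hpM : ¬ p ∣ M)

theorem baseHom_wAL {K K' : Type*} [Field K] [Field K'] [CharZero K] [CharZero K'] (φ : K →+* K')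
    (y : modularFunctionFieldFullC K (M * p)) :
    baseHom φ (M * p) (wAL K M p hpM y) = wAL K' M p hpM (baseHom φ (M * p) y) := by
  refine RingHom.congr_fun (ringHom_ext_pGens (f := (baseHom φ (M * p)).comp (wAL K M p hpM))
    (g := (wAL K' M p hpM).comp (baseHom φ (M * p))) (fun x => ?_) fun x => ?_) y
  · simp only [RingHom.comp_apply, wAL_inclP]
    rw [show baseHom φ (M * p) (inclP M p x) = inclP M p (baseHom φ M x) from Subtype.ext (by
      rw [coe_baseHom, coe_inclP, coe_inclP, coe_baseHom]), wAL_inclP]
    exact Subtype.ext (by rw [coe_baseHom, coe_scaleP, coe_scaleP, coe_baseHom, coeffMap_qExpand])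
  · simp only [RingHom.comp_apply, wAL_scaleP]
    rw [show baseHom φ (M * p) (scaleP M p x) = scaleP M p (baseHom φ M x) from Subtype.ext (by
      rw [coe_baseHom, coe_scaleP, coe_scaleP, coe_baseHom, coeffMap_qExpand]), wAL_scaleP]
    exact Subtype.ext (by rw [coe_baseHom, coe_inclP, coe_inclP, coe_baseHom])

theorem upBar_wAL (H : Subgroup ΓQ) (w : ALData p M)
    (y : modularFunctionFieldFullC (fixedField H) (M * p)) :
    upBar H (M * p) (wAL _ M p hpM y) = wEquiv w Fact.out (upBar H (M * p) y) := by
  have : NeZero p := ⟨(Fact.out : p.Prime).ne_zero⟩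
  refine RingHom.congr_fun (ringHom_ext_pGens
    (f := (upBar H (M * p)).comp (wAL _ M p hpM))
    (g := (wEquiv w Fact.out).toRingEquiv.toRingHom.comp (upBar H (M * p))) (fun x => ?_)
    fun x => ?_) y
  · show upBar H (M * p) (wAL _ M p hpM (inclP M p x)) = wEquiv w Fact.out _
    rw [wAL_inclP, show upBar H (M * p) (inclP M p x) = heckeAlphaBar Qb M p (upBar H M x) from
      Subtype.ext (by rw [coe_heckeAlphaBar, coe_upBar, coe_upBar, coe_inclP]),
      wEquiv_heckeAlphaBar]
    exact Subtype.ext (by rw [coe_heckeBetaBar, coe_upBar, coe_upBar, coe_scaleP, coeffMap_qExpand])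
  · show upBar H (M * p) (wAL _ M p hpM (scaleP M p x)) = wEquiv w Fact.out _
    rw [wAL_scaleP, show upBar H (M * p) (scaleP M p x) = heckeBetaBar Qb M p (upBar H M x) from
      Subtype.ext (by rw [coe_heckeBetaBar, coe_upBar, coe_upBar, coe_scaleP, coeffMap_qExpand]),
      wEquiv_heckeBetaBar]
    exact Subtype.ext (by rw [coe_heckeAlphaBar, coe_upBar, coe_upBar, coe_inclP])

theorem levelIncl_wAL {K : Type*} [Field K] [CharZero K] {M' : ℕ} [NeZero M'] (hM : M ∣ M')
    (hpM' : ¬ p ∣ M') (y : modularFunctionFieldFullC K (M * p)) :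
    levelIncl (Nat.mul_dvd_mul_right hM p) (wAL K M p hpM y) =
      wAL K M' p hpM' (levelIncl (Nat.mul_dvd_mul_right hM p) y) := by
  set ι := levelIncl (K := K) (Nat.mul_dvd_mul_right hM p)
  refine RingHom.congr_fun (ringHom_ext_pGens (f := ι.comp (wAL K M p hpM))
    (g := (wAL K M' p hpM').comp ι) (fun x => ?_) fun x => ?_) y
  · simp only [RingHom.comp_apply, wAL_inclP]
    rw [show ι (inclP M p x) = inclP M' p (levelIncl hM x) from Subtype.ext (by
      rw [coe_levelIncl, coe_inclP, coe_inclP, coe_levelIncl]), wAL_inclP]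
    exact Subtype.ext (by rw [coe_levelIncl, coe_scaleP, coe_scaleP, coe_levelIncl])
  · simp only [RingHom.comp_apply, wAL_scaleP]
    rw [show ι (scaleP M p x) = scaleP M' p (levelIncl hM x) from Subtype.ext (by
      rw [coe_levelIncl, coe_scaleP, coe_scaleP, coe_levelIncl]), wAL_scaleP]
    exact Subtype.ext (by rw [coe_levelIncl, coe_inclP, coe_inclP, coe_levelIncl])

/-- Divisibility at all valuations passes to a higher level. -/
theorem DivAll.levelIncl {K : Type*} [Field K] {N N' : ℕ} [NeZero N] [NeZero N'] (h : N ∣ N')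
    {q : ℕ} {x : modularFunctionFieldFullC K N} (hx : DivAll K N q x) :
    DivAll K N' q (levelIncl h x) := fun v hv =>
  hx (v.comap (LevelLowerP.levelIncl h)) fun c => by
    show v (LevelLowerP.levelIncl h _) ≤ 1
    rw [levelIncl_algebraMap]
    exact hv c

/-- The pole bound passes to a higher level. -/
theorem Bdd.levelIncl {K : Type*} [Field K] {N N' : ℕ} [NeZero N] [NeZero N'] (h : N ∣ N')
    {m : ℕ} {x : modularFunctionFieldFullC K N} (hx : Bdd K N m x) :
    Bdd K N' m (levelIncl h x) := fun v hv => by
  have h1 := hx (v.comap (LevelLowerP.levelIncl h)) fun c => by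
    show v (LevelLowerP.levelIncl h _) ≤ 1
    rw [levelIncl_algebraMap]
    exact hv c
  rw [show jC K N' = LevelLowerP.levelIncl h (jC K N) from Subtype.ext (by
    rw [coe_levelIncl, coe_jC', coe_jC'])]
  exact h1

end Maps

end Fermat.Agent.LevelLowerP
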