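import Fermat.Agent.CurveTorsion.Value

/-!
# Valuations on forms of function fields

Valuations on a form of a function field over an algebraic subfield of the constants: its
uniformisers, and bounds read off from the places over the algebraic closure.

Main result: `IsForm.exists_pow_and_bound`.
-/

set_option autoImplicit false

noncomputable section

namespace Fermat.Agent.LevelLowerP

open AlgebraicCurve Polynomial
open Fermat.Agent.FF

variable {K F : Type*} [Field K] [Field F] [Algebra K F] [IsAlgClosed K] [CharZero K]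
  [IsFunctionField K F]

/-- A form of `F` over the subfield `K₁`: constants of `K` are algebraic over `K₁`, and the
`K`-combinations of elements of `F₁` have all of `F` as quotients. -/
structure IsForm (K₁ : Subfield K) (F₁ : Subfield F) : Prop where
  alg : ∀ c : K, IsAlgebraic K₁ c
  const : ∀ c ∈ K₁, algebraMap K F c ∈ F₁
  gen : ∀ y : F, ∃ A ∈ Submodule.span K (F₁ : Set F), ∃ B ∈ Submodule.span K (F₁ : Set F),
    B ≠ 0 ∧ y = A / B

variable (v : Place K F)

omit [IsAlgClosed K] [CharZero K] [IsFunctionField K F] in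
theorem aeval_mem_ordGE_zero {x : F} (hx : x ∈ ordGE v 0) (q : K[X]) : aeval x q ∈ ordGE v 0 := by
  induction q using Polynomial.induction_on' with
  | add a b ha hb => rw [map_add]; exact add_mem ha hb
  | monomial n a =>
    rw [aeval_monomial]
    refine (mem_toValuationSubring_iff v).mp (mul_mem (v.algebraMap_mem' a) (pow_mem ?_ n))
    exact (mem_toValuationSubring_iff v).mpr hx

omit [IsAlgClosed K] [CharZero K] [IsFunctionField K F] in
theorem aeval_sub_mem_ordGE {x : F} {θ : K} {m : ℤ} (hm : 0 ≤ m)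
    (hx : x - algebraMap K F θ ∈ ordGE v m) (q : K[X]) :
    aeval x q - algebraMap K F (q.eval θ) ∈ ordGE v m := by
  obtain ⟨r, hr⟩ := X_sub_C_dvd_sub_C_eval (a := θ) (p := q)
  have h := congrArg (aeval x) hr
  rw [map_sub, aeval_C, map_mul, map_sub, aeval_X, aeval_C] at h
  rw [h]
  have hx0 : x ∈ ordGE v 0 := by
    simpa using add_mem (ordGE_antitone v hm hx) (algebraMap_mem_ordGE_zero v θ)
  simpa using mul_mem_ordGE v hx (aeval_mem_ordGE_zero v hx0 r)

omit [IsAlgClosed K] [IsFunctionField K F] in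
/-- Residues of `F₁` are approximated by `F₁` to every order. -/
theorem IsForm.exists_approx {K₁ : Subfield K} {F₁ : Subfield F} (h : IsForm K₁ F₁) {x₀ : F}
    (hx₀ : x₀ ∈ F₁) {θ : K} (hθ : x₀ - algebraMap K F θ ∈ ordGE v 1) (N : ℕ) :
    ∃ x ∈ F₁, x - algebraMap K F θ ∈ ordGE v ((N : ℤ) + 1) := by
  induction N with
  | zero => exact ⟨x₀, hx₀, hθ⟩
  | succ N ih =>
    obtain ⟨x, hx, hxθ⟩ := ih
    set P₁ := minpoly K₁ θ
    set P := P₁.map (algebraMap K₁ K)
    have hint : IsIntegral K₁ θ := (h.alg θ).isIntegral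
    have hPθ : P.eval θ = 0 := by rw [eval_map, ← aeval_def, minpoly.aeval]
    obtain ⟨Q, hQ⟩ : (X - C θ) ∣ P := dvd_iff_isRoot.mpr hPθ
    have hd : P.derivative.eval θ = Q.eval θ := by
      rw [hQ, derivative_mul, derivative_sub, derivative_X, derivative_C, sub_zero, one_mul,
        eval_add, eval_mul, eval_sub, eval_X, eval_C, sub_self, zero_mul, add_zero]
    have hd0 : P.derivative.eval θ ≠ 0 := by
      rw [derivative_map, eval_map, ← aeval_def]
      exact ((minpoly.irreducible hint).separable).aeval_derivative_ne_zero (minpoly.aeval K₁ θ)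
    have hm0 : (0 : ℤ) ≤ (N : ℤ) + 1 := by omega
    have hd1 := aeval_sub_mem_ordGE v hm0 hxθ P.derivative
    have hq1 := aeval_sub_mem_ordGE v hm0 hxθ Q
    have hc0 : algebraMap K F (P.derivative.eval θ) ≠ 0 := by simpa using hd0
    have hne : aeval x P.derivative ≠ 0 := fun e => by
      rw [e, zero_sub, neg_mem_iff, mem_ordGE_of_ne_zero v hc0, ord_algebraMap] at hd1
      omega
    have hord : v.ord (aeval x P.derivative) = 0 := by
      have e : aeval x P.derivative = algebraMap K F (P.derivative.eval θ) +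
          (aeval x P.derivative - algebraMap K F (P.derivative.eval θ)) := by ring
      rw [e, ord_add_eq_left v hc0 ?_, ord_algebraMap]
      by_cases h0 : aeval x P.derivative - algebraMap K F (P.derivative.eval θ) = 0
      · exact Or.inl h0
      · rw [ord_algebraMap]
        have := (mem_ordGE_of_ne_zero v h0).mp hd1
        exact Or.inr (by omega)
    have hmem : ∀ q : K₁[X], aeval x (q.map (algebraMap K₁ K)) ∈ F₁ := fun q => by
      induction q using Polynomial.induction_on' with
      | add a b ha hb => rw [Polynomial.map_add, map_add]; exact add_mem ha hb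
      | monomial n a =>
        rw [map_monomial, aeval_monomial]
        exact mul_mem (h.const _ a.2) (pow_mem hx n)
    refine ⟨x - aeval x P / aeval x P.derivative, sub_mem hx (div_mem (hmem _) ?_), ?_⟩
    · rw [derivative_map]; exact hmem _
    · have e : x - aeval x P / aeval x P.derivative - algebraMap K F θ =
          (x - algebraMap K F θ) * (((aeval x P.derivative - algebraMap K F (P.derivative.eval θ)) -
            (aeval x Q - algebraMap K F (Q.eval θ))) * (aeval x P.derivative)⁻¹) := by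
        have e2 : aeval x P = (x - algebraMap K F θ) * aeval x Q := by
          rw [hQ, map_mul, map_sub, aeval_X, aeval_C]
        rw [e2, hd]
        generalize aeval x P.derivative = D at hne ⊢
        field_simp
        ring
      rw [e]
      have hinv : (aeval x P.derivative)⁻¹ ∈ ordGE v 0 :=
        mem_ordGE_of_le_ord v (by rw [v.ord_inv, hord]; rfl)
      have hdiff : (aeval x P.derivative - algebraMap K F (P.derivative.eval θ)) -
          (aeval x Q - algebraMap K F (Q.eval θ)) ∈ ordGE v 1 :=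
        ordGE_antitone v (by omega) (sub_mem hd1 hq1)
      have := mul_mem_ordGE v hxθ (mul_mem_ordGE v hdiff hinv)
      rwa [add_zero, show (N : ℤ) + 1 + 1 = ((N + 1 : ℕ) : ℤ) + 1 by push_cast; ring] at this

/-- Orders of combinations are multiples of those on `F₁`. -/
theorem IsForm.dvd_ord_sum {K₁ : Subfield K} {F₁ : Subfield F} (h : IsForm K₁ F₁) {e : ℤ}
    (he : ∀ x ∈ F₁, e ∣ v.ord x) {ι : Type*} (c : ι → K) (s : Finset ι) :
    ∀ a : ι → F, (∀ i, a i ∈ F₁) → e ∣ v.ord (∑ i ∈ s, algebraMap K F (c i) * a i) := by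
  classical
  induction s using Finset.strongInduction with
  | H s ih =>
    intro a ha
    by_cases hzero : ∃ i ∈ s, algebraMap K F (c i) * a i = 0
    · obtain ⟨i, hi, h0⟩ := hzero
      rw [← Finset.add_sum_erase s _ hi, h0, zero_add]
      exact ih _ (Finset.erase_ssubset hi) a ha
    push Not at hzero
    rcases s.eq_empty_or_nonempty with rfl | hne
    · simp
    obtain ⟨j, hj, hmin⟩ := Finset.exists_min_image s (fun i => v.ord (a i)) hne
    have haj : a j ≠ 0 := right_ne_zero_of_mul (hzero j hj)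
    have hu : ∀ i ∈ s, a i / a j ∈ ordGE v 0 := fun i hi => mem_ordGE_of_le_ord v (by
      rw [ord_div v (right_ne_zero_of_mul (hzero i hi)) haj]; have := hmin i hi; omega)
    choose θ hθ using fun i => fun hi : i ∈ s =>
      CurveTorsion.exists_const_sub_mem v (hu i hi)
    let θ' : ι → K := fun i => if hi : i ∈ s then θ i hi else 0
    have hθ' : ∀ i ∈ s, a i / a j - algebraMap K F (θ' i) ∈ ordGE v 1 := fun i hi => by
      simp only [θ', dif_pos hi]; exact hθ i hi
    set A := ∑ i ∈ s, algebraMap K F (c i) * a i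
    have hA : A = a j * ∑ i ∈ s, algebraMap K F (c i) * (a i / a j) := by
      rw [Finset.mul_sum]
      exact Finset.sum_congr rfl fun i _ => by field_simp
    set σ := ∑ i ∈ s, c i * θ' i
    by_cases hσ : σ ≠ 0
    · have hr : ∑ i ∈ s, algebraMap K F (c i) * (a i / a j) - algebraMap K F σ ∈ ordGE v 1 := by
        rw [map_sum, ← Finset.sum_sub_distrib]
        refine Submodule.sum_mem _ fun i hi => ?_
        rw [map_mul, ← mul_sub, ← Algebra.smul_def]
        exact Submodule.smul_mem _ _ (hθ' i hi)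
      set T := ∑ i ∈ s, algebraMap K F (c i) * (a i / a j)
      have hσ0 : algebraMap K F σ ≠ 0 := by simpa using hσ
      have hT0 : T ≠ 0 := fun e0 => by
        rw [e0, zero_sub, neg_mem_iff, mem_ordGE_of_ne_zero v hσ0, ord_algebraMap] at hr
        omega
      have hTord : v.ord T = 0 := by
        rw [show T = algebraMap K F σ + (T - algebraMap K F σ) by ring,
          ord_add_eq_left v hσ0 ?_, ord_algebraMap]
        by_cases h0 : T - algebraMap K F σ = 0
        · exact Or.inl h0
        · rw [ord_algebraMap]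
          have := (mem_ordGE_of_ne_zero v h0).mp hr
          exact Or.inr (by omega)
      rw [hA, v.ord_mul haj hT0, hTord, add_zero]
      exact he _ (ha j)
    · rw [not_not] at hσ
      by_cases hA0 : A = 0
      · rw [hA0]; simp
      set N := (v.ord A - v.ord (a j)).toNat
      have hθj : θ' j = 1 := by
        have h1 := hθ' j hj
        rw [div_self haj, ← map_one (algebraMap K F), ← map_sub,
          CurveTorsion.const_mem_ordGE_one_iff] at h1
        exact (sub_eq_zero.mp h1).symm
      have hx : ∀ i, ∃ x : F, x ∈ F₁ ∧ (i = j → x = 1) ∧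
          (i ∈ s → x - algebraMap K F (θ' i) ∈ ordGE v ((N : ℤ) + 1)) := fun i => by
        by_cases hij : i = j
        · exact ⟨1, one_mem _, fun _ => rfl, fun _ => by simp [hij, hθj]⟩
        by_cases hi : i ∈ s
        · obtain ⟨x, hx, hx'⟩ := h.exists_approx v (div_mem (ha i) (ha j)) (hθ' i hi) N
          exact ⟨x, hx, fun e => absurd e hij, fun _ => hx'⟩
        · exact ⟨1, one_mem _, fun _ => rfl, fun e => absurd e hi⟩
      choose x hxF hxj hxθ using hx
      have hsmall : ∑ i ∈ s, algebraMap K F (c i) * x i ∈ ordGE v ((N : ℤ) + 1) := by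
        have e0 : ∑ i ∈ s, algebraMap K F (c i) * algebraMap K F (θ' i) = 0 := by
          simp only [← map_mul, ← map_sum]
          rw [show ∑ i ∈ s, c i * θ' i = 0 from hσ, map_zero]
        rw [← sub_zero (∑ i ∈ s, algebraMap K F (c i) * x i), ← e0, ← Finset.sum_sub_distrib]
        refine Submodule.sum_mem _ fun i hi => ?_
        rw [← mul_sub, ← Algebra.smul_def]
        exact Submodule.smul_mem _ _ (hxθ i hi)
      have hstep : A = (∑ i ∈ s.erase j, algebraMap K F (c i) * (a i - x i * a j)) +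
          a j * ∑ i ∈ s, algebraMap K F (c i) * x i := by
        rw [Finset.sum_erase (f := fun i => algebraMap K F (c i) * (a i - x i * a j)) s
          (a := j) (by rw [hxj j rfl]; simp), Finset.mul_sum, ← Finset.sum_add_distrib]
        exact Finset.sum_congr rfl fun i _ => by ring
      have hrest : ∀ i, a i - x i * a j ∈ F₁ := fun i => sub_mem (ha i) (mul_mem (hxF i) (ha j))
      have hdvd := ih _ (Finset.erase_ssubset hj) (fun i => a i - x i * a j) hrest
      have hsmall' : a j * ∑ i ∈ s, algebraMap K F (c i) * x i ∈ ordGE v (v.ord A + 1) :=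
        ordGE_antitone v (by omega)
          (mul_mem_ordGE v (mem_ordGE_of_le_ord v le_rfl : a j ∈ ordGE v (v.ord (a j))) hsmall)
      have e1 : v.ord (∑ i ∈ s.erase j, algebraMap K F (c i) * (a i - x i * a j)) = v.ord A := by
        rw [eq_sub_of_add_eq hstep.symm, sub_eq_add_neg, ord_add_eq_left v hA0]
        by_cases h0 : a j * ∑ i ∈ s, algebraMap K F (c i) * x i = 0
        · exact Or.inl (by rw [h0, neg_zero])
        · rw [ord_neg]
          have := (mem_ordGE_of_ne_zero v h0).mp hsmall'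
          exact Or.inr (by omega)
      rwa [e1] at hdvd

/-- **No ramification**: every place has a uniformiser in `F₁`. -/
theorem IsForm.exists_ord_eq_one {K₁ : Subfield K} {F₁ : Subfield F} (h : IsForm K₁ F₁) :
    ∃ x ∈ F₁, x ≠ 0 ∧ v.ord x = 1 := by
  let G : AddSubgroup ℤ :=
    { carrier := {m | ∃ x ∈ F₁, x ≠ 0 ∧ v.ord x = m}
      zero_mem' := ⟨1, one_mem _, one_ne_zero, v.ord_one⟩
      add_mem' := by
        rintro _ _ ⟨x, hx, hx0, rfl⟩ ⟨y, hy, hy0, rfl⟩
        exact ⟨x * y, mul_mem hx hy, mul_ne_zero hx0 hy0, v.ord_mul hx0 hy0⟩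
      neg_mem' := by
        rintro _ ⟨x, hx, hx0, rfl⟩
        exact ⟨x⁻¹, inv_mem hx, inv_ne_zero hx0, v.ord_inv x⟩ }
  obtain ⟨d, hd⟩ := Int.subgroup_cyclic G
  have hmem : ∀ m, m ∈ G ↔ d ∣ m := fun m => by
    rw [hd, AddSubgroup.mem_closure_singleton]
    exact ⟨fun ⟨n, hn⟩ => ⟨n, by rw [← hn, zsmul_eq_mul]; simp [mul_comm]⟩,
      fun ⟨n, hn⟩ => ⟨n, by rw [hn, zsmul_eq_mul]; simp [mul_comm]⟩⟩
  have he : ∀ x ∈ F₁, d ∣ v.ord x := fun x hx => by
    rcases eq_or_ne x 0 with rfl | hx0
    · simp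
    · exact (hmem _).1 ⟨x, hx, hx0, rfl⟩
  have hspan : ∀ A ∈ Submodule.span K (F₁ : Set F), d ∣ v.ord A := fun A hA => by
    obtain ⟨n, c, a, rfl⟩ := Submodule.mem_span_set'.mp hA
    simp only [Algebra.smul_def]
    exact h.dvd_ord_sum v he c Finset.univ (fun i => (a i : F)) fun i => (a i).2
  obtain ⟨t, ht0, ht⟩ := exists_uniformizer v
  obtain ⟨A, hA, B, hB, hB0, rfl⟩ := h.gen t
  have hA0 : A ≠ 0 := fun e => ht0 (by rw [e, zero_div])
  rw [ord_div v hA0 hB0] at ht
  exact (hmem 1).2 (ht ▸ dvd_sub (hspan A hA) (hspan B hB))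

/-- **Transfer**: divisibility and bounds at all places give them at all valuations of `F₁` trivial
on constants. -/
theorem IsForm.exists_pow_and_bound {K₁ : Subfield K} {F₁ : Subfield F} (h : IsForm K₁ F₁)
    (w : Valuation F₁ (WithZero (Multiplicative ℤ)))
    (hw : ∀ (c : K) (hc : c ∈ K₁), w ⟨algebraMap K F c, h.const c hc⟩ ≤ 1)
    {f : F₁} (hf : f ≠ 0) {p : ℕ} (hdiv : ∀ v : Place K F, (p : ℤ) ∣ v.ord (f : F))
    {j : F₁} {N : ℕ}
    (hbd : ∀ v : Place K F, 0 ≤ v.ord (f : F) ∨
      (v.ord (j : F) < 0 ∧ (N : ℤ) * v.ord (j : F) ≤ v.ord (f : F))) :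
    (p : ℤ) ∣ WithZero.log (w f) ∧ w f ≤ max 1 (w j) ^ N := by
  classical
  let R₁ : Subring F := w.valuationSubring.toSubring.map F₁.subtype
  let e : w.valuationSubring →+* R₁ :=
    { toFun := fun x => ⟨((x : F₁) : F), ⟨x, x.2, rfl⟩⟩
      map_one' := rfl
      map_mul' := fun _ _ => rfl
      map_zero' := rfl
      map_add' := fun _ _ => rfl }
  have hesurj : Function.Surjective e := fun ⟨_, y, hy, rfl⟩ => ⟨⟨y, hy⟩, rfl⟩
  have heinj : Function.Injective e := fun x y hxy => by
    exact Subtype.ext (Subtype.ext (congrArg (fun z : R₁ => (z : F)) hxy))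
  let I : Ideal R₁ := (IsLocalRing.maximalIdeal w.valuationSubring).map e
  have hI : I ≠ ⊤ := by
    intro htop
    have h1 : (1 : R₁) ∈ I := htop ▸ Submodule.mem_top
    obtain ⟨x, hx, hx1⟩ := (Ideal.mem_map_iff_of_surjective e hesurj).mp h1
    rw [← map_one e] at hx1
    exact (IsLocalRing.maximalIdeal.isMaximal _).ne_top
      ((Ideal.eq_top_iff_one _).mpr (heinj hx1 ▸ hx))
  obtain ⟨V, hV, hVn⟩ := Ideal.image_subset_nonunits_valuationSubring I hI
  have hin : ∀ x : F₁, w x ≤ 1 → (x : F) ∈ V := fun x hx => hV ⟨x, hx, rfl⟩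
  have hout : ∀ x : F₁, 1 < w x → (x : F) ∉ V := fun x hx hmem => by
    have hx0 : x ≠ 0 := fun e0 => by simp [e0] at hx
    have hinv : w x⁻¹ < 1 := by rw [map_inv₀]; exact inv_lt_one_of_one_lt₀ hx
    have hmax : (⟨x⁻¹, hinv.le⟩ : w.valuationSubring) ∈ IsLocalRing.maximalIdeal _ := by
      rw [IsLocalRing.mem_maximalIdeal, mem_nonunits_iff]
      intro hu
      obtain ⟨y, hy⟩ := hu.exists_right_inv
      have h1 : (x⁻¹ : F₁) * (y : F₁) = 1 := congrArg Subtype.val hy
      have h2 : w x⁻¹ * w (y : F₁) = 1 := by rw [← map_mul, h1, map_one]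
      exact absurd h2 (mul_lt_one_of_lt_of_le hinv y.2).ne
    have hnu : ((x⁻¹ : F₁) : F) ∈ V.nonunits :=
      hVn ⟨e ⟨x⁻¹, hinv.le⟩, Ideal.mem_map_of_mem e hmax, rfl⟩
    rcases (ValuationSubring.mem_nonunits_iff_or _).mp hnu with h0 | h0
    · exact inv_ne_zero hx0 (Subtype.ext h0)
    · exact h0 (by simpa using hmem)
  have hunit : ∀ x : F₁, x ≠ 0 → (x : F) ∈ V → (x : F)⁻¹ ∈ V → w x = 1 := fun x hx0 h1 h2 => by
    refine le_antisymm (not_lt.mp fun hlt => hout x hlt h1) (not_lt.mp fun hlt => hout x⁻¹ ?_ ?_)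
    · rw [map_inv₀]
      exact one_lt_inv₀ ((Valuation.pos_iff w).mpr hx0) |>.mpr hlt
    · simpa using h2
  have hK : ∀ c : K, algebraMap K F c ∈ V := fun c => by
    obtain ⟨P, hP, hPc⟩ := (h.alg c).isIntegral
    let φ : K₁ →+* V :=
      RingHom.codRestrict ((algebraMap K F).comp K₁.subtype) V fun a => hin ⟨_, h.const _ a.2⟩
        (hw _ a.2)
    have hint : IsIntegral V (algebraMap K F c) := ⟨P.map φ, hP.map _, by
      have h1 := congrArg (algebraMap K F) hPc
      rw [map_zero, Polynomial.hom_eval₂] at h1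
      rw [Polynomial.eval₂_map]
      exact h1⟩
    obtain ⟨y, hy⟩ := IsIntegrallyClosed.algebraMap_eq_of_integral hint
    exact hy ▸ y.2
  by_cases htop : V = ⊤
  · have h1 : w f = 1 := hunit f hf (htop ▸ ValuationSubring.mem_top _)
      (htop ▸ ValuationSubring.mem_top _)
    rw [h1]
    exact ⟨by simp, one_le_pow₀ (le_max_left _ _)⟩
  obtain ⟨v, hv⟩ : ∃ v : Place K F, v.toValuationSubring = V :=
    ⟨⟨V, hK, htop, isPrincipalIdealRing_valuationSubring_of_ne_top V hK⟩, rfl⟩
  obtain ⟨x, hx, hx0, hx1⟩ := h.exists_ord_eq_one v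
  set x' : F₁ := ⟨x, hx⟩
  have hx'0 : x' ≠ 0 := fun e0 => hx0 (congrArg Subtype.val e0)
  have key : ∀ g : F₁, g ≠ 0 → w g = w x' ^ v.ord (g : F) := fun g hg => by
    have hg0 : (g : F) ≠ 0 := fun e0 => hg (Subtype.ext e0)
    have hy0 : g / x' ^ v.ord (g : F) ≠ 0 := div_ne_zero hg (zpow_ne_zero _ hx'0)
    have hyF : ((g / x' ^ v.ord (g : F) : F₁) : F) = (g : F) / x ^ v.ord (g : F) := by
      rw [show ((g / x' ^ v.ord (g : F) : F₁) : F) = F₁.subtype (g / x' ^ v.ord (g : F)) from rfl,
        map_div₀, map_zpow₀]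
      rfl
    have hord : v.ord ((g / x' ^ v.ord (g : F) : F₁) : F) = 0 := by
      rw [hyF, ord_div v hg0 (zpow_ne_zero _ hx0), v.ord_zpow, hx1, mul_one, sub_self]
    have hy1 := hunit _ hy0 (hv ▸ (mem_toValuationSubring_iff v).mpr
      (mem_ordGE_of_le_ord v hord.ge)) (hv ▸ (mem_toValuationSubring_iff v).mpr
      (mem_ordGE_of_le_ord v (by rw [v.ord_inv, hord]; rfl)))
    rwa [map_div₀, map_zpow₀, div_eq_one_iff_eq (zpow_ne_zero _
      ((Valuation.ne_zero_iff w).mpr hx'0))] at hy1
  refine ⟨?_, ?_⟩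
  · rw [key f hf, WithZero.log_zpow, smul_eq_mul]
    exact (hdiv v).mul_right _
  · rcases hbd v with h0 | ⟨hj0, hjN⟩
    · refine le_trans ?_ (one_le_pow₀ (le_max_left 1 (w j)))
      refine not_lt.mp fun hlt => hout f hlt ?_
      exact hv ▸ (mem_toValuationSubring_iff v).mpr (mem_ordGE_of_le_ord v h0)
    · have hj : j ≠ 0 := fun e0 => by simp [e0] at hj0
      have hxle : w x' ≤ 1 := by
        refine not_lt.mp fun hlt => hout x' hlt ?_
        exact hv ▸ (mem_toValuationSubring_iff v).mpr (mem_ordGE_of_le_ord v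
          (by rw [hx1]; norm_num))
      refine le_trans ?_ (pow_le_pow_left₀ zero_le (le_max_right 1 (w j)) N)
      rw [key f hf, key j hj, ← zpow_natCast, ← zpow_mul, mul_comm]
      exact zpow_le_zpow_right_of_le_one₀ ((Valuation.pos_iff w).mpr hx'0) hxle hjN

end Fermat.Agent.LevelLowerP
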